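import Mathlib

set_option autoImplicit false

noncomputable section

namespace Fermat.Agent.H22

/-- Abstract lifting principle: let `ρ : A → End_K V` be an injective ring homomorphism from a
commutative ring into the endomorphisms of a finite-dimensional space over an algebraically closed
field.  Every prime ideal of `A` contains the kernel of a character `χ` of `A` which has a nonzero
simultaneous eigenvector in `V`. -/
theorem exists_character_of_prime {K V A : Type*} [Field K] [IsAlgClosed K] [AddCommGroup V]
    [Module K V] [FiniteDimensional K V] [CommRing A] (ρ : A →+* Module.End K V)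
    (hρ : Function.Injective ρ) (P : Ideal A) [hP : P.IsPrime] :
    ∃ (χ : A →+* K) (v : V), v ≠ 0 ∧ (∀ a, ρ a v = χ a • v) ∧ RingHom.ker χ ≤ P := by
  classical
  set B : Subalgebra K (Module.End K V) := Algebra.adjoin K (Set.range ρ) with hB
  have hcomm : ∀ x ∈ Set.range ρ, ∀ y ∈ Set.range ρ, x * y = y * x := by
    rintro _ ⟨a, rfl⟩ _ ⟨b, rfl⟩
    rw [← map_mul, mul_comm, map_mul]
  let _ : CommRing B :=
    { (inferInstance : Ring B) with
      mul_comm := fun x y => (Algebra.isMulCommutative_adjoin K hcomm).is_comm.comm x y }
  have : FiniteDimensional K B := inferInstance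
  have : IsArtinianRing B := IsArtinianRing.of_finite K B
  let r : A →+* B :=
    ρ.codRestrict B.toSubsemiring (fun a => Algebra.subset_adjoin ⟨a, rfl⟩)
  have hrρ : ∀ a, ((r a : B) : Module.End K V) = ρ a := fun a => rfl
  have hr : Function.Injective r := fun a b h => hρ (congrArg Subtype.val h)
  obtain ⟨M, hM, hMprime, hMP⟩ := Ideal.exists_ideal_comap_le_prime (f := r) P (⊥ : Ideal B) (by
    intro a ha
    have : r a = 0 := by simpa using ha
    have : a = 0 := hr (by rw [this, map_zero])
    rw [this]; exact P.zero_mem)
  -- residue field is `K`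
  have : M.IsMaximal := IsArtinianRing.isMaximal_of_isPrime M
  have hbij : Function.Bijective (algebraMap K (B ⧸ M)) := by
    have : Algebra.IsIntegral K (B ⧸ M) := inferInstance
    exact IsAlgClosed.algebraMap_bijective_of_isIntegral
  let e : K ≃+* (B ⧸ M) := RingEquiv.ofBijective (algebraMap K (B ⧸ M)) hbij
  -- `V` as a `B`-module
  have hfin : Module.Finite B V := Module.Finite.of_restrictScalars_finite K B V
  have hann : Module.annihilator B V = ⊥ := by
    rw [eq_bot_iff]
    intro b hb
    rw [Module.mem_annihilator] at hb
    rw [Ideal.mem_bot]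
    apply Subtype.ext
    apply LinearMap.ext
    intro v
    exact hb v
  have hMass : M ∈ associatedPrimes B V := by
    apply Module.associatedPrimes.minimalPrimes_annihilator_subset_associatedPrimes
    apply IsArtinianRing.mem_minimalPrimes
    rw [hann]
    exact bot_le
  obtain ⟨-, v, hv⟩ := isAssociatedPrime_iff.mp hMass
  have hmem : ∀ b : B, b ∈ M ↔ (b : Module.End K V) v = 0 := by
    intro b
    rw [hv, Submodule.mem_colon_singleton, Submodule.mem_bot]
    rfl
  refine ⟨(e.symm : (B ⧸ M) →+* K).comp ((Ideal.Quotient.mk M).comp r), v, ?_, ?_, ?_⟩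
  · rintro rfl
    apply hMprime.ne_top
    rw [Ideal.eq_top_iff_one, hmem]
    simp
  · intro a
    set c := ((e.symm : (B ⧸ M) →+* K).comp ((Ideal.Quotient.mk M).comp r)) a with hc
    have h1 : e c = Ideal.Quotient.mk M (r a) := by
      rw [hc]
      simp
    have h2 : Ideal.Quotient.mk M (r a - algebraMap K B c) = 0 := by
      rw [map_sub, ← h1]
      rw [sub_eq_zero]
      rfl
    rw [Ideal.Quotient.eq_zero_iff_mem, hmem] at h2
    have h3 : ρ a v - c • v = 0 := by
      rw [← hrρ]
      simpa using h2
    exact sub_eq_zero.mp h3
  · intro a ha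
    apply hMP
    rw [Ideal.mem_comap, ← Ideal.Quotient.eq_zero_iff_mem]
    have : e.symm (Ideal.Quotient.mk M (r a)) = 0 := by simpa using ha
    simpa using this

end Fermat.Agent.H22
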