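import Fermat.Prelude.Def_CuspForm_HeckeLocal
import Fermat.Prelude.Def_CuspForm_HeckeEvalForms
import Fermat.Prelude.Thm_ModularFormClass_qCoeff_heckeT
import Fermat.Prelude.Thm_ModularFormClass_qCoeff_heckeU
import Fermat.Prelude.Thm_CongruenceSubgroup_one_mem_strictPeriods_Gamma0
import Fermat.Prelude.Thm_ModularForm_sturm_bound_Gamma0
import Fermat.Agent.H22.Character

set_option autoImplicit false

noncomputable section

namespace Fermat.Agent.H22

open ModularFormClass ModularForm CongruenceSubgroup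

/-! ### Formal consequences of Hecke relations -/

section Formal

variable {R : Type*} [CommRing R] {c e lam : ℕ → R}

theorem formal_prime (h : ∀ ℓ : ℕ, ℓ.Prime → ∀ n : ℕ,
    c (n * ℓ) + (if ℓ ∣ n then e ℓ * c (n / ℓ) else 0) = lam ℓ * c n) {ℓ : ℕ} (hℓ : ℓ.Prime) :
    c ℓ = lam ℓ * c 1 := by
  have := h ℓ hℓ 1
  rw [one_mul, if_neg (by simpa using hℓ.one_lt.ne'), add_zero] at this
  exact this

theorem formal_eq_zero (h : ∀ ℓ : ℕ, ℓ.Prime → ∀ n : ℕ,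
    c (n * ℓ) + (if ℓ ∣ n then e ℓ * c (n / ℓ) else 0) = lam ℓ * c n) (h1 : c 1 = 0)
    (n : ℕ) (hn : n ≠ 0) : c n = 0 := by
  induction n using Nat.strong_induction_on with
  | _ n ih =>
    rcases eq_or_ne n 1 with rfl | hn1
    · exact h1
    · obtain ⟨ℓ, hℓ, m, rfl⟩ := Nat.exists_prime_and_dvd hn1
      have hm : m ≠ 0 := by rintro rfl; simp at hn
      have hmlt : m < ℓ * m := by
        nlinarith [hℓ.one_lt, Nat.pos_of_ne_zero hm]
      have h2 := h ℓ hℓ m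
      rw [ih m hmlt hm, mul_zero, mul_comm m ℓ] at h2
      split_ifs at h2 with hd
      · obtain ⟨k, rfl⟩ := hd
        have hk : k ≠ 0 := by rintro rfl; simp at hm
        rw [Nat.mul_div_cancel_left _ hℓ.pos, ih k _ hk, mul_zero, add_zero] at h2
        · exact h2
        · calc k ≤ ℓ * k := Nat.le_mul_of_pos_left k hℓ.pos
            _ < ℓ * (ℓ * k) := hmlt
      · simpa using h2

theorem formal_mul_of_coprime (h : ∀ ℓ : ℕ, ℓ.Prime → ∀ n : ℕ,
    c (n * ℓ) + (if ℓ ∣ n then e ℓ * c (n / ℓ) else 0) = lam ℓ * c n)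
    (m n : ℕ) (hmn : m.Coprime n) : c (m * n) * c 1 = c m * c n := by
  induction m using Nat.strong_induction_on with
  | _ m ih =>
    rcases Nat.eq_zero_or_pos m with rfl | hmpos
    · rw [Nat.coprime_zero_left] at hmn
      subst hmn
      simp
    rcases eq_or_ne m 1 with rfl | hm1
    · rw [one_mul, mul_comm]
    · obtain ⟨ℓ, hℓ, m, rfl⟩ := Nat.exists_prime_and_dvd hm1
      have hm : 0 < m := Nat.pos_of_ne_zero (by rintro rfl; simp at hmpos)
      have hmlt : m < ℓ * m := by nlinarith [hℓ.one_lt, hm]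
      have hℓn : ¬ ℓ ∣ n := fun hd => by
        have := Nat.Coprime.eq_one_of_dvd (hmn.coprime_mul_right) hd
        exact hℓ.one_lt.ne' this
      have hmn' : m.Coprime n := hmn.coprime_mul_left
      have h1 := h ℓ hℓ m
      have h2 := h ℓ hℓ (m * n)
      rw [mul_comm ℓ m, mul_assoc, mul_comm ℓ n, ← mul_assoc]
      have ih1 := ih m hmlt hmn'
      by_cases hd : ℓ ∣ m
      · obtain ⟨k, rfl⟩ := hd
        rw [if_pos (dvd_mul_right _ _), Nat.mul_div_cancel_left _ hℓ.pos] at h1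
        rw [if_pos ⟨k * n, by ring⟩, mul_assoc ℓ k n, Nat.mul_div_cancel_left _ hℓ.pos] at h2
        have hklt : k < ℓ * (ℓ * k) :=
          lt_of_le_of_lt (Nat.le_mul_of_pos_left k hℓ.pos) hmlt
        have ih2 := ih k hklt hmn'.coprime_mul_left
        rw [mul_assoc ℓ k n] at ih1 ⊢
        linear_combination c 1 * h2 - c n * h1 + lam ℓ * ih1 - e ℓ * ih2
      · rw [if_neg hd] at h1
        have hd' : ¬ ℓ ∣ m * n := fun hh => (hℓ.dvd_mul.mp hh).elim hd hℓn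
        rw [if_neg hd'] at h2
        linear_combination c 1 * h2 - c n * h1 + lam ℓ * ih1

end Formal

/-! ### `q`-coefficients of cusp forms on `Γ₀(N)` -/

section QCoeff

variable {N : ℕ} {k : ℤ}

theorem cusp_qCoeff_add (f g : CuspForm (Gamma0 N) k) (n : ℕ) :
    qCoeff ⇑(f + g) n = qCoeff ⇑f n + qCoeff ⇑g n := by
  simp only [qCoeff, FunLike.coe_add]
  rw [ModularForm.qExpansion_add one_pos (one_mem_strictPeriods_Gamma0 N) f g, map_add]

theorem cusp_qCoeff_smul (a : ℂ) (f : CuspForm (Gamma0 N) k) (n : ℕ) :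
    qCoeff ⇑(a • f) n = a * qCoeff ⇑f n := by
  simp only [qCoeff, FunLike.coe_smul]
  rw [ModularForm.qExpansion_smul one_pos (one_mem_strictPeriods_Gamma0 N) a f]
  simp

variable (N k) in
/-- The `n`-th coefficient as a linear functional. -/
def qCoeffLin (n : ℕ) : CuspForm (Gamma0 N) k →ₗ[ℂ] ℂ where
  toFun f := qCoeff ⇑f n
  map_add' f g := cusp_qCoeff_add f g n
  map_smul' a f := cusp_qCoeff_smul a f n

@[simp] theorem qCoeffLin_apply (n : ℕ) (f : CuspForm (Gamma0 N) k) :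
    qCoeffLin N k n f = qCoeff ⇑f n := rfl

theorem cusp_qCoeff_sub (f g : CuspForm (Gamma0 N) k) (n : ℕ) :
    qCoeff ⇑(f - g) n = qCoeff ⇑f n - qCoeff ⇑g n :=
  map_sub (qCoeffLin N k n) f g

theorem cusp_qCoeff_zsmul (a : ℤ) (f : CuspForm (Gamma0 N) k) (n : ℕ) :
    qCoeff ⇑(a • f) n = a * qCoeff ⇑f n := by
  exact (map_zsmul (qCoeffLin N k n) a f).trans (zsmul_eq_mul _ _)

theorem cusp_qCoeff_zero (f : CuspForm (Gamma0 N) k) : qCoeff ⇑f 0 = 0 := by
  unfold qCoeff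
  exact CuspFormClass.qExpansion_coeff_zero f one_pos (one_mem_strictPeriods_Gamma0 N)

/-- `q`-expansion principle (a cusp form with vanishing coefficients is zero). -/
theorem cusp_eq_zero_of_qCoeff [NeZero N] (f : CuspForm (Gamma0 N) k)
    (h : ∀ n ≤ (k * (Gamma0 N).index).toNat / 12, qCoeff ⇑f n = 0) : f = 0 := by
  have hmf : (ModularFormClass.modularForm f : ModularForm (Gamma0 N) k) = 0 := by
    refine ModularForm.sturm_bound_Gamma0 N _ fun n hn ↦ ?_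
    have := h n hn
    simpa [qCoeff] using this
  have hcoe : (⇑f : UpperHalfPlane → ℂ) = 0 := by
    have := congrArg (fun F : ModularForm (Gamma0 N) k ↦ (⇑F : UpperHalfPlane → ℂ)) hmf
    simpa using this
  exact DFunLike.coe_injective (hcoe.trans FunLike.coe_zero.symm)

theorem finiteDimensional_cuspForm (N : ℕ) [NeZero N] (k : ℤ) :
    FiniteDimensional ℂ (CuspForm (Gamma0 N) k) := by
  let Φ : CuspForm (Gamma0 N) k →ₗ[ℂ] (Fin ((k * (Gamma0 N).index).toNat / 12 + 1) → ℂ) :=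
    LinearMap.pi fun i => qCoeffLin N k i
  refine FiniteDimensional.of_injective Φ ((injective_iff_map_eq_zero Φ).mpr fun f hf => ?_)
  refine cusp_eq_zero_of_qCoeff f fun n hn => ?_
  exact congrFun hf ⟨n, Nat.lt_succ_of_le hn⟩

theorem mem_intLattice_iff (f : CuspForm (Gamma0 N) k) :
    f ∈ CuspForm.intLattice N k ↔ ∀ n : ℕ, ∃ m : ℤ, qCoeff ⇑f n = (m : ℂ) := by
  constructor
  · intro hf
    unfold CuspForm.intLattice at hf
    induction hf using Submodule.span_induction with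
    | mem x h => exact h
    | zero => intro n; exact ⟨0, by simpa using (map_zero (qCoeffLin N k n))⟩
    | add x y _ _ hx hy =>
      intro n
      obtain ⟨a, ha⟩ := hx n
      obtain ⟨b, hb⟩ := hy n
      exact ⟨a + b, by rw [cusp_qCoeff_add, ha, hb]; push_cast; ring⟩
    | smul a x _ hx =>
      intro n
      obtain ⟨b, hb⟩ := hx n
      exact ⟨a * b, by rw [cusp_qCoeff_zsmul, hb]; push_cast; ring⟩
  · intro h
    exact Submodule.subset_span h

theorem qCoeff_heckeTLin {p : ℕ} (hp : p.Prime) (hpN : ¬ p ∣ N) (f : CuspForm (Gamma0 N) k)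
    (n : ℕ) : qCoeff ⇑(CuspForm.heckeTLin k hp hpN f) n = coeffHeckeT k p (qCoeff ⇑f) n := by
  rw [CuspForm.coe_heckeTLin_apply]
  exact ModularFormClass.qCoeff_heckeT f (one_mem_strictPeriods_Gamma0 N) hp.ne_zero n

theorem qCoeff_heckeULin [NeZero N] {p : ℕ} (hpN : p ∣ N) (f : CuspForm (Gamma0 N) k)
    (n : ℕ) : qCoeff ⇑(CuspForm.heckeULin k hpN f) n = coeffHeckeU p (qCoeff ⇑f) n := by
  rw [CuspForm.coe_heckeULin_apply]
  refine ModularFormClass.qCoeff_heckeU f (one_mem_strictPeriods_Gamma0 N) ?_ n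
  rintro rfl
  exact NeZero.ne N (zero_dvd_iff.mp hpN)

end QCoeff

/-! ### Simultaneous eigenvectors give normalised eigenforms -/

section Eigen

variable {N : ℕ} [NeZero N]

/-- The Hecke relations satisfied by the coefficients of a simultaneous eigenvector. -/
theorem eigen_relations {v : CuspForm (Gamma0 N) 2} {lam : ℕ → ℂ}
    (hT : ∀ (ℓ : ℕ) (hℓ : ℓ.Prime) (hℓN : ¬ ℓ ∣ N), CuspForm.heckeTLin 2 hℓ hℓN v = lam ℓ • v)
    (hU : ∀ (ℓ : ℕ) (_ : ℓ.Prime) (hℓN : ℓ ∣ N), CuspForm.heckeULin 2 hℓN v = lam ℓ • v)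
    (ℓ : ℕ) (hℓ : ℓ.Prime) (n : ℕ) :
    qCoeff ⇑v (n * ℓ) + (if ℓ ∣ n then (if ℓ ∣ N then 0 else (ℓ : ℂ)) * qCoeff ⇑v (n / ℓ) else 0)
      = lam ℓ * qCoeff ⇑v n := by
  by_cases hN : ℓ ∣ N
  · have h1 := congrArg (fun g : CuspForm (Gamma0 N) 2 => qCoeff ⇑g n) (hU ℓ hℓ hN)
    simp only [qCoeff_heckeULin, cusp_qCoeff_smul, coeffHeckeU_apply] at h1
    rw [if_pos hN, h1]
    simp
  · have h1 := congrArg (fun g : CuspForm (Gamma0 N) 2 => qCoeff ⇑g n) (hT ℓ hℓ hN)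
    simp only [qCoeff_heckeTLin, cusp_qCoeff_smul, coeffHeckeT_apply] at h1
    rw [if_neg hN, ← h1]
    norm_num

/-- A nonzero simultaneous eigenvector has nonzero first coefficient. -/
theorem eigen_qCoeff_one_ne_zero {v : CuspForm (Gamma0 N) 2} {lam : ℕ → ℂ} (hv : v ≠ 0)
    (hT : ∀ (ℓ : ℕ) (hℓ : ℓ.Prime) (hℓN : ¬ ℓ ∣ N), CuspForm.heckeTLin 2 hℓ hℓN v = lam ℓ • v)
    (hU : ∀ (ℓ : ℕ) (_ : ℓ.Prime) (hℓN : ℓ ∣ N), CuspForm.heckeULin 2 hℓN v = lam ℓ • v) :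
    qCoeff ⇑v 1 ≠ 0 := by
  intro h1
  apply hv
  refine cusp_eq_zero_of_qCoeff v fun n _ => ?_
  rcases eq_or_ne n 0 with rfl | hn
  · exact cusp_qCoeff_zero v
  · exact formal_eq_zero (eigen_relations hT hU) h1 n hn

/-- A simultaneous eigenvector with first coefficient one is a normalised eigenform, and its prime
coefficients are its eigenvalues. -/
theorem isNormalizedEigenform_of_eigen {v : CuspForm (Gamma0 N) 2} {lam : ℕ → ℂ}
    (hv : qCoeff ⇑v 1 = 1)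
    (hT : ∀ (ℓ : ℕ) (hℓ : ℓ.Prime) (hℓN : ¬ ℓ ∣ N), CuspForm.heckeTLin 2 hℓ hℓN v = lam ℓ • v)
    (hU : ∀ (ℓ : ℕ) (_ : ℓ.Prime) (hℓN : ℓ ∣ N), CuspForm.heckeULin 2 hℓN v = lam ℓ • v) :
    v.IsNormalizedEigenform ∧ ∀ ℓ : ℕ, ℓ.Prime → qCoeff ⇑v ℓ = lam ℓ := by
  have hrel := eigen_relations hT hU
  have hlam : ∀ ℓ : ℕ, ℓ.Prime → qCoeff ⇑v ℓ = lam ℓ := fun ℓ hℓ => by
    rw [formal_prime hrel hℓ, hv, mul_one]
  refine ⟨⟨hv, fun m n hmn => ?_, fun p r hp hpN => ?_, fun p r hp hpN => ?_⟩, hlam⟩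
  · have := formal_mul_of_coprime hrel m n hmn
    rwa [hv, mul_one] at this
  · have h1 := hrel p hp (p ^ (r + 1))
    rw [if_pos (dvd_pow_self p (Nat.succ_ne_zero r)), if_neg hpN, ← hlam p hp, ← pow_succ,
      pow_succ p r, Nat.mul_div_cancel _ hp.pos, ← pow_succ] at h1
    exact eq_sub_of_add_eq h1
  · have h1 := hrel p hp (p ^ (r + 1))
    rw [if_pos (dvd_pow_self p (Nat.succ_ne_zero r)), if_pos hpN, ← hlam p hp, ← pow_succ,
      zero_mul, add_zero] at h1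
    exact h1

/-! ### Prime ideals of the Hecke algebra give eigenforms -/

/-- The Hecke eigenvalue at a prime `ℓ` (of `T_ℓ` or `U_ℓ`) of a character of the full Hecke
algebra (junk value `0` if `ℓ` is not prime). -/
def charEigenvalue {R : Type*} [CommRing R] (χ : CuspForm.heckeAlgebra N 2 ∅ →+* R) (ℓ : ℕ) : R :=
  if hℓ : ℓ.Prime then χ (CuspForm.heckeFormsGen N 2 ⟨ℓ, hℓ⟩) else 0

theorem charEigenvalue_of_not_dvd {R : Type*} [CommRing R]
    (χ : CuspForm.heckeAlgebra N 2 ∅ →+* R) {ℓ : ℕ} (hℓ : ℓ.Prime) (hN : ¬ ℓ ∣ N) :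
    charEigenvalue χ ℓ = χ (CuspForm.heckeAlgebra.T hℓ hN (Set.notMem_empty _)) := by
  rw [charEigenvalue, dif_pos hℓ, CuspForm.heckeFormsGen_of_not_dvd (ℓ := ⟨ℓ, hℓ⟩) hN]

theorem charEigenvalue_of_dvd {R : Type*} [CommRing R]
    (χ : CuspForm.heckeAlgebra N 2 ∅ →+* R) {ℓ : ℕ} (hℓ : ℓ.Prime) (hN : ℓ ∣ N) :
    charEigenvalue χ ℓ = χ (CuspForm.heckeAlgebra.U hℓ hN (Set.notMem_empty _)) := by
  rw [charEigenvalue, dif_pos hℓ, CuspForm.heckeFormsGen_of_dvd (q := ⟨ℓ, hℓ⟩) hN]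

/-- Every prime ideal `P` of the weight two Hecke algebra of level `N` contains the kernel of the
character of a normalised eigenform. -/
theorem exists_eigenform_of_prime (P : Ideal (CuspForm.heckeAlgebra N 2 ∅)) [P.IsPrime] :
    ∃ (χ : CuspForm.heckeAlgebra N 2 ∅ →+* ℂ) (f : CuspForm (Gamma0 N) 2),
      f.IsNormalizedEigenform ∧
      (∀ t : CuspForm.heckeAlgebra N 2 ∅, (t : Module.End ℂ _) f = χ t • f) ∧
      (∀ ℓ : ℕ, ℓ.Prime → qCoeff ⇑f ℓ = charEigenvalue χ ℓ) ∧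
      RingHom.ker χ ≤ P := by
  have := finiteDimensional_cuspForm N 2
  let ρ : CuspForm.heckeAlgebra N 2 ∅ →+* Module.End ℂ (CuspForm (Gamma0 N) 2) :=
    (CuspForm.heckeAlgebra N 2 ∅).val.toRingHom
  have hρ : Function.Injective ρ := Subtype.val_injective
  obtain ⟨χ, v, hv, hχ, hker⟩ := exists_character_of_prime ρ hρ P
  have hχ' : ∀ t : CuspForm.heckeAlgebra N 2 ∅, (t : Module.End ℂ _) v = χ t • v := hχ
  have hT : ∀ (ℓ : ℕ) (hℓ : ℓ.Prime) (hℓN : ¬ ℓ ∣ N),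
      CuspForm.heckeTLin 2 hℓ hℓN v = charEigenvalue χ ℓ • v := fun ℓ hℓ hℓN => by
    rw [charEigenvalue_of_not_dvd χ hℓ hℓN]
    exact hχ' (CuspForm.heckeAlgebra.T hℓ hℓN (Set.notMem_empty _))
  have hU : ∀ (ℓ : ℕ) (_ : ℓ.Prime) (hℓN : ℓ ∣ N),
      CuspForm.heckeULin 2 hℓN v = charEigenvalue χ ℓ • v := fun ℓ hℓ hℓN => by
    rw [charEigenvalue_of_dvd χ hℓ hℓN]
    exact hχ' (CuspForm.heckeAlgebra.U hℓ hℓN (Set.notMem_empty _))
  have h1 : qCoeff ⇑v 1 ≠ 0 := eigen_qCoeff_one_ne_zero hv hT hU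
  set f : CuspForm (Gamma0 N) 2 := (qCoeff ⇑v 1)⁻¹ • v with hf
  have hf1 : qCoeff ⇑f 1 = 1 := by
    rw [hf, cusp_qCoeff_smul, inv_mul_cancel₀ h1]
  have hT' : ∀ (ℓ : ℕ) (hℓ : ℓ.Prime) (hℓN : ¬ ℓ ∣ N),
      CuspForm.heckeTLin 2 hℓ hℓN f = charEigenvalue χ ℓ • f := fun ℓ hℓ hℓN => by
    rw [hf, map_smul, hT ℓ hℓ hℓN, smul_comm]
  have hU' : ∀ (ℓ : ℕ) (_ : ℓ.Prime) (hℓN : ℓ ∣ N),
      CuspForm.heckeULin 2 hℓN f = charEigenvalue χ ℓ • f := fun ℓ hℓ hℓN => by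
    rw [hf, map_smul, hU ℓ hℓ hℓN, smul_comm]
  obtain ⟨hnorm, hlam⟩ := isNormalizedEigenform_of_eigen hf1 hT' hU'
  refine ⟨χ, f, hnorm, fun t => ?_, hlam, hker⟩
  rw [hf, map_smul, hχ' t, smul_comm]

/-- The full Hecke algebra of weight two is integral over `ℤ` (given an integral structure). -/
theorem heckeAlgebra_isIntegral (S : Set ℕ) (hint : CuspForm.HasIntegralStructure N 2) :
    Algebra.IsIntegral ℤ (CuspForm.heckeAlgebra N 2 S) := by
  have h2 : Algebra.IsIntegral ℤ (CuspForm.heckeLatticeAlgebra N S) :=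
    Algebra.IsIntegral.of_finite ℤ _
  let e : CuspForm.heckeAlgebra N 2 S ≃ₐ[ℤ] CuspForm.heckeLatticeAlgebra N S :=
    AlgEquiv.ofBijective _ (CuspForm.latticeRestrictHom_bijective N S hint)
  exact Algebra.IsIntegral.of_injective e.toAlgHom e.injective

/-- Integral version of `exists_eigenform_of_prime`: the character takes values in the ring of
algebraic integers, and `P` is the contraction of a maximal ideal if `P` is maximal. -/
theorem exists_integral_eigenform_of_prime (hint : CuspForm.HasIntegralStructure N 2)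
    (P : Ideal (CuspForm.heckeAlgebra N 2 ∅)) [P.IsPrime] :
    ∃ (χ : CuspForm.heckeAlgebra N 2 ∅ →+* integralClosure ℤ ℂ) (f : CuspForm (Gamma0 N) 2)
      (Q : Ideal (integralClosure ℤ ℂ)),
      f.IsNormalizedEigenform ∧
      (∀ t : CuspForm.heckeAlgebra N 2 ∅,
        (t : Module.End ℂ (CuspForm (Gamma0 N) 2)) f = ((χ t : integralClosure ℤ ℂ) : ℂ) • f) ∧
      (∀ ℓ : ℕ, ℓ.Prime → qCoeff ⇑f ℓ = ((charEigenvalue χ ℓ : integralClosure ℤ ℂ) : ℂ)) ∧
      Q.IsPrime ∧ Q.comap χ = P := by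
  obtain ⟨χ, f, hf, hχ, hlam, hker⟩ := exists_eigenform_of_prime (N := N) P
  have hI := heckeAlgebra_isIntegral (N := N) ∅ hint
  have hmem : ∀ t, χ t ∈ integralClosure ℤ ℂ := fun t => by
    have h1 : IsIntegral ℤ t := Algebra.IsIntegral.isIntegral t
    exact h1.map χ.toIntAlgHom
  let χ' : CuspForm.heckeAlgebra N 2 ∅ →+* integralClosure ℤ ℂ :=
    χ.codRestrict (integralClosure ℤ ℂ).toSubsemiring hmem
  have hχ' : ∀ t, ((χ' t : integralClosure ℤ ℂ) : ℂ) = χ t := fun t => rfl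
  have hker' : RingHom.ker χ' ≤ P := fun t ht => hker (by
    rw [RingHom.mem_ker] at ht ⊢
    rw [← hχ', ht]
    rfl)
  let _ : Algebra (CuspForm.heckeAlgebra N 2 ∅) (integralClosure ℤ ℂ) := χ'.toAlgebra
  have : Algebra.IsIntegral (CuspForm.heckeAlgebra N 2 ∅) (integralClosure ℤ ℂ) := by
    have : IsScalarTower ℤ (CuspForm.heckeAlgebra N 2 ∅) (integralClosure ℤ ℂ) :=
      IsScalarTower.of_algebraMap_eq' (RingHom.ext_int _ _)
    exact Algebra.IsIntegral.tower_top (R := ℤ)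
  obtain ⟨Q, -, hQ, hQP⟩ := Ideal.exists_ideal_over_prime_of_isIntegral P
    (⊥ : Ideal (integralClosure ℤ ℂ)) (by
      rw [← RingHom.ker_eq_comap_bot]; exact hker')
  refine ⟨χ', f, Q, hf, fun t => ?_, fun ℓ hℓ => ?_, hQ, hQP⟩
  · rw [hχ', hχ t]
  · rw [hlam ℓ hℓ, charEigenvalue, charEigenvalue, dif_pos hℓ, dif_pos hℓ, hχ']

end Eigen

end Fermat.Agent.H22
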