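import Fermat.Agent.H22.Hecke
import Fermat.Prelude.Def_CuspForm_HeckeEvalForms

set_option autoImplicit false

noncomputable section

namespace Fermat.Agent.H22

open CongruenceSubgroup ModularForm ModularFormClass ModularCurve

variable {N : ℕ} [NeZero N]

/-- The coefficients of a normalised eigenform satisfy the Hecke eigenvalue relations. -/
theorem eigenform_coeff {f : CuspForm (Gamma0 N) 2} (hf : f.IsNormalizedEigenform)
    (ℓ : ℕ) (hℓ : ℓ.Prime) (n : ℕ) :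
    qCoeff ⇑f (n * ℓ) + (if ℓ ∣ n then (if ℓ ∣ N then 0 else (ℓ : ℂ)) * qCoeff ⇑f (n / ℓ) else 0)
      = qCoeff ⇑f ℓ * qCoeff ⇑f n := by
  rcases eq_or_ne n 0 with rfl | hn
  · simp [cusp_qCoeff_zero]
  obtain ⟨r, m, hm, rfl⟩ := Nat.exists_eq_pow_mul_and_not_dvd hn ℓ hℓ.ne_one
  have hcop : ∀ s, Nat.Coprime (ℓ ^ s) m := fun s =>
    Nat.Coprime.pow_left s ((Nat.Prime.coprime_iff_not_dvd hℓ).mpr hm)
  have hmul : ∀ s, qCoeff ⇑f (ℓ ^ s * m) = qCoeff ⇑f (ℓ ^ s) * qCoeff ⇑f m := fun s =>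
    hf.qCoeff_mul_of_coprime _ _ (hcop s)
  cases r with
  | zero =>
    rw [pow_zero, one_mul, if_neg hm, add_zero]
    have := hmul 1
    rw [pow_one] at this
    rw [mul_comm m ℓ, this]
  | succ s =>
    have hdvd : ℓ ∣ ℓ ^ (s + 1) * m := Dvd.dvd.mul_right (dvd_pow_self _ (Nat.succ_ne_zero s)) _
    have hdiv : ℓ ^ (s + 1) * m / ℓ = ℓ ^ s * m := by
      rw [pow_succ, mul_assoc, mul_comm ℓ m, ← mul_assoc, Nat.mul_div_cancel _ hℓ.pos]
    have hmulℓ : ℓ ^ (s + 1) * m * ℓ = ℓ ^ (s + 2) * m := by ring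
    rw [if_pos hdvd, hdiv, hmulℓ, hmul, hmul, hmul]
    by_cases hN : ℓ ∣ N
    · rw [if_pos hN, zero_mul, add_zero, hf.qCoeff_prime_pow_of_dvd ℓ s hℓ hN]
      ring
    · rw [if_neg hN, hf.qCoeff_prime_pow_of_not_dvd ℓ s hℓ hN]
      ring

/-- A normalised eigenform is an eigenvector of all Hecke operators. -/
theorem heckeFormsGen_eigenform {f : CuspForm (Gamma0 N) 2} (hf : f.IsNormalizedEigenform)
    (ℓ : Nat.Primes) :
    (CuspForm.heckeFormsGen N 2 ℓ : Module.End ℂ (CuspForm (Gamma0 N) 2)) f =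
      qCoeff ⇑f ℓ • f := by
  rw [← sub_eq_zero]
  refine cusp_eq_zero_of_qCoeff _ fun n _ => ?_
  rw [cusp_qCoeff_sub, cusp_qCoeff_smul, sub_eq_zero, ← eigenform_coeff hf ℓ ℓ.2 n]
  by_cases h : (ℓ : ℕ) ∣ N
  · rw [CuspForm.heckeFormsGen_of_dvd h, CuspForm.heckeAlgebra.coe_U, qCoeff_heckeULin,
      coeffHeckeU_apply]
    simp [h]
  · rw [CuspForm.heckeFormsGen_of_not_dvd h, CuspForm.heckeAlgebra.coe_T, qCoeff_heckeTLin,
      coeffHeckeT_apply]
    simp [h]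

/-- A normalised eigenform is an eigenvector of the abstract Hecke algebra. -/
theorem heckeEvalForms_eigenform {f : CuspForm (Gamma0 N) 2} (hf : f.IsNormalizedEigenform)
    (t : HeckeAlg) :
    (CuspForm.heckeEvalForms N 2 t : Module.End ℂ (CuspForm (Gamma0 N) 2)) f =
      MvPolynomial.aeval (fun ℓ : Nat.Primes => qCoeff ⇑f ℓ) t • f := by
  induction t using MvPolynomial.induction_on with
  | C n =>
    rw [MvPolynomial.aeval_C, CuspForm.heckeEvalForms_C]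
    change ((algebraMap ℤ (Module.End ℂ (CuspForm (Gamma0 N) 2)) n) f) = _
    rw [eq_intCast, Module.End.intCast_apply, eq_intCast, Int.cast_smul_eq_zsmul]
  | add P Q hP hQ =>
    rw [map_add, map_add, add_smul, ← hP, ← hQ]
    rfl
  | mul_X P ℓ hP =>
    have h2 := CuspForm.heckeEvalForms_heckeGen N 2 ℓ
    unfold heckeGen at h2
    rw [map_mul, map_mul, h2, MvPolynomial.aeval_X]
    change (CuspForm.heckeEvalForms N 2 P : Module.End ℂ (CuspForm (Gamma0 N) 2))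
      ((CuspForm.heckeFormsGen N 2 ℓ : Module.End ℂ (CuspForm (Gamma0 N) 2)) f) = _
    rw [heckeFormsGen_eigenform hf, map_smul, hP, smul_smul, mul_comm]

theorem eigenform_ne_zero {f : CuspForm (Gamma0 N) 2} (hf : f.IsNormalizedEigenform) : f ≠ 0 := by
  rintro rfl
  have h := hf.qCoeff_one
  have h2 : qCoeff ⇑(0 : CuspForm (Gamma0 N) 2) 1 = 0 := map_zero (qCoeffLin N 2 1)
  rw [h2] at h
  exact zero_ne_one h

theorem aeval_eq_zero_of_mem_ker {f : CuspForm (Gamma0 N) 2} (hf : f.IsNormalizedEigenform)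
    {t : HeckeAlg} (ht : CuspForm.heckeEvalForms N 2 t = 0) :
    MvPolynomial.aeval (fun ℓ : Nat.Primes => qCoeff ⇑f ℓ) t = 0 := by
  have h := heckeEvalForms_eigenform hf t
  rw [ht] at h
  exact (smul_eq_zero.mp h.symm).resolve_right (eigenform_ne_zero hf)

/-- The annihilator of `S₂` is contained in the ideal attached to an eigenform and a ring
homomorphism from a ring containing the eigenvalues. -/
theorem ker_le_eigenIdeal {f : CuspForm (Gamma0 N) 2} (hf : f.IsNormalizedEigenform)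
    {k : Type*} [CommRing k] (𝒪 : Subring ℂ)
    (h𝒪 : ∀ ℓ : Nat.Primes, ModularFormClass.qCoeff ⇑f ℓ ∈ 𝒪) (φ : 𝒪 →+* k) :
    RingHom.ker (CuspForm.heckeEvalForms N 2) ≤
      eigenIdeal (fun ℓ => φ ⟨ModularFormClass.qCoeff ⇑f ℓ, h𝒪 ℓ⟩) := by
  intro t ht
  rw [RingHom.mem_ker] at ht
  rw [mem_eigenIdeal_iff]
  have h1 : (MvPolynomial.aeval (R := ℤ) (fun ℓ : Nat.Primes =>
      (⟨ModularFormClass.qCoeff ⇑f ℓ, h𝒪 ℓ⟩ : 𝒪)) t) = 0 := by
    apply Subtype.ext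
    have h2 := aeval_eq_zero_of_mem_ker hf ht
    have h3 : 𝒪.subtype (MvPolynomial.aeval (R := ℤ) (fun ℓ : Nat.Primes =>
      (⟨ModularFormClass.qCoeff ⇑f ℓ, h𝒪 ℓ⟩ : 𝒪)) t) =
      MvPolynomial.aeval (fun ℓ : Nat.Primes => qCoeff ⇑f ℓ) t := by
      rw [MvPolynomial.aeval_def, MvPolynomial.aeval_def, MvPolynomial.hom_eval₂]
      congr 1
    rw [h2] at h3
    exact h3
  have h4 : φ (MvPolynomial.aeval (R := ℤ) (fun ℓ : Nat.Primes =>
      (⟨ModularFormClass.qCoeff ⇑f ℓ, h𝒪 ℓ⟩ : 𝒪)) t) =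
      MvPolynomial.aeval (R := ℤ) (fun ℓ : Nat.Primes =>
        φ ⟨ModularFormClass.qCoeff ⇑f ℓ, h𝒪 ℓ⟩) t := by
    rw [MvPolynomial.aeval_def, MvPolynomial.aeval_def, MvPolynomial.hom_eval₂]
    congr 1
    exact RingHom.ext_int _ _
  rw [← h4, h1, map_zero]

end Fermat.Agent.H22
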