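import Fermat.Agent.H22.Eigen
import Fermat.Agent.IntStr.Main

/-!
# Integrality of the coefficients of eigenforms
-/

set_option autoImplicit false

noncomputable section

namespace Fermat.Agent.H22

open CongruenceSubgroup ModularFormClass

variable {N : ℕ} [NeZero N]

theorem isIntegral_qCoeff_prime {f : CuspForm (Gamma0 N) 2} (hf : f.IsNormalizedEigenform)
    {ℓ : ℕ} (hℓ : ℓ.Prime) : IsIntegral ℤ (qCoeff f ℓ) := by
  have hI := heckeAlgebra_isIntegral (N := N) ∅ (IntStr.hasIntegralStructure N 2)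
  obtain ⟨L, hL⟩ : ∃ L : Nat.Primes, L = ⟨ℓ, hℓ⟩ := ⟨_, rfl⟩
  have hLℓ : (L : ℕ) = ℓ := by rw [hL]
  obtain ⟨p, hp, hp2⟩ := hI.isIntegral (CuspForm.heckeFormsGen N 2 L)
  refine ⟨p, hp, ?_⟩
  have h1 := heckeFormsGen_eigenform hf L
  rw [hLℓ] at h1
  have h2 : Polynomial.aeval ((CuspForm.heckeFormsGen N 2 L :
      Module.End ℂ (CuspForm (Gamma0 N) 2))) p = 0 := by
    have h3 := congrArg (Subalgebra.val _) hp2
    rw [← Polynomial.aeval_def, ← Polynomial.aeval_algHom_apply, map_zero] at h3
    exact h3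
  obtain ⟨T, hT⟩ : ∃ T : Module.End ℂ (CuspForm (Gamma0 N) 2),
    T = (CuspForm.heckeFormsGen N 2 L : Module.End ℂ (CuspForm (Gamma0 N) 2)) := ⟨_, rfl⟩
  rw [← hT] at h1 h2
  have h4 : ∀ r : Polynomial ℤ, Polynomial.aeval T r f = Polynomial.aeval (qCoeff f ℓ) r • f := by
    intro r
    induction r using Polynomial.induction_on with
    | C a =>
      rw [Polynomial.aeval_C, Polynomial.aeval_C, eq_intCast, eq_intCast,
        Module.End.intCast_apply, Int.cast_smul_eq_zsmul]
    | add r s hr hs => rw [map_add, map_add, LinearMap.add_apply, hr, hs, add_smul]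
    | monomial n a ih =>
      have e : Polynomial.C a * Polynomial.X ^ (n + 1) =
        (Polynomial.C a * Polynomial.X ^ n) * Polynomial.X := by ring
      rw [e, map_mul (Polynomial.aeval T) (Polynomial.C a * Polynomial.X ^ n) Polynomial.X,
        map_mul (Polynomial.aeval (qCoeff f ℓ)) (Polynomial.C a * Polynomial.X ^ n) Polynomial.X,
        Polynomial.aeval_X, Polynomial.aeval_X, Module.End.mul_apply, h1, map_smul, ih, smul_smul,
        mul_comm]
  have h5 := h4 p
  rw [h2, LinearMap.zero_apply] at h5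
  rcases smul_eq_zero.mp h5.symm with h6 | h6
  · exact h6
  · exact absurd h6 (eigenform_ne_zero hf)

end Fermat.Agent.H22
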