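import Fermat.Agent.H22.GamHRes

set_option autoImplicit false

noncomputable section

/-! ### Linear versions of the operators on `Hom(Γ_H(N), A)` -/

namespace Fermat.Agent.H22

open CongruenceSubgroup Function
open scoped MatrixGroups

section Parabolic

variable (N : ℕ) (H : Subgroup (ZMod N)ˣ) (ℓ : ℕ) [NeZero N] [NeZero ℓ] {A : Type*} [CommGroup A]

theorem tr2_conjH (γ : GamHl N H ℓ) :
    tr2 ((conjH N H ℓ γ : GamH N H) : SL(2, ℤ)) = tr2 (γ : SL(2, ℤ)) := by
  rw [tr2_def, tr2_def]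
  rfl

/-- If `ψ` kills every element of `Γ_H(N)` whose trace is that of a power of `g`, then so
does `T_ℓ ψ` kill `g`. -/
theorem heckeH_apply_eq_one (ψ : GamH N H →* A) (g : GamH N H)
    (h : ∀ (k : ℕ) (γ : GamH N H), tr2 (γ : SL(2, ℤ)) = tr2 ((g : SL(2, ℤ)) ^ k) → ψ γ = 1) :
    heckeH N H ℓ ψ g = 1 := by
  refine tr_apply_eq_one _ _ _ _ fun n r k hk => ?_
  apply h n
  rw [tr2_conjH]
  have h1 : (k : SL(2, ℤ)) = (r : SL(2, ℤ))⁻¹ * (g : SL(2, ℤ)) ^ n * (r : SL(2, ℤ)) :=
    congrArg Subtype.val hk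
  rw [h1]
  exact tr2_conj _ _

/-- Triviality on all elements of `Γ` with `trace² = 4`. -/
def KillsPar {Γ : Subgroup SL(2, ℤ)} (ψ : Γ →* A) : Prop :=
  ∀ γ : Γ, tr2 (γ : SL(2, ℤ)) ^ 2 = 4 → ψ γ = 1

/-- Triviality on all elements of `Γ` with `trace = 2`. -/
def KillsUni {Γ : Subgroup SL(2, ℤ)} (ψ : Γ →* A) : Prop :=
  ∀ γ : Γ, tr2 (γ : SL(2, ℤ)) = 2 → ψ γ = 1

/-- Triviality on all elements of `Γ` with `trace² ≤ 4`. -/
def KillsPE {Γ : Subgroup SL(2, ℤ)} (ψ : Γ →* A) : Prop :=
  ∀ γ : Γ, tr2 (γ : SL(2, ℤ)) ^ 2 ≤ 4 → ψ γ = 1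

variable {N H} {ψ : GamH N H →* A}

theorem KillsPar.heckeH (h : KillsPar ψ) : KillsPar (heckeH N H ℓ ψ) := fun g hg =>
  heckeH_apply_eq_one N H ℓ ψ g fun k γ hγ => h γ (by rw [hγ]; exact tr2_pow_sq_eq _ hg k)

theorem tr2_pow_eq_two {g : SL(2, ℤ)} (hg : tr2 g = 2) (k : ℕ) : tr2 (g ^ k) = 2 := by
  have key : ∀ k : ℕ, tr2 (g ^ k) = 2 ∧ tr2 (g ^ (k + 1)) = 2 := by
    intro k
    induction k with
    | zero => exact ⟨by rw [pow_zero, tr2_one], by simpa using hg⟩
    | succ k ih =>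
      refine ⟨ih.2, ?_⟩
      rw [tr2_pow_add_two, ih.1, ih.2, hg]
      norm_num
  exact (key k).1

theorem KillsUni.heckeH (h : KillsUni ψ) : KillsUni (heckeH N H ℓ ψ) := fun g hg =>
  heckeH_apply_eq_one N H ℓ ψ g fun k γ hγ => h γ (by rw [hγ]; exact tr2_pow_eq_two hg k)

theorem KillsPE.heckeH (h : KillsPE ψ) : KillsPE (heckeH N H ℓ ψ) := fun g hg =>
  heckeH_apply_eq_one N H ℓ ψ g fun k γ hγ => h γ (by
    rw [hγ]
    rcases hg.lt_or_eq with h1 | h1
    · exact tr2_pow_sq_le _ h1 k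
    · exact (tr2_pow_sq_eq _ h1 k).le)

end Parabolic

section Linear

variable (R : Type*) [CommRing R] (N : ℕ) [NeZero N] (H : Subgroup (ZMod N)ˣ)
  (A : Type*) [AddCommGroup A] [Module R A]

/-- The Hecke operator on additive characters of `Γ_H(N)`. -/
def heckeHL (ℓ : ℕ) [NeZero ℓ] : Module.End R (Additive (GamH N H) →+ A) where
  toFun ψ := (heckeH N H ℓ ψ.toMultiplicativeRight).toAdditiveLeft
  map_add' ψ ψ' := by
    have h : (ψ + ψ').toMultiplicativeRight =
      ψ.toMultiplicativeRight * ψ'.toMultiplicativeRight := rfl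
    rw [h, heckeH_mul]
    rfl
  map_smul' r ψ := by
    let f : Multiplicative A →* Multiplicative A :=
      (DistribSMul.toAddMonoidHom A r).toMultiplicative
    have h : (r • ψ).toMultiplicativeRight = f.comp ψ.toMultiplicativeRight := rfl
    rw [h, heckeH_comp]
    rfl

/-- The diamond operator on additive characters of `Γ_H(N)`. -/
def diamondL (g : Gamma0 N) : Module.End R (Additive (GamH N H) →+ A) where
  toFun ψ := (diamond N H g ψ.toMultiplicativeRight).toAdditiveLeft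
  map_add' _ _ := rfl
  map_smul' _ _ := rfl

theorem diamondL_apply (g : Gamma0 N) (ψ : Additive (GamH N H) →+ A) (γ : GamH N H) :
    diamondL R N H A g ψ (Additive.ofMul γ) = ψ (Additive.ofMul (conjG N H g γ)) := rfl

theorem heckeHL_comm {m n : ℕ} [NeZero m] [NeZero n] (hmn : Nat.Coprime m n) :
    heckeHL R N H A n * heckeHL R N H A m = heckeHL R N H A m * heckeHL R N H A n := by
  refine LinearMap.ext fun ψ => ?_
  exact congrArg MonoidHom.toAdditiveLeft (heckeH_comm N H hmn ψ.toMultiplicativeRight)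

theorem heckeHL_comm_prime {m n : ℕ} [NeZero m] [NeZero n] (hm : m.Prime) (hn : n.Prime) :
    heckeHL R N H A n * heckeHL R N H A m = heckeHL R N H A m * heckeHL R N H A n := by
  refine LinearMap.ext fun ψ => ?_
  exact congrArg MonoidHom.toAdditiveLeft (heckeH_comm_prime N H hm hn ψ.toMultiplicativeRight)

theorem heckeHL_diamondL (ℓ : ℕ) [NeZero ℓ] (g : Gamma0 N) :
    heckeHL R N H A ℓ * diamondL R N H A g = diamondL R N H A g * heckeHL R N H A ℓ := by
  refine LinearMap.ext fun ψ => ?_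
  exact congrArg MonoidHom.toAdditiveLeft (heckeH_diamond N H ℓ g ψ.toMultiplicativeRight)

omit [NeZero N] in
theorem diamondL_mul (g g' : Gamma0 N) :
    diamondL R N H A (g * g') = diamondL R N H A g' * diamondL R N H A g := by
  refine LinearMap.ext fun ψ => ?_
  exact congrArg MonoidHom.toAdditiveLeft (diamond_mul_apply N H g g' ψ.toMultiplicativeRight)

omit [NeZero N] in
theorem diamondL_comm (g g' : Gamma0 N) :
    diamondL R N H A g * diamondL R N H A g' = diamondL R N H A g' * diamondL R N H A g := by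
  refine LinearMap.ext fun ψ => ?_
  exact congrArg MonoidHom.toAdditiveLeft (diamond_comm N H g g' ψ.toMultiplicativeRight)

omit [NeZero N] in
theorem diamondL_of_mem (g : Gamma0 N) (hg : dChar N g ∈ H) : diamondL R N H A g = 1 := by
  refine LinearMap.ext fun ψ => ?_
  exact congrArg MonoidHom.toAdditiveLeft (diamond_of_mem N H g hg ψ.toMultiplicativeRight)

omit [NeZero N] in
theorem diamondL_congr {g g' : Gamma0 N} (h : (dChar N g)⁻¹ * dChar N g' ∈ H) :
    diamondL R N H A g = diamondL R N H A g' := by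
  refine LinearMap.ext fun ψ => ?_
  exact congrArg MonoidHom.toAdditiveLeft (diamond_congr N H h ψ.toMultiplicativeRight)

variable {R N H A} in
/-- Functoriality in the coefficients. -/
theorem heckeHL_map {R' : Type*} [CommRing R'] {B : Type*} [AddCommGroup B] [Module R' B]
    (f : A →+ B) (ℓ : ℕ) [NeZero ℓ] (ψ : Additive (GamH N H) →+ A) :
    heckeHL R' N H B ℓ (f.comp ψ) = f.comp (heckeHL R N H A ℓ ψ) := by
  have h := heckeH_comp N H ℓ f.toMultiplicative ψ.toMultiplicativeRight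
  exact congrArg MonoidHom.toAdditiveLeft h

omit [NeZero N] in
variable {R N H A} in
/-- Functoriality in the coefficients. -/
theorem diamondL_map {R' : Type*} [CommRing R'] {B : Type*} [AddCommGroup B] [Module R' B]
    (f : A →+ B) (g : Gamma0 N) (ψ : Additive (GamH N H) →+ A) :
    diamondL R' N H B g (f.comp ψ) = f.comp (diamondL R N H A g ψ) := rfl

end Linear

section ResCor

variable (R : Type*) [CommRing R] {N M : ℕ} {H : Subgroup (ZMod N)ˣ} {H' : Subgroup (ZMod M)ˣ}
  (h : GamH M H' ≤ GamH N H) (A : Type*) [AddCommGroup A] [Module R A]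

/-- Restriction of additive characters. -/
def resHL : (Additive (GamH N H) →+ A) →ₗ[R] (Additive (GamH M H') →+ A) where
  toFun ψ := ψ.comp (MonoidHom.toAdditive (Subgroup.inclusion h))
  map_add' _ _ := rfl
  map_smul' _ _ := rfl

variable [NeZero M]

/-- Transfer of additive characters. -/
def corHL : (Additive (GamH M H') →+ A) →ₗ[R] (Additive (GamH N H) →+ A) where
  toFun ψ := (corH h ψ.toMultiplicativeRight).toAdditiveLeft
  map_add' ψ ψ' := by
    have h1 : (ψ + ψ').toMultiplicativeRight =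
      ψ.toMultiplicativeRight * ψ'.toMultiplicativeRight := rfl
    rw [h1]
    unfold corH
    rw [tr_mul]
    rfl
  map_smul' r ψ := by
    let f : Multiplicative A →* Multiplicative A :=
      (DistribSMul.toAddMonoidHom A r).toMultiplicative
    have h1 : (r • ψ).toMultiplicativeRight = f.comp ψ.toMultiplicativeRight := rfl
    rw [h1]
    unfold corH
    rw [tr_comp]
    rfl

variable [NeZero N] {ℓ : ℕ} [NeZero ℓ]

theorem resHL_heckeHL {m : ℕ} (hM : M = N * m) (hℓ : ℓ.Prime) (hℓm : ¬ ℓ ∣ m)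
    (ψ : Additive (GamH N H) →+ A) :
    resHL R h A (heckeHL R N H A ℓ ψ) = heckeHL R M H' A ℓ (resHL R h A ψ) :=
  congrArg MonoidHom.toAdditiveLeft (resH_heckeH h hM hℓ hℓm ψ.toMultiplicativeRight)

theorem corHL_heckeHL (hNM : N ∣ M) (hℓ : ∀ p : ℕ, p.Prime → p ∣ ℓ → p ∣ M → p ∣ N)
    (ψ : Additive (GamH M H') →+ A) :
    corHL R h A (heckeHL R M H' A ℓ ψ) = heckeHL R N H A ℓ (corHL R h A ψ) :=
  congrArg MonoidHom.toAdditiveLeft (corH_heckeH h hNM hℓ ψ.toMultiplicativeRight)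

omit [NeZero N] [NeZero M] in
theorem resHL_diamondL (g : SL(2, ℤ)) (hg : g ∈ Gamma0 N) (hg' : g ∈ Gamma0 M)
    (ψ : Additive (GamH N H) →+ A) :
    resHL R h A (diamondL R N H A ⟨g, hg⟩ ψ) = diamondL R M H' A ⟨g, hg'⟩ (resHL R h A ψ) := rfl

omit [NeZero N] in
theorem corHL_diamondL (g : SL(2, ℤ)) (hg : g ∈ Gamma0 N) (hg' : g ∈ Gamma0 M)
    (ψ : Additive (GamH M H') →+ A) :
    corHL R h A (diamondL R M H' A ⟨g, hg'⟩ ψ) = diamondL R N H A ⟨g, hg⟩ (corHL R h A ψ) :=
  congrArg MonoidHom.toAdditiveLeft (corH_diamond h g hg hg' ψ.toMultiplicativeRight)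

end ResCor

section Top

/-- The transfer from a subgroup, in terms of `tr`. -/
theorem transfer_eq_tr {G : Type*} [Group G] (K : Subgroup G) [K.FiniteIndex]
    [K.subtype.range.FiniteIndex] {A : Type*} [CommGroup A] (ϕ : K →* A) :
    MonoidHom.transfer ϕ = tr K.subtype K.subtype_injective ϕ := by
  have : Fintype (G ⧸ K) := K.fintypeQuotientOfFiniteIndex
  obtain ⟨u, hu⟩ := exists_auto K.subtype K.subtype_injective ϕ
  ext g
  have e1 := transfer_automorphy ϕ (MonoidHom.id A) u hu g 1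
  have hb : Bijective fun q : G ⧸ K => ((q.out : G) : G ⧸ K.subtype.range) := by
    constructor
    · intro p q hpq
      have h1 := QuotientGroup.eq.mp hpq
      rw [Subgroup.range_subtype] at h1
      rw [← QuotientGroup.out_eq' p, ← QuotientGroup.out_eq' q, QuotientGroup.eq]
      exact h1
    · intro q
      induction q using QuotientGroup.induction_on with
      | H g =>
        refine ⟨g, ?_⟩
        obtain ⟨k, hk⟩ := QuotientGroup.mk_out_eq_mul K g
        simp only
        rw [QuotientGroup.eq, hk, Subgroup.range_subtype]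
        have : (g * (k : G))⁻¹ * g = (k : G)⁻¹ := by group
        rw [this]
        exact K.inv_mem k.2
  have e2 := tr_automorphy K.subtype K.subtype_injective ϕ _ hb (MonoidHom.id A) u hu g 1
  rw [e1] at e2
  exact mul_right_cancel e2

variable (N : ℕ)

/-- `Γ₀(N) ≃ Γ_⊤(N)`. -/
def topEquiv : Gamma0 N ≃* GamH N ⊤ := MulEquiv.subgroupCongr GamH_top.symm

@[simp] theorem coe_topEquiv (γ : Gamma0 N) : ((topEquiv N γ : GamH N ⊤) : SL(2, ℤ)) = γ := rfl

variable [NeZero N] (ℓ : ℕ) [NeZero ℓ] {A : Type*} [CommGroup A]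

/-- For `H = ⊤` the operators are the ones for `Γ₀(N)`. -/
theorem heckeH_top (ψ : GamH N ⊤ →* A) :
    (heckeH N ⊤ ℓ ψ).comp (topEquiv N).toMonoidHom =
      heckeChar N ℓ (ψ.comp (topEquiv N).toMonoidHom) := by
  have : (subGamma N ℓ).subtype.range.FiniteIndex := by
    rw [Subgroup.range_subtype]
    infer_instance
  unfold heckeH heckeChar
  rw [transfer_eq_tr]
  let f' : subGamma N ℓ →* GamHl N ⊤ ℓ :=
    { toFun := fun γ => ⟨(γ : Gamma0 N), (topEquiv N γ).2, γ.2⟩
      map_one' := rfl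
      map_mul' := fun _ _ => rfl }
  have key : (tr (inclH N ⊤ ℓ) (inclH_injective N ⊤ ℓ) (ψ.comp (conjH N ⊤ ℓ))).comp
      (topEquiv N).toMonoidHom = tr (subGamma N ℓ).subtype (subGamma N ℓ).subtype_injective
        ((ψ.comp (conjH N ⊤ ℓ)).comp f') := by
    apply tr_comap
    · intro k
      exact Subtype.ext rfl
    · rintro ⟨γ, hγ⟩ ⟨k, hk⟩ hh
      have h1 : γ = k := congrArg Subtype.val hh
      subst h1
      exact ⟨⟨⟨γ, hγ⟩, hk.2⟩, rfl⟩
    · intro g
      exact ⟨(topEquiv N).symm g, 1, by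
        rw [map_one, mul_one]
        exact ((topEquiv N).apply_symm_apply g).symm⟩
  rw [key]
  rfl

end Top

end Fermat.Agent.H22
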