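import Fermat.Agent.H22.Explicit

set_option autoImplicit false

noncomputable section

namespace Fermat.Agent.H22

open CongruenceSubgroup ModularForm Matrix.SpecialLinearGroup
open scoped MatrixGroups

section Index

variable {N : ℕ} [NeZero N] {ℓ : ℕ}

/-- The lower left entry divided by `N`. -/
def lowEntry (g : Gamma0 N) : ℤ := (g : SL(2, ℤ)) 1 0 / N

theorem lowEntry_spec (g : Gamma0 N) : (g : SL(2, ℤ)) 1 0 = N * lowEntry g := by
  obtain ⟨c, hc⟩ := mem_Gamma0_iff_dvd.mp g.2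
  have hN : (N : ℤ) ≠ 0 := by exact_mod_cast NeZero.ne N
  rw [lowEntry, hc, Int.mul_ediv_cancel_left _ hN]

theorem det_entries (g : Gamma0 N) : (g : SL(2, ℤ)) 0 0 * (g : SL(2, ℤ)) 1 1 -
      (g : SL(2, ℤ)) 0 1 * (N * lowEntry g) = 1 := by
  have := (g : SL(2, ℤ)).2
  rwa [Matrix.det_fin_two, show ((g : SL(2, ℤ)) : Matrix (Fin 2) (Fin 2) ℤ) 1 0 =
    N * lowEntry g from lowEntry_spec g] at this

theorem lowEntry_mul_inv (g g' : Gamma0 N) :
    lowEntry (g * g'⁻¹) = lowEntry g * (g' : SL(2, ℤ)) 1 1 - (g : SL(2, ℤ)) 1 1 * lowEntry g' := by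
  have hN : (N : ℤ) ≠ 0 := by exact_mod_cast NeZero.ne N
  have h1 := lowEntry_spec (g * g'⁻¹)
  have h2 : ((g * g'⁻¹ : Gamma0 N) : SL(2, ℤ)) 1 0 =
      (g : SL(2, ℤ)) 1 0 * (g' : SL(2, ℤ)) 1 1 - (g : SL(2, ℤ)) 1 1 * (g' : SL(2, ℤ)) 1 0 := by
    have e : (((g * g'⁻¹ : Gamma0 N) : SL(2, ℤ)) : Matrix (Fin 2) (Fin 2) ℤ) =
      ((g : SL(2, ℤ)) : Matrix (Fin 2) (Fin 2) ℤ) *
        (((g' : SL(2, ℤ))⁻¹ : SL(2, ℤ)) : Matrix (Fin 2) (Fin 2) ℤ) := rfl
    change (((g * g'⁻¹ : Gamma0 N) : SL(2, ℤ)) : Matrix (Fin 2) (Fin 2) ℤ) 1 0 = _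
    rw [e, Matrix.SpecialLinearGroup.SL2_inv_expl, Matrix.mul_apply, Fin.sum_univ_two]
    simp
    ring
  rw [h1, lowEntry_spec g, lowEntry_spec g'] at h2
  have h3 : (N : ℤ) * lowEntry (g * g'⁻¹) =
    N * (lowEntry g * (g' : SL(2, ℤ)) 1 1 - (g : SL(2, ℤ)) 1 1 * lowEntry g') := by
    rw [h2]; ring
  exact mul_left_cancel₀ hN h3

theorem mem_subGamma_iff (g : Gamma0 N) : g ∈ subGamma N ℓ ↔ (ℓ : ℤ) ∣ lowEntry g := by
  have hN : (N : ℤ) ≠ 0 := by exact_mod_cast NeZero.ne N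
  rw [subGamma, Subgroup.mem_subgroupOf, mem_Gamma0_iff_dvd]
  rw [lowEntry_spec g]
  push_cast
  exact mul_dvd_mul_iff_left hN

/-- The index of the coset `subGamma N ℓ * g`: the point `-c'/d` of the projective line. -/
def cosetIdx (ℓ : ℕ) (g : Gamma0 N) : Option (ZMod ℓ) :=
  if (((g : SL(2, ℤ)) 1 1 : ℤ) : ZMod ℓ) = 0 then none else
    some (-((lowEntry g : ℤ) : ZMod ℓ) * (((g : SL(2, ℤ)) 1 1 : ℤ) : ZMod ℓ)⁻¹)

theorem cosetIdx_eq_iff [hℓ : Fact ℓ.Prime] (g g' : Gamma0 N) :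
    cosetIdx ℓ g = cosetIdx ℓ g' ↔ g * g'⁻¹ ∈ subGamma N ℓ := by
  rw [mem_subGamma_iff, lowEntry_mul_inv, ← ZMod.intCast_zmod_eq_zero_iff_dvd]
  have h1 := congrArg (Int.cast : ℤ → ZMod ℓ) (det_entries g)
  have h2 := congrArg (Int.cast : ℤ → ZMod ℓ) (det_entries g')
  push_cast at h1 h2 ⊢
  unfold cosetIdx
  generalize ((lowEntry g : ℤ) : ZMod ℓ) = c at *
  generalize ((lowEntry g' : ℤ) : ZMod ℓ) = c' at *
  generalize (((g : SL(2, ℤ)) 1 1 : ℤ) : ZMod ℓ) = d at *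
  generalize (((g' : SL(2, ℤ)) 1 1 : ℤ) : ZMod ℓ) = d' at *
  split_ifs with hd hd' hd'
  · simp [hd, hd']
  · simp only [reduceCtorEq, hd, zero_mul, sub_zero, mul_eq_zero, hd', or_false, false_iff]
    intro hc
    rw [hd, hc] at h1
    simp at h1
  · simp only [reduceCtorEq, hd', mul_zero, zero_sub, neg_eq_zero, mul_eq_zero, hd, false_or,
      false_iff]
    intro hc
    rw [hd', hc] at h2
    simp at h2
  · rw [Option.some.injEq]
    constructor
    · intro h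
      field_simp at h
      linear_combination -h
    · intro h
      field_simp
      linear_combination -h

theorem cosetIdx_eq_none_iff [hℓ : Fact ℓ.Prime] (g : Gamma0 N) :
    cosetIdx ℓ g = none ↔ (ℓ : ℤ) ∣ (g : SL(2, ℤ)) 1 1 := by
  unfold cosetIdx
  rw [← ZMod.intCast_zmod_eq_zero_iff_dvd]
  split_ifs with h <;> simp [h]

theorem cosetIdx_eq_some [hℓ : Fact ℓ.Prime] (g : Gamma0 N) (i : ZMod ℓ)
    (h : cosetIdx ℓ g = some i) :
    (ℓ : ℤ) ∣ lowEntry g + (g : SL(2, ℤ)) 1 1 * i.val := by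
  rw [← ZMod.intCast_zmod_eq_zero_iff_dvd]
  push_cast
  rw [ZMod.natCast_zmod_val]
  unfold cosetIdx at h
  split_ifs at h with hd
  rw [← Option.some.inj h]
  field_simp
  ring

theorem exists_cosetIdx_some [hℓ : Fact ℓ.Prime] (i : ZMod ℓ) :
    ∃ g : Gamma0 N, cosetIdx ℓ g = some i := by
  have hN : (N : ℤ) ≠ 0 := by exact_mod_cast NeZero.ne N
  let γ0 : SL(2, ℤ) := ⟨!![1, 0; -(N * i.val), 1], by
    rw [Matrix.det_fin_two_of]; ring⟩
  have hγ0 : γ0 ∈ Gamma0 N := mem_Gamma0_iff_dvd.mpr (by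
    change (N : ℤ) ∣ -(N * i.val)
    exact ⟨-i.val, by ring⟩)
  refine ⟨⟨γ0, hγ0⟩, ?_⟩
  have h1 : lowEntry (⟨γ0, hγ0⟩ : Gamma0 N) = -i.val := by
    rw [lowEntry]
    change (-((N : ℤ) * i.val)) / N = -i.val
    rw [show (-((N : ℤ) * i.val)) = N * (-(i.val : ℤ)) by ring, Int.mul_ediv_cancel_left _ hN]
  have h2 : (((⟨γ0, hγ0⟩ : Gamma0 N) : SL(2, ℤ)) 1 1 : ℤ) = 1 := rfl
  unfold cosetIdx
  rw [h1, h2]
  simp

theorem exists_cosetIdx_none [hℓ : Fact ℓ.Prime] (h : ¬ ℓ ∣ N) :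
    ∃ g : Gamma0 N, cosetIdx ℓ g = none := by
  have hN : (N : ℤ) ≠ 0 := by exact_mod_cast NeZero.ne N
  have hcop : IsCoprime (ℓ : ℤ) (N : ℤ) := by
    rw [Nat.isCoprime_iff_coprime]
    exact (Nat.Prime.coprime_iff_not_dvd hℓ.out).mpr h
  obtain ⟨a, b, hab⟩ := hcop
  let γ0 : SL(2, ℤ) := ⟨!![a, -b; N, ℓ], by
    rw [Matrix.det_fin_two_of]; linear_combination hab⟩
  have hγ0 : γ0 ∈ Gamma0 N := mem_Gamma0_iff_dvd.mpr (by
    change (N : ℤ) ∣ N
    exact dvd_rfl)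
  refine ⟨⟨γ0, hγ0⟩, ?_⟩
  rw [cosetIdx_eq_none_iff]
  change (ℓ : ℤ) ∣ ℓ
  exact dvd_rfl

theorem cosetIdx_ne_none [hℓ : Fact ℓ.Prime] (h : ℓ ∣ N) (g : Gamma0 N) :
    cosetIdx ℓ g ≠ none := by
  rw [Ne, cosetIdx_eq_none_iff]
  intro hd
  have h1 := det_entries g
  have h2 : (ℓ : ℤ) ∣ 1 := by
    rw [← h1]
    refine dvd_sub (hd.mul_left _) ((Dvd.dvd.mul_right ?_ _).mul_left _)
    exact_mod_cast h
  have := Int.eq_one_of_dvd_one (by positivity) h2
  exact hℓ.out.one_lt.ne' (by exact_mod_cast this)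

variable [hℓ : Fact ℓ.Prime]

theorem prod_cosets {Y : Type*} [CommMonoid Y] (F : Option (ZMod ℓ) → Y) :
    ∏ q : Gamma0 N ⧸ subGamma N ℓ, F (cosetIdx ℓ (q.out)⁻¹) =
      (∏ i ∈ Finset.range ℓ, F (some (i : ZMod ℓ))) * (if ℓ ∣ N then 1 else F none) := by
  classical
  have hinj : Function.Injective fun q : Gamma0 N ⧸ subGamma N ℓ => cosetIdx ℓ (q.out)⁻¹ := by
    intro q q' h
    have h1 := (cosetIdx_eq_iff _ _).mp h
    rw [inv_inv] at h1
    rw [← QuotientGroup.out_eq' q, ← QuotientGroup.out_eq' q']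
    exact QuotientGroup.eq.mpr h1
  have himg : (Finset.univ.image fun q : Gamma0 N ⧸ subGamma N ℓ => cosetIdx ℓ (q.out)⁻¹) =
      if ℓ ∣ N then Finset.univ.erase none else Finset.univ := by
    have key : ∀ g : Gamma0 N, cosetIdx ℓ g ∈
        (Finset.univ.image fun q : Gamma0 N ⧸ subGamma N ℓ => cosetIdx ℓ (q.out)⁻¹) := by
      intro g
      refine Finset.mem_image.mpr ⟨((g⁻¹ : Gamma0 N) : Gamma0 N ⧸ subGamma N ℓ),
        Finset.mem_univ _, ?_⟩
      rw [cosetIdx_eq_iff]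
      have h1 := QuotientGroup.out_eq' ((g⁻¹ : Gamma0 N) : Gamma0 N ⧸ subGamma N ℓ)
      exact QuotientGroup.eq.mp h1
    split_ifs with hN
    · ext o
      rw [Finset.mem_erase]
      cases o with
      | none =>
        simp only [ne_eq, not_true_eq_false, false_and, iff_false, Finset.mem_image, not_exists]
        rintro q ⟨-, hq⟩
        exact cosetIdx_ne_none hN _ hq
      | some i =>
        obtain ⟨g, hg⟩ := exists_cosetIdx_some (N := N) i
        simp only [ne_eq, reduceCtorEq, not_false_eq_true, Finset.mem_univ, and_self, iff_true]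
        rw [← hg]
        exact key g
    · ext o
      simp only [Finset.mem_univ, iff_true]
      cases o with
      | none =>
        obtain ⟨g, hg⟩ := exists_cosetIdx_none (N := N) hN
        rw [← hg]
        exact key g
      | some i =>
        obtain ⟨g, hg⟩ := exists_cosetIdx_some (N := N) i
        rw [← hg]
        exact key g
  have hsome : ∏ i : ZMod ℓ, F (some i) = ∏ i ∈ Finset.range ℓ, F (some (i : ZMod ℓ)) := by
    refine Finset.prod_bij' (fun i _ => i.val) (fun i _ => (i : ZMod ℓ)) ?_ ?_ ?_ ?_ ?_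
    · exact fun i _ => Finset.mem_range.mpr (ZMod.val_lt i)
    · exact fun i _ => Finset.mem_univ _
    · exact fun i _ => ZMod.natCast_zmod_val i
    · exact fun i hi => ZMod.val_natCast_of_lt (Finset.mem_range.mp hi)
    · intro i _
      rw [ZMod.natCast_zmod_val]
  rw [← Finset.prod_image (f := F) (g := fun q : Gamma0 N ⧸ subGamma N ℓ => cosetIdx ℓ (q.out)⁻¹)
    (fun q _ q' _ h => hinj h), himg, ← hsome]
  split_ifs with hN
  · rw [mul_one]
    have h1 : (Finset.univ.erase none : Finset (Option (ZMod ℓ))) =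
        Finset.univ.map Function.Embedding.some := by
      ext o
      cases o <;> simp
    rw [h1, Finset.prod_map]
    rfl
  · rw [Fintype.prod_option, mul_comm]

end Index

section Star

variable {N : ℕ} [NeZero N] {ℓ : ℕ} [hℓ : Fact ℓ.Prime]

variable (N ℓ) in
/-- The explicit Hecke sum on functions (multiplicatively written). -/
def starFun {X Y : Type*} [MulAction (GL (Fin 2) ℝ) X] [CommMonoid Y] (u : X → Y) (x : X) : Y :=
  (∏ i ∈ Finset.range ℓ, u (heckeMatrix ℓ i • x)) *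
    (if ℓ ∣ N then 1 else u (heckeDiagMatrix ℓ • x))

variable (N ℓ) in
/-- The Fricke twist of the Hecke operator `heckeChar`: the one matching the classical `T_ℓ`
(or `U_ℓ`). -/
def heckeStar {A : Type*} [CommGroup A] (ψ : Gamma0 N →* A) : Gamma0 N →* A :=
  have : NeZero ℓ := ⟨hℓ.out.ne_zero⟩
  (heckeChar N ℓ (ψ.comp (wConj N))).comp (wConj N)

theorem diag_mul_mapGL [NeZero ℓ] (h : subGamma N ℓ) :
    heckeDiagMatrix ℓ * mapGL ℝ ((h : Gamma0 N) : SL(2, ℤ)) =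
      mapGL ℝ ((subDegConj N ℓ h : Gamma0 N) : SL(2, ℤ)) * heckeDiagMatrix ℓ := by
  have hℓ0 : (ℓ : ℤ) ≠ 0 := by exact_mod_cast NeZero.ne ℓ
  obtain ⟨c, hc⟩ := dvd_of_mem (show ((h : Gamma0 N) : SL(2, ℤ)) ∈ Gamma0 (N * ℓ) from h.2)
  apply Units.ext
  simp only [Units.val_mul, val_mapGL, val_heckeDiagMatrix (NeZero.ne ℓ)]
  have e00 : ((subDegConj N ℓ h : Gamma0 N) : SL(2, ℤ)) 0 0 = ((h : Gamma0 N) : SL(2, ℤ)) 0 0 := rfl
  have e01 : ((subDegConj N ℓ h : Gamma0 N) : SL(2, ℤ)) 0 1 =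
    ℓ * ((h : Gamma0 N) : SL(2, ℤ)) 0 1 := rfl
  have e10 : ((subDegConj N ℓ h : Gamma0 N) : SL(2, ℤ)) 1 0 = c := by
    change ((h : Gamma0 N) : SL(2, ℤ)) 1 0 / (ℓ : ℤ) = c
    rw [hc, Int.mul_ediv_cancel_left _ hℓ0]
  have e11 : ((subDegConj N ℓ h : Gamma0 N) : SL(2, ℤ)) 1 1 = ((h : Gamma0 N) : SL(2, ℤ)) 1 1 := rfl
  rw [e00, e01, e10, e11, hc]
  ext i j
  fin_cases i <;> fin_cases j <;> simp [Matrix.mul_apply, Fin.sum_univ_two] <;> ring

theorem starFun_automorphy {X Y A : Type*} [MulAction (GL (Fin 2) ℝ) X] [CommGroup Y] [CommGroup A]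
    (j : A →* Y) (ψ : Gamma0 N →* A) (u : X → Y)
    (hu : ∀ (γ : Gamma0 N) (x : X), u (mapGL ℝ (γ : SL(2, ℤ)) • x) = j (ψ γ) * u x)
    (g : Gamma0 N) (x : X) :
    starFun N ℓ u (mapGL ℝ (g : SL(2, ℤ)) • x) = j (heckeStar N ℓ ψ g) * starFun N ℓ u x := by
  classical
  have hℓ0 : NeZero ℓ := ⟨hℓ.out.ne_zero⟩
  let act : MulAction (Gamma0 N) X :=
    MulAction.compHom X ((mapGL ℝ).comp (Gamma0 N).subtype : Gamma0 N →* GL (Fin 2) ℝ)
  have hact : ∀ (γ : Gamma0 N) (x : X), γ • x = mapGL ℝ (γ : SL(2, ℤ)) • x := fun _ _ => rfl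
  let v : X → Y := fun x => u ((frickeGL N * heckeDiagMatrix ℓ) • x)
  have hv : ∀ (h : subGamma N ℓ) (x : X), v ((h : Gamma0 N) • x) =
      j ((ψ.comp (wConj N)) (subDegConj N ℓ h)) * v x := by
    intro h x
    simp only [v, hact]
    rw [smul_smul, mul_assoc, diag_mul_mapGL, ← mul_assoc, fricke_mul_mapGL, mul_assoc,
      ← smul_smul (mapGL ℝ _), hu]
    rfl
  have key : ∃ C : Y, ∀ x : X, ∏ q : Gamma0 N ⧸ subGamma N ℓ, v ((q.out)⁻¹ • x) =
      C * starFun N ℓ u (frickeGL N • x) := by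
    let B : Option (ZMod ℓ) → GL (Fin 2) ℝ
      | none => heckeDiagMatrix ℓ
      | some i => heckeMatrix ℓ i.val
    have hrep : ∀ g : Gamma0 N, ∃ γ : Gamma0 N,
        frickeGL N * heckeDiagMatrix ℓ * mapGL ℝ (g : SL(2, ℤ)) =
          mapGL ℝ (γ : SL(2, ℤ)) * B (cosetIdx ℓ g) * frickeGL N := by
      intro g
      cases ho : cosetIdx ℓ g with
      | none => exact rep_none hℓ0.out g ((cosetIdx_eq_none_iff g).mp ho)
      | some i => exact rep_some hℓ0.out g i.val (cosetIdx_eq_some g i ho)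
    choose γ hγ using hrep
    refine ⟨∏ q : Gamma0 N ⧸ subGamma N ℓ, j (ψ (γ (q.out)⁻¹)), fun x => ?_⟩
    have h1 : ∀ q : Gamma0 N ⧸ subGamma N ℓ, v ((q.out)⁻¹ • x) =
        j (ψ (γ (q.out)⁻¹)) * u (B (cosetIdx ℓ (q.out)⁻¹) • frickeGL N • x) := by
      intro q
      simp only [v, hact]
      rw [smul_smul, hγ, mul_assoc, ← smul_smul, hu, smul_smul]
    rw [Finset.prod_congr rfl fun q _ => h1 q, Finset.prod_mul_distrib,
      prod_cosets (fun o => u (B o • frickeGL N • x))]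
    congr 1
    unfold starFun
    congr 1
    refine Finset.prod_congr rfl fun i hi => ?_
    simp only [B]
    rw [ZMod.val_natCast_of_lt (Finset.mem_range.mp hi)]
  obtain ⟨C, hC⟩ := key
  have h2 := heckeChar_automorphy N ℓ j (ψ.comp (wConj N)) v hv (wConj N g)
    ((frickeGL N)⁻¹ • x)
  rw [hC, hC, smul_inv_smul, hact, smul_smul, fricke_mul_mapGL, wConj_wConj, mul_smul,
    smul_inv_smul, mul_left_comm] at h2
  exact mul_left_cancel h2

end Star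

end Fermat.Agent.H22
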