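import Fermat.Agent.H22.Ihara4
import Fermat.Agent.H22.Star

set_option autoImplicit false

noncomputable section

/-! ### Ihara's lemma, part 5: the Hecke operator -/

namespace Fermat.Agent.H22

open CongruenceSubgroup Function
open scoped MatrixGroups

section

variable {N ℓ q : ℕ} [NeZero N] {A : Type*} [CommGroup A]

theorem prod_const_cosets [hℓ : Fact ℓ.Prime] (h : ¬ ℓ ∣ N) (a : A) :
    have : NeZero ℓ := ⟨hℓ.out.ne_zero⟩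
    ∏ _q : Gamma0 N ⧸ subGamma N ℓ, a = a ^ (ℓ + 1) := by
  intro _
  have := prod_cosets (N := N) (ℓ := ℓ) (fun _ => a)
  rw [this, Finset.prod_const, Finset.card_range, if_neg h, pow_succ]

/-- The matrix `y diag(Q, 1) y⁻¹`. -/
def yMat (y : SL(2, ℤ)) (Q : ℤ) : Matrix (Fin 2) (Fin 2) ℤ :=
  (y : Matrix (Fin 2) (Fin 2) ℤ) * !![Q, 0; 0, 1] * ((y⁻¹ : SL(2, ℤ)) : Matrix (Fin 2) (Fin 2) ℤ)

theorem yMat_det (y : SL(2, ℤ)) (Q : ℤ) : (yMat y Q).det = Q := by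
  rw [yMat, Matrix.det_mul, Matrix.det_mul, y.2, (y⁻¹).2, Matrix.det_fin_two_of]
  ring

theorem yMat_one_zero (y : SL(2, ℤ)) (Q : ℤ) : yMat y Q 1 0 = (Q - 1) * (y 1 0 * y 1 1) := by
  obtain ⟨i1, i2, i3, i4⟩ := inv_entries y
  rw [yMat, Matrix.mul_apply, Fin.sum_univ_two, Matrix.mul_apply, Matrix.mul_apply,
    Fin.sum_univ_two, Fin.sum_univ_two]
  change (y 1 0 * Q + y 1 1 * 0) * y⁻¹ 0 0 + (y 1 0 * 0 + y 1 1 * 1) * y⁻¹ 1 0 = _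
  rw [i1, i3]
  ring

theorem yMat_rel {Q : ℤ} {g g' : SL(2, ℤ)} (h : HR Q g g') (y : SL(2, ℤ)) :
    ((y * g * y⁻¹ : SL(2, ℤ)) : Matrix (Fin 2) (Fin 2) ℤ) * yMat y Q =
      yMat y Q * ((y * g' * y⁻¹ : SL(2, ℤ)) : Matrix (Fin 2) (Fin 2) ℤ) := by
  obtain ⟨h1, h2, h3, h4⟩ := h
  have key : (g : Matrix (Fin 2) (Fin 2) ℤ) * !![Q, 0; 0, 1] =
      !![Q, 0; 0, 1] * (g' : Matrix (Fin 2) (Fin 2) ℤ) := by
    ext i j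
    fin_cases i <;> fin_cases j
    · change (_ : Matrix (Fin 2) (Fin 2) ℤ) 0 0 = (_ : Matrix (Fin 2) (Fin 2) ℤ) 0 0
      rw [Matrix.mul_apply, Matrix.mul_apply, Fin.sum_univ_two, Fin.sum_univ_two]
      change g 0 0 * Q + g 0 1 * 0 = Q * g' 0 0 + 0 * g' 1 0
      rw [h1]; ring
    · change (_ : Matrix (Fin 2) (Fin 2) ℤ) 0 1 = (_ : Matrix (Fin 2) (Fin 2) ℤ) 0 1
      rw [Matrix.mul_apply, Matrix.mul_apply, Fin.sum_univ_two, Fin.sum_univ_two]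
      change g 0 0 * 0 + g 0 1 * 1 = Q * g' 0 1 + 0 * g' 1 1
      rw [h2]; ring
    · change (_ : Matrix (Fin 2) (Fin 2) ℤ) 1 0 = (_ : Matrix (Fin 2) (Fin 2) ℤ) 1 0
      rw [Matrix.mul_apply, Matrix.mul_apply, Fin.sum_univ_two, Fin.sum_univ_two]
      change g 1 0 * Q + g 1 1 * 0 = 0 * g' 0 0 + 1 * g' 1 0
      rw [h3]; ring
    · change (_ : Matrix (Fin 2) (Fin 2) ℤ) 1 1 = (_ : Matrix (Fin 2) (Fin 2) ℤ) 1 1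
      rw [Matrix.mul_apply, Matrix.mul_apply, Fin.sum_univ_two, Fin.sum_univ_two]
      change g 1 0 * 0 + g 1 1 * 1 = 0 * g' 0 1 + 1 * g' 1 1
      rw [h4]; ring
  have hy : ((y⁻¹ : SL(2, ℤ)) : Matrix (Fin 2) (Fin 2) ℤ) * (y : Matrix (Fin 2) (Fin 2) ℤ) = 1 := by
    rw [← Matrix.SpecialLinearGroup.coe_mul, inv_mul_cancel, Matrix.SpecialLinearGroup.coe_one]
  simp only [yMat, Matrix.SpecialLinearGroup.coe_mul]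
  calc (y : Matrix (Fin 2) (Fin 2) ℤ) * g * ((y⁻¹ : SL(2, ℤ)) : Matrix (Fin 2) (Fin 2) ℤ) *
        ((y : Matrix (Fin 2) (Fin 2) ℤ) * !![Q, 0; 0, 1] *
          ((y⁻¹ : SL(2, ℤ)) : Matrix (Fin 2) (Fin 2) ℤ))
      = (y : Matrix (Fin 2) (Fin 2) ℤ) * g * (((y⁻¹ : SL(2, ℤ)) : Matrix (Fin 2) (Fin 2) ℤ) *
        (y : Matrix (Fin 2) (Fin 2) ℤ)) * !![Q, 0; 0, 1] *
          ((y⁻¹ : SL(2, ℤ)) : Matrix (Fin 2) (Fin 2) ℤ) := by simp only [mul_assoc]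
    _ = (y : Matrix (Fin 2) (Fin 2) ℤ) * ((g : Matrix (Fin 2) (Fin 2) ℤ) * !![Q, 0; 0, 1]) *
          ((y⁻¹ : SL(2, ℤ)) : Matrix (Fin 2) (Fin 2) ℤ) := by rw [hy]; simp only [mul_assoc, one_mul]
    _ = (y : Matrix (Fin 2) (Fin 2) ℤ) * !![Q, 0; 0, 1] *
        (((y⁻¹ : SL(2, ℤ)) : Matrix (Fin 2) (Fin 2) ℤ) * (y : Matrix (Fin 2) (Fin 2) ℤ)) *
          (g' : Matrix (Fin 2) (Fin 2) ℤ) *
          ((y⁻¹ : SL(2, ℤ)) : Matrix (Fin 2) (Fin 2) ℤ) := by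
        rw [hy, key]; simp only [mul_assoc, one_mul]
    _ = _ := by simp only [mul_assoc]

variable (φ : Gamma0 N →* A)

theorem ex_F [NeZero ℓ] {γ : SL(2, ℤ)} (h : γ ∈ Gamma0 (N * ℓ)) :
    ex (φ.comp (degConj N ℓ)) γ = ex φ (degSL ℓ γ (dvd_of_mem h)) := by
  rw [ex_of_mem _ h, ex_of_mem _ (degSL_mem h)]
  rfl

theorem inv_pair (hq : q.Prime) (hqN : ¬ q ∣ N) (hU : InvR φ ((q : ℤ) ^ 2)) [NeZero ℓ]
    (n : ℕ) (hn : (ℓ : ℤ) ∣ (q : ℤ) ^ (2 * n) - 1) {y g g' : SL(2, ℤ)} (hy : y ∈ Gamma0 N)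
    (hg : y * g * y⁻¹ ∈ Gamma0 (N * ℓ)) (hg' : y * g' * y⁻¹ ∈ Gamma0 (N * ℓ))
    (h : HR ((q : ℤ) ^ (2 * n)) g g') :
    ex (φ.comp (degConj N ℓ)) (y * g * y⁻¹) = ex (φ.comp (degConj N ℓ)) (y * g' * y⁻¹) := by
  have hℓ0 : (ℓ : ℤ) ≠ 0 := by exact_mod_cast NeZero.ne ℓ
  rw [ex_F φ hg, ex_F φ hg']
  set Q := (q : ℤ) ^ (2 * n) with hQ
  obtain ⟨k, hk⟩ := hn
  obtain ⟨s, hs⟩ := mem_Gamma0_iff_dvd.mp hy
  have hY10 : yMat y Q 1 0 = ℓ * (N * (k * s * y 1 1)) := by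
    rw [yMat_one_zero, hk, hs]; ring
  have hdvd : (ℓ : ℤ) ∣ yMat y Q 1 0 := ⟨_, hY10⟩
  have hdet := yMat_det y Q
  rw [Matrix.det_fin_two] at hdet
  refine inv_main φ hq hqN hU n (yMat y Q 0 0) (ℓ * yMat y Q 0 1) (yMat y Q 1 0 / ℓ)
    (yMat y Q 1 1) ?_ ?_ (degSL ℓ (y * g' * y⁻¹) (dvd_of_mem hg'))
    (degSL ℓ (y * g * y⁻¹) (dvd_of_mem hg)) (degSL_mem hg') (degSL_mem hg) ?_
  · rw [← hQ]
    have h1 : (ℓ : ℤ) * yMat y Q 0 1 * (yMat y Q 1 0 / ℓ) = yMat y Q 0 1 * yMat y Q 1 0 := by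
      rw [mul_comm (ℓ : ℤ), mul_assoc, Int.mul_ediv_cancel' hdvd]
    rw [h1]
    exact hdet
  · rw [hY10, Int.mul_ediv_cancel_left _ hℓ0]
    exact dvd_mul_right _ _
  · have h1 := yMat_rel h y
    have h2 := degMat_mul (ℓ := ℓ) (M := ((y * g * y⁻¹ : SL(2, ℤ)) : Matrix (Fin 2) (Fin 2) ℤ))
      (M' := yMat y Q) (dvd_of_mem hg) hdvd
    have h3 := degMat_mul (ℓ := ℓ) (M := yMat y Q)
      (M' := ((y * g' * y⁻¹ : SL(2, ℤ)) : Matrix (Fin 2) (Fin 2) ℤ)) hdvd (dvd_of_mem hg')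
    rw [h1, h3] at h2
    exact h2.symm

/-- Triviality on unipotent elements, in terms of the extension. -/
def UniEx {Γ : Subgroup SL(2, ℤ)} (ψ : Γ →* A) : Prop := ∀ γ ∈ Γ, tr2 γ = 2 → ex ψ γ = 1

theorem fdata (hq : q.Prime) (hqN : ¬ q ∣ N) (hU : InvR φ ((q : ℤ) ^ 2)) (hφ : UniEx φ)
    (hℓ : ℓ.Prime) (hℓN : ¬ ℓ ∣ N) [NeZero ℓ] : FData N ℓ q (φ.comp (degConj N ℓ)) where
  uni γ hγ htr := by
    rw [ex_F φ hγ]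
    refine hφ _ (degSL_mem hγ) ?_
    rw [tr2_def] at htr ⊢
    exact htr
  p2 n hn y hy g hg g' hg' h :=
    inv_pair φ hq hqN hU n hn hy (HH_le hℓ hℓN (HH_conj hy hg)) (HH_le hℓ hℓN (HH_conj hy hg')) h

/-- The transfer at an element all whose conjugates lie in `Γ₀(Nℓ)` and have the same value. -/
theorem heckeChar_of_conj [hℓ : Fact ℓ.Prime] (hℓN : ¬ ℓ ∣ N) [NeZero ℓ] (g : Gamma0 N) (a : A)
    (h : ∀ y ∈ Gamma0 N, y * g * y⁻¹ ∈ Gamma0 (N * ℓ) ∧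
      ex (φ.comp (degConj N ℓ)) (y * (g : SL(2, ℤ)) * y⁻¹) = a) :
    heckeChar N ℓ φ g = a ^ (ℓ + 1) := by
  have hq : ∀ q : Gamma0 N ⧸ subGamma N ℓ, g⁻¹ • q = q := by
    intro q
    rw [← QuotientGroup.out_eq' q, MulAction.Quotient.smul_coe, smul_eq_mul]
    rw [QuotientGroup.eq]
    have h1 := (h ((q.out)⁻¹ : Gamma0 N) ((q.out)⁻¹).2).1
    change ((g⁻¹ * q.out)⁻¹ * q.out : Gamma0 N) ∈ (Gamma0 (N * ℓ)).subgroupOf (Gamma0 N)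
    rw [Subgroup.mem_subgroupOf]
    have e : (((g⁻¹ * q.out)⁻¹ * q.out : Gamma0 N) : SL(2, ℤ)) =
      ((q.out)⁻¹ : Gamma0 N) * (g : SL(2, ℤ)) * (((q.out)⁻¹ : Gamma0 N) : SL(2, ℤ))⁻¹ := by
      push_cast
      group
    rw [e]
    exact h1
  rw [heckeChar, transfer_eq_prod_out _ g (out_mem g), ← prod_const_cosets hℓN a]
  refine Finset.prod_congr rfl fun q _ => ?_
  rw [← (h ((q.out)⁻¹ : Gamma0 N) ((q.out)⁻¹).2).2]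
  have hmem := (h ((q.out)⁻¹ : Gamma0 N) ((q.out)⁻¹).2).1
  rw [ex_of_mem _ hmem]
  change φ _ = φ _
  congr 1
  change degConj N ℓ _ = degConj N ℓ _
  congr 1
  apply Subtype.ext
  change (((q.out)⁻¹ * g * (g⁻¹ • q).out : Gamma0 N) : SL(2, ℤ)) = _
  rw [hq q]
  push_cast
  group

end

end Fermat.Agent.H22
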