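import Fermat.Agent.H22.ES
import Mathlib.GroupTheory.Schreier
import Mathlib.LinearAlgebra.Matrix.FixedDetMatrices

set_option autoImplicit false

noncomputable section

namespace Fermat.Agent.H22

open CongruenceSubgroup ModularForm Matrix.SpecialLinearGroup ModularCurve
open scoped MatrixGroups

/-! ### Finite generation -/

instance fg_SL2Z : Group.FG SL(2, ℤ) := by
  rw [Group.fg_iff]
  exact ⟨{ModularGroup.S, ModularGroup.T}, SpecialLinearGroup.SL2Z_generators, by simp⟩

instance fg_Gamma0 (N : ℕ) [NeZero N] : Group.FG (Gamma0 N) := by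
  exact Subgroup.fg_of_index_ne_zero _

section Homs

variable {G : Type*} [Group G] [Group.FG G]

/-- `Hom(G, ℤ)` is finitely generated for `G` finitely generated. -/
instance finite_addMonoidHom_int : Module.Finite ℤ (Additive G →+ ℤ) := by
  obtain ⟨s, hs⟩ := (Group.fg_def.mp (inferInstance : Group.FG G) : (⊤ : Subgroup G).FG)
  let Φ : (Additive G →+ ℤ) →ₗ[ℤ] (s → ℤ) :=
    { toFun := fun ψ g => ψ (Additive.ofMul (g : G))
      map_add' := fun _ _ => rfl
      map_smul' := fun _ _ => rfl }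
  refine Module.Finite.of_injective Φ ((injective_iff_map_eq_zero Φ).mpr fun ψ hψ => ?_)
  have h1 : ψ.toMultiplicativeRight = 1 := by
    have h2 : (ψ.toMultiplicativeRight).ker = ⊤ := by
      rw [eq_top_iff, ← hs, Subgroup.closure_le]
      intro g hg
      exact congrFun hψ ⟨g, hg⟩
    ext g
    have : g ∈ (ψ.toMultiplicativeRight).ker := h2 ▸ Subgroup.mem_top g
    exact this
  ext g
  exact DFunLike.congr_fun h1 g

/-- A homomorphism from a finitely generated group to a torsion free group is an integral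
combination of homomorphisms to `ℤ`, with linearly independent coefficients. -/
theorem exists_decomposition {A : Type*} [AddCommGroup A] [Module.IsTorsionFree ℤ A]
    (ψ : Additive G →+ A) :
    ∃ (n : ℕ) (c : Fin n → A) (φ : Fin n → (Additive G →+ ℤ)), LinearIndependent ℤ c ∧
      ∀ g, ψ g = ∑ i, φ i g • c i := by
  have hfg : ((ψ.range.toIntSubmodule : Submodule ℤ A)).FG := by
    have h1 : ψ.range.FG := by
      have : AddGroup.FG (Additive G) := inferInstance
      exact AddGroup.fg_iff_addSubgroup_fg _ |>.mp (AddGroup.fg_range ψ)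
    rw [Submodule.fg_iff_addSubgroup_fg]
    exact h1
  set L : Submodule ℤ A := ψ.range.toIntSubmodule with hL
  have : Module.Finite ℤ L := Module.Finite.iff_fg.mpr hfg
  have : Module.Free ℤ L := inferInstance
  let b := Module.finBasis ℤ L
  have hmem : ∀ g, ψ g ∈ L := fun g => ⟨g, rfl⟩
  refine ⟨_, fun i => (b i : A), fun i =>
    { toFun := fun g => b.repr ⟨ψ g, hmem g⟩ i
      map_zero' := ?_
      map_add' := ?_ }, ?_, ?_⟩
  · have : (⟨ψ 0, hmem 0⟩ : L) = 0 := Subtype.ext ψ.map_zero
    rw [this]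
    simp
  · intro x y
    have : (⟨ψ (x + y), hmem (x + y)⟩ : L) = ⟨ψ x, hmem x⟩ + ⟨ψ y, hmem y⟩ :=
      Subtype.ext (ψ.map_add x y)
    change b.repr ⟨ψ (x + y), hmem (x + y)⟩ i = _
    rw [this, map_add, Finsupp.add_apply]
  · exact b.linearIndependent.map' L.subtype (Submodule.ker_subtype L)
  · intro g
    have h := congrArg Subtype.val (b.sum_repr ⟨ψ g, hmem g⟩)
    rw [AddSubmonoidClass.coe_finsetSum] at h
    exact h.symm

end Homs

/-! ### The lattice of parabolic homomorphisms -/

section Parabolic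

variable {N : ℕ} [NeZero N]

/-- Homomorphisms to a torsion free group kill elliptic elements. -/
theorem apply_eq_zero_of_tr2_sq_lt {A : Type*} [AddCommGroup A] [Module.IsTorsionFree ℤ A]
    (ψ : Additive (Gamma0 N) →+ A) (γ : Gamma0 N) (h : tr2 (γ : SL(2, ℤ)) ^ 2 < 4) :
    ψ (Additive.ofMul γ) = 0 := by
  have hpow : γ ^ 12 = 1 := by
    apply Subtype.ext
    apply Subtype.ext
    have h1 : (((γ ^ 12 : Gamma0 N) : SL(2, ℤ)) : Matrix (Fin 2) (Fin 2) ℤ) =
      ((γ : SL(2, ℤ)) : Matrix (Fin 2) (Fin 2) ℤ) ^ 12 := rfl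
    rw [h1]
    set M := ((γ : SL(2, ℤ)) : Matrix (Fin 2) (Fin 2) ℤ) with hM
    have hdet : M.det = 1 := (γ : SL(2, ℤ)).2
    have hCH : M ^ 2 = M.trace • M - 1 := by
      rw [Matrix.det_fin_two] at hdet
      rw [Matrix.trace_fin_two]
      generalize ha : M 0 0 = a at *
      generalize hb : M 0 1 = b at *
      generalize hc : M 1 0 = c at *
      generalize hd : M 1 1 = d at *
      have hM' : M = !![a, b; c, d] := by
        ext i j
        fin_cases i <;> fin_cases j <;> simp [ha, hb, hc, hd]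
      rw [hM', pow_two, Matrix.mul_fin_two, Matrix.one_fin_two, Matrix.smul_of]
      ext i j
      fin_cases i <;> fin_cases j
      · simp
        linear_combination -hdet
      · simp
        ring
      · simp
        ring
      · simp
        linear_combination -hdet
    have ht : M.trace = 0 ∨ M.trace = 1 ∨ M.trace = -1 := by
      have h2 : M.trace ^ 2 < 4 := h
      have h3 : -2 < M.trace := by nlinarith
      have h4 : M.trace < 2 := by nlinarith
      omega
    rcases ht with ht | ht | ht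
    · rw [ht, zero_smul, zero_sub] at hCH
      rw [show 12 = 2 * 6 by norm_num, pow_mul, hCH]
      rw [show 6 = 2 * 3 by norm_num, pow_mul, neg_one_sq, one_pow]
      rfl
    · rw [ht, one_smul] at hCH
      have h3 : M ^ 3 = -1 := by
        rw [pow_succ, hCH, sub_mul, ← pow_two, hCH]
        simp
      rw [show 12 = 3 * 4 by norm_num, pow_mul, h3]
      rw [show 4 = 2 * 2 by norm_num, pow_mul, neg_one_sq, one_pow]
      rfl
    · rw [ht, neg_smul, one_smul] at hCH
      have h3 : M ^ 3 = 1 := by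
        rw [pow_succ, hCH, sub_mul, neg_mul, ← pow_two, hCH]
        simp
      rw [show 12 = 3 * 4 by norm_num, pow_mul, h3, one_pow]
      rfl
  have h12 : (12 : ℤ) • ψ (Additive.ofMul γ) = 0 := by
    rw [← map_zsmul, ← ofMul_zpow]
    have : γ ^ (12 : ℤ) = 1 := by exact_mod_cast hpow
    rw [this, ofMul_one, map_zero]
  exact (smul_eq_zero.mp h12).resolve_left (by norm_num)

theorem killsParEll_of_mem {A : Type*} [AddCommGroup A] [Module.IsTorsionFree ℤ A]
    {R : Type*} [CommRing R] [Module R A]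
    {ψ : Additive (Gamma0 N) →+ A} (h : ψ ∈ Period.parabolicHoms R (Gamma0 N) A) (γ : Gamma0 N)
    (hγ : ((γ : SL(2, ℤ)) : Matrix (Fin 2) (Fin 2) ℤ).trace ^ 2 ≤ 4) :
    ψ (Additive.ofMul γ) = 0 := by
  rcases hγ.lt_or_eq with h1 | h1
  · exact apply_eq_zero_of_tr2_sq_lt ψ γ h1
  · exact h γ h1

variable (N) in
/-- The part of the lattice of parabolic homomorphisms killed by the annihilator of `S₂`. -/
def formsLattice : Submodule ℤ (Additive (Gamma0 N) →+ ℤ) where
  carrier := {ψ | ψ ∈ Period.parabolicHoms ℤ (Gamma0 N) ℤ ∧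
    ∀ t : HeckeAlg, CuspForm.heckeEvalForms N 2 t = 0 → heckeAct ℤ N ℤ t ψ = 0}
  zero_mem' := ⟨Submodule.zero_mem _, fun t _ => map_zero _⟩
  add_mem' {a b} ha hb := ⟨Submodule.add_mem _ ha.1 hb.1, fun t ht => by
    rw [map_add, ha.2 t ht, hb.2 t ht, add_zero]⟩
  smul_mem' c a ha := ⟨Submodule.smul_mem _ c ha.1, fun t ht => by
    rw [map_smul, ha.2 t ht, smul_zero]⟩

theorem heckeAct_mem_formsLattice (t : HeckeAlg) {ψ : Additive (Gamma0 N) →+ ℤ}
    (h : ψ ∈ formsLattice N) : heckeAct ℤ N ℤ t ψ ∈ formsLattice N := by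
  refine ⟨heckeAct_mem_parabolicHoms ℤ N ℤ t h.1, fun s hs => ?_⟩
  rw [← Module.End.mul_apply, ← map_mul, mul_comm, map_mul, Module.End.mul_apply, h.2 s hs,
    map_zero]

theorem smul_mem_formsLattice {k : ℤ} (hk : k ≠ 0) {ψ : Additive (Gamma0 N) →+ ℤ}
    (h : k • ψ ∈ formsLattice N) : ψ ∈ formsLattice N := by
  have key : ∀ φ : Additive (Gamma0 N) →+ ℤ, k • φ = 0 → φ = 0 := by
    intro φ hφ
    refine AddMonoidHom.ext fun γ => ?_
    have h1 := DFunLike.congr_fun hφ γ
    have h2 : k * φ γ = 0 := h1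
    exact (mul_eq_zero.mp h2).resolve_left hk
  refine ⟨fun γ hγ => ?_, fun t ht => ?_⟩
  · have h1 := h.1 γ hγ
    have h2 : k * ψ (Additive.ofMul γ) = 0 := h1
    exact (mul_eq_zero.mp h2).resolve_left hk
  · apply key
    rw [← map_smul]
    exact h.2 t ht

/-- Every component of an Eichler–Shimura class lies in the lattice. -/
theorem component_mem_formsLattice (f : CuspForm (Gamma0 N) 2) {n : ℕ} {c : Fin n → ℂ}
    {φ : Fin n → (Additive (Gamma0 N) →+ ℤ)} (hc : LinearIndependent ℤ c)
    (h : ∀ g, esMap N f g = ∑ i, φ i g • c i) (i : Fin n) : φ i ∈ formsLattice N := by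
  have hdecomp : esMap N f = ∑ i, ((smulAddHom ℤ ℂ).flip (c i)).comp (φ i) := by
    refine AddMonoidHom.ext fun g => ?_
    rw [h g, AddMonoidHom.finsetSum_apply]
    rfl
  refine ⟨fun γ hγ => ?_, fun t ht => ?_⟩
  · have h1 := esMap_mem f γ hγ
    rw [h] at h1
    exact linearIndependent_iff'.mp hc Finset.univ (fun i => φ i (Additive.ofMul γ)) h1 i
      (Finset.mem_univ i)
  · refine AddMonoidHom.ext fun γ => ?_
    have h1 := esMap_hecke t f
    rw [ht, hdecomp, map_sum] at h1
    have h2 := DFunLike.congr_fun h1 γ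
    rw [AddMonoidHom.finsetSum_apply] at h2
    simp only [heckeAct_map (R := ℤ) (R' := ℂ)] at h2
    have h3 : ∑ i, (heckeAct ℤ N ℤ t (φ i) γ) • c i = 0 := by
      have h4 : (esMap N (((0 : CuspForm.heckeAlgebra N 2 ∅) :
        Module.End ℂ (CuspForm (Gamma0 N) 2)) f)) γ = 0 := by
        rw [show (((0 : CuspForm.heckeAlgebra N 2 ∅) :
          Module.End ℂ (CuspForm (Gamma0 N) 2)) f) = 0 from rfl, map_zero]
        rfl
      rw [h4] at h2
      exact h2.symm
    exact linearIndependent_iff'.mp hc Finset.univ (fun i => heckeAct ℤ N ℤ t (φ i) γ) h3 i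
      (Finset.mem_univ i)

/-- **Faithfulness**: the annihilator of the lattice is the annihilator of `S₂`. -/
theorem heckeEvalForms_eq_zero_of (t : HeckeAlg)
    (h : ∀ ψ ∈ formsLattice N, heckeAct ℤ N ℤ t ψ = 0) : CuspForm.heckeEvalForms N 2 t = 0 := by
  apply Subtype.ext
  refine LinearMap.ext fun f => ?_
  apply esMap_injective
  rw [esMap_hecke]
  obtain ⟨n, c, φ, hc, hφ⟩ := exists_decomposition (esMap N f)
  have hdecomp : esMap N f = ∑ i, ((smulAddHom ℤ ℂ).flip (c i)).comp (φ i) := by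
    refine AddMonoidHom.ext fun g => ?_
    rw [hφ g, AddMonoidHom.finsetSum_apply]
    rfl
  rw [hdecomp, map_sum]
  simp only [heckeAct_map (R := ℤ) (R' := ℂ)]
  rw [Finset.sum_eq_zero fun i _ => by
    rw [h _ (component_mem_formsLattice f hc hφ i), AddMonoidHom.comp_zero]]
  exact (map_zero (esMap N)).symm

end Parabolic

end Fermat.Agent.H22
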