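import Fermat.Agent.H22.GamH

set_option autoImplicit false

noncomputable section

/-! ### Commutation of Hecke operators on characters of `Γ_H(N)` -/

namespace Fermat.Agent.H22

open CongruenceSubgroup Function
open scoped MatrixGroups

theorem det_eq (γ : SL(2, ℤ)) : γ 0 0 * γ 1 1 - γ 0 1 * γ 1 0 = 1 := by
  have := γ.2
  rwa [Matrix.det_fin_two] at this

/-- The inverse of conjugation by `diag(ℓ, 1)`: `(a b; c d) ↦ (a b/ℓ; ℓc d)`. -/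
def upSL (ℓ : ℕ) (γ : SL(2, ℤ)) (h : (ℓ : ℤ) ∣ γ 0 1) : SL(2, ℤ) :=
  ⟨!![γ 0 0, γ 0 1 / ℓ; ℓ * γ 1 0, γ 1 1], by
    rw [Matrix.det_fin_two_of, ← mul_assoc, Int.ediv_mul_cancel h]
    exact det_eq γ⟩

section

variable (ℓ : ℕ) (γ : SL(2, ℤ)) (h : (ℓ : ℤ) ∣ γ 0 1)

theorem upSL_zero_zero : upSL ℓ γ h 0 0 = γ 0 0 := rfl
theorem upSL_zero_one : upSL ℓ γ h 0 1 = γ 0 1 / ℓ := rfl
theorem upSL_one_zero : upSL ℓ γ h 1 0 = ℓ * γ 1 0 := rfl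
theorem upSL_one_one : upSL ℓ γ h 1 1 = γ 1 1 := rfl

theorem degSL_upSL [NeZero ℓ] (h' : (ℓ : ℤ) ∣ upSL ℓ γ h 1 0) : degSL ℓ (upSL ℓ γ h) h' = γ := by
  have hℓ : (ℓ : ℤ) ≠ 0 := by exact_mod_cast NeZero.ne ℓ
  ext i j
  fin_cases i <;> fin_cases j
  · rfl
  · change (ℓ : ℤ) * (γ 0 1 / ℓ) = γ 0 1
    exact Int.mul_ediv_cancel' h
  · change (ℓ : ℤ) * γ 1 0 / ℓ = γ 1 0
    exact Int.mul_ediv_cancel_left _ hℓ
  · rfl

end

theorem upSL_mem {N ℓ : ℕ} {H : Subgroup (ZMod N)ˣ} {γ : SL(2, ℤ)} (h : (ℓ : ℤ) ∣ γ 0 1)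
    (hγ : γ ∈ GamH N H) : upSL ℓ γ h ∈ GamHl N H ℓ := by
  obtain ⟨h1, h2⟩ := mem_GamH'.mp hγ
  obtain ⟨k, hk⟩ := h1
  refine ⟨mem_GamH'.mpr ⟨⟨ℓ * k, ?_⟩, h2⟩, mem_Gamma0_iff_dvd.mpr ⟨k, ?_⟩⟩
  · rw [upSL_one_zero, hk]; ring
  · rw [upSL_one_zero, hk]; push_cast; ring

/-- The matrix `(1 t; Ks 1+Kst)`. -/
def elemSL (K s t : ℤ) : SL(2, ℤ) :=
  ⟨!![1, t; K * s, 1 + K * s * t], by rw [Matrix.det_fin_two_of]; ring⟩

theorem elemSL_mem {N M : ℕ} (hNM : N ∣ M) (H : Subgroup (ZMod N)ˣ) (s t : ℤ) :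
    elemSL (M : ℤ) s t ∈ GamH N H := by
  obtain ⟨m, rfl⟩ := hNM
  refine mem_GamH'.mpr ⟨⟨m * s, ?_⟩, 1, one_mem _, ?_⟩
  · change ((N * m : ℕ) : ℤ) * s = _
    push_cast; ring
  · change _ = ((1 + ((N * m : ℕ) : ℤ) * s * t : ℤ) : ZMod N)
    push_cast
    simp

theorem elemSL_mem_Gamma0 (M : ℕ) (s t : ℤ) : elemSL (M : ℤ) s t ∈ Gamma0 M :=
  mem_Gamma0_iff_dvd.mpr ⟨s, rfl⟩

/-- Every `γ` can be multiplied on the right by some `(1 t; Ks 1+Kst)` so that the upper right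
entry becomes divisible by `n`. -/
theorem exists_elemSL {γ : SL(2, ℤ)} {K n : ℤ} (hn : n ≠ 0)
    (h : ∃ x y z : ℤ, x * γ 0 0 + y * (γ 0 1 * K) + z * n = 1) :
    ∃ s t : ℤ, n ∣ (γ * elemSL K s t) 0 1 := by
  obtain ⟨x, y, z, hxyz⟩ := h
  obtain ⟨s, hs⟩ := exists_coprime_add_mul (c := n) (d := γ 0 0) (m := γ 0 1 * K) hn
    (x := z) (y := x) (z := y) (by linear_combination hxyz)
  obtain ⟨u, v, huv⟩ := hs
  refine ⟨s, -(v * γ 0 1), γ 0 1 * u, ?_⟩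
  have h1 : (γ * elemSL K s (-(v * γ 0 1))) 0 1 =
      γ 0 0 * (-(v * γ 0 1)) + γ 0 1 * (1 + K * s * (-(v * γ 0 1))) := by
    rw [Matrix.SpecialLinearGroup.coe_mul, Matrix.mul_apply, Fin.sum_univ_two]
    rfl
  rw [h1]
  linear_combination (-γ 0 1) * huv

theorem isCoprime_zero_zero {N : ℕ} {γ : SL(2, ℤ)} (h : γ ∈ Gamma0 N) :
    IsCoprime (γ 0 0) (γ 0 1 * N) := by
  obtain ⟨k, hk⟩ := mem_Gamma0_iff_dvd.mp h
  refine ⟨γ 1 1, -k, ?_⟩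
  have := det_eq γ
  rw [hk] at this
  linear_combination this

section Mul

variable (N : ℕ) (H : Subgroup (ZMod N)ˣ)

theorem degSL_mem_GamHl {m n : ℕ} [NeZero n] {γ : SL(2, ℤ)} (hγ : γ ∈ GamHl N H (m * n))
    (h : (n : ℤ) ∣ γ 1 0) : degSL n γ h ∈ GamHl N H m := by
  have h0 : γ ∈ Gamma0 (N * m * n) := by
    have := hγ.2
    rwa [← mul_assoc] at this
  have h1 : degSL n γ h ∈ Gamma0 (N * m) := degSL_mem h0
  refine ⟨mem_GamH'.mpr ⟨?_, ?_⟩, h1⟩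
  · exact mem_Gamma0_iff_dvd.mp (Gamma0_mul_le N m h1)
  · exact (mem_GamH'.mp hγ.1).2

theorem dvd_of_mem_GamHl {m n : ℕ} {γ : SL(2, ℤ)} (hγ : γ ∈ GamHl N H (m * n)) :
    (n : ℤ) ∣ γ 1 0 := by
  have h0 : γ ∈ Gamma0 (N * m * n) := by
    have := hγ.2
    rwa [← mul_assoc] at this
  exact dvd_of_mem h0

/-- Conjugation by `diag(n, 1)` from `Γ_H(N) ∩ Γ₀(Nmn)` to `Γ_H(N) ∩ Γ₀(Nm)`. -/
def conjHH (m n : ℕ) [NeZero n] : GamHl N H (m * n) →* GamHl N H m where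
  toFun γ := ⟨degSL n γ (dvd_of_mem_GamHl N H γ.2), degSL_mem_GamHl N H γ.2 _⟩
  map_one' := by
    apply Subtype.ext
    apply Subtype.ext
    change degMat n ((1 : SL(2, ℤ)) : Matrix (Fin 2) (Fin 2) ℤ) = 1
    ext i j
    fin_cases i <;> fin_cases j <;> simp [degMat]
  map_mul' γ δ := by
    apply Subtype.ext
    apply Subtype.ext
    exact degMat_mul (dvd_of_mem_GamHl N H γ.2) (dvd_of_mem_GamHl N H δ.2)

theorem GamHl_mul_le (m n : ℕ) : GamHl N H (m * n) ≤ GamHl N H n := by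
  rintro γ ⟨h1, h2⟩
  exact ⟨h1, Gamma0_anti (mul_dvd_mul_left N (dvd_mul_left n m)) h2⟩

instance GamHl_finiteIndex [NeZero N] (ℓ : ℕ) [NeZero ℓ] : (GamHl N H ℓ).FiniteIndex := by
  have : NeZero (N * ℓ) := ⟨mul_ne_zero (NeZero.ne N) (NeZero.ne ℓ)⟩
  unfold GamHl
  infer_instance

theorem finiteIndex_inclusion {G : Type*} [Group G] {K K' : Subgroup G} (h : K ≤ K')
    [K.FiniteIndex] : (Subgroup.inclusion h).range.FiniteIndex := by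
  rw [Subgroup.inclusion_range]
  infer_instance

variable [NeZero N] {A : Type*} [CommGroup A]

/-- `T_n T_m = T_{mn}` for coprime `m, n`. -/
theorem heckeH_heckeH {m n : ℕ} [NeZero m] [NeZero n] [NeZero (m * n)] (hmn : Nat.Coprime m n)
    (ψ : GamH N H →* A) : heckeH N H n (heckeH N H m ψ) = heckeH N H (m * n) ψ := by
  have hn : (n : ℤ) ≠ 0 := by exact_mod_cast NeZero.ne n
  have := finiteIndex_inclusion (GamHl_mul_le N H m n)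
  have key : (tr (inclH N H m) (inclH_injective N H m) (ψ.comp (conjH N H m))).comp (conjH N H n) =
      tr (Subgroup.inclusion (GamHl_mul_le N H m n)) (Subgroup.inclusion_injective _)
        ((ψ.comp (conjH N H m)).comp (conjHH N H m n)) := by
    apply tr_comap
    · intro k
      exact Subtype.ext rfl
    · rintro ⟨g, hg⟩ ⟨k, hk⟩ h
      have h' : degSL n g (dvd_of_mem hg.2) = k := congrArg Subtype.val h
      refine ⟨⟨g, hg.1, mem_Gamma0_iff_dvd.mpr ?_⟩, rfl⟩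
      obtain ⟨c, hc⟩ := mem_Gamma0_iff_dvd.mp hk.2
      rw [← h', degSL_one_zero] at hc
      refine ⟨c, ?_⟩
      rw [← Int.mul_ediv_cancel' (dvd_of_mem hg.2), hc]
      push_cast
      ring
    · rintro ⟨g, hg⟩
      obtain ⟨u, v, huv⟩ := isCoprime_zero_zero (GamH_le_Gamma0 hg)
      obtain ⟨x, y, hxy⟩ := Nat.isCoprime_iff_coprime.mpr hmn
      obtain ⟨s, t, hst⟩ := exists_elemSL (γ := g) (K := ((N * m : ℕ) : ℤ)) hn
        ⟨u * x * m, v * x, y * (u * g 0 0 + v * (g 0 1 * N)), by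
          push_cast
          linear_combination (x * m + y * n) * huv + hxy⟩
      have hmem : elemSL ((N * m : ℕ) : ℤ) s t ∈ GamHl N H m :=
        ⟨elemSL_mem (dvd_mul_right N m) H s t, elemSL_mem_Gamma0 _ s t⟩
      refine ⟨⟨upSL n _ hst, upSL_mem hst ((GamH N H).mul_mem hg hmem.1)⟩,
        ⟨_, (GamHl N H m).inv_mem hmem⟩, ?_⟩
      apply Subtype.ext
      have e0 : degSL n (upSL n _ hst) (dvd_mul_right _ _) = g * elemSL ((N * m : ℕ) : ℤ) s t :=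
        degSL_upSL n _ hst _
      exact eq_mul_inv_of_mul_eq e0.symm
  unfold heckeH
  rw [key, tr_tr _ _ (inclH N H (m * n)) (fun _ => rfl) _ _ (inclH_injective N H (m * n))]
  congr 1
  ext γ
  change ψ _ = ψ _
  congr 1
  apply Subtype.ext
  ext i j
  fin_cases i <;> fin_cases j
  · rfl
  · change (m : ℤ) * ((n : ℤ) * (γ : SL(2, ℤ)) 0 1) = ((m * n : ℕ) : ℤ) * (γ : SL(2, ℤ)) 0 1
    push_cast; ring
  · have h3 : ∀ z : ℤ, z / (n : ℤ) / (m : ℤ) = z / ((m * n : ℕ) : ℤ) := fun z => by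
      rw [Int.ediv_ediv_of_nonneg (by positivity)]
      push_cast
      rw [mul_comm]
    exact h3 _
  · rfl

theorem heckeH_comm {m n : ℕ} [NeZero m] [NeZero n] (hmn : Nat.Coprime m n)
    (ψ : GamH N H →* A) :
    heckeH N H n (heckeH N H m ψ) = heckeH N H m (heckeH N H n ψ) := by
  have h1 : NeZero (m * n) := ⟨mul_ne_zero (NeZero.ne m) (NeZero.ne n)⟩
  have h2 : NeZero (n * m) := ⟨mul_ne_zero (NeZero.ne n) (NeZero.ne m)⟩
  have key : ∀ (a b : ℕ) [NeZero a] [NeZero b], a = b → heckeH N H a ψ = heckeH N H b ψ := by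
    intro a b _ _ h
    subst h
    rfl
  rw [heckeH_heckeH N H hmn, heckeH_heckeH N H hmn.symm]
  exact key _ _ (mul_comm m n)

/-- Hecke operators at primes commute. -/
theorem heckeH_comm_prime {m n : ℕ} [NeZero m] [NeZero n] (hm : m.Prime) (hn : n.Prime)
    (ψ : GamH N H →* A) :
    heckeH N H n (heckeH N H m ψ) = heckeH N H m (heckeH N H n ψ) := by
  by_cases h : m = n
  · subst h
    rfl
  · exact heckeH_comm N H ((Nat.coprime_primes hm hn).mpr h) ψ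

end Mul

section Diamond

variable (N : ℕ) (H : Subgroup (ZMod N)ˣ)

/-- Every class of `(ℤ/N)ˣ` is `d(g)` for some `g ∈ Γ₀(Nℓ)`. -/
theorem exists_dChar_eq [NeZero N] (ℓ : ℕ) [NeZero ℓ] (u : (ZMod N)ˣ) :
    ∃ (g : SL(2, ℤ)) (h : g ∈ Gamma0 N), g ∈ Gamma0 (N * ℓ) ∧ dChar N ⟨g, h⟩ = u := by
  have : NeZero (N * ℓ) := ⟨mul_ne_zero (NeZero.ne N) (NeZero.ne ℓ)⟩
  obtain ⟨U, hU⟩ := ZMod.unitsMap_surjective (dvd_mul_right N ℓ) u
  obtain ⟨e, he⟩ := ZMod.intCast_surjective (U : ZMod (N * ℓ))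
  have h2 : IsUnit ((e : ℤ) : ZMod (N * ℓ)) := he ▸ U.isUnit
  have h3 := (ZMod.coe_int_isUnit_iff_isCoprime e (N * ℓ)).mp h2
  obtain ⟨x, y, hxy⟩ := h3
  let g : SL(2, ℤ) := ⟨!![y, -x; ((N * ℓ : ℕ) : ℤ), e], by
    rw [Matrix.det_fin_two_of]
    linear_combination hxy⟩
  have hg : g ∈ Gamma0 (N * ℓ) := mem_Gamma0_iff_dvd.mpr (dvd_refl _)
  refine ⟨g, Gamma0_mul_le N ℓ hg, hg, ?_⟩
  apply Units.ext
  rw [dChar_val, ← hU, ZMod.unitsMap_val, ← he]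
  change ((e : ℤ) : ZMod N) = _
  rw [ZMod.cast_intCast (dvd_mul_right N ℓ)]

/-- Conjugation by `g ∈ Γ₀(Nℓ)` on `Γ_H(N) ∩ Γ₀(Nℓ)`. -/
def conjGl (ℓ : ℕ) (g : SL(2, ℤ)) (h : g ∈ Gamma0 N) (hg : g ∈ Gamma0 (N * ℓ)) :
    GamHl N H ℓ →* GamHl N H ℓ where
  toFun γ := ⟨g * γ * g⁻¹, conj_mem_GamH N H ⟨g, h⟩ γ.2.1,
    (Gamma0 (N * ℓ)).mul_mem ((Gamma0 (N * ℓ)).mul_mem hg γ.2.2) ((Gamma0 (N * ℓ)).inv_mem hg)⟩
  map_one' := by
    apply Subtype.ext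
    simp
  map_mul' γ δ := by
    apply Subtype.ext
    simp

theorem degSL_mul {ℓ : ℕ} [NeZero ℓ] {γ δ : SL(2, ℤ)} (h : (ℓ : ℤ) ∣ γ 1 0) (h' : (ℓ : ℤ) ∣ δ 1 0)
    (h'' : (ℓ : ℤ) ∣ (γ * δ) 1 0) : degSL ℓ (γ * δ) h'' = degSL ℓ γ h * degSL ℓ δ h' :=
  Subtype.ext (degMat_mul h h')

variable [NeZero N] {A : Type*} [CommGroup A]

/-- Hecke operators commute with diamond operators. -/
theorem heckeH_diamond (ℓ : ℕ) [NeZero ℓ] (g : Gamma0 N) (ψ : GamH N H →* A) :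
    heckeH N H ℓ (diamond N H g ψ) = diamond N H g (heckeH N H ℓ ψ) := by
  obtain ⟨g₀, h, hg₀, hd⟩ := exists_dChar_eq N ℓ (dChar N g)
  have hcong : ∀ φ : GamH N H →* A, diamond N H g φ = diamond N H ⟨g₀, h⟩ φ := fun φ =>
    diamond_congr N H (by rw [hd, inv_mul_cancel]; exact one_mem _) φ
  let g₁ : Gamma0 N := ⟨degSL ℓ g₀ (dvd_of_mem hg₀), degSL_mem hg₀⟩
  have hg₁ : dChar N g₁ = dChar N g := by
    rw [← hd]
    exact Units.ext rfl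
  have hcong' : diamond N H g ψ = diamond N H g₁ ψ :=
    diamond_congr N H (by rw [hg₁, inv_mul_cancel]; exact one_mem _) ψ
  rw [hcong', hcong (heckeH N H ℓ ψ)]
  unfold heckeH
  symm
  have key : (tr (inclH N H ℓ) (inclH_injective N H ℓ) (ψ.comp (conjH N H ℓ))).comp
      (conjG N H ⟨g₀, h⟩) = tr (inclH N H ℓ) (inclH_injective N H ℓ)
        ((ψ.comp (conjH N H ℓ)).comp (conjGl N H ℓ g₀ h hg₀)) := by
    apply tr_comap
    · intro k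
      exact Subtype.ext rfl
    · rintro ⟨γ, hγ⟩ ⟨k, hk⟩ hh
      have h1 : g₀ * γ * g₀⁻¹ = k := congrArg Subtype.val hh
      have h2 : γ = g₀⁻¹ * k * g₀ := by rw [← h1]; group
      refine ⟨⟨γ, hγ, ?_⟩, rfl⟩
      rw [h2]
      exact (Gamma0 (N * ℓ)).mul_mem ((Gamma0 (N * ℓ)).mul_mem ((Gamma0 (N * ℓ)).inv_mem hg₀) hk.2)
        hg₀
    · rintro ⟨γ, hγ⟩
      have h1 := conj_mem_GamH N H (⟨g₀, h⟩⁻¹ : Gamma0 N) hγ
      refine ⟨⟨_, h1⟩, 1, ?_⟩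
      rw [map_one, mul_one]
      apply Subtype.ext
      change γ = g₀ * (g₀⁻¹ * γ * g₀⁻¹⁻¹) * g₀⁻¹
      group
  rw [diamond, key]
  congr 1
  ext γ
  change ψ _ = ψ _
  congr 1
  apply Subtype.ext
  have hinv : g₀⁻¹ ∈ Gamma0 (N * ℓ) := (Gamma0 (N * ℓ)).inv_mem hg₀
  have e1 : degSL ℓ g₀⁻¹ (dvd_of_mem hinv) = (degSL ℓ g₀ (dvd_of_mem hg₀))⁻¹ := by
    rw [eq_inv_iff_mul_eq_one, ← degSL_mul _ _ (by
      rw [inv_mul_cancel]
      exact dvd_zero _)]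
    apply Subtype.ext
    change degMat ℓ ((g₀⁻¹ * g₀ : SL(2, ℤ)) : Matrix (Fin 2) (Fin 2) ℤ) = 1
    rw [inv_mul_cancel]
    ext i j
    fin_cases i <;> fin_cases j <;> simp [degMat]
  have e2 : degSL ℓ (g₀ * (γ : SL(2, ℤ)) * g₀⁻¹)
      (dvd_of_mem (conjGl N H ℓ g₀ h hg₀ γ).2.2) =
      degSL ℓ g₀ (dvd_of_mem hg₀) * degSL ℓ γ (dvd_of_mem γ.2.2) *
        (degSL ℓ g₀ (dvd_of_mem hg₀))⁻¹ := by
    rw [degSL_mul (dvd_of_mem ((Gamma0 (N * ℓ)).mul_mem hg₀ γ.2.2)) (dvd_of_mem hinv),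
      degSL_mul (dvd_of_mem hg₀) (dvd_of_mem γ.2.2), e1]
  exact e2

end Diamond

end Fermat.Agent.H22
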