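import Fermat.Agent.H22.Comm
import Fermat.Agent.H16.Weight2
import Fermat.Prelude.Def_CuspForm_HeckeEvalForms

set_option autoImplicit false

noncomputable section

namespace Fermat.Agent.H22

open CongruenceSubgroup ModularForm Matrix.SpecialLinearGroup ModularCurve
open scoped MatrixGroups

/-! ### Evaluation of polynomials at commuting families -/

section EvalComm

variable {σ E : Type*} [Ring E] (e : σ → E) (h : ∀ i j, e i * e j = e j * e i)

include h in
theorem isMulCommutative_adjoin_range :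
    IsMulCommutative (Algebra.adjoin ℤ (Set.range e)) :=
  Algebra.isMulCommutative_adjoin ℤ (by
    rintro _ ⟨i, rfl⟩ _ ⟨j, rfl⟩
    exact h i j)

open scoped IsMulCommutative in
/-- Evaluation of polynomials with integral coefficients at a commuting family in a ring. -/
def evalComm : MvPolynomial σ ℤ →+* E :=
  have := isMulCommutative_adjoin_range e h
  ((Algebra.adjoin ℤ (Set.range e)).val.comp
    (MvPolynomial.aeval fun i =>
      (⟨e i, Algebra.subset_adjoin (Set.mem_range_self i)⟩ :
        Algebra.adjoin ℤ (Set.range e)) :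
      MvPolynomial σ ℤ →ₐ[ℤ] (Algebra.adjoin ℤ (Set.range e)))).toRingHom

open scoped IsMulCommutative in
@[simp] theorem evalComm_X (i : σ) : evalComm e h (MvPolynomial.X i) = e i := by
  have := isMulCommutative_adjoin_range e h
  change ((MvPolynomial.aeval (R := ℤ) fun i =>
      (⟨e i, Algebra.subset_adjoin (Set.mem_range_self i)⟩ :
        Algebra.adjoin ℤ (Set.range e))) (MvPolynomial.X i) : E) = e i
  rw [MvPolynomial.aeval_X]

/-- Two ring homomorphisms out of a polynomial ring over `ℤ` that are intertwined on generators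
are intertwined. -/
theorem evalComm_intertwine {σ : Type*} {V W : Type*} [AddCommGroup V] [AddCommGroup W]
    {R R' : Type*} [Semiring R] [Semiring R'] [Module R V] [Module R' W]
    (a : MvPolynomial σ ℤ →+* Module.End R V) (b : MvPolynomial σ ℤ →+* Module.End R' W)
    (Φ : V →+ W) (h : ∀ i v, Φ (a (MvPolynomial.X i) v) = b (MvPolynomial.X i) (Φ v))
    (P : MvPolynomial σ ℤ) (v : V) : Φ (a P v) = b P (Φ v) := by
  induction P using MvPolynomial.induction_on generalizing v with
  | C n =>
    have h1 : ∀ n : ℤ, (MvPolynomial.C n : MvPolynomial σ ℤ) = (n : MvPolynomial σ ℤ) := fun n => by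
      rw [← MvPolynomial.algebraMap_eq, eq_intCast]
    rw [h1, map_intCast, map_intCast]
    simp
  | add P Q hP hQ => simp only [map_add, LinearMap.add_apply, hP, hQ]
  | mul_X P i hP =>
    rw [map_mul, map_mul, Module.End.mul_apply, Module.End.mul_apply, hP, h]

end EvalComm

section Linear

variable (R : Type*) [CommRing R] (N : ℕ) [NeZero N] (A : Type*) [AddCommGroup A] [Module R A]

/-- The Hecke operator on additive characters of `Γ₀(N)`. -/
def heckeLin (ℓ : ℕ) [NeZero ℓ] : Module.End R (Additive (Gamma0 N) →+ A) where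
  toFun ψ := (heckeChar N ℓ ψ.toMultiplicativeRight).toAdditiveLeft
  map_add' ψ ψ' := by
    have h : (ψ + ψ').toMultiplicativeRight =
      ψ.toMultiplicativeRight * ψ'.toMultiplicativeRight := rfl
    rw [h, heckeChar_mul]
    rfl
  map_smul' r ψ := by
    let f : Multiplicative A →* Multiplicative A :=
      (DistribSMul.toAddMonoidHom A r).toMultiplicative
    have h : (r • ψ).toMultiplicativeRight = f.comp ψ.toMultiplicativeRight := rfl
    rw [h, heckeChar_comp]
    rfl

/-- The Fricke involution on additive characters of `Γ₀(N)`. -/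
def wLin : Module.End R (Additive (Gamma0 N) →+ A) where
  toFun ψ := ψ.comp (MonoidHom.toAdditive (wConj N))
  map_add' _ _ := rfl
  map_smul' _ _ := rfl

theorem wLin_apply (ψ : Additive (Gamma0 N) →+ A) (γ : Gamma0 N) :
    wLin R N A ψ (Additive.ofMul γ) = ψ (Additive.ofMul (wConj N γ)) := rfl

theorem wLin_wLin (ψ : Additive (Gamma0 N) →+ A) : wLin R N A (wLin R N A ψ) = ψ := by
  refine AddMonoidHom.ext fun γ => ?_
  change ψ (Additive.ofMul (wConj N (wConj N γ.toMul))) = ψ γ
  rw [wConj_wConj]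
  rfl

/-- The Fricke twisted Hecke operator on additive characters of `Γ₀(N)`. -/
def starLin (ℓ : ℕ) [Fact ℓ.Prime] : Module.End R (Additive (Gamma0 N) →+ A) :=
  have : NeZero ℓ := ⟨(Fact.out : ℓ.Prime).ne_zero⟩
  wLin R N A * heckeLin R N A ℓ * wLin R N A

theorem starLin_apply (ℓ : ℕ) [Fact ℓ.Prime] (ψ : Additive (Gamma0 N) →+ A) :
    starLin R N A ℓ ψ = (heckeStar N ℓ ψ.toMultiplicativeRight).toAdditiveLeft := rfl

theorem wLin_starLin (ℓ : ℕ) [Fact ℓ.Prime] [NeZero ℓ] (ψ : Additive (Gamma0 N) →+ A) :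
    wLin R N A (starLin R N A ℓ ψ) = heckeLin R N A ℓ (wLin R N A ψ) := by
  unfold starLin
  rw [Module.End.mul_apply, Module.End.mul_apply, wLin_wLin]

theorem heckeLin_comm (ℓ ℓ' : ℕ) [NeZero ℓ] [NeZero ℓ'] (hℓ : ℓ.Prime) (hℓ' : ℓ'.Prime) :
    heckeLin R N A ℓ * heckeLin R N A ℓ' = heckeLin R N A ℓ' * heckeLin R N A ℓ := by
  have : Fact ℓ.Prime := ⟨hℓ⟩
  have : Fact ℓ'.Prime := ⟨hℓ'⟩
  refine LinearMap.ext fun ψ => ?_
  exact congrArg MonoidHom.toAdditiveLeft (heckeChar_comm ψ.toMultiplicativeRight)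

/-- The Hecke operator at a prime. -/
def heckeOpL (ℓ : Nat.Primes) : Module.End R (Additive (Gamma0 N) →+ A) :=
  have : NeZero (ℓ : ℕ) := ⟨ℓ.2.ne_zero⟩
  heckeLin R N A ℓ

theorem heckeOpL_comm (ℓ ℓ' : Nat.Primes) :
    heckeOpL R N A ℓ * heckeOpL R N A ℓ' = heckeOpL R N A ℓ' * heckeOpL R N A ℓ := by
  have : NeZero (ℓ : ℕ) := ⟨ℓ.2.ne_zero⟩
  have : NeZero (ℓ' : ℕ) := ⟨ℓ'.2.ne_zero⟩
  exact heckeLin_comm R N A ℓ ℓ' ℓ.2 ℓ'.2

/-- The action of the abstract Hecke algebra on additive characters of `Γ₀(N)`. -/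
def heckeAct : HeckeAlg →+* Module.End R (Additive (Gamma0 N) →+ A) :=
  evalComm (heckeOpL R N A) (heckeOpL_comm R N A)

@[simp] theorem heckeAct_heckeGen (ℓ : Nat.Primes) :
    heckeAct R N A (heckeGen ℓ) = heckeOpL R N A ℓ := evalComm_X _ _ ℓ

variable {R N A} in
/-- Functoriality in the coefficients. -/
theorem heckeLin_map {R' : Type*} [CommRing R'] {B : Type*} [AddCommGroup B] [Module R' B]
    (f : A →+ B) (ℓ : ℕ) [NeZero ℓ] (ψ : Additive (Gamma0 N) →+ A) :
    heckeLin R' N B ℓ (f.comp ψ) = f.comp (heckeLin R N A ℓ ψ) := by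
  have h := heckeChar_comp N ℓ f.toMultiplicative ψ.toMultiplicativeRight
  exact congrArg MonoidHom.toAdditiveLeft h

variable {R N A} in
/-- Functoriality in the coefficients. -/
theorem heckeAct_map {R' : Type*} [CommRing R'] {B : Type*} [AddCommGroup B] [Module R' B]
    (f : A →+ B) (t : HeckeAlg) (ψ : Additive (Gamma0 N) →+ A) :
    heckeAct R' N B t (f.comp ψ) = f.comp (heckeAct R N A t ψ) := by
  let Φ : (Additive (Gamma0 N) →+ A) →+ (Additive (Gamma0 N) →+ B) :=
    { toFun := fun ψ => f.comp ψ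
      map_zero' := by ext; simp
      map_add' := fun a b => by ext; simp }
  refine (evalComm_intertwine (heckeAct R N A) (heckeAct R' N B) Φ (fun ℓ ψ => ?_) t ψ).symm
  have h1 := heckeAct_heckeGen R N A ℓ
  have h2 := heckeAct_heckeGen R' N B ℓ
  unfold heckeGen at h1 h2
  rw [h1, h2]
  have : NeZero (ℓ : ℕ) := ⟨ℓ.2.ne_zero⟩
  exact (heckeLin_map f ℓ ψ).symm

theorem heckeLin_mem_parabolicHoms (ℓ : ℕ) [NeZero ℓ] {ψ : Additive (Gamma0 N) →+ A}
    (h : ψ ∈ Period.parabolicHoms R (Gamma0 N) A) :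
    heckeLin R N A ℓ ψ ∈ Period.parabolicHoms R (Gamma0 N) A := by
  have h' : KillsParabolic ψ.toMultiplicativeRight := fun γ hγ => h γ hγ
  exact fun γ hγ => h'.heckeChar N ℓ γ hγ

theorem heckeAct_mem_parabolicHoms (t : HeckeAlg) {ψ : Additive (Gamma0 N) →+ A}
    (h : ψ ∈ Period.parabolicHoms R (Gamma0 N) A) :
    heckeAct R N A t ψ ∈ Period.parabolicHoms R (Gamma0 N) A := by
  induction t using MvPolynomial.induction_on generalizing ψ with
  | C n =>
    rw [← MvPolynomial.algebraMap_eq, eq_intCast, map_intCast]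
    have h1 : ((n : Module.End R (Additive (Gamma0 N) →+ A)) ψ) = (n : R) • ψ := by
      rw [Module.End.intCast_apply, Int.cast_smul_eq_zsmul]
    rw [h1]
    exact Submodule.smul_mem _ _ h
  | add P Q hP hQ =>
    rw [map_add, LinearMap.add_apply]
    exact Submodule.add_mem _ (hP h) (hQ h)
  | mul_X P ℓ hP =>
    have h1 := heckeAct_heckeGen R N A ℓ
    unfold heckeGen at h1
    rw [map_mul, Module.End.mul_apply, h1]
    have : NeZero (ℓ : ℕ) := ⟨ℓ.2.ne_zero⟩
    exact hP (heckeLin_mem_parabolicHoms R N A ℓ h)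

/-- The action of the abstract Hecke algebra on parabolic homomorphisms. -/
def heckeActPar : HeckeAlg →+* Module.End R (Period.parabolicHoms R (Gamma0 N) A) where
  toFun t := (heckeAct R N A t).restrict fun _ h => heckeAct_mem_parabolicHoms R N A t h
  map_one' := by
    refine LinearMap.ext fun w => Subtype.ext ?_
    change heckeAct R N A 1 (w : Additive (Gamma0 N) →+ A) = w
    rw [map_one]
    rfl
  map_mul' s t := by
    refine LinearMap.ext fun w => Subtype.ext ?_
    change heckeAct R N A (s * t) (w : Additive (Gamma0 N) →+ A) =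
      heckeAct R N A s (heckeAct R N A t w)
    rw [map_mul]
    rfl
  map_zero' := by
    refine LinearMap.ext fun w => Subtype.ext ?_
    change heckeAct R N A 0 (w : Additive (Gamma0 N) →+ A) = 0
    rw [map_zero]
    rfl
  map_add' s t := by
    refine LinearMap.ext fun w => Subtype.ext ?_
    change heckeAct R N A (s + t) (w : Additive (Gamma0 N) →+ A) =
      heckeAct R N A s w + heckeAct R N A t w
    rw [map_add]
    rfl

theorem coe_heckeActPar (t : HeckeAlg) (w : Period.parabolicHoms R (Gamma0 N) A) :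
    ((heckeActPar R N A t w : Period.parabolicHoms R (Gamma0 N) A) : Additive (Gamma0 N) →+ A) =
      heckeAct R N A t w := rfl

end Linear

end Fermat.Agent.H22
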