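import Fermat.Agent.H22.Star

set_option autoImplicit false

noncomputable section

namespace Fermat.Agent.H22

open CongruenceSubgroup ModularForm Matrix.SpecialLinearGroup
open scoped MatrixGroups

/-- Given an injective homomorphism `ι : G → K` every homomorphism `ψ : G → A` is the automorphy
factor of some function on `K`. -/
theorem exists_automorphic {G K A : Type*} [Group G] [Group K] [Group A] (ι : G →* K)
    (hι : Function.Injective ι) (ψ : G →* A) :
    ∃ u : K → A, ∀ (g : G) (x : K), u (ι g * x) = ψ g * u x := by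
  classical
  let r : K → K := fun x =>
    (Quotient.out (Quotient.mk (QuotientGroup.rightRel ι.range) x))
  have hr : ∀ x, x * (r x)⁻¹ ∈ ι.range := by
    intro x
    have h := Quotient.mk_out (s := QuotientGroup.rightRel ι.range) x
    exact QuotientGroup.rightRel_apply.mp h
  have hr' : ∀ g x, r (ι g * x) = r x := by
    intro g x
    simp only [r]
    congr 1
    apply Quotient.sound
    refine QuotientGroup.rightRel_apply.mpr ?_
    rw [mul_inv_rev, ← mul_assoc, mul_inv_cancel, one_mul]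
    exact ι.range.inv_mem ⟨g, rfl⟩
  choose γ hγ using hr
  refine ⟨fun x => ψ (γ x), fun g x => ?_⟩
  change ψ (γ (ι g * x)) = ψ g * ψ (γ x)
  rw [← map_mul]
  congr 1
  apply hι
  rw [hγ, hr', map_mul, hγ, mul_assoc]

section Mat

variable {ℓ ℓ' : ℕ}

theorem heckeMatrix_mul (hℓ : ℓ ≠ 0) (hℓ' : ℓ' ≠ 0) (i i' : ℕ) :
    heckeMatrix ℓ i * heckeMatrix ℓ' i' = heckeMatrix (ℓ' * ℓ) (i' + ℓ' * i) := by
  apply Units.ext
  rw [Units.val_mul, val_heckeMatrix hℓ, val_heckeMatrix hℓ', val_heckeMatrix (mul_ne_zero hℓ' hℓ)]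
  ext r s
  fin_cases r <;> fin_cases s <;> simp [Matrix.mul_apply, Fin.sum_univ_two] <;> ring

theorem diag_mul_diag (hℓ : ℓ ≠ 0) (hℓ' : ℓ' ≠ 0) :
    heckeDiagMatrix ℓ * heckeDiagMatrix ℓ' = heckeDiagMatrix ℓ' * heckeDiagMatrix ℓ := by
  apply Units.ext
  rw [Units.val_mul, Units.val_mul, val_heckeDiagMatrix hℓ, val_heckeDiagMatrix hℓ']
  ext r s
  fin_cases r <;> fin_cases s <;> simp [Matrix.mul_apply, Fin.sum_univ_two, mul_comm]

variable (N : ℕ)

/-- `(1 1; 0 1)` as an element of `Γ₀(N)`. -/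
def tGamma : Gamma0 N := ⟨ModularGroup.T, by
  rw [mem_Gamma0_iff_dvd]
  simp [ModularGroup.T]⟩

theorem diag_mul_heckeMatrix (hℓ : ℓ ≠ 0) (hℓ' : ℓ' ≠ 0) (i : ℕ) :
    heckeDiagMatrix ℓ' * heckeMatrix ℓ i =
      mapGL ℝ (((tGamma N) ^ (ℓ' * i / ℓ) : Gamma0 N) : SL(2, ℤ)) *
        (heckeMatrix ℓ (ℓ' * i % ℓ) * heckeDiagMatrix ℓ') := by
  have hT : (((tGamma N) ^ (ℓ' * i / ℓ) : Gamma0 N) : SL(2, ℤ)) =
      ModularGroup.T ^ (ℓ' * i / ℓ) := rfl
  apply Units.ext
  rw [hT, Units.val_mul, Units.val_mul, Units.val_mul, val_heckeMatrix hℓ, val_heckeMatrix hℓ,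
    val_heckeDiagMatrix hℓ', val_mapGL]
  have hT' := ModularGroup.coe_T_zpow ((ℓ' * i / ℓ : ℕ) : ℤ)
  rw [zpow_natCast] at hT'
  rw [hT']
  have hdm : (ℓ' : ℝ) * i = (ℓ' * i % ℓ : ℕ) + ℓ * (ℓ' * i / ℓ : ℕ) := by
    exact_mod_cast (Nat.mod_add_div (ℓ' * i) ℓ).symm
  ext r s
  fin_cases r <;> fin_cases s
  · simp [Matrix.mul_apply, Fin.sum_univ_two]
  · simp only [Matrix.mul_apply, Fin.sum_univ_two, Fin.zero_eta, Fin.mk_one, Fin.isValue,
      Matrix.of_apply, Matrix.cons_val', Matrix.cons_val_zero, Matrix.cons_val_one,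
      Matrix.cons_val_fin_one]
    rw [Int.cast_natCast, Int.cast_one]
    linear_combination hdm
  · simp [Matrix.mul_apply, Fin.sum_univ_two]
  · simp [Matrix.mul_apply, Fin.sum_univ_two]

end Mat

section Comm

variable {N : ℕ} [NeZero N] {ℓ ℓ' : ℕ} [hℓ : Fact ℓ.Prime] [hℓ' : Fact ℓ'.Prime]

theorem prod_range_mul {Y : Type*} [CommMonoid Y] (m n : ℕ) (F : ℕ → Y) :
    ∏ i' ∈ Finset.range m, ∏ i ∈ Finset.range n, F (i' + m * i) =
      ∏ k ∈ Finset.range (m * n), F k := by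
  rw [Finset.prod_comm, mul_comm m n]
  induction n with
  | zero => simp
  | succ n ih =>
    rw [Finset.prod_range_succ, ih, add_mul, one_mul, Finset.prod_range_add]
    congr 1
    refine Finset.prod_congr rfl fun i _ => ?_
    congr 1
    ring

theorem starFun_starFun {X A : Type*} [MulAction (GL (Fin 2) ℝ) X] [CommGroup A]
    (u : X → A) (x : X) :
    starFun N ℓ' (starFun N ℓ u) x =
      (∏ k ∈ Finset.range (ℓ' * ℓ), u (heckeMatrix (ℓ' * ℓ) k • x)) *
      (if ℓ ∣ N then 1 else ∏ i ∈ Finset.range ℓ', u ((heckeDiagMatrix ℓ * heckeMatrix ℓ' i) • x)) *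
      (if ℓ' ∣ N then 1 else
        ∏ i ∈ Finset.range ℓ, u ((heckeMatrix ℓ i * heckeDiagMatrix ℓ') • x)) *
      (if ℓ ∣ N ∨ ℓ' ∣ N then 1 else u ((heckeDiagMatrix ℓ * heckeDiagMatrix ℓ') • x)) := by
  have h1 : ∏ i' ∈ Finset.range ℓ', ∏ i ∈ Finset.range ℓ,
      u (heckeMatrix ℓ i • heckeMatrix ℓ' i' • x) =
      ∏ k ∈ Finset.range (ℓ' * ℓ), u (heckeMatrix (ℓ' * ℓ) k • x) := by
    rw [← prod_range_mul ℓ' ℓ (fun k => u (heckeMatrix (ℓ' * ℓ) k • x))]
    refine Finset.prod_congr rfl fun i' _ => Finset.prod_congr rfl fun i _ => ?_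
    rw [smul_smul, heckeMatrix_mul hℓ.out.ne_zero hℓ'.out.ne_zero]
  unfold starFun
  rw [Finset.prod_mul_distrib, h1]
  by_cases h : ℓ ∣ N <;> by_cases h' : ℓ' ∣ N
  · simp [h, h']
  · simp [h, h', smul_smul]
  · simp [h, h', smul_smul]
  · simp only [h, h', if_false, or_self, smul_smul]
    simp only [mul_assoc]

theorem starFun_comm {A : Type*} [CommGroup A] (ψ : Gamma0 N →* A)
    {X : Type*} [MulAction (GL (Fin 2) ℝ) X] (u : X → A)
    (hu : ∀ (γ : Gamma0 N) (x : X), u (mapGL ℝ (γ : SL(2, ℤ)) • x) = ψ γ * u x) :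
    ∃ C : A, ∀ x : X, starFun N ℓ' (starFun N ℓ u) x = C * starFun N ℓ (starFun N ℓ' u) x := by
  by_cases hne : ℓ = ℓ'
  · subst hne
    exact ⟨1, fun x => (one_mul _).symm⟩
  have key : ∀ (a b : ℕ) [Fact a.Prime] [Fact b.Prime], a ≠ b → ∃ C : A, ∀ x : X,
      ∏ i ∈ Finset.range b, u ((heckeDiagMatrix a * heckeMatrix b i) • x) =
        C * ∏ i ∈ Finset.range b, u ((heckeMatrix b i * heckeDiagMatrix a) • x) := by
    intro a b ha hb hab
    refine ⟨∏ i ∈ Finset.range b, ψ ((tGamma N) ^ (a * i / b)), fun x => ?_⟩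
    have h2 : ∏ i ∈ Finset.range b, u ((heckeMatrix b i * heckeDiagMatrix a) • x) =
        ∏ i ∈ Finset.range b, u ((heckeMatrix b (a * i % b) * heckeDiagMatrix a) • x) := by
      symm
      have hcop : Nat.Coprime a b := (Nat.coprime_primes ha.out hb.out).mpr hab
      have hinj : Set.InjOn (fun i => a * i % b) (Finset.range b : Set ℕ) := by
        intro i hi i' hi' h
        have h3 : a * i ≡ a * i' [MOD b] := h
        have h4 := Nat.ModEq.cancel_left_of_coprime (by rwa [Nat.coprime_iff_gcd_eq_one.symm,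
          Nat.coprime_comm]) h3
        rw [Finset.coe_range, Set.mem_Iio] at hi hi'
        exact Nat.ModEq.eq_of_lt_of_lt h4 hi hi'
      have himg : (Finset.range b).image (fun i => a * i % b) = Finset.range b := by
        apply Finset.eq_of_subset_of_card_le
        · intro k hk
          obtain ⟨i, -, rfl⟩ := Finset.mem_image.mp hk
          exact Finset.mem_range.mpr (Nat.mod_lt _ hb.out.pos)
        · rw [Finset.card_image_of_injOn hinj]
      conv_rhs => rw [← himg]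
      rw [Finset.prod_image hinj]
    rw [h2, ← Finset.prod_mul_distrib]
    refine Finset.prod_congr rfl fun i _ => ?_
    rw [diag_mul_heckeMatrix N hb.out.ne_zero ha.out.ne_zero, ← smul_smul, hu]
  obtain ⟨C1, hC1⟩ := key ℓ ℓ' hne
  obtain ⟨C2, hC2⟩ := key ℓ' ℓ (Ne.symm hne)
  refine ⟨(if ℓ ∣ N then 1 else C1) * (if ℓ' ∣ N then 1 else C2⁻¹), fun x => ?_⟩
  rw [starFun_starFun, starFun_starFun, hC1, hC2, mul_comm ℓ ℓ',
    diag_mul_diag hℓ.out.ne_zero hℓ'.out.ne_zero]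
  by_cases h : ℓ ∣ N <;> by_cases h' : ℓ' ∣ N
  · simp [h, h']
  · simp only [h, h', if_true, if_false, true_or, or_true, mul_one, one_mul]
    rw [mul_left_comm, inv_mul_cancel_left]
  · simp only [h, h', if_true, if_false, true_or, or_true, mul_one, one_mul]
    rw [mul_left_comm]
  · simp only [h, h', if_false, or_self]
    generalize (∏ k ∈ Finset.range (ℓ' * ℓ), u (heckeMatrix (ℓ' * ℓ) k • x)) = a1
    generalize (∏ i ∈ Finset.range ℓ', u ((heckeMatrix ℓ' i * heckeDiagMatrix ℓ) • x)) = a2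
    generalize (∏ i ∈ Finset.range ℓ, u ((heckeMatrix ℓ i * heckeDiagMatrix ℓ') • x)) = a3
    generalize u ((heckeDiagMatrix ℓ' * heckeDiagMatrix ℓ) • x) = a4
    rw [show C1 * C2⁻¹ * (a1 * (C2 * a3) * a2 * a4) = C1 * (C2⁻¹ * C2) * (a1 * a3 * a2 * a4) by
      simp only [mul_assoc, mul_left_comm, mul_comm], inv_mul_cancel, mul_one]
    simp only [mul_assoc, mul_left_comm, mul_comm]

/-- **Hecke operators commute** on characters. -/
theorem heckeStar_comm {A : Type*} [CommGroup A] (ψ : Gamma0 N →* A) :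
    heckeStar N ℓ' (heckeStar N ℓ ψ) = heckeStar N ℓ (heckeStar N ℓ' ψ) := by
  have hinj : Function.Injective
      ((mapGL ℝ).comp (Gamma0 N).subtype : Gamma0 N →* GL (Fin 2) ℝ) := by
    intro a b hab
    exact Subtype.ext (mapGL_injective hab)
  obtain ⟨u, hu⟩ := exists_automorphic _ hinj ψ
  have hu' : ∀ (γ : Gamma0 N) (x : GL (Fin 2) ℝ), u (mapGL ℝ (γ : SL(2, ℤ)) • x) =
      (MonoidHom.id A) (ψ γ) * u x := fun γ x => hu γ x
  obtain ⟨C, hC⟩ := starFun_comm (ℓ := ℓ) (ℓ' := ℓ') ψ u hu'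
  ext g
  have h1 := starFun_automorphy (ℓ := ℓ') (MonoidHom.id A) (heckeStar N ℓ ψ) (starFun N ℓ u)
    (fun γ x => starFun_automorphy (MonoidHom.id A) ψ u hu' γ x) g 1
  have h2 := starFun_automorphy (ℓ := ℓ) (MonoidHom.id A) (heckeStar N ℓ' ψ) (starFun N ℓ' u)
    (fun γ x => starFun_automorphy (MonoidHom.id A) ψ u hu' γ x) g 1
  rw [hC, hC, h2, mul_left_comm] at h1
  exact (mul_right_cancel h1).symm

variable (N ℓ) in
theorem heckeStar_wConj {A : Type*} [CommGroup A] [NeZero ℓ] (ψ : Gamma0 N →* A) :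
    heckeStar N ℓ (ψ.comp (wConj N)) = (heckeChar N ℓ ψ).comp (wConj N) := by
  have h : (ψ.comp (wConj N)).comp (wConj N) = ψ := by
    ext g
    simp [wConj_wConj]
  unfold heckeStar
  rw [h]

variable (N ℓ) in
theorem heckeChar_eq {A : Type*} [CommGroup A] [NeZero ℓ] (ψ : Gamma0 N →* A) :
    heckeChar N ℓ ψ = (heckeStar N ℓ (ψ.comp (wConj N))).comp (wConj N) := by
  rw [heckeStar_wConj]
  ext g
  rw [MonoidHom.comp_apply, MonoidHom.comp_apply, wConj_wConj]

/-- **Hecke operators commute** on characters. -/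
theorem heckeChar_comm {A : Type*} [CommGroup A] [NeZero ℓ] [NeZero ℓ'] (ψ : Gamma0 N →* A) :
    heckeChar N ℓ' (heckeChar N ℓ ψ) = heckeChar N ℓ (heckeChar N ℓ' ψ) := by
  rw [heckeChar_eq N ℓ', ← heckeStar_wConj N ℓ, heckeStar_comm, heckeStar_wConj N ℓ',
    ← heckeChar_eq N ℓ]

end Comm

end Fermat.Agent.H22
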