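import Fermat.Agent.H22.Linear

set_option autoImplicit false

noncomputable section

namespace Fermat.Agent.H22

open UpperHalfPlane hiding I
open CongruenceSubgroup ModularForm Matrix.SpecialLinearGroup ModularCurve
open Fermat.Agent.H16
open scoped MatrixGroups

variable {N : ℕ} [NeZero N]

/-- The classical Hecke sum of functions on the upper half plane. -/
def sumFun (N ℓ : ℕ) (F : ℍ → ℂ) (z : ℍ) : ℂ :=
  (∑ i ∈ Finset.range ℓ, F (heckeMatrix ℓ i • z)) + (if ℓ ∣ N then 0 else F (heckeDiagMatrix ℓ • z))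

theorem sumFun_sub {ℓ : ℕ} [Fact ℓ.Prime] (F : ℍ → ℂ) (ψ : Additive (Gamma0 N) →+ ℂ)
    (hF : ∀ (γ : Gamma0 N) (z : ℍ), F ((γ : SL(2, ℤ)) • z) - F z = ψ (Additive.ofMul γ))
    (γ : Gamma0 N) (z : ℍ) :
    sumFun N ℓ F ((γ : SL(2, ℤ)) • z) - sumFun N ℓ F z =
      starLin ℂ N ℂ ℓ ψ (Additive.ofMul γ) := by
  have key := starFun_automorphy (ℓ := ℓ) (MonoidHom.id (Multiplicative ℂ))
    ψ.toMultiplicativeRight (fun z : ℍ => Multiplicative.ofAdd (F z)) (fun γ z => by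
      have h : F ((γ : SL(2, ℤ)) • z) = ψ (Additive.ofMul γ) + F z := by
        rw [← hF γ z]; ring
      change Multiplicative.ofAdd (F ((γ : SL(2, ℤ)) • z)) = _
      rw [h]
      rfl) γ z
  have e : ∀ z : ℍ, starFun N ℓ (fun z : ℍ => Multiplicative.ofAdd (F z)) z =
      Multiplicative.ofAdd (sumFun N ℓ F z) := by
    intro z
    unfold starFun sumFun
    rw [ofAdd_add, ofAdd_sum]
    congr 1
  rw [e, e] at key
  have key2 := congrArg Multiplicative.toAdd key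
  have key3 : sumFun N ℓ F ((γ : SL(2, ℤ)) • z) = starLin ℂ N ℂ ℓ ψ (Additive.ofMul γ) +
    sumFun N ℓ F z := key2
  rw [key3]
  ring

theorem hasDerivAt_sumFun {ℓ : ℕ} (F f : ℍ → ℂ)
    (hF : ∀ τ : ℍ, HasDerivAt (F ∘ ofComplex) (f τ) τ) (τ : ℍ) :
    HasDerivAt (sumFun N ℓ F ∘ ofComplex)
      ((if ℓ ∣ N then heckeU 2 ℓ f else heckeT 2 ℓ f) τ) τ := by
  have h1 : ∀ i, HasDerivAt ((fun w : ℍ ↦ F (heckeMatrix ℓ i • w)) ∘ ofComplex)
      ((f ∣[(2 : ℤ)] heckeMatrix ℓ i) τ) τ := fun i =>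
    hasDerivAt_comp_smul hF (det_heckeMatrix_pos ℓ i) τ
  have h2 := hasDerivAt_comp_smul hF (det_heckeDiagMatrix_pos ℓ) τ
  have h3 : HasDerivAt (∑ i ∈ Finset.range ℓ, ((fun w : ℍ ↦ F (heckeMatrix ℓ i • w)) ∘ ofComplex))
      (∑ i ∈ Finset.range ℓ, (f ∣[(2 : ℤ)] heckeMatrix ℓ i) τ) τ :=
    HasDerivAt.sum fun i _ => h1 i
  by_cases h : ℓ ∣ N
  · rw [if_pos h, heckeU_def, Finset.sum_apply]
    convert h3 using 1
    funext w
    simp [sumFun, h]
  · rw [if_neg h, heckeT_def, Pi.add_apply, Finset.sum_apply]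
    have e : sumFun N ℓ F ∘ ofComplex =
        (∑ i ∈ Finset.range ℓ, ((fun w : ℍ ↦ F (heckeMatrix ℓ i • w)) ∘ ofComplex)) +
          ((fun w : ℍ ↦ F (heckeDiagMatrix ℓ • w)) ∘ ofComplex) := by
      funext w
      simp [sumFun, h]
    rw [e]
    exact h3.add h2

theorem coe_heckeFormsGen_apply (ℓ : Nat.Primes) (f : CuspForm (Gamma0 N) 2) :
    ⇑((CuspForm.heckeFormsGen N 2 ℓ : Module.End ℂ (CuspForm (Gamma0 N) 2)) f) =
      if (ℓ : ℕ) ∣ N then heckeU 2 ℓ ⇑f else heckeT 2 ℓ ⇑f := by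
  by_cases h : (ℓ : ℕ) ∣ N
  · rw [CuspForm.heckeFormsGen_of_dvd h, if_pos h]
    rfl
  · rw [CuspForm.heckeFormsGen_of_not_dvd h, if_neg h]
    rfl

/-- Hecke equivariance of the period map. -/
theorem periodMap_hecke (ℓ : Nat.Primes) [Fact (ℓ : ℕ).Prime] (f : CuspForm (Gamma0 N) 2) :
    periodMap N ((CuspForm.heckeFormsGen N 2 ℓ : Module.End ℂ (CuspForm (Gamma0 N) 2)) f) =
      starLin ℂ N ℂ ℓ (periodMap N f) := by
  have hper : ∀ (f : CuspForm (Gamma0 N) 2) (γ : Gamma0 N) (z : ℍ),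
      prim (⇑f) ((γ : SL(2, ℤ)) • z) - prim (⇑f) z = periodMap N f (Additive.ofMul γ) := by
    intro f γ z
    rw [periodMap_apply, ← prim_smul_sub f γ.2 z]
  refine AddMonoidHom.ext fun γ => ?_
  set g := ((CuspForm.heckeFormsGen N 2 ℓ : Module.End ℂ (CuspForm (Gamma0 N) 2)) f) with hg
  have h1 := sumFun_sub (ℓ := ℓ) (prim (⇑f)) (periodMap N f) (hper f) γ.toMul UpperHalfPlane.I
  have h2 := hasDerivAt_sumFun (N := N) (ℓ := ℓ) (prim ⇑f) ⇑f
    (cuspidal_coe f).hasPrim.isPrim.deriv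
  rw [← coe_heckeFormsGen_apply, ← hg] at h2
  have h3 := exists_const_of_deriv_eq h2 (cuspidal_coe g).hasPrim.isPrim.deriv
    ((γ.toMul : SL(2, ℤ)) • UpperHalfPlane.I) UpperHalfPlane.I
  have h4 := hper g γ.toMul UpperHalfPlane.I
  change periodMap N g (Additive.ofMul γ.toMul) = starLin ℂ N ℂ ℓ (periodMap N f)
    (Additive.ofMul γ.toMul)
  rw [← h1, ← h4]
  linear_combination -h3

variable (N) in
/-- The Fricke twist of the period map, as a linear map. -/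
def esMap : CuspForm (Gamma0 N) 2 →ₗ[ℂ] (Additive (Gamma0 N) →+ ℂ) :=
  (wLin ℂ N ℂ).comp (existsPeriodMapLinear (N := N)).choose

theorem esMap_apply (f : CuspForm (Gamma0 N) 2) :
    esMap N f = wLin ℂ N ℂ (periodMap N f) := by
  unfold esMap
  rw [LinearMap.comp_apply, (existsPeriodMapLinear (N := N)).choose_spec]

theorem esMap_injective : Function.Injective (esMap N) := by
  refine (injective_iff_map_eq_zero _).mpr fun f hf => ?_
  rw [esMap_apply] at hf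
  apply eq_zero_of_periodMap
  rw [← wLin_wLin ℂ N ℂ (periodMap N f), hf, map_zero]

theorem esMap_mem (f : CuspForm (Gamma0 N) 2) :
    esMap N f ∈ Period.parabolicHoms ℂ (Gamma0 N) ℂ := by
  rw [esMap_apply]
  intro γ hγ
  rw [wLin_apply]
  apply isParabolicHom_periodMap f
  have h := tr2_wConj γ
  unfold tr2 at h
  rw [h]
  exact hγ

theorem esMap_heckeGen (ℓ : Nat.Primes) (f : CuspForm (Gamma0 N) 2) :
    esMap N ((CuspForm.heckeFormsGen N 2 ℓ : Module.End ℂ (CuspForm (Gamma0 N) 2)) f) =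
      heckeOpL ℂ N ℂ ℓ (esMap N f) := by
  have : Fact (ℓ : ℕ).Prime := ⟨ℓ.2⟩
  have : NeZero (ℓ : ℕ) := ⟨ℓ.2.ne_zero⟩
  rw [esMap_apply, periodMap_hecke, wLin_starLin, esMap_apply]
  rfl

/-- **Hecke equivariance** of the (twisted) Eichler–Shimura map. -/
theorem esMap_hecke (t : HeckeAlg) (f : CuspForm (Gamma0 N) 2) :
    esMap N ((CuspForm.heckeEvalForms N 2 t : Module.End ℂ (CuspForm (Gamma0 N) 2)) f) =
      heckeAct ℂ N ℂ t (esMap N f) := by
  let a : HeckeAlg →+* Module.End ℂ (CuspForm (Gamma0 N) 2) :=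
    (CuspForm.heckeAlgebra N 2 ∅).val.toRingHom.comp (CuspForm.heckeEvalForms N 2)
  refine evalComm_intertwine a (heckeAct ℂ N ℂ) (esMap N).toAddMonoidHom (fun ℓ f => ?_) t f
  have h1 := heckeAct_heckeGen ℂ N ℂ ℓ
  have h2 := CuspForm.heckeEvalForms_heckeGen N 2 ℓ
  unfold heckeGen at h1 h2
  rw [h1]
  change esMap N ((CuspForm.heckeEvalForms N 2 (MvPolynomial.X ℓ) :
    Module.End ℂ (CuspForm (Gamma0 N) 2)) f) = _
  rw [h2]
  exact esMap_heckeGen ℓ f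

end Fermat.Agent.H22
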