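import Fermat.Agent.H22.HeckeChar

set_option autoImplicit false

noncomputable section

namespace Fermat.Agent.H22

open CongruenceSubgroup
open scoped MatrixGroups

/-- The trace of an element of `SL(2, ℤ)`. -/
def tr2 (g : SL(2, ℤ)) : ℤ := (g : Matrix (Fin 2) (Fin 2) ℤ).trace

theorem tr2_def (g : SL(2, ℤ)) : tr2 g = g 0 0 + g 1 1 := by
  unfold tr2
  rw [Matrix.trace_fin_two]

theorem tr2_one : tr2 1 = 2 := by
  rw [tr2_def]; simp

theorem tr2_conj (g h : SL(2, ℤ)) : tr2 (h⁻¹ * g * h) = tr2 g := by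
  unfold tr2
  rw [Matrix.SpecialLinearGroup.coe_mul, Matrix.trace_mul_comm,
    ← Matrix.SpecialLinearGroup.coe_mul, mul_inv_cancel_left]

/-- Recursion for traces of powers. -/
theorem tr2_pow_add_two (g : SL(2, ℤ)) (k : ℕ) :
    tr2 (g ^ (k + 2)) = tr2 g * tr2 (g ^ (k + 1)) - tr2 (g ^ k) := by
  have hdet : g 0 0 * g 1 1 - g 0 1 * g 1 0 = 1 := by
    have := g.2
    rwa [Matrix.det_fin_two] at this
  have key : ∀ (M : SL(2, ℤ)), tr2 (g * (g * M)) = tr2 g * tr2 (g * M) - tr2 M := by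
    intro M
    simp only [tr2_def, Matrix.SpecialLinearGroup.coe_mul, Matrix.mul_apply, Fin.sum_univ_two]
    linear_combination (-(M 0 0) - (M 1 1)) * hdet
  have := key (g ^ k)
  rw [← pow_succ', ← pow_succ'] at this
  exact this

theorem tr2_quad (g : SL(2, ℤ)) (k : ℕ) :
    tr2 (g ^ k) ^ 2 - tr2 g * tr2 (g ^ k) * tr2 (g ^ (k + 1)) + tr2 (g ^ (k + 1)) ^ 2 =
      4 - tr2 g ^ 2 := by
  induction k with
  | zero =>
    rw [pow_zero, tr2_one, zero_add, pow_one]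
    ring
  | succ k ih =>
    rw [tr2_pow_add_two]
    linear_combination ih

theorem tr2_pow_sq_le (g : SL(2, ℤ)) (hg : tr2 g ^ 2 < 4) (k : ℕ) : tr2 (g ^ k) ^ 2 ≤ 4 := by
  have h := tr2_quad g k
  have h1 : 0 < 4 - tr2 g ^ 2 := by linarith
  have h2 : (4 - tr2 g ^ 2) * tr2 (g ^ k) ^ 2 ≤ (4 - tr2 g ^ 2) * 4 := by
    nlinarith [sq_nonneg (2 * tr2 (g ^ (k + 1)) - tr2 g * tr2 (g ^ k))]
  exact le_of_mul_le_mul_left h2 h1

theorem tr2_pow_sq_eq (g : SL(2, ℤ)) (hg : tr2 g ^ 2 = 4) (k : ℕ) : tr2 (g ^ k) ^ 2 = 4 := by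
  have h2 : tr2 g = 2 ∨ tr2 g = -2 := by
    have : (tr2 g - 2) * (tr2 g + 2) = 0 := by linear_combination hg
    rcases mul_eq_zero.mp this with h | h
    · left; linarith
    · right; linarith
  obtain ⟨e, he, hge⟩ : ∃ e : ℤ, e ^ 2 = 1 ∧ tr2 g = 2 * e := by
    rcases h2 with h | h
    · exact ⟨1, by norm_num, by rw [h]; norm_num⟩
    · exact ⟨-1, by norm_num, by rw [h]; norm_num⟩
  have key : ∀ k : ℕ, tr2 (g ^ k) = 2 * e ^ k ∧ tr2 (g ^ (k + 1)) = 2 * e ^ (k + 1) := by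
    intro k
    induction k with
    | zero => exact ⟨by rw [pow_zero, tr2_one, pow_zero]; norm_num, by simp [hge]⟩
    | succ k ih =>
      refine ⟨ih.2, ?_⟩
      rw [tr2_pow_add_two, ih.1, ih.2, hge]
      linear_combination (2 * e ^ k) * he
  rw [(key k).1, mul_pow, ← pow_mul, mul_comm k 2, pow_mul, he, one_pow]
  norm_num

theorem tr2_degConj (N ℓ : ℕ) [NeZero ℓ] (γ : Gamma0 (N * ℓ)) :
    tr2 ((degConj N ℓ γ : Gamma0 N) : SL(2, ℤ)) = tr2 (γ : SL(2, ℤ)) := by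
  unfold tr2
  rw [coe_degConj, Matrix.trace_fin_two, Matrix.trace_fin_two]
  simp [degMat]

theorem tr2_subDegConj (N ℓ : ℕ) [NeZero ℓ] (γ : subGamma N ℓ) :
    tr2 ((subDegConj N ℓ γ : Gamma0 N) : SL(2, ℤ)) = tr2 ((γ : Gamma0 N) : SL(2, ℤ)) :=
  tr2_degConj N ℓ _

section

variable (N ℓ : ℕ) [NeZero N] [NeZero ℓ] {A : Type*} [CommGroup A]

/-- If `ψ` kills every element of `Γ₀(N)` whose trace is that of a positive power of `g`, then so
does `T_ℓ ψ` kill `g`. -/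
theorem heckeChar_apply_eq_one (ψ : Gamma0 N →* A) (g : Gamma0 N)
    (h : ∀ (k : ℕ) (γ : Gamma0 N), tr2 (γ : SL(2, ℤ)) = tr2 ((g : SL(2, ℤ)) ^ k) → ψ γ = 1) :
    heckeChar N ℓ ψ g = 1 := by
  classical
  have : Fintype (Quotient (MulAction.orbitRel (Subgroup.zpowers g) (Gamma0 N ⧸ subGamma N ℓ))) :=
    Fintype.ofFinite _
  rw [heckeChar, MonoidHom.transfer_eq_prod_quotient_orbitRel_zpowers_quot]
  refine Finset.prod_eq_one fun q _ => ?_
  apply h (Function.minimalPeriod (g • ·) q.out)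
  rw [tr2_subDegConj]
  push_cast
  exact tr2_conj _ _

/-- Triviality on all elements with `trace² = 4` (i.e. parabolic elements and `±1`) -/
def KillsParabolic {N : ℕ} (ψ : Gamma0 N →* A) : Prop :=
  ∀ γ : Gamma0 N, tr2 (γ : SL(2, ℤ)) ^ 2 = 4 → ψ γ = 1

/-- Triviality on all elements with `trace² ≤ 4` (i.e. parabolic and elliptic elements and `±1`) -/
def KillsParEll {N : ℕ} (ψ : Gamma0 N →* A) : Prop :=
  ∀ γ : Gamma0 N, tr2 (γ : SL(2, ℤ)) ^ 2 ≤ 4 → ψ γ = 1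

theorem KillsParEll.killsParabolic {N : ℕ} {ψ : Gamma0 N →* A} (h : KillsParEll ψ) :
    KillsParabolic ψ := fun γ hγ => h γ hγ.le

theorem KillsParabolic.heckeChar {ψ : Gamma0 N →* A} (h : KillsParabolic ψ) :
    KillsParabolic (heckeChar N ℓ ψ) := fun g hg =>
  heckeChar_apply_eq_one N ℓ ψ g fun k γ hγ => h γ (by rw [hγ]; exact tr2_pow_sq_eq _ hg k)

theorem KillsParEll.heckeChar {ψ : Gamma0 N →* A} (h : KillsParEll ψ) :
    KillsParEll (heckeChar N ℓ ψ) := fun g hg =>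
  heckeChar_apply_eq_one N ℓ ψ g fun k γ hγ => h γ (by
    rw [hγ]
    rcases hg.lt_or_eq with h1 | h1
    · exact tr2_pow_sq_le _ h1 k
    · exact (tr2_pow_sq_eq _ h1 k).le)

end

end Fermat.Agent.H22
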