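import Mathlib

set_option autoImplicit false

/-! ### Strong approximation for `SL(2, ℤ)` -/

namespace Fermat.Agent.H22

open scoped MatrixGroups

/-- If `gcd(c, d, m) = 1` and `c ≠ 0` there is `t` with `gcd(c, d + t m) = 1`. -/
theorem exists_coprime_add_mul {c d m : ℤ} (hc : c ≠ 0) {x y z : ℤ}
    (h : x * c + y * d + z * m = 1) : ∃ t : ℤ, IsCoprime c (d + t * m) := by
  have hcn : c.natAbs ≠ 0 := Int.natAbs_ne_zero.mpr hc
  have : NeZero c.natAbs := ⟨hcn⟩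
  have hgc : Int.gcd c m ∣ c.natAbs :=
    Int.natCast_dvd_natCast.mp (by rw [Int.dvd_natAbs]; exact Int.gcd_dvd_left c m)
  have h0c : ((c : ℤ) : ZMod (Int.gcd c m)) = 0 :=
    (ZMod.intCast_zmod_eq_zero_iff_dvd _ _).mpr (Int.gcd_dvd_left c m)
  have h0m : ((m : ℤ) : ZMod (Int.gcd c m)) = 0 :=
    (ZMod.intCast_zmod_eq_zero_iff_dvd _ _).mpr (Int.gcd_dvd_right c m)
  have hyd : ((y : ℤ) : ZMod (Int.gcd c m)) * ((d : ℤ) : ZMod (Int.gcd c m)) = 1 := by
    have h1 := congrArg (fun n : ℤ => (n : ZMod (Int.gcd c m))) h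
    push_cast at h1
    rw [h0c, h0m] at h1
    simpa using h1
  have hunit : IsUnit ((d : ℤ) : ZMod (Int.gcd c m)) := IsUnit.of_mul_eq_one_right _ hyd
  obtain ⟨U, hU⟩ := ZMod.unitsMap_surjective hgc hunit.unit
  obtain ⟨e, he⟩ := ZMod.intCast_surjective (U : ZMod c.natAbs)
  have he1 : IsCoprime e c := by
    have h2 : IsUnit ((e : ℤ) : ZMod c.natAbs) := he ▸ U.isUnit
    have h3 := (ZMod.coe_int_isUnit_iff_isCoprime e c.natAbs).mp h2
    rw [Int.isCoprime_iff_gcd_eq_one] at h3 ⊢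
    rw [Int.gcd_comm]
    simpa [Int.gcd, Int.natAbs_abs] using h3
  have he2 : ((e : ℤ) : ZMod (Int.gcd c m)) = ((d : ℤ) : ZMod (Int.gcd c m)) := by
    have h3 := congrArg Units.val hU
    rw [ZMod.unitsMap_val, IsUnit.unit_spec, ← he] at h3
    rw [← h3, ZMod.cast_intCast hgc]
  have he3 : ((Int.gcd c m : ℕ) : ℤ) ∣ e - d := by
    rw [← ZMod.intCast_zmod_eq_zero_iff_dvd, Int.cast_sub, he2, sub_self]
  obtain ⟨k, hk⟩ := he3
  have hab := Int.gcd_eq_gcd_ab c m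
  refine ⟨k * Int.gcdB c m, ?_⟩
  have h4 : d + k * Int.gcdB c m * m = e + (-(k * Int.gcdA c m)) * c := by
    rw [hab] at hk
    linear_combination (-1 : ℤ) * hk
  rw [h4]
  exact (he1.add_mul_right_left _).symm

/-- `SL(2, ℤ) → SL(2, ℤ/m)` is surjective: an integral matrix with determinant `1` modulo `m` is
congruent to an element of `SL(2, ℤ)`. -/
theorem exists_SL2_modEq {m a b c d : ℤ} (hm : m ≠ 0) (h : m ∣ a * d - b * c - 1) :
    ∃ γ : SL(2, ℤ), m ∣ γ 0 0 - a ∧ m ∣ γ 0 1 - b ∧ m ∣ γ 1 0 - c ∧ m ∣ γ 1 1 - d := by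
  -- make `c` nonzero
  wlog hc : c ≠ 0 generalizing c
  · push Not at hc
    subst hc
    obtain ⟨γ, h1, h2, h3, h4⟩ := this (c := m) (by
      obtain ⟨k, hk⟩ := h
      exact ⟨k - b, by linear_combination hk⟩) hm
    exact ⟨γ, h1, h2, by
      obtain ⟨k, hk⟩ := h3
      exact ⟨k + 1, by linear_combination hk⟩, h4⟩
  obtain ⟨k, hk⟩ := h
  obtain ⟨t, ht⟩ := exists_coprime_add_mul (c := c) (d := d) (m := m) hc
    (x := -b) (y := a) (z := -k) (by linear_combination hk)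
  obtain ⟨u, v, huv⟩ := ht
  -- `u c + v d' = 1`, `d' = d + t m`
  set d' := d + t * m with hd'
  -- top row `(v, -u) + s (c, d')`
  -- want `v + s c ≡ a`, `-u + s d' ≡ b`:  `s = u (a - v) + v (b + u)`
  set s := u * (a - v) + v * (b + u) with hs
  refine ⟨⟨!![v + s * c, -u + s * d'; c, d'], ?_⟩, ?_, ?_, ?_, ?_⟩
  · rw [Matrix.det_fin_two_of]
    linear_combination huv
  · change m ∣ v + s * c - a
    refine ⟨-(v * (k + a * t)), ?_⟩
    rw [hs]
    linear_combination a * huv - v * hk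
  · change m ∣ -u + s * d' - b
    refine ⟨u * (k + a * t), ?_⟩
    rw [hs]
    linear_combination b * huv + u * hk
  · change m ∣ c - c
    simp
  · change m ∣ d' - d
    exact ⟨t, by rw [hd']; ring⟩

/-- Simultaneous approximation at two coprime moduli. -/
theorem exists_SL2_crt {m n : ℤ} (hm : m ≠ 0) (hn : n ≠ 0) (hmn : IsCoprime m n)
    (α β : SL(2, ℤ)) :
    ∃ γ : SL(2, ℤ), (∀ i j, m ∣ γ i j - α i j) ∧ (∀ i j, n ∣ γ i j - β i j) := by
  obtain ⟨x, y, hxy⟩ := hmn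
  have hα : α 0 0 * α 1 1 - α 0 1 * α 1 0 = 1 := by
    have := α.2
    rwa [Matrix.det_fin_two] at this
  have hβ : β 0 0 * β 1 1 - β 0 1 * β 1 0 = 1 := by
    have := β.2
    rwa [Matrix.det_fin_two] at this
  let E : Fin 2 → Fin 2 → ℤ := fun i j => y * n * α i j + x * m * β i j
  have hEm : ∀ i j, m ∣ E i j - α i j := fun i j =>
    ⟨x * (β i j - α i j), by simp only [E]; linear_combination (α i j) * hxy⟩
  have hEn : ∀ i j, n ∣ E i j - β i j := fun i j =>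
    ⟨y * (α i j - β i j), by simp only [E]; linear_combination (β i j) * hxy⟩
  have hdvd : ∀ (r : ℤ) (δ : SL(2, ℤ)), δ 0 0 * δ 1 1 - δ 0 1 * δ 1 0 = 1 →
      (∀ i j, r ∣ E i j - δ i j) → r ∣ E 0 0 * E 1 1 - E 0 1 * E 1 0 - 1 := by
    intro r δ hδ h
    obtain ⟨a, ha⟩ := h 0 0
    obtain ⟨b, hb⟩ := h 0 1
    obtain ⟨c, hc⟩ := h 1 0
    obtain ⟨d, hd⟩ := h 1 1
    refine ⟨a * E 1 1 + δ 0 0 * d - b * E 1 0 - δ 0 1 * c, ?_⟩
    linear_combination E 1 1 * ha + δ 0 0 * hd - E 1 0 * hb - δ 0 1 * hc + hδ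
  have hmn' : IsCoprime m n := ⟨x, y, hxy⟩
  obtain ⟨γ, h1, h2, h3, h4⟩ := exists_SL2_modEq (m := m * n) (a := E 0 0) (b := E 0 1)
    (c := E 1 0) (d := E 1 1) (mul_ne_zero hm hn)
    (hmn'.mul_dvd (hdvd m α hα hEm) (hdvd n β hβ hEn))
  have hγ : ∀ i j, m * n ∣ γ i j - E i j := by
    intro i j
    fin_cases i <;> fin_cases j
    exacts [h1, h2, h3, h4]
  refine ⟨γ, fun i j => ?_, fun i j => ?_⟩
  · have := dvd_add ((dvd_mul_right m n).trans (hγ i j)) (hEm i j)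
    rwa [sub_add_sub_cancel] at this
  · have := dvd_add ((dvd_mul_left n m).trans (hγ i j)) (hEn i j)
    rwa [sub_add_sub_cancel] at this

end Fermat.Agent.H22
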