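import Fermat.Agent.H22.Tr
import Fermat.Agent.H22.SA
import Fermat.Agent.H22.Parabolic

set_option autoImplicit false

noncomputable section

/-! ### The groups `Γ_H(N)` and Hecke operators on their characters -/

namespace Fermat.Agent.H22

open CongruenceSubgroup Function
open scoped MatrixGroups

/-- The lower right entry modulo `N`, as a homomorphism `Γ₀(N) → (ℤ/N)ˣ`. -/
def dChar (N : ℕ) : Gamma0 N →* (ZMod N)ˣ := (Gamma0Map N).toHomUnits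

@[simp] theorem dChar_val (N : ℕ) (γ : Gamma0 N) :
    ((dChar N γ : (ZMod N)ˣ) : ZMod N) = (((γ : SL(2, ℤ)) 1 1 : ℤ) : ZMod N) := rfl

/-- `Γ_H(N) = {γ ∈ Γ₀(N) | d(γ) mod N ∈ H}`. -/
def GamH (N : ℕ) (H : Subgroup (ZMod N)ˣ) : Subgroup SL(2, ℤ) :=
  (H.comap (dChar N)).map (Gamma0 N).subtype

variable {N : ℕ} {H : Subgroup (ZMod N)ˣ}

theorem mem_GamH {γ : SL(2, ℤ)} : γ ∈ GamH N H ↔ ∃ h : γ ∈ Gamma0 N, dChar N ⟨γ, h⟩ ∈ H := by
  constructor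
  · rintro ⟨⟨x, hx⟩, hx', rfl⟩
    exact ⟨hx, hx'⟩
  · rintro ⟨h, h'⟩
    exact ⟨⟨γ, h⟩, h', rfl⟩

theorem mem_GamH' {γ : SL(2, ℤ)} : γ ∈ GamH N H ↔
    (N : ℤ) ∣ γ 1 0 ∧ ∃ u ∈ H, (u : ZMod N) = ((γ 1 1 : ℤ) : ZMod N) := by
  rw [mem_GamH]
  constructor
  · rintro ⟨h, h'⟩
    exact ⟨mem_Gamma0_iff_dvd.mp h, _, h', rfl⟩
  · rintro ⟨h, u, hu, hu'⟩
    refine ⟨mem_Gamma0_iff_dvd.mpr h, ?_⟩
    convert hu
    exact Units.ext hu'.symm

theorem GamH_le_Gamma0 : GamH N H ≤ Gamma0 N := fun _ h => (mem_GamH.mp h).1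

theorem GamH_top : GamH N ⊤ = Gamma0 N := by
  ext γ
  rw [mem_GamH]
  simp

theorem GamH_bot : GamH N ⊥ = Gamma1 N := by
  ext γ
  rw [mem_GamH', Gamma1_mem]
  have hdet : γ 0 0 * γ 1 1 - γ 0 1 * γ 1 0 = 1 := by
    have := γ.2
    rwa [Matrix.det_fin_two] at this
  constructor
  · rintro ⟨h, u, hu, hu'⟩
    rw [Subgroup.mem_bot] at hu
    subst hu
    have h0 : ((γ 1 0 : ℤ) : ZMod N) = 0 := (ZMod.intCast_zmod_eq_zero_iff_dvd _ _).mpr h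
    have h2 := congrArg (fun n : ℤ => (n : ZMod N)) hdet
    push_cast at h2
    rw [h0, ← hu', Units.val_one] at h2
    exact ⟨by simpa using h2, by rw [← hu', Units.val_one], h0⟩
  · rintro ⟨h1, h2, h3⟩
    exact ⟨(ZMod.intCast_zmod_eq_zero_iff_dvd _ _).mp h3, 1, H22_one_mem_bot, by
      rw [Units.val_one, h2]⟩
where
  H22_one_mem_bot : (1 : (ZMod N)ˣ) ∈ (⊥ : Subgroup (ZMod N)ˣ) := one_mem _

theorem GamH_mono {H' : Subgroup (ZMod N)ˣ} (h : H' ≤ H) : GamH N H' ≤ GamH N H := by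
  intro γ hγ
  obtain ⟨h1, h2⟩ := mem_GamH.mp hγ
  exact mem_GamH.mpr ⟨h1, h h2⟩

theorem Gamma0_anti {N M : ℕ} (h : N ∣ M) : Gamma0 M ≤ Gamma0 N := fun γ hγ => by
  rw [mem_Gamma0_iff_dvd] at hγ ⊢
  exact (Int.natCast_dvd_natCast.mpr h).trans hγ

/-- The level changes `M = N m`, `Γ_{H'}(M) ≤ Γ_H(N)` where `H'` maps to `H`. -/
theorem GamH_le {M : ℕ} (h : N ∣ M) {H' : Subgroup (ZMod M)ˣ}
    (hH : H' ≤ H.comap (ZMod.unitsMap h)) : GamH M H' ≤ GamH N H := by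
  intro γ hγ
  obtain ⟨h1, u, hu, hu'⟩ := mem_GamH'.mp hγ
  refine mem_GamH'.mpr ⟨(Int.natCast_dvd_natCast.mpr h).trans h1, ZMod.unitsMap h u, hH hu, ?_⟩
  rw [ZMod.unitsMap_val, hu', ZMod.cast_intCast h]

theorem GamH_comap {M : ℕ} (h : N ∣ M) :
    GamH M (H.comap (ZMod.unitsMap h)) = GamH N H ⊓ Gamma0 M := by
  apply le_antisymm
  · exact le_inf (GamH_le h le_rfl) GamH_le_Gamma0
  · rintro γ ⟨h1, h2⟩
    refine mem_GamH.mpr ⟨h2, ?_⟩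
    rw [Subgroup.mem_comap]
    obtain ⟨h3, h4⟩ := mem_GamH.mp h1
    convert h4
    apply Units.ext
    rw [ZMod.unitsMap_val, dChar_val, dChar_val, ZMod.cast_intCast h]

instance GamH_finiteIndex [NeZero N] : (GamH N H).FiniteIndex := by
  have h1 : Gamma1 N ≤ GamH N H := by
    rw [← GamH_bot]
    exact GamH_mono bot_le
  exact Subgroup.finiteIndex_of_le h1

/-- `Γ_H(N) ∩ Γ₀(Nℓ)`. -/
def GamHl (N : ℕ) (H : Subgroup (ZMod N)ˣ) (ℓ : ℕ) : Subgroup SL(2, ℤ) :=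
  GamH N H ⊓ Gamma0 (N * ℓ)

section Ops

variable (N : ℕ) (H : Subgroup (ZMod N)ˣ) (ℓ : ℕ)

theorem GamHl_le : GamHl N H ℓ ≤ GamH N H := inf_le_left

/-- The inclusion `Γ_H(N) ∩ Γ₀(Nℓ) → Γ_H(N)`. -/
def inclH : GamHl N H ℓ →* GamH N H := Subgroup.inclusion (GamHl_le N H ℓ)

theorem inclH_injective : Injective (inclH N H ℓ) := Subgroup.inclusion_injective _

@[simp] theorem coe_inclH (γ : GamHl N H ℓ) : ((inclH N H ℓ γ : GamH N H) : SL(2, ℤ)) = γ := rfl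

instance inclH_finiteIndex [NeZero N] [NeZero ℓ] : (inclH N H ℓ).range.FiniteIndex := by
  have : NeZero (N * ℓ) := ⟨mul_ne_zero (NeZero.ne N) (NeZero.ne ℓ)⟩
  rw [inclH, Subgroup.inclusion_range]
  have h2 : (GamHl N H ℓ).FiniteIndex := by
    unfold GamHl
    infer_instance
  infer_instance

variable [NeZero ℓ]

theorem degSL_one_one (γ : SL(2, ℤ)) (h : (ℓ : ℤ) ∣ γ 1 0) : degSL ℓ γ h 1 1 = γ 1 1 := rfl
theorem degSL_zero_zero (γ : SL(2, ℤ)) (h : (ℓ : ℤ) ∣ γ 1 0) : degSL ℓ γ h 0 0 = γ 0 0 := rfl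
theorem degSL_zero_one (γ : SL(2, ℤ)) (h : (ℓ : ℤ) ∣ γ 1 0) : degSL ℓ γ h 0 1 = ℓ * γ 0 1 := rfl
theorem degSL_one_zero (γ : SL(2, ℤ)) (h : (ℓ : ℤ) ∣ γ 1 0) : degSL ℓ γ h 1 0 = γ 1 0 / ℓ := rfl

theorem degSL_mem_GamH {γ : SL(2, ℤ)} (hγ : γ ∈ GamHl N H ℓ) :
    degSL ℓ γ (dvd_of_mem hγ.2) ∈ GamH N H := by
  obtain ⟨h1, h2⟩ := mem_GamH.mp hγ.1
  refine mem_GamH.mpr ⟨degSL_mem hγ.2, ?_⟩
  have h3 : dChar N ⟨degSL ℓ γ (dvd_of_mem hγ.2), degSL_mem hγ.2⟩ = dChar N ⟨γ, h1⟩ :=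
    Units.ext rfl
  rw [h3]
  exact h2

/-- Conjugation by `diag(ℓ, 1)`: `(a b; c d) ↦ (a ℓb; c/ℓ d)`. -/
def conjH : GamHl N H ℓ →* GamH N H where
  toFun γ := ⟨degSL ℓ γ (dvd_of_mem γ.2.2), degSL_mem_GamH N H ℓ γ.2⟩
  map_one' := by
    apply Subtype.ext
    apply Subtype.ext
    change degMat ℓ ((1 : SL(2, ℤ)) : Matrix (Fin 2) (Fin 2) ℤ) = 1
    ext i j
    fin_cases i <;> fin_cases j <;> simp [degMat]
  map_mul' γ δ := by
    apply Subtype.ext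
    apply Subtype.ext
    exact degMat_mul (dvd_of_mem γ.2.2) (dvd_of_mem δ.2.2)

@[simp] theorem coe_conjH (γ : GamHl N H ℓ) :
    ((conjH N H ℓ γ : GamH N H) : SL(2, ℤ)) = degSL ℓ γ (dvd_of_mem γ.2.2) := rfl

variable [NeZero N] {A : Type*} [CommGroup A]

/-- The Hecke operator at `ℓ` (any positive integer) on characters of `Γ_H(N)`: pull back along
conjugation by `diag(ℓ, 1)` and transfer from `Γ_H(N) ∩ Γ₀(Nℓ)` to `Γ_H(N)`. -/
def heckeH (ψ : GamH N H →* A) : GamH N H →* A :=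
  tr (inclH N H ℓ) (inclH_injective N H ℓ) (ψ.comp (conjH N H ℓ))

theorem heckeH_mul (ψ ψ' : GamH N H →* A) :
    heckeH N H ℓ (ψ * ψ') = heckeH N H ℓ ψ * heckeH N H ℓ ψ' :=
  tr_mul (inclH N H ℓ) (inclH_injective N H ℓ) (ψ.comp (conjH N H ℓ)) (ψ'.comp (conjH N H ℓ))

theorem heckeH_comp {B : Type*} [CommGroup B] (f : A →* B) (ψ : GamH N H →* A) :
    heckeH N H ℓ (f.comp ψ) = f.comp (heckeH N H ℓ ψ) :=
  tr_comp (inclH N H ℓ) (inclH_injective N H ℓ) f (ψ.comp (conjH N H ℓ))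

end Ops

section Diamond

variable (N : ℕ) (H : Subgroup (ZMod N)ˣ) {A : Type*} [CommGroup A]

theorem conj_mem_GamH (g : Gamma0 N) {γ : SL(2, ℤ)} (hγ : γ ∈ GamH N H) :
    (g : SL(2, ℤ)) * γ * (g : SL(2, ℤ))⁻¹ ∈ GamH N H := by
  obtain ⟨h1, h2⟩ := mem_GamH.mp hγ
  refine mem_GamH.mpr ⟨(Gamma0 N).mul_mem ((Gamma0 N).mul_mem g.2 h1) ((Gamma0 N).inv_mem g.2), ?_⟩
  have : (⟨(g : SL(2, ℤ)) * γ * (g : SL(2, ℤ))⁻¹, (Gamma0 N).mul_mem
      ((Gamma0 N).mul_mem g.2 h1) ((Gamma0 N).inv_mem g.2)⟩ : Gamma0 N) = g * ⟨γ, h1⟩ * g⁻¹ := rfl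
  rw [this, map_mul, map_mul, map_inv, mul_right_comm, mul_inv_cancel, one_mul]
  exact h2

/-- Conjugation by `g ∈ Γ₀(N)` on `Γ_H(N)`. -/
def conjG (g : Gamma0 N) : GamH N H →* GamH N H where
  toFun γ := ⟨g * γ * (g : SL(2, ℤ))⁻¹, conj_mem_GamH N H g γ.2⟩
  map_one' := by
    apply Subtype.ext
    simp
  map_mul' γ δ := by
    apply Subtype.ext
    simp

@[simp] theorem coe_conjG (g : Gamma0 N) (γ : GamH N H) :
    ((conjG N H g γ : GamH N H) : SL(2, ℤ)) = g * γ * (g : SL(2, ℤ))⁻¹ := rfl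

/-- The diamond operator of `g ∈ Γ₀(N)` on characters of `Γ_H(N)`: `(⟨g⟩ψ)(γ) = ψ(g γ g⁻¹)`. It
only depends on `dChar N g` modulo `H`. -/
def diamond (g : Gamma0 N) (ψ : GamH N H →* A) : GamH N H →* A := ψ.comp (conjG N H g)

theorem diamond_apply (g : Gamma0 N) (ψ : GamH N H →* A) (γ : GamH N H) :
    diamond N H g ψ γ = ψ (conjG N H g γ) := rfl

theorem diamond_of_mem (g : Gamma0 N) (hg : dChar N g ∈ H) (ψ : GamH N H →* A) :
    diamond N H g ψ = ψ := by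
  have hg' : (g : SL(2, ℤ)) ∈ GamH N H := mem_GamH.mpr ⟨g.2, hg⟩
  ext γ
  have : conjG N H g γ = ⟨g, hg'⟩ * γ * ⟨g, hg'⟩⁻¹ := Subtype.ext rfl
  rw [diamond_apply, this, map_mul, map_mul, map_inv, mul_right_comm, mul_inv_cancel, one_mul]

theorem diamond_mul_apply (g g' : Gamma0 N) (ψ : GamH N H →* A) :
    diamond N H (g * g') ψ = diamond N H g' (diamond N H g ψ) := by
  ext γ
  rw [diamond_apply, diamond_apply, diamond_apply]
  congr 1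
  apply Subtype.ext
  simp only [coe_conjG, Subgroup.coe_mul, mul_inv_rev, mul_assoc]

theorem diamond_one (ψ : GamH N H →* A) : diamond N H 1 ψ = ψ := by
  ext γ
  rw [diamond_apply]
  congr 1
  apply Subtype.ext
  simp

theorem diamond_congr {g g' : Gamma0 N} (h : (dChar N g)⁻¹ * dChar N g' ∈ H)
    (ψ : GamH N H →* A) : diamond N H g ψ = diamond N H g' ψ := by
  have h1 : g' = g * (g⁻¹ * g') := by group
  rw [h1, diamond_mul_apply, diamond_of_mem N H (g⁻¹ * g') (by rw [map_mul, map_inv]; exact h)]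

theorem diamond_comm (g g' : Gamma0 N) (ψ : GamH N H →* A) :
    diamond N H g (diamond N H g' ψ) = diamond N H g' (diamond N H g ψ) := by
  rw [← diamond_mul_apply, ← diamond_mul_apply]
  apply diamond_congr
  rw [map_mul, map_mul, mul_comm (dChar N g'), inv_mul_cancel]
  exact one_mem _

theorem diamond_comp {B : Type*} [CommGroup B] (g : Gamma0 N) (f : A →* B) (ψ : GamH N H →* A) :
    diamond N H g (f.comp ψ) = f.comp (diamond N H g ψ) := rfl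

theorem diamond_map_mul (g : Gamma0 N) (ψ ψ' : GamH N H →* A) :
    diamond N H g (ψ * ψ') = diamond N H g ψ * diamond N H g ψ' := rfl

end Diamond

end Fermat.Agent.H22
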