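import Fermat.Agent.H22.C3

/-!
# (C3) for arbitrary characters of odd order
-/

set_option autoImplicit false

noncomputable section

namespace Fermat.Agent.H22

open Matrix.SpecialLinearGroup CongruenceSubgroup ModularForm ModularCurve
open Fermat.Agent.TC
open ModularFormClass (qCoeff)
open scoped MatrixGroups

section

variable {K : Type*} [Field K]

theorem eq_one_of_odd {x : K} {n : ℕ} (hn : Odd n) (h2 : x ^ 2 = 1) (hx : x ^ n = 1) : x = 1 := by
  obtain ⟨k, rfl⟩ := hn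
  rw [pow_succ, pow_mul, h2, one_pow, one_mul] at hx
  exact hx

theorem exists_crt {a b : ℕ} (hab : Nat.Coprime a b) (x y : ℤ) :
    ∃ u : ℤ, (u : ZMod a) = (x : ZMod a) ∧ (u : ZMod b) = (y : ZMod b) := by
  obtain ⟨s, t, hst⟩ := Nat.isCoprime_iff_coprime.mpr hab
  refine ⟨x * (t * b) + y * (s * a), ?_, ?_⟩
  · rw [ZMod.intCast_eq_intCast_iff_dvd_sub]
    exact ⟨(x - y) * s, by linear_combination x * hst.symm⟩
  · rw [ZMod.intCast_eq_intCast_iff_dvd_sub]
    exact ⟨(y - x) * t, by linear_combination y * hst.symm⟩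

theorem intCast_eq_of_dvd {a b : ℕ} (h : a ∣ b) {x y : ℤ} (hxy : (x : ZMod b) = (y : ZMod b)) :
    (x : ZMod a) = (y : ZMod a) := by
  rw [ZMod.intCast_eq_intCast_iff] at hxy ⊢
  exact hxy.of_dvd (by exact_mod_cast h)

theorem intCast_one_of_mul {a b : ℕ} (hab : Nat.Coprime a b) {u : ℤ} (h1 : (u : ZMod a) = 1)
    (h2 : (u : ZMod b) = 1) : (u : ZMod (a * b)) = 1 := by
  have e : ∀ m : ℕ, (u : ZMod m) = 1 ↔ (m : ℤ) ∣ u - 1 := fun m => by
    rw [← ZMod.intCast_zmod_eq_zero_iff_dvd]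
    push_cast
    rw [sub_eq_zero]
  rw [e] at h1 h2 ⊢
  push_cast
  exact (Nat.isCoprime_iff_coprime.mpr hab).mul_dvd h1 h2

end

/-- **(C3)**, allowing trivial components. -/
theorem exists_newform' {N : ℕ} [NeZero N] {H : Subgroup (ZMod N)ˣ}
    {K : Type*} [Field K] [IsAlgClosed K] [CharZero K] {n : ℕ} (hn : Odd n) {φ : HM (GamH N H) K}
    (hφ0 : φ ≠ 0) {D : ℕ} (hD : D ≠ 0) {a : ℕ → K}
    (hT : ∀ (ℓ : ℕ) [NeZero ℓ], ℓ.Prime → ¬ ℓ ∣ N → ¬ ℓ ∣ D → TH K N H K ℓ φ = a ℓ • φ)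
    (Q : ℕ) : ∀ (M' : ℕ) [NeZero Q], N = Q * M' → Squarefree Q → Nat.Coprime Q M' →
      ∀ w : MulChar (ZMod Q) K, (∀ u, w u ≠ 0 → w u ^ n = 1) → φ ∈ psiPart N Q H w →
      (∃ ℓ : ℕ, ℓ.Prime ∧ ((N * Q : ℕ) : ℤ) ∣ (ℓ : ℤ) - 1 ∧ ¬ ℓ ∣ D ∧ a ℓ ≠ ℓ + 1) →
    ∃ (N0 : ℕ) (_ : NeZero N0) (g : CuspForm (Gamma0 N0) 2) (τ : integralClosure ℤ ℂ →+* K),
      g.IsNewform ∧ N0 ∣ N * Q ∧
      (∀ ℓ : ℕ, ℓ.Prime → ¬ ℓ ∣ N → ¬ ℓ ∣ D → ∃ x : integralClosure ℤ ℂ,
        (x : ℂ) = qCoeff g ℓ ∧ τ x = w ((ℓ : ℕ) : ZMod Q) * a ℓ) ∧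
      (∀ q : ℕ, q.Prime → ∀ b : ℕ, Q = q * b →
        ((∃ u : ℤ, (u : ZMod b) = 1 ∧ w (u : ZMod Q) ≠ 0 ∧ w (u : ZMod Q) ≠ 1) → q * q ∣ N0) ∧
        ((∀ u : ℤ, (u : ZMod b) = 1 → w (u : ZMod Q) ≠ 0 → w (u : ZMod Q) = 1) →
          ¬ q * q ∣ N0)) := by
  induction Q using Nat.strong_induction_on with
  | _ Q ih =>
    intro M' hQ0 hN hsq hcop w hwn hφ hE
    by_cases hw : NT Q w
    · obtain ⟨N0, hN0, g, τ, h1, h2, h3, h4⟩ := exists_newform hN hsq hcop hw hφ0 hφ hD hT hE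
      refine ⟨N0, hN0, g, τ, h1, h2, h3, fun q hq b hb => ⟨fun _ => h4 q hq ⟨b, hb⟩, fun h5 => ?_⟩⟩
      obtain ⟨u, hu1, hu2, hu3⟩ := hw q hq b hb
      exact absurd (by rw [h5 u hu1 hu2, one_pow]) hu3
    · unfold NT at hw
      push Not at hw
      obtain ⟨q, hq, b, hQb, hu⟩ := hw
      subst hQb
      have hb0 : b ≠ 0 := fun h => NeZero.ne (q * b) (by rw [h, mul_zero])
      have : NeZero b := ⟨hb0⟩
      have : NeZero q := ⟨hq.ne_zero⟩
      have : Fact q.Prime := ⟨hq⟩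
      have hqb : Nat.Coprime q b := Nat.coprime_of_squarefree_mul hsq
      have hu1 : ∀ u : ℤ, (u : ZMod b) = 1 → w (u : ZMod (q * b)) ≠ 0 →
          w (u : ZMod (q * b)) = 1 := fun u h1 h2 =>
        eq_one_of_odd hn (hu u h1 h2) (hwn _ h2)
      obtain ⟨wa, wb, h1, h2, h3⟩ := exists_components hqb w
      -- the first component is trivial
      have hwa : ∀ u : ℤ, (u : ZMod q) ≠ 0 → wa (u : ZMod q) = 1 := by
        intro u hu0
        obtain ⟨v, hv1, hv2, hv3⟩ := h2 (u : ZMod q)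
        have hne : wa (u : ZMod q) ≠ 0 := ((isUnit_iff_ne_zero.mpr hu0).map wa).ne_zero
        rw [hv2] at hne ⊢
        exact hu1 v hv1 hne
      have hwb : ∀ u : ℤ, (u : ZMod q) ≠ 0 → w (u : ZMod (q * b)) = wb (u : ZMod b) := by
        intro u hu0
        rw [h1, hwa u hu0, one_mul]
      have hw0 : ∀ u : ℤ, w (u : ZMod (q * b)) ≠ 0 → (u : ZMod q) ≠ 0 := by
        intro u hu0 h0
        rw [h1, h0, MulChar.map_zero, zero_mul] at hu0
        exact hu0 rfl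
      have hqN : q ∣ N := by rw [hN, mul_assoc]; exact dvd_mul_right _ _
      have hgq : ∀ g : Gamma0 N, (((g : SL(2, ℤ)) 1 1 : ℤ) : ZMod q) ≠ 0 := by
        intro g h0
        have h4 : (q : ℤ) ∣ (g : SL(2, ℤ)) 1 0 :=
          (Int.natCast_dvd_natCast.mpr hqN).trans (dvd_of_mem_Gamma0' g.2)
        have h5 := intCast_sq_mul_eq h4
        rw [h0, mul_zero] at h5
        exact zero_ne_one h5
      have hφ' : φ ∈ psiPart N b H wb := by
        rw [mem_psiPart] at hφ ⊢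
        intro g
        rw [hφ g, hwb _ (hgq g)]
      have hlt : b < q * b := by
        have := hq.one_lt
        have := Nat.pos_of_ne_zero hb0
        nlinarith
      have hcop' : Nat.Coprime b (q * M') :=
        Nat.Coprime.mul_right hqb.symm hcop.coprime_mul_left
      obtain ⟨N0, hN0, g, τ, k1, k2, k3, k4⟩ := ih b hlt (q * M') (by rw [hN]; ring)
        hsq.of_mul_right hcop' wb (by
          intro y hy
          obtain ⟨u, hu2, hu3, hu4⟩ := h3 y
          rw [hu3] at hy ⊢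
          exact hwn _ hy) hφ' (by
          obtain ⟨ℓ, h5, h6, h7, h8⟩ := hE
          exact ⟨ℓ, h5, (Int.natCast_dvd_natCast.mpr
            (mul_dvd_mul_left N (dvd_mul_left b q))).trans h6, h7, h8⟩)
      refine ⟨N0, hN0, g, τ, k1, k2.trans (mul_dvd_mul_left N (dvd_mul_left b q)), ?_, ?_⟩
      · intro ℓ hℓ hℓN hℓD
        obtain ⟨x, hx1, hx2⟩ := k3 ℓ hℓ hℓN hℓD
        refine ⟨x, hx1, ?_⟩
        have h5 := hwb (ℓ : ℤ) (by
          push_cast
          rw [Ne, ZMod.natCast_eq_zero_iff]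
          intro h6
          exact hℓN (((Nat.prime_dvd_prime_iff_eq hq hℓ).mp h6) ▸ hqN))
        push_cast at h5
        rw [hx2, h5]
      · intro p hp c hc
        by_cases hpq : p = q
        · subst hpq
          have hcb : c = b := (Nat.eq_of_mul_eq_mul_left hp.pos hc).symm
          subst hcb
          refine ⟨?_, fun _ hd => ?_⟩
          · rintro ⟨u, hu2, hu3, hu4⟩
            exact absurd (hu1 u hu2 hu3) hu4
          · have h5 : p * p ∣ p * (c * M' * c) := by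
              refine (hd.trans k2).trans ?_
              rw [hN]
              exact dvd_of_eq (by ring)
            have h6 : p ∣ c * M' * c := Nat.dvd_of_mul_dvd_mul_left hp.pos h5
            have h7 : Nat.Coprime p (c * M' * c) :=
              (hqb.mul_right hcop.coprime_mul_right).mul_right hqb
            exact hp.one_lt.ne' (Nat.eq_one_of_dvd_coprimes h7 dvd_rfl h6)
        · have hpq' : Nat.Coprime p q := (Nat.coprime_primes hp hq).mpr hpq
          have hpb : p ∣ b := by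
            have : p ∣ q * b := ⟨c, hc⟩
            exact hpq'.dvd_of_dvd_mul_left this
          obtain ⟨c', hc'⟩ := hpb
          have hcc : c = q * c' := by
            apply Nat.eq_of_mul_eq_mul_left hp.pos
            rw [← hc, hc']; ring
          have hqc' : Nat.Coprime q c' := by
            rw [hc'] at hqb
            exact hqb.coprime_mul_left_right
          obtain ⟨k5, k6⟩ := k4 p hp c' hc'
          refine ⟨?_, fun h5 => k6 ?_⟩
          · rintro ⟨u, hu2, hu3, hu4⟩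
            have hu5 := hw0 u hu3
            rw [hwb u hu5] at hu3 hu4
            refine k5 ⟨u, ?_, hu3, hu4⟩
            have h6 := intCast_eq_of_dvd (a := c') (b := c) (by rw [hcc]; exact dvd_mul_left _ _)
              (x := u) (y := 1) (by rw [hu2]; simp)
            simpa using h6
          · intro u hu2 hu3
            obtain ⟨v, hv1, hv2⟩ := exists_crt hqb 1 u
            have hv3 : (v : ZMod q) ≠ 0 := by rw [hv1]; simp
            have h6 : w (v : ZMod (q * b)) = wb (u : ZMod b) := by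
              rw [hwb v hv3, hv2]
            have h7 : (v : ZMod c) = 1 := by
              rw [hcc]
              refine intCast_one_of_mul hqc' (by rw [hv1]; simp) ?_
              have h8 := intCast_eq_of_dvd (a := c') (b := b) (by rw [hc']; exact dvd_mul_left _ _)
                hv2
              rw [h8, hu2]
            rw [← h6]
            exact h5 v h7 (by rw [h6]; exact hu3)

/-- **(C3)** for an arbitrary character `ψ` of odd order of `(ℤ/N)ˣ` of square-free conductor. -/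
theorem exists_newform_psi {N Q M' : ℕ} [NeZero N] [NeZero Q] (hN : N = Q * M')
    (hsq : Squarefree Q) (hcop : Nat.Coprime Q M') {H : Subgroup (ZMod N)ˣ}
    {K : Type*} [Field K] [IsAlgClosed K] [CharZero K] (ψ : (ZMod N)ˣ →* Kˣ)
    {n : ℕ} (hψn : ∀ u, ψ u ^ (2 * n + 1) = 1)
    (hψ : ∀ u : (ZMod N)ˣ, ZMod.unitsMap (by rw [hN]; exact dvd_mul_right Q M' : Q ∣ N) u = 1 →
      ψ u = 1)
    {φ : HM (GamH N H) K} (hφ0 : φ ≠ 0)
    (hφ : ∀ g : Gamma0 N, dia K N H K g φ = (ψ (dChar N g) : K) • φ) {D : ℕ} (hD : D ≠ 0)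
    {a : ℕ → K}
    (hT : ∀ (ℓ : ℕ) [NeZero ℓ], ℓ.Prime → ¬ ℓ ∣ N → ¬ ℓ ∣ D → TH K N H K ℓ φ = a ℓ • φ)
    (hE : ∃ ℓ : ℕ, ℓ.Prime ∧ ((N * Q : ℕ) : ℤ) ∣ (ℓ : ℤ) - 1 ∧ ¬ ℓ ∣ D ∧ a ℓ ≠ ℓ + 1) :
    ∃ (N0 : ℕ) (_ : NeZero N0) (g : CuspForm (Gamma0 N0) 2) (τ : integralClosure ℤ ℂ →+* K),
      g.IsNewform ∧ N0 ∣ N * Q ∧
      (∀ (ℓ : ℕ) (u : (ZMod N)ˣ), ℓ.Prime → (u : ZMod N) = (ℓ : ZMod N) → ¬ ℓ ∣ D →
        ∃ x : integralClosure ℤ ℂ,
          (x : ℂ) = qCoeff g ℓ ∧ τ x = ((ψ u ^ (n + 1) : Kˣ) : K) * a ℓ) ∧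
      (∀ q : ℕ, q.Prime → ∀ b : ℕ, Q = q * b →
        ((∃ u : (ZMod N)ˣ, ((u : ZMod N).val : ZMod b) = 1 ∧ ψ u ≠ 1) → q * q ∣ N0) ∧
        ((∀ u : (ZMod N)ˣ, ((u : ZMod N).val : ZMod b) = 1 → ψ u = 1) → ¬ q * q ∣ N0)) := by
  have hQN : Q ∣ N := by rw [hN]; exact dvd_mul_right Q M'
  -- the square root of the character
  let w1 : (ZMod N)ˣ →* Kˣ := ψ ^ (n + 1)
  have hw1 : ∀ u, w1 u = ψ u ^ (n + 1) := fun u => rfl
  have hw1sq : ∀ u, w1 u ^ 2 = ψ u := fun u => by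
    rw [hw1, ← pow_mul, show (n + 1) * 2 = (2 * n + 1) + 1 by ring, pow_succ, hψn, one_mul]
  have hsurj : Function.Surjective (ZMod.unitsMap hQN) := ZMod.unitsMap_surjective hQN
  have hker : (ZMod.unitsMap hQN).ker ≤ w1.ker := fun u hu => by
    rw [MonoidHom.mem_ker] at hu ⊢
    rw [hw1, hψ u hu, one_pow]
  let w2 : (ZMod Q)ˣ →* Kˣ := MonoidHom.liftOfSurjective (ZMod.unitsMap hQN) hsurj ⟨w1, hker⟩
  have hw2 : ∀ u, w2 (ZMod.unitsMap hQN u) = w1 u := fun u =>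
    MonoidHom.liftOfRightInverse_comp_apply _ _ _ ⟨w1, hker⟩ u
  let w : MulChar (ZMod Q) K := MulChar.ofUnitHom w2
  have hw : ∀ u : (ZMod N)ˣ, w (((u : ZMod N).cast : ZMod Q)) = (w1 u : K) := by
    intro u
    have h1 : ((u : ZMod N).cast : ZMod Q) = ((ZMod.unitsMap hQN u : (ZMod Q)ˣ) : ZMod Q) :=
      (ZMod.unitsMap_val hQN u).symm
    rw [h1]
    change MulChar.ofUnitHom w2 _ = _
    rw [MulChar.ofUnitHom_coe, hw2]
  have hwint : ∀ (x : ℤ) (u : (ZMod N)ˣ), (x : ZMod N) = u → w (x : ZMod Q) = (w1 u : K) := by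
    intro x u hxu
    rw [← hw u, ← hxu, ZMod.cast_intCast hQN]
  have hwn : ∀ u, w u ≠ 0 → w u ^ (2 * n + 1) = 1 := by
    intro y hy
    have hy' : IsUnit y := by
      by_contra hc
      exact hy (w.map_nonunit hc)
    obtain ⟨u, hu⟩ := hsurj hy'.unit
    have h1 : y = ((u : ZMod N).cast : ZMod Q) := by
      rw [← ZMod.unitsMap_val hQN u, hu, IsUnit.unit_spec]
    rw [h1, hw, hw1]
    have h2 : (ψ u ^ (n + 1)) ^ (2 * n + 1) = 1 := by
      rw [← pow_mul, mul_comm, pow_mul, hψn, one_pow]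
    have h3 := congrArg (Units.val) h2
    simpa using h3
  have hφ' : φ ∈ psiPart N Q H w := by
    rw [mem_psiPart]
    intro g
    rw [hφ g]
    congr 1
    rw [hwint _ (dChar N g) (dChar_val N g).symm, ← hw1sq]
    push_cast
    rfl
  obtain ⟨N0, hN0, g, τ, k1, k2, k3, k4⟩ := exists_newform' ⟨n, rfl⟩ hφ0 hD hT Q M' hN hsq hcop
    w hwn hφ' hE
  refine ⟨N0, hN0, g, τ, k1, k2, ?_, ?_⟩
  · intro ℓ u hℓ hu hℓD
    have hℓN : ¬ ℓ ∣ N := by
      intro hd
      have h1 : IsUnit ((ℓ : ℕ) : ZMod N) := hu ▸ u.isUnit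
      rw [ZMod.isUnit_iff_coprime] at h1
      exact hℓ.one_lt.ne' (Nat.eq_one_of_dvd_coprimes h1 dvd_rfl hd)
    obtain ⟨x, hx1, hx2⟩ := k3 ℓ hℓ hℓN hℓD
    refine ⟨x, hx1, ?_⟩
    have h1 := hwint (ℓ : ℤ) u (by push_cast; exact hu.symm)
    push_cast at h1
    rw [hx2, h1, hw1]
  · intro q hq b hb
    have hbN : b ∣ N := (Dvd.intro_left q hb.symm).trans hQN
    have hQ' : ∀ x : ℤ, w (x : ZMod Q) ≠ 0 → ∃ u : (ZMod N)ˣ, w (x : ZMod Q) = (w1 u : K) ∧
        ((u : ZMod N).cast : ZMod Q) = (x : ZMod Q) := by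
      intro x hx
      have hy' : IsUnit (x : ZMod Q) := by
        by_contra hc
        exact hx (w.map_nonunit hc)
      obtain ⟨u, hu⟩ := hsurj hy'.unit
      have h1 : (x : ZMod Q) = ((u : ZMod N).cast : ZMod Q) := by
        rw [← ZMod.unitsMap_val hQN u, hu, IsUnit.unit_spec]
      exact ⟨u, by rw [h1, hw], h1.symm⟩
    have hcastb : ∀ (u : (ZMod N)ˣ) (x : ℤ), ((u : ZMod N).cast : ZMod Q) = (x : ZMod Q) →
        (((u : ZMod N).val : ℕ) : ZMod b) = (x : ZMod b) := by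
      intro u x hux
      have h1 : (((u : ZMod N).val : ℤ) : ZMod Q) = (x : ZMod Q) := by
        rw [← hux]
        push_cast
        simp
      have h2 := intCast_eq_of_dvd (Dvd.intro_left q hb.symm) h1
      push_cast at h2
      exact h2
    obtain ⟨k5, k6⟩ := k4 q hq b hb
    constructor
    · rintro ⟨u, hu1, hu2⟩
      apply k5
      refine ⟨((u : ZMod N).val : ℤ), by push_cast; exact hu1, ?_⟩
      have h1 := hwint ((u : ZMod N).val : ℤ) u (by push_cast; simp)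
      rw [h1]
      refine ⟨Units.ne_zero _, fun h2 => hu2 ?_⟩
      have h3 : w1 u = 1 := Units.ext h2
      rw [← hw1sq, h3, one_pow]
    · intro h1
      apply k6
      intro x hx1 hx2
      obtain ⟨u, hu1, hu2⟩ := hQ' x hx2
      rw [hu1, hw1, h1 u (by rw [hcastb u x hu2, hx1])]
      simp

end Fermat.Agent.H22
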