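import Fermat.Agent.H22.TwistT

/-!
# The twisting operator `Hom(Γ_H(N), K)_ψ → Hom(Γ₀(N Q), K)`
-/

set_option autoImplicit false

noncomputable section

namespace Fermat.Agent.H22

open Matrix.SpecialLinearGroup CongruenceSubgroup
open Fermat.Agent.TC
open scoped MatrixGroups

section R

variable {K : Type*} [Field K]

theorem germ_dia {N : ℕ} [NeZero N] {H : Subgroup (ZMod N)ˣ} (g : Gamma0 N)
    (φ : HM (GamH N H) K) :
    germ K (dia K N H K g φ) = act K (emb (g : SL(2, ℤ))) (germ K φ) := by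
  rw [germ_rep (isCong_GamH N H) (isCong_GamH N H) (rep_dia g) φ]
  simp

/-- The subspace of `Hom(Γ_H(N), K)` on which the diamond operators act by the square of the
character `w` of conductor dividing `Q`. -/
def psiPart (N Q : ℕ) [NeZero N] (H : Subgroup (ZMod N)ˣ) (w : MulChar (ZMod Q) K) :
    Submodule K (HM (GamH N H) K) where
  carrier := {φ | ∀ g : Gamma0 N, dia K N H K g φ =
    w (((g : SL(2, ℤ)) 1 1 : ℤ) : ZMod Q) ^ 2 • φ}
  add_mem' {a b} ha hb := fun g => by rw [map_add, ha g, hb g, smul_add]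
  zero_mem' := fun g => by rw [map_zero, smul_zero]
  smul_mem' c a ha := fun g => by rw [map_smul, ha g, smul_comm]

theorem mem_psiPart {N Q : ℕ} [NeZero N] {H : Subgroup (ZMod N)ˣ} {w : MulChar (ZMod Q) K}
    {φ : HM (GamH N H) K} : φ ∈ psiPart N Q H w ↔ ∀ g : Gamma0 N, dia K N H K g φ =
      w (((g : SL(2, ℤ)) 1 1 : ℤ) : ZMod Q) ^ 2 • φ := Iff.rfl

theorem SI_of_psiPart {N Q : ℕ} [NeZero N] {H : Subgroup (ZMod N)ˣ} {w : MulChar (ZMod Q) K}
    {φ : HM (GamH N H) K} (hφ : φ ∈ psiPart N Q H w) :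
    SI N (fun d => w (d : ZMod Q) ^ 2) (germ K φ) := by
  intro γ hγ
  rw [← germ_dia (H := H) ⟨γ, hγ⟩, hφ ⟨γ, hγ⟩, map_smul]

theorem SI_of_Gamma0 {N : ℕ} [NeZero N] (φ : HM (Gamma0 N) K) : SI N (fun _ => 1) (germ K φ) := by
  intro γ hγ
  rw [act_germ_of_mem (isCong_Gamma0 N) φ hγ, one_smul]

variable [CharZero K]

/-- The twisting operator. -/
theorem exists_twistR {N Q M' : ℕ} [NeZero N] [NeZero Q] (hN : N = Q * M') (hsq : Squarefree Q)
    (hcop : Nat.Coprime Q M') (H : Subgroup (ZMod N)ˣ) {w : MulChar (ZMod Q) K} (hw : NT Q w)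
    [NeZero (N * Q)] :
    ∃ R : psiPart N Q H w →ₗ[K] HM (Gamma0 (N * Q)) K, Function.Injective R ∧
      ∀ φ, germ K (R φ) = rw' Q w (germ K (φ : HM (GamH N H) K)) := by
  have hSI : ∀ φ : psiPart N Q H w, SI (Q * M') (fun d => w (d : ZMod Q) ^ 2)
      (germ K (φ : HM (GamH N H) K)) := fun φ => by
    rw [← hN]; exact SI_of_psiPart φ.2
  have hex : ∀ φ : psiPart N Q H w, ∃ h : HM (Gamma0 (N * Q)) K,
      germ K h = rw' Q w (germ K (φ : HM (GamH N H) K)) := by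
    intro φ
    have h1 := ((hSI φ).twist_all hsq hcop hw).1
    refine ((IsH.of_germ (isCong_GamH N H) _).rw' Q w).descend (isCong_Gamma0 (N * Q)) ?_
    intro γ hγ
    rw [hN] at hγ
    rw [h1 γ hγ, one_smul]
  choose R hR using hex
  have hinj : Function.Injective (germ K (Γ := Gamma0 (N * Q))) := germ_injective
  refine ⟨{ toFun := R, map_add' := fun a b => hinj ?_, map_smul' := fun c a => hinj ?_ }, ?_, hR⟩
  · rw [hR, map_add, hR, hR, Submodule.coe_add, map_add, rw'_add]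
  · rw [hR, RingHom.id_apply, map_smul, hR, Submodule.coe_smul, map_smul, rw'_smul]
  · refine (injective_iff_map_eq_zero _).mpr fun φ hφ => ?_
    have h1 : germ K (R φ) = 0 := by
      have : R φ = 0 := hφ
      rw [this, map_zero]
    rw [hR] at h1
    have h2 := ((hSI φ).twist_all hsq hcop hw).2.1 h1
    have h3 : (φ : HM (GamH N H) K) = 0 := by
      apply germ_injective
      rw [h2, map_zero]
    exact Subtype.ext h3

omit [CharZero K] in
theorem mulChar_sq_eq {N Q ℓ : ℕ} (hQN : Q ∣ N) (w : MulChar (ZMod Q) K) (x : ℤ)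
    (hx : (N : ℤ) ∣ ℓ * x - 1) :
    w (x : ZMod Q) ^ 2 = (w ((ℓ : ℕ) : ZMod Q) ^ 2)⁻¹ := by
  have h1 : ((ℓ : ℕ) : ZMod Q) * (x : ZMod Q) = 1 := by
    have h2 : (Q : ℤ) ∣ ℓ * x - 1 := (Int.natCast_dvd_natCast.mpr hQN).trans hx
    rw [← ZMod.intCast_zmod_eq_zero_iff_dvd] at h2
    push_cast at h2
    exact sub_eq_zero.mp h2
  rw [eq_comm]
  apply inv_eq_of_mul_eq_one_right
  rw [← mul_pow, ← map_mul, h1, map_one, one_pow]

/-- Hecke equivariance of the twist. -/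
theorem twistR_hecke {N Q : ℕ} [NeZero N] [NeZero Q] (hQN : Q ∣ N) {H : Subgroup (ZMod N)ˣ}
    {w : MulChar (ZMod Q) K} [NeZero (N * Q)] {φ : HM (GamH N H) K} (hφ : φ ∈ psiPart N Q H w)
    {h : HM (Gamma0 (N * Q)) K} (hh : germ K h = rw' Q w (germ K φ)) {ℓ : ℕ} [hℓ : Fact ℓ.Prime]
    [NeZero ℓ] (hℓN : ¬ ℓ ∣ N) :
    germ K (heckeLin K (N * Q) K ℓ h) =
      w ((ℓ : ℕ) : ZMod Q) • rw' Q w (germ K (TH K N H K ℓ φ)) := by
  have hℓN' : Nat.Coprime N ℓ := ((Nat.Prime.coprime_iff_not_dvd hℓ.out).mpr hℓN).symm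
  have hℓQ : Nat.Coprime Q ℓ := Nat.Coprime.coprime_dvd_left hQN hℓN'
  have hcop : Nat.Coprime (N * Q) ℓ := Nat.Coprime.mul_left hℓN' hℓQ
  obtain ⟨z, hz, hz0, hz1⟩ := exists_zreps (ℓ := ℓ) (N * Q) hcop
  have h1 : Gamma (N * Q) ≤ GamH N H :=
    (Gamma_anti (dvd_mul_right N Q)).trans (Gamma_le_GamH N H)
  have hpos : 0 < N * Q := Nat.pos_of_ne_zero (NeZero.ne _)
  have e1 := germ_hecke (K := K) (χ := fun d => w (d : ZMod Q) ^ 2) hpos h1 (dvd_mul_right N Q)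
    hz hz0 hz1 (rep_TH (R := K) (A := K) (zreps_isReps h1 GamH_le_Gamma0 hℓN' hz hz0 hz1)) φ
    (SI_of_psiPart hφ) (e := (w ((ℓ : ℕ) : ZMod Q) ^ 2)⁻¹) (fun x hx => mulChar_sq_eq hQN w x hx)
  have h2 : Gamma (N * Q) ≤ Gamma0 (N * Q) := Gamma_le_Gamma0 _
  have e2 := germ_hecke (K := K) (χ := fun _ => 1) hpos h2 dvd_rfl
    hz hz0 hz1 (rep_heckeLin (R := K) (A := K) (zreps_isReps h2 le_rfl hcop hz hz0 hz1)) h
    (SI_of_Gamma0 h) (e := 1) (fun x hx => rfl)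
  have hTI : TI (germ K φ) := (SI_of_psiPart hφ).toTI (by simp)
  rw [e2, e1, hh, hTI.del_rw' hℓQ.symm, rw'_add, rw'_smul, hTI.Up_rw' hℓQ.symm, smul_add,
    smul_smul, smul_smul, one_smul]
  have hu : IsUnit ((ℓ : ℕ) : ZMod Q) := (ZMod.isUnit_iff_coprime ℓ Q).mpr hℓQ.symm
  have hne : w ((ℓ : ℕ) : ZMod Q) ≠ 0 := (hu.map w).ne_zero
  congr 1
  have : w ((ℓ : ℕ) : ZMod Q) * (w ((ℓ : ℕ) : ZMod Q) ^ 2)⁻¹ * w ((ℓ : ℕ) : ZMod Q) = 1 := by
    field_simp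
  rw [this, one_smul]

end R

end Fermat.Agent.H22
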