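import Fermat.Agent.H22.TwistW

/-!
# Twisting by characters of composite (square-free) conductor
-/

set_option autoImplicit false

noncomputable section

namespace Fermat.Agent.H22

open Matrix.SpecialLinearGroup CongruenceSubgroup
open Fermat.Agent.TC
open scoped MatrixGroups

section CRT

variable {K : Type*} [Field K]

/-- the first component of a character of `ZMod (a * b)` -/
theorem exists_components {a b : ℕ} (hab : Nat.Coprime a b) (w : MulChar (ZMod (a * b)) K) :
    ∃ (wa : MulChar (ZMod a) K) (wb : MulChar (ZMod b) K),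
      (∀ u : ℤ, w (u : ZMod (a * b)) = wa (u : ZMod a) * wb (u : ZMod b)) ∧
      (∀ x : ZMod a, ∃ u : ℤ, (u : ZMod b) = 1 ∧ wa x = w (u : ZMod (a * b)) ∧ (u : ZMod a) = x) ∧
      (∀ y : ZMod b, ∃ u : ℤ, (u : ZMod a) = 1 ∧ wb y = w (u : ZMod (a * b)) ∧ (u : ZMod b) = y) := by
  let e := ZMod.chineseRemainder hab
  have hcast : ∀ u : ℤ, (u : ZMod (a * b)) = e.symm ((u : ZMod a), (u : ZMod b)) := by
    intro u
    rw [RingEquiv.eq_symm_apply]
    rw [map_intCast]
    rfl
  let wa : MulChar (ZMod a) K :=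
    { toFun := fun x => w (e.symm (x, 1))
      map_one' := by
        have : ((1 : ZMod a), (1 : ZMod b)) = 1 := rfl
        change w (e.symm ((1 : ZMod a), (1 : ZMod b))) = 1
        rw [this, map_one, map_one]
      map_mul' := fun x y => by
        change w (e.symm (x * y, 1)) = w (e.symm (x, 1)) * w (e.symm (y, 1))
        rw [← map_mul, ← map_mul]
        congr 2
        ext <;> simp
      map_nonunit' := fun x hx => by
        change w (e.symm (x, 1)) = 0
        apply MulChar.map_nonunit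
        intro h
        apply hx
        have h1 : IsUnit (e (e.symm (x, 1))) := h.map e
        rw [RingEquiv.apply_symm_apply] at h1
        exact (Prod.isUnit_iff.mp h1).1 }
  let wb : MulChar (ZMod b) K :=
    { toFun := fun y => w (e.symm (1, y))
      map_one' := by
        have : ((1 : ZMod a), (1 : ZMod b)) = 1 := rfl
        change w (e.symm ((1 : ZMod a), (1 : ZMod b))) = 1
        rw [this, map_one, map_one]
      map_mul' := fun x y => by
        change w (e.symm (1, x * y)) = w (e.symm (1, x)) * w (e.symm (1, y))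
        rw [← map_mul, ← map_mul]
        congr 2
        ext <;> simp
      map_nonunit' := fun x hx => by
        change w (e.symm (1, x)) = 0
        apply MulChar.map_nonunit
        intro h
        apply hx
        have h1 : IsUnit (e (e.symm (1, x))) := h.map e
        rw [RingEquiv.apply_symm_apply] at h1
        exact (Prod.isUnit_iff.mp h1).2 }
  refine ⟨wa, wb, fun u => ?_, fun x => ?_, fun y => ?_⟩
  · rw [hcast]
    change _ = w (e.symm ((u : ZMod a), 1)) * w (e.symm (1, (u : ZMod b)))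
    rw [← map_mul, ← map_mul]
    congr 2
    ext <;> simp
  · obtain ⟨u, hu⟩ := ZMod.intCast_surjective (e.symm (x, 1))
    have h1 := congrArg e hu
    rw [RingEquiv.apply_symm_apply, map_intCast] at h1
    have h2 : (u : ZMod a) = x := congrArg Prod.fst h1
    have h3 : (u : ZMod b) = 1 := congrArg Prod.snd h1
    exact ⟨u, h3, by rw [hu]; rfl, h2⟩
  · obtain ⟨u, hu⟩ := ZMod.intCast_surjective (e.symm (1, y))
    have h1 := congrArg e hu
    rw [RingEquiv.apply_symm_apply, map_intCast] at h1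
    have h2 : (u : ZMod a) = 1 := congrArg Prod.fst h1
    have h3 : (u : ZMod b) = y := congrArg Prod.snd h1
    exact ⟨u, h2, by rw [hu]; rfl, h3⟩

theorem tq_mul_tq {a b : ℕ} [NeZero a] [NeZero b] (x y : ℤ) :
    tq b y * tq a x = tq (a * b) (b * x + a * y) := by
  have ha : (a : ℚ) ≠ 0 := by exact_mod_cast NeZero.ne a
  have hb : (b : ℚ) ≠ 0 := by exact_mod_cast NeZero.ne b
  apply Units.ext
  rw [Units.val_mul, tq_val, tq_val, tq_val, Matrix.mul_fin_two]
  ext i j
  fin_cases i <;> fin_cases j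
  · simp
  · simp
    field_simp
  · simp
  · simp

/-- Factorisation of the twist. -/
theorem TI.rw'_mul {a b : ℕ} [NeZero a] [NeZero b] [NeZero (a * b)] (hab : Nat.Coprime a b)
    {w : MulChar (ZMod (a * b)) K} {wa : MulChar (ZMod a) K} {wb : MulChar (ZMod b) K}
    (hw : ∀ u : ℤ, w (u : ZMod (a * b)) = wa (u : ZMod a) * wb (u : ZMod b)) {v : HG K}
    (hv : TI v) : rw' (a * b) w v =
      (wa ((b : ℕ) : ZMod a) * wb ((a : ℕ) : ZMod b)) • rw' a wa (rw' b wb v) := by
  have hua : IsUnit ((b : ℕ) : ZMod a) := by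
    rw [ZMod.isUnit_iff_coprime]; exact hab.symm
  have hub : IsUnit ((a : ℕ) : ZMod b) := by
    rw [ZMod.isUnit_iff_coprime]; exact hab
  have e1 : rw' a wa (rw' b wb v) = ∑ x : ZMod a, ∑ y : ZMod b,
      (wa x * wb y) • act K (tq (a * b) (b * x.val + a * y.val)) v := by
    unfold rw'
    refine Finset.sum_congr rfl fun x _ => ?_
    rw [map_sum, Finset.smul_sum]
    refine Finset.sum_congr rfl fun y _ => ?_
    rw [map_smul, smul_smul, ← act_mul, tq_mul_tq]
  rw [e1, Finset.smul_sum]
  let e := ZMod.chineseRemainder hab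
  have hprod : (rw' (a * b) w v) = ∑ p : ZMod a × ZMod b, w (e.symm p) •
      act K (tq (a * b) (e.symm p).val) v :=
    (Equiv.sum_comp e.symm.toEquiv (fun u => w u • act K (tq (a * b) u.val) v)).symm
  rw [hprod]
  have e2 : ∑ x : ZMod a, (wa ((b : ℕ) : ZMod a) * wb ((a : ℕ) : ZMod b)) • ∑ y : ZMod b,
      (wa x * wb y) • act K (tq (a * b) (b * x.val + a * y.val)) v =
      ∑ p : ZMod a × ZMod b, (wa ((b : ℕ) : ZMod a) * wb ((a : ℕ) : ZMod b)) •
        (wa p.1 * wb p.2) • act K (tq (a * b) (b * p.1.val + a * p.2.val)) v := by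
    rw [Fintype.sum_prod_type]
    refine Finset.sum_congr rfl fun x _ => ?_
    rw [Finset.smul_sum]
  rw [e2]
  let f : ZMod a × ZMod b ≃ ZMod a × ZMod b :=
    Equiv.prodCongr (Units.mulLeft hua.unit) (Units.mulLeft hub.unit)
  rw [← Equiv.sum_comp f]
  refine Finset.sum_congr rfl fun p _ => ?_
  obtain ⟨x, y⟩ := p
  have hf : f (x, y) = (((b : ℕ) : ZMod a) * x, ((a : ℕ) : ZMod b) * y) := rfl
  have hcast : ∀ u : ℤ, (u : ZMod (a * b)) = e.symm ((u : ZMod a), (u : ZMod b)) := by
    intro u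
    rw [RingEquiv.eq_symm_apply]
    rw [map_intCast]
    rfl
  have hpt : e.symm (f (x, y)) = (((b : ℤ) * x.val + a * y.val : ℤ) : ZMod (a * b)) := by
    rw [hcast, hf]
    congr 1
    ext
    · push_cast; simp
    · push_cast; simp
  have h1 : w (e.symm (f (x, y))) = (wa ((b : ℕ) : ZMod a) * wb ((a : ℕ) : ZMod b)) *
      (wa x * wb y) := by
    rw [hpt, hw]
    have h2 : (((b : ℤ) * x.val + a * y.val : ℤ) : ZMod a) = ((b : ℕ) : ZMod a) * x := by
      push_cast; simp
    have h3 : (((b : ℤ) * x.val + a * y.val : ℤ) : ZMod b) = ((a : ℕ) : ZMod b) * y := by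
      push_cast; simp
    rw [h2, h3, map_mul, map_mul]
    ring
  rw [smul_smul, ← h1]
  congr 1
  apply hv.congr (a * b) (NeZero.ne (a * b))
  rw [intCast_val, hpt]

end CRT

section Comp

variable {K : Type*} [Field K]

/-- All components of `w ^ 2` are non-trivial. -/
def NT (Q : ℕ) (w : MulChar (ZMod Q) K) : Prop :=
  ∀ q : ℕ, q.Prime → ∀ b : ℕ, Q = q * b → ∃ u : ℤ, (u : ZMod b) = 1 ∧ w (u : ZMod Q) ≠ 0 ∧
    w (u : ZMod Q) ^ 2 ≠ 1

theorem components_data {q b : ℕ} [hq : Fact q.Prime] [NeZero b]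
    {w : MulChar (ZMod (q * b)) K} (hw : NT (q * b) w) {wa : MulChar (ZMod q) K}
    {wb : MulChar (ZMod b) K}
    (h : ∀ u : ℤ, w (u : ZMod (q * b)) = wa (u : ZMod q) * wb (u : ZMod b)) :
    wa ^ 2 ≠ 1 ∧ NT b wb := by
  constructor
  · obtain ⟨u, hu1, hu2, hu3⟩ := hw q hq.out b rfl
    intro hwa
    rw [h, hu1, map_one, mul_one] at hu2 hu3
    apply hu3
    have h1 : (wa ^ 2) (u : ZMod q) = wa (u : ZMod q) ^ 2 := MulChar.pow_apply' _ two_ne_zero _
    rw [← h1, hwa, MulChar.one_apply]
    by_contra hnu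
    exact hu2 (MulChar.map_nonunit _ hnu)
  · intro p hp c hbc
    obtain ⟨u, hu1, hu2, hu3⟩ := hw p hp (q * c) (by rw [hbc]; ring)
    have huq : (u : ZMod q) = 1 := by
      have : ((u : ℤ) : ZMod (q * c)) = ((1 : ℤ) : ZMod (q * c)) := by rw [hu1]; simp
      rw [ZMod.intCast_eq_intCast_iff] at this
      have h2 := this.of_dvd (by exact_mod_cast dvd_mul_right q c : (q : ℤ) ∣ ((q * c : ℕ) : ℤ))
      have h3 := (ZMod.intCast_eq_intCast_iff _ _ _).mpr h2
      simpa using h3
    have huc : (u : ZMod c) = 1 := by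
      have : ((u : ℤ) : ZMod (q * c)) = ((1 : ℤ) : ZMod (q * c)) := by rw [hu1]; simp
      rw [ZMod.intCast_eq_intCast_iff] at this
      have h2 := this.of_dvd (by exact_mod_cast dvd_mul_left c q : (c : ℤ) ∣ ((q * c : ℕ) : ℤ))
      have h3 := (ZMod.intCast_eq_intCast_iff _ _ _).mpr h2
      simpa using h3
    rw [h, huq, map_one, one_mul] at hu2 hu3
    exact ⟨u, huc, hu2, hu3⟩

/-- The first step of the twist: the components away from `q`. -/
theorem SI.partial_twist {q b M' : ℕ} [NeZero q] [NeZero b]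
    {w : MulChar (ZMod (q * b)) K} {wa : MulChar (ZMod q) K} {wb : MulChar (ZMod b) K}
    (h : ∀ u : ℤ, w (u : ZMod (q * b)) = wa (u : ZMod q) * wb (u : ZMod b)) {v : HG K}
    (hv : SI (q * b * M') (fun d => w (d : ZMod (q * b)) ^ 2) v) :
    SI (q * (b * b * M')) (fun d => wa (d : ZMod q) ^ 2) (rw' b wb v) := by
  have h1 : SI (q * b * M') (fun d => wb (d : ZMod b) ^ 2 * wa (d : ZMod q) ^ 2) v := by
    intro γ hγ
    rw [hv γ hγ]
    simp only
    rw [h]
    congr 1
    ring
  have h2 := h1.twist (Q := b) (N := q * b * M') ⟨q * M', by ring⟩ wb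
    (fun d => wa (d : ZMod q) ^ 2) ?_ (by simp)
  · have e : q * b * M' * b = q * (b * b * M') := by ring
    rw [e] at h2
    exact h2
  · intro d d' hdd
    have : ((d : ℤ) : ZMod q) = ((d' : ℤ) : ZMod q) := by
      rw [ZMod.intCast_eq_intCast_iff_dvd_sub]
      obtain ⟨k, hk⟩ := hdd
      exact ⟨-(b * M' * k), by push_cast at hk; linear_combination -hk⟩
    simp only [this]

/-- **Non-vanishing**, composite case. -/
theorem SI.rw'_ne_zero [CharZero K] (Q : ℕ) : ∀ (M' : ℕ) [NeZero Q] (_ : Squarefree Q)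
    (_ : Nat.Coprime Q M') (w : MulChar (ZMod Q) K) (_ : NT Q w) (χ : ℤ → K)
    (_ : ∀ d d' : ℤ, (M' : ℤ) ∣ d - d' → χ d = χ d') (_ : χ 1 = 1) {v : HG K}
    (_ : SI (Q * M') (fun d => w (d : ZMod Q) ^ 2 * χ d) v), rw' Q w v = 0 → v = 0 := by
  induction Q using Nat.strong_induction_on with
  | _ Q ih =>
    intro M' hQ hsq hcop w hw χ hχ hχ1 v hv h0
    by_cases hQ1 : Q = 1
    · subst hQ1
      have : rw' 1 w v = v := by
        unfold rw'
        rw [Finset.sum_eq_single 0 (fun b _ hb => absurd (Subsingleton.elim b 0) hb)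
          (fun h => absurd (Finset.mem_univ _) h)]
        have : w 0 = 1 := by
          rw [show (0 : ZMod 1) = 1 from Subsingleton.elim _ _, map_one]
        rw [this, one_smul]
        have h2 : act K (tq 1 ((0 : ZMod 1).val : ℤ)) v = v := by
          rw [show ((0 : ZMod 1).val : ℤ) = 0 from rfl, tq_zero, act_one]
        exact h2
      rw [← this, h0]
    · obtain ⟨q, hq, b, rfl⟩ := Nat.exists_prime_and_dvd hQ1
      have : Fact q.Prime := ⟨hq⟩
      have hb0 : b ≠ 0 := fun h => NeZero.ne (q * b) (by rw [h, mul_zero])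
      have : NeZero b := ⟨hb0⟩
      have hqb : Nat.Coprime q b := Nat.coprime_of_squarefree_mul hsq
      obtain ⟨wa, wb, h1, _, _⟩ := exists_components hqb w
      obtain ⟨hwa, hwb⟩ := components_data hw h1
      have hTI : TI v := hv.toTI (by simp [hχ1])
      have hba : ∀ u : ℤ, w (u : ZMod (q * b)) = wb (u : ZMod b) * wa (u : ZMod q) :=
        fun u => by rw [h1, mul_comm]
      -- the part at `q` first
      have hv1 : SI (q * b * M') (fun d => wa (d : ZMod q) ^ 2 *
          (fun d : ℤ => wb (d : ZMod b) ^ 2 * χ d) d) v := by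
        intro γ hγ
        rw [hv γ hγ]
        simp only
        rw [h1]
        congr 1
        ring
      have hper : ∀ d d' : ℤ, ((b * M' : ℕ) : ℤ) ∣ d - d' →
          wb (d : ZMod b) ^ 2 * χ d = wb (d' : ZMod b) ^ 2 * χ d' := by
        intro d d' hdd
        have h3 : ((d : ℤ) : ZMod b) = ((d' : ℤ) : ZMod b) := by
          rw [ZMod.intCast_eq_intCast_iff_dvd_sub]
          obtain ⟨k, hk⟩ := hdd
          exact ⟨-(M' * k), by push_cast at hk; linear_combination -hk⟩
        rw [h3, hχ d d' ((by push_cast; exact dvd_mul_left _ _ :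
          (M' : ℤ) ∣ ((b * M' : ℕ) : ℤ)).trans hdd)]
      have hv2 : SI (q * (b * M')) (fun d => wa (d : ZMod q) ^ 2 *
          (fun d : ℤ => wb (d : ZMod b) ^ 2 * χ d) d) v := by
        rw [← mul_assoc]; exact hv1
      have hv3 : SI (q * b * M' * q) (fun d : ℤ => wb (d : ZMod b) ^ 2 * χ d) (rw' q wa v) := by
        refine hv1.twist (Q := q) (N := q * b * M') ⟨b * M', by ring⟩ wa _ ?_ (by simp [hχ1])
        intro d d' hdd
        refine hper d d' ?_
        refine Dvd.dvd.trans ?_ hdd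
        push_cast
        exact ⟨q, by ring⟩
      have hlt : b < q * b := by
        have := hq.one_lt
        have := Nat.pos_of_ne_zero hb0
        nlinarith
      have hswap : rw' (q * b) w v = (wa ((b : ℕ) : ZMod q) * wb ((q : ℕ) : ZMod b)) •
          rw' b wb (rw' q wa v) := by
        rw [hTI.rw'_mul hqb h1]
        congr 1
        unfold rw'
        simp only [map_sum, map_smul, Finset.smul_sum]
        rw [Finset.sum_comm]
        refine Finset.sum_congr rfl fun x _ => Finset.sum_congr rfl fun y _ => ?_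
        rw [smul_comm, ← act_mul, ← act_mul, tq_mul_tq, tq_mul_tq]
        rw [mul_comm b q, add_comm]
      rw [hswap] at h0
      have hua : IsUnit ((b : ℕ) : ZMod q) := by
        rw [ZMod.isUnit_iff_coprime]; exact hqb.symm
      have hub : IsUnit ((q : ℕ) : ZMod b) := by
        rw [ZMod.isUnit_iff_coprime]; exact hqb
      have hne : wa ((b : ℕ) : ZMod q) * wb ((q : ℕ) : ZMod b) ≠ 0 :=
        mul_ne_zero (hua.map wa).ne_zero (hub.map wb).ne_zero
      have h2 := (smul_eq_zero.mp h0).resolve_left hne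
      have h3 : rw' q wa v = 0 := by
        refine ih b hlt (q * M' * q) hsq.of_mul_right ?_ wb hwb χ ?_ hχ1 ?_ h2
        · exact (hqb.symm.mul_right hcop.coprime_mul_left).mul_right hqb.symm
        · intro d d' hdd
          refine hχ d d' (Dvd.dvd.trans ?_ hdd)
          push_cast
          exact ⟨q * q, by ring⟩
        · have e : q * b * M' * q = b * (q * M' * q) := by ring
          rw [← e]; exact hv3
      refine hv2.twist_ne_zero ?_ hwa hper (by simp [hχ1]) h3
      exact hqb.mul_right hcop.coprime_mul_right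

/-- **The twist by a character of square-free conductor.** -/
theorem SI.twist_all [CharZero K] {Q M' : ℕ} [NeZero Q] (hsq : Squarefree Q)
    (hcop : Nat.Coprime Q M') {w : MulChar (ZMod Q) K} (hw : NT Q w) {v : HG K}
    (hv : SI (Q * M') (fun d => w (d : ZMod Q) ^ 2) v) :
    SI (Q * M' * Q) (fun _ => 1) (rw' Q w v) ∧ (rw' Q w v = 0 → v = 0) ∧
      ∀ (q : ℕ) [Fact q.Prime] (b : ℕ), Q = q * b → Eq' q (rw' Q w v) = 0 ∧
        ∃ ε : K, ε ^ 2 = 1 ∧ ∀ σ : SL(2, ℤ), ((b * b * M' : ℕ) : ℤ) ∣ σ 1 0 →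
          (q : ℤ) ^ 2 ∣ σ 1 1 → act K (Wm q σ) (rw' Q w v) = ε • rw' Q w v := by
  have hTI : TI v := hv.toTI (by simp)
  have hv' : SI (Q * M') (fun d => w (d : ZMod Q) ^ 2 * (fun _ => 1) d) v := by simpa using hv
  refine ⟨?_, ?_, ?_⟩
  · exact hv'.twist (Q := Q) (N := Q * M') ⟨M', rfl⟩ w (fun _ => 1) (fun _ _ _ => rfl) rfl
  · exact SI.rw'_ne_zero Q M' hsq hcop w hw (fun _ => 1) (fun _ _ _ => rfl) rfl hv'
  · intro q hq b hQb
    subst hQb
    have hb0 : b ≠ 0 := fun h => NeZero.ne (q * b) (by rw [h, mul_zero])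
    have : NeZero b := ⟨hb0⟩
    have hqb : Nat.Coprime q b := Nat.coprime_of_squarefree_mul hsq
    obtain ⟨wa, wb, h1, _, _⟩ := exists_components hqb w
    obtain ⟨hwa, hwb⟩ := components_data hw h1
    have hwa1 : wa ≠ 1 := fun h => hwa (by rw [h, one_pow])
    have hv1 := hv.partial_twist h1
    have hTI1 : TI (rw' b wb v) := hv1.toTI (by simp)
    rw [hTI.rw'_mul hqb h1]
    refine ⟨?_, wa (-1), ?_, fun σ hc hd => ?_⟩
    · rw [Eq'_smul, hTI1.Eq'_rw' q wa hwa1, smul_zero]
    · rw [pow_two, ← map_mul]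
      simp
    · rw [map_smul, hv1.twist_W hc hd, smul_comm]

end Comp

end Fermat.Agent.H22
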