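import Fermat.Agent.H22.OldK

/-!
# Level lowering for eigenclasses with character: several primes, characters of odd order
-/

set_option autoImplicit false

noncomputable section

namespace Fermat.Agent.H22

open Matrix.SpecialLinearGroup CongruenceSubgroup ModularForm ModularCurve
open Fermat.Agent.TC
open ModularFormClass (qCoeff)
open scoped MatrixGroups

/-- **Level lowering at several primes.** -/
theorem exists_old_mult {N Q M0 P : ℕ} [NeZero N] [NeZero Q] [NeZero P] (hN : N = Q * M0)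
    (hsq : Squarefree Q) (hcop : Nat.Coprime Q M0) (hQP : Q ∣ P)
    {K : Type*} [Field K] [CharZero K] {w : MulChar (ZMod Q) K} (hw : NT Q w)
    {a : ℕ → K} {N0 : ℕ} [NeZero N0] {g : CuspForm (Gamma0 N0) 2} (hg : g.IsNormalizedEigenform)
    (hN0 : N0 ∣ N * P) (τ : integralClosure ℤ ℂ →+* K) (T : ℕ) :
    ∀ (N' : ℕ) [NeZero N'] (_ : N' = N * T) (_ : Squarefree T) (_ : Nat.Coprime N T)
      (_ : Nat.Coprime T P) (hNN : N ∣ N') (H : Subgroup (ZMod N')ˣ)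
      (φ : HM (GamH N' H) K) (_ : φ ≠ 0) (_ : φ ∈ psiPart N' Q H w) (D : ℕ) (_ : D ≠ 0)
      (_ : ∀ (ℓ : ℕ) [NeZero ℓ], ℓ.Prime → ¬ ℓ ∣ N' → ¬ ℓ ∣ D → TH K N' H K ℓ φ = a ℓ • φ)
      (_ : ∃ ℓ : ℕ, ℓ.Prime ∧ ((N' * P : ℕ) : ℤ) ∣ (ℓ : ℤ) - 1 ∧ ¬ ℓ ∣ D ∧ a ℓ ≠ ℓ + 1)
      (_ : ∀ ℓ : ℕ, ℓ.Prime → ¬ ℓ ∣ N' → ¬ ℓ ∣ D → ∃ x : integralClosure ℤ ℂ,
        (x : ℂ) = qCoeff g ℓ ∧ τ x = w ((ℓ : ℕ) : ZMod Q) * a ℓ)
      (_ : ∀ t : ℕ, t.Prime → t ∣ T → qCoeff g t ^ 2 ≠ ((t : ℂ) + 1) ^ 2)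
      (H1 : Subgroup (ZMod N)ˣ) (_ : H1 = H.map (ZMod.unitsMap hNN)),
    ∃ φ1 : HM (GamH N H1) K, φ1 ≠ 0 ∧ φ1 ∈ psiPart N Q H1 w ∧
      ∀ (ℓ : ℕ) [NeZero ℓ] (b : K), ℓ.Prime → ¬ ℓ ∣ N' → TH K N' H K ℓ φ = b • φ →
        TH K N H1 K ℓ φ1 = b • φ1 := by
  induction T using Nat.strong_induction_on with
  | _ T ih =>
    intro N' _ hN' hsqT hNT hTP hNN H φ hφ0 hφ D hD hT hE hgl hgt H1 hH1
    by_cases hT1 : T = 1
    · subst hT1
      rw [mul_one] at hN'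
      subst hN'
      have h1 : ZMod.unitsMap hNN = MonoidHom.id _ := ZMod.unitsMap_self N'
      rw [h1, Subgroup.map_id] at hH1
      subst hH1
      exact ⟨φ, hφ0, hφ, fun ℓ _ b _ _ h => h⟩
    · obtain ⟨t, ht, T', rfl⟩ : ∃ t, t.Prime ∧ t ∣ T := Nat.exists_prime_and_dvd hT1
      have : Fact t.Prime := ⟨ht⟩
      have hT'0 : T' ≠ 0 := fun h => hsqT.ne_zero (by rw [h, mul_zero])
      have : NeZero (N * T') := ⟨mul_ne_zero (NeZero.ne N) hT'0⟩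
      have htT' : Nat.Coprime t T' := Nat.coprime_of_squarefree_mul hsqT
      have hlt : T' < t * T' := by
        have := ht.one_lt
        have := Nat.pos_of_ne_zero hT'0
        nlinarith
      have hNt : Nat.Coprime N t := Nat.Coprime.coprime_mul_right_right hNT
      have hNT' : Nat.Coprime N T' := Nat.Coprime.coprime_mul_left_right hNT
      have hN'2 : N' = N * T' * t := by rw [hN']; ring
      have hNN2 : N * T' ∣ N' := by rw [hN'2]; exact dvd_mul_right _ _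
      have hQT' : Nat.Coprime Q (T' * t) := by
        have h1 : Nat.Coprime Q (t * T') :=
          Nat.Coprime.coprime_dvd_left (by rw [hN]; exact dvd_mul_right _ _) hNT
        rwa [mul_comm] at h1
      obtain ⟨φ2, h1, h2, h3⟩ := exists_old (N := N * T') (N' := N') (t := t) (Q := Q)
        (M' := M0 * (T' * t)) (P := P) hN'2 (by rw [hN'2, hN]; ring) hsq
        (hcop.mul_right hQT') (Nat.Coprime.mul_left hNt htT'.symm)
        (Nat.Coprime.coprime_mul_right hTP) hQP hNN2 hw hφ0 hφ hD hT hE hg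
        (hN0.trans (by rw [mul_right_comm]; exact dvd_mul_right _ _)) τ hgl
        (hgt t ht (dvd_mul_right t T'))
      have hnd : ∀ ℓ : ℕ, ℓ.Prime → ¬ ℓ ∣ N * T' → ¬ ℓ ∣ D * t → ¬ ℓ ∣ N' := by
        intro ℓ hℓ hℓN hℓD h
        rw [hN'2] at h
        rcases hℓ.dvd_mul.mp h with h | h
        · exact hℓN h
        · exact hℓD (h.mul_left D)
      have hnD : ∀ ℓ : ℕ, ¬ ℓ ∣ D * t → ¬ ℓ ∣ D := fun ℓ h h' => h (h'.mul_right t)
      have hE2 : ∃ ℓ : ℕ, ℓ.Prime ∧ ((N * T' * P : ℕ) : ℤ) ∣ (ℓ : ℤ) - 1 ∧ ¬ ℓ ∣ D * t ∧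
          a ℓ ≠ ℓ + 1 := by
        obtain ⟨ℓ, e1, e2, e3, e4⟩ := hE
        refine ⟨ℓ, e1, ?_, fun h => ?_, e4⟩
        · refine (Int.natCast_dvd_natCast.mpr ?_).trans e2
          rw [hN'2]
          exact ⟨t, by ring⟩
        · rcases e1.dvd_mul.mp h with h | h
          · exact e3 h
          · have h5 : ℓ = t := (Nat.prime_dvd_prime_iff_eq e1 ht).mp h
            have h6 : (ℓ : ℤ) ∣ (ℓ : ℤ) - 1 := by
              refine (Int.natCast_dvd_natCast.mpr ?_).trans e2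
              rw [hN'2, h5]
              exact ⟨N * T' * P, by ring⟩
            have h7 : (ℓ : ℤ) ∣ 1 := by
              have := dvd_sub (dvd_refl (ℓ : ℤ)) h6
              simpa using this
            have h8 : ℓ ∣ 1 := by exact_mod_cast h7
            exact e1.one_lt.ne' (Nat.dvd_one.mp h8)
      obtain ⟨φ1, k1, k2, k3⟩ := ih T' hlt (N * T') rfl hsqT.of_mul_right hNT'
        (Nat.Coprime.coprime_mul_left hTP) (dvd_mul_right N T')
        (H.map (ZMod.unitsMap hNN2)) φ2 h1 h2 (D * t) (mul_ne_zero hD ht.ne_zero)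
        (fun ℓ _ hℓ hℓN hℓD => h3 ℓ (a ℓ) hℓ (hnd ℓ hℓ hℓN hℓD)
          (hT ℓ hℓ (hnd ℓ hℓ hℓN hℓD) (hnD ℓ hℓD))) hE2
        (fun ℓ hℓ hℓN hℓD => hgl ℓ hℓ (hnd ℓ hℓ hℓN hℓD) (hnD ℓ hℓD))
        (fun s hs hsT => hgt s hs (hsT.mul_left t)) H1 (by
            rw [hH1, Subgroup.map_map, ZMod.unitsMap_comp])
      exact ⟨φ1, k1, k2, fun ℓ _ b hℓ hℓN hb => k3 ℓ b hℓ (fun h => hℓN (h.trans hNN2))
        (h3 ℓ b hℓ hℓN hb)⟩

/-- Removing the trivial components of a character. -/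
theorem exists_NT {K : Type*} [Field K] {n : ℕ} (hn : Odd n) (Q : ℕ) :
    ∀ (N M' : ℕ) [NeZero Q], N = Q * M' → Squarefree Q → Nat.Coprime Q M' →
      ∀ w : MulChar (ZMod Q) K, (∀ u, w u ≠ 0 → w u ^ n = 1) →
    ∃ (b M'' : ℕ) (_ : NeZero b) (w' : MulChar (ZMod b) K), N = b * M'' ∧ Squarefree b ∧
      Nat.Coprime b M'' ∧ b ∣ Q ∧ NT b w' ∧
      ∀ x : ℤ, IsCoprime x Q → w (x : ZMod Q) = w' (x : ZMod b) := by
  induction Q using Nat.strong_induction_on with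
  | _ Q ih =>
    intro N M' hQ0 hN hsq hcop w hwn
    by_cases hw : NT Q w
    · exact ⟨Q, M', hQ0, w, hN, hsq, hcop, dvd_rfl, hw, fun _ _ => rfl⟩
    · unfold NT at hw
      push Not at hw
      obtain ⟨q, hq, b, hQb, hu⟩ := hw
      subst hQb
      have hb0 : b ≠ 0 := fun h => NeZero.ne (q * b) (by rw [h, mul_zero])
      have : NeZero b := ⟨hb0⟩
      have : NeZero q := ⟨hq.ne_zero⟩
      have : Fact q.Prime := ⟨hq⟩
      have hqb : Nat.Coprime q b := Nat.coprime_of_squarefree_mul hsq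
      have hu1 : ∀ u : ℤ, (u : ZMod b) = 1 → w (u : ZMod (q * b)) ≠ 0 →
          w (u : ZMod (q * b)) = 1 := fun u h1 h2 =>
        eq_one_of_odd hn (hu u h1 h2) (hwn _ h2)
      obtain ⟨wa, wb, h1, h2, h3⟩ := exists_components hqb w
      have hwa : ∀ u : ℤ, (u : ZMod q) ≠ 0 → wa (u : ZMod q) = 1 := by
        intro u hu0
        obtain ⟨v, hv1, hv2, hv3⟩ := h2 (u : ZMod q)
        have hne : wa (u : ZMod q) ≠ 0 := ((isUnit_iff_ne_zero.mpr hu0).map wa).ne_zero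
        rw [hv2] at hne ⊢
        exact hu1 v hv1 hne
      have hwb : ∀ u : ℤ, (u : ZMod q) ≠ 0 → w (u : ZMod (q * b)) = wb (u : ZMod b) := by
        intro u hu0
        rw [h1, hwa u hu0, one_mul]
      have hlt : b < q * b := by
        have := hq.one_lt
        have := Nat.pos_of_ne_zero hb0
        nlinarith
      have hcop' : Nat.Coprime b (q * M') :=
        Nat.Coprime.mul_right hqb.symm hcop.coprime_mul_left
      obtain ⟨b', M'', hb', w', k1, k2, k3, k4, k5, k6⟩ := ih b hlt N (q * M') (by rw [hN]; ring)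
        hsq.of_mul_right hcop' wb (by
          intro y hy
          obtain ⟨u, hu2, hu3, hu4⟩ := h3 y
          rw [hu3] at hy ⊢
          exact hwn _ hy)
      refine ⟨b', M'', hb', w', k1, k2, k3, k4.trans (dvd_mul_left b q), k5, fun x hx => ?_⟩
      push_cast at hx
      have hxq : IsCoprime x (q : ℤ) := hx.of_mul_right_left
      have hxb : IsCoprime x (b : ℤ) := hx.of_mul_right_right
      rw [hwb x, k6 x hxb]
      intro h0
      have h5 : (q : ℤ) ∣ x := (ZMod.intCast_zmod_eq_zero_iff_dvd _ _).mp h0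
      have h6 : IsUnit (q : ℤ) := (hxq.symm).isUnit_of_dvd' dvd_rfl h5
      rw [Int.isUnit_iff] at h6
      have := hq.one_lt
      omega

/-- The character of conductor `Q` attached to a character of `(ℤ/N)ˣ`. -/
theorem exists_w_of_psi {N Q : ℕ} [NeZero N] (hQN : Q ∣ N) {K : Type*} [Field K]
    (ψ : (ZMod N)ˣ →* Kˣ) {n : ℕ} (hψn : ∀ u, ψ u ^ (2 * n + 1) = 1)
    (hψ : ∀ u : (ZMod N)ˣ, ZMod.unitsMap hQN u = 1 → ψ u = 1) :
    ∃ w : MulChar (ZMod Q) K,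
      (∀ (x : ℤ) (u : (ZMod N)ˣ), (x : ZMod N) = u → w (x : ZMod Q) = ((ψ u ^ (n + 1) : Kˣ) : K)) ∧
      (∀ (x : ℤ) (u : (ZMod N)ˣ), (x : ZMod N) = u → w (x : ZMod Q) ^ 2 = (ψ u : K)) ∧
      ∀ u, w u ≠ 0 → w u ^ (2 * n + 1) = 1 := by
  let w1 : (ZMod N)ˣ →* Kˣ := ψ ^ (n + 1)
  have hw1 : ∀ u, w1 u = ψ u ^ (n + 1) := fun u => rfl
  have hw1sq : ∀ u, w1 u ^ 2 = ψ u := fun u => by
    rw [hw1, ← pow_mul, show (n + 1) * 2 = (2 * n + 1) + 1 by ring, pow_succ, hψn, one_mul]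
  have hsurj : Function.Surjective (ZMod.unitsMap hQN) := ZMod.unitsMap_surjective hQN
  have hker : (ZMod.unitsMap hQN).ker ≤ w1.ker := fun u hu => by
    rw [MonoidHom.mem_ker] at hu ⊢
    rw [hw1, hψ u hu, one_pow]
  let w2 : (ZMod Q)ˣ →* Kˣ := MonoidHom.liftOfSurjective (ZMod.unitsMap hQN) hsurj ⟨w1, hker⟩
  have hw2 : ∀ u, w2 (ZMod.unitsMap hQN u) = w1 u := fun u =>
    MonoidHom.liftOfRightInverse_comp_apply _ _ _ ⟨w1, hker⟩ u
  let w : MulChar (ZMod Q) K := MulChar.ofUnitHom w2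
  have hw : ∀ u : (ZMod N)ˣ, w (((u : ZMod N).cast : ZMod Q)) = (w1 u : K) := by
    intro u
    have h1 : ((u : ZMod N).cast : ZMod Q) = ((ZMod.unitsMap hQN u : (ZMod Q)ˣ) : ZMod Q) :=
      (ZMod.unitsMap_val hQN u).symm
    rw [h1]
    change MulChar.ofUnitHom w2 _ = _
    rw [MulChar.ofUnitHom_coe, hw2]
  have hwint : ∀ (x : ℤ) (u : (ZMod N)ˣ), (x : ZMod N) = u → w (x : ZMod Q) = (w1 u : K) := by
    intro x u hxu
    rw [← hw u, ← hxu, ZMod.cast_intCast hQN]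
  refine ⟨w, hwint, fun x u hxu => ?_, ?_⟩
  · rw [hwint x u hxu, ← hw1sq]
    push_cast
    rfl
  · intro y hy
    have hy' : IsUnit y := by
      by_contra hc
      exact hy (w.map_nonunit hc)
    obtain ⟨u, hu⟩ := hsurj hy'.unit
    have h1 : y = ((u : ZMod N).cast : ZMod Q) := by
      rw [← ZMod.unitsMap_val hQN u, hu, IsUnit.unit_spec]
    rw [h1, hw, hw1]
    have h2 : (ψ u ^ (n + 1)) ^ (2 * n + 1) = 1 := by
      rw [← pow_mul, mul_comm, pow_mul, hψn, one_pow]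
    have h3 := congrArg (Units.val) h2
    simpa using h3

/-- **Level lowering (OLD)** for eigenclasses with a character `ψ` of odd order, at all the primes
dividing the square-free number `T`. -/
theorem exists_old_psi {N N' T Q M0 : ℕ} [NeZero N] [NeZero N'] [NeZero Q] (hN' : N' = N * T)
    (hN : N = Q * M0) (hsq : Squarefree Q) (hcop : Nat.Coprime Q M0) (hsqT : Squarefree T)
    (hNT : Nat.Coprime N T) (hNN : N ∣ N') (hQN' : Q ∣ N') {H : Subgroup (ZMod N')ˣ}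
    {K : Type*} [Field K] [CharZero K] (ψ : (ZMod N')ˣ →* Kˣ)
    {n : ℕ} (hψn : ∀ u, ψ u ^ (2 * n + 1) = 1)
    (hψ : ∀ u : (ZMod N')ˣ, ZMod.unitsMap hQN' u = 1 → ψ u = 1)
    {φ : HM (GamH N' H) K} (hφ0 : φ ≠ 0)
    (hφ : ∀ g : Gamma0 N', dia K N' H K g φ = (ψ (dChar N' g) : K) • φ) {D : ℕ} (hD : D ≠ 0)
    {a : ℕ → K}
    (hT : ∀ (ℓ : ℕ) [NeZero ℓ], ℓ.Prime → ¬ ℓ ∣ N' → ¬ ℓ ∣ D → TH K N' H K ℓ φ = a ℓ • φ)
    (hE : ∃ ℓ : ℕ, ℓ.Prime ∧ ((N' * Q : ℕ) : ℤ) ∣ (ℓ : ℤ) - 1 ∧ ¬ ℓ ∣ D ∧ a ℓ ≠ ℓ + 1)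
    {N0 : ℕ} [NeZero N0] {g : CuspForm (Gamma0 N0) 2} (hg : g.IsNormalizedEigenform)
    (hN0 : N0 ∣ N' * Q) (τ : integralClosure ℤ ℂ →+* K)
    (hgl : ∀ (ℓ : ℕ) (u : (ZMod N')ˣ), ℓ.Prime → (u : ZMod N') = (ℓ : ZMod N') → ¬ ℓ ∣ D →
      ∃ x : integralClosure ℤ ℂ,
        (x : ℂ) = qCoeff g ℓ ∧ τ x = ((ψ u ^ (n + 1) : Kˣ) : K) * a ℓ)
    (hgt : ∀ t : ℕ, t.Prime → t ∣ T → ¬ t ∣ N0 ∧ qCoeff g t ^ 2 ≠ ((t : ℂ) + 1) ^ 2) :
    ∃ φ1 : HM (GamH N (H.map (ZMod.unitsMap hNN))) K, φ1 ≠ 0 ∧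
      (∀ (g : Gamma0 N) (u : (ZMod N')ˣ), ZMod.unitsMap hNN u = dChar N g →
        dia K N (H.map (ZMod.unitsMap hNN)) K g φ1 = (ψ u : K) • φ1) ∧
      ∀ (ℓ : ℕ) [NeZero ℓ] (b : K), ℓ.Prime → ¬ ℓ ∣ N' → TH K N' H K ℓ φ = b • φ →
        TH K N (H.map (ZMod.unitsMap hNN)) K ℓ φ1 = b • φ1 := by
  obtain ⟨w, hw1, hw2, hw3⟩ := exists_w_of_psi hQN' ψ hψn hψ
  obtain ⟨b, M'', hb, w', k1, k2, k3, k4, k5, k6⟩ := exists_NT ⟨n, rfl⟩ Q N M0 hN hsq hcop w hw3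
  have hQN : Q ∣ N := by rw [hN]; exact dvd_mul_right _ _
  have hcopint : ∀ (x : ℤ) (u : (ZMod N')ˣ), (x : ZMod N') = u → IsCoprime x (Q : ℤ) := by
    intro x u hxu
    have h1 : IsUnit ((x : ℤ) : ZMod N') := hxu ▸ u.isUnit
    have h2 := (ZMod.coe_int_isUnit_iff_isCoprime x N').mp h1
    exact (h2.of_isCoprime_of_dvd_left (Int.natCast_dvd_natCast.mpr hQN')).symm
  have hww : ∀ (x : ℤ) (u : (ZMod N')ˣ), (x : ZMod N') = u →
      w' (x : ZMod b) = ((ψ u ^ (n + 1) : Kˣ) : K) := fun x u hxu => by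
    rw [← k6 x (hcopint x u hxu), hw1 x u hxu]
  have hww2 : ∀ (x : ℤ) (u : (ZMod N')ˣ), (x : ZMod N') = u →
      w' (x : ZMod b) ^ 2 = (ψ u : K) := fun x u hxu => by
    rw [← k6 x (hcopint x u hxu), hw2 x u hxu]
  have hφ' : φ ∈ psiPart N' b H w' := by
    rw [mem_psiPart]
    intro g
    rw [hφ g, hww2 _ (dChar N' g) (dChar_val N' g).symm]
  have hTN0 : Nat.Coprime N0 T := by
    rw [Nat.coprime_comm]
    refine Nat.Coprime.symm (Nat.coprime_of_dvd' fun t ht h1 h2 => ?_)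
    exact absurd h1 (hgt t ht h2).1
  have hTQ : Nat.Coprime T Q := (Nat.Coprime.coprime_dvd_left hQN hNT).symm
  obtain ⟨φ1, h1, h2, h3⟩ := exists_old_mult (P := Q) k1 k2 k3 k4 k5 (a := a) hg
    (by
      have h4 : N0 ∣ T * (N * Q) := hN0.trans (dvd_of_eq (by rw [hN']; ring))
      exact hTN0.dvd_of_dvd_mul_left h4) τ T N' hN' hsqT hNT hTQ hNN H φ hφ0 hφ' D hD hT hE
    (fun ℓ hℓ hℓN hℓD => by
      have h4 : IsUnit ((ℓ : ℕ) : ZMod N') :=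
        (ZMod.isUnit_iff_coprime ℓ N').mpr ((Nat.Prime.coprime_iff_not_dvd hℓ).mpr hℓN)
      obtain ⟨x, hx1, hx2⟩ := hgl ℓ h4.unit hℓ h4.unit_spec hℓD
      refine ⟨x, hx1, ?_⟩
      have h5 := hww (ℓ : ℤ) h4.unit (by push_cast; exact h4.unit_spec.symm)
      push_cast at h5
      rw [hx2, h5]
      push_cast
      rfl) (fun t ht htT => (hgt t ht htT).2) _ rfl
  refine ⟨φ1, h1, fun g u hu => ?_, h3⟩
  rw [mem_psiPart.mp h2 g]
  congr 1
  have h4 : ((((u : ZMod N').val : ℤ)) : ZMod N') = u := by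
    push_cast
    simp
  rw [← hww2 _ u h4]
  congr 2
  have h5 : ((g : SL(2, ℤ)) 1 1 : ZMod N) = ((((u : ZMod N').val : ℤ)) : ZMod N) := by
    rw [← dChar_val N g, ← hu, ZMod.unitsMap_val]
    push_cast
    simp
  have hbN : b ∣ N := by rw [k1]; exact dvd_mul_right _ _
  have h6 := intCast_eq_of_dvd hbN (x := (g : SL(2, ℤ)) 1 1) (y := ((u : ZMod N').val : ℤ)) h5
  exact h6

end Fermat.Agent.H22
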