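import Fermat.Agent.H22.RIn
import Fermat.Agent.TFin.CokerSys

/-!
# Newness at the Taylor-Wiles levels
-/

set_option autoImplicit false
set_option linter.style.haveILetI false
set_option linter.unusedSectionVars false

noncomputable section

namespace Fermat.Agent.H22

open CongruenceSubgroup Matrix.SpecialLinearGroup IsLocalRing
open Fermat.Agent.TC
open Fermat.Agent.H25 Fermat.Agent.H25.PR Fermat.Agent.CC Fermat.Agent.TW Fermat.Agent.H25.PT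
open Fermat.Agent.H05 Fermat.Agent.H25.TR Fermat.Agent.H25.TWM Fermat.Agent.H25.GE
open ModularFormClass (qCoeff)

section Lvl

variable {p r N M N' M' q : ℕ} [NeZero N] [NeZero M] [NeZero N'] [NeZero M'] [NeZero q]
  [Fact p.Prime] {Q : QDat p N M r} {Q' : QDat p N' M' r} (h : RzQ Q Q' q) {O : Type} [CommRing O]
  [IsDomain O] [IsDiscreteValuationRing O] [IsAdicComplete (maximalIdeal O) O] {D₀ : ℕ}
  {a : Pr D₀ → ResidueField O} {α : Fin r → ResidueField O} (hqD : q ∣ D₀) (w : WDat M q)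
  {D : ℕ} {hD : D₀ ∣ D} {K : Type} [Field K] [CharZero K] [IsAlgClosed K] [Algebra O K]
  {Q₀ M₀ : ℕ}

/-- **Newness at the Taylor-Wiles levels** -/
theorem old_of_not_dvd' (T : TWHyp O a Q' α D hD)
    (B : BaseHyp O (⊤ : Subgroup (ZMod N)ˣ) p)
    (C : CondHyp (⊤ : Subgroup (ZMod N)ˣ) Q₀ M₀) (hK : Function.Injective (algebraMap O K))
    (y : MoB Q' ⊤ O a α 1 hD →ₐ[O] K) {N0 : ℕ} [NeZero N0] {g : CuspForm (Gamma0 N0) 2}
    (hg : g.IsNormalizedEigenform) (hN0 : N0 ∣ M' * (Q₀ * ∏ j, Q.q j)) (hqN0 : ¬ q ∣ N0)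
    (τ : integralClosure ℤ ℂ →+* K)
    (hcoef : ∀ ℓ : Pr D, ∃ z : integralClosure ℤ ℂ, (z : ℂ) = qCoeff g ℓ ∧
      τ z = y (MoT Q' ⊤ O a α 1 hD ℓ)) :
    ∃ s : MvPolynomial (Pr D) O, y (MvPolynomial.aeval (MoT Q' ⊤ O a α 1 hD) s) ≠ 0 ∧
      ∀ m : Mo Q' ⊤ O a α 1, ∃ u v : Mo Q ⊤ O a α 1,
        HT.toEnd (MoA Q' ⊤ O a α 1 hD) (MvPolynomial.aeval (MoT Q' ⊤ O a α 1 hD) s) m =
          h.i1 a α hqD u + h.i2 a α hqD w v := by
  obtain ⟨s, c, hc, h1, h2⟩ := h.old_of_not_dvd (K := K) hqD w T B C hK y hg hN0 hqN0 τ hcoef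
  have e : MvPolynomial.aeval (MoT Q' ⊤ O a α 1 hD) (MvPolynomial.C c * s) =
      c • MvPolynomial.aeval (MoT Q' ⊤ O a α 1 hD) s := by
    rw [map_mul, MvPolynomial.algHom_C, Algebra.smul_def]
  refine ⟨MvPolynomial.C c * s, ?_, fun m => ?_⟩
  · rw [e, map_smul, Algebra.smul_def]
    exact mul_ne_zero (fun h0 => hc (hK (h0.trans (map_zero _).symm))) h1
  · obtain ⟨u, v, huv⟩ := h2 m
    refine ⟨u, v, ?_⟩
    rw [e, map_smul, LinearMap.smul_apply]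
    exact huv

end Lvl

variable {O K : Type} [CommRing O] [IsDomain O] [IsDiscreteValuationRing O]
    [IsAdicComplete (maximalIdeal O) O] [Field K] [Algebra O K] {p r : ℕ}
    [Finite (ResidueField O)] [CharZero O] [Fact p.Prime] [IsAlgClosed K] [FaithfulSMul O K]
    {F : TWBase O K p r}

theorem ptsTop_ext {N M Q₀ : ℕ} [NeZero N] [NeZero M] {Q : QDat p N M r} {H₀ : Subgroup (ZMod N)ˣ}
    {D₀ : ℕ} {a : Pr D₀ → ResidueField O} {α : Fin r → ResidueField O} {D : ℕ} {hD : D₀ ∣ D}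
    {χ : SQ N H₀ →* Oˣ} (P : PtsTop Q H₀ a α hD K Q₀ χ) {b b' : MoB Q H₀ O a α χ hD}
    (h : ∀ t, P.pt t b = P.pt t b') : b = b' := by
  rw [← sub_eq_zero]
  refine P.inj _ fun t => ?_
  rw [map_sub, h, sub_self]

theorem ptsBot_ext {N Q₀ : ℕ} [NeZero N] {H₀ : Subgroup (ZMod N)ˣ}
    {D₀ : ℕ} {a : Pr D₀ → ResidueField O}
    {χ : SQ N H₀ →* Oˣ} (P : PtsBot H₀ a K Q₀ χ) {b b' : MoB0 H₀ O a χ}
    (h : ∀ t, P.pt t b = P.pt t b') : b = b' := by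
  rw [← sub_eq_zero]
  refine P.inj _ fun t => ?_
  rw [map_sub, h, sub_self]

/-- traces of Frobenii and Hecke operators, at a Taylor-Wiles level -/
theorem C_t_frv (X : CmpT F) (n : ℕ) (hpD : p ∣ F.D₀) (ℓ : Pr (F.Dn n)) :
    ((X.toCmp.cd 1 n).C (F.hbar n)).t (frv ℓ ℓ.2.1) =
      MoT (X.toCmp.Q n) ⊤ O F.a (F.α n) 1 (F.hD n) ℓ := by
  refine ptsTop_ext (X.toCmp.P 1 n) fun t => ?_
  obtain ⟨z, hz1, hz2⟩ := (X.toCmp.P 1 n).hcoef t ℓ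
  refine Eq.trans ?_ hz2
  have hℓ : ¬ (ℓ : ℕ) ∣ X.toCmp.lvl 1 n t := by
    intro h
    apply ℓ.2.2
    have hM := (X.T n).hMD
    have hprod : ∀ j, (F.c n).q j ∣ X.M n := fun j => by
      rw [X.hM n]
      exact (Finset.dvd_prod_of_mem _ (Finset.mem_univ j)).mul_left _
    rcases ℓ.2.1.dvd_mul.mp (h.trans (X.lvl_dvd n t)) with h | h
    · exact h.trans hM
    · rw [one_mul] at h
      obtain ⟨j, _, hj⟩ := (Prime.dvd_finsetProd_iff ℓ.2.1.prime _).mp h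
      exact hj.trans ((hprod j).trans hM)
  exact hin_frob X.B.hpO F.Ge F.hchi F.hc (X.toCmp.hin 1 n) t ℓ.2.1
    (fun h => ℓ.2.2 ((dvd_of_eq h).trans (hpD.trans (F.hD n)))) hℓ (plv_over ℓ ℓ.2.1) (frv_spec ℓ ℓ.2.1)
    (F.hbar n) hz1

/-- traces of Frobenii and Hecke operators, at the bottom level -/
theorem C_t_frv₀ (X : CmpT F) (hpD : p ∣ F.D₀) (ℓ : Pr F.D₀) :
    ((X.toCmp.cd₀ 1).C F.hbar₀).t (frv ℓ ℓ.2.1) = MoT0 (N := X.N) ⊤ O F.a 1 ℓ := by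
  refine ptsBot_ext (X.toCmp.P₀ 1) fun t => ?_
  obtain ⟨z, hz1, hz2⟩ := (X.toCmp.P₀ 1).hcoef t ℓ
  refine Eq.trans ?_ hz2
  have hℓ : ¬ (ℓ : ℕ) ∣ X.toCmp.lvl₀ 1 t := fun h =>
    ℓ.2.2 (h.trans ((X.lvl₀_dvd t).trans X.hND))
  exact hin_frob X.B.hpO F.Ge F.hchi F.hc (X.toCmp.hin₀ 1) t ℓ.2.1
    (fun h => ℓ.2.2 ((dvd_of_eq h).trans hpD)) hℓ (plv_over ℓ ℓ.2.1) (frv_spec ℓ ℓ.2.1) F.hbar₀ hz1

section Gen

variable {k : Type} [Field k] {D : RD O k} {S : Finset Nat.Primes} {bad : Finset ℕ}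
  {κ : Type} [Finite κ] [Nonempty κ] (H : κ → CData D S bad) (hbar : HBar D S) (i : κ)

theorem exists_lift_aeval {ι : Type} (f : ι → GQ) (s : MvPolynomial ι O) :
    ∃ a : AR H hbar, pr H hbar i a =
      MvPolynomial.aeval (fun ℓ => ((H i).C hbar).t (f ℓ)) s := by
  refine ⟨MvPolynomial.aeval (fun ℓ => (CA H hbar).t (f ℓ)) s, ?_⟩
  rw [MvPolynomial.comp_aeval_apply]
  rfl

end Gen

section Old

variable {κ κ' : Type} [Finite κ] [Finite κ'] [Nonempty κ] {X : κ → CmpT F} (E : Extra F κ')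
  {i i' : κ} {q : Nat.Primes} (h : RStep (X i) (X i') q) {ϖ : O}
  (hϖ : maximalIdeal O = Ideal.span {ϖ}) (hϖ0 : ϖ ≠ 0)

omit [Finite κ'] [Nonempty κ] [Finite κ] in
theorem cd_ev_ne (X : CmpT F) (n : ℕ) (y : (X.toCmp.cd 1 n).X)
    {b : MoB (X.toCmp.Q n) ⊤ O F.a (F.α n) 1 (F.hD n)} (hb : (X.toCmp.P 1 n).pt y b ≠ 0) :
    (X.toCmp.cd 1 n).ev y b ≠ (0 : (X.toCmp.cd 1 n).P y) := by
  intro h5
  have h3 := (X.toCmp.hin 1 n).e_evQ X.B.hpO F.Ge y b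
  have h4 : (X.toCmp.hin 1 n).evQ X.B.hpO F.Ge y b = 0 := h5
  rw [h4, map_zero] at h3
  exact hb h3.symm

omit [Finite κ'] [Nonempty κ] [Finite κ] in
theorem cd₀_ev_ne (X : CmpT F) (y : (X.toCmp.cd₀ 1).X)
    {b : MoB0 (N := X.N) ⊤ O F.a 1} (hb : (X.toCmp.P₀ 1).pt y b ≠ 0) :
    (X.toCmp.cd₀ 1).ev y b ≠ (0 : (X.toCmp.cd₀ 1).P y) := by
  intro h5
  have h3 := (X.toCmp.hin₀ 1).e_evQ X.B.hpO F.Ge y b
  have h4 : (X.toCmp.hin₀ 1).evQ X.B.hpO F.Ge y b = 0 := h5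
  rw [h4, map_zero] at h3
  exact hb h3.symm

/-- **Newness at the Taylor-Wiles levels**, all primes `q`. -/
theorem old_top (hpD : p ∣ F.D₀) (n : ℕ) (y : ((X i').toCmp.cd 1 n).X)
    (hy : ¬ (q : ℕ) ∣ (X i').toCmp.lvl 1 n y) :
    ∃ a : (sysT X E).A n,
      ((X i').toCmp.cd 1 n).ev y (pr ((sysT X E).H n) ((sysT X E).hbar n) (Sum.inl i') a) ≠
        (0 : ((X i').toCmp.cd 1 n).P y) ∧
      ∀ x : (mdT X E i' n).M, ∃ u v,
        pr ((sysT X E).H n) ((sysT X E).hbar n) (Sum.inl i') a • x =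
          (raiseD E h hϖ hϖ0).i₁ n u + (raiseD E h hϖ hϖ0).i₂ n v := by
  haveI : NeZero (q : ℕ) := ⟨q.2.ne_zero⟩
  haveI : CharZero K := charZero_of_injective_algebraMap (FaithfulSMul.algebraMap_injective O K)
  haveI := ((X i').toCmp.P 1 n).nz y
  have hK := FaithfulSMul.algebraMap_injective O K
  have hdvd : (X i').toCmp.lvl 1 n y ∣ (X i').M n * (1 * ∏ j, ((X i).toCmp.Q n).q j) :=
    (X i').lvl_dvd n y
  obtain ⟨s, h1, h2⟩ := old_of_not_dvd' (K := K) (h.rz n) h.hqD (h.w n) ((X i').T n) (X i).B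
    (condHyp_top (X i).N) hK (((X i').toCmp.P 1 n).pt y) (((X i').toCmp.P 1 n).hg y).1 hdvd hy
    (((X i').toCmp.P 1 n).τ y) (((X i').toCmp.P 1 n).hcoef y)
  obtain ⟨a, ha⟩ := exists_lift_aeval ((sysT X E).H n) ((sysT X E).hbar n) (Sum.inl i')
    (fun ℓ : Pr (F.Dn n) => frv ℓ ℓ.2.1) s
  have ha' : pr ((sysT X E).H n) ((sysT X E).hbar n) (Sum.inl i') a =
      MvPolynomial.aeval (MoT ((X i').toCmp.Q n) ⊤ O F.a (F.α n) 1 (F.hD n)) s :=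
    ha.trans (congrArg (fun f : Pr (F.Dn n) → MoB ((X i').toCmp.Q n) ⊤ O F.a (F.α n) 1 (F.hD n) =>
      MvPolynomial.aeval f s) (funext fun ℓ => C_t_frv (X i') n hpD ℓ))
  refine ⟨a, fun h0 => ?_, fun x => ?_⟩
  · exact cd_ev_ne (X i') n y h1 ((congrArg (((X i').toCmp.cd 1 n).ev y) ha').symm.trans h0)
  · obtain ⟨u, v, huv⟩ := h2 x
    exact ⟨u, v, (congrArg (fun b => HT.toEnd (MoA ((X i').toCmp.Q n) ⊤ O F.a (F.α n) 1 (F.hD n))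
      b x) ha').trans huv⟩

/-- **Newness at the bottom level** in terms of the trace ring. -/
theorem old_bot (hpD : p ∣ F.D₀) (y : ((X i').toCmp.cd₀ 1).X)
    (hy : ¬ (q : ℕ) ∣ (X i').toCmp.lvl₀ 1 y) :
    ∃ a : (sysT X E).A₀,
      ((X i').toCmp.cd₀ 1).ev y (pr (sysT X E).H₀ (sysT X E).hbar₀ (Sum.inl i') a) ≠
        (0 : ((X i').toCmp.cd₀ 1).P y) ∧
      ∀ x : (bdT X E i').N, ∃ u v,
        pr (sysT X E).H₀ (sysT X E).hbar₀ (Sum.inl i') a • x =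
          (raiseD E h hϖ hϖ0).I₁ u + (raiseD E h hϖ hϖ0).I₂ v := by
  haveI : NeZero (q : ℕ) := ⟨q.2.ne_zero⟩
  haveI : CharZero K := charZero_of_injective_algebraMap (FaithfulSMul.algebraMap_injective O K)
  haveI := ((X i').toCmp.P₀ 1).nz y
  have hK := FaithfulSMul.algebraMap_injective O K
  obtain ⟨s, h1, h2⟩ := (h.rz 0).lv0.bot_old (K := K) q.2 h.hqD h.w₀ h.hR (X i).toCmp.D₀_ne
    hϖ (X i).B.hp2 (X i).B.hpO hK
    (((X i').toCmp.P₀ 1).pt y) (((X i').toCmp.P₀ 1).hg y).1 ((X i').lvl₀_dvd y) hy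
    (((X i').toCmp.P₀ 1).τ y) (((X i').toCmp.P₀ 1).hcoef y)
  obtain ⟨a, ha⟩ := exists_lift_aeval (sysT X E).H₀ (sysT X E).hbar₀ (Sum.inl i')
    (fun ℓ : Pr F.D₀ => frv ℓ ℓ.2.1) s
  have ha' : pr (sysT X E).H₀ (sysT X E).hbar₀ (Sum.inl i') a =
      MvPolynomial.aeval (MoT0 (N := (X i').N) ⊤ O F.a 1) s :=
    ha.trans (congrArg (fun f : Pr F.D₀ → MoB0 (N := (X i').N) ⊤ O F.a 1 =>
      MvPolynomial.aeval f s) (funext fun ℓ => C_t_frv₀ (X i') hpD ℓ))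
  refine ⟨a, fun h0 => ?_, fun x => ?_⟩
  · exact cd₀_ev_ne (X i') y h1 ((congrArg (((X i').toCmp.cd₀ 1).ev y) ha').symm.trans h0)
  · obtain ⟨u, v, huv⟩ := h2 x
    exact ⟨u, v, (congrArg (fun b => HT.toEnd (MoA0 (N := (X i').N) ⊤ O F.a 1) b x) ha').trans huv⟩

variable (hpO : (p : O) ∈ maximalIdeal O) (hd : 2 * rk O (X i).N F.a < rk O (X i').N F.a)
  {κ'' : Type} [Finite κ''] (φ : κ'' → κ ⊕ κ')

include hϖ in
/-- **The points of the cokernel are new at `q`** (Taylor-Wiles levels). -/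
theorem dvd_lvl_ptC (hpD : p ∣ F.D₀) {n : ℕ}
    (y : (((raiseD E h hϖ hϖ0).YC hpO hϖ hd φ).H n none).X) :
    (q : ℕ) ∣ (X i').toCmp.lvl 1 n ((raiseD E h hϖ hϖ0).ptC hpO hϖ hd φ y) := by
  by_contra hcon
  obtain ⟨a, h1, h2⟩ := old_top E h hϖ hϖ0 hpD n _ hcon
  exact h1 ((raiseD E h hϖ hϖ0).ptC_spec hpO hϖ hd φ y a h2)

include hϖ in
/-- **The points of the cokernel are new at `q`** (bottom level). -/
theorem dvd_lvl_ptC₀ (hpD : p ∣ F.D₀)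
    (y : (((raiseD E h hϖ hϖ0).YC hpO hϖ hd φ).H₀ none).X) :
    (q : ℕ) ∣ (X i').toCmp.lvl₀ 1 ((raiseD E h hϖ hϖ0).ptC₀ hpO hϖ hd φ y) := by
  by_contra hcon
  obtain ⟨a, h1, h2⟩ := old_bot E h hϖ hϖ0 hpD _ hcon
  exact h1 ((raiseD E h hϖ hϖ0).ptC₀_spec hpO hϖ hd φ y a h2)

end Old

end Fermat.Agent.H22
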