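import Fermat.Agent.H22.Raise12

/-!
# Level raising data at the bottom level
-/

set_option autoImplicit false
set_option linter.unusedSectionVars false
set_option linter.style.haveILetI false

noncomputable section

namespace Fermat.Agent.H22

open Matrix.SpecialLinearGroup CongruenceSubgroup IsLocalRing
open Fermat.Agent.TC Fermat.Agent.H25.TWM
open scoped MatrixGroups

section WC

variable {M q M' : ℕ} [NeZero M] [NeZero q] [NeZero M'] {H : Subgroup (ZMod M)ˣ}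
  {H' : Subgroup (ZMod M')ˣ} (L : RLv q H H')

theorem RLv.W_congr {R : Type*} [CommRing R] {A : Type*} [AddCommGroup A] [Module R A]
    (w w' : WDat M q) (x : HM (GamH M' H') A) : L.W R A w x = L.W R A w' x := by
  obtain ⟨rfl, rfl⟩ := L
  exact WL_congr (R := R) (A := A) w w' x

theorem RLv.i2_congr {R : Type} [CommRing R] {A : Type} [AddCommGroup A] [Module R A]
    (w w' : WDat M q) (x : HM (GamH M H) A) : L.i2 R A w x = L.i2 R A w' x :=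
  L.W_congr (R := R) (A := A) w w' _

theorem RLv.j2_congr {R : Type} [CommRing R] {A : Type} [AddCommGroup A] [Module R A]
    (w w' : WDat M q) (x : HM (GamH M' H') A) : L.j2 R A w x = L.j2 R A w' x := by
  change diaQ R M H A (kq M q H) (L.j1 R A (L.W R A w x)) =
    diaQ R M H A (kq M q H) (L.j1 R A (L.W R A w' x))
  rw [L.W_congr (R := R) (A := A) w w']

end WC

section Bot

variable {N N' q : ℕ} [NeZero N] [NeZero N'] [NeZero q]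
  (L : RLv q (⊤ : Subgroup (ZMod N)ˣ) (⊤ : Subgroup (ZMod N')ˣ)) (hq : q.Prime)
  {O : Type} [CommRing O] [IsDomain O] [IsDiscreteValuationRing O]
  [IsAdicComplete (maximalIdeal O) O] {D₀ : ℕ}
  {a : Pr D₀ → ResidueField O} (hqD : q ∣ D₀) (w : WDat N q)

variable (a) in
/-- first raising map at the bottom level -/
def RLv.bI1 : Mo0 (N := N) ⊤ O a 1 →ₗ[O] Mo0 (N := N') ⊤ O a 1 :=
  (L.i1 O O).restrict fun _ hx => mem_Mo0.mpr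
    (map_mem_locPart (L.i1 O O) (L.i1_hAct hq (prD_ne hqD)) (mem_Mo0.mp hx))

variable (a) in
/-- second raising map at the bottom level -/
def RLv.bI2 : Mo0 (N := N) ⊤ O a 1 →ₗ[O] Mo0 (N := N') ⊤ O a 1 :=
  (L.i2 O O w).restrict fun _ hx => mem_Mo0.mpr
    (map_mem_locPart (L.i2 O O w) (L.i2_hAct w hq (prD_ne hqD)) (mem_Mo0.mp hx))

variable (a) in
/-- first lowering map at the bottom level -/
def RLv.bJ1 : Mo0 (N := N') ⊤ O a 1 →ₗ[O] Mo0 (N := N) ⊤ O a 1 :=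
  (L.j1 O O).restrict fun _ hx => mem_Mo0.mpr
    (map_mem_locPart (L.j1 O O) (L.j1_hAct hq (prD_ne hqD)) (mem_Mo0.mp hx))

variable (a) in
/-- second lowering map at the bottom level -/
def RLv.bJ2 : Mo0 (N := N') ⊤ O a 1 →ₗ[O] Mo0 (N := N) ⊤ O a 1 :=
  (L.j2 O O w).restrict fun _ hx => mem_Mo0.mpr
    (map_mem_locPart (L.j2 O O w) (L.j2_hAct w hq (prD_ne hqD)) (mem_Mo0.mp hx))

theorem RLv.bI1_val (x : Mo0 (N := N) ⊤ O a 1) :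
    (L.bI1 hq a hqD x : HM (GamH N' ⊤) O) = L.i1 O O x := rfl

theorem RLv.bI2_val (x : Mo0 (N := N) ⊤ O a 1) :
    (L.bI2 hq a hqD w x : HM (GamH N' ⊤) O) = L.i2 O O w x := rfl

theorem RLv.bJ1_val (x : Mo0 (N := N') ⊤ O a 1) :
    (L.bJ1 hq a hqD x : HM (GamH N ⊤) O) = L.j1 O O x := rfl

theorem RLv.bJ2_val (x : Mo0 (N := N') ⊤ O a 1) :
    (L.bJ2 hq a hqD w x : HM (GamH N ⊤) O) = L.j2 O O w x := rfl

end Bot

section Compat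

variable {p r N M N' M' q : ℕ} [NeZero N] [NeZero M] [NeZero N'] [NeZero M'] [NeZero q]
  [Fact p.Prime]
  {Q : QDat p N M r} {Q' : QDat p N' M' r} (h : RzQ Q Q' q) {O : Type} [CommRing O]
  [IsDomain O] [IsDiscreteValuationRing O] [IsAdicComplete (maximalIdeal O) O] {D₀ : ℕ}
  {a : Pr D₀ → ResidueField O} {α : Fin r → ResidueField O} (hqD : q ∣ D₀) (w : WDat M q)
  (w₀ : WDat N q) {v : Fin (rk O N a) → HM (GamH M (Q.H ⊤)) O} (G : GoodV Q ⊤ O a α v)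
  {v' : Fin (rk O N' a) → HM (GamH M' (Q'.H ⊤)) O} (G' : GoodV Q' ⊤ O a α v')

/-- a map commuting with the transfers commutes with the control maps -/
theorem ctl_compat {N₁ N₂ M₁ M₂ : ℕ} [NeZero N₁] [NeZero N₂] [NeZero M₁] [NeZero M₂]
    {H₁ : Subgroup (ZMod M₁)ˣ} {H₂ : Subgroup (ZMod M₂)ˣ}
    (f : HM (GamH M₁ H₁) O →ₗ[O] HM (GamH M₂ H₂) O)
    (F : HM (GamH N₁ ⊤) O →ₗ[O] HM (GamH N₂ ⊤) O)
    (hF : ∀ (t : MvPolynomial (Pr D₀) O) x, F (hAct O N₁ ⊤ O (prD D₀) t x) =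
      hAct O N₂ ⊤ O (prD D₀) t (F x))
    (hf : ∀ x, TC.tr O O (GamH N₂ ⊤) (GamH M₂ H₂) (f x) =
      F (TC.tr O O (GamH N₁ ⊤) (GamH M₁ H₁) x)) (x : HM (GamH M₁ H₁) O) :
    ctl O (prD D₀) ⊤ H₂ (eN O (N := N₂) ⊤ a) (f x) =
      F (ctl O (prD D₀) ⊤ H₁ (eN O (N := N₁) ⊤ a) x) := by
  haveI : Module.Finite O (HM (GamH N₁ ⊤) O) := finite_HM _ O O
  haveI : Module.Finite O (HM (GamH N₂ ⊤) O) := finite_HM _ O O
  rw [ctl_eq, ctl_eq, hf]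
  exact (Dec.intertwine (mx_le a) (eN_dec O ⊤ a) (eN_dec O ⊤ a) F.toAddMonoidHom hF _).symm

theorem RzQ.f_i1 (x : Mo Q ⊤ O a α 1) :
    G'.f 1 (h.i1 a α hqD x) = h.lv0.bI1 h.hq a hqD (G.f 1 x) := by
  apply Subtype.ext
  rw [G'.f_val, h.i1_val, RLv.bI1_val, G.f_val]
  exact ctl_compat (h.lv.i1 O O) (h.lv0.i1 O O) (h.lv0.i1_hAct h.hq (prD_ne hqD))
    (fun x => h.lv.tr_i1 h.lv0 Q.dvd_M h.hq h.hc x) _

theorem RzQ.f_i2 (x : Mo Q ⊤ O a α 1) :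
    G'.f 1 (h.i2 a α hqD w x) = h.lv0.bI2 h.hq a hqD w₀ (G.f 1 x) := by
  apply Subtype.ext
  rw [G'.f_val, h.i2_val, RLv.bI2_val, G.f_val]
  exact ctl_compat (h.lv.i2 O O w) (h.lv0.i2 O O w₀) (h.lv0.i2_hAct w₀ h.hq (prD_ne hqD))
    (fun x => (h.lv.tr_i2 h.lv0 Q.dvd_M h.hq w x).trans (h.lv0.i2_congr _ _ _)) _

theorem RzQ.f_j1 (x : Mo Q' ⊤ O a α 1) :
    G.f 1 (h.j1 a α hqD x) = h.lv0.bJ1 h.hq a hqD (G'.f 1 x) := by
  apply Subtype.ext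
  rw [G.f_val, h.j1_val, RLv.bJ1_val, G'.f_val]
  exact ctl_compat (h.lv.j1 O O) (h.lv0.j1 O O) (h.lv0.j1_hAct h.hq (prD_ne hqD))
    (fun x => h.lv.tr_j1 h.lv0 Q.dvd_M x) _

theorem RzQ.f_j2 (x : Mo Q' ⊤ O a α 1) :
    G.f 1 (h.j2 a α hqD w x) = h.lv0.bJ2 h.hq a hqD w₀ (G'.f 1 x) := by
  apply Subtype.ext
  rw [G.f_val, h.j2_val, RLv.bJ2_val, G'.f_val]
  exact ctl_compat (h.lv.j2 O O w) (h.lv0.j2 O O w₀) (h.lv0.j2_hAct w₀ h.hq (prD_ne hqD))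
    (fun x => (h.lv.tr_j2 h.lv0 Q.dvd_M h.hq w x).trans (h.lv0.j2_congr _ _ _)) _

end Compat

section Ihara

variable {N N' q : ℕ} [NeZero N] [NeZero N'] [NeZero q]
  (L : RLv q (⊤ : Subgroup (ZMod N)ˣ) (⊤ : Subgroup (ZMod N')ˣ)) (hq : q.Prime)
  {O : Type} [CommRing O] [IsDomain O] [IsDiscreteValuationRing O] [CharZero O]
  [IsAdicComplete (maximalIdeal O) O] [Finite (ResidueField O)] {D₀ : ℕ}
  {a : Pr D₀ → ResidueField O} (hqD : q ∣ D₀) (w : WDat N q)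

omit [CharZero O] [Finite (ResidueField O)] in
theorem Mo0_tf {c : O} (hc : c ≠ 0) (x : Mo0 (N := N') ⊤ O a 1) (hx : c • x = 0) : x = 0 :=
  Subtype.ext (hm_torsionFree c hc (x : HM (GamH N' ⊤) O) (congrArg Subtype.val hx))

/-- the hypotheses of Ihara's lemma and its dual -/
structure RHyp (N q : ℕ) (a : Pr D₀ → ResidueField O) : Prop where
  hND : N * q ∣ D₀
  h0 : ∃ l0 : Pr D₀, ((N * q : ℕ) : ℤ) ∣ (l0 : ℤ) - 1 ∧ a l0 ≠ ((l0 : ℕ) : ResidueField O) + 1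
  h1 : ∃ l1 : Pr D₀, ¬ (l1 : ℤ) ∣ (q : ℤ) ^ 2 - 1 ∧ a l1 ≠ ((l1 : ℕ) : ResidueField O) + 1 ∧
    a l1 ≠ -(((l1 : ℕ) : ResidueField O) + 1)

/-- **Ihara's lemma at the bottom level.** -/
theorem RLv.bot_ihara (T : RHyp N q a) {ϖ : O} (hϖ : maximalIdeal O = Ideal.span {ϖ})
    (x y : Mo0 (N := N) ⊤ O a 1) (z : Mo0 (N := N') ⊤ O a 1)
    (hxy : L.bI1 hq a hqD x + L.bI2 hq a hqD w y = ϖ • z) :
    (∃ x' : Mo0 (N := N) ⊤ O a 1, x = ϖ • x') ∧ ∃ y' : Mo0 (N := N) ⊤ O a 1, y = ϖ • y' := by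
  obtain ⟨⟨l0, hl0, ha0⟩, ⟨l1, hl1, ha1, ha1'⟩⟩ := And.intro T.h0 T.h1
  have hN := L.hM
  subst hN
  have hNl1 : ¬ (prD D₀ l1 : ℕ) ∣ N := fun h =>
    l1.2.2 (h.trans ((dvd_mul_right N q).trans T.hND))
  have hl0' : (N : ℤ) ∣ ((prD D₀ l0 : ℕ) : ℤ) - 1 := by
    refine dvd_trans ?_ hl0
    exact_mod_cast dvd_mul_right N q
  have h1 : (L.i1 O O x : HM (GamH (N * q) ⊤) O) + L.i2 O O w y =
      ϖ • (z : HM (GamH (N * q) ⊤) O) := congrArg Subtype.val hxy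
  have h2 : redH O (N * q) (Hq N q ⊤) (ri1 N q ⊤ O O x + ri2 ⊤ O O w y) = 0 := by
    refine (congrArg (redH O (N * q) ⊤) h1).trans ?_
    exact redH_smul (hϖ ▸ Ideal.mem_span_singleton_self ϖ) _
  obtain ⟨h3, h4⟩ := ihara_top l0 hl0' ha0 l1 hNl1 (prD_ne hqD l1) hl1 ha1 ha1' w hq
    (mem_Mo0.mp x.2) (mem_Mo0.mp y.2) h2
  obtain ⟨x', hx', hxx⟩ := exists_locPart_smul hϖ (mem_Mo0.mp x.2) h3
  obtain ⟨y', hy', hyy⟩ := exists_locPart_smul hϖ (mem_Mo0.mp y.2) h4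
  exact ⟨⟨⟨x', mem_Mo0.mpr hx'⟩, Subtype.ext hxx⟩, ⟨⟨y', mem_Mo0.mpr hy'⟩, Subtype.ext hyy⟩⟩

variable {p : ℕ} [Fact p.Prime]

/-- **The dual of Ihara's lemma at the bottom level.** -/
theorem RLv.bot_dual (hp2 : p ≠ 2) (hpO : (p : O) ∈ maximalIdeal O) (hell : Ell p N)
    (T : RHyp N q a) (x y : Mo0 (N := N) ⊤ O a 1) :
    ∃ z : Mo0 (N := N') ⊤ O a 1, L.bJ1 hq a hqD z = x ∧ L.bJ2 hq a hqD w z = y := by
  obtain ⟨⟨l0, hl0, ha0⟩, ⟨l1, hl1, ha1, ha1'⟩⟩ := And.intro T.h0 T.h1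
  have hN := L.hM
  subst hN
  have hΔ : IsPGroup p ((ZMod N)ˣ ⧸ (⊤ : Subgroup (ZMod N)ˣ)) := by
    intro g
    refine ⟨0, ?_⟩
    obtain ⟨u, rfl⟩ := QuotientGroup.mk_surjective g
    rw [pow_zero, pow_one]
    exact (QuotientGroup.eq_one_iff u).mpr (Subgroup.mem_top u)
  obtain ⟨z, hz, hz1, hz2⟩ := raise_dual (H := (⊤ : Subgroup (ZMod N)ˣ)) (pr := prD D₀) (a := a)
    hp2 hpO hell T.hND id (fun _ => rfl) l0 hl0 ha0 l1 hl1 ha1 ha1' hΔ w hq (prD_ne hqD)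
    (mem_Mo0.mp x.2) (mem_Mo0.mp y.2)
  exact ⟨⟨z, mem_Mo0.mpr hz⟩, Subtype.ext hz1, Subtype.ext hz2⟩

end Ihara

end Fermat.Agent.H22
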