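import Fermat.Agent.H22.ModeTp
import Fermat.Agent.H27.ModeH1

/-!
# The Hecke operator at `p` on the flat tower: the inputs of `liftH`
-/

set_option autoImplicit false
set_option linter.style.haveILetI false
set_option linter.unusedSectionVars false

noncomputable section

namespace Fermat.Agent.H22

open CongruenceSubgroup Matrix.SpecialLinearGroup IsLocalRing
open Fermat.Agent.TC
open Fermat.Agent.H25 Fermat.Agent.H25.PR Fermat.Agent.CC Fermat.Agent.TW Fermat.Agent.H25.PT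
open Fermat.Agent.H05 Fermat.Agent.H25.TR Fermat.Agent.H25.TWM Fermat.Agent.H25.GE
open Fermat.Agent.H25.GD
open Fermat.Agent.H27.MH
open ModularFormClass (qCoeff)

variable {O K : Type} [CommRing O] [IsDomain O] [IsDiscreteValuationRing O]
    [IsAdicComplete (maximalIdeal O) O] [Field K] [Algebra O K] {p r : ℕ}
    [Finite (ResidueField O)] [CharZero O] [Fact p.Prime] [IsAlgClosed K] [FaithfulSMul O K]
    {F : TWBase O K p r} {κ' : Type} [Finite κ'] (E : Extra F κ') {m : ℕ}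
    (X : Fin (m + 1) → CmpT F) (X' : CmpT F) {ϖ : O}

/-- the elements `y n` -/
def yH (u : Oˣ) (lam : O) (φ σ₀ : GQ) (n : ℕ) : ((sysH E X X').comap cpx).A n :=
  yEl (((sysH E X X').comap cpx).H n) (((sysH E X X').comap cpx).hbar n) ((u⁻¹ : Oˣ) : O) lam φ σ₀

/-- **The inputs `tp`, `y`, `e` of `liftH`.** -/
theorem exists_tpH (hϖ : maximalIdeal O = Ideal.span {ϖ}) (hϖ0 : ϖ ≠ 0) {pp : Nat.Primes}
    (hpp : (pp : ℕ) = p) (hstepp : RStep (X (Fin.last m)) X' pp) {psi : GQ → ℤ}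
    {A : ValuationSubring Qb} (ho : St.OrdD F.D A psi) {φ σ₀ : GQ}
    (hφ : φ ∈ A.decompositionSubgroup ℚ) (hσ₀ : σ₀ ∈ A.inertiaSubgroupIn ℚ) {u : Oˣ}
    (hu : (u : O) = F.D.chi σ₀ - 1) (hrel : ∀ n, URel (X (Fin.last m)) u φ σ₀ n) :
    (∀ n, yH E X X' u ((psi φ : ℤ) : O) φ σ₀ n ∈
      maximalIdeal (((sysH E X X').comap cpx).A n)) ∧
    ∃ tp e : ∀ n, ((sysH E X X').comap cpx).A n,
      (∀ n x, (raiseP E X X' hstepp hϖ hϖ0).Tq n x = prL E X X' n (tp n) • x) ∧
      ∀ n, ((p : ((sysH E X X').comap cpx).A n) + 1) ^ 2 - tp n ^ 2 =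
        yH E X X' u ((psi φ : ℤ) : O) φ σ₀ n * e n := by
  have key := fun n => exists_tp (X := xx X X') E (fun j : Fin (m + 1) => some j) (Fin.last m)
    (i' := none) hpp hstepp hϖ hϖ0 ho hφ hσ₀ hu n (hrel n)
  refine ⟨fun n => (key n).1, ?_⟩
  choose tp e h1 h2 using fun n => (key n).2
  exact ⟨tp, e, h1, h2⟩

/-- derivations killing `y` kill `z` -/
theorem der_yH {u : Oˣ} {lam : O} {φ σ₀ : GQ} {n : ℕ}
    {d : ((sysH E X X').comap cpx).A n → ResidueField O}
    (hd : IsDer O (CA (((sysH E X X').comap cpx).H n) (((sysH E X X').comap cpx).hbar n)).resB d)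
    (h : d (yH E X X' u lam φ σ₀ n) = 0) :
    d (SB.zEl (((sysH E X X').comap cpx).H n) (((sysH E X X').comap cpx).hbar n) φ σ₀) = 0 :=
  der_yEl _ _ hd h

/-- the Selmer bound for derivations killing `y` -/
theorem selBQ_yH {u : Oˣ} {lam : O} {φ σ₀ : GQ} {n r' : ℕ} {tv : Fin m → Nat.Primes}
    (h : SB.SelBy (((sysH E X X').comap cpx).H n) (((sysH E X X').comap cpx).hbar n) r' tv
      (SB.zEl (((sysH E X X').comap cpx).H n) (((sysH E X X').comap cpx).hbar n) φ σ₀)) :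
    SelBQ (((sysH E X X').comap cpx).H n) (((sysH E X X').comap cpx).hbar n) r' tv
      (fun δ => δ (yH E X X' u lam φ σ₀ n) = 0) := by
  obtain ⟨Sel, hf, h1, h2⟩ := h
  exact ⟨Sel, hf, fun d hd h0 => h1 d hd (der_yH E X X' hd h0), h2⟩

end Fermat.Agent.H22
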