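import Fermat.Agent.H22.Raise18
import Fermat.Agent.TC.Rs2

/-!
# The inputs of the raising argument
-/

set_option autoImplicit false
set_option linter.style.haveILetI false
set_option linter.unusedSectionVars false

noncomputable section

namespace Fermat.Agent.H22

open CongruenceSubgroup Matrix.SpecialLinearGroup IsLocalRing
open Fermat.Agent.TC
open Fermat.Agent.H25 Fermat.Agent.H25.PR Fermat.Agent.CC Fermat.Agent.TW Fermat.Agent.H25.PT
open Fermat.Agent.H05 Fermat.Agent.H25.TR Fermat.Agent.H25.TWM Fermat.Agent.H25.GE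
open ModularFormClass (qCoeff)

variable {O K : Type} [CommRing O] [IsDomain O] [IsDiscreteValuationRing O]
    [IsAdicComplete (maximalIdeal O) O] [Field K] [Algebra O K] {p r : ℕ}
    [Finite (ResidueField O)] [CharZero O] [Fact p.Prime] [IsAlgClosed K] [FaithfulSMul O K]
    {F : TWBase O K p r} {X X' : CmpT F} {q : Nat.Primes}

/-- **The inputs of the raising argument.** -/
theorem rin (h : RStep X X' q) (hqp : (q : ℕ) ≠ p) : RIn h where
  hTq := by
    haveI : NeZero (q : ℕ) := ⟨q.2.ne_zero⟩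
    haveI : CharZero K := charZero_of_injective_algebraMap (FaithfulSMul.algebraMap_injective O K)
    intro n x
    haveI := (X.toCmp.P 1 n).fin
    refine (h.rz n).Tq_eq (K := K) h.hqD (h.w n) (X.T n) X.B (condHyp_top X.N)
      (FaithfulSMul.algebraMap_injective O K) (X.toCmp.P 1 n).pt (X.toCmp.P 1 n).inj _
      (fun t => ?_) x
    refine ⟨(X.toCmp.P 1 n).N0 t, (X.toCmp.P 1 n).nz t, (X.toCmp.P 1 n).g t,
      (X.toCmp.P 1 n).τ t, (X.toCmp.P 1 n).hg t, (X.toCmp.P 1 n).hcoef t, fun z hz => ?_⟩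
    exact (hin_frob X.B.hpO F.Ge F.hchi F.hc (X.toCmp.hin 1 n) t q.2 hqp
      (X.not_dvd_lvl n t q.2 h.hqN h.hqD) (plv_over q q.2) (frv_spec q q.2) (F.hbar n) hz).symm
  hnew := by
    haveI : NeZero (q : ℕ) := ⟨q.2.ne_zero⟩
    haveI : CharZero K := charZero_of_injective_algebraMap (FaithfulSMul.algebraMap_injective O K)
    intro y hy
    obtain ⟨ϖ, hϖ⟩ := IsDiscreteValuationRing.exists_irreducible O
    haveI := (X'.toCmp.P₀ 1).nz y
    obtain ⟨s, h1, h2⟩ := (h.rz 0).lv0.bot_old (K := K) q.2 h.hqD h.w₀ h.hR X.toCmp.D₀_ne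
      hϖ.maximalIdeal_eq X.B.hp2 X.B.hpO (FaithfulSMul.algebraMap_injective O K)
      ((X'.toCmp.P₀ 1).pt y) ((X'.toCmp.P₀ 1).hg y).1 (X'.lvl₀_dvd y) hy
      ((X'.toCmp.P₀ 1).τ y) ((X'.toCmp.P₀ 1).hcoef y)
    exact ⟨_, h1, h2⟩

end Fermat.Agent.H22
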