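import Fermat.Agent.H22.Transfer
import Fermat.Prelude.Def_ModularCurve_PeriodMap

set_option autoImplicit false

noncomputable section

namespace Fermat.Agent.H22

open CongruenceSubgroup
open scoped MatrixGroups

theorem mem_Gamma0_iff_dvd {N : ℕ} {γ : SL(2, ℤ)} : γ ∈ Gamma0 N ↔ (N : ℤ) ∣ γ 1 0 := by
  rw [Gamma0_mem, ZMod.intCast_zmod_eq_zero_iff_dvd]

/-- Conjugation by `diag(ℓ, 1)`, `(a b; c d) ↦ (a ℓb; c/ℓ d)`. -/
def degMat (ℓ : ℕ) (M : Matrix (Fin 2) (Fin 2) ℤ) : Matrix (Fin 2) (Fin 2) ℤ :=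
  !![M 0 0, ℓ * M 0 1; M 1 0 / ℓ, M 1 1]

section DegConj

variable (N ℓ : ℕ) [NeZero ℓ]

theorem dvd_of_mem {N ℓ : ℕ} {γ : SL(2, ℤ)} (h : γ ∈ Gamma0 (N * ℓ)) : (ℓ : ℤ) ∣ γ 1 0 := by
  rw [mem_Gamma0_iff_dvd] at h
  push_cast at h
  exact (dvd_mul_left _ _).trans h

omit [NeZero ℓ] in
theorem Gamma0_mul_le : Gamma0 (N * ℓ) ≤ Gamma0 N := fun γ h => by
  rw [mem_Gamma0_iff_dvd] at h ⊢
  push_cast at h
  exact (dvd_mul_right _ _).trans h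

theorem det_degMat {ℓ : ℕ} [NeZero ℓ] {M : Matrix (Fin 2) (Fin 2) ℤ} (h : M.det = 1)
    (hd : (ℓ : ℤ) ∣ M 1 0) : (degMat ℓ M).det = 1 := by
  obtain ⟨c, hc⟩ := hd
  have hℓ : (ℓ : ℤ) ≠ 0 := by exact_mod_cast NeZero.ne ℓ
  rw [Matrix.det_fin_two] at h
  rw [degMat, Matrix.det_fin_two_of, hc, Int.mul_ediv_cancel_left _ hℓ]
  rw [hc] at h
  linear_combination h

theorem degMat_mul {ℓ : ℕ} [NeZero ℓ] {M M' : Matrix (Fin 2) (Fin 2) ℤ}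
    (h : (ℓ : ℤ) ∣ M 1 0) (h' : (ℓ : ℤ) ∣ M' 1 0) :
    degMat ℓ (M * M') = degMat ℓ M * degMat ℓ M' := by
  have hℓ : (ℓ : ℤ) ≠ 0 := by exact_mod_cast NeZero.ne ℓ
  obtain ⟨c, hc⟩ := h
  obtain ⟨c', hc'⟩ := h'
  have e3 : (M 1 0 * M' 0 0 + M 1 1 * M' 1 0) / (ℓ : ℤ) = c * M' 0 0 + M 1 1 * c' := by
    rw [hc, hc', show (ℓ : ℤ) * c * M' 0 0 + M 1 1 * (ℓ * c') =
      ℓ * (c * M' 0 0 + M 1 1 * c') by ring, Int.mul_ediv_cancel_left _ hℓ]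
  ext i j
  fin_cases i <;> fin_cases j
  · simp [degMat, Matrix.mul_apply, Fin.sum_univ_two, hc, hc', Int.mul_ediv_cancel_left _ hℓ]
    ring
  · simp [degMat, Matrix.mul_apply, Fin.sum_univ_two, hc, hc', Int.mul_ediv_cancel_left _ hℓ]
    ring
  · simp only [degMat, Matrix.mul_apply, Fin.sum_univ_two, Fin.isValue, Fin.zero_eta, Fin.mk_one,
      Matrix.of_apply, Matrix.cons_val', Matrix.cons_val_zero, Matrix.cons_val_one,
      Matrix.cons_val_fin_one]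
    rw [e3, hc, hc', Int.mul_ediv_cancel_left _ hℓ, Int.mul_ediv_cancel_left _ hℓ]
  · simp [degMat, Matrix.mul_apply, Fin.sum_univ_two, hc, hc', Int.mul_ediv_cancel_left _ hℓ]
    ring

/-- Conjugation by `diag(ℓ, 1)` on matrices with lower left entry divisible by `ℓ`. -/
def degSL (γ : SL(2, ℤ)) (h : (ℓ : ℤ) ∣ γ 1 0) : SL(2, ℤ) :=
  ⟨degMat ℓ (γ : Matrix (Fin 2) (Fin 2) ℤ), det_degMat γ.2 h⟩

theorem degSL_mem {N ℓ : ℕ} [NeZero ℓ] {γ : SL(2, ℤ)} (h : γ ∈ Gamma0 (N * ℓ)) :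
    degSL ℓ γ (dvd_of_mem h) ∈ Gamma0 N := by
  have hℓ : (ℓ : ℤ) ≠ 0 := by exact_mod_cast NeZero.ne ℓ
  refine mem_Gamma0_iff_dvd.mpr ?_
  obtain ⟨c, hc⟩ := mem_Gamma0_iff_dvd.mp h
  push_cast at hc
  refine ⟨c, ?_⟩
  change γ 1 0 / (ℓ : ℤ) = _
  rw [hc, show (N : ℤ) * ℓ * c = ℓ * (N * c) by ring, Int.mul_ediv_cancel_left _ hℓ]

/-- Conjugation by `diag(ℓ, 1)` as a homomorphism `Γ₀(Nℓ) → Γ₀(N)`. -/
def degConj : Gamma0 (N * ℓ) →* Gamma0 N where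
  toFun γ := ⟨degSL ℓ γ (dvd_of_mem γ.2), degSL_mem γ.2⟩
  map_one' := by
    apply Subtype.ext
    apply Subtype.ext
    change degMat ℓ ((1 : SL(2, ℤ)) : Matrix (Fin 2) (Fin 2) ℤ) = 1
    ext i j
    fin_cases i <;> fin_cases j <;> simp [degMat]
  map_mul' γ δ := by
    apply Subtype.ext
    apply Subtype.ext
    exact degMat_mul (dvd_of_mem γ.2) (dvd_of_mem δ.2)

theorem coe_degConj (γ : Gamma0 (N * ℓ)) :
    (((degConj N ℓ γ : Gamma0 N) : SL(2, ℤ)) : Matrix (Fin 2) (Fin 2) ℤ) =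
      degMat ℓ ((γ : SL(2, ℤ)) : Matrix (Fin 2) (Fin 2) ℤ) := rfl

/-- `Γ₀(Nℓ)` as a subgroup of `Γ₀(N)`. -/
def subGamma : Subgroup (Gamma0 N) := (Gamma0 (N * ℓ)).subgroupOf (Gamma0 N)

instance subGamma_finiteIndex [NeZero N] : (subGamma N ℓ).FiniteIndex := by
  have : NeZero (N * ℓ) := ⟨mul_ne_zero (NeZero.ne N) (NeZero.ne ℓ)⟩
  unfold subGamma
  infer_instance

instance subGamma_fintype [NeZero N] : Fintype (Gamma0 N ⧸ subGamma N ℓ) :=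
  (subGamma N ℓ).fintypeQuotientOfFiniteIndex

/-- Conjugation by `diag(ℓ,1)` on `Γ₀(Nℓ)`, viewed as a subgroup of `Γ₀(N)`. -/
def subDegConj : subGamma N ℓ →* Gamma0 N :=
  (degConj N ℓ).comp (Subgroup.subgroupOfEquivOfLe (Gamma0_mul_le N ℓ)).toMonoidHom

end DegConj

section HeckeChar

variable (N ℓ : ℕ) [NeZero N] [NeZero ℓ] {A : Type*} [CommGroup A]

/-- The Hecke operator at `ℓ` on characters of `Γ₀(N)` with values in a commutative group: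
restriction to `Γ₀(Nℓ)` along conjugation by `diag(ℓ,1)` followed by the transfer. -/
def heckeChar (ψ : Gamma0 N →* A) : Gamma0 N →* A :=
  MonoidHom.transfer (ψ.comp (subDegConj N ℓ))

theorem heckeChar_mul (ψ ψ' : Gamma0 N →* A) :
    heckeChar N ℓ (ψ * ψ') = heckeChar N ℓ ψ * heckeChar N ℓ ψ' :=
  MonoidHom.ext fun g => transfer_mul (ψ.comp (subDegConj N ℓ)) (ψ'.comp (subDegConj N ℓ)) g

theorem heckeChar_one : heckeChar N ℓ (1 : Gamma0 N →* A) = 1 := by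
  have h := heckeChar_mul N ℓ (1 : Gamma0 N →* A) 1
  rw [one_mul] at h
  exact (mul_eq_left.mp h.symm)

variable (A) in
/-- `heckeChar` as a homomorphism of groups. -/
def heckeCharHom : (Gamma0 N →* A) →* (Gamma0 N →* A) where
  toFun := heckeChar N ℓ
  map_one' := heckeChar_one N ℓ
  map_mul' := heckeChar_mul N ℓ

@[simp] theorem heckeCharHom_apply (ψ : Gamma0 N →* A) :
    heckeCharHom N ℓ A ψ = heckeChar N ℓ ψ := rfl

/-- Functoriality in the coefficients. -/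
theorem heckeChar_comp {B : Type*} [CommGroup B] (f : A →* B) (ψ : Gamma0 N →* A) :
    heckeChar N ℓ (f.comp ψ) = f.comp (heckeChar N ℓ ψ) :=
  MonoidHom.ext fun g => transfer_comp f (ψ.comp (subDegConj N ℓ)) g

/-- Automorphy: if `u` has automorphy factor `ψ` and `u' (η • x) = ...`. General form: `v` is a
function with `v (η • x) = ψ(αηα⁻¹) v(x)` for `η ∈ Γ₀(Nℓ)`. -/
theorem heckeChar_automorphy {X Y : Type*} [MulAction (Gamma0 N) X] [CommMonoid Y] (j : A →* Y)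
    (ψ : Gamma0 N →* A) (v : X → Y)
    (hv : ∀ (h : subGamma N ℓ) (x : X), v ((h : Gamma0 N) • x) = j (ψ (subDegConj N ℓ h)) * v x)
    (g : Gamma0 N) (x : X) :
    ∏ q : Gamma0 N ⧸ subGamma N ℓ, v ((q.out)⁻¹ • g • x) =
      j (heckeChar N ℓ ψ g) * ∏ q : Gamma0 N ⧸ subGamma N ℓ, v ((q.out)⁻¹ • x) :=
  transfer_automorphy (ψ.comp (subDegConj N ℓ)) j v hv g x

end HeckeChar

end Fermat.Agent.H22
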