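import Fermat.Agent.H22.Faithful

set_option autoImplicit false

noncomputable section

namespace Fermat.Agent.H22

open CongruenceSubgroup ModularForm Matrix.SpecialLinearGroup ModularCurve
open scoped MatrixGroups

variable {N : ℕ} [NeZero N]

/-- A map intertwining the generators intertwines the whole Hecke action. -/
theorem intertwine_heckeAct {W A : Type*} [AddCommGroup W] [AddCommGroup A]
    (ρ : HeckeAlg →+* Module.End ℤ W) (Φ : W →+ (Additive (Gamma0 N) →+ A))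
    (hΦ : ∀ ℓ w, Φ (ρ (heckeGen ℓ) w) = heckeOpL ℤ N A ℓ (Φ w)) (t : HeckeAlg) (w : W) :
    Φ (ρ t w) = heckeAct ℤ N A t (Φ w) := by
  refine evalComm_intertwine ρ (heckeAct ℤ N A) Φ (fun ℓ w => ?_) t w
  have h1 := heckeAct_heckeGen ℤ N A ℓ
  have h2 := hΦ ℓ w
  unfold heckeGen at h1 h2
  rw [h1, h2]

/-- **Transport of faithfulness** to a Hecke module `W` (think of `J₀(N)[p ^ m]`) with a Hecke
equivariant injection into `Hom(Γ₀(N), A)` whose image contains the reductions of all integral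
parabolic homomorphisms. -/
theorem exists_transport (S : Set ℕ) {p : ℕ} (hp : p.Prime) (n : ℕ) :
    ∃ m : ℕ, n ≤ m ∧ ∀ {W A : Type} [AddCommGroup W] [AddCommGroup A]
      (ρ : HeckeAlg →+* Module.End ℤ W) (f : ℤ →+ A)
      (_ : ∀ k, f k = 0 → ((p ^ m : ℕ) : ℤ) ∣ k)
      (Φ : W →+ (Additive (Gamma0 N) →+ A)) (_ : Function.Injective Φ)
      (_ : ∀ ℓ w, Φ (ρ (heckeGen ℓ) w) = heckeOpL ℤ N A ℓ (Φ w))
      (_ : ∀ ψ ∈ Period.parabolicHoms ℤ (Gamma0 N) ℤ, ∃ w, Φ w = f.comp ψ)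
      (x : CuspForm.heckeAlgebra N 2 S), formsPartActAway N ρ S x = 0 →
        ∃ s : CuspForm.heckeAlgebra N 2 S, x = (p ^ n : ℕ) • s := by
  obtain ⟨m, hnm, hm⟩ := exists_faithful_mod (N := N) S hp n
  refine ⟨m, hnm, fun {W A} _ _ ρ f hf Φ hΦi hΦ hsurj x hx => ?_⟩
  obtain ⟨t, ht⟩ := heckeEvalForms_surjective (N := N) (awayIncl N S x)
  have ht' : (CuspForm.heckeEvalForms N 2 t : Module.End ℂ (CuspForm (Gamma0 N) 2)) = x := by
    rw [ht, coe_awayIncl]
  refine hm x t ht' fun ψ hψ γ => ?_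
  obtain ⟨w, hw⟩ := hsurj ψ hψ.1
  have hw' : w ∈ formsPart N ρ := by
    intro s hs
    apply hΦi
    rw [intertwine_heckeAct ρ Φ hΦ, hw, heckeAct_map (R := ℤ) (R' := ℤ), hψ.2 s hs, map_zero,
      AddMonoidHom.comp_zero]
  have h1 := formsPartActAway_apply ρ x t ht' ⟨w, hw'⟩
  rw [hx] at h1
  have h2 : ρ t w = 0 := h1.symm
  have h3 := intertwine_heckeAct ρ Φ hΦ t w
  rw [h2, map_zero, hw, heckeAct_map (R := ℤ) (R' := ℤ)] at h3
  exact hf _ (DFunLike.congr_fun h3 γ).symm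

end Fermat.Agent.H22
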