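import Fermat.Agent.H22.Transport
import Fermat.Agent.H22.Character
import Fermat.Agent.H16.Separation

set_option autoImplicit false

noncomputable section

namespace Fermat.Agent.H22

open CongruenceSubgroup ModularForm Matrix.SpecialLinearGroup ModularCurve
open scoped MatrixGroups

variable {N : ℕ} [NeZero N]

section General

variable {k : Type*} [CommRing k] {W : Type*} [AddCommGroup W] [Module k W]
  (ρ : HeckeAlg →+* Module.End k W)

variable (N) in
/-- For a `HeckeAlg`-module over `k` the part killed by the annihilator of `S₂`. -/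
def formsPartK : Submodule k W where
  carrier := {w | ∀ t : HeckeAlg, CuspForm.heckeEvalForms N 2 t = 0 → ρ t w = 0}
  zero_mem' := fun t _ => map_zero _
  add_mem' {a b} ha hb := fun t ht => by rw [map_add, ha t ht, hb t ht, add_zero]
  smul_mem' c a ha := fun t ht => by rw [map_smul, ha t ht, smul_zero]

theorem act_mem_formsPartK (t : HeckeAlg) {w : W} (hw : w ∈ formsPartK N ρ) :
    ρ t w ∈ formsPartK N ρ := fun s hs => by
  rw [← Module.End.mul_apply, ← map_mul, mul_comm, map_mul, Module.End.mul_apply, hw s hs,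
    map_zero]

variable (N) in
/-- The restriction of the action to the forms part. -/
def formsPartKRestrict : HeckeAlg →+* Module.End k (formsPartK N ρ) where
  toFun t := (ρ t).restrict fun _ hw => act_mem_formsPartK ρ t hw
  map_one' := by
    refine LinearMap.ext fun w => Subtype.ext ?_
    change ρ 1 (w : W) = w
    rw [map_one]
    rfl
  map_mul' s t := by
    refine LinearMap.ext fun w => Subtype.ext ?_
    change ρ (s * t) (w : W) = ρ s (ρ t w)
    rw [map_mul]
    rfl
  map_zero' := by
    refine LinearMap.ext fun w => Subtype.ext ?_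
    change ρ 0 (w : W) = 0
    rw [map_zero]
    rfl
  map_add' s t := by
    refine LinearMap.ext fun w => Subtype.ext ?_
    change ρ (s + t) (w : W) = ρ s w + ρ t w
    rw [map_add]
    rfl

theorem ker_le_ker_formsPartKRestrict :
    RingHom.ker (CuspForm.heckeEvalForms N 2) ≤ RingHom.ker (formsPartKRestrict N ρ) := by
  intro t ht
  rw [RingHom.mem_ker] at ht ⊢
  exact LinearMap.ext fun w => Subtype.ext (w.2 t ht)

variable (N) in
/-- The action of the Hecke algebra of `S₂` on the forms part of a `HeckeAlg`-module. -/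
def formsPartKAct : CuspForm.heckeAlgebra N 2 ∅ →+* Module.End k (formsPartK N ρ) :=
  RingHom.liftOfSurjective (CuspForm.heckeEvalForms N 2) heckeEvalForms_surjective
    ⟨formsPartKRestrict N ρ, ker_le_ker_formsPartKRestrict ρ⟩

theorem formsPartKAct_apply (t : HeckeAlg) (w : formsPartK N ρ) :
    ((formsPartKAct N ρ (CuspForm.heckeEvalForms N 2 t) w : formsPartK N ρ) : W) = ρ t w := by
  unfold formsPartKAct
  have h := RingHom.liftOfRightInverse_comp_apply (CuspForm.heckeEvalForms N 2)
    (Function.surjInv heckeEvalForms_surjective)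
    (Function.rightInverse_surjInv heckeEvalForms_surjective)
    ⟨formsPartKRestrict N ρ, ker_le_ker_formsPartKRestrict ρ⟩ t
  exact congrArg (fun φ : Module.End k (formsPartK N ρ) => ((φ w : formsPartK N ρ) : W)) h

end General

section Eigen

/-- `Hom(G, K)` is finite dimensional for `G` finitely generated. -/
theorem finiteDimensional_hom {G : Type*} [Group G] [Group.FG G] (K : Type*) [Field K] :
    FiniteDimensional K (Additive G →+ K) := by
  obtain ⟨s, hs⟩ := (Group.fg_def.mp (inferInstance : Group.FG G) : (⊤ : Subgroup G).FG)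
  let Φ : (Additive G →+ K) →ₗ[K] (s → K) :=
    { toFun := fun ψ g => ψ (Additive.ofMul (g : G))
      map_add' := fun _ _ => rfl
      map_smul' := fun _ _ => rfl }
  refine Module.Finite.of_injective Φ ((injective_iff_map_eq_zero Φ).mpr fun ψ hψ => ?_)
  have h1 : ψ.toMultiplicativeRight = 1 := by
    have h2 : (ψ.toMultiplicativeRight).ker = ⊤ := by
      rw [eq_top_iff, ← hs, Subgroup.closure_le]
      intro g hg
      exact congrFun hψ ⟨g, hg⟩
    ext g
    have : g ∈ (ψ.toMultiplicativeRight).ker := h2 ▸ Subgroup.mem_top g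
    exact this
  ext g
  exact DFunLike.congr_fun h1 g

/-- Some eigensystem `χ'` with `ker χ' ≤ P` occurs in the parabolic homomorphisms, for every prime
ideal `P`. -/
theorem exists_eigenvector_of_prime (K : Type*) [Field K] [IsAlgClosed K] [CharZero K] (S : Set ℕ)
    (P : Ideal (CuspForm.heckeAlgebra N 2 S)) [P.IsPrime] :
    ∃ (χ : CuspForm.heckeAlgebra N 2 S →+* K) (v : Additive (Gamma0 N) →+ K), v ≠ 0 ∧
      v ∈ Period.parabolicHoms K (Gamma0 N) K ∧
      (∀ t : HeckeAlg, CuspForm.heckeEvalForms N 2 t = 0 → heckeAct K N K t v = 0) ∧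
      (∀ (x : CuspForm.heckeAlgebra N 2 S) (t : HeckeAlg),
        (CuspForm.heckeEvalForms N 2 t : Module.End ℂ (CuspForm (Gamma0 N) 2)) = x →
        heckeAct K N K t v = χ x • v) ∧ RingHom.ker χ ≤ P := by
  have hfd : FiniteDimensional K (Additive (Gamma0 N) →+ K) := finiteDimensional_hom K
  let V := formsPartK N (heckeActPar K N K)
  let act : CuspForm.heckeAlgebra N 2 S →+* Module.End K V :=
    (formsPartKAct N (heckeActPar K N K)).comp (awayIncl N S)
  have hact0 : Function.Injective (formsPartKAct N (heckeActPar K N K)) := by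
    refine (injective_iff_map_eq_zero _).mpr fun x hx => ?_
    obtain ⟨t, rfl⟩ := heckeEvalForms_surjective x
    apply heckeEvalForms_eq_zero_of
    intro ψ hψ
    let f : ℤ →+ K := (Int.castRingHom K).toAddMonoidHom
    have hf : Function.Injective f := Int.cast_injective
    have hpar : f.comp ψ ∈ Period.parabolicHoms K (Gamma0 N) K := fun γ hγ => by
      change f (ψ (Additive.ofMul γ)) = 0
      rw [hψ.1 γ hγ, map_zero]
    have hmem : (⟨f.comp ψ, hpar⟩ : Period.parabolicHoms K (Gamma0 N) K) ∈ V := by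
      intro s hs
      apply Subtype.ext
      rw [coe_heckeActPar]
      change heckeAct K N K s (f.comp ψ) = 0
      rw [heckeAct_map (R := ℤ) (R' := K), hψ.2 s hs, AddMonoidHom.comp_zero]
    have h1 := formsPartKAct_apply (heckeActPar K N K) t ⟨_, hmem⟩
    rw [hx] at h1
    have h2 : heckeAct K N K t (f.comp ψ) = 0 := (congrArg Subtype.val h1).symm
    rw [heckeAct_map (R := ℤ) (R' := K)] at h2
    refine AddMonoidHom.ext fun γ => hf ?_
    rw [AddMonoidHom.zero_apply, map_zero]
    exact DFunLike.congr_fun h2 γ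
  have hact : Function.Injective act := hact0.comp awayIncl_injective
  obtain ⟨χ, v, hv, hχ, hker⟩ := exists_character_of_prime (K := K) (V := V) act hact P
  refine ⟨χ, ((v : Period.parabolicHoms K (Gamma0 N) K) : Additive (Gamma0 N) →+ K),
    fun h => hv (Subtype.ext (Subtype.ext h)), v.1.2, fun t ht => ?_, fun x t ht => ?_, hker⟩
  · exact congrArg Subtype.val (v.2 t ht)
  · have h1 := formsPartKAct_apply (heckeActPar K N K) t v
    rw [← awayIncl_eq ht] at h1
    have h2 : formsPartKAct N (heckeActPar K N K) (awayIncl N S x) v = χ x • v := hχ x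
    rw [h2] at h1
    exact (congrArg Subtype.val h1).symm

theorem exists_lift_aux {B K : Type*} [CommRing B] [IsDomain B] [Field K] [IsAlgClosed K]
    [CharZero K] (i₁ : B →+* AlgebraicClosure ℚ) (i₂ : B →+* K) (hi₁ : Function.Injective i₁)
    (hi₂ : Function.Injective i₂) : ∃ τ : AlgebraicClosure ℚ →+* K, ∀ x, τ (i₁ x) = i₂ x := by
  let _ : Algebra B (AlgebraicClosure ℚ) := i₁.toAlgebra
  let _ : Algebra B K := i₂.toAlgebra
  have ht₁ : Module.IsTorsionFree B (AlgebraicClosure ℚ) :=
    Module.isTorsionFree_iff_algebraMap_injective.mpr hi₁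
  have ht₂ : Module.IsTorsionFree B K :=
    Module.isTorsionFree_iff_algebraMap_injective.mpr hi₂
  have hZB : Function.Injective (algebraMap ℤ B) := by
    intro m n hmn
    have h1 := congrArg i₂ hmn
    rw [eq_intCast, eq_intCast, map_intCast, map_intCast] at h1
    exact_mod_cast h1
  have halg : Algebra.IsAlgebraic B (AlgebraicClosure ℚ) := by
    refine ⟨fun x => ?_⟩
    have h0 : Algebra.IsAlgebraic ℚ (AlgebraicClosure ℚ) := by
      convert! AlgebraicClosure.isAlgebraic ℚ
    have h1 : IsAlgebraic ℚ x := Algebra.IsAlgebraic.isAlgebraic x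
    have h2 : IsAlgebraic ℤ x := (IsFractionRing.isAlgebraic_iff ℤ ℚ (AlgebraicClosure ℚ)).mpr h1
    have h3 : IsScalarTower ℤ B (AlgebraicClosure ℚ) :=
      IsScalarTower.of_algebraMap_eq' (RingHom.ext_int _ _)
    exact h2.extendScalars hZB
  let τ : AlgebraicClosure ℚ →ₐ[B] K := IsAlgClosed.lift
  exact ⟨τ, fun x => τ.commutes x⟩

/-- Two characters with the same kernel differ by an embedding. -/
theorem exists_lift_of_ker_eq {R K : Type*} [CommRing R] [Field K] [IsAlgClosed K]
    [CharZero K] (χ' : R →+* AlgebraicClosure ℚ) (χ : R →+* K)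
    (h : RingHom.ker χ' = RingHom.ker χ) :
    ∃ τ : AlgebraicClosure ℚ →+* K, ∀ x, τ (χ' x) = χ x := by
  have hP : (RingHom.ker χ).IsPrime := RingHom.ker_isPrime χ
  obtain ⟨τ, hτ⟩ := exists_lift_aux
    (Ideal.Quotient.lift (RingHom.ker χ) χ' fun a ha => by rw [← h] at ha; exact ha)
    (Ideal.Quotient.lift (RingHom.ker χ) χ fun a ha => ha)
    (RingHom.lift_injective_of_ker_le_ideal _ _ h.le)
    (RingHom.lift_injective_of_ker_le_ideal _ _ le_rfl)
  exact ⟨τ, fun x => hτ (Ideal.Quotient.mk _ x)⟩

/-- Incomparability for characters of a ring integral over `ℤ`. -/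
theorem ker_eq_of_ker_le {R K K' : Type*} [CommRing R] [Module.Finite ℤ R] [Field K]
    [CharZero K] [Field K'] (χ' : R →+* K') (χ : R →+* K)
    (h : RingHom.ker χ' ≤ RingHom.ker χ) : RingHom.ker χ' = RingHom.ker χ := by
  have hint : Algebra.IsIntegral ℤ R := inferInstance
  have hP' : (RingHom.ker χ').IsPrime := RingHom.ker_isPrime χ'
  by_contra hne
  have h1 := Ideal.IsIntegral.comap_lt_comap (R := ℤ) (lt_of_le_of_ne h hne)
  have h2 : (RingHom.ker χ).comap (algebraMap ℤ R) = ⊥ := by
    rw [eq_bot_iff]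
    intro n hn
    rw [Ideal.mem_comap, RingHom.mem_ker, eq_intCast, map_intCast] at hn
    exact_mod_cast hn
  rw [h2] at h1
  exact not_lt_bot h1

/-- **Every character of the Hecke algebra occurs in the parabolic homomorphisms.** -/
theorem exists_eigenvector {K : Type*} [Field K] [IsAlgClosed K] [CharZero K] (S : Set ℕ)
    (χ : CuspForm.heckeAlgebra N 2 S →+* K) :
    ∃ v : Additive (Gamma0 N) →+ K, v ≠ 0 ∧
      v ∈ Period.parabolicHoms K (Gamma0 N) K ∧
      (∀ t : HeckeAlg, CuspForm.heckeEvalForms N 2 t = 0 → heckeAct K N K t v = 0) ∧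
      (∀ (x : CuspForm.heckeAlgebra N 2 S) (t : HeckeAlg),
        (CuspForm.heckeEvalForms N 2 t : Module.End ℂ (CuspForm (Gamma0 N) 2)) = x →
        heckeAct K N K t v = χ x • v) := by
  have hfin : Module.Finite ℤ (CuspForm.heckeAlgebra N 2 S) :=
    Fermat.Agent.H16.moduleFinite_heckeAlgebra N 2 S
  have hP : (RingHom.ker χ).IsPrime := RingHom.ker_isPrime χ
  obtain ⟨χ', v, hv, hpar, hann, heig, hker⟩ :=
    exists_eigenvector_of_prime (N := N) (AlgebraicClosure ℚ) S (RingHom.ker χ)
  obtain ⟨τ, hτ⟩ := exists_lift_of_ker_eq χ' χ (ker_eq_of_ker_le χ' χ hker)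
  have hτi : Function.Injective τ := τ.injective
  let g : AlgebraicClosure ℚ →+ K := τ.toAddMonoidHom
  have hg : ∀ x, g x = τ x := fun _ => rfl
  refine ⟨g.comp v, fun h => hv ?_, fun γ hγ => ?_, fun t ht => ?_, fun x t ht => ?_⟩
  · refine AddMonoidHom.ext fun γ => hτi ?_
    have := DFunLike.congr_fun h γ
    rw [AddMonoidHom.zero_apply, map_zero]
    exact this
  · change g (v (Additive.ofMul γ)) = 0
    rw [hpar γ hγ, map_zero]
  · rw [heckeAct_map (R := AlgebraicClosure ℚ) (R' := K), hann t ht, AddMonoidHom.comp_zero]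
  · rw [heckeAct_map (R := AlgebraicClosure ℚ) (R' := K), heig x t ht]
    refine AddMonoidHom.ext fun γ => ?_
    change τ (χ' x * v γ) = χ x * τ (v γ)
    rw [map_mul, hτ]

end Eigen

end Fermat.Agent.H22
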