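import Fermat.Agent.H22.Lattice

set_option autoImplicit false

noncomputable section

namespace Fermat.Agent.H22

open CongruenceSubgroup ModularForm Matrix.SpecialLinearGroup ModularCurve
open scoped MatrixGroups nonZeroDivisors

/-! ### Saturation -/

section Saturation

variable {R E : Type*} [AddCommGroup R] [AddCommGroup E] [Module.Finite ℤ E]
  (i : R →+ E) (hi : Function.Injective i)

include hi in
theorem exists_index : ∃ c : ℤ, c ≠ 0 ∧ ∀ (x : R) (k : ℤ), k ≠ 0 → (∃ e, i x = k • e) →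
    ∃ y : R, c • x = k • y := by
  let Q := E ⧸ (LinearMap.range i.toIntLinearMap)
  have hfin : Module.Finite ℤ (Submodule.torsion ℤ Q) := inferInstance
  have htor : Module.IsTorsion ℤ (Submodule.torsion ℤ Q) := Submodule.torsion_isTorsion
  obtain ⟨c, hc1, hc2⟩ := Submodule.annihilator_top_inter_nonZeroDivisors htor
  refine ⟨c, nonZeroDivisors.ne_zero hc2, fun x k hk ⟨e, he⟩ => ?_⟩
  have h1 : (Submodule.Quotient.mk e : Q) ∈ Submodule.torsion ℤ Q := by
    rw [Submodule.mem_torsion_iff]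
    refine ⟨⟨k, mem_nonZeroDivisors_of_ne_zero hk⟩, ?_⟩
    change k • (Submodule.Quotient.mk e : Q) = 0
    rw [← Submodule.Quotient.mk_smul, ← he]
    exact (Submodule.Quotient.mk_eq_zero _).mpr ⟨x, rfl⟩
  have h2 : c • (⟨_, h1⟩ : Submodule.torsion ℤ Q) = 0 :=
    Submodule.mem_annihilator.mp hc1 _ Submodule.mem_top
  have h3 : c • (Submodule.Quotient.mk e : Q) = 0 := congrArg Subtype.val h2
  rw [← Submodule.Quotient.mk_smul, Submodule.Quotient.mk_eq_zero] at h3
  obtain ⟨y, hy⟩ := h3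
  refine ⟨y, hi ?_⟩
  rw [map_zsmul, map_zsmul, he, smul_comm c k e]
  congr 1
  exact hy.symm

include hi in
/-- If `i : R → E` is an injection of abelian groups with `E` finitely generated, then elements of
`R` highly divisible by `p` in `E` are divisible by `p ^ n` in `R`. -/
theorem exists_pow_saturation {p : ℕ} (hp : p.Prime) (n : ℕ) [Module.IsTorsionFree ℤ E] :
    ∃ m : ℕ, n ≤ m ∧ ∀ x : R, (∃ e, i x = (p ^ m : ℕ) • e) → ∃ y : R, x = (p ^ n : ℕ) • y := by
  obtain ⟨c, hc, h⟩ := exists_index i hi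
  have hRtf : ∀ (k : ℤ) (x : R), k ≠ 0 → k • x = 0 → x = 0 := by
    intro k x hk hx
    apply hi
    have h1 : k • i x = 0 := by rw [← map_zsmul, hx, map_zero]
    rw [map_zero]
    exact (smul_eq_zero.mp h1).resolve_left hk
  obtain ⟨a, c', hc', hcc'⟩ := Nat.exists_eq_pow_mul_and_not_dvd
    (Int.natAbs_ne_zero.mpr hc) p hp.ne_one
  have hcop : IsCoprime ((p : ℤ) ^ n) (c' : ℤ) := by
    apply IsCoprime.pow_left
    rw [Nat.isCoprime_iff_coprime]
    exact (Nat.Prime.coprime_iff_not_dvd hp).mpr hc'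
  obtain ⟨u, v, huv⟩ := hcop
  refine ⟨n + a, Nat.le_add_right _ _, fun x ⟨e, he⟩ => ?_⟩
  have hp0 : (p : ℤ) ≠ 0 := by exact_mod_cast hp.ne_zero
  obtain ⟨y, hy⟩ := h x ((p ^ (n + a) : ℕ) : ℤ) (by exact_mod_cast pow_ne_zero _ hp.ne_zero)
    ⟨e, by rw [natCast_zsmul]; exact he⟩
  -- replace `c` by `|c| = p ^ a * c'`
  have h1 : ∃ y : R, ((p : ℤ) ^ a * c') • x = ((p : ℤ) ^ a * (p : ℤ) ^ n) • y := by
    rcases Int.natAbs_eq c with h2 | h2
    · refine ⟨y, ?_⟩
      rw [show ((p : ℤ) ^ a * c') = c by rw [h2, hcc']; push_cast; ring, hy]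
      congr 1
      push_cast
      ring
    · refine ⟨-y, ?_⟩
      rw [show ((p : ℤ) ^ a * c') = -c by rw [h2, hcc']; push_cast; ring, neg_smul, hy, smul_neg]
      congr 2
      push_cast
      ring
  obtain ⟨y', hy'⟩ := h1
  have h2 : (c' : ℤ) • x = ((p : ℤ) ^ n) • y' := by
    rw [mul_smul, mul_smul] at hy'
    have h3 : ((p : ℤ) ^ a) • ((c' : ℤ) • x - ((p : ℤ) ^ n) • y') = 0 := by
      rw [smul_sub, hy', sub_self]
    exact sub_eq_zero.mp (hRtf _ _ (pow_ne_zero _ hp0) h3)
  refine ⟨u • x + v • y', ?_⟩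
  have h4 : x = (u * (p : ℤ) ^ n + v * c') • x := by rw [huv, one_smul]
  rw [add_smul, mul_smul, mul_smul, h2] at h4
  have h5 : ((p ^ n : ℕ) : ℤ) • (u • x + v • y') = (p ^ n : ℕ) • (u • x + v • y') :=
    natCast_zsmul _ _
  rw [← h5]
  conv_lhs => rw [h4]
  push_cast
  rw [smul_add, smul_comm u, smul_comm v]

end Saturation

section FormsAct

variable {N : ℕ} [NeZero N]

theorem heckeEvalForms_surjective : Function.Surjective (CuspForm.heckeEvalForms N 2) := by
  intro x
  obtain ⟨x, hx⟩ := x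
  induction hx using Algebra.adjoin_induction with
  | mem x hx =>
    rcases hx with ⟨ℓ, hℓ, hℓN, hℓS, rfl⟩ | ⟨q, hqN, hq, hqS, rfl⟩
    · exact ⟨heckeGen ⟨ℓ, hℓ⟩, CuspForm.heckeEvalForms_heckeGen_of_not_dvd (ℓ := ⟨ℓ, hℓ⟩) hℓN⟩
    · exact ⟨heckeGen ⟨q, hq⟩, CuspForm.heckeEvalForms_heckeGen_of_dvd (q := ⟨q, hq⟩) hqN⟩
  | algebraMap r => exact ⟨MvPolynomial.C r, CuspForm.heckeEvalForms_C N 2 r⟩
  | add x y hx hy h1 h2 =>
    obtain ⟨t1, h1⟩ := h1
    obtain ⟨t2, h2⟩ := h2
    exact ⟨t1 + t2, by rw [map_add, h1, h2]; rfl⟩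
  | mul x y hx hy h1 h2 =>
    obtain ⟨t1, h1⟩ := h1
    obtain ⟨t2, h2⟩ := h2
    exact ⟨t1 * t2, by rw [map_mul, h1, h2]; rfl⟩

section General

variable {W : Type*} [AddCommGroup W] (ρ : HeckeAlg →+* Module.End ℤ W)

variable (N) in
/-- For a `HeckeAlg`-module (given by a ring homomorphism) the part killed by the annihilator
of `S₂`. -/
def formsPart : Submodule ℤ W where
  carrier := {w | ∀ t : HeckeAlg, CuspForm.heckeEvalForms N 2 t = 0 → ρ t w = 0}
  zero_mem' := fun t _ => map_zero _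
  add_mem' {a b} ha hb := fun t ht => by rw [map_add, ha t ht, hb t ht, add_zero]
  smul_mem' c a ha := fun t ht => by rw [map_smul, ha t ht, smul_zero]

theorem act_mem_formsPart (t : HeckeAlg) {w : W} (hw : w ∈ formsPart N ρ) :
    ρ t w ∈ formsPart N ρ := fun s hs => by
  rw [← Module.End.mul_apply, ← map_mul, mul_comm, map_mul, Module.End.mul_apply, hw s hs,
    map_zero]

variable (N) in
/-- The restriction of the action to the forms part. -/
def formsPartRestrict : HeckeAlg →+* Module.End ℤ (formsPart N ρ) where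
  toFun t := (ρ t).restrict fun _ hw => act_mem_formsPart ρ t hw
  map_one' := by
    refine LinearMap.ext fun w => Subtype.ext ?_
    change ρ 1 (w : W) = w
    rw [map_one]
    rfl
  map_mul' s t := by
    refine LinearMap.ext fun w => Subtype.ext ?_
    change ρ (s * t) (w : W) = ρ s (ρ t w)
    rw [map_mul]
    rfl
  map_zero' := by
    refine LinearMap.ext fun w => Subtype.ext ?_
    change ρ 0 (w : W) = 0
    rw [map_zero]
    rfl
  map_add' s t := by
    refine LinearMap.ext fun w => Subtype.ext ?_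
    change ρ (s + t) (w : W) = ρ s w + ρ t w
    rw [map_add]
    rfl

theorem ker_le_ker_formsPartRestrict :
    RingHom.ker (CuspForm.heckeEvalForms N 2) ≤ RingHom.ker (formsPartRestrict N ρ) := by
  intro t ht
  rw [RingHom.mem_ker] at ht ⊢
  exact LinearMap.ext fun w => Subtype.ext (w.2 t ht)

variable (N) in
/-- The action of the Hecke algebra of `S₂` on the forms part of a `HeckeAlg`-module. -/
def formsPartAct : CuspForm.heckeAlgebra N 2 ∅ →+* Module.End ℤ (formsPart N ρ) :=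
  RingHom.liftOfSurjective (CuspForm.heckeEvalForms N 2) heckeEvalForms_surjective
    ⟨formsPartRestrict N ρ, ker_le_ker_formsPartRestrict ρ⟩

theorem formsPartAct_apply (t : HeckeAlg) (w : formsPart N ρ) :
    ((formsPartAct N ρ (CuspForm.heckeEvalForms N 2 t) w : formsPart N ρ) : W) = ρ t w := by
  unfold formsPartAct
  have h := RingHom.liftOfRightInverse_comp_apply (CuspForm.heckeEvalForms N 2)
    (Function.surjInv heckeEvalForms_surjective)
    (Function.rightInverse_surjInv heckeEvalForms_surjective)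
    ⟨formsPartRestrict N ρ, ker_le_ker_formsPartRestrict ρ⟩ t
  exact congrArg (fun φ : Module.End ℤ (formsPart N ρ) => ((φ w : formsPart N ρ) : W)) h

variable (N) in
/-- The inclusion of the Hecke algebra away from `S` in the full Hecke algebra. -/
def awayIncl (S : Set ℕ) : CuspForm.heckeAlgebra N 2 S →+* CuspForm.heckeAlgebra N 2 ∅ :=
  (Subalgebra.inclusion (CuspForm.heckeAlgebra_mono (Set.empty_subset S))).toRingHom

theorem coe_awayIncl {S : Set ℕ} (x : CuspForm.heckeAlgebra N 2 S) :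
    ((awayIncl N S x : CuspForm.heckeAlgebra N 2 ∅) : Module.End ℂ (CuspForm (Gamma0 N) 2)) =
      x := Subalgebra.coe_inclusion (CuspForm.heckeAlgebra_mono (Set.empty_subset S)) x

theorem awayIncl_injective {S : Set ℕ} : Function.Injective (awayIncl N S) := fun x y h =>
  Subtype.ext (by rw [← coe_awayIncl x, ← coe_awayIncl y, h])

theorem awayIncl_eq {S : Set ℕ} {x : CuspForm.heckeAlgebra N 2 S} {t : HeckeAlg}
    (ht : (CuspForm.heckeEvalForms N 2 t : Module.End ℂ (CuspForm (Gamma0 N) 2)) = x) :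
    awayIncl N S x = CuspForm.heckeEvalForms N 2 t :=
  Subtype.ext (by rw [coe_awayIncl, ht])

variable (N) in
/-- The action of the Hecke algebra away from `S` on the forms part of a `HeckeAlg`-module. -/
def formsPartActAway (S : Set ℕ) : CuspForm.heckeAlgebra N 2 S →+* Module.End ℤ (formsPart N ρ) :=
  (formsPartAct N ρ).comp (awayIncl N S)

theorem formsPartActAway_apply {S : Set ℕ} (x : CuspForm.heckeAlgebra N 2 S) (t : HeckeAlg)
    (ht : (CuspForm.heckeEvalForms N 2 t : Module.End ℂ (CuspForm (Gamma0 N) 2)) = x)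
    (w : formsPart N ρ) :
    ((formsPartActAway N ρ S x w : formsPart N ρ) : W) = ρ t w := by
  rw [formsPartActAway, RingHom.comp_apply, awayIncl_eq ht, formsPartAct_apply]

theorem formsPartActAway_T {S : Set ℕ} {ℓ : ℕ} (hℓ : ℓ.Prime) (hℓN : ¬ ℓ ∣ N) (hℓS : ℓ ∉ S)
    (w : formsPart N ρ) :
    ((formsPartActAway N ρ S (CuspForm.heckeAlgebra.T hℓ hℓN hℓS) w : formsPart N ρ) : W) =
      ρ (heckeGen ⟨ℓ, hℓ⟩) w := by
  apply formsPartActAway_apply
  rw [CuspForm.heckeEvalForms_heckeGen_of_not_dvd (ℓ := ⟨ℓ, hℓ⟩) hℓN]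
  rfl

theorem formsPartActAway_U {S : Set ℕ} {q : ℕ} (hq : q.Prime) (hqN : q ∣ N) (hqS : q ∉ S)
    (w : formsPart N ρ) :
    ((formsPartActAway N ρ S (CuspForm.heckeAlgebra.U hq hqN hqS) w : formsPart N ρ) : W) =
      ρ (heckeGen ⟨q, hq⟩) w := by
  apply formsPartActAway_apply
  rw [CuspForm.heckeEvalForms_heckeGen_of_dvd (q := ⟨q, hq⟩) hqN]
  rfl

end General

instance isTorsionFree_hom : Module.IsTorsionFree ℤ (Additive (Gamma0 N) →+ ℤ) :=
  Module.IsTorsionFree.of_smul_eq_zero fun k φ hφ => by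
    by_cases hk : k = 0
    · exact Or.inl hk
    · refine Or.inr (AddMonoidHom.ext fun γ => ?_)
      have h1 : k * φ γ = 0 := DFunLike.congr_fun hφ γ
      exact (mul_eq_zero.mp h1).resolve_left hk

instance isNoetherian_hom : IsNoetherian ℤ (Additive (Gamma0 N) →+ ℤ) :=
  isNoetherian_of_isNoetherianRing_of_finite ℤ _

instance isNoetherian_par : IsNoetherian ℤ (Period.parabolicHoms ℤ (Gamma0 N) ℤ) :=
  isNoetherian_submodule' _

instance isTorsionFree_par : Module.IsTorsionFree ℤ (Period.parabolicHoms ℤ (Gamma0 N) ℤ) :=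
  Function.Injective.moduleIsTorsionFree Subtype.val Subtype.val_injective fun _ _ => rfl

variable (N) in
/-- The lattice as a submodule of the parabolic homomorphisms. -/
abbrev FormsLat : Submodule ℤ (Period.parabolicHoms ℤ (Gamma0 N) ℤ) :=
  formsPart N (heckeActPar ℤ N ℤ)

theorem mem_formsLattice_iff {ψ : Additive (Gamma0 N) →+ ℤ} :
    ψ ∈ formsLattice N ↔ ∃ φ : FormsLat N, (φ : Additive (Gamma0 N) →+ ℤ) = ψ := by
  constructor
  · exact fun h => ⟨⟨⟨ψ, h.1⟩, fun t ht => Subtype.ext (h.2 t ht)⟩, rfl⟩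
  · rintro ⟨φ, rfl⟩
    exact ⟨φ.1.2, fun t ht => congrArg Subtype.val (φ.2 t ht)⟩

/-- **Faithfulness** of the action of the Hecke algebra of `S₂` on the lattice. -/
theorem latticeAct_injective : Function.Injective (formsPartAct N (heckeActPar ℤ N ℤ)) := by
  refine (injective_iff_map_eq_zero _).mpr fun x hx => ?_
  obtain ⟨t, rfl⟩ := heckeEvalForms_surjective x
  apply heckeEvalForms_eq_zero_of
  intro ψ hψ
  obtain ⟨φ, rfl⟩ := mem_formsLattice_iff.mp hψ
  have h1 := formsPartAct_apply (N := N) (heckeActPar ℤ N ℤ) t φ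
  rw [hx] at h1
  exact congrArg Subtype.val h1.symm

instance isTorsionFree_formsLat : Module.IsTorsionFree ℤ (FormsLat N) :=
  Function.Injective.moduleIsTorsionFree Subtype.val Subtype.val_injective fun _ _ => rfl

instance isNoetherian_formsLat : IsNoetherian ℤ (FormsLat N) := isNoetherian_submodule' _

instance finite_formsLat : Module.Finite ℤ (FormsLat N) := inferInstance

instance free_formsLat : Module.Free ℤ (FormsLat N) := inferInstance

instance finite_end_formsLat : Module.Finite ℤ (Module.End ℤ (FormsLat N)) :=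
  Module.Finite.linearMap ℤ ℤ _ _

instance isTorsionFree_end_formsLat : Module.IsTorsionFree ℤ (Module.End ℤ (FormsLat N)) :=
  Module.IsTorsionFree.of_smul_eq_zero fun k φ hφ => by
    by_cases hk : k = 0
    · exact Or.inl hk
    · refine Or.inr (LinearMap.ext fun v => ?_)
      have h1 : k • φ v = 0 := LinearMap.congr_fun hφ v
      exact (smul_eq_zero.mp h1).resolve_left hk

/-- Divisibility in the lattice can be checked on values. -/
theorem exists_smul_eq {k : ℤ} (hk : k ≠ 0) (φ : FormsLat N)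
    (h : ∀ γ, k ∣ (φ : Additive (Gamma0 N) →+ ℤ) γ) : ∃ φ' : FormsLat N, φ = k • φ' := by
  choose φ' hφ' using h
  let φ'' : Additive (Gamma0 N) →+ ℤ :=
    { toFun := φ'
      map_zero' := by
        apply mul_left_cancel₀ hk
        rw [← hφ', map_zero, mul_zero]
      map_add' := fun a b => by
        apply mul_left_cancel₀ hk
        rw [← hφ', map_add, mul_add, ← hφ', ← hφ'] }
  have h1 : (φ : Additive (Gamma0 N) →+ ℤ) = k • φ'' := by
    refine AddMonoidHom.ext fun γ => ?_
    exact hφ' γ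
  have hmem : φ'' ∈ formsLattice N := by
    apply smul_mem_formsLattice hk
    rw [← h1]
    exact mem_formsLattice_iff.mpr ⟨φ, rfl⟩
  obtain ⟨χ, hχ⟩ := mem_formsLattice_iff.mp hmem
  refine ⟨χ, ?_⟩
  apply Subtype.ext
  apply Subtype.ext
  rw [h1, ← hχ]
  rfl

theorem exists_end_smul_eq {V : Type*} [AddCommGroup V] [Module.IsTorsionFree ℤ V] {p : ℕ}
    (hp : p.Prime) (m : ℕ) (T : Module.End ℤ V)
    (h : ∀ ψ, ∃ φ, T ψ = ((p ^ m : ℕ) : ℤ) • φ) : ∃ e : Module.End ℤ V, T = (p ^ m : ℕ) • e := by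
  have hpm : ((p ^ m : ℕ) : ℤ) ≠ 0 := by exact_mod_cast pow_ne_zero _ hp.ne_zero
  choose e he using h
  have hcancel : ∀ a b : V, ((p ^ m : ℕ) : ℤ) • a = ((p ^ m : ℕ) : ℤ) • b → a = b :=
    fun a b hab => smul_right_injective _ hpm hab
  refine ⟨{ toFun := e, map_add' := fun a b => ?_, map_smul' := fun c a => ?_ }, ?_⟩
  · apply hcancel
    rw [← he, map_add, smul_add, ← he, ← he]
  · apply hcancel
    rw [← he, map_smul, RingHom.id_apply, smul_comm, ← he]
  · refine LinearMap.ext fun ψ => (he ψ).trans ?_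
    rw [natCast_zsmul]
    rfl

/-- **Faithfulness modulo powers of `p`**: for every `n` there is `m` such that an element of the
Hecke algebra away from `S` mapping the lattice into `p ^ m` times the lattice is divisible
by `p ^ n`. -/
theorem exists_faithful_mod (S : Set ℕ) {p : ℕ} (hp : p.Prime) (n : ℕ) :
    ∃ m : ℕ, n ≤ m ∧ ∀ (x : CuspForm.heckeAlgebra N 2 S) (t : HeckeAlg),
      (CuspForm.heckeEvalForms N 2 t : Module.End ℂ (CuspForm (Gamma0 N) 2)) = x →
      (∀ ψ ∈ formsLattice N, ∀ γ, ((p ^ m : ℕ) : ℤ) ∣ heckeAct ℤ N ℤ t ψ γ) →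
      ∃ s : CuspForm.heckeAlgebra N 2 S, x = (p ^ n : ℕ) • s := by
  let i : CuspForm.heckeAlgebra N 2 S →+ Module.End ℤ (FormsLat N) :=
    (formsPartActAway N (heckeActPar ℤ N ℤ) S).toAddMonoidHom
  have hi : Function.Injective i := latticeAct_injective.comp awayIncl_injective
  obtain ⟨m, hnm, hm⟩ := exists_pow_saturation i hi hp n
  refine ⟨m, hnm, fun x t ht h => hm x ?_⟩
  have hpm : ((p ^ m : ℕ) : ℤ) ≠ 0 := by exact_mod_cast pow_ne_zero _ hp.ne_zero
  have hdvd : ∀ ψ : FormsLat N, ∃ φ : FormsLat N, i x ψ = ((p ^ m : ℕ) : ℤ) • φ := by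
    intro ψ
    apply exists_smul_eq hpm
    intro γ
    have h2 : ((i x ψ : FormsLat N) : Additive (Gamma0 N) →+ ℤ) = heckeAct ℤ N ℤ t ψ :=
      congrArg Subtype.val (formsPartActAway_apply (heckeActPar ℤ N ℤ) x t ht ψ)
    rw [h2]
    exact h ψ (mem_formsLattice_iff.mpr ⟨ψ, rfl⟩) γ
  exact exists_end_smul_eq hp m (i x) hdvd

end FormsAct

end Fermat.Agent.H22
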