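import Fermat.Agent.H22.M2R
import Fermat.Agent.H09.WBar
import Fermat.Agent.H12.RedDiv

/-!
# `X₀(9M) → X₀(3M)`: unramified places for the second degeneracy map
-/

set_option autoImplicit false
set_option linter.style.haveILetI false
set_option linter.unusedSectionVars false
set_option maxSynthPendingDepth 3

noncomputable section

attribute [-instance] HahnSeries.instModule HahnSeries.instSMul HahnSeries.instDistribMulAction
  HahnSeries.instSMulZeroClass

namespace Fermat.Agent.H22.M2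

open AlgebraicCurve ModularCurve Fermat.Agent.Igusa
open Fermat.Agent.H29 (f3 F3_j F3_jr F3_ne full_three_eq)

local notation "kk" => IsLocalRing.ResidueField
local notation "Qb" => AlgebraicClosure ℚ

attribute [local instance] H12.isAlgClosed_kk

section Beta

variable {A : ValuationSubring Qb} {l : ℕ}

/-- the reduction of the Atkin–Lehner involution -/
theorem exists_wb (hl : l.Prime) (hA : A.LiesOverPrime l) {N M r : ℕ} [NeZero M] [NeZero r]
    [NeZero N] (hN : N = M * r) (hrM : Nat.Coprime r M) (hk : (N : kk A) ≠ 0) :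
    ∃ wb : modularFunctionFieldFullC (kk A) N ≃ₐ[kk A] modularFunctionFieldFullC (kk A) N,
      (∀ u, wb (wb u) = u) ∧
      ∀ (d e d₁ d₂ : ℕ) [NeZero d] [NeZero e], d₁ ∣ r → d₂ ∣ M → d₁ * d₂ = d → r / d₁ * d₂ = e →
        ∀ h : jd (kk A) d ∈ modularFunctionFieldFullC (kk A) N,
          (wb ⟨jd (kk A) d, h⟩ : LaurentSeries (kk A)) = jd (kk A) e := by
  subst hN
  obtain ⟨wb, h1, h2, -, -⟩ := H09.exists_wBar (K := Qb) hl hA hrM hk
  refine ⟨wb, h2, fun d e d₁ d₂ _ _ hd₁ hd₂ hd he h => ?_⟩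
  have hmem : jd Qb d ∈ modularFunctionFieldFullC Qb (M * r) := by
    apply jd_mem_full
    rw [← hd, mul_comm M r]
    exact mul_dvd_mul hd₁ hd₂
  have h3 := h1 ⟨jd Qb d, hmem⟩ ⟨jd (kk A) d, h⟩ (Q.red_jd d)
  rw [Q.coe_wQ_jd' Qb hrM hd₁ hd₂ hd he hmem] at h3
  exact h3.unique (Q.red_jd e)

theorem algHom_ext_jd {k : Type*} [Field k] {N : ℕ} {B : Type*} [Field B] [Algebra k B]
    {f g : modularFunctionFieldFullC k N →ₐ[k] B}
    (h : ∀ (d : ℕ) [NeZero d], d ∣ N → ∀ hd : jd k d ∈ modularFunctionFieldFullC k N,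
      f ⟨jd k d, hd⟩ = g ⟨jd k d, hd⟩) : f = g := by
  apply IntermediateField.adjoin_algHom_ext
  rintro y ⟨d, hd, hdvd, rfl⟩
  exact h d hdvd _

variable {M : ℕ} [NeZero M]

theorem ord_smul' {k F : Type*} [Field k] [Field F] [Algebra k F] (σ : F ≃ₐ[k] F)
    (hσ : ∀ u, σ (σ u) = u) (v : Place k F) (f : F) : (σ • v).ord f = v.ord (σ f) := by
  have h := Place.ord_smul σ v (σ f)
  rwa [hσ] at h

/-- **Unramified places, second degeneracy map.** -/
theorem exists_unram_beta (hl : l.Prime) (hA : A.LiesOverPrime l) (h3 : 3 ∣ M) (h9 : ¬ 9 ∣ M)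
    (hM : ((M * 3 : ℕ) : kk A) ≠ 0) (hk : (3 : kk A) ≠ 0)
    (hdeg : ∀ v : Place (kk A) (modularFunctionFieldFullC (kk A) M), v.deg = 1)
    (v : Place (kk A) (modularFunctionFieldFullC (kk A) M))
    (hv : 0 < v.ord (f3M (kk A) M h3 hk)) :
    ∃ w : Place (kk A) (modularFunctionFieldFullC (kk A) (M * 3)),
      ∀ u : modularFunctionFieldFullC (kk A) M, w.ord (H12.betaC (kk A) M 3 u) = v.ord u := by
  haveI : NeZero (M * 3) := ⟨Nat.mul_ne_zero (NeZero.ne M) three_ne_zero⟩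
  have hM' : (M : kk A) ≠ 0 := by
    intro h0; apply hM; push_cast; rw [h0, zero_mul]
  obtain ⟨M1, hM1⟩ := id h3
  haveI : NeZero M1 := ⟨fun h => NeZero.ne M (by rw [hM1, h, mul_zero])⟩
  have hM13 : ¬ 3 ∣ M1 := fun ⟨c, hc⟩ => h9 ⟨c, by rw [hM1, hc]; ring⟩
  have hc3 : Nat.Coprime 3 M1 := (Nat.Prime.coprime_iff_not_dvd Nat.prime_three).2 hM13
  have hc9 : Nat.Coprime 9 M1 := by
    have := Nat.Coprime.pow_left 2 hc3
    exact this
  obtain ⟨W3, hW3, hW3'⟩ := exists_wb hl hA (N := M) (M := M1) (r := 3) (by rw [hM1]; ring) hc3 hM'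
  obtain ⟨W9, hW9, hW9'⟩ := exists_wb hl hA (N := M * 3) (M := M1) (r := 9) (by rw [hM1]; ring)
    hc9 hM
  -- `β = W9 α W3`
  have hβ : ∀ u, H12.betaC (kk A) M 3 u = W9 (Q.incl (kk A) M 3 (W3 u)) := by
    intro u
    have h : H12.betaC (kk A) M 3 =
        (W9.toAlgHom.comp (Q.incl (kk A) M 3)).comp W3.toAlgHom := by
      apply algHom_ext_jd
      intro d _ hd hmem
      rw [hM1, Nat.dvd_mul] at hd
      obtain ⟨d₁, d₂, hd₁, hd₂, hdd⟩ := hd
      haveI : NeZero d₂ := ⟨fun h => NeZero.ne d (by rw [← hdd, h, mul_zero])⟩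
      have hd13 : d₁ = 1 ∨ d₁ = 3 := (Nat.dvd_prime Nat.prime_three).1 hd₁
      have he0 : 3 / d₁ * d₂ ≠ 0 := by
        rcases hd13 with rfl | rfl
        · exact mul_ne_zero (by norm_num) (NeZero.ne d₂)
        · exact mul_ne_zero (by norm_num) (NeZero.ne d₂)
      haveI : NeZero (3 / d₁ * d₂) := ⟨he0⟩
      have hmem' : jd (kk A) (3 / d₁ * d₂) ∈ modularFunctionFieldFullC (kk A) M := by
        apply jd_mem_full
        rw [hM1]
        refine mul_dvd_mul ?_ hd₂
        rcases hd13 with rfl | rfl <;> norm_num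
      have hmem'' : jd (kk A) (3 / d₁ * d₂) ∈ modularFunctionFieldFullC (kk A) (M * 3) :=
        full_degeneracyC_le (kk A) (dvd_mul_right M 3) hmem'
      have e1 : W3 ⟨jd (kk A) d, hmem⟩ = ⟨jd (kk A) (3 / d₁ * d₂), hmem'⟩ :=
        Subtype.ext (hW3' d (3 / d₁ * d₂) d₁ d₂ hd₁ hd₂ hdd rfl hmem)
      have e2 : Q.incl (kk A) M 3 ⟨jd (kk A) (3 / d₁ * d₂), hmem'⟩ =
          ⟨jd (kk A) (3 / d₁ * d₂), hmem''⟩ := Subtype.ext (Q.coe_incl (kk A) M 3 _)
      haveI : NeZero (3 * d) := ⟨mul_ne_zero three_ne_zero (NeZero.ne d)⟩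
      apply Subtype.ext
      change qExpand (kk A) 3 (jd (kk A) d) = (W9 (Q.incl (kk A) M 3 (W3 ⟨jd (kk A) d, hmem⟩)) :
        LaurentSeries (kk A))
      rw [e1, e2, hW9' (3 / d₁ * d₂) (3 * d) (3 / d₁) d₂ ?_ hd₂ rfl ?_ hmem'', qExpand_jd]
      · rcases hd13 with rfl | rfl <;> norm_num
      · rcases hd13 with rfl | rfl
        · rw [← hdd]; norm_num
        · rw [← hdd]; norm_num; ring
    exact congrArg (fun f : modularFunctionFieldFullC (kk A) M →ₐ[kk A]
      modularFunctionFieldFullC (kk A) (M * 3) => f u) h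
  -- the functions `j`, `j(q^3)`
  have hmem3 : jd (kk A) 3 ∈ modularFunctionFieldFullC (kk A) M := jd_mem_full h3
  set j3 : modularFunctionFieldFullC (kk A) M := ⟨jd (kk A) 3, hmem3⟩ with hj3
  have hf := f3M_ne (k := kk A) h3 hk
  have h27 := f3M_add_ne (k := kk A) h3 hk 27
  have h243 := f3M_add_ne (k := kk A) h3 hk 243
  have h33 := f3M_add_ne (k := kk A) h3 hk 3
  have hrel3 : j3 * f3M (kk A) M h3 hk =
      (f3M (kk A) M h3 hk + ((27 : ℕ) : modularFunctionFieldFullC (kk A) M)) *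
      (f3M (kk A) M h3 hk + ((3 : ℕ) : modularFunctionFieldFullC (kk A) M)) ^ 3 := by
    apply Subtype.ext
    have := F3_jr (kk A)
    rw [IntermediateField.coe_mul, IntermediateField.coe_mul, IntermediateField.coe_pow,
      IntermediateField.coe_add, IntermediateField.coe_add, coe_nat,
      coe_nat, coe_f3M, Nat.cast_ofNat, Nat.cast_ofNat]
    exact this
  have hj0 : jM (kk A) M ≠ 0 := by
    intro h0
    have := jM_rel (k := kk A) (M := M) h3 hk
    rw [h0, zero_mul] at this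
    exact mul_ne_zero h27 (pow_ne_zero 3 h243) this.symm
  have hj30 : j3 ≠ 0 := by
    intro h0
    rw [h0, zero_mul] at hrel3
    exact mul_ne_zero h27 (pow_ne_zero 3 h33) hrel3.symm
  -- orders at the places over `f3 = 0`
  have hconst : ∀ (u : Place (kk A) (modularFunctionFieldFullC (kk A) M)) (n : ℕ),
      (n : kk A) ≠ 0 → 0 < u.ord (f3M (kk A) M h3 hk) →
      u.ord (f3M (kk A) M h3 hk + (n : modularFunctionFieldFullC (kk A) M)) = 0 := by
    intro u n hn hu
    have h1 : (n : modularFunctionFieldFullC (kk A) M) ≠ 0 := by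
      rw [natCast_eq]
      exact (_root_.map_ne_zero _).mpr hn
    have h2 : u.ord (n : modularFunctionFieldFullC (kk A) M) = 0 := by
      rw [natCast_eq, H18.ord_algebraMap]
    rw [add_comm]
    rw [(H18.ord_add_eq_of_lt u (f := (n : modularFunctionFieldFullC (kk A) M))
      (g := f3M (kk A) M h3 hk) h1 (Or.inr (by rw [h2]; exact hu))).1, h2]
  have hn27 : ((27 : ℕ) : kk A) ≠ 0 := by
    have : ((27 : ℕ) : kk A) = 3 ^ 3 := by norm_num
    rw [this]; exact pow_ne_zero 3 hk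
  have hn243 : ((243 : ℕ) : kk A) ≠ 0 := by
    have : ((243 : ℕ) : kk A) = 3 ^ 5 := by norm_num
    rw [this]; exact pow_ne_zero 5 hk
  have hn3 : ((3 : ℕ) : kk A) ≠ 0 := by exact_mod_cast hk
  have key : ∀ u : Place (kk A) (modularFunctionFieldFullC (kk A) M),
      0 < u.ord (f3M (kk A) M h3 hk) →
      u.ord (jM (kk A) M) = -3 * u.ord (f3M (kk A) M h3 hk) ∧
        u.ord j3 = -u.ord (f3M (kk A) M h3 hk) := by
    intro u hu
    have h1 := congrArg u.ord (jM_rel (k := kk A) h3 hk)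
    have h2 := congrArg u.ord hrel3
    rw [u.ord_mul hj0 (pow_ne_zero 3 hf), u.ord_mul h27 (pow_ne_zero 3 h243), H18.ord_pow,
      H18.ord_pow, hconst u 27 hn27 hu, hconst u 243 hn243 hu] at h1
    rw [u.ord_mul hj30 hf, u.ord_mul h27 (pow_ne_zero 3 h33), H18.ord_pow,
      hconst u 27 hn27 hu, hconst u 3 hn3 hu] at h2
    push_cast at h1 h2
    constructor <;> linarith
  -- the transported place
  have hW3j : W3 (jM (kk A) M) = j3 := by
    apply Subtype.ext
    have hj1 : jM (kk A) M = ⟨jd (kk A) 1, jd_mem_full (one_dvd M)⟩ :=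
      Subtype.ext (jd_one (kk A)).symm
    rw [hj1]
    exact hW3' 1 3 1 1 (one_dvd _) (one_dvd _) (by norm_num) (by norm_num) _
  have hW3j3 : W3 j3 = jM (kk A) M := by rw [← hW3j, hW3]
  obtain ⟨k1, k2⟩ := key v hv
  have hv'1 : (W3 • v).ord (jM (kk A) M) = -v.ord (f3M (kk A) M h3 hk) := by
    rw [ord_smul' W3 hW3, hW3j, k2]
  have hv'2 : (W3 • v).ord j3 = -3 * v.ord (f3M (kk A) M h3 hk) := by
    rw [ord_smul' W3 hW3, hW3j3, k1]
  have hv' : (W3 • v).ord (f3M (kk A) M h3 hk) ≤ 0 := by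
    by_contra hcon
    push Not at hcon
    obtain ⟨m1, m2⟩ := key (W3 • v) hcon
    omega
  obtain ⟨w', hw'⟩ := exists_unram_alpha h3 h9 hM hk (W3 • v) (hdeg _) hv' (fun h => by
    rw [hv'1] at h
    omega)
  refine ⟨W9 • w', fun u => ?_⟩
  rw [hβ, Place.ord_smul, hw', ord_smul' W3 hW3, hW3]

end Beta

end Fermat.Agent.H22.M2
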