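import Fermat.Agent.H22.Parabolic
import Fermat.Prelude.Def_ModularForm_HeckeOperator

set_option autoImplicit false

noncomputable section

namespace Fermat.Agent.H22

open CongruenceSubgroup ModularForm
open scoped MatrixGroups

/-! ### Conjugation by the Fricke matrix -/

/-- Conjugation by `(0 -1; N 0)`. -/
def wMat (N : ℕ) (M : Matrix (Fin 2) (Fin 2) ℤ) : Matrix (Fin 2) (Fin 2) ℤ :=
  !![M 1 1, -(M 1 0 / N); -(M 0 1 * N), M 0 0]

section WConj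

variable {N : ℕ} [NeZero N]

theorem det_wMat {M : Matrix (Fin 2) (Fin 2) ℤ} (h : M.det = 1)
    (hd : (N : ℤ) ∣ M 1 0) : (wMat N M).det = 1 := by
  obtain ⟨c, hc⟩ := hd
  have hN : (N : ℤ) ≠ 0 := by exact_mod_cast NeZero.ne N
  rw [Matrix.det_fin_two] at h
  rw [wMat, Matrix.det_fin_two_of, hc, Int.mul_ediv_cancel_left _ hN]
  rw [hc] at h
  linear_combination h

theorem wMat_mul {M M' : Matrix (Fin 2) (Fin 2) ℤ}
    (h : (N : ℤ) ∣ M 1 0) (h' : (N : ℤ) ∣ M' 1 0) :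
    wMat N (M * M') = wMat N M * wMat N M' := by
  have hN : (N : ℤ) ≠ 0 := by exact_mod_cast NeZero.ne N
  obtain ⟨c, hc⟩ := h
  obtain ⟨c', hc'⟩ := h'
  have e3 : (M 1 0 * M' 0 0 + M 1 1 * M' 1 0) / (N : ℤ) = c * M' 0 0 + M 1 1 * c' := by
    rw [hc, hc', show (N : ℤ) * c * M' 0 0 + M 1 1 * (N * c') =
      N * (c * M' 0 0 + M 1 1 * c') by ring, Int.mul_ediv_cancel_left _ hN]
  ext i j
  fin_cases i <;> fin_cases j
  · simp [wMat, Matrix.mul_apply, Fin.sum_univ_two, hc, hc', Int.mul_ediv_cancel_left _ hN]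
    ring
  · simp only [wMat, Matrix.mul_apply, Fin.sum_univ_two, Fin.isValue, Fin.zero_eta, Fin.mk_one,
      Matrix.of_apply, Matrix.cons_val', Matrix.cons_val_zero, Matrix.cons_val_one,
      Matrix.cons_val_fin_one]
    rw [e3, hc, hc', Int.mul_ediv_cancel_left _ hN, Int.mul_ediv_cancel_left _ hN]
    ring
  · simp [wMat, Matrix.mul_apply, Fin.sum_univ_two, hc, hc', Int.mul_ediv_cancel_left _ hN]
    ring
  · simp [wMat, Matrix.mul_apply, Fin.sum_univ_two, hc, hc', Int.mul_ediv_cancel_left _ hN]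
    ring

/-- Conjugation by `(0 -1; N 0)` on matrices with lower left entry divisible by `N`. -/
def wSL (γ : SL(2, ℤ)) (h : (N : ℤ) ∣ γ 1 0) : SL(2, ℤ) :=
  ⟨wMat N (γ : Matrix (Fin 2) (Fin 2) ℤ), det_wMat γ.2 h⟩

variable (N) in
/-- Conjugation by the Fricke matrix `(0 -1; N 0)` as an endomorphism of `Γ₀(N)`. -/
def wConj : Gamma0 N →* Gamma0 N where
  toFun γ := ⟨wSL γ (mem_Gamma0_iff_dvd.mp γ.2), mem_Gamma0_iff_dvd.mpr
    (by
      change (N : ℤ) ∣ -((γ : SL(2, ℤ)) 0 1 * N)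
      exact (Dvd.intro_left _ rfl).neg_right)⟩
  map_one' := by
    apply Subtype.ext
    apply Subtype.ext
    change wMat N ((1 : SL(2, ℤ)) : Matrix (Fin 2) (Fin 2) ℤ) = 1
    ext i j
    fin_cases i <;> fin_cases j <;> simp [wMat]
  map_mul' γ δ := by
    apply Subtype.ext
    apply Subtype.ext
    exact wMat_mul (mem_Gamma0_iff_dvd.mp γ.2) (mem_Gamma0_iff_dvd.mp δ.2)

theorem coe_wConj (γ : Gamma0 N) :
    (((wConj N γ : Gamma0 N) : SL(2, ℤ)) : Matrix (Fin 2) (Fin 2) ℤ) =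
      wMat N ((γ : SL(2, ℤ)) : Matrix (Fin 2) (Fin 2) ℤ) := rfl

theorem wConj_wConj (γ : Gamma0 N) : wConj N (wConj N γ) = γ := by
  have hN : (N : ℤ) ≠ 0 := by exact_mod_cast NeZero.ne N
  obtain ⟨c, hc⟩ := mem_Gamma0_iff_dvd.mp γ.2
  apply Subtype.ext
  apply Subtype.ext
  rw [coe_wConj, coe_wConj]
  ext i j
  fin_cases i <;> fin_cases j
  · simp [wMat]
  · simp only [wMat, Fin.isValue, Fin.zero_eta, Fin.mk_one,
      Matrix.of_apply, Matrix.cons_val', Matrix.cons_val_zero, Matrix.cons_val_one,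
      Matrix.cons_val_fin_one]
    rw [show -((γ : SL(2, ℤ)) 0 1 * (N : ℤ)) = N * -((γ : SL(2, ℤ)) 0 1) by ring,
      Int.mul_ediv_cancel_left _ hN, neg_neg]
  · simp only [wMat, Fin.isValue, Fin.zero_eta, Fin.mk_one,
      Matrix.of_apply, Matrix.cons_val', Matrix.cons_val_zero, Matrix.cons_val_one,
      Matrix.cons_val_fin_one]
    rw [hc, Int.mul_ediv_cancel_left _ hN]
    ring
  · simp [wMat]

theorem tr2_wConj (γ : Gamma0 N) :
    tr2 ((wConj N γ : Gamma0 N) : SL(2, ℤ)) = tr2 (γ : SL(2, ℤ)) := by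
  unfold tr2
  rw [coe_wConj, Matrix.trace_fin_two, Matrix.trace_fin_two]
  simp [wMat, add_comm]

end WConj

/-! ### Matrix identities in `GL(2, ℝ)` -/

section Matrices

open Matrix.SpecialLinearGroup

variable (N : ℕ) [NeZero N]

/-- The Fricke matrix `(0 -1; N 0)`. -/
def frickeGL : GL (Fin 2) ℝ :=
  Matrix.GeneralLinearGroup.mkOfDetNeZero !![0, -1; (N : ℝ), 0] (by
    rw [Matrix.det_fin_two_of]
    have : (N : ℝ) ≠ 0 := by exact_mod_cast NeZero.ne N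
    simpa using this)

theorem val_frickeGL : ((frickeGL N : GL (Fin 2) ℝ) : Matrix (Fin 2) (Fin 2) ℝ) =
    !![0, -1; (N : ℝ), 0] := rfl

variable {N}

theorem val_mapGL (γ : SL(2, ℤ)) : ((mapGL ℝ γ : GL (Fin 2) ℝ) : Matrix (Fin 2) (Fin 2) ℝ) =
    !![((γ 0 0 : ℤ) : ℝ), ((γ 0 1 : ℤ) : ℝ); ((γ 1 0 : ℤ) : ℝ), ((γ 1 1 : ℤ) : ℝ)] := by
  ext i j
  fin_cases i <;> fin_cases j <;> simp [mapGL]

theorem fricke_mul_mapGL (γ : Gamma0 N) :
    frickeGL N * mapGL ℝ (γ : SL(2, ℤ)) = mapGL ℝ (wConj N γ : SL(2, ℤ)) * frickeGL N := by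
  have hN : (N : ℤ) ≠ 0 := by exact_mod_cast NeZero.ne N
  obtain ⟨c, hc⟩ := mem_Gamma0_iff_dvd.mp γ.2
  apply Units.ext
  simp only [Units.val_mul, val_frickeGL, val_mapGL]
  have e00 : (wConj N γ : SL(2, ℤ)) 0 0 = (γ : SL(2, ℤ)) 1 1 := rfl
  have e01 : (wConj N γ : SL(2, ℤ)) 0 1 = -c := by
    change -((γ : SL(2, ℤ)) 1 0 / (N : ℤ)) = -c
    rw [hc, Int.mul_ediv_cancel_left _ hN]
  have e10 : (wConj N γ : SL(2, ℤ)) 1 0 = -((γ : SL(2, ℤ)) 0 1 * N) := rfl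
  have e11 : (wConj N γ : SL(2, ℤ)) 1 1 = (γ : SL(2, ℤ)) 0 0 := rfl
  rw [e00, e01, e10, e11, hc]
  ext i j
  fin_cases i <;> fin_cases j <;> simp [Matrix.mul_apply, Fin.sum_univ_two] <;> ring

theorem rep_some {ℓ : ℕ} (hℓ : ℓ ≠ 0) (g : Gamma0 N) (i : ℕ)
    (h : (ℓ : ℤ) ∣ (g : SL(2, ℤ)) 1 0 / N + (g : SL(2, ℤ)) 1 1 * i) :
    ∃ γ : Gamma0 N, frickeGL N * heckeDiagMatrix ℓ * mapGL ℝ (g : SL(2, ℤ)) =
      mapGL ℝ (γ : SL(2, ℤ)) * heckeMatrix ℓ i * frickeGL N := by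
  have hN : (N : ℤ) ≠ 0 := by exact_mod_cast NeZero.ne N
  obtain ⟨c, hc⟩ := mem_Gamma0_iff_dvd.mp g.2
  rw [hc, Int.mul_ediv_cancel_left _ hN] at h
  obtain ⟨m, hm⟩ := h
  have hdet : (g : SL(2, ℤ)) 0 0 * (g : SL(2, ℤ)) 1 1 -
      (g : SL(2, ℤ)) 0 1 * (g : SL(2, ℤ)) 1 0 = 1 := by
    have := (g : SL(2, ℤ)).2
    rwa [Matrix.det_fin_two] at this
  rw [hc] at hdet
  set a := (g : SL(2, ℤ)) 0 0
  set b := (g : SL(2, ℤ)) 0 1
  set d := (g : SL(2, ℤ)) 1 1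
  let γ0 : SL(2, ℤ) := ⟨!![d, -m; -(N * ℓ * b), a + N * b * i], by
    rw [Matrix.det_fin_two_of]
    linear_combination hdet + N * b * hm⟩
  have hγ0 : γ0 ∈ Gamma0 N := mem_Gamma0_iff_dvd.mpr (by
    change (N : ℤ) ∣ -(N * ℓ * b)
    exact ⟨-(ℓ * b), by ring⟩)
  refine ⟨⟨γ0, hγ0⟩, ?_⟩
  apply Units.ext
  simp only [Units.val_mul, val_frickeGL, val_mapGL, val_heckeMatrix hℓ, val_heckeDiagMatrix hℓ]
  have e00 : γ0 0 0 = d := rfl
  have e01 : γ0 0 1 = -m := rfl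
  have e10 : γ0 1 0 = -(N * ℓ * b) := rfl
  have e11 : γ0 1 1 = a + N * b * i := rfl
  rw [e00, e01, e10, e11, hc]
  have hm' : (c : ℝ) + (d : ℝ) * i = ℓ * m := by exact_mod_cast hm
  ext r s
  fin_cases r <;> fin_cases s
  · simp [Matrix.mul_apply, Fin.sum_univ_two]
    linear_combination (-(N : ℝ)) * hm'
  · simp [Matrix.mul_apply, Fin.sum_univ_two]
    rfl
  · simp [Matrix.mul_apply, Fin.sum_univ_two]
    ring
  · simp [Matrix.mul_apply, Fin.sum_univ_two]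
    left
    rfl

theorem rep_none {ℓ : ℕ} (hℓ : ℓ ≠ 0) (g : Gamma0 N)
    (h : (ℓ : ℤ) ∣ (g : SL(2, ℤ)) 1 1) :
    ∃ γ : Gamma0 N, frickeGL N * heckeDiagMatrix ℓ * mapGL ℝ (g : SL(2, ℤ)) =
      mapGL ℝ (γ : SL(2, ℤ)) * heckeDiagMatrix ℓ * frickeGL N := by
  obtain ⟨c, hc⟩ := mem_Gamma0_iff_dvd.mp g.2
  obtain ⟨m, hm⟩ := h
  have hdet : (g : SL(2, ℤ)) 0 0 * (g : SL(2, ℤ)) 1 1 -
      (g : SL(2, ℤ)) 0 1 * (g : SL(2, ℤ)) 1 0 = 1 := by
    have := (g : SL(2, ℤ)).2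
    rwa [Matrix.det_fin_two] at this
  rw [hc, hm] at hdet
  set a := (g : SL(2, ℤ)) 0 0
  set b := (g : SL(2, ℤ)) 0 1
  let γ0 : SL(2, ℤ) := ⟨!![m, -c; -(N * b), ℓ * a], by
    rw [Matrix.det_fin_two_of]
    linear_combination hdet⟩
  have hγ0 : γ0 ∈ Gamma0 N := mem_Gamma0_iff_dvd.mpr (by
    change (N : ℤ) ∣ -(N * b)
    exact ⟨-b, by ring⟩)
  refine ⟨⟨γ0, hγ0⟩, ?_⟩
  apply Units.ext
  simp only [Units.val_mul, val_frickeGL, val_mapGL, val_heckeDiagMatrix hℓ]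
  have e00 : γ0 0 0 = m := rfl
  have e01 : γ0 0 1 = -c := rfl
  have e10 : γ0 1 0 = -(N * b) := rfl
  have e11 : γ0 1 1 = ℓ * a := rfl
  rw [e00, e01, e10, e11, hc, hm]
  ext r s
  fin_cases r <;> fin_cases s
  · simp [Matrix.mul_apply, Fin.sum_univ_two]
    ring
  · simp [Matrix.mul_apply, Fin.sum_univ_two]
    ring
  · simp [Matrix.mul_apply, Fin.sum_univ_two]
    ring
  · simp [Matrix.mul_apply, Fin.sum_univ_two]
    ring

end Matrices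

end Fermat.Agent.H22
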