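import Fermat.Agent.H22.TwistR

/-!
# The classical Hecke operators on germs
-/

set_option autoImplicit false

noncomputable section

namespace Fermat.Agent.H22

open Matrix.SpecialLinearGroup CongruenceSubgroup ModularForm
open Fermat.Agent.TC
open scoped MatrixGroups

section Gen

variable {K : Type*} [CommRing K]

theorem germ_of_isAut {Γ Γ' : Subgroup SL(2, ℤ)} (hΓ : IsCong Γ) (hΓ' : IsCong Γ') {ι : Type*}
    [Fintype ι] {w : ι → K} {α : ι → GG} {φ : HM Γ K} {φ' : HM Γ' K} {u : GG → K}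
    (hu : IsAut φ u) (hF : IsAut φ' (fun x => ∑ i, w i • u (α i * x))) :
    germ K φ' = ∑ i, w i • act K (α i) (germ K φ) := by
  obtain ⟨n, hn, hnΓ⟩ := hΓ
  obtain ⟨n', hn', hnΓ'⟩ := hΓ'
  have e : (∑ i, w i • act K (α i) (germ K φ)) =
      (nul K).mkQ fun x => ∑ i, w i • extF φ (α i * x * (α i)⁻¹) := by
    have e1 : (fun x => ∑ i, w i • extF φ (α i * x * (α i)⁻¹)) =
        ∑ i, w i • fun x => extF φ (α i * x * (α i)⁻¹) := by
      funext x
      rw [Finset.sum_apply]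
      rfl
    rw [e1, map_sum]
    refine Finset.sum_congr rfl fun i _ => ?_
    rw [map_smul, germ_apply, act_mkQ]
  rw [e, germ_apply]
  choose m hm hmem using fun i => exists_conj_mem (α i) hn
  rw [HG_eq_iff]
  refine ⟨n' * ∏ i, m i, Nat.mul_pos hn' (Finset.prod_pos fun i _ => hm i), fun γ hγ => ?_⟩
  have hγ' : γ ∈ Γ' := hnΓ' (Gamma_anti (Dvd.intro _ rfl) hγ)
  have hδ : ∀ i, ∃ δ : Γ, α i * emb γ * (α i)⁻¹ = emb δ := fun i => by
    have h1 : γ ∈ Gamma (m i) := Gamma_anti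
      ((Finset.dvd_prod_of_mem m (Finset.mem_univ i)).trans (Dvd.intro_left _ rfl)) hγ
    obtain ⟨δ, h2, h3⟩ := hmem i γ h1
    exact ⟨⟨δ, hnΓ h2⟩, h3⟩
  choose δ hδ using hδ
  have h1 := hF ⟨γ, hγ'⟩ 1
  simp only [mul_one] at h1
  have h2 : ∀ i, u (α i * emb γ) = φ (Additive.ofMul (δ i)) + u (α i) := fun i => by
    have h3 : α i * emb γ = emb (δ i) * α i := by
      rw [← hδ i, inv_mul_cancel_right]
    rw [h3, hu]
  have h4 : extF φ' (emb γ) = φ' (Additive.ofMul ⟨γ, hγ'⟩) := extF_emb φ' ⟨γ, hγ'⟩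
  rw [h4]
  have h5 : ∀ i, extF φ (α i * emb γ * (α i)⁻¹) = φ (Additive.ofMul (δ i)) := fun i => by
    rw [hδ i, extF_emb]
  simp only [h5]
  have h6 : ∑ i, w i • u (α i * emb γ) = (∑ i, w i • φ (Additive.ofMul (δ i))) +
      ∑ i, w i • u (α i) := by
    rw [← Finset.sum_add_distrib]
    exact Finset.sum_congr rfl fun i _ => by rw [h2, smul_add]
  have h7 : (∑ i, w i • u (α i * emb ((⟨γ, hγ'⟩ : Γ') : SL(2, ℤ)))) =
    ∑ i, w i • u (α i * emb γ) := rfl
  rw [h7, h6] at h1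
  exact (add_right_cancel h1).symm

end Gen

/-- the map `GL(2, ℚ) → GL(2, ℝ)` -/
def toR : GG →* GL (Fin 2) ℝ := Matrix.GeneralLinearGroup.map (Rat.castHom ℝ)

theorem toR_val (g : GG) : (toR g).val = g.val.map (Rat.cast : ℚ → ℝ) := rfl

theorem toR_emb (γ : SL(2, ℤ)) : toR (emb γ) = mapGL ℝ γ := by
  apply Units.ext
  rw [toR_val, emb_val]
  ext i j
  fin_cases i <;> fin_cases j <;> simp [mapGL]

theorem toR_hm {ℓ : ℕ} [NeZero ℓ] (i : ℕ) : toR (hm ℓ i) = heckeMatrix ℓ i := by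
  apply Units.ext
  rw [toR_val, hm_val, val_heckeMatrix (NeZero.ne ℓ)]
  ext r s
  fin_cases r <;> fin_cases s <;> simp

theorem toR_del {ℓ : ℕ} [NeZero ℓ] : toR (del ℓ) = heckeDiagMatrix ℓ := by
  apply Units.ext
  rw [toR_val, del_val, val_heckeDiagMatrix (NeZero.ne ℓ)]
  ext r s
  fin_cases r <;> fin_cases s <;> simp

section Star

variable {K : Type*} [Field K] {N : ℕ} [NeZero N] {ℓ : ℕ} [hℓ : Fact ℓ.Prime]

theorem exists_isAut_star (ψ : HM (Gamma0 N) K) : ∃ u : GG → K, IsAut ψ u ∧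
    IsAut (starLin K N K ℓ ψ) (fun x => (∑ i ∈ Finset.range ℓ, u (hm ℓ i * x)) +
      if ℓ ∣ N then 0 else u (del ℓ * x)) := by
  have hinj : Function.Injective
      ((mapGL ℝ).comp (Gamma0 N).subtype : Gamma0 N →* GL (Fin 2) ℝ) := by
    intro a b hab
    exact Subtype.ext (mapGL_injective hab)
  obtain ⟨u, hu⟩ := exists_automorphic _ hinj ψ.toMultiplicativeRight
  have hu' : ∀ (γ : Gamma0 N) (x : GL (Fin 2) ℝ), u (mapGL ℝ (γ : SL(2, ℤ)) • x) =
      (MonoidHom.id _) (ψ.toMultiplicativeRight γ) * u x := fun γ x => hu γ x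
  have key := starFun_automorphy (ℓ := ℓ) (MonoidHom.id _) ψ.toMultiplicativeRight u hu'
  refine ⟨fun x => Multiplicative.toAdd (u (toR x)), fun γ x => ?_, fun γ x => ?_⟩
  · have h1 := hu' γ (toR x)
    have h2 : toR (emb (γ : SL(2, ℤ)) * x) = mapGL ℝ (γ : SL(2, ℤ)) • toR x := by
      rw [map_mul, toR_emb]
      rfl
    simp only [h2]
    rw [h1]
    rfl
  · have h1 := key γ (toR x)
    have e : ∀ y : GG, starFun N ℓ u (toR y) = Multiplicative.ofAdd
        ((∑ i ∈ Finset.range ℓ, Multiplicative.toAdd (u (toR (hm ℓ i * y)))) +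
      if ℓ ∣ N then 0 else Multiplicative.toAdd (u (toR (del ℓ * y)))) := by
      intro y
      unfold starFun
      rw [ofAdd_add, ofAdd_sum]
      congr 1
      · refine Finset.prod_congr rfl fun i _ => ?_
        rw [map_mul, toR_hm]
        rfl
      · split_ifs
        · rfl
        · rw [map_mul, toR_del]
          rfl
    have h2 : mapGL ℝ (γ : SL(2, ℤ)) • toR x = toR (emb (γ : SL(2, ℤ)) * x) := by
      rw [map_mul, toR_emb]
      rfl
    rw [h2, e, e] at h1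
    exact congrArg Multiplicative.toAdd h1

theorem sum_range_zmod {M : Type*} [AddCommMonoid M] (f : ℕ → M) :
    ∑ i ∈ Finset.range ℓ, f i = ∑ i : ZMod ℓ, f i.val := by
  symm
  refine Finset.sum_bij' (fun i _ => i.val) (fun i _ => (i : ZMod ℓ)) ?_ ?_ ?_ ?_ ?_
  · exact fun i _ => Finset.mem_range.mpr (ZMod.val_lt i)
  · exact fun i _ => Finset.mem_univ _
  · exact fun i _ => ZMod.natCast_zmod_val i
  · exact fun i hi => ZMod.val_natCast_of_lt (Finset.mem_range.mp hi)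
  · intro i _
    rfl

theorem germ_star_of_dvd (h : ℓ ∣ N) (ψ : HM (Gamma0 N) K) :
    germ K (starLin K N K ℓ ψ) = Up ℓ (germ K ψ) := by
  obtain ⟨u, hu1, hu2⟩ := exists_isAut_star (ℓ := ℓ) ψ
  have h1 := germ_of_isAut (isCong_Gamma0 N) (isCong_Gamma0 N) (w := fun _ : ZMod ℓ => (1 : K))
    (α := fun i : ZMod ℓ => hm ℓ i.val) hu1 (φ' := starLin K N K ℓ ψ) (by
      convert hu2 using 2
      rw [if_pos h, add_zero, sum_range_zmod (fun i => u (hm ℓ i * _))]
      simp)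
  rw [h1]
  unfold Up
  simp

theorem germ_star_of_not_dvd (h : ¬ ℓ ∣ N) (ψ : HM (Gamma0 N) K) :
    germ K (starLin K N K ℓ ψ) = act K (del ℓ) (germ K ψ) + Up ℓ (germ K ψ) := by
  obtain ⟨u, hu1, hu2⟩ := exists_isAut_star (ℓ := ℓ) ψ
  have h1 := germ_of_isAut (isCong_Gamma0 N) (isCong_Gamma0 N)
    (w := fun _ : Option (ZMod ℓ) => (1 : K))
    (α := fun j : Option (ZMod ℓ) => j.elim (del ℓ) fun i => hm ℓ i.val) hu1
    (φ' := starLin K N K ℓ ψ) (by
      convert hu2 using 2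
      rw [if_neg h, sum_range_zmod (fun i => u (hm ℓ i * _)), Fintype.sum_option, add_comm]
      simp)
  rw [h1, Fintype.sum_option]
  unfold Up
  simp

/-- away from the level, the two versions of the Hecke operators agree -/
theorem heckeLin_eq_starLin [CharZero K] [NeZero ℓ] (h : ¬ ℓ ∣ N) (ψ : HM (Gamma0 N) K) :
    heckeLin K N K ℓ ψ = starLin K N K ℓ ψ := by
  apply germ_injective
  rw [germ_star_of_not_dvd h]
  have hcop : Nat.Coprime N ℓ := ((Nat.Prime.coprime_iff_not_dvd hℓ.out).mpr h).symm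
  obtain ⟨z, hz, hz0, hz1⟩ := exists_zreps (ℓ := ℓ) N hcop
  have e2 := germ_hecke (K := K) (χ := fun _ => 1) (Nat.pos_of_ne_zero (NeZero.ne N))
    (Gamma_le_Gamma0 N) dvd_rfl hz hz0 hz1
    (rep_heckeLin (R := K) (A := K) (zreps_isReps (Gamma_le_Gamma0 N) le_rfl hcop hz hz0 hz1)) ψ
    (SI_of_Gamma0 ψ) (e := 1) (fun x hx => rfl)
  rw [e2, one_smul]

end Star

end Fermat.Agent.H22
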