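import Fermat.Agent.H22.Hecke

set_option autoImplicit false

noncomputable section

namespace Fermat.Agent.H22

open ModularFormClass ModularForm CongruenceSubgroup

section Lifting

variable {N : ℕ} [NeZero N]

theorem hecke_mem_intLattice {S : Set ℕ} (t : CuspForm.heckeAlgebra N 2 S)
    {f : CuspForm (Gamma0 N) 2} (hf : f ∈ CuspForm.intLattice N 2) :
    (t : Module.End ℂ (CuspForm (Gamma0 N) 2)) f ∈ CuspForm.intLattice N 2 :=
  CuspForm.mem_intLattice_of_mem_heckeAlgebra one_le_two t.2 hf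

/-- The ideal of Hecke operators sending the form `f` into `p` times the integral lattice. -/
def colonIdeal (p : ℤ) (f : CuspForm (Gamma0 N) 2) :
    Ideal (CuspForm.heckeAlgebra N 2 ∅) where
  carrier := {t | ∃ g ∈ CuspForm.intLattice N 2,
    (t : Module.End ℂ (CuspForm (Gamma0 N) 2)) f = p • g}
  add_mem' := by
    rintro s t ⟨g, hg, hs⟩ ⟨g', hg', ht⟩
    refine ⟨g + g', add_mem hg hg', ?_⟩
    rw [smul_add, ← hs, ← ht]
    rfl
  zero_mem' := ⟨0, zero_mem _, by simp⟩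
  smul_mem' := by
    rintro s t ⟨g, hg, ht⟩
    refine ⟨(s : Module.End ℂ (CuspForm (Gamma0 N) 2)) g, hecke_mem_intLattice s hg, ?_⟩
    rw [smul_eq_mul]
    change (s : Module.End ℂ (CuspForm (Gamma0 N) 2)) ((t : Module.End ℂ _) f) = _
    rw [ht, map_zsmul]

theorem mem_colonIdeal {p : ℤ} {f : CuspForm (Gamma0 N) 2}
    {t : CuspForm.heckeAlgebra N 2 ∅} :
    t ∈ colonIdeal p f ↔ ∃ g ∈ CuspForm.intLattice N 2,
      (t : Module.End ℂ (CuspForm (Gamma0 N) 2)) f = p • g := Iff.rfl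

theorem self_mem_colonIdeal (p : ℤ) {f : CuspForm (Gamma0 N) 2}
    (hf : f ∈ CuspForm.intLattice N 2) : (p : CuspForm.heckeAlgebra N 2 ∅) ∈ colonIdeal p f := by
  refine ⟨f, hf, ?_⟩
  have : ((p : CuspForm.heckeAlgebra N 2 ∅) : Module.End ℂ (CuspForm (Gamma0 N) 2)) =
      (p : Module.End ℂ (CuspForm (Gamma0 N) 2)) := rfl
  rw [this]
  simp

theorem intCast_mem_colonIdeal {p : ℕ} (hp : p.Prime) {f : CuspForm (Gamma0 N) 2}
    (hf : f ∈ CuspForm.intLattice N 2)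
    (hfp : ¬ ∃ g ∈ CuspForm.intLattice N 2, f = (p : ℤ) • g) {c : ℤ}
    (hc : (c : CuspForm.heckeAlgebra N 2 ∅) ∈ colonIdeal (p : ℤ) f) : (p : ℤ) ∣ c := by
  by_contra hnd
  apply hfp
  have hcop : IsCoprime (p : ℤ) c :=
    ((Nat.prime_iff_prime_int.mp hp).coprime_iff_not_dvd).mpr hnd
  obtain ⟨u, v, huv⟩ := hcop
  obtain ⟨g, hg, hcg⟩ := hc
  have hcg' : c • f = (p : ℤ) • g := by
    rw [← hcg]
    have : ((c : CuspForm.heckeAlgebra N 2 ∅) : Module.End ℂ (CuspForm (Gamma0 N) 2)) =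
      (c : Module.End ℂ (CuspForm (Gamma0 N) 2)) := rfl
    rw [this]
    simp
  refine ⟨u • f + v • g, add_mem (Submodule.smul_mem _ _ hf) (Submodule.smul_mem _ _ hg), ?_⟩
  calc f = (u * (p : ℤ) + v * c) • f := by rw [huv, one_smul]
    _ = (p : ℤ) • (u • f) + v • (c • f) := by
        rw [add_smul, mul_comm u, mul_smul, mul_smul]
    _ = (p : ℤ) • (u • f + v • g) := by
        rw [hcg', smul_add, smul_comm v]

/-- A form which is a simultaneous eigenform modulo `p` (with integral eigenvalues) and is not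
divisible by `p` gives a prime ideal of the Hecke algebra. -/
theorem exists_prime_of_eigen_mod {p : ℕ} (hp : p.Prime) {f : CuspForm (Gamma0 N) 2}
    (hf : f ∈ CuspForm.intLattice N 2)
    (hfp : ¬ ∃ g ∈ CuspForm.intLattice N 2, f = (p : ℤ) • g) (c : ℕ → ℤ)
    (hT : ∀ (ℓ : ℕ) (hℓ : ℓ.Prime) (hℓN : ¬ ℓ ∣ N), ∃ g ∈ CuspForm.intLattice N 2,
      CuspForm.heckeTLin 2 hℓ hℓN f - c ℓ • f = (p : ℤ) • g)
    (hU : ∀ (ℓ : ℕ) (_ : ℓ.Prime) (hℓN : ℓ ∣ N), ∃ g ∈ CuspForm.intLattice N 2,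
      CuspForm.heckeULin 2 hℓN f - c ℓ • f = (p : ℤ) • g) :
    ∃ P : Ideal (CuspForm.heckeAlgebra N 2 ∅), P.IsPrime ∧
      ((p : ℕ) : CuspForm.heckeAlgebra N 2 ∅) ∈ P ∧
      ∀ (ℓ : ℕ) (hℓ : ℓ.Prime),
        CuspForm.heckeFormsGen N 2 ⟨ℓ, hℓ⟩ - ((c ℓ : ℤ) : CuspForm.heckeAlgebra N 2 ∅) ∈ P := by
  set P : Ideal (CuspForm.heckeAlgebra N 2 ∅) := colonIdeal (p : ℤ) f with hP
  have hpP : ((p : ℕ) : CuspForm.heckeAlgebra N 2 ∅) ∈ P := by
    have := self_mem_colonIdeal (p : ℤ) hf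
    simpa using this
  have hTmem : ∀ (ℓ : ℕ) (hℓ : ℓ.Prime) (hℓN : ¬ ℓ ∣ N),
      CuspForm.heckeAlgebra.T hℓ hℓN (Set.notMem_empty _) -
        ((c ℓ : ℤ) : CuspForm.heckeAlgebra N 2 ∅) ∈ P := by
    intro ℓ hℓ hℓN
    obtain ⟨g, hg, h⟩ := hT ℓ hℓ hℓN
    refine ⟨g, hg, ?_⟩
    rw [← h]
    change (CuspForm.heckeTLin 2 hℓ hℓN - ((c ℓ : ℤ) : Module.End ℂ (CuspForm (Gamma0 N) 2))) f = _
    rw [LinearMap.sub_apply, Module.End.intCast_apply]
  have hUmem : ∀ (ℓ : ℕ) (hℓ : ℓ.Prime) (hℓN : ℓ ∣ N),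
      CuspForm.heckeAlgebra.U hℓ hℓN (Set.notMem_empty _) -
        ((c ℓ : ℤ) : CuspForm.heckeAlgebra N 2 ∅) ∈ P := by
    intro ℓ hℓ hℓN
    obtain ⟨g, hg, h⟩ := hU ℓ hℓ hℓN
    refine ⟨g, hg, ?_⟩
    rw [← h]
    change (CuspForm.heckeULin 2 hℓN - ((c ℓ : ℤ) : Module.End ℂ (CuspForm (Gamma0 N) 2))) f = _
    rw [LinearMap.sub_apply, Module.End.intCast_apply]
  have hsurj : ∀ t : CuspForm.heckeAlgebra N 2 ∅, ∃ a : ℤ,
      t - ((a : ℤ) : CuspForm.heckeAlgebra N 2 ∅) ∈ P := by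
    rintro ⟨t, ht⟩
    unfold CuspForm.heckeAlgebra at ht
    induction ht using Algebra.adjoin_induction with
    | mem x hx =>
      rcases hx with ⟨ℓ, hℓ, hℓN, -, rfl⟩ | ⟨q, hqN, hq, -, rfl⟩
      · exact ⟨c ℓ, hTmem ℓ hℓ hℓN⟩
      · exact ⟨c q, hUmem q hq hqN⟩
    | algebraMap r =>
      refine ⟨r, ?_⟩
      have : (⟨algebraMap ℤ _ r, Subalgebra.algebraMap_mem _ r⟩ : CuspForm.heckeAlgebra N 2 ∅) =
        ((r : ℤ) : CuspForm.heckeAlgebra N 2 ∅) := by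
        apply Subtype.ext
        simp
      rw [this, sub_self]
      exact P.zero_mem
    | add x y hx hy ihx ihy =>
      obtain ⟨a, ha⟩ := ihx
      obtain ⟨b, hb⟩ := ihy
      refine ⟨a + b, ?_⟩
      set x' : CuspForm.heckeAlgebra N 2 ∅ := ⟨x, hx⟩
      set y' : CuspForm.heckeAlgebra N 2 ∅ := ⟨y, hy⟩
      have h := P.add_mem ha hb
      convert h using 1
      push_cast
      change x' + y' - _ = _
      ring
    | mul x y hx hy ihx ihy =>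
      obtain ⟨a, ha⟩ := ihx
      obtain ⟨b, hb⟩ := ihy
      refine ⟨a * b, ?_⟩
      set x' : CuspForm.heckeAlgebra N 2 ∅ := ⟨x, hx⟩
      set y' : CuspForm.heckeAlgebra N 2 ∅ := ⟨y, hy⟩
      have h := P.add_mem (P.mul_mem_right y' ha)
        (P.mul_mem_left ((a : ℤ) : CuspForm.heckeAlgebra N 2 ∅) hb)
      convert h using 1
      push_cast
      change x' * y' - _ = _
      ring
  refine ⟨P, ⟨?_, ?_⟩, hpP, fun ℓ hℓ => ?_⟩
  · intro htop
    have h1 : ((1 : ℤ) : CuspForm.heckeAlgebra N 2 ∅) ∈ P := by rw [htop]; trivial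
    have h2 := intCast_mem_colonIdeal hp hf hfp h1
    have h3 := Int.natCast_dvd_natCast.mp (by simpa using h2 : ((p : ℕ) : ℤ) ∣ ((1 : ℕ) : ℤ))
    exact hp.one_lt.ne' (Nat.dvd_one.mp h3)
  · intro s t hst
    obtain ⟨a, ha⟩ := hsurj s
    obtain ⟨b, hb⟩ := hsurj t
    have hab : ((a * b : ℤ) : CuspForm.heckeAlgebra N 2 ∅) ∈ P := by
      have h := P.sub_mem hst (P.add_mem (P.mul_mem_right t ha)
        (P.mul_mem_left ((a : ℤ) : CuspForm.heckeAlgebra N 2 ∅) hb))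
      convert h using 1
      push_cast
      ring
    have h2 := intCast_mem_colonIdeal hp hf hfp hab
    rcases (Nat.prime_iff_prime_int.mp hp).dvd_or_dvd h2 with ⟨k, hk⟩ | ⟨k, hk⟩
    · left
      have h := P.add_mem ha (P.mul_mem_right ((k : ℤ) : CuspForm.heckeAlgebra N 2 ∅) hpP)
      convert h using 1
      rw [hk]
      push_cast
      ring
    · right
      have h := P.add_mem hb (P.mul_mem_right ((k : ℤ) : CuspForm.heckeAlgebra N 2 ∅) hpP)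
      convert h using 1
      rw [hk]
      push_cast
      ring
  · by_cases hN : ℓ ∣ N
    · rw [CuspForm.heckeFormsGen_of_dvd (q := ⟨ℓ, hℓ⟩) hN]
      exact hUmem ℓ hℓ hN
    · rw [CuspForm.heckeFormsGen_of_not_dvd (ℓ := ⟨ℓ, hℓ⟩) hN]
      exact hTmem ℓ hℓ hN

/-- **Deligne–Serre lifting lemma** for eigenforms modulo `p` with integral (i.e. `𝔽_p`-valued)
eigenvalues: an integral form of weight two which is a simultaneous eigenform modulo `p` and is not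
divisible by `p` is congruent (on Hecke eigenvalues, at every prime) to a genuine normalised
eigenform, modulo a maximal ideal of the ring of algebraic integers. -/
theorem deligneSerre_lifting (hint : CuspForm.HasIntegralStructure N 2)
    {p : ℕ} (hp : p.Prime) {f : CuspForm (Gamma0 N) 2}
    (hf : f ∈ CuspForm.intLattice N 2)
    (hfp : ¬ ∃ g ∈ CuspForm.intLattice N 2, f = (p : ℤ) • g) (c : ℕ → ℤ)
    (hT : ∀ (ℓ : ℕ) (hℓ : ℓ.Prime) (hℓN : ¬ ℓ ∣ N), ∃ g ∈ CuspForm.intLattice N 2,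
      CuspForm.heckeTLin 2 hℓ hℓN f - c ℓ • f = (p : ℤ) • g)
    (hU : ∀ (ℓ : ℕ) (_ : ℓ.Prime) (hℓN : ℓ ∣ N), ∃ g ∈ CuspForm.intLattice N 2,
      CuspForm.heckeULin 2 hℓN f - c ℓ • f = (p : ℤ) • g) :
    ∃ (g : CuspForm (Gamma0 N) 2) (_ : g.IsNormalizedEigenform)
      (𝔪 : Ideal (integralClosure ℤ ℂ)), 𝔪.IsMaximal ∧
      ((p : ℕ) : integralClosure ℤ ℂ) ∈ 𝔪 ∧
      ∀ ℓ : ℕ, ℓ.Prime → ∃ a : integralClosure ℤ ℂ, (a : ℂ) = qCoeff ⇑g ℓ ∧
        a - (c ℓ : integralClosure ℤ ℂ) ∈ 𝔪 := by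
  obtain ⟨P, hPprime, hpP, hgen⟩ := exists_prime_of_eigen_mod hp hf hfp c hT hU
  obtain ⟨χ, g, Q, hg, -, hq, hQ, hQP⟩ := exists_integral_eigenform_of_prime hint P
  obtain ⟨𝔪, h𝔪, hQ𝔪⟩ := Ideal.exists_le_maximal Q hQ.ne_top
  have hmem : ∀ t ∈ P, χ t ∈ 𝔪 := fun t ht => hQ𝔪 (by
    rw [← hQP] at ht
    exact ht)
  refine ⟨g, hg, 𝔪, h𝔪, ?_, fun ℓ hℓ => ⟨charEigenvalue χ ℓ, (hq ℓ hℓ).symm, ?_⟩⟩
  · have := hmem _ hpP
    simpa using this
  · have := hmem _ (hgen ℓ hℓ)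
    rw [map_sub, map_intCast] at this
    rw [charEigenvalue, dif_pos hℓ]
    exact this

end Lifting

end Fermat.Agent.H22
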