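import Fermat.Agent.H22.Descend
import Fermat.Agent.AL.Grp

/-!
# Hecke operators on germs and twisting
-/

set_option autoImplicit false

noncomputable section

namespace Fermat.Agent.H22

open Matrix.SpecialLinearGroup CongruenceSubgroup
open Fermat.Agent.TC
open scoped MatrixGroups

/-- The matrix `(1 i; 0 ℓ)`. -/
def hm (ℓ : ℕ) [NeZero ℓ] (i : ℤ) : GG :=
  Matrix.GeneralLinearGroup.mkOfDetNeZero !![1, (i : ℚ); 0, (ℓ : ℚ)] (by simp [NeZero.ne ℓ])

theorem hm_val (ℓ : ℕ) [NeZero ℓ] (i : ℤ) : (hm ℓ i).val = !![1, (i : ℚ); 0, (ℓ : ℚ)] := rfl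

theorem hm_add_mul (ℓ : ℕ) [NeZero ℓ] (i k : ℤ) :
    hm ℓ (i + ℓ * k) = emb (sl 1 k 0 1 (by ring)) * hm ℓ i := by
  apply Units.ext
  rw [Units.val_mul, hm_val, hm_val, emb_sl, Matrix.mul_fin_two]
  congr 1
  push_cast
  simp [mul_comm]

section Reps

variable {ℓ : ℕ} [hℓ : Fact ℓ.Prime]

theorem exists_zreps (L : ℕ) [NeZero L] (hcop : Nat.Coprime L ℓ) :
    ∃ z : Option (ZMod ℓ) → SL(2, ℤ), (∀ j, z j ∈ Gamma L) ∧ z none = 1 ∧
      ∀ i : ZMod ℓ, ((z (some i) 1 0 : ℤ) : ZMod ℓ) = 1 ∧ ((z (some i) 1 1 : ℤ) : ZMod ℓ) = i := by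
  have h : ∀ i : ZMod ℓ, ∃ γ : SL(2, ℤ), γ ∈ Gamma L ∧ ((γ 1 0 : ℤ) : ZMod ℓ) = 1 ∧
      ((γ 1 1 : ℤ) : ZMod ℓ) = i := by
    intro i
    obtain ⟨γ, h1, h2⟩ := exists_SL2_crt (m := L) (n := ℓ) (by exact_mod_cast NeZero.ne L)
      (by exact_mod_cast hℓ.out.ne_zero) (Nat.isCoprime_iff_coprime.mpr hcop) 1
      (sl 0 (-1) 1 (i.val : ℤ) (by ring))
    have e : ∀ (m : ℕ) (a b : ℤ), (m : ℤ) ∣ a - b → ((a : ℤ) : ZMod m) = (b : ZMod m) := by
      intro m a b hab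
      rw [ZMod.intCast_eq_intCast_iff_dvd_sub]
      obtain ⟨k, hk⟩ := hab
      exact ⟨-k, by linear_combination -hk⟩
    refine ⟨γ, ?_, ?_, ?_⟩
    · rw [Gamma_mem]
      refine ⟨?_, ?_, ?_, ?_⟩
      · have := e L _ _ (h1 0 0); simpa using this
      · have := e L _ _ (h1 0 1); simpa using this
      · have := e L _ _ (h1 1 0); simpa using this
      · have := e L _ _ (h1 1 1); simpa using this
    · have := e ℓ _ _ (h2 1 0)
      rw [this, sl_10]
      simp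
    · have := e ℓ _ _ (h2 1 1)
      rw [this, sl_11]
      simp
  choose z hz1 hz2 hz3 using h
  refine ⟨fun j => j.elim 1 z, fun j => ?_, rfl, fun i => ⟨hz2 i, hz3 i⟩⟩
  cases j with
  | none => exact one_mem _
  | some i => exact hz1 i

theorem mul_inv_10 (g z : SL(2, ℤ)) : (g * z⁻¹) 1 0 = g 1 0 * z 1 1 - g 1 1 * z 1 0 := by
  rw [AL.mul_10, AL.inv_00, AL.inv_10]
  ring

theorem zreps_isReps {Γ : Subgroup SL(2, ℤ)} {N L : ℕ} (h1 : Gamma L ≤ Γ) (h2 : Γ ≤ Gamma0 N)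
    (hNℓ : Nat.Coprime N ℓ) {z : Option (ZMod ℓ) → SL(2, ℤ)} (hz : ∀ j, z j ∈ Gamma L)
    (hz0 : z none = 1) (hz1 : ∀ i : ZMod ℓ, ((z (some i) 1 0 : ℤ) : ZMod ℓ) = 1 ∧
      ((z (some i) 1 1 : ℤ) : ZMod ℓ) = i) : IsReps Γ (N * ℓ) z := by
  refine ⟨fun j => h1 (hz j), fun g hg => ?_⟩
  have key : ∀ j, g * (z j)⁻¹ ∈ Gamma0 (N * ℓ) ↔
      ((g 1 0 : ℤ) : ZMod ℓ) * ((z j 1 1 : ℤ) : ZMod ℓ) =
        ((g 1 1 : ℤ) : ZMod ℓ) * ((z j 1 0 : ℤ) : ZMod ℓ) := by
    intro j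
    have e1 : g * (z j)⁻¹ ∈ Gamma0 N :=
      (Gamma0 N).mul_mem (h2 hg) ((Gamma0 N).inv_mem (h2 (h1 (hz j))))
    have e2 : ((g 1 0 : ℤ) : ZMod ℓ) * ((z j 1 1 : ℤ) : ZMod ℓ) =
        ((g 1 1 : ℤ) : ZMod ℓ) * ((z j 1 0 : ℤ) : ZMod ℓ) ↔ (ℓ : ℤ) ∣ (g * (z j)⁻¹) 1 0 := by
      rw [mul_inv_10, ← ZMod.intCast_zmod_eq_zero_iff_dvd]
      push_cast
      rw [sub_eq_zero]
    rw [e2]
    constructor
    · intro h
      exact (Int.natCast_dvd_natCast.mpr (dvd_mul_left ℓ N)).trans (dvd_of_mem_Gamma0' h)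
    · intro h
      rw [Gamma0_mem, ZMod.intCast_zmod_eq_zero_iff_dvd]
      push_cast
      exact IsCoprime.mul_dvd (Nat.isCoprime_iff_coprime.mpr hNℓ) (dvd_of_mem_Gamma0' e1) h
  have hdet := congrArg (fun n : ℤ => (n : ZMod ℓ)) (det_eq g)
  push_cast at hdet
  by_cases hc : ((g 1 0 : ℤ) : ZMod ℓ) = 0
  · refine ⟨none, ?_, fun j hj => ?_⟩
    · simp only [key]
      rw [hc, hz0]
      simp
    · cases j with
      | none => rfl
      | some i =>
        exfalso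
        simp only [key] at hj
        rw [hc, (hz1 i).1, zero_mul, mul_one] at hj
        rw [← hj, hc] at hdet
        simp at hdet
  · refine ⟨some (((g 1 0 : ℤ) : ZMod ℓ)⁻¹ * ((g 1 1 : ℤ) : ZMod ℓ)), ?_, fun j hj => ?_⟩
    · simp only [key]
      rw [(hz1 _).1, (hz1 _).2, mul_one, ← mul_assoc, mul_inv_cancel₀ hc, one_mul]
    · cases j with
      | none =>
        exfalso
        simp only [key] at hj
        rw [hz0] at hj
        simp at hj
        exact hc hj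
      | some i =>
        simp only [key] at hj
        rw [(hz1 i).1, (hz1 i).2, mul_one] at hj
        rw [← hj, ← mul_assoc, inv_mul_cancel₀ hc, one_mul]

end Reps

section Hecke

variable {K : Type*} [CommRing K]

/-- The upper triangular part of the Hecke operator. -/
def Up (ℓ : ℕ) [NeZero ℓ] (v : HG K) : HG K := ∑ i : ZMod ℓ, act K (hm ℓ i.val) v

theorem TI.hm_congr {v : HG K} (h : TI v) (ℓ : ℕ) [NeZero ℓ] {i i' : ℤ}
    (hii' : (i : ZMod ℓ) = (i' : ZMod ℓ)) : act K (hm ℓ i) v = act K (hm ℓ i') v := by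
  rw [ZMod.intCast_eq_intCast_iff_dvd_sub] at hii'
  obtain ⟨k, hk⟩ := hii'
  have h1 : i' = i + ℓ * k := by linear_combination hk
  rw [h1, hm_add_mul, act_mul, h k]

variable {ℓ : ℕ} [hℓ : Fact ℓ.Prime]

theorem germ_hecke {Γ : Subgroup SL(2, ℤ)} {N L : ℕ} (hL : 0 < L) (h1 : Gamma L ≤ Γ)
    (hNL : N ∣ L) {z : Option (ZMod ℓ) → SL(2, ℤ)} (hz : ∀ j, z j ∈ Gamma L)
    (hz0 : z none = 1) (hz1 : ∀ i : ZMod ℓ, ((z (some i) 1 0 : ℤ) : ZMod ℓ) = 1 ∧
      ((z (some i) 1 1 : ℤ) : ZMod ℓ) = i)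
    {F : HM Γ K → HM Γ K} (hF : Rep (fun _ => (1 : K)) (fun j => del ℓ * emb (z j)) F)
    (φ : HM Γ K) {χ : ℤ → K} (hv : SI N χ (germ K φ)) {e : K}
    (he : ∀ x : ℤ, (N : ℤ) ∣ ℓ * x - 1 → χ x = e) :
    germ K (F φ) = act K (del ℓ) (germ K φ) + e • Up ℓ (germ K φ) := by
  have hΓ : IsCong Γ := ⟨L, hL, h1⟩
  rw [germ_rep hΓ hΓ hF, Fintype.sum_option]
  congr 1
  · rw [hz0, map_one, mul_one, one_smul]
  · unfold Up
    rw [Finset.smul_sum]
    refine Finset.sum_congr rfl fun i _ => ?_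
    rw [one_smul]
    obtain ⟨h2, h3⟩ := hz1 i
    have hm' := hz (some i)
    rw [Gamma_mem] at hm'
    obtain ⟨a, ha⟩ : ∃ a, a = z (some i) 0 0 := ⟨_, rfl⟩
    obtain ⟨b, hb⟩ : ∃ b, b = z (some i) 0 1 := ⟨_, rfl⟩
    obtain ⟨c, hc⟩ : ∃ c, c = z (some i) 1 0 := ⟨_, rfl⟩
    obtain ⟨d, hd⟩ : ∃ d, d = z (some i) 1 1 := ⟨_, rfl⟩
    have hdet := det_eq (z (some i))
    rw [← ha, ← hb, ← hc, ← hd] at hdet
    rw [← hc] at h2
    rw [← hd] at h3
    rw [← ha, ← hb, ← hc, ← hd] at hm'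
    have h4 : (ℓ : ℤ) ∣ d - c * i.val := by
      rw [← ZMod.intCast_zmod_eq_zero_iff_dvd]
      push_cast
      rw [h2, h3]
      simp
    obtain ⟨x, hx⟩ := h4
    have hℓ0 : (ℓ : ℚ) ≠ 0 := by exact_mod_cast hℓ.out.ne_zero
    let γ : SL(2, ℤ) := sl (ℓ * a) (b - a * i.val) c x (by linear_combination hdet - a * hx)
    have hγ : del ℓ * emb (z (some i)) = emb γ * hm ℓ i.val := by
      apply Units.ext
      rw [Units.val_mul, Units.val_mul, del_val, emb_val, emb_sl, hm_val, ← ha, ← hb, ← hc, ← hd,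
        Matrix.mul_fin_two, Matrix.mul_fin_two]
      have hxq : (d : ℚ) - c * i.val = ℓ * x := by exact_mod_cast hx
      ext r s
      fin_cases r <;> fin_cases s
      · simp
      · simp
        ring
      · simp
      · simp [-ZMod.natCast_val]
        linear_combination hxq
    have hcL : (L : ℤ) ∣ c := (ZMod.intCast_zmod_eq_zero_iff_dvd _ _).mp hm'.2.2.1
    have hdL : (L : ℤ) ∣ d - 1 := by
      rw [← ZMod.intCast_zmod_eq_zero_iff_dvd]
      push_cast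
      rw [hm'.2.2.2, sub_self]
    have hNL' : (N : ℤ) ∣ L := by exact_mod_cast hNL
    have hγN : γ ∈ Gamma0 N := sl_mem_Gamma0 (hNL'.trans hcL)
    have h5 : χ (γ 1 1) = e := by
      apply he
      change (N : ℤ) ∣ ℓ * x - 1
      rw [← hx]
      have : d - c * (i.val : ℤ) - 1 = (d - 1) - c * i.val := by ring
      rw [this]
      exact dvd_sub (hNL'.trans hdL) ((hNL'.trans hcL).mul_right _)
    rw [hγ, act_mul, hv γ hγN, h5, map_smul]

/-- Translation of the upper triangular part. -/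
theorem TI.Up_TI {v : HG K} (h : TI v) (p : ℕ) [NeZero p] : TI (Up p v) := by
  intro k
  unfold Up
  rw [map_sum]
  have e : ∀ i : ZMod p, act K (emb (sl 1 k 0 1 (by ring))) (act K (hm p i.val) v) =
      act K (hm p ((i + (k : ZMod p)).val)) v := by
    intro i
    rw [← act_mul]
    have h1 : hm p i.val * emb (sl 1 k 0 1 (by ring)) = hm p (i.val + k) := by
      apply Units.ext
      rw [Units.val_mul, hm_val, hm_val, emb_sl, Matrix.mul_fin_two]
      congr 1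
      push_cast
      simp [add_comm]
    rw [h1]
    apply h.hm_congr
    push_cast
    simp
  rw [Finset.sum_congr rfl fun i _ => e i]
  exact Equiv.sum_comp (Equiv.addRight (k : ZMod p)) (fun i => act K (hm p i.val) v)

theorem hm_mul_tq {Q p : ℕ} [NeZero Q] [NeZero p] (i u : ℤ) :
    hm p i * tq Q (p * u) = tq Q u * hm p i := by
  have hQ : (Q : ℚ) ≠ 0 := by exact_mod_cast NeZero.ne Q
  apply Units.ext
  rw [Units.val_mul, Units.val_mul, hm_val, tq_val, tq_val, Matrix.mul_fin_two,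
    Matrix.mul_fin_two]
  congr 1
  push_cast
  ext r s
  fin_cases r <;> fin_cases s
  · simp
  · simp
    ring
  · simp
  · simp

theorem del_mul_tq {Q p : ℕ} [NeZero Q] [NeZero p] (u : ℤ) :
    del p * tq Q u = tq Q (p * u) * del p := by
  have hQ : (Q : ℚ) ≠ 0 := by exact_mod_cast NeZero.ne Q
  apply Units.ext
  rw [Units.val_mul, Units.val_mul, del_val, tq_val, tq_val, Matrix.mul_fin_two,
    Matrix.mul_fin_two]
  congr 1
  push_cast
  ext r s
  fin_cases r <;> fin_cases s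
  · simp
  · simp
    ring
  · simp
  · simp

end Hecke

section Twist

variable {K : Type*} [Field K] {ℓ : ℕ} [hℓ : Fact ℓ.Prime]

theorem rw'_add {Q : ℕ} [NeZero Q] (w : MulChar (ZMod Q) K) (v v' : HG K) :
    rw' Q w (v + v') = rw' Q w v + rw' Q w v' := by
  unfold rw'
  rw [← Finset.sum_add_distrib]
  exact Finset.sum_congr rfl fun u _ => by rw [map_add, smul_add]

theorem rw'_smul {Q : ℕ} [NeZero Q] (w : MulChar (ZMod Q) K) (c : K) (v : HG K) :
    rw' Q w (c • v) = c • rw' Q w v := by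
  unfold rw'
  rw [Finset.smul_sum]
  exact Finset.sum_congr rfl fun u _ => by rw [map_smul, smul_comm]

/-- The twist and `diag(ℓ, 1)`. -/
theorem TI.del_rw' {v : HG K} (h : TI v) {Q : ℕ} [NeZero Q] (hQ : Nat.Coprime ℓ Q)
    (w : MulChar (ZMod Q) K) :
    act K (del ℓ) (rw' Q w v) = w ((ℓ : ℕ) : ZMod Q) • rw' Q w (act K (del ℓ) v) := by
  have hu : IsUnit ((ℓ : ℕ) : ZMod Q) := (ZMod.isUnit_iff_coprime ℓ Q).mpr hQ
  unfold rw'
  rw [map_sum, Finset.smul_sum, ← Function.Bijective.sum_comp (hu.unit.mulLeft_bijective)]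
  refine Finset.sum_congr rfl fun u _ => ?_
  rw [map_smul, smul_smul, ← act_mul, ← act_mul, IsUnit.unit_spec, map_mul, del_mul_tq, act_mul,
    act_mul]
  congr 2
  apply h.congr Q (NeZero.ne Q)
  push_cast
  simp

/-- The twist and the upper triangular part of the Hecke operator. -/
theorem TI.Up_rw' {v : HG K} (h : TI v) {Q p : ℕ} [NeZero Q] [NeZero p] (hQ : Nat.Coprime p Q)
    (w : MulChar (ZMod Q) K) :
    rw' Q w (Up p v) = w ((p : ℕ) : ZMod Q) • Up p (rw' Q w v) := by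
  have hu : IsUnit ((p : ℕ) : ZMod Q) := (ZMod.isUnit_iff_coprime p Q).mpr hQ
  have hTI := h.Up_TI p
  unfold rw'
  rw [← Function.Bijective.sum_comp (hu.unit.mulLeft_bijective)]
  have e : ∀ u : ZMod Q, act K (tq Q ((hu.unit : ZMod Q) * u).val) (Up p v) =
      ∑ i : ZMod p, act K (hm p i.val) (act K (tq Q u.val) v) := by
    intro u
    rw [hTI.congr Q (NeZero.ne Q) (u' := p * u.val) (by push_cast; simp)]
    unfold Up
    rw [map_sum]
    refine Finset.sum_congr rfl fun i _ => ?_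
    rw [← act_mul, ← act_mul, hm_mul_tq]
  simp only [e]
  unfold Up
  simp only [map_sum, map_smul, Finset.smul_sum]
  rw [Finset.sum_comm]
  refine Finset.sum_congr rfl fun i _ => Finset.sum_congr rfl fun u _ => ?_
  rw [IsUnit.unit_spec, map_mul, smul_smul]

end Twist

end Fermat.Agent.H22
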