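import Fermat.Agent.H22.Transport
import Fermat.Agent.H22.Eigen
import Fermat.Agent.H16.Separation
import Fermat.Prelude.Def_ModularCurve_EigenformIdeal

set_option autoImplicit false

noncomputable section

namespace Fermat.Agent.H22

open CongruenceSubgroup ModularForm Matrix.SpecialLinearGroup ModularCurve
open scoped MatrixGroups

/-- A faithful module, finite free over `ℤ`, has nonzero `𝔪`-torsion modulo `p` for every maximal
ideal `𝔪` containing `p`. -/
theorem support_lemma {R L : Type*} [CommRing R] [AddCommGroup L] [Module.Finite ℤ R]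
    [Module.Finite ℤ L] (ρ : R →+* Module.End ℤ L) (hρ : Function.Injective ρ)
    {p : ℕ} (hp : p.Prime) (𝔪 : Ideal R) [h𝔪 : 𝔪.IsMaximal] (hp𝔪 : (p : R) ∈ 𝔪) :
    ∃ x : L, (¬ ∃ y, x = p • y) ∧ ∀ r ∈ 𝔪, ∃ y, ρ r x = p • y := by
  classical
  let _ : Module R L := Module.compHom L ρ
  have hsmul : ∀ (r : R) (x : L), r • x = ρ r x := fun _ _ => rfl
  have hfin : Module.Finite R L := Module.Finite.of_restrictScalars_finite ℤ R L
  have hnoeth : IsNoetherianRing R := IsNoetherianRing.of_finite ℤ R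
  have hann : Module.annihilator R L = ⊥ := by
    rw [eq_bot_iff]
    intro r hr
    rw [Module.mem_annihilator] at hr
    rw [Ideal.mem_bot]
    apply hρ
    rw [map_zero]
    exact LinearMap.ext fun x => hr x
  let V := L ⧸ (Ideal.span {(p : R)} • ⊤ : Submodule R L)
  have h1 : (⟨𝔪, h𝔪.isPrime⟩ : PrimeSpectrum R) ∈ Module.support R V := by
    rw [Module.support_quotient]
    refine ⟨Module.mem_support_iff_of_finite.mpr (by rw [hann]; exact bot_le), ?_⟩
    rw [PrimeSpectrum.mem_zeroLocus]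
    exact (Ideal.span_singleton_le_iff_mem 𝔪).mpr hp𝔪
  have h2 : Module.annihilator R V ≤ 𝔪 := Module.mem_support_iff_of_finite.mp h1
  obtain ⟨P, hP, hPle⟩ := Ideal.exists_minimalPrimes_le h2
  have hass := Module.associatedPrimes.minimalPrimes_annihilator_subset_associatedPrimes R V hP
  have hPprime : P.IsPrime := hP.isPrime
  have hpP : (p : R) ∈ P := by
    apply hP.1.2
    rw [Module.mem_annihilator]
    intro v
    obtain ⟨x, rfl⟩ := Submodule.Quotient.mk_surjective _ v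
    rw [← Submodule.Quotient.mk_smul, Submodule.Quotient.mk_eq_zero]
    exact Submodule.smul_mem_smul (Ideal.mem_span_singleton_self _) Submodule.mem_top
  have hPmax : P.IsMaximal := by
    have : Algebra.IsIntegral ℤ R := inferInstance
    apply Ideal.isMaximal_of_isIntegral_of_isMaximal_comap (R := ℤ) P
    have hprime : (P.comap (algebraMap ℤ R)).IsPrime := inferInstance
    refine hprime.isMaximal fun hbot => ?_
    have h3 : (p : ℤ) ∈ P.comap (algebraMap ℤ R) := by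
      rw [Ideal.mem_comap]
      simpa using hpP
    rw [hbot, Ideal.mem_bot] at h3
    exact hp.ne_zero (by exact_mod_cast h3)
  have hPeq : P = 𝔪 := hPmax.eq_of_le h𝔪.ne_top hPle
  subst hPeq
  obtain ⟨-, v, hv⟩ := isAssociatedPrime_iff.mp hass
  obtain ⟨x, rfl⟩ := Submodule.Quotient.mk_surjective _ v
  have key : ∀ y : L, y ∈ (Ideal.span {(p : R)} • ⊤ : Submodule R L) ↔ ∃ z, y = p • z := by
    intro y
    rw [Submodule.ideal_span_singleton_smul, Submodule.mem_smul_pointwise_iff_exists]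
    constructor
    · rintro ⟨z, -, rfl⟩
      exact ⟨z, Nat.cast_smul_eq_nsmul R p z⟩
    · rintro ⟨z, rfl⟩
      exact ⟨z, Submodule.mem_top, Nat.cast_smul_eq_nsmul R p z⟩
  refine ⟨x, fun hx => ?_, fun r hr => ?_⟩
  · rw [← key, ← Submodule.Quotient.mk_eq_zero] at hx
    apply hPprime.ne_top
    rw [hv, hx, Ideal.eq_top_iff_one, Submodule.mem_colon_singleton, one_smul]
    exact Submodule.zero_mem _
  · rw [hv, Submodule.mem_colon_singleton, Submodule.mem_bot, ← Submodule.Quotient.mk_smul,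
      Submodule.Quotient.mk_eq_zero, key] at hr
    exact hr

section

variable {N : ℕ} [NeZero N]

/-- **Support**: for every maximal ideal `𝔪` of the abstract Hecke algebra containing `p` and
the annihilator of `S₂` there is an integral parabolic homomorphism, nonzero modulo `p`, killed
by `𝔪` modulo `p`. -/
theorem exists_support {p : ℕ} (hp : p.Prime) (𝔪 : Ideal HeckeAlg) [h𝔪 : 𝔪.IsMaximal]
    (hp𝔪 : (p : HeckeAlg) ∈ 𝔪) (hker : RingHom.ker (CuspForm.heckeEvalForms N 2) ≤ 𝔪) :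
    ∃ ψ ∈ formsLattice N, (∃ γ, ¬ (p : ℤ) ∣ ψ γ) ∧
      ∀ t ∈ 𝔪, ∀ γ, (p : ℤ) ∣ heckeAct ℤ N ℤ t ψ γ := by
  have hfin : Module.Finite ℤ (CuspForm.heckeAlgebra N 2 ∅) :=
    Fermat.Agent.H16.moduleFinite_heckeAlgebra N 2 ∅
  let 𝔫 : Ideal (CuspForm.heckeAlgebra N 2 ∅) := 𝔪.map (CuspForm.heckeEvalForms N 2)
  have hcomap : 𝔫.comap (CuspForm.heckeEvalForms N 2) = 𝔪 := by
    rw [Ideal.comap_map_of_surjective _ heckeEvalForms_surjective]
    exact sup_eq_left.mpr hker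
  have h𝔫 : 𝔫.IsMaximal := by
    rcases Ideal.map_eq_top_or_isMaximal_of_surjective (CuspForm.heckeEvalForms N 2)
      heckeEvalForms_surjective h𝔪 with h | h
    · exfalso
      apply h𝔪.ne_top
      rw [← hcomap]
      change (𝔪.map (CuspForm.heckeEvalForms N 2)).comap _ = ⊤
      rw [h, Ideal.comap_top]
    · exact h
  have hp𝔫 : (p : CuspForm.heckeAlgebra N 2 ∅) ∈ 𝔫 := by
    rw [← map_natCast (CuspForm.heckeEvalForms N 2) p]
    exact Ideal.mem_map_of_mem _ hp𝔪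
  obtain ⟨x, hx1, hx2⟩ := support_lemma (formsPartAct N (heckeActPar ℤ N ℤ)) latticeAct_injective
    hp 𝔫 hp𝔫
  have hp0 : (p : ℤ) ≠ 0 := by exact_mod_cast hp.ne_zero
  refine ⟨x, mem_formsLattice_iff.mpr ⟨x, rfl⟩, ?_, fun t ht γ => ?_⟩
  · by_contra hcon
    push Not at hcon
    obtain ⟨y, hy⟩ := exists_smul_eq hp0 x hcon
    exact hx1 ⟨y, by rw [hy, natCast_zsmul]⟩
  · obtain ⟨y, hy⟩ := hx2 _ (Ideal.mem_map_of_mem _ ht)
    have h1 : heckeAct ℤ N ℤ t (x : Additive (Gamma0 N) →+ ℤ) =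
        ((p • y : FormsLat N) : Additive (Gamma0 N) →+ ℤ) := by
      rw [← hy]
      exact (congrArg Subtype.val (formsPartAct_apply (N := N) (heckeActPar ℤ N ℤ) t x)).symm
    rw [h1]
    exact ⟨(y : Additive (Gamma0 N) →+ ℤ) γ, by
      change (p • (y : Additive (Gamma0 N) →+ ℤ)) γ = _
      rw [AddMonoidHom.nsmul_apply, nsmul_eq_mul]⟩

theorem isMaximal_eigenIdeal {k : Type*} [Field k] [Finite k] (a : Nat.Primes → k) :
    (eigenIdeal a).IsMaximal := by
  have hfin : Finite (HeckeAlg ⧸ eigenIdeal a) :=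
    Finite.of_injective _ (RingHom.kerLift_injective
      (MvPolynomial.aeval (R := ℤ) a : HeckeAlg →ₐ[ℤ] k).toRingHom)
  have hprime : (eigenIdeal a).IsPrime := RingHom.ker_isPrime _
  have hdom : IsDomain (HeckeAlg ⧸ eigenIdeal a) := Ideal.Quotient.isDomain _
  exact Ideal.Quotient.maximal_of_isField _ (Finite.isField_of_domain _)

/-- **Support of eigenform ideals** on a Hecke module `W` (think of `J₀(N)[p]`) with a Hecke
equivariant injection into `Hom(Γ₀(N), A)` whose image contains the reductions of all integral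
parabolic homomorphisms. -/
theorem exists_torsion_of_isEigenformIdeal {p : ℕ} (hp : p.Prime) {W A : Type*} [AddCommGroup W]
    [AddCommGroup A] (ρ : HeckeAlg →+* Module.End ℤ W) (f : ℤ →+ A)
    (hf : ∀ k, f k = 0 ↔ (p : ℤ) ∣ k)
    (Φ : W →+ (Additive (Gamma0 N) →+ A)) (hΦi : Function.Injective Φ)
    (hΦ : ∀ ℓ w, Φ (ρ (heckeGen ℓ) w) = heckeOpL ℤ N A ℓ (Φ w))
    (hsurj : ∀ ψ ∈ Period.parabolicHoms ℤ (Gamma0 N) ℤ, ∃ w, Φ w = f.comp ψ)
    (𝔪 : Ideal HeckeAlg) (h𝔪 : IsEigenformIdeal N 𝔪) (hp𝔪 : (p : HeckeAlg) ∈ 𝔪) :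
    ∃ w : W, w ≠ 0 ∧ ∀ t ∈ 𝔪, ρ t w = 0 := by
  obtain ⟨g, hg, k, _, _, 𝒪, h𝒪, φ, rfl⟩ := h𝔪
  have hmax := isMaximal_eigenIdeal (fun ℓ => φ ⟨ModularFormClass.qCoeff g ℓ, h𝒪 ℓ⟩)
  obtain ⟨ψ, hψ, ⟨γ, hγ⟩, hker⟩ := exists_support (N := N) hp _ hp𝔪 (ker_le_eigenIdeal hg 𝒪 h𝒪 φ)
  obtain ⟨w, hw⟩ := hsurj ψ hψ.1
  refine ⟨w, ?_, fun t ht => ?_⟩
  · rintro rfl
    rw [map_zero] at hw
    exact hγ ((hf _).mp (DFunLike.congr_fun hw γ).symm)
  · apply hΦi
    rw [intertwine_heckeAct ρ Φ hΦ, hw, heckeAct_map (R := ℤ) (R' := ℤ), map_zero]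
    refine AddMonoidHom.ext fun γ => ?_
    exact (hf _).mpr (hker t ht γ)

end

end Fermat.Agent.H22
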