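import Fermat.Agent.H22.GamHComm

set_option autoImplicit false

noncomputable section

/-! ### Restriction and transfer between the groups `Γ_H(N)` -/

namespace Fermat.Agent.H22

open CongruenceSubgroup Function
open scoped MatrixGroups

/-- Bezout for three integers without common prime factor. -/
theorem exists_bezout3 {a b c : ℤ}
    (h : ∀ p : ℕ, p.Prime → (p : ℤ) ∣ a → (p : ℤ) ∣ b → (p : ℤ) ∣ c → False) :
    ∃ x y z : ℤ, x * a + y * b + z * c = 1 := by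
  have h1 : IsCoprime ((Int.gcd a b : ℕ) : ℤ) c := by
    rw [Int.isCoprime_iff_gcd_eq_one]
    by_contra h1
    obtain ⟨p, hp, hpd⟩ := Nat.exists_prime_and_dvd h1
    have hpd' : (p : ℤ) ∣ (Int.gcd (Int.gcd a b) c : ℕ) := Int.natCast_dvd_natCast.mpr hpd
    exact h p hp ((hpd'.trans (Int.gcd_dvd_left _ _)).trans (Int.gcd_dvd_left _ _))
      ((hpd'.trans (Int.gcd_dvd_left _ _)).trans (Int.gcd_dvd_right _ _))
      (hpd'.trans (Int.gcd_dvd_right _ _))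
  obtain ⟨u, v, huv⟩ := h1
  rw [Int.gcd_eq_gcd_ab] at huv
  exact ⟨u * Int.gcdA a b, u * Int.gcdB a b, v, by linear_combination huv⟩

theorem intCast_eq_one_of_dvd {N : ℕ} {a : ℤ} (h : (N : ℤ) ∣ a - 1) : ((a : ℤ) : ZMod N) = 1 := by
  rw [← sub_eq_zero, ← Int.cast_one, ← Int.cast_sub, ZMod.intCast_zmod_eq_zero_iff_dvd]
  exact h

section Res

variable {N M : ℕ} {H : Subgroup (ZMod N)ˣ} {H' : Subgroup (ZMod M)ˣ}
  (h : GamH M H' ≤ GamH N H) {A : Type*} [CommGroup A]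

/-- Restriction of characters. -/
def resH (ψ : GamH N H →* A) : GamH M H' →* A := ψ.comp (Subgroup.inclusion h)

theorem resH_diamond (g : SL(2, ℤ)) (hg : g ∈ Gamma0 N) (hg' : g ∈ Gamma0 M)
    (ψ : GamH N H →* A) :
    resH h (diamond N H ⟨g, hg⟩ ψ) = diamond M H' ⟨g, hg'⟩ (resH h ψ) := rfl

variable [NeZero M]

instance inclusion_finiteIndex : (Subgroup.inclusion h).range.FiniteIndex :=
  finiteIndex_inclusion h

/-- Transfer (corestriction) of characters. -/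
def corH (ψ : GamH M H' →* A) : GamH N H →* A :=
  tr (Subgroup.inclusion h) (Subgroup.inclusion_injective h) ψ

theorem corH_diamond (g : SL(2, ℤ)) (hg : g ∈ Gamma0 N) (hg' : g ∈ Gamma0 M)
    (ψ : GamH M H' →* A) :
    corH h (diamond M H' ⟨g, hg'⟩ ψ) = diamond N H ⟨g, hg⟩ (corH h ψ) := by
  unfold corH
  symm
  apply tr_comap
  · intro k
    exact Subtype.ext rfl
  · rintro ⟨γ, hγ⟩ ⟨k, hk⟩ hh
    have h1 : g * γ * g⁻¹ = k := congrArg Subtype.val hh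
    have h2 : γ = (⟨g, hg'⟩⁻¹ : Gamma0 M) * k * ((⟨g, hg'⟩⁻¹ : Gamma0 M) : SL(2, ℤ))⁻¹ := by
      rw [← h1]
      change γ = g⁻¹ * (g * γ * g⁻¹) * g⁻¹⁻¹
      group
    refine ⟨⟨γ, ?_⟩, rfl⟩
    rw [h2]
    exact conj_mem_GamH M H' _ hk
  · rintro ⟨γ, hγ⟩
    have h1 := conj_mem_GamH N H (⟨g, hg⟩⁻¹ : Gamma0 N) hγ
    refine ⟨⟨_, h1⟩, 1, ?_⟩
    rw [map_one, mul_one]
    apply Subtype.ext
    change γ = g * (g⁻¹ * γ * g⁻¹⁻¹) * g⁻¹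
    group

variable [NeZero N] {ℓ : ℕ} [NeZero ℓ]

omit [NeZero M] [NeZero N] [NeZero ℓ] in
include h in
theorem GamHl_le_GamHl (hNM : N ∣ M) : GamHl M H' ℓ ≤ GamHl N H ℓ := by
  rintro γ ⟨h1, h2⟩
  exact ⟨h h1, Gamma0_anti (mul_dvd_mul_right hNM ℓ) h2⟩

/-- **Transfer commutes with Hecke operators** if every prime dividing `ℓ` and `M` divides `N`. -/
theorem corH_heckeH (hNM : N ∣ M) (hℓ : ∀ p : ℕ, p.Prime → p ∣ ℓ → p ∣ M → p ∣ N)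
    (ψ : GamH M H' →* A) : corH h (heckeH M H' ℓ ψ) = heckeH N H ℓ (corH h ψ) := by
  have hℓ0 : (ℓ : ℤ) ≠ 0 := by exact_mod_cast NeZero.ne ℓ
  have := finiteIndex_inclusion (GamHl_le_GamHl (ℓ := ℓ) h hNM)
  have key : (tr (Subgroup.inclusion h) (Subgroup.inclusion_injective h) ψ).comp (conjH N H ℓ) =
      tr (Subgroup.inclusion (GamHl_le_GamHl (ℓ := ℓ) h hNM)) (Subgroup.inclusion_injective _)
        (ψ.comp (conjH M H' ℓ)) := by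
    apply tr_comap
    · intro k
      exact Subtype.ext rfl
    · rintro ⟨γ, hγ⟩ ⟨k, hk⟩ hh
      have h1 : degSL ℓ γ (dvd_of_mem hγ.2) = k := congrArg Subtype.val hh
      obtain ⟨⟨c, hc⟩, u, hu, hu'⟩ := mem_GamH'.mp hk
      rw [← h1, degSL_one_zero] at hc
      rw [← h1, degSL_one_one] at hu'
      have h2 : γ 1 0 = (M : ℤ) * (ℓ * c) := by
        rw [← Int.mul_ediv_cancel' (dvd_of_mem hγ.2), hc]
        ring
      refine ⟨⟨γ, mem_GamH'.mpr ⟨⟨_, h2⟩, u, hu, hu'⟩, mem_Gamma0_iff_dvd.mpr ⟨c, ?_⟩⟩, rfl⟩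
      rw [h2]
      push_cast
      ring
    · rintro ⟨g, hg⟩
      have hcop : ∃ x y z : ℤ, x * g 0 0 + y * (g 0 1 * M) + z * ℓ = 1 := by
        refine exists_bezout3 fun p hp hp2 hp3 hp1 => ?_
        have hpp : Prime (p : ℤ) := Nat.prime_iff_prime_int.mp hp
        obtain ⟨u, v, huv⟩ := isCoprime_zero_zero (GamH_le_Gamma0 hg)
        have hpN : (p : ℤ) ∣ g 0 1 * N := by
          rcases hpp.dvd_or_dvd hp3 with h3 | h3
          · exact h3.mul_right _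
          · have h4 : p ∣ N := hℓ p hp (Int.natCast_dvd_natCast.mp hp1)
              (Int.natCast_dvd_natCast.mp h3)
            exact (Int.natCast_dvd_natCast.mpr h4).mul_left _
        have : (p : ℤ) ∣ 1 := by
          rw [← huv]
          exact dvd_add (hp2.mul_left _) (hpN.mul_left _)
        exact hpp.not_isUnit (isUnit_of_dvd_one this)
      obtain ⟨s, t, hst⟩ := exists_elemSL (γ := g) (K := (M : ℤ)) hℓ0 hcop
      have hmem : elemSL (M : ℤ) s t ∈ GamH M H' := elemSL_mem (dvd_refl M) H' s t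
      refine ⟨⟨upSL ℓ _ hst, upSL_mem hst ((GamH N H).mul_mem hg (h hmem))⟩,
        ⟨_, (GamH M H').inv_mem hmem⟩, ?_⟩
      apply Subtype.ext
      have e0 : degSL ℓ (upSL ℓ _ hst) (dvd_mul_right _ _) = g * elemSL (M : ℤ) s t :=
        degSL_upSL ℓ _ hst _
      exact eq_mul_inv_of_mul_eq e0.symm
  have hfi : ((inclH N H ℓ).comp (Subgroup.inclusion (GamHl_le_GamHl (ℓ := ℓ) h hNM))).range.FiniteIndex :=
    finiteIndex_comp _ _ (inclH_injective N H ℓ)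
  have hinj : Injective ((inclH N H ℓ).comp
      (Subgroup.inclusion (GamHl_le_GamHl (ℓ := ℓ) h hNM))) :=
    (inclH_injective N H ℓ).comp (Subgroup.inclusion_injective _)
  unfold heckeH
  unfold corH
  rw [key, tr_tr _ _ ((inclH N H ℓ).comp (Subgroup.inclusion (GamHl_le_GamHl (ℓ := ℓ) h hNM)))
    (fun _ => rfl) _ _ hinj, tr_tr _ _ ((inclH N H ℓ).comp
      (Subgroup.inclusion (GamHl_le_GamHl (ℓ := ℓ) h hNM))) (fun _ => rfl) _ _ hinj]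

omit [NeZero M] in
theorem mul_entry (γ δ : SL(2, ℤ)) (i j : Fin 2) :
    (γ * δ) i j = γ i 0 * δ 0 j + γ i 1 * δ 1 j := by
  rw [Matrix.SpecialLinearGroup.coe_mul, Matrix.mul_apply, Fin.sum_univ_two]

/-- Every `γ ∈ Γ_H(N)` is a product of an element of `Γ₁(M)` and one of `Γ_H(N) ∩ Γ₀(Nℓ)` if
`ℓ ∤ M / N`. -/
theorem exists_mul_mem (N m ℓ : ℕ) [NeZero N] [NeZero m] (H : Subgroup (ZMod N)ˣ) (hℓ : ℓ.Prime)
    (hℓm : ¬ ℓ ∣ m) {γ : SL(2, ℤ)} (hγ : γ ∈ GamH N H) :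
    ∃ ε ∈ GamHl N H ℓ, γ * ε ∈ GamH (N * m) ⊥ := by
  have : NeZero ℓ := ⟨hℓ.ne_zero⟩
  have hM0 : N * m ≠ 0 := mul_ne_zero (NeZero.ne N) (NeZero.ne m)
  have hγ0 : γ ∈ Gamma0 N := GamH_le_Gamma0 hγ
  -- `N m = ℓ^v M₁`
  obtain ⟨v, M₁, hM₁, hM⟩ := Nat.exists_eq_pow_mul_and_not_dvd hM0 ℓ hℓ.ne_one
  have hM₁0 : M₁ ≠ 0 := by
    rintro rfl
    exact hM₁ (dvd_zero _)
  have hcm : Nat.Coprime (ℓ ^ v) m := (hℓ.coprime_iff_not_dvd.mpr hℓm).pow_left v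
  have hvN : ℓ ^ v ∣ N := by
    have h1 : ℓ ^ v ∣ N * m := ⟨M₁, hM⟩
    exact hcm.dvd_of_dvd_mul_right h1
  obtain ⟨N₁, hN₁⟩ := hvN
  have hv0 : ℓ ^ v ≠ 0 := pow_ne_zero _ hℓ.ne_zero
  have hN₁M₁ : N₁ ∣ M₁ := by
    refine ⟨m, ?_⟩
    have h1 : ℓ ^ v * M₁ = ℓ ^ v * (N₁ * m) := by rw [← hM, hN₁, mul_assoc]
    exact Nat.eq_of_mul_eq_mul_left (Nat.pos_of_ne_zero hv0) h1
  -- the element `β ∈ Γ₀(Nℓ)` with `d(β) = d(γ)⁻¹`
  obtain ⟨β, hβ, hβℓ, hβd⟩ := exists_dChar_eq N ℓ (dChar N ⟨γ, hγ0⟩)⁻¹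
  have hcop : IsCoprime (M₁ : ℤ) ((ℓ ^ v * ℓ : ℕ) : ℤ) := by
    rw [← pow_succ]
    exact Nat.isCoprime_iff_coprime.mpr ((hℓ.coprime_iff_not_dvd.mpr hM₁).symm.pow_right _)
  obtain ⟨ε, hε1, hε2⟩ := exists_SL2_crt (m := (M₁ : ℤ)) (n := ((ℓ ^ v * ℓ : ℕ) : ℤ))
    (by exact_mod_cast hM₁0) (by exact_mod_cast mul_ne_zero hv0 hℓ.ne_zero) hcop γ⁻¹ β
  obtain ⟨cγ, hcγ⟩ := mem_Gamma0_iff_dvd.mp hγ0
  obtain ⟨cβ, hcβ⟩ := mem_Gamma0_iff_dvd.mp hβℓ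
  have hinv : (γ⁻¹ : SL(2, ℤ)) 0 0 = γ 1 1 ∧ (γ⁻¹ : SL(2, ℤ)) 0 1 = -γ 0 1 ∧
      (γ⁻¹ : SL(2, ℤ)) 1 0 = -γ 1 0 ∧ (γ⁻¹ : SL(2, ℤ)) 1 1 = γ 0 0 := by
    rw [Matrix.SpecialLinearGroup.SL2_inv_expl]
    exact ⟨rfl, rfl, rfl, rfl⟩
  obtain ⟨i00, i01, i10, i11⟩ := hinv
  have hdet := det_eq γ
  -- `d(β) d(γ) ≡ 1` modulo `N`
  have hβγ : (N : ℤ) ∣ γ 1 1 * β 1 1 - 1 := by
    have h1 := congrArg Units.val (mul_inv_eq_one.mpr hβd.symm)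
    rw [← ZMod.intCast_zmod_eq_zero_iff_dvd]
    push_cast
    have h2 : dChar N ⟨γ, hγ0⟩ * dChar N ⟨β, hβ⟩ = 1 := by rw [hβd, mul_inv_cancel]
    have h3 := congrArg Units.val h2
    rw [Units.val_mul, Units.val_one, dChar_val, dChar_val] at h3
    change ((γ 1 1 : ℤ) : ZMod N) * ((β 1 1 : ℤ) : ZMod N) = 1 at h3
    rw [h3, sub_self]
  have hvN' : ((ℓ ^ v : ℕ) : ℤ) ∣ (N : ℤ) := Int.natCast_dvd_natCast.mpr ⟨N₁, hN₁⟩
  have hvv : ((ℓ ^ v : ℕ) : ℤ) ∣ ((ℓ ^ v * ℓ : ℕ) : ℤ) :=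
    Int.natCast_dvd_natCast.mpr (dvd_mul_right _ _)
  have hM' : ((N * m : ℕ) : ℤ) = ((ℓ ^ v : ℕ) : ℤ) * (M₁ : ℤ) := by
    rw [hM]; push_cast; ring
  have hcop' : IsCoprime ((ℓ ^ v : ℕ) : ℤ) (M₁ : ℤ) :=
    Nat.isCoprime_iff_coprime.mpr ((hℓ.coprime_iff_not_dvd.mpr hM₁).pow_left _)
  -- entries of `γ ε`
  have e10 : (γ * ε) 1 0 = γ 1 0 * ε 0 0 + γ 1 1 * ε 1 0 := mul_entry γ ε 1 0
  have e11 : (γ * ε) 1 1 = γ 1 0 * ε 0 1 + γ 1 1 * ε 1 1 := mul_entry γ ε 1 1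
  obtain ⟨x00, hx00⟩ := hε1 0 0
  obtain ⟨x01, hx01⟩ := hε1 0 1
  obtain ⟨x10, hx10⟩ := hε1 1 0
  obtain ⟨x11, hx11⟩ := hε1 1 1
  rw [i00] at hx00
  rw [i01] at hx01
  rw [i10] at hx10
  rw [i11] at hx11
  obtain ⟨y10, hy10⟩ := hε2 1 0
  obtain ⟨y11, hy11⟩ := hε2 1 1
  obtain ⟨w, hw⟩ := hβγ
  have hN' : (N : ℤ) = ((ℓ ^ v : ℕ) : ℤ) * (N₁ : ℤ) := by
    rw [← Nat.cast_mul, ← hN₁]
  have f10 : (ℓ : ℤ) ^ v * ℓ ∣ ε 1 0 := by
    refine ⟨y10 + N₁ * cβ, ?_⟩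
    rw [hN₁] at hcβ
    push_cast at hy10 hcβ
    linear_combination hy10 + hcβ
  have hε : ε ∈ GamHl N H ℓ := by
    have g0 : ε ∈ Gamma0 (N * ℓ) := by
      rw [mem_Gamma0_iff_dvd, hN₁, show ℓ ^ v * N₁ * ℓ = (ℓ ^ v * ℓ) * N₁ by ring, Nat.cast_mul]
      refine IsCoprime.mul_dvd ?_ ?_ ?_
      · exact (hcop.symm).of_isCoprime_of_dvd_right (Int.natCast_dvd_natCast.mpr hN₁M₁)
      · push_cast
        exact f10
      · obtain ⟨k, hk⟩ := hN₁M₁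
        rw [hk] at hx10
        rw [hN'] at hcγ
        refine ⟨k * x10 - ((ℓ ^ v : ℕ) : ℤ) * cγ, ?_⟩
        push_cast at hx10 hcγ ⊢
        linear_combination hx10 - hcγ
    have g1 : ε ∈ Gamma0 N := Gamma0_mul_le N ℓ g0
    refine ⟨mem_GamH.mpr ⟨g1, ?_⟩, g0⟩
    have g2 : dChar N ⟨ε, g1⟩ = (dChar N ⟨γ, hγ0⟩)⁻¹ := by
      rw [eq_inv_iff_mul_eq_one]
      apply Units.ext
      rw [Units.val_mul, Units.val_one, dChar_val, dChar_val]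
      change ((ε 1 1 : ℤ) : ZMod N) * ((γ 1 1 : ℤ) : ZMod N) = 1
      rw [← Int.cast_mul]
      apply intCast_eq_one_of_dvd
      rw [hN']
      refine IsCoprime.mul_dvd ?_ ?_ ?_
      · exact hcop'.of_isCoprime_of_dvd_right (Int.natCast_dvd_natCast.mpr hN₁M₁)
      · obtain ⟨r, hr⟩ := hvv
        rw [hr] at hy11
        rw [hN'] at hw
        refine ⟨r * y11 * γ 1 1 + N₁ * w, ?_⟩
        linear_combination γ 1 1 * hy11 + hw
      · obtain ⟨k, hk⟩ := hN₁M₁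
        rw [hk] at hx11
        rw [hN'] at hcγ
        refine ⟨k * x11 * γ 1 1 + γ 0 1 * ((ℓ ^ v : ℕ) : ℤ) * cγ, ?_⟩
        push_cast at hx11 hcγ ⊢
        linear_combination γ 1 1 * hx11 + hdet + γ 0 1 * hcγ
    rw [g2]
    exact H.inv_mem (mem_GamH.mp hγ).2
  refine ⟨ε, hε, mem_GamH'.mpr ⟨?_, 1, one_mem _, ?_⟩⟩
  · rw [hM', e10]
    refine IsCoprime.mul_dvd hcop' ?_ ?_
    · refine dvd_add (Dvd.dvd.mul_right ?_ _) (Dvd.dvd.mul_left ?_ _)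
      · exact hvN'.trans ⟨cγ, hcγ⟩
      · push_cast
        exact (dvd_mul_right _ _).trans f10
    · refine ⟨γ 1 0 * x00 + γ 1 1 * x10, ?_⟩
      linear_combination γ 1 0 * hx00 + γ 1 1 * hx10
  · symm
    rw [Units.val_one]
    apply intCast_eq_one_of_dvd
    rw [hM', e11]
    refine IsCoprime.mul_dvd hcop' ?_ ?_
    · obtain ⟨r, hr⟩ := hvv
      rw [hr] at hy11
      rw [hN'] at hw hcγ
      refine ⟨N₁ * cγ * ε 0 1 + γ 1 1 * r * y11 + N₁ * w, ?_⟩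
      linear_combination ε 0 1 * hcγ + γ 1 1 * hy11 + hw
    · refine ⟨γ 1 0 * x01 + γ 1 1 * x11, ?_⟩
      linear_combination γ 1 0 * hx01 + γ 1 1 * hx11 + hdet

/-- **Restriction commutes with Hecke operators** at primes `ℓ ∤ M / N`. -/
theorem resH_heckeH {m : ℕ} (hM : M = N * m) (hℓ : ℓ.Prime) (hℓm : ¬ ℓ ∣ m)
    (ψ : GamH N H →* A) : resH h (heckeH N H ℓ ψ) = heckeH M H' ℓ (resH h ψ) := by
  subst hM
  have hm : NeZero m := ⟨fun h0 => NeZero.ne (N * m) (by rw [h0, mul_zero])⟩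
  unfold heckeH resH
  have key : (tr (inclH N H ℓ) (inclH_injective N H ℓ) (ψ.comp (conjH N H ℓ))).comp
      (Subgroup.inclusion h) = tr (inclH (N * m) H' ℓ) (inclH_injective (N * m) H' ℓ)
        ((ψ.comp (conjH N H ℓ)).comp
          (Subgroup.inclusion (GamHl_le_GamHl (ℓ := ℓ) h (dvd_mul_right N m)))) := by
    apply tr_comap
    · intro k
      exact Subtype.ext rfl
    · rintro ⟨γ, hγ⟩ ⟨k, hk⟩ hh
      have h1 : γ = k := congrArg Subtype.val hh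
      subst h1
      refine ⟨⟨γ, hγ, ?_⟩, rfl⟩
      obtain ⟨c, hc⟩ := mem_Gamma0_iff_dvd.mp hk.2
      obtain ⟨c', hc'⟩ := (mem_GamH'.mp hγ).1
      refine mem_Gamma0_iff_dvd.mpr ?_
      have hN0 : (N : ℤ) ≠ 0 := by exact_mod_cast NeZero.ne N
      have h2 : (ℓ : ℤ) * c = m * c' := by
        rw [hc] at hc'
        push_cast at hc'
        apply mul_left_cancel₀ hN0
        linear_combination hc'
      have h3 : (m : ℤ) ∣ c := by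
        have h4 : IsCoprime (m : ℤ) (ℓ : ℤ) :=
          Nat.isCoprime_iff_coprime.mpr (hℓ.coprime_iff_not_dvd.mpr hℓm).symm
        exact h4.dvd_of_dvd_mul_left ⟨c', h2⟩
      obtain ⟨e, he⟩ := h3
      refine ⟨e, ?_⟩
      rw [hc, he]
      push_cast
      ring
    · rintro ⟨g, hg⟩
      obtain ⟨ε, hε, hε'⟩ := exists_mul_mem N m ℓ H hℓ hℓm hg
      refine ⟨⟨g * ε, GamH_mono bot_le hε'⟩, ⟨_, (GamHl N H ℓ).inv_mem hε⟩, ?_⟩
      apply Subtype.ext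
      exact (mul_inv_cancel_right g ε).symm
  rw [key]
  rfl

end Res

end Fermat.Agent.H22
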