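import Fermat.Agent.H22.Ihara6
import Fermat.Agent.H22.Linear

set_option autoImplicit false

noncomputable section

/-! ### Ihara's lemma, part 7: final statements -/

namespace Fermat.Agent.H22

open CongruenceSubgroup Function
open scoped MatrixGroups

section

variable {N ℓ q : ℕ} [NeZero N] {A : Type*} [CommGroup A] (φ : Gamma0 N →* A)

/-- Hecke operators preserve the triviality on unipotent elements. -/
theorem UniEx.heckeChar {φ : Gamma0 N →* A} (h : UniEx φ) [NeZero ℓ] :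
    UniEx (heckeChar N ℓ φ) := by
  intro γ hγ htr
  rw [ex_of_mem _ hγ]
  refine heckeChar_apply_eq_one N ℓ φ ⟨γ, hγ⟩ fun k δ hδ => ?_
  have := h δ δ.2 (by rw [hδ]; exact tr2_pow_eq_two htr k)
  rwa [ex_coe] at this

/-- If `τ` only depends on the lower right entry modulo `N` then `T_ℓ τ = (ℓ+1) τ`. -/
theorem heckeChar_eq_pow [hℓ : Fact ℓ.Prime] [NeZero ℓ] (hℓN : ¬ ℓ ∣ N) (τ : Gamma0 N →* A)
    (h : ∀ γ ∈ Gamma0 N, (N : ℤ) ∣ γ 1 1 - 1 → ex τ γ = 1) :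
    heckeChar N ℓ τ = τ ^ (ℓ + 1) := by
  have key : τ.comp (subDegConj N ℓ) = τ.comp (subGamma N ℓ).subtype := by
    ext γ
    rw [MonoidHom.comp_apply, MonoidHom.comp_apply]
    rw [← mul_inv_eq_one, ← map_inv, ← map_mul]
    have h1 := h ((subDegConj N ℓ γ * ((subGamma N ℓ).subtype γ)⁻¹ : Gamma0 N) : SL(2, ℤ))
      (Subtype.property _) ?_
    · rwa [ex_coe] at h1
    · obtain ⟨i1, i2, i3, i4⟩ := inv_entries ((γ : Gamma0 N) : SL(2, ℤ))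
      have e : ((subDegConj N ℓ γ * ((subGamma N ℓ).subtype γ)⁻¹ : Gamma0 N) : SL(2, ℤ)) 1 1 =
          ((subDegConj N ℓ γ : Gamma0 N) : SL(2, ℤ)) 1 0 * (-((γ : Gamma0 N) : SL(2, ℤ)) 0 1) +
          ((γ : Gamma0 N) : SL(2, ℤ)) 1 1 * ((γ : Gamma0 N) : SL(2, ℤ)) 0 0 := by
        have : ((subDegConj N ℓ γ * ((subGamma N ℓ).subtype γ)⁻¹ : Gamma0 N) : SL(2, ℤ)) =
          ((subDegConj N ℓ γ : Gamma0 N) : SL(2, ℤ)) * (((γ : Gamma0 N) : SL(2, ℤ)))⁻¹ := rfl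
        rw [this, mul_entry, i2, i4]
        rfl
      rw [e]
      obtain ⟨c, hc⟩ := mem_Gamma0_iff_dvd.mp (subDegConj N ℓ γ : Gamma0 N).2
      obtain ⟨c', hc'⟩ := mem_Gamma0_iff_dvd.mp (γ : Gamma0 N).2
      have hdet := det_eq ((γ : Gamma0 N) : SL(2, ℤ))
      rw [hc] at *
      rw [hc'] at hdet
      exact ⟨-c * ((γ : Gamma0 N) : SL(2, ℤ)) 0 1 + ((γ : Gamma0 N) : SL(2, ℤ)) 0 1 * c', by
        linear_combination hdet⟩
  ext g
  rw [heckeChar, key, transfer_eq_prod_out _ g (out_mem g), MonoidHom.pow_apply,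
    ← prod_const_cosets hℓN (τ g)]
  have h2 : ∀ q : Gamma0 N ⧸ subGamma N ℓ,
      (τ.comp (subGamma N ℓ).subtype) ⟨(q.out)⁻¹ * g * (g⁻¹ • q).out, out_mem g q⟩ =
        (τ (q.out))⁻¹ * τ g * τ ((g⁻¹ • q).out) := by
    intro q
    change τ ((q.out)⁻¹ * g * (g⁻¹ • q).out) = _
    rw [map_mul, map_mul, map_inv]
  have h3 : ∏ q : Gamma0 N ⧸ subGamma N ℓ, τ ((g⁻¹ • q).out) =
      ∏ q : Gamma0 N ⧸ subGamma N ℓ, τ (q.out) :=
    Fintype.prod_equiv (MulAction.toPerm g⁻¹) _ _ fun q => rfl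
  rw [Finset.prod_congr rfl fun q _ => h2 q, Finset.prod_mul_distrib, Finset.prod_mul_distrib,
    h3, Finset.prod_inv_distrib, mul_right_comm, inv_mul_cancel, one_mul]

/-- **Ihara's lemma** (non-Eisenstein version), multiplicative form: if `φ` is invariant under
conjugation by `diag(q, 1/q)` and kills unipotents then
`(T_ℓ - (ℓ+1)) (T_ℓ² - (ℓ+1)²) φ = 0`. -/
theorem ihara_mul (hq : q.Prime) (hqN : ¬ q ∣ N) (hU : InvR φ ((q : ℤ) ^ 2)) (hφ : UniEx φ)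
    [hℓ : Fact ℓ.Prime] [NeZero ℓ] (hℓN : ¬ ℓ ∣ N) (hqℓ : q ≠ ℓ)
    (hℓq : ¬ (ℓ : ℤ) ∣ (q : ℤ) ^ 2 - 1) :
    heckeChar N ℓ (heckeChar N ℓ (heckeChar N ℓ φ) * (φ ^ ((ℓ + 1) * (ℓ + 1)))⁻¹) =
      (heckeChar N ℓ (heckeChar N ℓ φ) * (φ ^ ((ℓ + 1) * (ℓ + 1)))⁻¹) ^ (ℓ + 1) := by
  have hℓ2 : ℓ ≠ 2 := by
    rintro rfl
    rcases Nat.even_or_odd q with h | h
    · exact hqℓ ((Nat.prime_dvd_prime_iff_eq Nat.prime_two hq).mp h.two_dvd).symm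
    · obtain ⟨k, hk⟩ := h
      apply hℓq
      rw [hk]
      push_cast
      exact ⟨2 * k * (k + 1), by ring⟩
  apply heckeChar_eq_pow hℓN
  intro γ hγ hd
  have hM : ℓ * deepLevel N ℓ q ≠ 0 := by
    have h1 : ℓ - 1 ≠ 0 := by have := hℓ.out.two_le; omega
    have h2 : q ≠ 0 := hq.ne_zero
    have h3 : N ≠ 0 := NeZero.ne N
    have h4 : ℓ ≠ 0 := hℓ.out.ne_zero
    unfold deepLevel
    positivity
  refine ex_eq_one_of_deep (M := ℓ * deepLevel N ℓ q) hM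
    ((dvd_mul_left _ _).mul_left _) _ ?_ ?_ hγ hd
  · intro g hg
    have hg0 : g ∈ Gamma0 N := by
      have h1 := (mem_Gamma_iff_dvd.mp hg).2.2.1
      exact mem_Gamma0_iff_dvd.mpr ((Int.natCast_dvd_natCast.mpr
        ((dvd_mul_left N (4 * (ℓ - 1) * ℓ * q ^ 2)).mul_left ℓ)).trans h1)
    rw [ex_of_mem _ hg0, MonoidHom.mul_apply, MonoidHom.inv_apply, MonoidHom.pow_apply,
      heckeChar_heckeChar_deep φ hq hqN hU hφ hℓ2 hqℓ hℓN hℓq ⟨g, hg0⟩ hg, ← pow_mul,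
      mul_inv_cancel]
  · intro g hg htr
    have h1 := ((hφ.heckeChar (ℓ := ℓ)).heckeChar (ℓ := ℓ)) g hg htr
    have h2 := hφ g hg htr
    rw [ex_of_mem _ hg] at h1 h2 ⊢
    rw [MonoidHom.mul_apply, MonoidHom.inv_apply, MonoidHom.pow_apply, h2, one_pow, inv_one,
      mul_one]
    exact h1

end

section Swap

variable {N q : ℕ} [NeZero N] [NeZero q] {A : Type*} [CommGroup A]

/-- The relation defining the kernel of the level raising map `(φ₁, φ₂) ↦ φ₁ + φ₂∘(diag(q,1)·)`. -/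
def KerRel (N q : ℕ) [NeZero q] (φ₁ φ₂ : Gamma0 N →* A) : Prop :=
  ∀ γ : Gamma0 (N * q), φ₁ ⟨γ, Gamma0_mul_le N q γ.2⟩ * φ₂ (degConj N q γ) = 1

/-- The swapping trick. -/
theorem KerRel.symm (hq : q.Prime) (hqN : ¬ q ∣ N) {φ₁ φ₂ : Gamma0 N →* A}
    (h : KerRel N q φ₁ φ₂) : KerRel N q φ₂ φ₁ := by
  intro g
  have hq0 : (q : ℤ) ≠ 0 := by exact_mod_cast NeZero.ne q
  obtain ⟨u, v, huv⟩ := Nat.isCoprime_iff_coprime.mpr (hq.coprime_iff_not_dvd.mpr hqN)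
  -- `y = (q, -v; N, u)`, `z = (1, -v; N, q u)`
  let y : SL(2, ℤ) := mkSL q (-v) N u (by linear_combination huv)
  let z : SL(2, ℤ) := mkSL 1 (-v) N (q * u) (by linear_combination huv)
  have hy : y ∈ Gamma0 N := mem_Gamma0_iff_dvd.mpr (dvd_refl _)
  have hz : z ∈ Gamma0 N := mem_Gamma0_iff_dvd.mpr (dvd_refl _)
  set g0 : SL(2, ℤ) := (g : SL(2, ℤ)) with hg0
  have hgN : g0 ∈ Gamma0 N := Gamma0_mul_le N q g.2
  obtain ⟨c, hc⟩ := mem_Gamma0_iff_dvd.mp g.2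
  push_cast at hc
  set M : SL(2, ℤ) := y * g0 * y⁻¹ with hM
  have hMmem : M ∈ Gamma0 N := (Gamma0 N).mul_mem ((Gamma0 N).mul_mem hy hgN) ((Gamma0 N).inv_mem hy)
  obtain ⟨i1, i2, i3, i4⟩ := inv_entries y
  have y00 : y 0 0 = q := rfl
  have y01 : y 0 1 = -v := rfl
  have y10 : y 1 0 = N := rfl
  have y11 : y 1 1 = u := rfl
  have z00 : z 0 0 = 1 := rfl
  have z01 : z 0 1 = -v := rfl
  have z10 : z 1 0 = N := rfl
  have z11 : z 1 1 = q * u := rfl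
  have hM01 : (q : ℤ) ∣ M 0 1 := by
    rw [hM, mul_entry, mul_entry, mul_entry, i2, i4, y00, y01]
    change (q : ℤ) ∣ ((q : ℤ) * g0 0 0 + -v * g0 1 0) * -(-v) + (q * g0 0 1 + -v * g0 1 1) * q
    rw [show g0 1 0 = (N : ℤ) * q * c from hc]
    exact ⟨g0 0 0 * v - v * N * c * v + (q * g0 0 1 + -v * g0 1 1), by ring⟩
  set g2 : SL(2, ℤ) := upSL q M hM01 with hg2
  have hg2mem : g2 ∈ Gamma0 (N * q) := by
    obtain ⟨k, hk⟩ := mem_Gamma0_iff_dvd.mp hMmem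
    refine mem_Gamma0_iff_dvd.mpr ⟨k, ?_⟩
    rw [hg2, upSL_one_zero, hk]
    push_cast
    ring
  have hdeg : degSL q g2 (dvd_of_mem hg2mem) = M := degSL_upSL q M hM01 _
  -- `g2 = z (δ g δ⁻¹) z⁻¹`
  have hrel : g2 = z * degSL q g0 (dvd_of_mem g.2) * z⁻¹ := by
    rw [eq_mul_inv_iff_mul_eq]
    have hMy : M * y = y * g0 := by rw [hM]; group
    have e := fun i j => congrArg (fun x : SL(2, ℤ) => x i j) hMy
    have e00 : M 0 0 * q + M 0 1 * N = q * g0 0 0 + (-v) * g0 1 0 := by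
      have := e 0 0; simp only [mul_entry] at this; exact this
    have e01 : M 0 0 * (-v) + M 0 1 * u = q * g0 0 1 + (-v) * g0 1 1 := by
      have := e 0 1; simp only [mul_entry] at this; exact this
    have e10 : M 1 0 * q + M 1 1 * N = N * g0 0 0 + u * g0 1 0 := by
      have := e 1 0; simp only [mul_entry] at this; exact this
    have e11 : M 1 0 * (-v) + M 1 1 * u = N * g0 0 1 + u * g0 1 1 := by
      have := e 1 1; simp only [mul_entry] at this; exact this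
    obtain ⟨m, hm⟩ := hM01
    obtain ⟨D, hD, D00, D01, D10, D11⟩ : ∃ D : SL(2, ℤ), degSL q g0 (dvd_of_mem g.2) = D ∧
        D 0 0 = g0 0 0 ∧ D 0 1 = q * g0 0 1 ∧ D 1 0 = N * c ∧ D 1 1 = g0 1 1 := by
      refine ⟨_, rfl, rfl, rfl, ?_, rfl⟩
      rw [degSL_one_zero, show g0 1 0 = (q : ℤ) * (N * c) by rw [hg0, hc]; ring,
        Int.mul_ediv_cancel_left _ hq0]
    obtain ⟨U, hU, U00, U01, U10, U11⟩ : ∃ U : SL(2, ℤ), g2 = U ∧
        U 0 0 = M 0 0 ∧ U 0 1 = m ∧ U 1 0 = q * M 1 0 ∧ U 1 1 = M 1 1 := by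
      refine ⟨_, rfl, rfl, ?_, rfl, rfl⟩
      rw [hg2, upSL_zero_one, hm, Int.mul_ediv_cancel_left _ hq0]
    rw [hD, hU]
    clear_value z
    rw [hm] at e00 e01
    have hc' : g0 1 0 = (N : ℤ) * q * c := hc
    rw [hc'] at e00 e10
    apply ext_entries <;> rw [mul_entry, mul_entry]
    · rw [D00, D10, U00, U01, z00, z01, z10]
      apply mul_left_cancel₀ hq0
      linear_combination e00
    · rw [D01, D11, U00, U01, z00, z01, z11]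
      linear_combination e01
    · rw [D00, D10, U10, U11, z00, z10, z11]
      linear_combination e10
    · rw [D01, D11, U10, U11, z01, z10, z11]
      linear_combination (q : ℤ) * e11
  have h1 := h ⟨g2, hg2mem⟩
  have e1 : φ₁ ⟨g2, Gamma0_mul_le N q hg2mem⟩ = φ₁ (degConj N q g) := by
    have h2 := ex_conj φ₁ hz (degSL_mem g.2)
    rw [← ex_of_mem φ₁ (Gamma0_mul_le N q hg2mem), hrel, h2, ex_of_mem φ₁ (degSL_mem g.2)]
    rfl
  have e2 : φ₂ (degConj N q ⟨g2, hg2mem⟩) = φ₂ ⟨g, Gamma0_mul_le N q g.2⟩ := by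
    have h2 := ex_conj φ₂ hy hgN
    rw [← ex_coe φ₂ (degConj N q ⟨g2, hg2mem⟩)]
    change ex φ₂ (degSL q g2 (dvd_of_mem hg2mem)) = _
    rw [hdeg, hM, h2, ex_of_mem φ₂ hgN]
  rw [← e1, ← e2, mul_comm]
  exact h1

theorem KerRel.invR (hq : q.Prime) (hqN : ¬ q ∣ N) {φ₁ φ₂ : Gamma0 N →* A}
    (h : KerRel N q φ₁ φ₂) : InvR φ₁ ((q : ℤ) ^ 2) := by
  have h' := h.symm hq hqN
  have hq0 : (q : ℤ) ≠ 0 := by exact_mod_cast NeZero.ne q
  intro a b c d h1 h2 hc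
  obtain ⟨k, rfl⟩ := hc
  have hm1 : mkSL a b ((q : ℤ) ^ 2 * (N * k)) d h1 ∈ Gamma0 (N * q) := mem_Gamma0_iff_dvd.mpr
    ⟨q * k, by
      change (q : ℤ) ^ 2 * (N * k) = _
      push_cast; ring⟩
  have h3 : a * d - (q : ℤ) * b * (q * (N * k)) = 1 := by linear_combination h1
  have hm2 : mkSL a ((q : ℤ) * b) (q * (N * k)) d h3 ∈ Gamma0 (N * q) := mem_Gamma0_iff_dvd.mpr
    ⟨k, by
      change (q : ℤ) * (N * k) = _
      push_cast; ring⟩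
  have r1 := h ⟨_, hm1⟩
  have r2 := h' ⟨_, hm2⟩
  have e1 : degConj N q ⟨_, hm1⟩ = ⟨_, Gamma0_mul_le N q hm2⟩ := by
    apply Subtype.ext
    apply ext_entries
    · rfl
    · rfl
    · change (q : ℤ) ^ 2 * (N * k) / q = q * (N * k)
      rw [show (q : ℤ) ^ 2 * (N * k) = q * (q * (N * k)) by ring, Int.mul_ediv_cancel_left _ hq0]
    · rfl
  have hm3 : mkSL a ((q : ℤ) ^ 2 * b) (N * k) d h2 ∈ Gamma0 N :=
    mem_Gamma0_iff_dvd.mpr (dvd_mul_right _ _)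
  have e2 : degConj N q ⟨_, hm2⟩ = ⟨_, hm3⟩ := by
    apply Subtype.ext
    apply ext_entries
    · rfl
    · change (q : ℤ) * (q * b) = (q : ℤ) ^ 2 * b
      ring
    · change (q : ℤ) * (N * k) / q = N * k
      rw [Int.mul_ediv_cancel_left _ hq0]
    · rfl
  rw [e1] at r1
  rw [e2] at r2
  rw [ex_of_mem φ₁ (Gamma0_mul_le N q hm1), ex_of_mem φ₁ hm3]
  have r3 : φ₂ ⟨_, Gamma0_mul_le N q hm2⟩ * φ₁ ⟨_, Gamma0_mul_le N q hm1⟩ = 1 := by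
    rw [mul_comm]; exact r1
  exact mul_left_cancel (r3.trans r2.symm)

/-- **Ihara's lemma** for the kernel of the level raising map. -/
theorem KerRel.ihara {φ₁ φ₂ : Gamma0 N →* A} (h : KerRel N q φ₁ φ₂) (hq : q.Prime)
    (hqN : ¬ q ∣ N) (h₁ : UniEx φ₁) {ℓ : ℕ} [hℓ : Fact ℓ.Prime] [NeZero ℓ] (hℓN : ¬ ℓ ∣ N)
    (hqℓ : q ≠ ℓ) (hℓq : ¬ (ℓ : ℤ) ∣ (q : ℤ) ^ 2 - 1) :
    heckeChar N ℓ (heckeChar N ℓ (heckeChar N ℓ φ₁) * (φ₁ ^ ((ℓ + 1) * (ℓ + 1)))⁻¹) =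
      (heckeChar N ℓ (heckeChar N ℓ φ₁) * (φ₁ ^ ((ℓ + 1) * (ℓ + 1)))⁻¹) ^ (ℓ + 1) :=
  ihara_mul φ₁ hq hqN (h.invR hq hqN) h₁ hℓN hqℓ hℓq

end Swap

section Linear

variable (R : Type*) [CommRing R] (N : ℕ) [NeZero N] (A : Type*) [AddCommGroup A] [Module R A]

/-- Additive characters killing all unipotents of `Γ₀(N)`. -/
def uniHoms : Submodule R (Additive (Gamma0 N) →+ A) where
  carrier := {φ | ∀ γ : Gamma0 N, tr2 (γ : SL(2, ℤ)) = 2 → φ (Additive.ofMul γ) = 0}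
  zero_mem' := fun _ _ => rfl
  add_mem' := fun {a b} ha hb γ hγ => by
    rw [AddMonoidHom.add_apply, ha γ hγ, hb γ hγ, add_zero]
  smul_mem' := fun r a ha γ hγ => by
    rw [AddMonoidHom.smul_apply, ha γ hγ, smul_zero]

variable {R N A}

theorem mem_uniHoms {φ : Additive (Gamma0 N) →+ A} : φ ∈ uniHoms R N A ↔
    ∀ γ : Gamma0 N, tr2 (γ : SL(2, ℤ)) = 2 → φ (Additive.ofMul γ) = 0 := Iff.rfl

theorem uniEx_of_mem {φ : Additive (Gamma0 N) →+ A} (h : φ ∈ uniHoms R N A) :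
    UniEx φ.toMultiplicativeRight := by
  intro γ hγ htr
  rw [ex_of_mem _ hγ]
  exact h ⟨γ, hγ⟩ htr

/-- Hecke operators preserve `uniHoms`. -/
theorem heckeLin_mem_uniHoms {φ : Additive (Gamma0 N) →+ A} (h : φ ∈ uniHoms R N A) (ℓ : ℕ)
    [NeZero ℓ] : heckeLin R N A ℓ φ ∈ uniHoms R N A := by
  intro γ hγ
  have := (uniEx_of_mem h).heckeChar (ℓ := ℓ) γ γ.2 hγ
  rw [ex_coe] at this
  exact this

/-- **Ihara's lemma**, linear form: `(T_ℓ - (ℓ+1)) (T_ℓ² - (ℓ+1)²) φ₁ = 0` for `(φ₁, φ₂)` in the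
kernel of the level raising map at `q`. -/
theorem ihara_lin {q : ℕ} [NeZero q] (hq : q.Prime) (hqN : ¬ q ∣ N)
    {φ₁ φ₂ : Additive (Gamma0 N) →+ A} (h₁ : φ₁ ∈ uniHoms R N A)
    (h : ∀ γ : Gamma0 (N * q), φ₁ (Additive.ofMul ⟨γ, Gamma0_mul_le N q γ.2⟩) +
      φ₂ (Additive.ofMul (degConj N q γ)) = 0)
    {ℓ : ℕ} [NeZero ℓ] (hℓ : ℓ.Prime) (hℓN : ¬ ℓ ∣ N) (hqℓ : q ≠ ℓ)
    (hℓq : ¬ (ℓ : ℤ) ∣ (q : ℤ) ^ 2 - 1) :
    ((heckeLin R N A ℓ - algebraMap R _ ((ℓ : R) + 1)) *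
      (heckeLin R N A ℓ * heckeLin R N A ℓ - algebraMap R _ (((ℓ : R) + 1) ^ 2))) φ₁ = 0 := by
  have : Fact ℓ.Prime := ⟨hℓ⟩
  have hK : KerRel N q φ₁.toMultiplicativeRight φ₂.toMultiplicativeRight := fun γ => h γ
  have key := hK.ihara hq hqN (uniEx_of_mem h₁) hℓN hqℓ hℓq
  have key' := congrArg MonoidHom.toAdditiveLeft key
  set T := heckeLin R N A ℓ with hT
  have e1 : ∀ (n : ℕ) (ψ : Additive (Gamma0 N) →+ A),
      algebraMap R (Module.End R (Additive (Gamma0 N) →+ A)) (n : R) ψ = n • ψ := by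
    intro n ψ
    rw [Module.algebraMap_end_apply, Nat.cast_smul_eq_nsmul]
  have e2 : ((ℓ : R) + 1) = ((ℓ + 1 : ℕ) : R) := by push_cast; rfl
  have e3 : (((ℓ : R) + 1) ^ 2) = (((ℓ + 1) * (ℓ + 1) : ℕ) : R) := by push_cast; ring
  rw [Module.End.mul_apply, LinearMap.sub_apply, LinearMap.sub_apply, Module.End.mul_apply, e3,
    e2, e1, e1, sub_eq_zero, sub_eq_add_neg]
  exact key'

end Linear

end Fermat.Agent.H22
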