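import Fermat.Agent.H22.NewformC
import Fermat.Agent.H22.IntCoeff

/-!
# Newforms attached to eigenclasses with character (C3), coefficients in a field `K`
-/

set_option autoImplicit false

noncomputable section

namespace Fermat.Agent.H22

open Matrix.SpecialLinearGroup CongruenceSubgroup ModularForm ModularCurve
open Fermat.Agent.TC
open ModularFormClass (qCoeff)
open scoped MatrixGroups

section Transfer

variable {F K : Type*} [Field F] [Field K] (i : F →+* K)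

theorem dia_map {N : ℕ} [NeZero N] {H : Subgroup (ZMod N)ˣ} (g : Gamma0 N)
    (φ : HM (GamH N H) F) : dia K N H K g (i.toAddMonoidHom.comp φ) =
      i.toAddMonoidHom.comp (dia F N H F g φ) := rfl

theorem smul_map {Γ : Subgroup SL(2, ℤ)} (c : F) (φ : HM Γ F) :
    i.toAddMonoidHom.comp (c • φ) = i c • i.toAddMonoidHom.comp φ := by
  refine AddMonoidHom.ext fun γ => ?_
  change i (c * φ γ) = i c * i (φ γ)
  rw [map_mul]

theorem comp_injective {Γ : Subgroup SL(2, ℤ)} :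
    Function.Injective fun φ : HM Γ F => i.toAddMonoidHom.comp φ := by
  intro φ φ' h
  refine AddMonoidHom.ext fun γ => ?_
  exact i.injective (DFunLike.congr_fun h γ)

theorem mem_psiPart_map {N Q : ℕ} [NeZero N] {H : Subgroup (ZMod N)ˣ} {w : MulChar (ZMod Q) F}
    {φ : HM (GamH N H) F} :
    i.toAddMonoidHom.comp φ ∈ psiPart N Q H (w.ringHomComp i) ↔ φ ∈ psiPart N Q H w := by
  rw [mem_psiPart, mem_psiPart]
  refine forall_congr' fun g => ?_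
  have h1 : dia K N H K g (i.toAddMonoidHom.comp φ) =
      (w.ringHomComp i) (((g : SL(2, ℤ)) 1 1 : ℤ) : ZMod Q) ^ 2 • i.toAddMonoidHom.comp φ ↔
      i.toAddMonoidHom.comp (dia F N H F g φ) =
        i.toAddMonoidHom.comp (w (((g : SL(2, ℤ)) 1 1 : ℤ) : ZMod Q) ^ 2 • φ) := by
    rw [smul_map, map_pow, dia_map]
    rfl
  rw [h1]
  exact ⟨fun h => comp_injective i h, fun h => by rw [h]⟩

theorem NT_map {Q : ℕ} {w : MulChar (ZMod Q) F} : NT Q (w.ringHomComp i) ↔ NT Q w := by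
  unfold NT
  refine forall_congr' fun q => forall_congr' fun _ => forall_congr' fun b =>
    forall_congr' fun _ => exists_congr fun u => and_congr_right fun _ => and_congr ?_ ?_
  · rw [MulChar.ringHomComp_apply, Ne, map_eq_zero]
  · rw [MulChar.ringHomComp_apply, ← map_pow, Ne, ← map_one i]
    exact not_congr i.injective.eq_iff

theorem TH_eig_map {N : ℕ} [NeZero N] {H : Subgroup (ZMod N)ˣ} {φ : HM (GamH N H) F} (ℓ : ℕ)
    [NeZero ℓ] (a : F) :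
    TH K N H K ℓ (i.toAddMonoidHom.comp φ) = i a • i.toAddMonoidHom.comp φ ↔
      TH F N H F ℓ φ = a • φ := by
  rw [TH_map (R := F) i.toAddMonoidHom ℓ φ, ← smul_map]
  exact ⟨fun h => comp_injective i h, fun h => by rw [h]⟩

end Transfer

section Complex

/-- **(C3) over `ℂ`.** -/
theorem exists_newform_complex {N Q M' : ℕ} [NeZero N] [NeZero Q] (hN : N = Q * M')
    (hsq : Squarefree Q) (hcop : Nat.Coprime Q M') {H : Subgroup (ZMod N)ˣ}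
    {w : MulChar (ZMod Q) ℂ} (hw : NT Q w) {φ : HM (GamH N H) ℂ} (hφ0 : φ ≠ 0)
    (hφ : φ ∈ psiPart N Q H w) {D : ℕ} (hD : D ≠ 0) {a : ℕ → ℂ}
    (hT : ∀ (ℓ : ℕ) [NeZero ℓ], ℓ.Prime → ¬ ℓ ∣ N → ¬ ℓ ∣ D → TH ℂ N H ℂ ℓ φ = a ℓ • φ)
    (hE : ∃ ℓ : ℕ, ℓ.Prime ∧ ((N * Q : ℕ) : ℤ) ∣ (ℓ : ℤ) - 1 ∧ ¬ ℓ ∣ D ∧ a ℓ ≠ ℓ + 1) :
    ∃ (N0 : ℕ) (_ : NeZero N0) (g : CuspForm (Gamma0 N0) 2), g.IsNewform ∧ N0 ∣ N * Q ∧
      (∀ ℓ : ℕ, ℓ.Prime → ¬ ℓ ∣ N → ¬ ℓ ∣ D → qCoeff g ℓ = w ((ℓ : ℕ) : ZMod Q) * a ℓ) ∧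
      ∀ q : ℕ, q.Prime → q ∣ Q → q * q ∣ N0 := by
  have : NeZero (N * Q) := ⟨mul_ne_zero (NeZero.ne N) (NeZero.ne Q)⟩
  obtain ⟨R, hR, hRg⟩ := exists_twistR hN hsq hcop H hw
  obtain ⟨h, hh⟩ : ∃ h, h = R ⟨φ, hφ⟩ := ⟨_, rfl⟩
  have hg : germ ℂ h = rw' Q w (germ ℂ φ) := by rw [hh]; exact hRg _
  have h0 : h ≠ 0 := by
    intro h0
    apply hφ0
    have : (⟨φ, hφ⟩ : psiPart N Q H w) = 0 := hR (by rw [← hh, h0, map_zero])
    exact congrArg Subtype.val this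
  have hQN : Q ∣ N := by rw [hN]; exact dvd_mul_right _ _
  have hnd : ∀ ℓ : ℕ, ℓ.Prime → ¬ ℓ ∣ N → ¬ ℓ ∣ N * Q := fun ℓ hℓ h1 h2 => by
    rcases hℓ.dvd_mul.mp h2 with h2 | h2
    · exact h1 h2
    · exact h1 (h2.trans hQN)
  have key : ∀ (ℓ : ℕ) [Fact ℓ.Prime], ¬ ℓ ∣ N * Q → ¬ ℓ ∣ D →
      act ℂ (del ℓ) (germ ℂ h) + Up ℓ (germ ℂ h) =
        (w ((ℓ : ℕ) : ZMod Q) * a ℓ) • germ ℂ h := by
    intro ℓ hℓ hℓN hℓD
    have : NeZero ℓ := ⟨hℓ.out.ne_zero⟩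
    have hℓN' : ¬ ℓ ∣ N := fun hh => hℓN (hh.mul_right Q)
    have h1 := twistR_hecke hQN hφ hg hℓN'
    rw [hT ℓ hℓ.out hℓN' hℓD, map_smul, rw'_smul, smul_smul, ← hg,
      heckeLin_eq_starLin hℓN, germ_star_of_not_dvd hℓN] at h1
    exact h1
  obtain ⟨N0, hN0, g, h1, h2, h3, h4⟩ := exists_newform_of_hom hD h0 key (by
    obtain ⟨ℓ, hℓ, hℓ1, hℓD, hne⟩ := hE
    refine ⟨ℓ, hℓ, hℓ1, hℓD, ?_⟩
    have : ((ℓ : ℕ) : ZMod Q) = 1 := by
      have h2 : (Q : ℤ) ∣ (ℓ : ℤ) - 1 :=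
        (Int.natCast_dvd_natCast.mpr (dvd_mul_left Q N)).trans hℓ1
      rw [← ZMod.intCast_zmod_eq_zero_iff_dvd] at h2
      push_cast at h2
      exact sub_eq_zero.mp h2
    rw [this, map_one, one_mul]
    exact hne)
  refine ⟨N0, hN0, g, h1, h2, fun ℓ hℓ hℓN hℓD => h3 ℓ hℓ (hnd ℓ hℓ hℓN) hℓD,
    fun q hq hqQ => ?_⟩
  obtain ⟨b, hb⟩ := hqQ
  have : Fact q.Prime := ⟨hq⟩
  have hSI : SI (Q * M') (fun d => w (d : ZMod Q) ^ 2) (germ ℂ φ) := by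
    rw [← hN]; exact SI_of_psiPart hφ
  obtain ⟨h5, h6⟩ := (hSI.twist_all hsq hcop hw).2.2 q b hb
  have hqb : Nat.Coprime q b := Nat.coprime_of_squarefree_mul (hb ▸ hsq)
  refine h4 q (b * b * M') hq ?_ ?_ (by rw [hg]; exact h5) ?_
  · rw [hN, hb]; ring
  · refine (hqb.mul_right hqb).mul_right ?_
    rw [hb] at hcop
    exact hcop.coprime_mul_right
  · obtain ⟨ε, hε, h7⟩ := h6
    exact ⟨ε, hε, by rw [hg]; exact h7⟩

end Complex

/-- **(C3).** A non-Eisenstein eigenclass on `Γ_H(N)` with coefficients in an algebraically closed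
field of characteristic zero and with character `w ^ 2`, all of whose components at the primes
dividing `Q` are nontrivial, comes from a newform with trivial character. -/
theorem exists_newform {N Q M' : ℕ} [NeZero N] [NeZero Q] (hN : N = Q * M')
    (hsq : Squarefree Q) (hcop : Nat.Coprime Q M') {H : Subgroup (ZMod N)ˣ}
    {K : Type*} [Field K] [IsAlgClosed K] [CharZero K]
    {w : MulChar (ZMod Q) K} (hw : NT Q w) {φ : HM (GamH N H) K} (hφ0 : φ ≠ 0)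
    (hφ : φ ∈ psiPart N Q H w) {D : ℕ} (hD : D ≠ 0) {a : ℕ → K}
    (hT : ∀ (ℓ : ℕ) [NeZero ℓ], ℓ.Prime → ¬ ℓ ∣ N → ¬ ℓ ∣ D → TH K N H K ℓ φ = a ℓ • φ)
    (hE : ∃ ℓ : ℕ, ℓ.Prime ∧ ((N * Q : ℕ) : ℤ) ∣ (ℓ : ℤ) - 1 ∧ ¬ ℓ ∣ D ∧ a ℓ ≠ ℓ + 1) :
    ∃ (N0 : ℕ) (_ : NeZero N0) (g : CuspForm (Gamma0 N0) 2) (τ : integralClosure ℤ ℂ →+* K),
      g.IsNewform ∧ N0 ∣ N * Q ∧
      (∀ ℓ : ℕ, ℓ.Prime → ¬ ℓ ∣ N → ¬ ℓ ∣ D → ∃ x : integralClosure ℤ ℂ,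
        (x : ℂ) = qCoeff g ℓ ∧ τ x = w ((ℓ : ℕ) : ZMod Q) * a ℓ) ∧
      ∀ q : ℕ, q.Prime → q ∣ Q → q * q ∣ N0 := by
  classical
  obtain ⟨x0, hx0⟩ : ∃ x0, φ x0 ≠ 0 := by
    by_contra hc
    push Not at hc
    exact hφ0 (AddMonoidHom.ext hc)
  let S : Set K := Set.range φ ∪ Set.range w
  have hcount : Countable (Additive (GamH N H)) := by
    have : Countable (Matrix (Fin 2) (Fin 2) ℤ) := inferInstanceAs (Countable (Fin 2 → Fin 2 → ℤ))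
    have : Countable SL(2, ℤ) := Subtype.countable
    have h2 : Countable (GamH N H) := Subtype.countable
    exact h2
  have hS : S.Countable := (Set.countable_range φ).union (Set.countable_range w)
  let F : Subfield K := Subfield.closure S
  have hF : Countable F := by
    rw [← Cardinal.mk_le_aleph0_iff]
    refine (Subfield.cardinalMk_closure_le_max S).trans (max_le ?_ le_rfl)
    exact Cardinal.le_aleph0_iff_set_countable.mpr hS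
  obtain ⟨j⟩ := exists_embedding_complex F
  let i : F →+* K := F.subtype
  have hmemφ : ∀ x, φ x ∈ F := fun x => Subfield.subset_closure (Or.inl ⟨x, rfl⟩)
  have hmemw : ∀ u, w u ∈ F := fun u => Subfield.subset_closure (Or.inr ⟨u, rfl⟩)
  let φ0 : HM (GamH N H) F := AddMonoidHom.mk' (fun x => ⟨φ x, hmemφ x⟩) fun x y =>
    Subtype.ext (map_add φ x y)
  let w0 : MulChar (ZMod Q) F :=
    { toFun := fun u => ⟨w u, hmemw u⟩
      map_one' := Subtype.ext (map_one w)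
      map_mul' := fun x y => Subtype.ext (map_mul w x y)
      map_nonunit' := fun u hu => Subtype.ext (w.map_nonunit hu) }
  have hφi : i.toAddMonoidHom.comp φ0 = φ := AddMonoidHom.ext fun _ => rfl
  have hwi : w0.ringHomComp i = w := MulChar.ext fun _ => rfl
  have hw0 : NT Q w0 := (NT_map i).mp (by rw [hwi]; exact hw)
  have hφ0' : φ0 ∈ psiPart N Q H w0 := (mem_psiPart_map i).mp (by rw [hwi, hφi]; exact hφ)
  have hx0' : φ0 x0 ≠ 0 := fun h => hx0 (congrArg Subtype.val h)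
  -- the eigenvalues are in `F`
  let a0 : ℕ → F := fun ℓ => if h : ℓ = 0 then 0 else
    haveI : NeZero ℓ := ⟨h⟩
    TH F N H F ℓ φ0 x0 / φ0 x0
  have ha0 : ∀ (ℓ : ℕ) [NeZero ℓ], ℓ.Prime → ¬ ℓ ∣ N → ¬ ℓ ∣ D →
      i (a0 ℓ) = a ℓ ∧ TH F N H F ℓ φ0 = a0 ℓ • φ0 := by
    intro ℓ _ hℓ hℓN hℓD
    have h1 := hT ℓ hℓ hℓN hℓD
    have h2 : TH K N H K ℓ φ = i.toAddMonoidHom.comp (TH F N H F ℓ φ0) := by
      rw [← hφi, TH_map (R := F) i.toAddMonoidHom ℓ φ0]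
    have h3 : i (TH F N H F ℓ φ0 x0) = a ℓ * φ x0 := by
      have := DFunLike.congr_fun (h2.symm.trans h1) x0
      exact this
    have h4 : i (a0 ℓ) = a ℓ := by
      have h5 : a0 ℓ = TH F N H F ℓ φ0 x0 / φ0 x0 := dif_neg hℓ.ne_zero
      rw [h5, map_div₀, h3]
      exact mul_div_cancel_right₀ _ hx0
    refine ⟨h4, (TH_eig_map i ℓ (a0 ℓ)).mp ?_⟩
    rw [hφi, h4]
    exact h1
  have hφj0 : j.toAddMonoidHom.comp φ0 ≠ 0 := fun h => hx0' (j.injective (by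
    rw [map_zero]; exact DFunLike.congr_fun h x0))
  obtain ⟨N0, hN0, g, h1, h2, h3, h4⟩ := exists_newform_complex hN hsq hcop
    (w := w0.ringHomComp j) ((NT_map j).mpr hw0) hφj0 ((mem_psiPart_map j).mpr hφ0') hD
    (a := fun ℓ => j (a0 ℓ))
    (fun ℓ _ hℓ hℓN hℓD => (TH_eig_map j ℓ (a0 ℓ)).mpr (ha0 ℓ hℓ hℓN hℓD).2) (by
      obtain ⟨ℓ, hℓ, hℓ1, hℓD, hne⟩ := hE
      have : NeZero ℓ := ⟨hℓ.ne_zero⟩
      have hℓN : ¬ ℓ ∣ N := fun hh => by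
        have h1 : (ℓ : ℤ) ∣ (ℓ : ℤ) - 1 :=
          (Int.natCast_dvd_natCast.mpr (hh.mul_right Q)).trans hℓ1
        have h2 : (ℓ : ℤ) ∣ 1 := by
          have := dvd_sub (dvd_refl (ℓ : ℤ)) h1
          simpa using this
        have h3 : ℓ ∣ 1 := by exact_mod_cast h2
        exact hℓ.one_lt.ne' (Nat.dvd_one.mp h3)
      refine ⟨ℓ, hℓ, hℓ1, hℓD, fun h => hne ?_⟩
      rw [← (ha0 ℓ hℓ hℓN hℓD).1]
      have h5 : a0 ℓ = (ℓ : F) + 1 := j.injective (by rw [h]; simp)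
      rw [h5]
      simp)
  obtain ⟨τ, hτ⟩ := exists_tau i j
  refine ⟨N0, hN0, g, τ, h1, h2, fun ℓ hℓ hℓN hℓD => ?_, h4⟩
  have : NeZero ℓ := ⟨hℓ.ne_zero⟩
  have h5 := h3 ℓ hℓ hℓN hℓD
  refine ⟨⟨qCoeff g ℓ, ?_⟩, rfl, ?_⟩
  · exact isIntegral_qCoeff_prime h1.1 hℓ
  · rw [hτ (w0 ((ℓ : ℕ) : ZMod Q) * a0 ℓ) _ (by
      rw [map_mul]; exact h5), map_mul, (ha0 ℓ hℓ hℓN hℓD).1]
    rfl

end Fermat.Agent.H22
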