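import Mathlib

/-!
# Embeddings of countable fields in `ℂ`
-/

set_option autoImplicit false

noncomputable section

namespace Fermat.Agent.H22

open Cardinal

theorem exists_embedding_complex (F : Type*) [Field F] [CharZero F] [Countable F] :
    Nonempty (F →+* ℂ) := by
  obtain ⟨s, hs⟩ := exists_isTranscendenceBasis ℤ F
  obtain ⟨t, ht⟩ := exists_isTranscendenceBasis ℤ ℂ
  have hC : ℵ₀ < #ℂ := by rw [Cardinal.mk_complex]; exact Cardinal.aleph0_lt_continuum
  have h1 := IsAlgClosed.cardinal_eq_cardinal_transcendence_basis_of_aleph0_lt' _ ht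
    (le_of_eq Cardinal.mk_int) hC
  have : Infinite t := by
    rw [Cardinal.infinite_iff, ← h1]
    exact hC.le
  obtain ⟨f, hf⟩ := Countable.exists_injective_nat s
  let e : s → t := fun i => Infinite.natEmbedding t (f i)
  have he : Function.Injective e := (Infinite.natEmbedding t).injective.comp hf
  let R := Algebra.adjoin ℤ (Set.range ((↑) : s → F))
  let g : R →+* ℂ := ((MvPolynomial.aeval (R := ℤ) fun i : s => ((e i : t) : ℂ)).comp
    (hs.1.aevalEquiv.symm : R →ₐ[ℤ] MvPolynomial s ℤ)).toRingHom
  have hg : Function.Injective g := by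
    have h2 : AlgebraicIndependent ℤ fun i : s => ((e i : t) : ℂ) := ht.1.comp e he
    have h3 : Function.Injective (MvPolynomial.aeval (R := ℤ) fun i : s => ((e i : t) : ℂ)) := h2
    intro a b hab
    exact hs.1.aevalEquiv.symm.injective (h3 hab)
  let _ : Algebra R ℂ := g.toAlgebra
  have hinst : Algebra.IsAlgebraic R F := hs.isAlgebraic
  have : FaithfulSMul R ℂ := (faithfulSMul_iff_algebraMap_injective R ℂ).mpr hg
  have : FaithfulSMul R F := (faithfulSMul_iff_algebraMap_injective R F).mpr
    Subtype.val_injective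
  exact ⟨(IsAlgClosed.lift (R := R) (S := F) (M := ℂ)).toRingHom⟩

/-- Given an embedding of a field `F` in an algebraically closed field `K` of characteristic zero
and in `ℂ`, there is a compatible map from the ring of algebraic integers to `K`. -/
theorem exists_tau {F K : Type*} [Field F] [Field K] [IsAlgClosed K] (i : F →+* K)
    (j : F →+* ℂ) : ∃ τ : integralClosure ℤ ℂ →+* K, ∀ (x : F) (y : integralClosure ℤ ℂ),
      (y : ℂ) = j x → τ y = i x := by
  let _ : Algebra F K := i.toAlgebra
  let _ : Algebra F ℂ := j.toAlgebra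
  let E := algebraicClosure F ℂ
  let L : E →ₐ[F] K := IsAlgClosed.lift
  have hmem : ∀ y : integralClosure ℤ ℂ, (y : ℂ) ∈ E := fun y => by
    have h1 : IsIntegral ℤ (y : ℂ) := y.2
    have h2 : IsIntegral F (y : ℂ) := by
      obtain ⟨p, hp, hp2⟩ := h1
      refine ⟨p.map (Int.castRingHom F), hp.map _, ?_⟩
      rw [Polynomial.eval₂_map]
      have : (algebraMap F ℂ).comp (Int.castRingHom F) = algebraMap ℤ ℂ :=
        RingHom.ext_int _ _
      rw [this]
      exact hp2
    exact (mem_algebraicClosure_iff).mpr h2.isAlgebraic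
  let c : integralClosure ℤ ℂ →+* E :=
    { toFun := fun y => ⟨y, hmem y⟩
      map_one' := rfl
      map_mul' := fun _ _ => rfl
      map_zero' := rfl
      map_add' := fun _ _ => rfl }
  refine ⟨L.toRingHom.comp c, fun x y hxy => ?_⟩
  have h1 : c y = algebraMap F E x := Subtype.ext hxy
  change L (c y) = i x
  rw [h1, L.commutes]
  rfl

end Fermat.Agent.H22
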