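import Fermat.Agent.H22.CxEmb

/-!
# Embeddings of countable fields in `ℂ`, relative version
-/

set_option autoImplicit false

noncomputable section

namespace Fermat.Agent.H22

open Cardinal

/-- Relative version of `exists_embedding_complex`. -/
theorem exists_embedding_complex_rel (A : Type) [CommRing A] [IsDomain A] [CharZero A]
    [Countable A] [Algebra A ℂ] [FaithfulSMul A ℂ] (F : Type*) [Field F] [Countable F]
    [Algebra A F] [FaithfulSMul A F] : Nonempty (F →ₐ[A] ℂ) := by
  obtain ⟨s, hs⟩ := exists_isTranscendenceBasis A F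
  obtain ⟨t, ht⟩ := exists_isTranscendenceBasis A ℂ
  have hC : ℵ₀ < #ℂ := by rw [Cardinal.mk_complex]; exact Cardinal.aleph0_lt_continuum
  have h1 := IsAlgClosed.cardinal_eq_cardinal_transcendence_basis_of_aleph0_lt' _ ht
    (Cardinal.mk_le_aleph0_iff.mpr inferInstance) hC
  have : Infinite t := by
    rw [Cardinal.infinite_iff, ← h1]
    exact hC.le
  obtain ⟨f, hf⟩ := Countable.exists_injective_nat s
  let e : s → t := fun i => Infinite.natEmbedding t (f i)
  have he : Function.Injective e := (Infinite.natEmbedding t).injective.comp hf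
  let R := Algebra.adjoin A (Set.range ((↑) : s → F))
  let g : R →ₐ[A] ℂ := (MvPolynomial.aeval (R := A) fun i : s => ((e i : t) : ℂ)).comp
    (hs.1.aevalEquiv.symm : R →ₐ[A] MvPolynomial s A)
  have hg : Function.Injective g := by
    have h2 : AlgebraicIndependent A fun i : s => ((e i : t) : ℂ) := ht.1.comp e he
    have h3 : Function.Injective (MvPolynomial.aeval (R := A) fun i : s => ((e i : t) : ℂ)) := h2
    intro a b hab
    exact hs.1.aevalEquiv.symm.injective (h3 hab)
  let _ : Algebra R ℂ := g.toRingHom.toAlgebra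
  have hinst : Algebra.IsAlgebraic R F := hs.isAlgebraic
  have : FaithfulSMul R ℂ := (faithfulSMul_iff_algebraMap_injective R ℂ).mpr hg
  have : FaithfulSMul R F := (faithfulSMul_iff_algebraMap_injective R F).mpr
    Subtype.val_injective
  have : IsScalarTower A R ℂ := IsScalarTower.of_algebraMap_eq fun x => (g.commutes x).symm
  exact ⟨(IsAlgClosed.lift (R := R) (S := F) (M := ℂ)).restrictScalars A⟩

theorem countable_integralClosure : Countable (integralClosure ℤ ℂ) := by
  have h : {x : ℂ | IsAlgebraic ℤ x}.Countable := Algebraic.countable ℤ ℂ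
  have h2 : ((integralClosure ℤ ℂ : Subalgebra ℤ ℂ) : Set ℂ) ⊆ {x : ℂ | IsAlgebraic ℤ x} :=
    fun x hx => (show IsIntegral ℤ x from hx).isAlgebraic
  exact (h.mono h2).to_subtype

theorem tau_injective {K : Type*} [Field K] [CharZero K] (τ : integralClosure ℤ ℂ →+* K) :
    Function.Injective τ := by
  rw [injective_iff_map_eq_zero]
  intro x hx
  by_contra hx0
  have hint : Algebra.IsIntegral ℤ (integralClosure ℤ ℂ) := inferInstance
  have hP : (RingHom.ker τ).IsPrime := RingHom.ker_isPrime τ
  have h1 : Ideal.comap (algebraMap ℤ (integralClosure ℤ ℂ)) (RingHom.ker τ) = ⊥ := by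
    rw [eq_bot_iff]
    intro n hn
    rw [Ideal.mem_comap, RingHom.mem_ker] at hn
    have h2 : τ (algebraMap ℤ (integralClosure ℤ ℂ) n) = (n : K) := by
      rw [show τ (algebraMap ℤ (integralClosure ℤ ℂ) n) =
        (τ.comp (algebraMap ℤ (integralClosure ℤ ℂ))) n from rfl]
      exact eq_intCast _ n
    rw [h2] at hn
    rw [Ideal.mem_bot]
    exact_mod_cast hn
  have h3 := Ideal.eq_bot_of_comap_eq_bot (R := ℤ) (S := integralClosure ℤ ℂ) h1
  have h4 : x ∈ RingHom.ker τ := hx
  rw [h3, Ideal.mem_bot] at h4
  exact hx0 h4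

end Fermat.Agent.H22
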