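import Fermat.Agent.H22.TwistC

/-!
# Descent for germs of homomorphisms
-/

set_option autoImplicit false

noncomputable section

namespace Fermat.Agent.H22

open Matrix.SpecialLinearGroup CongruenceSubgroup
open Fermat.Agent.TC
open scoped MatrixGroups

section Descend

variable {K : Type*} [Field K]

theorem germ_res {Γ Γ' : Subgroup SL(2, ℤ)} (h : Γ' ≤ Γ) (hΓ : IsCong Γ) (hΓ' : IsCong Γ')
    (φ : HM Γ K) : germ K (res K K h φ) = germ K φ := by
  rw [germ_rep hΓ hΓ' (rep_res (A := K) (R := K) h) φ]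
  simp [act_one]

/-- The germ comes from a homomorphism on some congruence subgroup. -/
def IsH (v : HG K) : Prop := ∃ n : ℕ, 0 < n ∧ ∃ φ : HM (Gamma n) K, germ K φ = v

theorem IsH.of_germ {Γ : Subgroup SL(2, ℤ)} (hΓ : IsCong Γ) (φ : HM Γ K) : IsH (germ K φ) := by
  obtain ⟨n, hn, hnΓ⟩ := hΓ
  exact ⟨n, hn, res K K hnΓ φ, germ_res hnΓ ⟨n, hn, hnΓ⟩ (isCong_Gamma hn) φ⟩

theorem IsH.act {v : HG K} (hv : IsH v) (g : GG) : IsH (act K g v) := by
  obtain ⟨n, hn, φ, rfl⟩ := hv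
  obtain ⟨m, hm, h⟩ := exists_conj_mem g hn
  choose δ hδ hδ2 using h
  let f : Gamma m →* Gamma n :=
    { toFun := fun γ => ⟨δ γ γ.2, hδ γ γ.2⟩
      map_one' := by
        apply Subtype.ext
        apply emb_injective
        change emb (δ 1 _) = emb 1
        rw [← hδ2, map_one]
        group
      map_mul' := fun x y => by
        apply Subtype.ext
        apply emb_injective
        change emb (δ (x * y) _) = emb (δ x _ * δ y _)
        rw [map_mul, ← hδ2, ← hδ2, ← hδ2, map_mul]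
        group }
  refine ⟨m, hm, φ.comp (MonoidHom.toAdditive f), ?_⟩
  refine germ_eq_act φ _ g ⟨m, hm, fun γ hγ => ⟨hγ, f ⟨γ, hγ⟩, ?_, rfl⟩⟩
  exact hδ2 γ hγ

theorem IsH.add {v w : HG K} (hv : IsH v) (hw : IsH w) : IsH (v + w) := by
  obtain ⟨n, hn, φ, rfl⟩ := hv
  obtain ⟨m, hm, φ', rfl⟩ := hw
  have h1 : Gamma (n * m) ≤ Gamma n := Gamma_anti (Dvd.intro _ rfl)
  have h2 : Gamma (n * m) ≤ Gamma m := Gamma_anti (Dvd.intro_left _ rfl)
  have h3 : 0 < n * m := Nat.mul_pos hn hm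
  refine ⟨n * m, h3, res K K h1 φ + res K K h2 φ', ?_⟩
  rw [map_add, germ_res h1 (isCong_Gamma hn) (isCong_Gamma h3),
    germ_res h2 (isCong_Gamma hm) (isCong_Gamma h3)]

theorem IsH.zero : IsH (0 : HG K) := ⟨1, one_pos, 0, map_zero _⟩

theorem IsH.smul {v : HG K} (hv : IsH v) (c : K) : IsH (c • v) := by
  obtain ⟨n, hn, φ, rfl⟩ := hv
  exact ⟨n, hn, c • φ, map_smul _ _ _⟩

theorem IsH.sum {ι : Type*} (s : Finset ι) {v : ι → HG K} (hv : ∀ i ∈ s, IsH (v i)) :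
    IsH (∑ i ∈ s, v i) := by
  classical
  induction s using Finset.induction_on with
  | empty => simpa using IsH.zero
  | insert a s ha ih =>
    rw [Finset.sum_insert ha]
    exact (hv a (Finset.mem_insert_self _ _)).add
      (ih fun i hi => hv i (Finset.mem_insert_of_mem hi))

theorem IsH.rw' {v : HG K} (hv : IsH v) (Q : ℕ) [NeZero Q] (w : MulChar (ZMod Q) K) :
    IsH (rw' Q w v) := IsH.sum _ fun u _ => (hv.act _).smul _

/-- **Descent.** -/
theorem IsH.descend [CharZero K] {Γ : Subgroup SL(2, ℤ)} (hΓ : IsCong Γ) {v : HG K} (hv : IsH v)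
    (hinv : ∀ γ ∈ Γ, H22.act K (emb γ) v = v) : ∃ φ : HM Γ K, germ K φ = v := by
  classical
  obtain ⟨n, hn, φ, rfl⟩ := hv
  obtain ⟨n0, hn0, h0⟩ := hΓ
  have h1 : Gamma (n * n0) ≤ Gamma n := Gamma_anti (Dvd.intro _ rfl)
  have h2 : Gamma (n * n0) ≤ Γ := (Gamma_anti (Dvd.intro_left _ rfl)).trans h0
  have h3 : 0 < n * n0 := Nat.mul_pos hn hn0
  have : NeZero (n * n0) := ⟨h3.ne'⟩
  have : Finite (Γ ⧸ (Gamma (n * n0)).subgroupOf Γ) := inferInstance
  let _ : Fintype (Γ ⧸ (Gamma (n * n0)).subgroupOf Γ) := Fintype.ofFinite _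
  have key : germ K (TC.tr K K Γ (Gamma (n * n0)) (res K K h1 φ)) =
      ((Fintype.card (Γ ⧸ (Gamma (n * n0)).subgroupOf Γ) : ℕ) : K) • germ K φ := by
    rw [germ_rep (isCong_Gamma h3) ⟨n0, hn0, h0⟩ rep_tr]
    have e : ∀ q : Γ ⧸ (Gamma (n * n0)).subgroupOf Γ, (1 : K) • H22.act K (trFam Γ (Gamma (n * n0)) q)
        (germ K (res K K h1 φ)) = germ K φ := by
      intro q
      rw [one_smul, germ_res h1 (isCong_Gamma hn) (isCong_Gamma h3)]
      exact hinv _ (inv_mem (q.out).2)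
    rw [Finset.sum_congr rfl fun q _ => e q, Finset.sum_const, Finset.card_univ,
      Nat.cast_smul_eq_nsmul]
  have hc : ((Fintype.card (Γ ⧸ (Gamma (n * n0)).subgroupOf Γ) : ℕ) : K) ≠ 0 := by
    exact_mod_cast Fintype.card_ne_zero
  refine ⟨((Fintype.card (Γ ⧸ (Gamma (n * n0)).subgroupOf Γ) : ℕ) : K)⁻¹ •
    TC.tr K K Γ (Gamma (n * n0)) (res K K h1 φ), ?_⟩
  rw [map_smul, key, smul_smul, inv_mul_cancel₀ hc, one_smul]

end Descend

end Fermat.Agent.H22
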