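import Fermat.Agent.H22.ESSplit

/-!
# From parabolic homomorphisms to cusp forms, II
-/

set_option autoImplicit false

noncomputable section

namespace Fermat.Agent.H22

open Matrix.SpecialLinearGroup CongruenceSubgroup ModularForm ModularCurve ModularCurve.Period
open Fermat.Agent.TC
open Fermat.Agent.H16
open ModularFormClass (qCoeff)
open scoped MatrixGroups

/-- `diag(-1, 1)` -/
def iotaG : GG := Matrix.GeneralLinearGroup.mkOfDetNeZero !![(-1 : ℚ), 0; 0, 1] (by simp)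

theorem iotaG_val : iotaG.val = !![(-1 : ℚ), 0; 0, 1] := rfl

theorem iotaG_emb (γ : SL(2, ℤ)) : iotaG * emb γ = emb (jConjSL γ) * iotaG := by
  apply Units.ext
  rw [Units.val_mul, Units.val_mul, iotaG_val, emb_val, emb_val, Matrix.mul_fin_two,
    Matrix.mul_fin_two]
  have h00 : jConjSL γ 0 0 = γ 0 0 := by change jConjMat _ 0 0 = _; simp
  have h01 : jConjSL γ 0 1 = -γ 0 1 := by change jConjMat _ 0 1 = _; simp
  have h10 : jConjSL γ 1 0 = -γ 1 0 := by change jConjMat _ 1 0 = _; simp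
  have h11 : jConjSL γ 1 1 = γ 1 1 := by change jConjMat _ 1 1 = _; simp
  rw [h00, h01, h10, h11]
  ext r s
  fin_cases r <;> fin_cases s <;> simp

section Inv

variable {K : Type*} [Field K] {N : ℕ} [NeZero N]

theorem germ_charInvolution (ψ : HM (Gamma0 N) K) :
    germ K (charInvolution N K K ψ) = act K iotaG (germ K ψ) := by
  refine germ_eq_act ψ _ iotaG ⟨N, Nat.pos_of_ne_zero (NeZero.ne N), fun γ hγ =>
    ⟨Gamma_le_Gamma0 N hγ, jConjGamma0 N ⟨γ, Gamma_le_Gamma0 N hγ⟩, ?_, rfl⟩⟩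
  rw [iotaG_emb, mul_assoc, mul_inv_cancel, mul_one]
  rfl

end Inv

section Comm

variable {K : Type*} [CommRing K]

theorem act_del_iota (p : ℕ) [NeZero p] (v : HG K) :
    act K (del p) (act K iotaG v) = act K iotaG (act K (del p) v) := by
  rw [← act_mul, ← act_mul]
  congr 2
  apply Units.ext
  rw [Units.val_mul, Units.val_mul, iotaG_val, del_val, Matrix.mul_fin_two, Matrix.mul_fin_two]
  simp

theorem TI.Up_iota {v : HG K} (h : TI v) (p : ℕ) [NeZero p] :
    Up p (act K iotaG v) = act K iotaG (Up p v) := by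
  unfold Up
  rw [map_sum, ← Equiv.sum_comp (Equiv.neg (ZMod p))
    (fun i => act K iotaG (act K (hm p i.val) v))]
  refine Finset.sum_congr rfl fun i _ => ?_
  have h1 : act K (hm p ((Equiv.neg (ZMod p) i).val : ℤ)) v = act K (hm p (-(i.val : ℤ))) v := by
    apply h.hm_congr
    push_cast
    simp
  rw [h1, ← act_mul, ← act_mul]
  congr 2
  apply Units.ext
  rw [Units.val_mul, Units.val_mul, iotaG_val, hm_val, hm_val, Matrix.mul_fin_two,
    Matrix.mul_fin_two]
  push_cast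
  simp

theorem act_Wm_iota (q : ℕ) [NeZero q] (σ : SL(2, ℤ)) (v : HG K) :
    act K (Wm q σ) (act K iotaG v) = act K iotaG (act K (Wm q (jConjSL σ)) v) := by
  rw [← act_mul, ← act_mul]
  congr 2
  unfold Wm
  rw [← mul_assoc, iotaG_emb, mul_assoc, mul_assoc]
  congr 1
  apply Units.ext
  rw [Units.val_mul, Units.val_mul, iotaG_val, dq_val, Matrix.mul_fin_two, Matrix.mul_fin_two]
  simp

end Comm

section Split

variable {L : ℕ} [NeZero L]

theorem pair_apply (A B : CuspForm (Gamma0 L) 2) : germ ℂ (periodHomPair L (A, B)) =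
    pgL L (A + B) + act ℂ iotaG (pgL L (A - B)) := by
  obtain ⟨pml, hpml, hdef⟩ := ModularCurve.periodHomPair_def L existsPeriodMapLinear
  rw [hdef, LinearMap.coprod_apply, LinearMap.comp_apply, LinearMap.comp_apply,
    LinearMap.add_apply, LinearMap.sub_apply, LinearMap.id_apply, LinearMap.id_apply, hpml, hpml,
    map_add, map_add, map_sub, germ_charInvolution, germ_charInvolution, map_add, map_sub,
    map_sub, pgL_apply, pgL_apply]
  abel

theorem es_unique {A B : CuspForm (Gamma0 L) 2} (h : pgL L A + act ℂ iotaG (pgL L B) = 0) :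
    A = 0 ∧ B = 0 := by
  have h1 := pair_apply ((2 : ℂ)⁻¹ • (A + B)) ((2 : ℂ)⁻¹ • (A - B))
  have e1 : (2 : ℂ)⁻¹ • (A + B) + (2 : ℂ)⁻¹ • (A - B) = A := by module
  have e2 : (2 : ℂ)⁻¹ • (A + B) - (2 : ℂ)⁻¹ • (A - B) = B := by module
  rw [e1, e2, h] at h1
  have h2 : periodHomPair L ((2 : ℂ)⁻¹ • (A + B), (2 : ℂ)⁻¹ • (A - B)) = 0 :=
    germ_injective (h1.trans (map_zero _).symm)
  have h3 := (ES.eichlerShimura L).1 (h2.trans (map_zero _).symm)
  have h4 : (2 : ℂ)⁻¹ • (A + B) = 0 := congrArg Prod.fst h3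
  have h5 : (2 : ℂ)⁻¹ • (A - B) = 0 := congrArg Prod.snd h3
  rw [h4, h5] at e1 e2
  exact ⟨by rw [← e1, add_zero], by rw [← e2, sub_zero]⟩

theorem es_exists {h : HM (Gamma0 L) ℂ} (hpar : h ∈ parabolicHoms ℂ (Gamma0 L) ℂ) :
    ∃ A B : CuspForm (Gamma0 L) 2, germ ℂ h = pgL L A + act ℂ iotaG (pgL L B) := by
  rw [← (ES.eichlerShimura L).2] at hpar
  obtain ⟨⟨A, B⟩, rfl⟩ := hpar
  exact ⟨A + B, A - B, pair_apply A B⟩

/-- **From parabolic homomorphisms to cusp forms.** -/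
theorem exists_form_of_hom {D : ℕ} {lam : ℕ → ℂ} {h : HM (Gamma0 L) ℂ} (h0 : h ≠ 0)
    (hpar : h ∈ parabolicHoms ℂ (Gamma0 L) ℂ)
    (hT : ∀ (ℓ : ℕ) [Fact ℓ.Prime], ¬ ℓ ∣ L → ¬ ℓ ∣ D →
      act ℂ (del ℓ) (germ ℂ h) + Up ℓ (germ ℂ h) = lam ℓ • germ ℂ h) :
    ∃ f : CuspForm (Gamma0 L) 2, f ≠ 0 ∧ TEig L D lam f ∧
      ∀ (q M : ℕ) [Fact q.Prime], L = q * q * M → Nat.Coprime q M →
        (Eq' q (germ ℂ h) = 0 → ∀ n, q ∣ n → qCoeff f n = 0) ∧
        ∀ ε : ℂ, WEig q M ε (germ ℂ h) → WEig q M ε (pgL L f) := by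
  obtain ⟨A, B, hAB⟩ := es_exists hpar
  have hTI : ∀ f : CuspForm (Gamma0 L) 2, TI (pgL L f) := pgL_TI
  -- Hecke operators
  have hTA : TEig L D lam A ∧ TEig L D lam B := by
    have key : ∀ (ℓ : ℕ) (hℓ : ℓ.Prime) (hL : ¬ ℓ ∣ L), ¬ ℓ ∣ D →
        CuspForm.heckeTLin 2 hℓ hL A - lam ℓ • A = 0 ∧
        CuspForm.heckeTLin 2 hℓ hL B - lam ℓ • B = 0 := by
      intro ℓ hℓ hL hD
      have : Fact ℓ.Prime := ⟨hℓ⟩
      have h1 := hT ℓ hL hD
      have hUp : ∀ v v' : HG ℂ, Up ℓ (v + v') = Up ℓ v + Up ℓ v' := by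
        intro v v'
        unfold Up
        rw [← Finset.sum_add_distrib]
        exact Finset.sum_congr rfl fun i _ => map_add _ _ _
      rw [hAB, map_add, act_del_iota, hUp, (hTI B).Up_iota] at h1
      apply es_unique
      rw [map_sub, map_sub, map_smul, map_smul, map_sub, map_smul,
        pgL_heckeT (p := ℓ) hL A, pgL_heckeT (p := ℓ) hL B, map_add]
      rw [smul_add] at h1
      have e : ∀ a b c d e f : HG ℂ, a + b + (c + d) = e + f →
          a + c - e + (b + d - f) = 0 := by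
        intro a b c d e f h
        rw [show a + c - e + (b + d - f) = a + b + (c + d) - (e + f) by abel, h, sub_self]
      exact e _ _ _ _ _ _ h1
    exact ⟨fun ℓ hℓ hL hD => sub_eq_zero.mp (key ℓ hℓ hL hD).1,
      fun ℓ hℓ hL hD => sub_eq_zero.mp (key ℓ hℓ hL hD).2⟩
  have hQ : ∀ (q M : ℕ) [Fact q.Prime], L = q * q * M → Nat.Coprime q M →
      Eq' q (germ ℂ h) = 0 → (∀ n, q ∣ n → qCoeff A n = 0) ∧ (∀ n, q ∣ n → qCoeff B n = 0) := by
    intro q M hq hL hqM h1
    have hqL : q ∣ L := by rw [hL, mul_assoc]; exact dvd_mul_right _ _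
    rw [hAB, Eq'_add, ← del_Up, ← del_Up, (hTI B).Up_iota, act_del_iota, ← pgL_heckeU hqL,
      ← pgL_heckeU hqL, ← act_del_iota, ← map_add] at h1
    have h2 : pgL L (CuspForm.heckeULin 2 hqL A) + act ℂ iotaG (pgL L (CuspForm.heckeULin 2 hqL B))
        = 0 := act_injective _ (h1.trans (map_zero _).symm)
    obtain ⟨h3, h4⟩ := es_unique h2
    constructor
    · rintro n ⟨m, rfl⟩
      have := congrArg (fun g : CuspForm (Gamma0 L) 2 => qCoeff g m) h3
      simp only [qCoeff_heckeULin, coeffHeckeU_apply, AL.qCoeff_zero'] at this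
      rw [mul_comm]; exact this
    · rintro n ⟨m, rfl⟩
      have := congrArg (fun g : CuspForm (Gamma0 L) 2 => qCoeff g m) h4
      simp only [qCoeff_heckeULin, coeffHeckeU_apply, AL.qCoeff_zero'] at this
      rw [mul_comm]; exact this
  have hW : ∀ (q M : ℕ) [Fact q.Prime], L = q * q * M → Nat.Coprime q M →
      ∀ ε : ℂ, WEig q M ε (germ ℂ h) → WEig q M ε (pgL L A) ∧ WEig q M ε (pgL L B) := by
    intro q M hq hL hqM ε h1
    have key : ∀ σ : SL(2, ℤ), (M : ℤ) ∣ σ 1 0 → (q : ℤ) ^ 2 ∣ σ 1 1 →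
        act ℂ (Wm q σ) (pgL L A) = ε • pgL L A ∧
        act ℂ (Wm q (jConjSL σ)) (pgL L B) = ε • pgL L B := by
      intro σ hc hd
      have h2 := h1 σ hc hd
      have hc' : (M : ℤ) ∣ jConjSL σ 1 0 := by
        have : jConjSL σ 1 0 = -σ 1 0 := by change jConjMat _ 1 0 = _; simp
        rw [this, dvd_neg]; exact hc
      have hd' : (q : ℤ) ^ 2 ∣ jConjSL σ 1 1 := by
        have : jConjSL σ 1 1 = σ 1 1 := by change jConjMat _ 1 1 = _; simp
        rw [this]; exact hd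
      obtain ⟨A', hA'⟩ := exists_W hL hqM hc hd A
      obtain ⟨B', hB'⟩ := exists_W hL hqM hc' hd' B
      rw [hAB, map_add, act_Wm_iota, ← hA', ← hB', smul_add] at h2
      have h3 : A' - ε • A = 0 ∧ B' - ε • B = 0 := by
        apply es_unique
        rw [map_sub, map_sub, map_smul, map_smul, map_sub, map_smul]
        have e : ∀ a b e f : HG ℂ, a + b = e + f → a - e + (b - f) = 0 := by
          intro a b e f h
          rw [show a - e + (b - f) = a + b - (e + f) by abel, h, sub_self]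
        exact e _ _ _ _ h2
      rw [← hA', ← hB', sub_eq_zero.mp h3.1, sub_eq_zero.mp h3.2, map_smul, map_smul]
      exact ⟨rfl, rfl⟩
    refine ⟨fun σ hc hd => (key σ hc hd).1, fun σ hc hd => ?_⟩
    have hc' : (M : ℤ) ∣ jConjSL σ 1 0 := by
      have : jConjSL σ 1 0 = -σ 1 0 := by change jConjMat _ 1 0 = _; simp
      rw [this, dvd_neg]; exact hc
    have hd' : (q : ℤ) ^ 2 ∣ jConjSL σ 1 1 := by
      have : jConjSL σ 1 1 = σ 1 1 := by change jConjMat _ 1 1 = _; simp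
      rw [this]; exact hd
    have := (key (jConjSL σ) hc' hd').2
    rw [jConjSL_jConjSL] at this
    exact this
  by_cases hA0 : A = 0
  · have hB0 : B ≠ 0 := by
      rintro rfl
      apply h0
      apply germ_injective
      rw [hAB, hA0, map_zero, map_zero, map_zero, add_zero]
    exact ⟨B, hB0, hTA.2, fun q M _ hL hqM => ⟨fun h1 => (hQ q M hL hqM h1).2,
      fun ε h1 => (hW q M hL hqM ε h1).2⟩⟩
  · exact ⟨A, hA0, hTA.1, fun q M _ hL hqM => ⟨fun h1 => (hQ q M hL hqM h1).1,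
      fun ε h1 => (hW q M hL hqM ε h1).1⟩⟩

end Split

end Fermat.Agent.H22
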