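import Fermat.Agent.H22.PSForms
import Fermat.Agent.ES.Final

/-!
# From parabolic homomorphisms to cusp forms
-/

set_option autoImplicit false

noncomputable section

namespace Fermat.Agent.H22

open UpperHalfPlane hiding I
open Matrix.SpecialLinearGroup CongruenceSubgroup ModularForm ModularCurve
open Fermat.Agent.TC
open Fermat.Agent.H16
open ModularFormClass (qCoeff)
open scoped MatrixGroups

section Slash

theorem pgL_slash {M N : ℕ} [NeZero M] [NeZero N] (f : CuspForm (Gamma0 M) 2)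
    (g : CuspForm (Gamma0 N) 2) (x : GG) (hx : 0 < (toR x).det.val) (c : ℂ)
    (h : ∀ z, g z = c * (⇑f ∣[(2 : ℤ)] toR x) z) : pgL N g = c • act ℂ x (pgL M f) := by
  rw [pgL_apply, pgL_apply]
  have hF := (cuspidal_coe f).hasPrim.isPrim.deriv
  have h1 : ∀ τ : ℍ, HasDerivAt ((fun w : ℍ => c • prim (⇑f) (toR x • w)) ∘
      ofComplex) (g τ) τ := by
    intro τ
    have h2 := (hasDerivAt_comp_smul hF hx τ).const_smul c
    have e : c • (⇑f ∣[(2 : ℤ)] toR x) τ = g τ := by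
      rw [smul_eq_mul, h]
    rw [e] at h2
    exact h2
  have h2 := (cuspidal_coe g).hasPrim.isPrim.deriv
  have hc : ∀ z w : ℍ, prim (⇑g) z - prim (⇑g) w =
      c • prim (⇑f) (toR x • z) - c • prim (⇑f) (toR x • w) := by
    intro z w
    have := exists_const_of_deriv_eq h1 h2 z w
    linear_combination -this
  have key := germ_of_isAut (K := ℂ) (isCong_Gamma0 M) (isCong_Gamma0 N)
    (w := fun _ : Unit => c) (α := fun _ => x) (isAut_primG f)
    (φ' := periodMap N g) (by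
      intro γ y
      have h3 := isAut_primG g γ y
      have e : ∀ y : GG, ∑ i : Unit, c • primG f (x * y) =
          primG g y + (c • primG f (x * 1) - primG g 1) := by
        intro y
        rw [Finset.univ_unique, Finset.sum_singleton]
        have h4 := hc (toR y • UpperHalfPlane.I) (toR 1 • UpperHalfPlane.I)
        unfold primG
        rw [map_mul, map_mul, mul_smul, mul_smul]
        linear_combination -h4
      simp only at h3 ⊢
      rw [e, e, h3]
      ring)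
  rw [key, Finset.univ_unique, Finset.sum_singleton]

theorem scal_act {q : ℕ} [NeZero q] [NeZero (q ^ 2)] (σ : SL(2, ℤ)) (v : HG ℂ) :
    act ℂ (emb σ * del (q ^ 2)) v = act ℂ (Wm q σ) v := by
  have hq0 : (q : ℚ) ≠ 0 := by exact_mod_cast NeZero.ne q
  let s : GG := Matrix.GeneralLinearGroup.mkOfDetNeZero !![(q : ℚ), 0; 0, (q : ℚ)] (by
    simp [hq0])
  have hs : emb σ * del (q ^ 2) = s * Wm q σ := by
    apply Units.ext
    rw [Units.val_mul, Units.val_mul, emb_val, del_val, Wm_val, Matrix.mul_fin_two]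
    change _ = !![(q : ℚ), 0; 0, (q : ℚ)] * _
    rw [Matrix.mul_fin_two]
    ext r s
    fin_cases r <;> fin_cases s
    · simp
      ring
    · simp
      field_simp
    · simp
      ring
    · simp
      field_simp
  rw [hs, act_mul]
  congr 1
  apply act_central
  intro x
  apply Units.ext
  rw [Units.val_mul, Units.val_mul]
  change !![(q : ℚ), 0; 0, (q : ℚ)] * _ = _ * !![(q : ℚ), 0; 0, (q : ℚ)]
  rw [Matrix.eta_fin_two x.val, Matrix.mul_fin_two, Matrix.mul_fin_two]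
  ext r s
  fin_cases r <;> fin_cases s <;> simp [mul_comm]

theorem isMN_W {L q M : ℕ} [NeZero L] (hq : 0 < q) (hL : L = q * q * M) (hqM : Nat.Coprime q M)
    {σ : SL(2, ℤ)} (hc : (M : ℤ) ∣ σ 1 0) (hd : (q : ℤ) ^ 2 ∣ σ 1 1) (f : CuspForm (Gamma0 L) 2) :
    IntStr.IsMN L 2 (fun z ↦ (⇑f ∣[(2 : ℤ)] σ) (IntStr.aff (q ^ 2) 1 0 z)) where
  slash γ hγ := by
    have hq2 : 0 < q ^ 2 := pow_pos hq 2
    have h' := dvd_of_mem_Gamma0' hγ
    have h'' : (q : ℤ) ^ 2 ∣ γ 1 0 := by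
      refine Dvd.dvd.trans ?_ h'
      rw [hL]; push_cast; exact ⟨M, by ring⟩
    obtain ⟨c0, hc0⟩ := h'
    have hdet := det_eq γ
    have e1 : γ 1 0 = q ^ 2 * (M * c0) := by rw [hc0, hL]; push_cast; ring
    let δ : SL(2, ℤ) := sl (γ 0 0) (q ^ 2 * γ 0 1) (M * c0) (γ 1 1) (by
      rw [e1] at hdet; linear_combination hdet)
    have h1 := AL.slash_aff (k := 2) (⇑f ∣[(2 : ℤ)] σ) (a := q ^ 2) (d := 1) (a' := q ^ 2)
      (d' := 1) (b := 0) (b' := 0) (γ := γ) (δ := δ) hq2 one_pos hq2 one_pos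
      (by change _ = γ 0 0 * _; push_cast; ring)
      (by change _ = γ 0 0 * 0 + (q ^ 2 * γ 0 1) * _; push_cast; ring)
      (by change _ = (M * c0) * _; rw [e1]; push_cast; ring)
      (by change _ = (M * c0) * 0 + γ 1 1 * _; push_cast; ring)
    rw [h1]
    have h2 : (⇑f ∣[(2 : ℤ)] σ) ∣[(2 : ℤ)] δ = ⇑f ∣[(2 : ℤ)] σ := by
      rw [← SlashAction.slash_mul]
      have h3 : σ * δ = (σ * δ * σ⁻¹) * σ := by group
      rw [h3, SlashAction.slash_mul]
      congr 1
      refine (IntStr.isMN_coe f).slash _ ?_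
      rw [Gamma0_mem, ZMod.intCast_zmod_eq_zero_iff_dvd, AL.mul_10, AL.mul_10, AL.mul_11,
        AL.inv_00, AL.inv_10]
      have e2 : ((L : ℕ) : ℤ) = (q : ℤ) ^ 2 * M := by rw [hL]; push_cast; ring
      rw [e2]
      have hcop : IsCoprime ((q : ℤ) ^ 2) (M : ℤ) :=
        (Nat.isCoprime_iff_coprime.mpr hqM).pow_left
      have e3 : (σ 1 0 * δ 0 0 + σ 1 1 * δ 1 0) * σ 1 1 +
          (σ 1 0 * δ 0 1 + σ 1 1 * δ 1 1) * -σ 1 0 =
          σ 1 0 * γ 0 0 * σ 1 1 + σ 1 1 * (M * c0) * σ 1 1 - σ 1 0 * (q ^ 2 * γ 0 1) * σ 1 0 -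
            σ 1 1 * γ 1 1 * σ 1 0 := by
        change (σ 1 0 * γ 0 0 + σ 1 1 * (M * c0)) * σ 1 1 +
          (σ 1 0 * (q ^ 2 * γ 0 1) + σ 1 1 * γ 1 1) * -σ 1 0 = _
        ring
      rw [e3]
      refine hcop.mul_dvd ?_ ?_
      · refine dvd_sub (dvd_sub (dvd_add (hd.mul_left _) (hd.mul_left _)) ?_)
          ((hd.mul_right _).mul_right _)
        exact ((dvd_mul_right _ _).mul_left _).mul_right _
      · refine dvd_sub (dvd_sub (dvd_add ((hc.mul_right _).mul_right _) ?_) (hc.mul_left _))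
          (hc.mul_left _)
        exact ((dvd_mul_right _ _).mul_left _).mul_right _
    rw [h2]
    ext z
    simp
  holo := IntStr.mdiff_comp_aff (MDifferentiable.slash (IntStr.isMN_coe f).holo 2 _)
    (pow_pos hq 2) one_pos 0
  bdd γ := by
    have : IntStr.IsCuspidal 2 (⇑f ∣[(2 : ℤ)] σ) := fun δ => by
      rw [← SlashAction.slash_mul]
      exact IntStr.isCuspidal_coe f _
    exact (AL.isCuspidal_aff this (pow_pos hq 2) one_pos γ).isBoundedAtImInfty

/-- The Atkin–Lehner translate of a cusp form. -/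
theorem exists_W {L q M : ℕ} [NeZero L] [NeZero q] (hL : L = q * q * M)
    (hqM : Nat.Coprime q M) {σ : SL(2, ℤ)} (hc : (M : ℤ) ∣ σ 1 0) (hd : (q : ℤ) ^ 2 ∣ σ 1 1)
    (f : CuspForm (Gamma0 L) 2) :
    ∃ f' : CuspForm (Gamma0 L) 2, pgL L f' = act ℂ (Wm q σ) (pgL L f) := by
  have hq : 0 < q := Nat.pos_of_ne_zero (NeZero.ne q)
  have hq2 : NeZero (q ^ 2) := ⟨(pow_pos hq 2).ne'⟩
  have hcusp : IntStr.IsCuspidal 2 (fun z ↦ (⇑f ∣[(2 : ℤ)] σ) (IntStr.aff (q ^ 2) 1 0 z)) := by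
    have : IntStr.IsCuspidal 2 (⇑f ∣[(2 : ℤ)] σ) := fun δ => by
      rw [← SlashAction.slash_mul]
      exact IntStr.isCuspidal_coe f _
    exact AL.isCuspidal_aff this (pow_pos hq 2) one_pos
  let g := (isMN_W hq hL hqM hc hd f).cuspForm hcusp
  have hg : ∀ z, g z = (⇑f ∣[(2 : ℤ)] σ) (IntStr.aff (q ^ 2) 1 0 z) := fun _ => rfl
  have hq0 : ((q ^ 2 : ℕ) : ℂ) ≠ 0 := by exact_mod_cast hq2.out
  have hto : toR (emb σ * del (q ^ 2)) = mapGL ℝ σ * heckeDiagMatrix (q ^ 2) := by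
    rw [map_mul, toR_emb, toR_del]
  have hdet : 0 < (toR (emb σ * del (q ^ 2))).det.val := by
    rw [hto, map_mul, Units.val_mul]
    refine mul_pos ?_ (det_heckeDiagMatrix_pos _)
    simp
  have key := pgL_slash f g (emb σ * del (q ^ 2)) hdet ((q ^ 2 : ℕ) : ℂ)⁻¹ (fun z => by
    rw [hto, SlashAction.slash_mul, slash_heckeDiagMatrix_apply 2 hq2.out, hg]
    have h3 : heckeDiagMatrix (q ^ 2) • z = IntStr.aff (q ^ 2) 1 0 z := by
      apply UpperHalfPlane.ext
      rw [coe_heckeDiagMatrix_smul hq2.out, IntStr.coe_aff (pow_pos hq 2) one_pos]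
      simp
    rw [h3]
    have h4 : ((2 : ℤ) - 1) = 1 := rfl
    rw [h4, zpow_one, ← mul_assoc, inv_mul_cancel₀ hq0, one_mul]
    rfl)
  refine ⟨((q ^ 2 : ℕ) : ℂ) • g, ?_⟩
  rw [map_smul, key, smul_smul, mul_inv_cancel₀ hq0, one_smul, scal_act]

end Slash

end Fermat.Agent.H22
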