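import Fermat.Agent.H22.StarG
import Fermat.Agent.H22.ES
import Fermat.Agent.AL.Newform

/-!
# Germs of periods of cusp forms
-/

set_option autoImplicit false

noncomputable section

namespace Fermat.Agent.H22

open UpperHalfPlane hiding I
open Matrix.SpecialLinearGroup CongruenceSubgroup ModularForm ModularCurve
open Fermat.Agent.TC
open Fermat.Agent.H16
open scoped MatrixGroups

variable {N : ℕ} [NeZero N]

variable (N) in
/-- The germ of the periods of a cusp form. -/
def pgL : CuspForm (Gamma0 N) 2 →ₗ[ℂ] HG ℂ :=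
  (germ ℂ).comp (existsPeriodMapLinear (N := N)).choose

theorem pgL_apply (f : CuspForm (Gamma0 N) 2) : pgL N f = germ ℂ (periodMap N f) := by
  unfold pgL
  rw [LinearMap.comp_apply, (existsPeriodMapLinear (N := N)).choose_spec]

theorem pgL_injective : Function.Injective (pgL N) := by
  refine (injective_iff_map_eq_zero _).mpr fun f hf => ?_
  rw [pgL_apply] at hf
  apply eq_zero_of_periodMap
  exact germ_injective (hf.trans (map_zero _).symm)

theorem pgL_SI (f : CuspForm (Gamma0 N) 2) : SI N (fun _ => 1) (pgL N f) := by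
  rw [pgL_apply]; exact SI_of_Gamma0 _

theorem pgL_TI (f : CuspForm (Gamma0 N) 2) : TI (pgL N f) := (pgL_SI f).toTI rfl

theorem pgL_heckeU {p : ℕ} [hp : Fact p.Prime] (hpN : p ∣ N) (f : CuspForm (Gamma0 N) 2) :
    pgL N (CuspForm.heckeULin 2 hpN f) = Up p (pgL N f) := by
  rw [pgL_apply, pgL_apply, ← germ_star_of_dvd hpN]
  congr 1
  have := periodMap_hecke (N := N) ⟨p, hp.out⟩ f
  rw [CuspForm.heckeFormsGen_of_dvd (q := ⟨p, hp.out⟩) hpN] at this
  exact this

theorem pgL_heckeT {p : ℕ} [hp : Fact p.Prime] (hpN : ¬ p ∣ N) (f : CuspForm (Gamma0 N) 2) :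
    pgL N (CuspForm.heckeTLin 2 hp.out hpN f) = act ℂ (del p) (pgL N f) + Up p (pgL N f) := by
  rw [pgL_apply, pgL_apply, ← germ_star_of_not_dvd hpN]
  congr 1
  have := periodMap_hecke (N := N) ⟨p, hp.out⟩ f
  rw [CuspForm.heckeFormsGen_of_not_dvd (ℓ := ⟨p, hp.out⟩) hpN] at this
  exact this

/-- the primitive as an automorphic function -/
def primG (f : CuspForm (Gamma0 N) 2) : GG → ℂ := fun x => prim (⇑f) (toR x • UpperHalfPlane.I)

theorem isAut_primG (f : CuspForm (Gamma0 N) 2) : IsAut (periodMap N f) (primG f) := by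
  intro γ x
  unfold primG
  rw [map_mul, toR_emb, mul_smul]
  have h := prim_smul_sub f γ.2 (toR x • UpperHalfPlane.I)
  have h2 := periodMap_apply f γ
  rw [h2, ← h]
  have h3 : (mapGL ℝ (γ : SL(2, ℤ)) • toR x • UpperHalfPlane.I : ℍ) =
    (γ : SL(2, ℤ)) • toR x • UpperHalfPlane.I := rfl
  rw [h3]
  ring

theorem pgL_degen {M N d : ℕ} [NeZero M] [NeZero N] [NeZero d] (hd : 0 < d) (h : M * d ∣ N)
    (f : CuspForm (Gamma0 M) 2) :
    pgL N (AL.degen hd h 2 f) = (d : ℂ)⁻¹ • act ℂ (del d) (pgL M f) := by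
  have hd0 : (d : ℂ) ≠ 0 := by exact_mod_cast NeZero.ne d
  rw [pgL_apply, pgL_apply]
  set g := AL.degen hd h 2 f with hg
  -- comparison of primitives
  have hF := (cuspidal_coe f).hasPrim.isPrim.deriv
  have h1 : ∀ τ : ℍ, HasDerivAt ((fun w : ℍ => (d : ℂ)⁻¹ • prim (⇑f) (heckeDiagMatrix d • w)) ∘
      ofComplex) (g τ) τ := by
    intro τ
    have h2 := (hasDerivAt_comp_smul hF (det_heckeDiagMatrix_pos d) τ).const_smul (d : ℂ)⁻¹
    have e : (d : ℂ)⁻¹ • (⇑f ∣[(2 : ℤ)] heckeDiagMatrix d) τ = g τ := by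
      rw [slash_heckeDiagMatrix_apply 2 (NeZero.ne d), hg, AL.degen_apply]
      have h3 : heckeDiagMatrix d • τ = IntStr.aff d 1 0 τ := by
        apply UpperHalfPlane.ext
        rw [coe_heckeDiagMatrix_smul (NeZero.ne d), IntStr.coe_aff hd one_pos]
        simp
      rw [h3, smul_eq_mul]
      norm_num
      rw [← mul_assoc, inv_mul_cancel₀ hd0, one_mul]
    rw [e] at h2
    exact h2
  have h2 := (cuspidal_coe g).hasPrim.isPrim.deriv
  have hc : ∀ z w : ℍ, prim (⇑g) z - prim (⇑g) w =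
      (d : ℂ)⁻¹ • prim (⇑f) (heckeDiagMatrix d • z) -
        (d : ℂ)⁻¹ • prim (⇑f) (heckeDiagMatrix d • w) := by
    intro z w
    have := exists_const_of_deriv_eq h1 h2 z w
    linear_combination -this
  have key := germ_of_isAut (K := ℂ) (isCong_Gamma0 M) (isCong_Gamma0 N)
    (w := fun _ : Unit => (d : ℂ)⁻¹) (α := fun _ => del d) (isAut_primG f)
    (φ' := periodMap N g) (by
      intro γ x
      have h3 := isAut_primG g γ x
      have e : ∀ y : GG, ∑ i : Unit, (d : ℂ)⁻¹ • primG f (del d * y) =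
          primG g y + ((d : ℂ)⁻¹ • primG f (del d * 1) - primG g 1) := by
        intro y
        rw [Finset.univ_unique, Finset.sum_singleton]
        have h4 := hc (toR y • UpperHalfPlane.I) (toR 1 • UpperHalfPlane.I)
        unfold primG
        rw [map_mul, map_mul, toR_del, mul_smul, mul_smul]
        linear_combination -h4
      simp only at h3 ⊢
      rw [e, e, h3]
      ring)
  rw [key, Finset.univ_unique, Finset.sum_singleton]

end Fermat.Agent.H22
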