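import Fermat.Agent.TC.Ops

/-!
# Germs of homomorphisms at the congruence filter

`HG K` is the module of germs of `K`-valued functions on `GL(2, ℚ)` at the filter generated by the
principal congruence subgroups; `GL(2, ℚ)` acts on the right by conjugation, and `Hom(Γ, K)`
embeds in `HG K` for every congruence subgroup `Γ`.
-/

set_option autoImplicit false

noncomputable section

namespace Fermat.Agent.H22

open Matrix.SpecialLinearGroup CongruenceSubgroup Filter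
open Fermat.Agent.TC
open scoped MatrixGroups

/-- The image of `Γ(n)` in `GL(2, ℚ)`. -/
def cset (n : ℕ) : Set GG := {x | ∃ γ ∈ Gamma n, emb γ = x}

theorem Gamma_anti {m n : ℕ} (h : m ∣ n) : Gamma n ≤ Gamma m := by
  intro γ hγ
  rw [Gamma_mem] at hγ ⊢
  have key : ∀ a b : ℤ, ((a : ℤ) : ZMod n) = (b : ℤ) → ((a : ℤ) : ZMod m) = (b : ℤ) := by
    intro a b hab
    rw [ZMod.intCast_eq_intCast_iff] at hab ⊢
    exact hab.of_dvd (by exact_mod_cast h)
  obtain ⟨h1, h2, h3, h4⟩ := hγ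
  refine ⟨?_, ?_, ?_, ?_⟩
  · simpa using key _ 1 (by simpa using h1)
  · simpa using key _ 0 (by simpa using h2)
  · simpa using key _ 0 (by simpa using h3)
  · simpa using key _ 1 (by simpa using h4)

theorem cset_anti {m n : ℕ} (h : m ∣ n) : cset n ⊆ cset m := by
  rintro x ⟨γ, hγ, rfl⟩
  exact ⟨γ, Gamma_anti h hγ, rfl⟩

/-- The filter generated by the principal congruence subgroups. -/
def cofil : Filter GG := ⨅ n : ℕ+, 𝓟 (cset n)

theorem mem_cofil {s : Set GG} : s ∈ cofil ↔ ∃ n : ℕ, 0 < n ∧ cset n ⊆ s := by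
  unfold cofil
  rw [mem_iInf_of_directed]
  · constructor
    · rintro ⟨n, hn⟩
      exact ⟨n, n.pos, hn⟩
    · rintro ⟨n, hn, h⟩
      exact ⟨⟨n, hn⟩, h⟩
  · intro a b
    refine ⟨a * b, ?_, ?_⟩
    · exact principal_mono.mpr (cset_anti (by simp))
    · exact principal_mono.mpr (cset_anti (by simp))

theorem eventually_cofil {p : GG → Prop} :
    (∀ᶠ x in cofil, p x) ↔ ∃ n : ℕ, 0 < n ∧ ∀ γ ∈ Gamma n, p (emb γ) := by
  constructor
  · intro h
    obtain ⟨n, hn, hs⟩ := mem_cofil.mp h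
    exact ⟨n, hn, fun γ hγ => hs ⟨γ, hγ, rfl⟩⟩
  · rintro ⟨n, hn, h⟩
    refine mem_cofil.mpr ⟨n, hn, ?_⟩
    rintro x ⟨γ, hγ, rfl⟩
    exact h γ hγ

theorem exists_denom (g : GG) : ∃ D : ℕ, 0 < D ∧ ∀ i j, ∃ z : ℤ, (D : ℚ) * g i j = z := by
  refine ⟨(g 0 0).den * (g 0 1).den * (g 1 0).den * (g 1 1).den, ?_, ?_⟩
  · have := (g 0 0).den_pos
    have := (g 0 1).den_pos
    have := (g 1 0).den_pos
    have := (g 1 1).den_pos
    positivity
  · have key : ∀ (x : ℚ) (m : ℕ), ∃ z : ℤ, ((x.den * m : ℕ) : ℚ) * x = z := by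
      intro x m
      refine ⟨m * x.num, ?_⟩
      push_cast
      have : (x.den : ℚ) * x = x.num := by
        rw [mul_comm]; exact Rat.mul_den_eq_num x
      linear_combination (m : ℚ) * this
    have k00 := key (g 0 0) ((g 0 1).den * (g 1 0).den * (g 1 1).den)
    have k01 := key (g 0 1) ((g 0 0).den * (g 1 0).den * (g 1 1).den)
    have k10 := key (g 1 0) ((g 0 0).den * (g 0 1).den * (g 1 1).den)
    have k11 := key (g 1 1) ((g 0 0).den * (g 0 1).den * (g 1 0).den)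
    have e01 : (g 0 1).den * ((g 0 0).den * (g 1 0).den * (g 1 1).den) =
      (g 0 0).den * (g 0 1).den * (g 1 0).den * (g 1 1).den := by ring
    have e00 : (g 0 0).den * ((g 0 1).den * (g 1 0).den * (g 1 1).den) =
      (g 0 0).den * (g 0 1).den * (g 1 0).den * (g 1 1).den := by ring
    have e10 : (g 1 0).den * ((g 0 0).den * (g 0 1).den * (g 1 1).den) =
      (g 0 0).den * (g 0 1).den * (g 1 0).den * (g 1 1).den := by ring
    have e11 : (g 1 1).den * ((g 0 0).den * (g 0 1).den * (g 1 0).den) =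
      (g 0 0).den * (g 0 1).den * (g 1 0).den * (g 1 1).den := by ring
    rw [e00] at k00
    rw [e01] at k01
    rw [e10] at k10
    rw [e11] at k11
    intro i j
    fin_cases i <;> fin_cases j
    · exact k00
    · exact k01
    · exact k10
    · exact k11

theorem exists_conj_mem (g : GG) {n : ℕ} (hn : 0 < n) :
    ∃ m : ℕ, 0 < m ∧ ∀ γ ∈ Gamma m, ∃ δ ∈ Gamma n, g * emb γ * g⁻¹ = emb δ := by
  obtain ⟨D, hD, hg⟩ := exists_denom g
  obtain ⟨D', hD', hg'⟩ := exists_denom g⁻¹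
  choose G hG using hg
  choose G' hG' using hg'
  refine ⟨n * (D * D'), by positivity, fun γ hγ => ?_⟩
  -- write `γ = 1 + m Y`
  rw [Gamma_mem] at hγ
  have hdvd : ∀ a b : ℤ, ((a : ℤ) : ZMod (n * (D * D'))) = (b : ℤ) →
      ∃ y : ℤ, a = b + (n * (D * D') : ℕ) * y := by
    intro a b hab
    rw [ZMod.intCast_eq_intCast_iff_dvd_sub] at hab
    obtain ⟨y, hy⟩ := hab
    exact ⟨-y, by linear_combination -hy⟩
  obtain ⟨y00, h00⟩ := hdvd (γ 0 0) 1 (by simpa using hγ.1)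
  obtain ⟨y01, h01⟩ := hdvd (γ 0 1) 0 (by simpa using hγ.2.1)
  obtain ⟨y10, h10⟩ := hdvd (γ 1 0) 0 (by simpa using hγ.2.2.1)
  obtain ⟨y11, h11⟩ := hdvd (γ 1 1) 1 (by simpa using hγ.2.2.2)
  let Y : Matrix (Fin 2) (Fin 2) ℤ := !![y00, y01; y10, y11]
  let GM : Matrix (Fin 2) (Fin 2) ℤ := Matrix.of G
  let GM' : Matrix (Fin 2) (Fin 2) ℤ := Matrix.of G'
  let B : Matrix (Fin 2) (Fin 2) ℤ := 1 + (n : ℤ) • (GM * Y * GM')
  have hmapG : GM.map (Int.cast : ℤ → ℚ) = (D : ℚ) • (g : Matrix (Fin 2) (Fin 2) ℚ) := by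
    ext i j
    simp only [GM, Matrix.map_apply, Matrix.of_apply, Matrix.smul_apply, smul_eq_mul]
    exact (hG i j).symm
  have hmapG' : GM'.map (Int.cast : ℤ → ℚ) = (D' : ℚ) • (g⁻¹ : GG).val := by
    ext i j
    simp only [GM', Matrix.map_apply, Matrix.of_apply, Matrix.smul_apply, smul_eq_mul]
    exact (hG' i j).symm
  have hγY : (emb γ : GG).val = 1 + ((n * (D * D') : ℕ) : ℚ) • Y.map (Int.cast : ℤ → ℚ) := by
    rw [emb_val, h00, h01, h10, h11]
    ext i j
    fin_cases i <;> fin_cases j <;> simp [Y]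
  have hB : B.map (Int.cast : ℤ → ℚ) = (g * emb γ * g⁻¹ : GG).val := by
    have e1 : B.map (Int.cast : ℤ → ℚ) = 1 + (n : ℚ) • (GM.map (Int.cast : ℤ → ℚ) *
        Y.map (Int.cast : ℤ → ℚ) * GM'.map (Int.cast : ℤ → ℚ)) := by
      have : B.map (Int.cast : ℤ → ℚ) = (Int.castRingHom ℚ).mapMatrix B := rfl
      rw [this]
      simp only [B, map_add, map_one, map_zsmul, map_mul]
      rw [← Int.cast_smul_eq_zsmul ℚ]
      rfl
    rw [e1, hmapG, hmapG', Units.val_mul, Units.val_mul, hγY]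
    rw [mul_add, mul_one, add_mul]
    have e2 : (g : GG).val * (g⁻¹ : GG).val = 1 := by
      rw [← Units.val_mul, mul_inv_cancel, Units.val_one]
    rw [e2]
    simp only [Matrix.smul_mul, Matrix.mul_smul, smul_smul]
    congr 2
    push_cast; ring
  have hdetB : B.det = 1 := by
    have h1 : ((B.det : ℤ) : ℚ) = 1 := by
      have h2 : ((B.det : ℤ) : ℚ) = (B.map (Int.cast : ℤ → ℚ)).det := by
        rw [Matrix.det_fin_two, Matrix.det_fin_two]
        simp
      rw [h2, hB, Units.val_mul, Units.val_mul, Matrix.det_mul, Matrix.det_mul]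
      have h3 : (emb γ : GG).val.det = 1 := by
        rw [emb_val, Matrix.det_fin_two_of]
        have := det_eq γ
        exact_mod_cast this
      rw [h3, mul_one, ← Matrix.det_mul, ← Units.val_mul, mul_inv_cancel, Units.val_one,
        Matrix.det_one]
    exact_mod_cast h1
  let δ : SL(2, ℤ) := ⟨B, hdetB⟩
  refine ⟨δ, ?_, ?_⟩
  · rw [Gamma_mem]
    have hBe : ∀ i j, B i j = (1 : Matrix (Fin 2) (Fin 2) ℤ) i j + n * (GM * Y * GM') i j := by
      intro i j
      change (1 + (n : ℤ) • (GM * Y * GM')) i j = _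
      rw [Matrix.add_apply, Matrix.smul_apply, smul_eq_mul]
    have hc : ∀ i j, ((B i j : ℤ) : ZMod n) = (((1 : Matrix (Fin 2) (Fin 2) ℤ) i j : ℤ) : ZMod n) := by
      intro i j
      rw [hBe]
      push_cast
      simp
    refine ⟨?_, ?_, ?_, ?_⟩
    · have := hc 0 0; simpa using this
    · have := hc 0 1; simpa using this
    · have := hc 1 0; simpa using this
    · have := hc 1 1; simpa using this
  · apply Units.ext
    rw [emb_val, ← hB]
    ext i j
    fin_cases i <;> fin_cases j <;> rfl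

theorem tendsto_conj (g : GG) : Tendsto (fun x => g * x * g⁻¹) cofil cofil := by
  intro s hs
  obtain ⟨n, hn, hs⟩ := mem_cofil.mp hs
  obtain ⟨m, hm, h⟩ := exists_conj_mem g hn
  refine mem_cofil.mpr ⟨m, hm, ?_⟩
  rintro x ⟨γ, hγ, rfl⟩
  obtain ⟨δ, hδ, h2⟩ := h γ hγ
  exact hs ⟨δ, hδ, h2.symm⟩

section HG

variable (K : Type*) [CommRing K]

/-- Functions vanishing near the identity. -/
def nul : Submodule K (GG → K) where
  carrier := {F | ∀ᶠ x in cofil, F x = 0}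
  zero_mem' := Eventually.of_forall fun _ => rfl
  add_mem' {F G} hF hG := by
    filter_upwards [hF, hG] with x h1 h2
    rw [Pi.add_apply, h1, h2, add_zero]
  smul_mem' c F hF := by
    filter_upwards [hF] with x h1
    rw [Pi.smul_apply, h1, smul_zero]

/-- Germs of functions at the congruence filter. -/
abbrev HG : Type _ := (GG → K) ⧸ nul K

variable {K}

theorem HG_eq_iff {F G : GG → K} :
    (nul K).mkQ F = (nul K).mkQ G ↔ ∃ n : ℕ, 0 < n ∧ ∀ γ ∈ Gamma n, F (emb γ) = G (emb γ) := by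
  rw [Submodule.mkQ_apply, Submodule.mkQ_apply, Submodule.Quotient.eq]
  change (∀ᶠ x in cofil, (F - G) x = 0) ↔ _
  rw [eventually_cofil]
  simp only [Pi.sub_apply, sub_eq_zero]

variable (K) in
/-- The right action of `GL(2, ℚ)` by conjugation. -/
def act (g : GG) : HG K →ₗ[K] HG K :=
  Submodule.mapQ _ _ (LinearMap.funLeft K K fun x => g * x * g⁻¹) fun _ hF =>
    (tendsto_conj g).eventually hF

theorem act_mkQ (g : GG) (F : GG → K) :
    act K g ((nul K).mkQ F) = (nul K).mkQ fun x => F (g * x * g⁻¹) := rfl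

theorem act_mul (g h : GG) (v : HG K) : act K (g * h) v = act K h (act K g v) := by
  obtain ⟨F, rfl⟩ := (nul K).mkQ_surjective v
  rw [act_mkQ, act_mkQ, act_mkQ]
  congr 1
  funext x
  congr 1
  group

theorem act_one (v : HG K) : act K 1 v = v := by
  obtain ⟨F, rfl⟩ := (nul K).mkQ_surjective v
  rw [act_mkQ]
  congr 1
  funext x
  congr 1
  group

theorem act_inv_act (g : GG) (v : HG K) : act K g⁻¹ (act K g v) = v := by
  rw [← act_mul, mul_inv_cancel, act_one]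

theorem act_act_inv (g : GG) (v : HG K) : act K g (act K g⁻¹ v) = v := by
  rw [← act_mul, inv_mul_cancel, act_one]

theorem act_injective (g : GG) : Function.Injective (act K g) := fun a b h => by
  rw [← act_inv_act g a, h, act_inv_act]

theorem act_central {g : GG} (hg : ∀ x : GG, g * x = x * g) (v : HG K) : act K g v = v := by
  obtain ⟨F, rfl⟩ := (nul K).mkQ_surjective v
  rw [act_mkQ]
  congr 1
  funext x
  rw [hg, mul_assoc, mul_inv_cancel, mul_one]

open Classical in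
/-- Extension by zero of a homomorphism. -/
def extF {Γ : Subgroup SL(2, ℤ)} (φ : HM Γ K) : GG → K := fun x =>
  if h : ∃ γ : Γ, emb γ = x then φ (Additive.ofMul h.choose) else 0

theorem extF_emb {Γ : Subgroup SL(2, ℤ)} (φ : HM Γ K) (γ : Γ) :
    extF φ (emb γ) = φ (Additive.ofMul γ) := by
  have h : ∃ δ : Γ, emb δ = emb γ := ⟨γ, rfl⟩
  unfold extF
  rw [dif_pos h]
  congr 2
  exact Subtype.ext (emb_injective h.choose_spec)

variable (K) in
/-- The germ of a homomorphism. -/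
def germ {Γ : Subgroup SL(2, ℤ)} : HM Γ K →ₗ[K] HG K where
  toFun φ := (nul K).mkQ (extF φ)
  map_add' φ φ' := by
    rw [← map_add]
    congr 1
    funext x
    unfold extF
    rw [Pi.add_apply]
    split_ifs
    · rfl
    · rw [add_zero]
  map_smul' c φ := by
    rw [RingHom.id_apply, ← map_smul]
    congr 1
    funext x
    unfold extF
    rw [Pi.smul_apply]
    split_ifs
    · rfl
    · rw [smul_zero]

theorem germ_apply {Γ : Subgroup SL(2, ℤ)} (φ : HM Γ K) : germ K φ = (nul K).mkQ (extF φ) := rfl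

/-- `Γ` is a congruence subgroup. -/
def IsCong (Γ : Subgroup SL(2, ℤ)) : Prop := ∃ n : ℕ, 0 < n ∧ Gamma n ≤ Γ

theorem isCong_Gamma {n : ℕ} (hn : 0 < n) : IsCong (Gamma n) := ⟨n, hn, le_rfl⟩

theorem Gamma_le_Gamma0 (N : ℕ) : Gamma N ≤ Gamma0 N := fun γ hγ => by
  rw [Gamma0_mem]; rw [Gamma_mem] at hγ; exact hγ.2.2.1

theorem isCong_Gamma0 (N : ℕ) [NeZero N] : IsCong (Gamma0 N) :=
  ⟨N, Nat.pos_of_ne_zero (NeZero.ne N), Gamma_le_Gamma0 N⟩

theorem Gamma_le_GamH (N : ℕ) (H : Subgroup (ZMod N)ˣ) : Gamma N ≤ GamH N H := fun γ hγ => by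
  have h0 := Gamma_le_Gamma0 N hγ
  refine mem_GamH.mpr ⟨h0, ?_⟩
  have : dChar N ⟨γ, h0⟩ = 1 := by
    apply Units.ext
    rw [dChar_val]
    rw [Gamma_mem] at hγ
    exact hγ.2.2.2
  rw [this]
  exact one_mem H

theorem isCong_GamH (N : ℕ) [NeZero N] (H : Subgroup (ZMod N)ˣ) : IsCong (GamH N H) :=
  ⟨N, Nat.pos_of_ne_zero (NeZero.ne N), Gamma_le_GamH N H⟩

/-- Comparison of germs. -/
theorem germ_eq_act {Γ Γ' : Subgroup SL(2, ℤ)} (φ : HM Γ K) (φ' : HM Γ' K) (g : GG)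
    (h : ∃ n : ℕ, 0 < n ∧ ∀ γ ∈ Gamma n, ∃ (h' : γ ∈ Γ') (δ : Γ), g * emb γ * g⁻¹ = emb δ ∧
      φ' (Additive.ofMul ⟨γ, h'⟩) = φ (Additive.ofMul δ)) :
    germ K φ' = act K g (germ K φ) := by
  rw [germ_apply, germ_apply, act_mkQ, HG_eq_iff]
  obtain ⟨n, hn, h⟩ := h
  refine ⟨n, hn, fun γ hγ => ?_⟩
  obtain ⟨h', δ, h1, h2⟩ := h γ hγ
  rw [h1, extF_emb]
  rw [← h2]
  exact extF_emb φ' ⟨γ, h'⟩

/-- Germs determine the homomorphism, if the values have no torsion. -/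
theorem germ_injective [CharZero K] [NoZeroDivisors K] {Γ : Subgroup SL(2, ℤ)} :
    Function.Injective (germ K (Γ := Γ)) := by
  refine (injective_iff_map_eq_zero _).mpr fun φ hφ => ?_
  have h0 : (0 : HG K) = (nul K).mkQ 0 := (map_zero _).symm
  rw [germ_apply, h0, HG_eq_iff] at hφ
  obtain ⟨n, hn, h⟩ := hφ
  refine AddMonoidHom.ext fun γ => ?_
  have : NeZero n := ⟨hn.ne'⟩
  have : (Gamma n).Normal := Gamma_normal n
  have hpow : ((γ.toMul : SL(2, ℤ)) ^ (Gamma n).index) ∈ Gamma n :=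
    Subgroup.pow_index_mem (Gamma n) _
  have h1 := h _ hpow
  have h2 : emb ((γ.toMul : SL(2, ℤ)) ^ (Gamma n).index) =
    emb ((γ.toMul ^ (Gamma n).index : Γ) : SL(2, ℤ)) := by rw [Subgroup.coe_pow]
  rw [h2, extF_emb] at h1
  have h3 : φ (Additive.ofMul (γ.toMul ^ (Gamma n).index)) = (Gamma n).index • φ γ := by
    have : Additive.ofMul (γ.toMul ^ (Gamma n).index) = (Gamma n).index • γ := rfl
    rw [this, map_nsmul]
  rw [h3, Pi.zero_apply, nsmul_eq_mul] at h1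
  have h4 : ((Gamma n).index : K) ≠ 0 := by
    have : (Gamma n).index ≠ 0 := Subgroup.FiniteIndex.index_ne_zero
    exact_mod_cast this
  rw [AddMonoidHom.zero_apply]
  exact (mul_eq_zero.mp h1).resolve_left h4

/-- Operators on homomorphisms in terms of germs. -/
theorem germ_rep {Γ Γ' : Subgroup SL(2, ℤ)} (hΓ : IsCong Γ) (hΓ' : IsCong Γ') {ι : Type*}
    [Fintype ι] {w : ι → K} {α : ι → GG} {F : HM Γ K → HM Γ' K} (hF : Rep w α F) (φ : HM Γ K) :
    germ K (F φ) = ∑ i, w i • act K (α i) (germ K φ) := by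
  obtain ⟨u, hu⟩ := exists_isAut φ
  have hF' := hF φ u hu
  obtain ⟨n, hn, hnΓ⟩ := hΓ
  obtain ⟨n', hn', hnΓ'⟩ := hΓ'
  have e : (∑ i, w i • act K (α i) (germ K φ)) =
      (nul K).mkQ fun x => ∑ i, w i • extF φ (α i * x * (α i)⁻¹) := by
    have e1 : (fun x => ∑ i, w i • extF φ (α i * x * (α i)⁻¹)) =
        ∑ i, w i • fun x => extF φ (α i * x * (α i)⁻¹) := by
      funext x
      rw [Finset.sum_apply]
      rfl
    rw [e1, map_sum]
    refine Finset.sum_congr rfl fun i _ => ?_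
    rw [map_smul, germ_apply, act_mkQ]
  rw [e, germ_apply]
  choose m hm hmem using fun i => exists_conj_mem (α i) hn
  rw [HG_eq_iff]
  refine ⟨n' * ∏ i, m i, Nat.mul_pos hn' (Finset.prod_pos fun i _ => hm i), fun γ hγ => ?_⟩
  have hγ' : γ ∈ Γ' := hnΓ' (Gamma_anti (Dvd.intro _ rfl) hγ)
  have hδ : ∀ i, ∃ δ : Γ, α i * emb γ * (α i)⁻¹ = emb δ := fun i => by
    have h1 : γ ∈ Gamma (m i) := Gamma_anti
      ((Finset.dvd_prod_of_mem m (Finset.mem_univ i)).trans (Dvd.intro_left _ rfl)) hγ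
    obtain ⟨δ, h2, h3⟩ := hmem i γ h1
    exact ⟨⟨δ, hnΓ h2⟩, h3⟩
  choose δ hδ using hδ
  have h1 := hF' ⟨γ, hγ'⟩ 1
  simp only [mul_one] at h1
  have h2 : ∀ i, u (α i * emb γ) = φ (Additive.ofMul (δ i)) + u (α i) := fun i => by
    have h3 : α i * emb γ = emb (δ i) * α i := by
      rw [← hδ i, inv_mul_cancel_right]
    rw [h3, hu]
  have h4 : extF (F φ) (emb γ) = F φ (Additive.ofMul ⟨γ, hγ'⟩) := extF_emb (F φ) ⟨γ, hγ'⟩
  rw [h4]
  have h5 : ∀ i, extF φ (α i * emb γ * (α i)⁻¹) = φ (Additive.ofMul (δ i)) := fun i => by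
    rw [hδ i, extF_emb]
  simp only [h5]
  have h6 : ∑ i, w i • u (α i * emb γ) = (∑ i, w i • φ (Additive.ofMul (δ i))) +
      ∑ i, w i • u (α i) := by
    rw [← Finset.sum_add_distrib]
    exact Finset.sum_congr rfl fun i _ => by rw [h2, smul_add]
  have h7 : (∑ i, w i • u (α i * emb ((⟨γ, hγ'⟩ : Γ') : SL(2, ℤ)))) =
    ∑ i, w i • u (α i * emb γ) := rfl
  rw [h7, h6] at h1
  exact (add_right_cancel h1).symm

/-- A germ of a homomorphism is invariant under the group. -/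
theorem act_germ_of_mem {Γ : Subgroup SL(2, ℤ)} (hΓ : IsCong Γ) (φ : HM Γ K) {γ : SL(2, ℤ)}
    (hγ : γ ∈ Γ) : act K (emb γ) (germ K φ) = germ K φ := by
  obtain ⟨n, hn, hnΓ⟩ := hΓ
  refine (germ_eq_act φ φ (emb γ) ⟨n, hn, fun x hx => ?_⟩).symm
  have hx' : x ∈ Γ := hnΓ hx
  refine ⟨hx', ⟨γ * x * γ⁻¹, Γ.mul_mem (Γ.mul_mem hγ hx') (Γ.inv_mem hγ)⟩, ?_, ?_⟩
  · simp only [map_mul, map_inv]
  · have h1 : (Additive.ofMul (⟨γ * x * γ⁻¹, Γ.mul_mem (Γ.mul_mem hγ hx') (Γ.inv_mem hγ)⟩ : Γ)) =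
      Additive.ofMul (⟨γ, hγ⟩ : Γ) + Additive.ofMul (⟨x, hx'⟩ : Γ) +
        -Additive.ofMul (⟨γ, hγ⟩ : Γ) := rfl
    rw [h1, map_add, map_add, map_neg]
    abel

end HG

end Fermat.Agent.H22
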