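import Fermat.Agent.H22.GamHLin

set_option autoImplicit false

noncomputable section

/-! ### Ihara's lemma, part 1: invariance under `SL(2, ℤ[1/q])` -/

namespace Fermat.Agent.H22

open CongruenceSubgroup Function
open scoped MatrixGroups

section Ext

variable {A : Type*} [CommGroup A] {Γ : Subgroup SL(2, ℤ)}

open Classical in
/-- Extension of a character by `1`. -/
def ex (φ : Γ →* A) (γ : SL(2, ℤ)) : A := if h : γ ∈ Γ then φ ⟨γ, h⟩ else 1

variable (φ : Γ →* A)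

theorem ex_of_mem {γ : SL(2, ℤ)} (h : γ ∈ Γ) : ex φ γ = φ ⟨γ, h⟩ := dif_pos h

theorem ex_coe (γ : Γ) : ex φ γ = φ γ := ex_of_mem φ γ.2

theorem ex_mul {γ δ : SL(2, ℤ)} (h : γ ∈ Γ) (h' : δ ∈ Γ) : ex φ (γ * δ) = ex φ γ * ex φ δ := by
  rw [ex_of_mem φ h, ex_of_mem φ h', ex_of_mem φ (Γ.mul_mem h h'), ← map_mul]
  rfl

theorem ex_inv {γ : SL(2, ℤ)} (h : γ ∈ Γ) : ex φ γ⁻¹ = (ex φ γ)⁻¹ := by
  rw [ex_of_mem φ h, ex_of_mem φ (Γ.inv_mem h), ← map_inv]
  rfl

theorem ex_conj {η γ : SL(2, ℤ)} (hη : η ∈ Γ) (h : γ ∈ Γ) : ex φ (η * γ * η⁻¹) = ex φ γ := by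
  rw [ex_mul φ (Γ.mul_mem hη h) (Γ.inv_mem hη), ex_mul φ hη h, ex_inv φ hη, mul_right_comm,
    mul_inv_cancel, one_mul]

theorem ex_conj' {η γ : SL(2, ℤ)} (hη : η ∈ Γ) (h : γ ∈ Γ) : ex φ (η⁻¹ * γ * η) = ex φ γ := by
  have := ex_conj φ (Γ.inv_mem hη) h
  rwa [inv_inv] at this

end Ext

/-- `(1 t; 0 1)` -/
def e12 (t : ℤ) : SL(2, ℤ) := ⟨!![1, t; 0, 1], by rw [Matrix.det_fin_two_of]; ring⟩

/-- `(1 0; s 1)` -/
def e21 (s : ℤ) : SL(2, ℤ) := ⟨!![1, 0; s, 1], by rw [Matrix.det_fin_two_of]; ring⟩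

theorem e12_mem (N : ℕ) (t : ℤ) : e12 t ∈ Gamma0 N := mem_Gamma0_iff_dvd.mpr (dvd_zero _)

theorem e21_mem {N : ℕ} {s : ℤ} (h : (N : ℤ) ∣ s) : e21 s ∈ Gamma0 N := mem_Gamma0_iff_dvd.mpr h

theorem e12_add (s t : ℤ) : e12 (s + t) = e12 s * e12 t := by
  ext i j
  rw [mul_entry]
  fin_cases i <;> fin_cases j <;> simp [e12, add_comm]

theorem e21_add (s t : ℤ) : e21 (s + t) = e21 s * e21 t := by
  ext i j
  rw [mul_entry]
  fin_cases i <;> fin_cases j <;> simp [e21]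

theorem e12_zero : e12 0 = 1 := by
  ext i j
  fin_cases i <;> fin_cases j <;> simp [e12]

theorem e21_zero : e21 0 = 1 := by
  ext i j
  fin_cases i <;> fin_cases j <;> simp [e21]

theorem e12_neg (t : ℤ) : e12 (-t) = (e12 t)⁻¹ := by
  rw [eq_inv_iff_mul_eq_one, ← e12_add, neg_add_cancel, e12_zero]

theorem e21_neg (t : ℤ) : e21 (-t) = (e21 t)⁻¹ := by
  rw [eq_inv_iff_mul_eq_one, ← e21_add, neg_add_cancel, e21_zero]

theorem e12_zsmul (n t : ℤ) : e12 (n * t) = e12 t ^ n := by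
  induction n using Int.induction_on with
  | zero => rw [zero_mul, e12_zero, zpow_zero]
  | succ n ih => rw [add_mul, one_mul, e12_add, ih, zpow_add_one]
  | pred n ih => rw [sub_mul, one_mul, sub_eq_add_neg, e12_add, ih, e12_neg, zpow_sub_one]

theorem e21_zsmul (n t : ℤ) : e21 (n * t) = e21 t ^ n := by
  induction n using Int.induction_on with
  | zero => rw [zero_mul, e21_zero, zpow_zero]
  | succ n ih => rw [add_mul, one_mul, e21_add, ih, zpow_add_one]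
  | pred n ih => rw [sub_mul, one_mul, sub_eq_add_neg, e21_add, ih, e21_neg, zpow_sub_one]

/-- An element of `SL(2, ℤ)` from its entries. -/
def mkSL (a b c d : ℤ) (h : a * d - b * c = 1) : SL(2, ℤ) :=
  ⟨!![a, b; c, d], by rw [Matrix.det_fin_two_of]; exact h⟩

section Inv

variable {N : ℕ} {A : Type*} [CommGroup A] (φ : Gamma0 N →* A) {q : ℕ}

/-- Invariance of `φ` under conjugation by `diag(r, 1)`: `g = (a b; rc d)`, `g' = (a rb; c d)`. -/
def InvR (r : ℤ) : Prop :=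
  ∀ (a b c d : ℤ) (h : a * d - b * (r * c) = 1) (h' : a * d - r * b * c = 1), (N : ℤ) ∣ c →
    ex φ (mkSL a b (r * c) d h) = ex φ (mkSL a (r * b) c d h')

theorem ext_entries {γ δ : SL(2, ℤ)} (h00 : γ 0 0 = δ 0 0) (h01 : γ 0 1 = δ 0 1)
    (h10 : γ 1 0 = δ 1 0) (h11 : γ 1 1 = δ 1 1) : γ = δ := by
  ext i j
  fin_cases i <;> fin_cases j
  exacts [h00, h01, h10, h11]

/-- The case of a matrix whose first column is not divisible by `q`. -/
theorem inv_step (hq : q.Prime) (hU : InvR φ ((q : ℤ) ^ 2)) (n : ℕ)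
    (ih : ∀ (a b c d : ℤ), a * d - b * c = (q : ℤ) ^ (2 * n) → (N : ℤ) ∣ c →
      ∀ g g' : SL(2, ℤ), g ∈ Gamma0 N → g' ∈ Gamma0 N →
        (g' : Matrix (Fin 2) (Fin 2) ℤ) * !![a, b; c, d] = !![a, b; c, d] * g →
          ex φ g' = ex φ g)
    (a b c d : ℤ) (hdet : a * d - b * c = (q : ℤ) ^ (2 * (n + 1))) (hc : (N : ℤ) ∣ c)
    (hcol : ¬ ((q : ℤ) ∣ a ∧ (q : ℤ) ∣ c)) (g g' : SL(2, ℤ)) (hg : g ∈ Gamma0 N)
    (hg' : g' ∈ Gamma0 N)
    (h : (g' : Matrix (Fin 2) (Fin 2) ℤ) * !![a, b; c, d] = !![a, b; c, d] * g) :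
    ex φ g' = ex φ g := by
  have hqq : Prime (q : ℤ) := Nat.prime_iff_prime_int.mp hq
  have hq2 : (q : ℤ) ^ 2 ≠ 0 := pow_ne_zero _ hqq.ne_zero
  have hpow : (q : ℤ) ^ (2 * (n + 1)) = (q : ℤ) ^ 2 * (q : ℤ) ^ (2 * n) := by
    rw [← pow_add]; congr 1; ring
  -- make the second column divisible by `q²`
  obtain ⟨t, v0, v1, hv0, hv1⟩ : ∃ t v0 v1 : ℤ, b + t * a = (q : ℤ) ^ 2 * v0 ∧
      d + t * c = (q : ℤ) ^ 2 * v1 := by
    by_cases ha : (q : ℤ) ∣ a
    · have hc' : ¬ (q : ℤ) ∣ c := fun h1 => hcol ⟨ha, h1⟩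
      obtain ⟨u, v, huv⟩ := ((hqq.coprime_iff_not_dvd.mpr hc').symm.pow_right (n := 2))
      refine ⟨-(u * d), -(u * (q : ℤ) ^ (2 * n)) + v * b, v * d, ?_, ?_⟩
      · rw [hpow] at hdet
        linear_combination (-u) * hdet - b * huv
      · linear_combination (-d) * huv
    · obtain ⟨u, v, huv⟩ := ((hqq.coprime_iff_not_dvd.mpr ha).symm.pow_right (n := 2))
      refine ⟨-(u * b), v * b, u * (q : ℤ) ^ (2 * n) + v * d, ?_, ?_⟩
      · linear_combination (-b) * huv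
      · rw [hpow] at hdet
        linear_combination u * hdet - d * huv
  -- entries of the relation
  have hE : ∀ i j, ((g' : Matrix (Fin 2) (Fin 2) ℤ) * !![a, b; c, d]) i j =
      (!![a, b; c, d] * (g : Matrix (Fin 2) (Fin 2) ℤ)) i j := fun i j => by rw [h]
  have h00 : g' 0 0 * a + g' 0 1 * c = a * g 0 0 + b * g 1 0 := by
    have := hE 0 0; simpa [Matrix.mul_apply, Fin.sum_univ_two] using this
  have h01 : g' 0 0 * b + g' 0 1 * d = a * g 0 1 + b * g 1 1 := by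
    have := hE 0 1; simpa [Matrix.mul_apply, Fin.sum_univ_two] using this
  have h10 : g' 1 0 * a + g' 1 1 * c = c * g 0 0 + d * g 1 0 := by
    have := hE 1 0; simpa [Matrix.mul_apply, Fin.sum_univ_two] using this
  have h11 : g' 1 0 * b + g' 1 1 * d = c * g 0 1 + d * g 1 1 := by
    have := hE 1 1; simpa [Matrix.mul_apply, Fin.sum_univ_two] using this
  -- `g₂ = e12(-t) g e12(t)`
  have hdg := det_eq g
  set a2 := g 0 0 - t * g 1 0 with ha2
  set b2 := g 0 1 + g 0 0 * t - t * g 1 1 - t * g 1 0 * t with hb2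
  set c2 := g 1 0 with hc2
  set d2 := g 1 0 * t + g 1 1 with hd2
  have hdet2 : a2 * d2 - b2 * c2 = 1 := by
    rw [ha2, hb2, hc2, hd2]
    linear_combination hdg
  have hg2 : mkSL a2 b2 c2 d2 hdet2 = e12 (-t) * g * (e12 (-t))⁻¹ := by
    rw [← e12_neg, neg_neg]
    apply ext_entries
    · rw [mul_entry, mul_entry, mul_entry]
      simp [mkSL, e12, ha2]
      ring
    · rw [mul_entry, mul_entry, mul_entry]
      simp [mkSL, e12, hb2]
      ring
    · rw [mul_entry, mul_entry, mul_entry]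
      simp [mkSL, e12, hc2]
    · rw [mul_entry, mul_entry, mul_entry]
      simp [mkSL, e12, hd2]
  have hexg2 : ex φ (mkSL a2 b2 c2 d2 hdet2) = ex φ g := by
    rw [hg2, ex_conj φ (e12_mem N _) hg]
  -- `q² ∣ b2`
  have k0 : b2 * a = (q : ℤ) ^ 2 * (g' 0 0 * v0 + g' 0 1 * v1 - d2 * v0) := by
    rw [hb2, hd2]
    linear_combination -h01 - t * h00 + (g' 0 0 - (g 1 0 * t + g 1 1)) * hv0 + g' 0 1 * hv1
  have k1 : b2 * c = (q : ℤ) ^ 2 * (g' 1 0 * v0 + g' 1 1 * v1 - d2 * v1) := by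
    rw [hb2, hd2]
    linear_combination -h11 - t * h10 + g' 1 0 * hv0 + (g' 1 1 - (g 1 0 * t + g 1 1)) * hv1
  obtain ⟨b3, hb3⟩ : (q : ℤ) ^ 2 ∣ b2 := by
    by_cases ha : (q : ℤ) ∣ a
    · have hc' : ¬ (q : ℤ) ∣ c := fun h1 => hcol ⟨ha, h1⟩
      exact ((hqq.coprime_iff_not_dvd.mpr hc').pow_left).dvd_of_dvd_mul_right ⟨_, k1⟩
    · exact ((hqq.coprime_iff_not_dvd.mpr ha).pow_left).dvd_of_dvd_mul_right ⟨_, k0⟩
  obtain ⟨c3, hc3⟩ := mem_Gamma0_iff_dvd.mp hg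
  have hdet3 : a2 * d2 - b3 * ((q : ℤ) ^ 2 * c2) = 1 := by
    rw [hb3] at hdet2
    linear_combination hdet2
  have hdet3' : a2 * d2 - (q : ℤ) ^ 2 * b3 * c2 = 1 := by
    rw [hb3] at hdet2
    linear_combination hdet2
  have e1 : ex φ (mkSL a2 b3 ((q : ℤ) ^ 2 * c2) d2 hdet3) = ex φ g := by
    rw [hU a2 b3 c2 d2 hdet3 hdet3' ⟨c3, hc3⟩, ← hexg2]
    congr 1
    exact Subtype.ext (by simp [mkSL, hb3])
  rw [← e1]
  refine ih a v0 c v1 ?_ hc _ g' (mem_Gamma0_iff_dvd.mpr ?_) hg' ?_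
  · apply mul_left_cancel₀ hq2
    rw [← hpow, ← hdet]
    linear_combination (-a) * hv1 + c * hv0
  · change (N : ℤ) ∣ (q : ℤ) ^ 2 * c2
    exact Dvd.dvd.mul_left ⟨c3, hc3⟩ _
  · have m00 : g' 0 0 * a + g' 0 1 * c = a * a2 + v0 * ((q : ℤ) ^ 2 * c2) := by
      rw [ha2]
      linear_combination h00 + c2 * hv0
    have m01 : g' 0 0 * v0 + g' 0 1 * v1 = a * b3 + v0 * d2 := by
      apply mul_left_cancel₀ hq2
      rw [hb3] at k0
      linear_combination -k0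
    have m10 : g' 1 0 * a + g' 1 1 * c = c * a2 + v1 * ((q : ℤ) ^ 2 * c2) := by
      rw [ha2]
      linear_combination h10 + c2 * hv1
    have m11 : g' 1 0 * v0 + g' 1 1 * v1 = c * b3 + v1 * d2 := by
      apply mul_left_cancel₀ hq2
      rw [hb3] at k1
      linear_combination -k1
    ext i j
    fin_cases i <;> fin_cases j
    · simpa [Matrix.mul_apply, Fin.sum_univ_two, mkSL] using m00
    · simpa [Matrix.mul_apply, Fin.sum_univ_two, mkSL] using m01
    · simpa [Matrix.mul_apply, Fin.sum_univ_two, mkSL] using m10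
    · simpa [Matrix.mul_apply, Fin.sum_univ_two, mkSL] using m11

/-- **Invariance** of `φ` under conjugation by integral matrices of determinant `q^(2n)` with lower
left entry divisible by `N`. -/
theorem inv_main (hq : q.Prime) (hqN : ¬ q ∣ N) (hU : InvR φ ((q : ℤ) ^ 2)) (n : ℕ) :
    ∀ (a b c d : ℤ), a * d - b * c = (q : ℤ) ^ (2 * n) → (N : ℤ) ∣ c →
      ∀ g g' : SL(2, ℤ), g ∈ Gamma0 N → g' ∈ Gamma0 N →
        (g' : Matrix (Fin 2) (Fin 2) ℤ) * !![a, b; c, d] = !![a, b; c, d] * g →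
          ex φ g' = ex φ g := by
  have hqq : Prime (q : ℤ) := Nat.prime_iff_prime_int.mp hq
  have hqN' : IsCoprime (q : ℤ) (N : ℤ) :=
    Nat.isCoprime_iff_coprime.mpr (hq.coprime_iff_not_dvd.mpr hqN)
  induction n with
  | zero =>
    intro a b c d hdet hc g g' hg hg' h
    rw [mul_zero, pow_zero] at hdet
    have h1 : g' = mkSL a b c d hdet * g * (mkSL a b c d hdet)⁻¹ := by
      rw [eq_mul_inv_iff_mul_eq]
      exact Subtype.ext h
    rw [h1, ex_conj φ (mem_Gamma0_iff_dvd.mpr hc) hg]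
  | succ n ih =>
    intro a b c d hdet hc g g' hg hg' h
    by_cases hcol : (q : ℤ) ∣ a ∧ (q : ℤ) ∣ c
    · by_cases hcol' : (q : ℤ) ∣ b ∧ (q : ℤ) ∣ d
      · -- everything divisible by `q`
        obtain ⟨⟨a', rfl⟩, ⟨c', rfl⟩⟩ := hcol
        obtain ⟨⟨b', rfl⟩, ⟨d', rfl⟩⟩ := hcol'
        refine ih a' b' c' d' ?_ (hqN'.symm.dvd_of_dvd_mul_left hc) g g' hg hg' ?_
        · apply mul_left_cancel₀ (pow_ne_zero 2 hqq.ne_zero)
          rw [← pow_add]
          rw [show 2 + 2 * n = 2 * (n + 1) by ring, ← hdet]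
          ring
        · have h2 : (!![(q : ℤ) * a', q * b'; q * c', q * d'] : Matrix (Fin 2) (Fin 2) ℤ) =
              (q : ℤ) • !![a', b'; c', d'] := by
            ext i j
            fin_cases i <;> fin_cases j <;> simp
          rw [h2, Matrix.mul_smul, Matrix.smul_mul] at h
          exact smul_right_injective _ hqq.ne_zero h
      · -- multiply by `e21 N`
        have h1 : !![a + N * b, b; c + N * d, d] =
            !![a, b; c, d] * (e21 N : Matrix (Fin 2) (Fin 2) ℤ) := by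
          ext i j
          fin_cases i <;> fin_cases j <;> simp [e21, Matrix.mul_apply, Fin.sum_univ_two, mul_comm]
        have hmem : e21 N ∈ Gamma0 N := e21_mem (dvd_refl _)
        have h2 := inv_step φ hq hU n ih (a + N * b) b (c + N * d) d
          (by rw [← hdet]; ring) (dvd_add hc (dvd_mul_right _ _)) (by
            rintro ⟨h3, h4⟩
            apply hcol'
            exact ⟨hqN'.dvd_of_dvd_mul_left ((dvd_add_right hcol.1).mp h3),
              hqN'.dvd_of_dvd_mul_left ((dvd_add_right hcol.2).mp h4)⟩)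
          ((e21 N)⁻¹ * g * e21 N) g' ((Gamma0 N).mul_mem ((Gamma0 N).mul_mem
            ((Gamma0 N).inv_mem hmem) hg) hmem) hg' (by
            have h5 : e21 N * ((e21 N)⁻¹ * g * e21 N) = g * e21 N := by group
            rw [h1, ← mul_assoc, h, mul_assoc, mul_assoc,
              ← Matrix.SpecialLinearGroup.coe_mul, ← Matrix.SpecialLinearGroup.coe_mul, h5])
        rw [h2, ex_conj' φ hmem hg]
    · exact inv_step φ hq hU n ih a b c d hdet hc hcol g g' hg hg' h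

end Inv

end Fermat.Agent.H22
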