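import Fermat.Agent.H22.Ihara1

set_option autoImplicit false

noncomputable section

/-! ### Ihara's lemma, part 2: the period argument -/

namespace Fermat.Agent.H22

open CongruenceSubgroup Function
open scoped MatrixGroups

/-- `Γ₀(N) ∩ Γ(ℓ)` -/
def HH (N ℓ : ℕ) : Subgroup SL(2, ℤ) := Gamma0 N ⊓ Gamma ℓ

theorem mem_Gamma_iff_dvd {ℓ : ℕ} {γ : SL(2, ℤ)} : γ ∈ Gamma ℓ ↔
    (ℓ : ℤ) ∣ γ 0 0 - 1 ∧ (ℓ : ℤ) ∣ γ 0 1 ∧ (ℓ : ℤ) ∣ γ 1 0 ∧ (ℓ : ℤ) ∣ γ 1 1 - 1 := by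
  rw [Gamma_mem, ← ZMod.intCast_zmod_eq_zero_iff_dvd, ← ZMod.intCast_zmod_eq_zero_iff_dvd,
    ← ZMod.intCast_zmod_eq_zero_iff_dvd, ← ZMod.intCast_zmod_eq_zero_iff_dvd]
  push_cast
  rw [sub_eq_zero, sub_eq_zero]

theorem mem_HH {N ℓ : ℕ} {γ : SL(2, ℤ)} : γ ∈ HH N ℓ ↔ (N : ℤ) ∣ γ 1 0 ∧
    (ℓ : ℤ) ∣ γ 0 0 - 1 ∧ (ℓ : ℤ) ∣ γ 0 1 ∧ (ℓ : ℤ) ∣ γ 1 0 ∧ (ℓ : ℤ) ∣ γ 1 1 - 1 := by
  rw [← mem_Gamma_iff_dvd, ← mem_Gamma0_iff_dvd]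
  exact Iff.rfl

/-- `g = h g' h⁻¹` with `h² = diag(r, 1/r)`: `g = (a rb; c d)`, `g' = (a b; rc d)`. -/
def HR (r : ℤ) (g g' : SL(2, ℤ)) : Prop :=
  g 0 0 = g' 0 0 ∧ g 0 1 = r * g' 0 1 ∧ g' 1 0 = r * g 1 0 ∧ g 1 1 = g' 1 1

theorem HR.mul {r : ℤ} {g g' k k' : SL(2, ℤ)} (h : HR r g g') (h' : HR r k k') :
    HR r (g * k) (g' * k') := by
  obtain ⟨h1, h2, h3, h4⟩ := h
  obtain ⟨k1, k2, k3, k4⟩ := h'
  refine ⟨?_, ?_, ?_, ?_⟩ <;> rw [mul_entry, mul_entry]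
  · rw [h1, h2, k1, k3]; ring
  · rw [h1, h2, k2, k4]; ring
  · rw [h3, k1, k3, h4]; ring
  · rw [h4, h3, k2, k4]; ring

theorem inv_entries (γ : SL(2, ℤ)) : γ⁻¹ 0 0 = γ 1 1 ∧ γ⁻¹ 0 1 = -γ 0 1 ∧ γ⁻¹ 1 0 = -γ 1 0 ∧
    γ⁻¹ 1 1 = γ 0 0 := by
  rw [Matrix.SpecialLinearGroup.SL2_inv_expl]
  exact ⟨rfl, rfl, rfl, rfl⟩

theorem HR.inv {r : ℤ} {g g' : SL(2, ℤ)} (h : HR r g g') : HR r g⁻¹ g'⁻¹ := by
  obtain ⟨h1, h2, h3, h4⟩ := h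
  obtain ⟨i1, i2, i3, i4⟩ := inv_entries g
  obtain ⟨j1, j2, j3, j4⟩ := inv_entries g'
  refine ⟨?_, ?_, ?_, ?_⟩
  · rw [i1, j1, h4]
  · rw [i2, j2, h2]; ring
  · rw [i3, j3, h3]; ring
  · rw [i4, j4, h1]

/-- The properties of the character `θ_y` of `Γ₀(N) ∩ Γ(ℓ)`. -/
structure Theta (N ℓ q : ℕ) {A : Type*} [CommGroup A] (θ : HH N ℓ →* A) : Prop where
  uni : ∀ γ ∈ HH N ℓ, tr2 γ = 2 → ex θ γ = 1
  p2 : ∀ n : ℕ, (ℓ : ℤ) ∣ (q : ℤ) ^ (2 * n) - 1 → ∀ g ∈ HH N ℓ, ∀ g' ∈ HH N ℓ,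
    HR ((q : ℤ) ^ (2 * n)) g g' → ex θ g = ex θ g'

section Theta

variable {N ℓ q : ℕ} {A : Type*} [CommGroup A] {θ : HH N ℓ →* A}

theorem tr2_e12 (t : ℤ) : tr2 (e12 t) = 2 := by
  rw [tr2_def]; simp [e12]

theorem tr2_e21 (t : ℤ) : tr2 (e21 t) = 2 := by
  rw [tr2_def]; simp [e21]

theorem e12_mem_HH {t : ℤ} (h : (ℓ : ℤ) ∣ t) : e12 t ∈ HH N ℓ := by
  rw [mem_HH]
  simp [e12, h]

theorem e21_mem_HH {t : ℤ} (h : (N : ℤ) ∣ t) (h' : (ℓ : ℤ) ∣ t) : e21 t ∈ HH N ℓ := by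
  rw [mem_HH]
  simp [e21, h, h']

theorem Theta.row_eq (hθ : Theta N ℓ q θ) {γ γ' : SL(2, ℤ)} (h : γ ∈ HH N ℓ) (h' : γ' ∈ HH N ℓ)
    (h1 : γ 1 0 = γ' 1 0) (h2 : γ 1 1 = γ' 1 1) : ex θ γ = ex θ γ' := by
  obtain ⟨i1, i2, i3, i4⟩ := inv_entries γ
  have hdet := det_eq γ
  have hdet' := det_eq γ'
  have h3 : tr2 (γ' * γ⁻¹) = 2 := by
    rw [tr2_def, mul_entry, mul_entry, i1, i2, i3, i4, h1, h2]
    rw [h1, h2] at hdet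
    linear_combination hdet + hdet'
  have h4 := hθ.uni _ ((HH N ℓ).mul_mem h' ((HH N ℓ).inv_mem h)) h3
  rw [ex_mul θ h' ((HH N ℓ).inv_mem h), ex_inv θ h, mul_inv_eq_one] at h4
  exact h4.symm

/-- Existence of elements with given bottom row. -/
theorem exists_row {c d : ℤ} (h : IsCoprime c d) (hN : (N : ℤ) ∣ c) (hc : (ℓ : ℤ) ∣ c)
    (hd : (ℓ : ℤ) ∣ d - 1) : ∃ γ ∈ HH N ℓ, γ 1 0 = c ∧ γ 1 1 = d := by
  obtain ⟨u, v, huv⟩ := h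
  obtain ⟨k, hk⟩ := hc
  obtain ⟨k', hk'⟩ := hd
  -- `a = v + t c`, `b = -u + t d` with `t = u`
  refine ⟨mkSL (v + u * c) (-u + u * d) c d (by linear_combination huv), ?_, rfl, rfl⟩
  rw [mem_HH]
  refine ⟨hN, ⟨-(v * k'), ?_⟩, ⟨u * k', ?_⟩, ⟨k, hk⟩, ⟨k', hk'⟩⟩
  · change v + u * c - 1 = _
    linear_combination huv - v * hk'
  · change -u + u * d = _
    linear_combination u * hk'

open Classical in
/-- The value of `θ` on elements with bottom row `(c, d)`. -/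
def SS (θ : HH N ℓ →* A) (c d : ℤ) : A :=
  if h : ∃ γ ∈ HH N ℓ, γ 1 0 = c ∧ γ 1 1 = d then ex θ h.choose else 1

theorem Theta.SS_eq (hθ : Theta N ℓ q θ) {γ : SL(2, ℤ)} (h : γ ∈ HH N ℓ) :
    SS θ (γ 1 0) (γ 1 1) = ex θ γ := by
  have h1 : ∃ γ' ∈ HH N ℓ, γ' 1 0 = γ 1 0 ∧ γ' 1 1 = γ 1 1 := ⟨γ, h, rfl, rfl⟩
  unfold SS
  rw [dif_pos h1]
  exact hθ.row_eq h1.choose_spec.1 h h1.choose_spec.2.1 h1.choose_spec.2.2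

theorem Theta.SS_add_right (hθ : Theta N ℓ q θ) {c d t : ℤ} (h : IsCoprime c d)
    (hN : (N : ℤ) ∣ c) (hc : (ℓ : ℤ) ∣ c) (hd : (ℓ : ℤ) ∣ d - 1) (ht : (ℓ : ℤ) ∣ t) :
    SS θ c (d + t * c) = SS θ c d := by
  obtain ⟨γ, hγ, rfl, rfl⟩ := exists_row h hN hc hd
  have h1 : (γ * e12 t) 1 0 = γ 1 0 := by rw [mul_entry]; simp [e12]
  have h2 : (γ * e12 t) 1 1 = γ 1 1 + t * γ 1 0 := by
    rw [mul_entry]; simp [e12]; ring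
  have hmem := (HH N ℓ).mul_mem hγ (e12_mem_HH ht)
  have h3 := hθ.SS_eq hmem
  rw [h1, h2] at h3
  rw [h3, hθ.SS_eq hγ, ex_mul θ hγ (e12_mem_HH ht), hθ.uni _ (e12_mem_HH ht) (tr2_e12 t), mul_one]

theorem Theta.SS_add_left (hθ : Theta N ℓ q θ) {c d t : ℤ} (h : IsCoprime c d)
    (hN : (N : ℤ) ∣ c) (hc : (ℓ : ℤ) ∣ c) (hd : (ℓ : ℤ) ∣ d - 1) (ht : (N : ℤ) ∣ t)
    (ht' : (ℓ : ℤ) ∣ t) : SS θ (c + t * d) d = SS θ c d := by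
  obtain ⟨γ, hγ, rfl, rfl⟩ := exists_row h hN hc hd
  have h1 : (γ * e21 t) 1 0 = γ 1 0 + t * γ 1 1 := by
    rw [mul_entry]; simp [e21]; ring
  have h2 : (γ * e21 t) 1 1 = γ 1 1 := by
    rw [mul_entry]; simp [e21]
  have hmem := (HH N ℓ).mul_mem hγ (e21_mem_HH ht ht')
  have h3 := hθ.SS_eq hmem
  rw [h1, h2] at h3
  rw [h3, hθ.SS_eq hγ, ex_mul θ hγ (e21_mem_HH ht ht'),
    hθ.uni _ (e21_mem_HH ht ht') (tr2_e21 t), mul_one]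

theorem Theta.SS_mul (hθ : Theta N ℓ q θ) {c d : ℤ} {n : ℕ}
    (hn : (ℓ : ℤ) ∣ (q : ℤ) ^ (2 * n) - 1) (h : IsCoprime ((q : ℤ) ^ (2 * n) * c) d)
    (hN : (N : ℤ) ∣ c) (hc : (ℓ : ℤ) ∣ c) (hd : (ℓ : ℤ) ∣ d - 1) :
    SS θ ((q : ℤ) ^ (2 * n) * c) d = SS θ c d := by
  obtain ⟨γ, hγ, h1, h2⟩ := exists_row (N := N) (ℓ := ℓ) h (hN.mul_left _) (hc.mul_left _) hd
  have hdet := det_eq γ
  obtain ⟨m1, m2, m3, m4, m5⟩ := mem_HH.mp hγ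
  let g : SL(2, ℤ) := mkSL (γ 0 0) ((q : ℤ) ^ (2 * n) * γ 0 1) c (γ 1 1) (by
    rw [h1] at hdet
    linear_combination hdet)
  have hg : g ∈ HH N ℓ := mem_HH.mpr ⟨hN, m2, m3.mul_left _, hc, m5⟩
  have hHR : HR ((q : ℤ) ^ (2 * n)) g γ := ⟨rfl, rfl, h1, rfl⟩
  have h3 := hθ.p2 n hn g hg γ hγ hHR
  have h4 := hθ.SS_eq hγ
  have h5 := hθ.SS_eq hg
  rw [h1, h2] at h4
  have h6 : g 1 1 = d := h2
  have h7 : g 1 0 = c := rfl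
  rw [h6, h7] at h5
  rw [h4, h5, h3]

/-- The basic step: `s(q² c, d) = s(c, d)` if `d ≡ -1` modulo `4(ℓ-1)`. -/
theorem Theta.SS_step (hθ : Theta N ℓ q θ) (hq : q.Prime) (hℓ : ℓ.Prime) (hℓ2 : ℓ ≠ 2)
    (hqℓ : q ≠ ℓ) {c d : ℤ} (h : IsCoprime ((q : ℤ) ^ 2 * c) d)
    (hN : (N : ℤ) ∣ c) (hc : (ℓ : ℤ) ∣ c) (hd : (ℓ : ℤ) ∣ d - 1)
    (h4 : (4 * (ℓ - 1 : ℕ) : ℤ) ∣ d + 1) : SS θ ((q : ℤ) ^ 2 * c) d = SS θ c d := by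
  have hℓ1 : 2 ≤ ℓ := hℓ.two_le
  have hℓ3 : 3 ≤ ℓ := by omega
  set m := ℓ - 1 with hm
  have hm1 : 2 ≤ m := by omega
  have hq0 : (q : ℤ) ≠ 0 := by exact_mod_cast hq.ne_zero
  -- `c ≠ 0`
  have hc0 : c ≠ 0 := by
    rintro rfl
    rw [mul_zero, isCoprime_zero_left, Int.isUnit_iff] at h
    rcases h with rfl | rfl
    · obtain ⟨k, hk⟩ := h4
      have h5 : (2 : ℤ) * (2 * (m * k)) = 2 * 1 := by linear_combination (-1 : ℤ) * hk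
      have h6 := mul_left_cancel₀ (by norm_num) h5
      have h7 : (2 : ℤ) ∣ 1 := ⟨m * k, h6.symm⟩
      norm_num at h7
    · obtain ⟨k, hk⟩ := hd
      have h5 : (ℓ : ℤ) ∣ 2 := ⟨-k, by linear_combination (-1 : ℤ) * hk⟩
      have h6 : ℓ ∣ 2 := by exact_mod_cast h5
      exact hℓ2 ((Nat.prime_dvd_prime_iff_eq hℓ Nat.prime_two).mp h6)
  -- the modulus
  set Mo : ℕ := ℓ * (q ^ 2 * c.natAbs) * (4 * m) with hMo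
  have hMo0 : Mo ≠ 0 := by
    have : c.natAbs ≠ 0 := Int.natAbs_ne_zero.mpr hc0
    have h5 : q ≠ 0 := hq.ne_zero
    have h6 : ℓ ≠ 0 := hℓ.ne_zero
    have h7 : m ≠ 0 := by omega
    positivity
  have hcabs : (c.natAbs : ℤ) ∣ c ∧ c ∣ (c.natAbs : ℤ) := ⟨Int.natAbs_dvd.mpr dvd_rfl, Int.dvd_natAbs.mpr dvd_rfl⟩
  have hcopMo : IsCoprime d (Mo : ℤ) := by
    have e1 : IsCoprime d (ℓ : ℤ) := by
      obtain ⟨k, hk⟩ := hd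
      exact ⟨1, -k, by linear_combination hk⟩
    have e2 : IsCoprime d ((q : ℤ) ^ 2 * (c.natAbs : ℤ)) := by
      obtain ⟨k, hk⟩ := hcabs.1
      refine IsCoprime.of_isCoprime_of_dvd_right h.symm ?_
      exact mul_dvd_mul_left _ hcabs.1
    have e3 : IsCoprime d (4 * (m : ℤ)) := by
      obtain ⟨k, hk⟩ := h4
      exact ⟨-1, k, by linear_combination (-1 : ℤ) * hk⟩
    have e4 : (Mo : ℤ) = (ℓ : ℤ) * ((q : ℤ) ^ 2 * (c.natAbs : ℤ)) * (4 * (m : ℤ)) := by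
      rw [hMo, Nat.cast_mul, Nat.cast_mul, Nat.cast_mul, Nat.cast_pow, Nat.cast_mul]
      rfl
    rw [e4]
    exact (e1.mul_right e2).mul_right e3
  obtain ⟨p, hpgt, hp, hpd⟩ := Nat.forall_exists_prime_gt_and_zmodEq q (a := d) hMo0 hcopMo
  obtain ⟨j, hj⟩ := Int.modEq_iff_dvd.mp hpd
  obtain ⟨σ, hσ⟩ := hcabs.2
  have e4 : (Mo : ℤ) = (ℓ : ℤ) * ((q : ℤ) ^ 2 * (c * σ)) * (4 * (m : ℤ)) := by
    rw [hMo, Nat.cast_mul, Nat.cast_mul, Nat.cast_mul, Nat.cast_pow, Nat.cast_mul, hσ]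
    rfl
  rw [e4] at hj
  have hp1 : (p : ℤ) = d + (-(ℓ * ((q : ℤ) ^ 2 * σ * (4 * m) * j))) * c := by
    linear_combination (-1 : ℤ) * hj
  have hp2 : (p : ℤ) = d + (-(ℓ * (σ * (4 * m) * j))) * ((q : ℤ) ^ 2 * c) := by
    linear_combination (-1 : ℤ) * hj
  have hcp : IsCoprime ((q : ℤ) ^ 2 * c) (p : ℤ) := by
    rw [hp2]
    exact h.add_mul_right_right _
  have hcp' : IsCoprime c (p : ℤ) := hcp.of_mul_left_right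
  have hℓp : (ℓ : ℤ) ∣ (p : ℤ) - 1 := by
    obtain ⟨k, hk⟩ := hd
    exact ⟨k - (σ * (4 * m) * j) * ((q : ℤ) ^ 2 * c), by rw [hp2]; linear_combination hk⟩
  have h4p : 4 * m ∣ p + 1 := by
    obtain ⟨k, hk⟩ := h4
    have : ((4 * m : ℕ) : ℤ) ∣ ((p + 1 : ℕ) : ℤ) :=
      ⟨k - ℓ * σ * j * ((q : ℤ) ^ 2 * c), by
        push_cast
        rw [hp2]
        linear_combination hk⟩
    exact_mod_cast this
  obtain ⟨w, hw⟩ := h4p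
  have hw1 : 1 ≤ w := by
    rcases Nat.eq_zero_or_pos w with rfl | hw1
    · omega
    · exact hw1
  have hmw : w + 1 ≤ 2 * (m * w) := by nlinarith
  obtain ⟨v, hv⟩ := Nat.exists_eq_add_of_le (show 2 * w + 2 ≤ 4 * (m * w) by omega)
  obtain ⟨a1, ha1⟩ := Nat.exists_eq_add_of_le (show 1 ≤ 2 * (m * w) by omega)
  obtain ⟨u, hu⟩ := Nat.exists_eq_add_of_le (show 1 ≤ 2 * m by omega)
  have hαβ : u * a1 = m * v + 1 := by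
    have f1 : (u : ℤ) = 2 * m - 1 := by
      have : ((2 * m : ℕ) : ℤ) = ((1 + u : ℕ) : ℤ) := by rw [hu]
      push_cast at this
      linarith
    have f2 : (a1 : ℤ) = 2 * (m * w) - 1 := by
      have : ((2 * (m * w) : ℕ) : ℤ) = ((1 + a1 : ℕ) : ℤ) := by rw [ha1]
      push_cast at this
      linarith
    have f3 : (v : ℤ) = 4 * (m * w) - (2 * w + 2) := by
      have : ((4 * (m * w) : ℕ) : ℤ) = ((2 * w + 2 + v : ℕ) : ℤ) := by rw [hv]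
      push_cast at this
      linarith
    have : (u : ℤ) * a1 = m * v + 1 := by
      rw [f1, f2, f3]
      ring
    exact_mod_cast this
  have hpa : p - 1 = 2 * a1 := by
    have : 4 * m * w = 2 * (2 * (m * w)) := by ring
    omega
  -- Fermat's little theorem for `p` and `ℓ`
  have hF : ∀ (r : ℕ), r.Prime → ¬ (r ∣ q) → ∀ k : ℕ, (r : ℤ) ∣ (q : ℤ) ^ ((r - 1) * k) - 1 := by
    intro r hr hrq k
    have : Fact r.Prime := ⟨hr⟩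
    rw [← ZMod.intCast_zmod_eq_zero_iff_dvd]
    push_cast
    have h0 : (q : ZMod r) ≠ 0 := by
      intro h0
      exact hrq ((ZMod.natCast_eq_zero_iff _ _).mp h0)
    rw [pow_mul, ZMod.pow_card_sub_one_eq_one h0, one_pow, sub_self]
  have hpq : ¬ p ∣ q := fun h0 => absurd (Nat.le_of_dvd hq.pos h0) (by omega)
  have hℓq : ¬ ℓ ∣ q := fun h0 => hqℓ ((Nat.prime_dvd_prime_iff_eq hℓ hq).mp h0).symm
  have hα : (p : ℤ) ∣ (q : ℤ) ^ (2 * (u * a1)) - 1 := by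
    have := hF p hp hpq u
    rwa [hpa, show 2 * a1 * u = 2 * (u * a1) by ring] at this
  have hβ : (ℓ : ℤ) ∣ (q : ℤ) ^ (2 * (m * v)) - 1 := by
    have := hF ℓ hℓ hℓq (2 * v)
    rwa [← hm, show m * (2 * v) = 2 * (m * v) by ring] at this
  have hqp : IsCoprime (q : ℤ) (p : ℤ) :=
    Nat.isCoprime_iff_coprime.mpr ((Nat.coprime_primes hq hp).mpr (by omega))
  -- the chain of equalities
  obtain ⟨y, hy⟩ := hα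
  have s1 : SS θ c (p : ℤ) = SS θ c d := by
    rw [hp1]
    exact hθ.SS_add_right h.of_mul_left_right hN hc hd ((dvd_mul_right _ _).neg_right)
  have s2 : SS θ ((q : ℤ) ^ (2 * (u * a1)) * c) (p : ℤ) = SS θ c (p : ℤ) := by
    have := hθ.SS_add_left (t := c * y) hcp' hN hc hℓp (hN.mul_right _) (hc.mul_right _)
    rw [← this]
    congr 1
    linear_combination c * hy
  have s3 : SS θ ((q : ℤ) ^ (2 * (m * v)) * ((q : ℤ) ^ 2 * c)) (p : ℤ) =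
      SS θ ((q : ℤ) ^ 2 * c) (p : ℤ) :=
    hθ.SS_mul hβ (hqp.pow_left.mul_left hcp) (hN.mul_left _) (hc.mul_left _) hℓp
  have s4 : SS θ ((q : ℤ) ^ 2 * c) (p : ℤ) = SS θ ((q : ℤ) ^ 2 * c) d := by
    rw [hp2]
    exact hθ.SS_add_right h (hN.mul_left _) (hc.mul_left _) hd ((dvd_mul_right _ _).neg_right)
  have s5 : (q : ℤ) ^ (2 * (u * a1)) * c = (q : ℤ) ^ (2 * (m * v)) * ((q : ℤ) ^ 2 * c) := by
    rw [hαβ, show 2 * (m * v + 1) = 2 * (m * v) + 2 by ring, pow_add]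
    ring
  rw [← s4, ← s3, ← s5, s2, s1]

end Theta

end Fermat.Agent.H22
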