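import Fermat.Agent.H22.Ihara2

set_option autoImplicit false

noncomputable section

/-! ### Ihara's lemma, part 3: `θ_y = θ_1` on a deep congruence subgroup -/

namespace Fermat.Agent.H22

open CongruenceSubgroup Function
open scoped MatrixGroups

section Theta

variable {N ℓ q : ℕ} {A : Type*} [CommGroup A] {θ : HH N ℓ →* A}

theorem Theta.step_neg (hθ : Theta N ℓ q θ) (hq : q.Prime) (hℓ : ℓ.Prime) (hℓ2 : ℓ ≠ 2)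
    (hqℓ : q ≠ ℓ) {g g' : SL(2, ℤ)} (hg : g ∈ HH N ℓ) (hg' : g' ∈ HH N ℓ)
    (hHR : HR ((q : ℤ) ^ 2) g g') (h4 : (4 * (ℓ - 1 : ℕ) : ℤ) ∣ g 1 1 + 1) :
    ex θ g = ex θ g' := by
  obtain ⟨h1, h2, h3, h5⟩ := hHR
  obtain ⟨m1, m2, m3, m4, m5⟩ := mem_HH.mp hg
  have hcop : IsCoprime (g' 1 0) (g' 1 1) := ⟨-g' 0 1, g' 0 0, by
    linear_combination det_eq g'⟩
  rw [h3, ← h5] at hcop
  have h6 := hθ.SS_step hq hℓ hℓ2 hqℓ hcop m1 m4 m5 h4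
  rw [← hθ.SS_eq hg, ← hθ.SS_eq hg', h3, ← h5, h6]

/-- **The claim of step 2**: `θ(h g' h⁻¹) = θ(g')` if `d ≡ 1` modulo `4(ℓ-1)`. -/
theorem Theta.step (hθ : Theta N ℓ q θ) (hN0 : N ≠ 0) (hq : q.Prime) (hℓ : ℓ.Prime) (hℓ2 : ℓ ≠ 2)
    (hqℓ : q ≠ ℓ) {g g' : SL(2, ℤ)} (hg : g ∈ HH N ℓ) (hg' : g' ∈ HH N ℓ)
    (hHR : HR ((q : ℤ) ^ 2) g g') (h4 : (4 * (ℓ - 1 : ℕ) : ℤ) ∣ g 1 1 - 1) :
    ex θ g = ex θ g' := by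
  have hℓ1 : 2 ≤ ℓ := hℓ.two_le
  set m := ℓ - 1 with hm
  have hm1 : 1 ≤ m := by omega
  have hℓm : (ℓ : ℤ) = m + 1 := by
    have : ℓ = m + 1 := by omega
    exact_mod_cast this
  -- `d0 ≡ 1` mod `ℓ`, `d0 ≡ -1` mod `4m`
  have hcop : IsCoprime (ℓ : ℤ) (4 * (m : ℤ)) := by
    have e1 : IsCoprime (ℓ : ℤ) (4 : ℤ) := by
      have : Nat.Coprime ℓ 4 := by
        have h2 : Nat.Coprime ℓ 2 := (Nat.coprime_primes hℓ Nat.prime_two).mpr hℓ2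
        exact h2.pow_right 2
      exact_mod_cast Nat.isCoprime_iff_coprime.mpr this
    have e2 : IsCoprime (ℓ : ℤ) (m : ℤ) := ⟨1, -1, by rw [hℓm]; ring⟩
    exact e1.mul_right e2
  obtain ⟨u, v, huv⟩ := hcop
  set d0 : ℤ := -(u * ℓ) + v * (4 * m) with hd0
  have hd0ℓ : (ℓ : ℤ) ∣ d0 - 1 := ⟨-(2 * u), by rw [hd0]; linear_combination huv⟩
  have hd0m : (4 * (m : ℤ)) ∣ d0 + 1 := ⟨2 * v, by rw [hd0]; linear_combination (-1 : ℤ) * huv⟩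
  obtain ⟨x, hx⟩ := hd0ℓ
  obtain ⟨y, hy⟩ := hd0m
  -- the lower left entry
  set c1 : ℤ := 4 * m * N * ℓ with hc1
  have hq0 : (q : ℤ) ≠ 0 := by exact_mod_cast hq.ne_zero
  have hc10 : (q : ℤ) ^ 2 * c1 ≠ 0 := by
    have e1 : (m : ℤ) ≠ 0 := by
      have : m ≠ 0 := by omega
      exact_mod_cast this
    have e2 : (N : ℤ) ≠ 0 := by exact_mod_cast hN0
    have e3 : (ℓ : ℤ) ≠ 0 := by exact_mod_cast hℓ.ne_zero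
    rw [hc1]
    exact mul_ne_zero (pow_ne_zero 2 hq0)
      (mul_ne_zero (mul_ne_zero (mul_ne_zero (by norm_num) e1) e2) e3)
  have hbez : ∃ x' y' z' : ℤ, x' * ((q : ℤ) ^ 2 * c1) + y' * d0 + z' * (4 * m * ℓ) = 1 := by
    have e1 : IsCoprime d0 (ℓ : ℤ) := ⟨1, -x, by linear_combination hx⟩
    have e2 : IsCoprime d0 (4 * (m : ℤ)) := ⟨-1, y, by linear_combination (-1 : ℤ) * hy⟩
    obtain ⟨a, b, hab⟩ := e2.mul_right e1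
    exact ⟨0, a, b, by linear_combination hab⟩
  obtain ⟨x', y', z', hxyz⟩ := hbez
  obtain ⟨t, ht⟩ := exists_coprime_add_mul hc10 hxyz
  set d1 : ℤ := d0 + t * (4 * m * ℓ) with hd1
  have hd1ℓ : (ℓ : ℤ) ∣ d1 - 1 := ⟨x + t * (4 * m), by rw [hd1]; linear_combination hx⟩
  have hd1m : (4 * (m : ℤ)) ∣ d1 + 1 := ⟨y + t * ℓ, by rw [hd1]; linear_combination hy⟩
  have hc1N : (N : ℤ) ∣ c1 := ⟨4 * m * ℓ, by rw [hc1]; ring⟩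
  have hc1ℓ : (ℓ : ℤ) ∣ c1 := ⟨4 * m * N, by rw [hc1]; ring⟩
  obtain ⟨k', hk', k'1, k'2⟩ := exists_row (N := N) (ℓ := ℓ) ht (hc1N.mul_left _)
    (hc1ℓ.mul_left _) hd1ℓ
  have hdetk := det_eq k'
  obtain ⟨n1, n2, n3, n4, n5⟩ := mem_HH.mp hk'
  let k : SL(2, ℤ) := mkSL (k' 0 0) ((q : ℤ) ^ 2 * k' 0 1) c1 (k' 1 1) (by
    rw [k'1] at hdetk
    linear_combination hdetk)
  have hk : k ∈ HH N ℓ := mem_HH.mpr ⟨hc1N, n2, n3.mul_left _, hc1ℓ, n5⟩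
  have hHRk : HR ((q : ℤ) ^ 2) k k' := ⟨rfl, rfl, k'1, rfl⟩
  have hk11 : (4 * (m : ℤ)) ∣ k 1 1 + 1 := by
    change (4 * (m : ℤ)) ∣ k' 1 1 + 1
    rw [k'2]
    exact hd1m
  -- the quotient
  have hHR' : HR ((q : ℤ) ^ 2) (k⁻¹ * g) (k'⁻¹ * g') := hHRk.inv.mul hHR
  have hq11 : (4 * (m : ℤ)) ∣ (k⁻¹ * g) 1 1 + 1 := by
    obtain ⟨i1, i2, i3, i4⟩ := inv_entries k
    rw [mul_entry, i3, i4]
    have hdk := det_eq k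
    have hk10 : k 1 0 = 4 * m * (N * ℓ) := by change c1 = _; rw [hc1]; ring
    obtain ⟨a, ha⟩ := hk11
    obtain ⟨b, hb⟩ := h4
    rw [hk10] at hdk ⊢
    refine ⟨-(N * ℓ) * g 0 1 + k 0 0 * b + (a * k 0 0 - k 0 1 * (N * ℓ)), ?_⟩
    linear_combination k 0 0 * hb + k 0 0 * ha - hdk
  have r1 := hθ.step_neg hq hℓ hℓ2 hqℓ hk hk' hHRk hk11
  have r2 := hθ.step_neg hq hℓ hℓ2 hqℓ ((HH N ℓ).mul_mem ((HH N ℓ).inv_mem hk) hg)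
    ((HH N ℓ).mul_mem ((HH N ℓ).inv_mem hk') hg') hHR' hq11
  rw [ex_mul θ ((HH N ℓ).inv_mem hk) hg, ex_mul θ ((HH N ℓ).inv_mem hk') hg', ex_inv θ hk,
    ex_inv θ hk', r1] at r2
  exact mul_left_cancel r2

end Theta

end Fermat.Agent.H22
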