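import Fermat.Agent.H22.Ihara3

set_option autoImplicit false

noncomputable section

/-! ### Ihara's lemma, part 4: `θ_y = θ_1` on a deep congruence subgroup -/

namespace Fermat.Agent.H22

open CongruenceSubgroup Function
open scoped MatrixGroups

/-- `Γ₀(N)` is generated by `Γ₀(N) ∩ Γ(ℓ)`, `e12(u)`, `e21(Nv)` with `u, v` prime to `ℓ`. -/
theorem Gamma0_le_of_mem {N ℓ : ℕ} (hℓ : ℓ.Prime) (hℓN : ¬ ℓ ∣ N) (S : Subgroup SL(2, ℤ))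
    (hS : HH N ℓ ≤ S) {u v : ℤ} (hu : IsCoprime u ℓ) (hv : IsCoprime v ℓ)
    (h12 : e12 u ∈ S) (h21 : e21 (N * v) ∈ S) : Gamma0 N ≤ S := by
  have hℓℓ : Prime (ℓ : ℤ) := Nat.prime_iff_prime_int.mp hℓ
  have hℓN' : IsCoprime (N : ℤ) (ℓ : ℤ) :=
    (Nat.isCoprime_iff_coprime.mpr (hℓ.coprime_iff_not_dvd.mpr hℓN)).symm
  have hE12 : ∀ x : ℤ, e12 x ∈ S := by
    intro x
    obtain ⟨α, β, h⟩ := hu
    have h1 : x = (x * α) * u + (x * β) * ℓ := by linear_combination (-x) * h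
    rw [h1, e12_add, e12_zsmul (x * α) u, e12_zsmul (x * β) ℓ]
    exact S.mul_mem (S.zpow_mem h12 _) (S.zpow_mem (hS (e12_mem_HH (dvd_refl _))) _)
  have hE21 : ∀ x : ℤ, e21 (N * x) ∈ S := by
    intro x
    obtain ⟨α, β, h⟩ := hv
    have h1 : N * x = (x * α) * (N * v) + (x * β) * (N * ℓ) := by linear_combination (-x * N) * h
    rw [h1, e21_add, e21_zsmul (x * α) (N * v), e21_zsmul (x * β) (N * ℓ)]
    exact S.mul_mem (S.zpow_mem h21 _)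
      (S.zpow_mem (hS (e21_mem_HH (dvd_mul_right _ _) (dvd_mul_left _ _))) _)
  intro γ hγ
  -- step (i)
  obtain ⟨s, hs⟩ : ∃ s : ℤ, ¬ (ℓ : ℤ) ∣ (γ * e21 (N * s)) 1 0 := by
    have h1 : ∀ s : ℤ, (γ * e21 (N * s)) 1 0 = γ 1 0 + γ 1 1 * (N * s) := by
      intro s; rw [mul_entry]; simp [e21]
    by_cases hc : (ℓ : ℤ) ∣ γ 1 0
    · refine ⟨1, fun h => ?_⟩
      rw [h1, mul_one] at h
      have h2 := (dvd_add_right hc).mp h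
      have h3 := hℓN'.symm.dvd_of_dvd_mul_right h2
      have h4 : (ℓ : ℤ) ∣ 1 := by
        rw [← det_eq γ]
        exact dvd_sub (h3.mul_left _) (hc.mul_left _)
      exact hℓℓ.not_isUnit (isUnit_of_dvd_one h4)
    · refine ⟨0, ?_⟩
      rw [h1, mul_zero, mul_zero, add_zero]
      exact hc
  set γ1 := γ * e21 (N * s) with hγ1
  have hγ1m : γ1 ∈ Gamma0 N := (Gamma0 N).mul_mem hγ (e21_mem (dvd_mul_right _ _))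
  -- step (ii)
  obtain ⟨x, x', hx⟩ := (hℓℓ.coprime_iff_not_dvd.mpr hs).symm
  set γ2 := γ1 * e12 (x * (1 - γ1 1 1)) with hγ2
  have hγ2m : γ2 ∈ Gamma0 N := (Gamma0 N).mul_mem hγ1m (e12_mem _ _)
  have hd2 : (ℓ : ℤ) ∣ γ2 1 1 - 1 := by
    have h1 : γ2 1 1 = γ1 1 0 * (x * (1 - γ1 1 1)) + γ1 1 1 := by
      rw [hγ2, mul_entry]; simp [e12]
    rw [h1]
    exact ⟨-(x' * (1 - γ1 1 1)), by linear_combination (1 - γ1 1 1) * hx⟩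
  -- step (iii)
  obtain ⟨w, w', hw⟩ := hℓN'
  obtain ⟨d2, hd2'⟩ := hd2
  obtain ⟨c2, hc2⟩ := mem_Gamma0_iff_dvd.mp hγ2m
  set γ3 := γ2 * e21 (N * (-c2)) with hγ3
  have hγ3m : γ3 ∈ Gamma0 N := (Gamma0 N).mul_mem hγ2m (e21_mem (dvd_mul_right _ _))
  have h310 : γ3 1 0 = γ2 1 0 + γ2 1 1 * (N * (-c2)) := by
    rw [hγ3, mul_entry]; simp [e21]
  have h311 : γ3 1 1 = γ2 1 1 := by
    rw [hγ3, mul_entry]; simp [e21]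
  have hc3 : (ℓ : ℤ) ∣ γ3 1 0 := ⟨-(d2 * N * c2), by
    rw [h310, hc2]
    linear_combination (-(N : ℤ) * c2) * hd2'⟩
  have hd3 : (ℓ : ℤ) ∣ γ3 1 1 - 1 := ⟨d2, by rw [h311, hd2']⟩
  -- step (iv)
  set γ4 := e12 (-γ3 0 1) * γ3 with hγ4
  have hγ4m : γ4 ∈ Gamma0 N := (Gamma0 N).mul_mem (e12_mem _ _) hγ3m
  have h410 : γ4 1 0 = γ3 1 0 := by rw [hγ4, mul_entry]; simp [e12]
  have h411 : γ4 1 1 = γ3 1 1 := by rw [hγ4, mul_entry]; simp [e12]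
  have h401 : γ4 0 1 = γ3 0 1 + (-γ3 0 1) * γ3 1 1 := by rw [hγ4, mul_entry]; simp [e12]
  have h4 : γ4 ∈ HH N ℓ := by
    obtain ⟨c3, hc3'⟩ := hc3
    obtain ⟨d3, hd3'⟩ := hd3
    have hdet := det_eq γ4
    refine mem_HH.mpr ⟨mem_Gamma0_iff_dvd.mp hγ4m, ?_, ?_, ?_, ?_⟩
    · refine ⟨γ4 0 1 * c3 - γ4 0 0 * d3, ?_⟩
      rw [h410, h411] at hdet
      linear_combination hdet + γ4 0 1 * hc3' - γ4 0 0 * hd3'
    · exact ⟨-γ3 0 1 * d3, by rw [h401]; linear_combination (-γ3 0 1) * hd3'⟩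
    · exact ⟨c3, by rw [h410, hc3']⟩
    · exact ⟨d3, by rw [h411, hd3']⟩
  have hfin : γ = (e12 (-γ3 0 1))⁻¹ * γ4 * (e21 (N * (-c2)))⁻¹ *
      (e12 (x * (1 - γ1 1 1)))⁻¹ * (e21 (N * s))⁻¹ := by
    rw [hγ4, hγ3, hγ2, hγ1]
    group
  rw [hfin]
  exact S.mul_mem (S.mul_mem (S.mul_mem (S.mul_mem (S.inv_mem (hE12 _)) (hS h4))
    (S.inv_mem (hE21 _))) (S.inv_mem (hE12 _))) (S.inv_mem (hE21 _))

section F

variable {N ℓ q : ℕ} {A : Type*} [CommGroup A]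

/-- The properties of the character `F = φ ∘ (conjugation by diag(ℓ, 1))` of `Γ₀(Nℓ)`. -/
structure FData (N ℓ q : ℕ) {A : Type*} [CommGroup A] (F : Gamma0 (N * ℓ) →* A) : Prop where
  uni : ∀ γ ∈ Gamma0 (N * ℓ), tr2 γ = 2 → ex F γ = 1
  p2 : ∀ n : ℕ, (ℓ : ℤ) ∣ (q : ℤ) ^ (2 * n) - 1 → ∀ y ∈ Gamma0 N, ∀ g ∈ HH N ℓ, ∀ g' ∈ HH N ℓ,
    HR ((q : ℤ) ^ (2 * n)) g g' → ex F (y * g * y⁻¹) = ex F (y * g' * y⁻¹)

theorem HH_conj {y g : SL(2, ℤ)} (hy : y ∈ Gamma0 N) (hg : g ∈ HH N ℓ) :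
    y * g * y⁻¹ ∈ HH N ℓ :=
  ⟨(Gamma0 N).mul_mem ((Gamma0 N).mul_mem hy hg.1) ((Gamma0 N).inv_mem hy),
    (Gamma_normal ℓ).conj_mem g hg.2 y⟩

theorem HH_le (hℓ : ℓ.Prime) (hℓN : ¬ ℓ ∣ N) : HH N ℓ ≤ Gamma0 (N * ℓ) := by
  intro γ hγ
  obtain ⟨h1, -, -, h4, -⟩ := mem_HH.mp hγ
  rw [mem_Gamma0_iff_dvd, Nat.cast_mul]
  exact (Nat.isCoprime_iff_coprime.mpr (hℓ.coprime_iff_not_dvd.mpr hℓN)).symm.mul_dvd h1 h4

/-- The character `θ_y(γ) = F(y γ y⁻¹)`. -/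
def theta (F : Gamma0 (N * ℓ) →* A) (hle : HH N ℓ ≤ Gamma0 (N * ℓ)) (y : SL(2, ℤ))
    (hy : y ∈ Gamma0 N) : HH N ℓ →* A where
  toFun γ := F ⟨y * γ * y⁻¹, hle (HH_conj hy γ.2)⟩
  map_one' := by
    have : (⟨y * ((1 : HH N ℓ) : SL(2, ℤ)) * y⁻¹, hle (HH_conj hy (1 : HH N ℓ).2)⟩ :
        Gamma0 (N * ℓ)) = 1 := by
      apply Subtype.ext
      simp
    rw [this, map_one]
  map_mul' γ δ := by
    rw [← map_mul]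
    congr 1
    apply Subtype.ext
    simp

theorem ex_theta (F : Gamma0 (N * ℓ) →* A) (hle : HH N ℓ ≤ Gamma0 (N * ℓ)) (y : SL(2, ℤ))
    (hy : y ∈ Gamma0 N) {γ : SL(2, ℤ)} (hγ : γ ∈ HH N ℓ) :
    ex (theta F hle y hy) γ = ex F (y * γ * y⁻¹) := by
  rw [ex_of_mem _ hγ, ex_of_mem _ (hle (HH_conj hy hγ))]
  rfl

theorem FData.theta {F : Gamma0 (N * ℓ) →* A} (hF : FData N ℓ q F)
    (hle : HH N ℓ ≤ Gamma0 (N * ℓ)) (y : SL(2, ℤ)) (hy : y ∈ Gamma0 N) :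
    Theta N ℓ q (theta F hle y hy) where
  uni γ hγ htr := by
    rw [ex_theta F hle y hy hγ]
    refine hF.uni _ (hle (HH_conj hy hγ)) ?_
    have := tr2_conj γ y⁻¹
    rw [inv_inv] at this
    rw [this, htr]
  p2 n hn g hg g' hg' h := by
    rw [ex_theta F hle y hy hg, ex_theta F hle y hy hg']
    exact hF.p2 n hn y hy g hg g' hg' h

/-- The level of the deep congruence subgroup. -/
def deepLevel (N ℓ q : ℕ) : ℕ := 4 * (ℓ - 1) * ℓ * q ^ 2 * N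

theorem deep_le (N ℓ q : ℕ) : Gamma (deepLevel N ℓ q) ≤ HH N ℓ := by
  intro γ hγ
  obtain ⟨h1, h2, h3, h4⟩ := mem_Gamma_iff_dvd.mp hγ
  have hℓ : (ℓ : ℤ) ∣ (deepLevel N ℓ q : ℕ) := Int.natCast_dvd_natCast.mpr
    ⟨4 * (ℓ - 1) * q ^ 2 * N, by unfold deepLevel; ring⟩
  have hN : (N : ℤ) ∣ (deepLevel N ℓ q : ℕ) := Int.natCast_dvd_natCast.mpr (dvd_mul_left _ _)
  exact mem_HH.mpr ⟨hN.trans h3, hℓ.trans h1, hℓ.trans h2, hℓ.trans h3, hℓ.trans h4⟩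

variable {F : Gamma0 (N * ℓ) →* A}

theorem FData.step12 (hF : FData N ℓ q F) (hN0 : N ≠ 0) (hq : q.Prime) (hℓ : ℓ.Prime)
    (hℓ2 : ℓ ≠ 2) (hqℓ : q ≠ ℓ) (hle : HH N ℓ ≤ Gamma0 (N * ℓ)) {y : SL(2, ℤ)} (hy : y ∈ Gamma0 N)
    (x : ℤ) {g : SL(2, ℤ)} (hg : g ∈ Gamma (deepLevel N ℓ q)) :
    ex F (y * e12 ((q : ℤ) ^ 2 * x) * g * (y * e12 ((q : ℤ) ^ 2 * x))⁻¹) =
      ex F (y * e12 x * g * (y * e12 x)⁻¹) := by
  have hgH : g ∈ HH N ℓ := deep_le N ℓ q hg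
  obtain ⟨h1, h2, h3, h4⟩ := mem_Gamma_iff_dvd.mp hg
  have hdL : ((deepLevel N ℓ q : ℕ) : ℤ) = (q : ℤ) ^ 2 * ((4 * (ℓ - 1 : ℕ) : ℤ) * ℓ * N) := by
    unfold deepLevel; push_cast; ring
  rw [hdL] at h1 h2 h3 h4
  obtain ⟨b, hb⟩ := h2
  have hdet := det_eq g
  let g' : SL(2, ℤ) := mkSL (g 0 0) ((4 * (ℓ - 1 : ℕ) : ℤ) * ℓ * N * b) ((q : ℤ) ^ 2 * g 1 0)
    (g 1 1) (by rw [hb] at hdet; linear_combination hdet)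
  have hgg' : HR ((q : ℤ) ^ 2) g g' := ⟨rfl, by rw [hb]; change _ = (q : ℤ) ^ 2 * ((4 * (ℓ - 1 : ℕ) : ℤ) * ℓ * N * b); ring, rfl, rfl⟩
  obtain ⟨m1, m2, m3, m4, m5⟩ := mem_HH.mp hgH
  have hg'H : g' ∈ HH N ℓ := mem_HH.mpr ⟨m1.mul_left _, m2,
    ⟨(4 * (ℓ - 1 : ℕ) : ℤ) * N * b, by change (4 * (ℓ - 1 : ℕ) : ℤ) * ℓ * N * b = _; ring⟩,
    m4.mul_left _, m5⟩
  have hE : HR ((q : ℤ) ^ 2) (e12 ((q : ℤ) ^ 2 * x)) (e12 x) :=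
    ⟨rfl, rfl, by simp [e12], rfl⟩
  have hmem1 := e12_mem N ((q : ℤ) ^ 2 * x)
  have hmem2 := e12_mem N x
  have hHR := (hE.mul hgg').mul hE.inv
  have hdeep : (4 * (ℓ - 1 : ℕ) : ℤ) ∣
      (e12 ((q : ℤ) ^ 2 * x) * g * (e12 ((q : ℤ) ^ 2 * x))⁻¹) 1 1 - 1 := by
    have h5 := (Gamma_normal (deepLevel N ℓ q)).conj_mem g hg (e12 ((q : ℤ) ^ 2 * x))
    have h6 := (mem_Gamma_iff_dvd.mp h5).2.2.2
    rw [hdL] at h6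
    exact (Dvd.intro ((q : ℤ) ^ 2 * ℓ * N) (by ring)).trans h6
  have r1 := (hF.theta hle y hy).step hN0 hq hℓ hℓ2 hqℓ (HH_conj hmem1 hgH) (HH_conj hmem2 hg'H)
    hHR hdeep
  have r2 := (hF.theta hle (y * e12 x) ((Gamma0 N).mul_mem hy hmem2)).step hN0 hq hℓ hℓ2 hqℓ
    hgH hg'H hgg' ((Dvd.intro ((q : ℤ) ^ 2 * ℓ * N) (by ring)).trans h4)
  rw [ex_theta F hle _ _ (HH_conj hmem1 hgH), ex_theta F hle _ _ (HH_conj hmem2 hg'H)] at r1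
  rw [ex_theta F hle _ _ hgH, ex_theta F hle _ _ hg'H] at r2
  rw [r2]
  convert r1 using 2 <;> group

theorem FData.step21 (hF : FData N ℓ q F) (hN0 : N ≠ 0) (hq : q.Prime) (hℓ : ℓ.Prime)
    (hℓ2 : ℓ ≠ 2) (hqℓ : q ≠ ℓ) (hle : HH N ℓ ≤ Gamma0 (N * ℓ)) {y : SL(2, ℤ)} (hy : y ∈ Gamma0 N)
    {x : ℤ} (hx : (N : ℤ) ∣ x) {g : SL(2, ℤ)} (hg : g ∈ Gamma (deepLevel N ℓ q)) :
    ex F (y * e21 ((q : ℤ) ^ 2 * x) * g * (y * e21 ((q : ℤ) ^ 2 * x))⁻¹) =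
      ex F (y * e21 x * g * (y * e21 x)⁻¹) := by
  have hgH : g ∈ HH N ℓ := deep_le N ℓ q hg
  obtain ⟨h1, h2, h3, h4⟩ := mem_Gamma_iff_dvd.mp hg
  have hdL : ((deepLevel N ℓ q : ℕ) : ℤ) = (q : ℤ) ^ 2 * ((4 * (ℓ - 1 : ℕ) : ℤ) * ℓ * N) := by
    unfold deepLevel; push_cast; ring
  rw [hdL] at h1 h2 h3 h4
  obtain ⟨c, hc⟩ := h3
  have hdet := det_eq g
  let g' : SL(2, ℤ) := mkSL (g 0 0) ((q : ℤ) ^ 2 * g 0 1) ((4 * (ℓ - 1 : ℕ) : ℤ) * ℓ * N * c)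
    (g 1 1) (by rw [hc] at hdet; linear_combination hdet)
  have hgg' : HR ((q : ℤ) ^ 2) g' g := ⟨rfl, rfl, by rw [hc]; change _ = (q : ℤ) ^ 2 * ((4 * (ℓ - 1 : ℕ) : ℤ) * ℓ * N * c); ring, rfl⟩
  obtain ⟨m1, m2, m3, m4, m5⟩ := mem_HH.mp hgH
  have hg'H : g' ∈ HH N ℓ := mem_HH.mpr ⟨⟨(4 * (ℓ - 1 : ℕ) : ℤ) * ℓ * c, by
      change (4 * (ℓ - 1 : ℕ) : ℤ) * ℓ * N * c = _; ring⟩, m2, m3.mul_left _,
    ⟨(4 * (ℓ - 1 : ℕ) : ℤ) * N * c, by change (4 * (ℓ - 1 : ℕ) : ℤ) * ℓ * N * c = _; ring⟩, m5⟩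
  have hE : HR ((q : ℤ) ^ 2) (e21 x) (e21 ((q : ℤ) ^ 2 * x)) :=
    ⟨rfl, by simp [e21], rfl, rfl⟩
  have hmem1 := e21_mem hx
  have hmem2 : e21 ((q : ℤ) ^ 2 * x) ∈ Gamma0 N := e21_mem (hx.mul_left _)
  have hHR := (hE.mul hgg').mul hE.inv
  have hg'4 : g' ∈ Gamma (4 * (ℓ - 1)) := by
    rw [mem_Gamma_iff_dvd]
    push_cast
    refine ⟨(Dvd.intro ((q : ℤ) ^ 2 * ℓ * N) (by ring)).trans h1,
      Dvd.dvd.mul_left ((Dvd.intro ((q : ℤ) ^ 2 * ℓ * N) (by ring)).trans h2) _,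
      ⟨ℓ * N * c, ?_⟩, (Dvd.intro ((q : ℤ) ^ 2 * ℓ * N) (by ring)).trans h4⟩
    change (4 * (ℓ - 1 : ℕ) : ℤ) * ℓ * N * c = _
    ring
  have hdeep : (4 * (ℓ - 1 : ℕ) : ℤ) ∣ (e21 x * g' * (e21 x)⁻¹) 1 1 - 1 := by
    have h5 := (Gamma_normal (4 * (ℓ - 1))).conj_mem g' hg'4 (e21 x)
    have h6 := (mem_Gamma_iff_dvd.mp h5).2.2.2
    push_cast at h6
    exact h6
  have r1 := (hF.theta hle y hy).step hN0 hq hℓ hℓ2 hqℓ (HH_conj hmem1 hg'H) (HH_conj hmem2 hgH)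
    hHR hdeep
  have r2 := (hF.theta hle (y * e21 x) ((Gamma0 N).mul_mem hy hmem1)).step hN0 hq hℓ hℓ2 hqℓ
    hg'H hgH hgg' ((Dvd.intro ((q : ℤ) ^ 2 * ℓ * N) (by ring)).trans h4)
  rw [ex_theta F hle _ _ (HH_conj hmem1 hg'H), ex_theta F hle _ _ (HH_conj hmem2 hgH)] at r1
  rw [ex_theta F hle _ _ hgH, ex_theta F hle _ _ hg'H] at r2
  rw [← r2]
  convert r1.symm using 2 <;> group

/-- **Step 3**: `F(y g y⁻¹) = F(g)` for `y ∈ Γ₀(N)` and `g` in a deep congruence subgroup. -/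
theorem FData.conj_eq (hF : FData N ℓ q F) (hN0 : N ≠ 0) (hq : q.Prime) (hℓ : ℓ.Prime)
    (hℓ2 : ℓ ≠ 2) (hqℓ : q ≠ ℓ) (hℓN : ¬ ℓ ∣ N) (hℓq : ¬ (ℓ : ℤ) ∣ (q : ℤ) ^ 2 - 1)
    {y : SL(2, ℤ)} (hy : y ∈ Gamma0 N) {g : SL(2, ℤ)} (hg : g ∈ Gamma (deepLevel N ℓ q)) :
    ex F (y * g * y⁻¹) = ex F g := by
  have hle := HH_le hℓ hℓN
  let St : Subgroup SL(2, ℤ) :=
    { carrier := {k | k ∈ Gamma0 N ∧ ∀ y ∈ Gamma0 N, ∀ g ∈ Gamma (deepLevel N ℓ q),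
        ex F (y * k * g * (y * k)⁻¹) = ex F (y * g * y⁻¹)}
      one_mem' := ⟨one_mem _, fun y hy g hg => by rw [mul_one]⟩
      mul_mem' := by
        rintro k k' ⟨h1, h2⟩ ⟨h1', h2'⟩
        refine ⟨(Gamma0 N).mul_mem h1 h1', fun y hy g hg => ?_⟩
        rw [← mul_assoc, h2' (y * k) ((Gamma0 N).mul_mem hy h1) g hg, h2 y hy g hg]
      inv_mem' := by
        rintro k ⟨h1, h2⟩
        refine ⟨(Gamma0 N).inv_mem h1, fun y hy g hg => ?_⟩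
        have h3 := h2 (y * k⁻¹) ((Gamma0 N).mul_mem hy ((Gamma0 N).inv_mem h1)) g hg
        rw [inv_mul_cancel_right] at h3
        exact h3.symm }
  have hℓℓ : Prime (ℓ : ℤ) := Nat.prime_iff_prime_int.mp hℓ
  have hcop : IsCoprime ((q : ℤ) ^ 2 - 1) (ℓ : ℤ) := (hℓℓ.coprime_iff_not_dvd.mpr hℓq).symm
  have hSt : Gamma0 N ≤ St := by
    refine Gamma0_le_of_mem hℓ hℓN St ?_ (u := (q : ℤ) ^ 2 - 1) (v := (q : ℤ) ^ 2 - 1) hcop hcop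
      ?_ ?_
    · intro k hk
      refine ⟨hk.1, fun y hy g hg => ?_⟩
      have h1 : y * k * g * (y * k)⁻¹ = (y * k * y⁻¹) * (y * g * y⁻¹) * (y * k * y⁻¹)⁻¹ := by
        group
      rw [h1, ex_conj F (hle (HH_conj hy hk)) (hle (HH_conj hy (deep_le N ℓ q hg)))]
    · refine ⟨e12_mem _ _, fun y hy g hg => ?_⟩
      have h1 := hF.step12 hN0 hq hℓ hℓ2 hqℓ hle ((Gamma0 N).mul_mem hy (e12_mem N (-1))) 1 hg
      have a1 : y * e12 (-1) * e12 ((q : ℤ) ^ 2 * 1) = y * e12 ((q : ℤ) ^ 2 - 1) := by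
        rw [mul_assoc, ← e12_add]
        congr 2
        ring
      have a2 : y * e12 (-1) * e12 1 = y := by
        rw [mul_assoc, ← e12_add, neg_add_cancel, e12_zero, mul_one]
      rw [a1, a2] at h1
      exact h1
    · refine ⟨e21_mem (dvd_mul_right _ _), fun y hy g hg => ?_⟩
      have h1 := hF.step21 hN0 hq hℓ hℓ2 hqℓ hle
        ((Gamma0 N).mul_mem hy (e21_mem (N := N) (s := -N) (dvd_neg.mpr dvd_rfl)))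
        (x := (N : ℤ)) dvd_rfl hg
      have a1 : y * e21 (-N) * e21 ((q : ℤ) ^ 2 * N) = y * e21 (N * ((q : ℤ) ^ 2 - 1)) := by
        rw [mul_assoc, ← e21_add]
        congr 2
        ring
      have a2 : y * e21 (-N) * e21 N = y := by
        rw [mul_assoc, ← e21_add, neg_add_cancel, e21_zero, mul_one]
      rw [a1, a2] at h1
      exact h1
  have h1 := (hSt hy).2 1 (one_mem _) g hg
  rw [one_mul, one_mul, inv_one, mul_one] at h1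
  exact h1

end F

end Fermat.Agent.H22
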