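import Fermat.Agent.H22.Ihara5

set_option autoImplicit false

noncomputable section

/-! ### Ihara's lemma, part 6: conclusion -/

namespace Fermat.Agent.H22

open CongruenceSubgroup Function
open scoped MatrixGroups

section

variable {N ℓ q : ℕ} [NeZero N] {A : Type*} [CommGroup A] (φ : Gamma0 N →* A)

theorem upSL_degSL [NeZero ℓ] {γ : SL(2, ℤ)} (h : (ℓ : ℤ) ∣ γ 1 0)
    (h' : (ℓ : ℤ) ∣ degSL ℓ γ h 0 1) : upSL ℓ (degSL ℓ γ h) h' = γ := by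
  have hℓ : (ℓ : ℤ) ≠ 0 := by exact_mod_cast NeZero.ne ℓ
  apply ext_entries
  · rfl
  · change (ℓ : ℤ) * γ 0 1 / ℓ = γ 0 1
    exact Int.mul_ediv_cancel_left _ hℓ
  · change (ℓ : ℤ) * (γ 1 0 / ℓ) = γ 1 0
    exact Int.mul_ediv_cancel' h
  · rfl

/-- **Step 4**: `φ(δ g δ⁻¹) = φ(δ⁻¹ g δ)` for deep `g`. -/
theorem F_eq_up [NeZero ℓ] (hF : FData N ℓ q (φ.comp (degConj N ℓ))) (hq : q.Prime) (hℓ : ℓ.Prime)
    (hℓ2 : ℓ ≠ 2) (hqℓ : q ≠ ℓ) (hℓN : ¬ ℓ ∣ N) (hℓq : ¬ (ℓ : ℤ) ∣ (q : ℤ) ^ 2 - 1)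
    {g : SL(2, ℤ)} (hg : g ∈ Gamma (deepLevel N ℓ q)) (h : (ℓ : ℤ) ∣ g 0 1) :
    ex (φ.comp (degConj N ℓ)) g = ex φ (upSL ℓ g h) := by
  have hℓ0 : (ℓ : ℤ) ≠ 0 := by exact_mod_cast NeZero.ne ℓ
  have hgH : g ∈ HH N ℓ := deep_le N ℓ q hg
  obtain ⟨a, b', hab⟩ := Nat.isCoprime_iff_coprime.mpr (hℓ.coprime_iff_not_dvd.mpr hℓN)
  set b := -b' with hb
  let y : SL(2, ℤ) := mkSL a b N ℓ (by rw [hb]; linear_combination hab)
  let z : SL(2, ℤ) := mkSL (ℓ * a) b N 1 (by rw [hb]; linear_combination hab)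
  have hy : y ∈ Gamma0 N := mem_Gamma0_iff_dvd.mpr (dvd_refl _)
  have hz : z ∈ Gamma0 N := mem_Gamma0_iff_dvd.mpr (dvd_refl _)
  have hup : upSL ℓ g h ∈ Gamma0 N := mem_Gamma0_iff_dvd.mpr (by
    rw [upSL_one_zero]
    exact (mem_HH.mp hgH).1.mul_left _)
  have hM := HH_le hℓ hℓN (HH_conj hy hgH)
  rw [← hF.conj_eq (NeZero.ne N) hq hℓ hℓ2 hqℓ hℓN hℓq hy hg, ex_F φ hM]
  have key : degSL ℓ (y * g * y⁻¹) (dvd_of_mem hM) = z * upSL ℓ g h * z⁻¹ := by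
    rw [eq_mul_inv_iff_mul_eq]
    have hMy : (y * g * y⁻¹) * y = y * g := by group
    set M := y * g * y⁻¹ with hMdef
    have e := fun i j => congrArg (fun x : SL(2, ℤ) => x i j) hMy
    have e00 : M 0 0 * a + M 0 1 * N = a * g 0 0 + b * g 1 0 := by
      have := e 0 0; simp only [mul_entry] at this; exact this
    have e01 : M 0 0 * b + M 0 1 * ℓ = a * g 0 1 + b * g 1 1 := by
      have := e 0 1; simp only [mul_entry] at this; exact this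
    have e10 : M 1 0 * a + M 1 1 * N = N * g 0 0 + ℓ * g 1 0 := by
      have := e 1 0; simp only [mul_entry] at this; exact this
    have e11 : M 1 0 * b + M 1 1 * ℓ = N * g 0 1 + ℓ * g 1 1 := by
      have := e 1 1; simp only [mul_entry] at this; exact this
    obtain ⟨m, hm⟩ := dvd_of_mem hM
    obtain ⟨g01, hg01⟩ := h
    obtain ⟨D, hD, D00, D01, D10, D11⟩ : ∃ D : SL(2, ℤ), degSL ℓ M (dvd_of_mem hM) = D ∧
        D 0 0 = M 0 0 ∧ D 0 1 = ℓ * M 0 1 ∧ D 1 0 = m ∧ D 1 1 = M 1 1 := by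
      refine ⟨_, rfl, rfl, rfl, ?_, rfl⟩
      rw [degSL_one_zero, hm, Int.mul_ediv_cancel_left _ hℓ0]
    obtain ⟨U, hU, U00, U01, U10, U11⟩ : ∃ U : SL(2, ℤ), upSL ℓ g ⟨g01, hg01⟩ = U ∧
        U 0 0 = g 0 0 ∧ U 0 1 = g01 ∧ U 1 0 = ℓ * g 1 0 ∧ U 1 1 = g 1 1 := by
      refine ⟨_, rfl, rfl, ?_, rfl, rfl⟩
      rw [upSL_zero_one, hg01, Int.mul_ediv_cancel_left _ hℓ0]
    rw [hD, hU]
    have z00 : z 0 0 = ℓ * a := rfl
    have z01 : z 0 1 = b := rfl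
    have z10 : z 1 0 = N := rfl
    have z11 : z 1 1 = 1 := rfl
    clear_value z
    apply ext_entries <;> rw [mul_entry, mul_entry]
    · rw [D00, D01, U00, U10, z00, z01, z10]
      linear_combination (ℓ : ℤ) * e00
    · rw [D00, D01, U01, U11, z00, z01, z11]
      rw [hg01] at e01
      linear_combination e01
    · rw [D10, D11, U00, U10, z00, z10, z11]
      rw [hm] at e10
      linear_combination e10
    · rw [D10, D11, U01, U11, z01, z10, z11]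
      rw [hm, hg01] at e11
      apply mul_left_cancel₀ hℓ0
      linear_combination e11
  rw [key, ex_conj φ hz hup]

/-- The value of `T_ℓ²` on deep elements. -/
theorem heckeChar_heckeChar_deep (hq : q.Prime) (hqN : ¬ q ∣ N)
    (hU : InvR φ ((q : ℤ) ^ 2)) (hφ : UniEx φ) [hℓ : Fact ℓ.Prime] [NeZero ℓ]
    (hℓ2 : ℓ ≠ 2) (hqℓ : q ≠ ℓ) (hℓN : ¬ ℓ ∣ N) (hℓq : ¬ (ℓ : ℤ) ∣ (q : ℤ) ^ 2 - 1)
    (g : Gamma0 N) (hg : (g : SL(2, ℤ)) ∈ Gamma (ℓ * deepLevel N ℓ q)) :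
    heckeChar N ℓ (heckeChar N ℓ φ) g = (φ g ^ (ℓ + 1)) ^ (ℓ + 1) := by
  have hF := fdata φ hq hqN hU hφ hℓ.out hℓN
  have hℓ0 : (ℓ : ℤ) ≠ 0 := by exact_mod_cast NeZero.ne ℓ
  have hle : Gamma (ℓ * deepLevel N ℓ q) ≤ Gamma (deepLevel N ℓ q) := by
    intro γ hγ
    rw [mem_Gamma_iff_dvd] at hγ ⊢
    push_cast at hγ
    obtain ⟨h1, h2, h3, h4⟩ := hγ
    exact ⟨(dvd_mul_left _ _).trans h1, (dvd_mul_left _ _).trans h2, (dvd_mul_left _ _).trans h3,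
      (dvd_mul_left _ _).trans h4⟩
  refine heckeChar_of_conj (heckeChar N ℓ φ) hℓN g _ fun y hy => ?_
  set γ := y * (g : SL(2, ℤ)) * y⁻¹ with hγdef
  have hγ : γ ∈ Gamma (ℓ * deepLevel N ℓ q) := (Gamma_normal _).conj_mem _ hg y
  have hγH : γ ∈ HH N ℓ := deep_le N ℓ q (hle hγ)
  have hγ0 := HH_le hℓ.out hℓN hγH
  refine ⟨hγ0, ?_⟩
  rw [ex_F (heckeChar N ℓ φ) hγ0]
  set w := degSL ℓ γ (dvd_of_mem hγ0) with hw
  have hwdeep : w ∈ Gamma (deepLevel N ℓ q) := by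
    rw [mem_Gamma_iff_dvd] at hγ ⊢
    push_cast at hγ
    obtain ⟨h1, h2, h3, h4⟩ := hγ
    refine ⟨(dvd_mul_left _ _).trans h1, ((dvd_mul_left _ _).trans h2).mul_left _, ?_,
      (dvd_mul_left _ _).trans h4⟩
    obtain ⟨k, hk⟩ := h3
    refine ⟨k, ?_⟩
    change γ 1 0 / (ℓ : ℤ) = _
    rw [hk, mul_assoc, Int.mul_ediv_cancel_left _ hℓ0]
  have hwmem : w ∈ Gamma0 N := degSL_mem hγ0
  have h01 : (ℓ : ℤ) ∣ w 0 1 := dvd_mul_right _ _
  have e1 : heckeChar N ℓ φ ⟨w, hwmem⟩ = (ex (φ.comp (degConj N ℓ)) w) ^ (ℓ + 1) :=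
    heckeChar_of_conj φ hℓN ⟨w, hwmem⟩ _ fun y' hy' =>
      ⟨HH_le hℓ.out hℓN (HH_conj hy' (deep_le N ℓ q hwdeep)),
        hF.conj_eq (NeZero.ne N) hq hℓ.out hℓ2 hqℓ hℓN hℓq hy' hwdeep⟩
  have e2 : upSL ℓ w h01 = γ := upSL_degSL (dvd_of_mem hγ0) h01
  rw [ex_of_mem _ hwmem, e1, F_eq_up φ hF hq hℓ.out hℓ2 hqℓ hℓN hℓq hwdeep h01, e2,
    hγdef, ex_conj φ hy g.2, ex_coe]

/-- A character of `Γ₀(N)` killing unipotents and a principal congruence subgroup factors through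
the lower right entry modulo `N`. -/
theorem ex_eq_one_of_deep {M : ℕ} (hM : M ≠ 0) (hNM : N ∣ M) (τ : Gamma0 N →* A)
    (h1 : ∀ g ∈ Gamma M, ex τ g = 1) (h2 : UniEx τ) {γ : SL(2, ℤ)} (hγ : γ ∈ Gamma0 N)
    (hd : (N : ℤ) ∣ γ 1 1 - 1) : ex τ γ = 1 := by
  let S : Subgroup SL(2, ℤ) :=
    { carrier := {g | g ∈ Gamma0 N ∧ ex τ g = 1}
      one_mem' := ⟨one_mem _, by
        have := ex_of_mem τ (one_mem (Gamma0 N))
        rw [this]
        exact map_one τ⟩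
      mul_mem' := by
        rintro a b ⟨ha, ha'⟩ ⟨hb, hb'⟩
        exact ⟨(Gamma0 N).mul_mem ha hb, by rw [ex_mul τ ha hb, ha', hb', one_mul]⟩
      inv_mem' := by
        rintro a ⟨ha, ha'⟩
        exact ⟨(Gamma0 N).inv_mem ha, by rw [ex_inv τ ha, ha', inv_one]⟩ }
  suffices h : γ ∈ S from h.2
  have h12 : ∀ x, e12 x ∈ S := fun x => ⟨e12_mem N x, h2 _ (e12_mem N x) (tr2_e12 x)⟩
  have h21 : ∀ x, e21 (N * x) ∈ S := fun x =>
    ⟨e21_mem (dvd_mul_right _ _), h2 _ (e21_mem (dvd_mul_right _ _)) (tr2_e21 _)⟩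
  have hNM' : (N : ℤ) ∣ M := Int.natCast_dvd_natCast.mpr hNM
  have hG : ∀ g ∈ Gamma M, g ∈ S := by
    intro g hg
    refine ⟨mem_Gamma0_iff_dvd.mpr (hNM'.trans (mem_Gamma_iff_dvd.mp hg).2.2.1), h1 g hg⟩
  have hM' : (M : ℤ) ≠ 0 := by exact_mod_cast hM
  obtain ⟨c, hc⟩ := mem_Gamma0_iff_dvd.mp hγ
  -- (i)
  obtain ⟨t, u, v, huv⟩ := exists_coprime_add_mul (c := (M : ℤ)) (d := γ 1 1) (m := γ 1 0) hM'
    (x := 0) (y := γ 0 0) (z := -γ 0 1) (by linear_combination det_eq γ)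
  set γ1 := γ * e12 t with hγ1
  have g10 : γ1 1 0 = γ 1 0 := by rw [hγ1, mul_entry]; simp [e12]
  have g11 : γ1 1 1 = γ 1 1 + t * γ 1 0 := by rw [hγ1, mul_entry]; simp [e12]; ring
  rw [← g11] at huv
  have hd1 : (N : ℤ) ∣ γ1 1 1 - 1 := by
    obtain ⟨k, hk⟩ := hd
    exact ⟨k + t * c, by rw [g11, hc]; linear_combination hk⟩
  -- (ii)
  set γ2 := γ1 * e21 (N * (-(v * c))) with hγ2
  have k10 : γ2 1 0 = γ1 1 0 + γ1 1 1 * (N * (-(v * c))) := by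
    rw [hγ2, mul_entry]; simp [e21]
  have k11 : γ2 1 1 = γ1 1 1 := by rw [hγ2, mul_entry]; simp [e21]
  have hc2 : (M : ℤ) ∣ γ2 1 0 := ⟨N * c * u, by
    rw [k10, g10, hc]
    linear_combination (-(N : ℤ) * c) * huv⟩
  -- (iii)
  set γ3 := e12 (-(v * γ2 0 1)) * γ2 with hγ3
  have l10 : γ3 1 0 = γ2 1 0 := by rw [hγ3, mul_entry]; simp [e12]
  have l11 : γ3 1 1 = γ1 1 1 := by rw [hγ3, mul_entry]; simp [e12, k11]
  have l01 : γ3 0 1 = γ2 0 1 + (-(v * γ2 0 1)) * γ2 1 1 := by rw [hγ3, mul_entry]; simp [e12]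
  have hb3 : (M : ℤ) ∣ γ3 0 1 := ⟨γ2 0 1 * u, by
    rw [l01, k11]
    linear_combination (-γ2 0 1) * huv⟩
  have hc3 : (M : ℤ) ∣ γ3 1 0 := by rw [l10]; exact hc2
  have hd3 : (N : ℤ) ∣ γ3 1 1 - 1 := by rw [l11]; exact hd1
  obtain ⟨b3, hb3'⟩ := hb3
  obtain ⟨c3, hc3'⟩ := hc3
  have hdet3 := det_eq γ3
  set a := γ3 0 0 with ha
  set d := γ3 1 1 with hd'
  have had : a * d - 1 = M * (b3 * γ3 1 0) := by
    rw [hb3'] at hdet3
    linear_combination hdet3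
  obtain ⟨k, hk⟩ : (N : ℤ) ∣ a - 1 := by
    obtain ⟨x, hx⟩ := hd3
    obtain ⟨m, hm⟩ := hNM'
    rw [hm] at had
    exact ⟨m * (b3 * γ3 1 0) - a * x, by linear_combination had - a * hx⟩
  -- (iv)
  set W := e12 k * e21 (N * 1) * e12 (-(k * d)) * e21 (N * (-a)) with hW
  have hWS : W ∈ S := S.mul_mem (S.mul_mem (S.mul_mem (h12 _) (h21 _)) (h12 _)) (h21 _)
  have w00 : W 0 0 = a + k * (1 - a * d) * (-(N * a)) := by
    simp only [hW, mul_entry]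
    simp [e12, e21]
    linear_combination (-1 : ℤ) * hk - (k * d * N * a) * hk
  have w01 : W 0 1 = k * (1 - a * d) := by
    simp only [hW, mul_entry]
    simp [e12, e21]
    linear_combination (k * d) * hk
  have w10 : W 1 0 = N - N * a * (1 - N * k * d) := by
    simp only [hW, mul_entry]
    simp [e12, e21]
    ring
  have w11 : W 1 1 = 1 - N * k * d := by
    simp only [hW, mul_entry]
    simp [e12, e21]
    ring
  have hGam : γ3 * W⁻¹ ∈ Gamma M := by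
    have hz : ∀ x : ℤ, (M : ℤ) ∣ x → (x : ZMod M) = 0 := fun x hx =>
      (ZMod.intCast_zmod_eq_zero_iff_dvd _ _).mpr hx
    have had' : ((a : ℤ) : ZMod M) * ((d : ℤ) : ZMod M) = 1 := by
      have := hz _ ⟨_, had⟩
      push_cast at this
      exact sub_eq_zero.mp this
    have hk' : ((a : ℤ) : ZMod M) = 1 + N * ((k : ℤ) : ZMod M) := by
      have := congrArg (fun x : ℤ => (x : ZMod M)) hk
      push_cast at this
      linear_combination this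
    rw [Gamma_mem', map_mul, map_inv, mul_inv_eq_one]
    ext i j
    rw [Matrix.SpecialLinearGroup.map_apply_coe, Matrix.SpecialLinearGroup.map_apply_coe,
      RingHom.mapMatrix_apply, RingHom.mapMatrix_apply, Matrix.map_apply, Matrix.map_apply]
    fin_cases i <;> fin_cases j
    · change ((γ3 0 0 : ℤ) : ZMod M) = ((W 0 0 : ℤ) : ZMod M)
      rw [w00, ← ha]
      push_cast
      linear_combination (-((k : ℤ) : ZMod M) * N * a) * had'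
    · change ((γ3 0 1 : ℤ) : ZMod M) = ((W 0 1 : ℤ) : ZMod M)
      rw [w01, hz _ ⟨_, hb3'⟩]
      push_cast
      linear_combination ((k : ℤ) : ZMod M) * had'
    · change ((γ3 1 0 : ℤ) : ZMod M) = ((W 1 0 : ℤ) : ZMod M)
      rw [w10, hz _ ⟨_, hc3'⟩]
      push_cast
      linear_combination (-(N : ZMod M) * N * k) * had' + (N : ZMod M) * hk'
    · change ((γ3 1 1 : ℤ) : ZMod M) = ((W 1 1 : ℤ) : ZMod M)
      rw [w11, ← hd']
      push_cast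
      linear_combination had' - ((d : ℤ) : ZMod M) * hk'
  have hγ3S : γ3 ∈ S := by
    have := S.mul_mem (hG _ hGam) hWS
    rwa [inv_mul_cancel_right] at this
  have hfin : γ = (e12 (-(v * γ2 0 1)))⁻¹ * γ3 * (e21 (N * (-(v * c))))⁻¹ * (e12 t)⁻¹ := by
    rw [hγ3, hγ2, hγ1]
    group
  rw [hfin]
  exact S.mul_mem (S.mul_mem (S.mul_mem (S.inv_mem (h12 _)) hγ3S) (S.inv_mem (h21 _)))
    (S.inv_mem (h12 _))

end

end Fermat.Agent.H22
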