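import Fermat.Agent.H18_Norm
import Fermat.Agent.H18_FunField
import Fermat.Agent.NN.Geo

/-!
# Kummer extensions of degree `3` of function fields: places of order divisible by `3` do not ramify
-/

set_option autoImplicit false
set_option linter.style.haveILetI false
set_option linter.unusedSectionVars false

noncomputable section

namespace Fermat.Agent.H22.M2

open AlgebraicCurve Module Polynomial

section Abstract

variable {E F : Type*} [Field E] [Field F] [Algebra E F] [FiniteDimensional E F]

/-- minimal polynomials in cubic extensions -/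
theorem minpoly_cubic (h3 : finrank E F = 3) {x : F} (hx : ∀ e : E, x ≠ algebraMap E F e)
    {p : E[X]} (hp : p.Monic) (hd : p.natDegree = 3) (h0 : aeval x p = 0) : minpoly E x = p := by
  have hint : IsIntegral E x := Algebra.IsIntegral.isIntegral x
  have h1 : (minpoly E x).natDegree ∣ 3 := by
    rw [← h3]
    exact minpoly.degree_dvd hint
  have h2 : (minpoly E x).natDegree ≠ 1 := by
    intro h
    rw [minpoly.natDegree_eq_one_iff] at h
    obtain ⟨e, he⟩ := h
    exact hx e he.symm
  have h4 : (minpoly E x).natDegree = 3 := by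
    rcases (Nat.dvd_prime Nat.prime_three).1 h1 with h | h
    · exact absurd h h2
    · exact h
  symm
  refine eq_of_monic_of_dvd_of_natDegree_le (minpoly.monic hint) hp (minpoly.dvd _ _ h0) ?_
  rw [hd, h4]

theorem norm_cubic (h3 : finrank E F = 3) {x : F} (hx : ∀ e : E, x ≠ algebraMap E F e)
    {p : E[X]} (hp : p.Monic) (hd : p.natDegree = 3) (h0 : aeval x p = 0) :
    Algebra.norm E x = -p.coeff 0 := by
  have hint : IsIntegral E x := Algebra.IsIntegral.isIntegral x
  have hmin := minpoly_cubic h3 hx hp hd h0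
  have hfr : finrank E (IntermediateField.adjoin E {x}) = 3 := by
    rw [IntermediateField.adjoin.finrank hint, hmin, hd]
  have htop : IntermediateField.adjoin E {x} = ⊤ :=
    IntermediateField.eq_of_le_of_finrank_eq le_top (by rw [hfr, IntermediateField.finrank_top', h3])
  have htop' : Algebra.adjoin E {x} = ⊤ := by
    rw [← IntermediateField.adjoin_simple_toSubalgebra_of_isAlgebraic hint.isAlgebraic, htop]
    rfl
  have h1 := Algebra.PowerBasis.norm_gen_eq_coeff_zero_minpoly
    (PowerBasis.ofAdjoinEqTop hint htop')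
  rw [PowerBasis.ofAdjoinEqTop_gen, PowerBasis.ofAdjoinEqTop_dim, hmin, hd] at h1
  rw [h1]
  ring

theorem norm_sub_kummer (h3 : finrank E F = 3) {y : F} {g : E} (hy : y ^ 3 = algebraMap E F g)
    (hyE : ∀ e : E, y ≠ algebraMap E F e) (c : E) :
    Algebra.norm E (algebraMap E F c - y) = c ^ 3 - g := by
  have hd : ((X - C c) ^ 3 + C g : E[X]).natDegree = 3 := by
    compute_degree!
  have hm : ((X - C c) ^ 3 + C g : E[X]).Monic := by
    monicity!
  rw [norm_cubic h3 (p := (X - C c) ^ 3 + C g) (fun e he => hyE (c - e) (by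
    rw [map_sub, ← he]; ring)) hm hd ?_]
  · simp only [coeff_zero_eq_eval_zero, eval_add, eval_pow, eval_sub, eval_X, eval_C]
    ring
  · simp only [map_add, map_pow, map_sub, aeval_X, aeval_C]
    rw [← hy]
    ring

end Abstract

section Places

variable {K E F : Type*} [Field K] [IsAlgClosed K] [Field E] [Field F] [Algebra K E] [Algebra K F]
  [Algebra E F] [IsScalarTower K E F] [FiniteDimensional E F] [Algebra.IsSeparable E F]

/-- **Unramified places in cubic Kummer extensions.** -/
theorem ramificationIndex_kummer (hK : (3 : K) ≠ 0) (h3 : finrank E F = 3) {y : F} {g : E}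
    (hg0 : g ≠ 0) (hy : y ^ 3 = algebraMap E F g) (hyE : ∀ e : E, y ≠ algebraMap E F e)
    {v : Place K E} (hdeg : v.deg = 1) (hg : (3 : ℤ) ∣ v.ord g) (w : Place K F)
    (hw : w.restrict E = v) : w.ramificationIndex E = 1 := by
  classical
  obtain ⟨π, hπ0, hπ⟩ := H18.exists_ord_eq_one v
  obtain ⟨c, hc⟩ := hg
  -- the normalised generator
  set g' : E := g * (π ^ (-c)) ^ 3 with hg'
  set y' : F := y * algebraMap E F (π ^ (-c)) with hy'
  have hπc : (π ^ (-c)) ≠ 0 := zpow_ne_zero _ hπ0
  have hy3 : y' ^ 3 = algebraMap E F g' := by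
    rw [hy', mul_pow, hy, ← map_pow, ← map_mul, ← hg']
  have hyE' : ∀ e : E, y' ≠ algebraMap E F e := by
    intro e he
    apply hyE (e * (π ^ (-c))⁻¹)
    rw [map_mul, ← he, hy', mul_assoc, ← map_mul, mul_inv_cancel₀ hπc, map_one, mul_one]
  have hg'0 : g' ≠ 0 := mul_ne_zero hg0 (pow_ne_zero _ hπc)
  have hord : v.ord g' = 0 := by
    rw [hg', v.ord_mul hg0 (pow_ne_zero _ hπc), H18.ord_pow, v.ord_zpow, hπ, hc]
    push_cast
    ring
  -- the residue
  obtain ⟨a, ha⟩ := H26.exists_ord_sub_pos v hdeg hord.ge
  have ha0 : a ≠ 0 := by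
    rintro rfl
    rw [map_zero, sub_zero] at ha
    rcases ha with h | h
    · exact hg'0 h
    · rw [hord] at h; exact lt_irrefl _ h
  obtain ⟨b, hb⟩ := IsAlgClosed.exists_pow_nat_eq a (n := 3) (by norm_num)
  have hb0 : b ≠ 0 := by
    rintro rfl
    apply ha0
    rw [← hb]; norm_num
  haveI : NeZero (3 : K) := ⟨hK⟩
  obtain ⟨ζ, hζ⟩ := HasEnoughRootsOfUnity.exists_primitiveRoot K 3
  have hinj : ∀ i j : ℕ, i < 3 → j < 3 → b * ζ ^ i = b * ζ ^ j → i = j := by
    intro i j hi hj h
    exact hζ.pow_inj hi hj (mul_left_cancel₀ hb0 h)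
  have hcube : ∀ i : ℕ, (b * ζ ^ i) ^ 3 = a := by
    intro i
    rw [mul_pow, hb, ← pow_mul, mul_comm i 3, pow_mul, hζ.pow_eq_one, one_pow, mul_one]
  -- the three places
  have key : ∀ i : ℕ, ∃ u : Place K F, u.restrict E = v ∧
      0 < u.ord (algebraMap K F (b * ζ ^ i) - y') := by
    intro i
    set x : F := algebraMap E F (algebraMap K E (b * ζ ^ i)) - y' with hx
    have hx0 : x ≠ 0 := by
      intro h
      exact hyE' _ (sub_eq_zero.mp h).symm
    have hn : Algebra.norm E x = -(g' - algebraMap K E a) := by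
      rw [hx, norm_sub_kummer h3 hy3 hyE', ← map_pow, hcube]
      ring
    have h1 := H18.ord_norm v x hx0
    rw [hn, H18.ord_neg] at h1
    have h2 : 0 < v.ord (g' - algebraMap K E a) := by
      rcases ha with h | h
      · exfalso
        rw [h, neg_zero] at hn
        exact (Algebra.norm_ne_zero_iff.mpr hx0) hn
      · exact h
    rw [h1] at h2
    by_contra hcon
    push Not at hcon
    refine absurd h2 (not_lt.mpr (Finset.sum_nonpos fun u hu => ?_))
    have hu' : u.restrict E = v := by simpa using hu
    have h3 := hcon u hu'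
    rw [← IsScalarTower.algebraMap_apply K E F] at hx
    rw [← hx] at h3
    exact mul_nonpos_of_nonneg_of_nonpos (by positivity) h3
  choose u hu hu' using key
  have hne : ∀ i j : ℕ, i < 3 → j < 3 → u i = u j → i = j := by
    intro i j hi hj h
    by_contra hij
    have h1 := hu' i
    have h2 := hu' j
    rw [← h] at h2
    have hd : algebraMap K F (b * ζ ^ i - b * ζ ^ j) ≠ 0 := by
      rw [_root_.map_ne_zero]
      intro h0
      exact hij (hinj i j hi hj (sub_eq_zero.mp h0))
    have h4 : algebraMap K F (b * ζ ^ i - b * ζ ^ j) =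
        (algebraMap K F (b * ζ ^ i) - y') + -(algebraMap K F (b * ζ ^ j) - y') := by
      rw [map_sub]; ring
    have h5 := H18.le_ord_add (u i) (f := algebraMap K F (b * ζ ^ i) - y')
      (g := -(algebraMap K F (b * ζ ^ j) - y')) (n := 1) (by rw [← h4]; exact hd) (Or.inr h1)
      (Or.inr (by rw [H18.ord_neg]; exact h2))
    rw [← h4, H18.ord_algebraMap] at h5
    norm_num at h5
  -- counting
  have hsum := H18.sum_ramificationIndex_mul_inertiaDeg F v
  rw [h3] at hsum
  have hpos : ∀ z : Place K F, 0 < z.ramificationIndex E * z.inertiaDeg E := by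
    intro z
    refine Nat.mul_pos (z.ramificationIndex_pos (F := E)) ?_
    exact H18.inertiaDeg_pos z
  set S : Finset (Place K F) := (H18.fiber_finite F v).toFinset with hS
  have hmem : ∀ z, z ∈ S ↔ z.restrict E = v := fun z => by simp [hS]
  have himg : (Finset.range 3).image u ⊆ S := by
    intro z hz
    obtain ⟨i, -, rfl⟩ := Finset.mem_image.mp hz
    exact (hmem _).mpr (hu i)
  have hcard : 3 ≤ S.card := by
    calc 3 = ((Finset.range 3).image u).card := by
            rw [Finset.card_image_of_injOn, Finset.card_range]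
            intro i hi j hj h
            exact hne i j (by simpa using hi) (by simpa using hj) h
      _ ≤ S.card := Finset.card_le_card himg
  have hwS : w ∈ S := (hmem w).mpr hw
  by_contra hcon
  have hw2 : 2 ≤ w.ramificationIndex E * w.inertiaDeg E := by
    have h1 := w.ramificationIndex_pos (F := E)
    have h2 : 0 < w.inertiaDeg E := H18.inertiaDeg_pos w
    have h5 : 2 ≤ w.ramificationIndex E := by omega
    nlinarith
  have h6 : S.card < ∑ z ∈ S, z.ramificationIndex E * z.inertiaDeg E := by
    rw [Finset.card_eq_sum_ones]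
    exact Finset.sum_lt_sum (fun z _ => hpos z) ⟨w, hwS, hw2⟩
  omega

end Places

end Fermat.Agent.H22.M2
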