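import Fermat.Agent.H22.M2B
import Fermat.Agent.H09.M2E
import Fermat.Agent.H27.M2f
import Fermat.Agent.NN.Kum7

/-!
# The geometric input of Mazur's principle at `2`, `p = 3`
-/

set_option autoImplicit false
set_option linter.style.haveILetI false
set_option linter.unusedSectionVars false
set_option maxSynthPendingDepth 3

noncomputable section

attribute [-instance] HahnSeries.instModule HahnSeries.instSMul HahnSeries.instDistribMulAction
  HahnSeries.instSMulZeroClass

attribute [local instance 10000] Fermat.Agent.H29.instLS Fermat.Agent.H29.instIF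
  Fermat.Agent.H29.instIF2

namespace Fermat.Agent.H22.M2

open ModularCurve HahnSeries Fermat.Agent.Igusa AlgebraicCurve Fermat.Agent.FF Fermat.Agent.H11Q
  Fermat.Agent.Q Module IntermediateField Fermat.Agent.H11N Fermat.Agent.NN

local notation "kk" => IsLocalRing.ResidueField
local notation "Qb" => AlgebraicClosure ℚ

attribute [local instance] H12.isAlgClosed_kk

section WBeta

variable {M M' r : ℕ} [NeZero M] [NeZero M'] [hr : Fact r.Prime]

/-- the map `q ↦ q^3` -/
def qeF (h : M * r * 3 ∣ M' * r) :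
    modularFunctionFieldFullC Qb (M * r) →ₐ[Qb] modularFunctionFieldFullC Qb (M' * r) :=
  (IntermediateField.inclusion (full_degeneracyC_le Qb h)).comp (H12.betaC Qb (M * r) 3)

theorem coe_qeF (h : M * r * 3 ∣ M' * r) (x : modularFunctionFieldFullC Qb (M * r)) :
    (qeF h x : LaurentSeries Qb) = qExpand Qb 3 (x : LaurentSeries Qb) :=
  (IntermediateField.coe_inclusion (full_degeneracyC_le Qb h) (H12.betaC Qb (M * r) 3 x)).trans rfl

/-- `w_r` commutes with `q ↦ q^3` -/
theorem wBar_qe (hrM : Nat.Coprime r M) (hrM' : Nat.Coprime r M') (hM' : M' = M * 3)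
    (h : M * r * 3 ∣ M' * r) (f : modularFunctionFieldBar (M * r)) :
    (wBar M' r hrM' (H05.qe Qb 3 h f) : LaurentSeries Qb) =
      qExpand Qb 3 (wBar M r hrM f : LaurentSeries Qb) := by
  rw [coe_wBar, coe_wBar]
  set g : modularFunctionFieldFullC Qb (M * r) := ⟨f, mem_full_of_bar f.2⟩ with hg
  have h1 : (⟨H05.qe Qb 3 h f, mem_full_of_bar (H05.qe Qb 3 h f).2⟩ :
      modularFunctionFieldFullC Qb (M' * r)) = qeF h g := Subtype.ext (coe_qeF h g).symm
  rw [h1]
  have key : ((modularFunctionFieldFullC Qb (M' * r)).val.comp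
      ((wQ Qb hrM').toAlgHom.comp (qeF h))) =
      (qExpandAlgHomC Qb 3).comp
        ((modularFunctionFieldFullC Qb (M * r)).val.comp (wQ Qb hrM).toAlgHom) := by
    apply algHom_ext_jd
    intro d _ hd hmem
    have hd' := hd
    rw [mul_comm M r, Nat.dvd_mul] at hd'
    obtain ⟨d₁, d₂, hd₁, hd₂, hdd⟩ := hd'
    haveI : NeZero d₁ := ⟨fun h => NeZero.ne d (by rw [← hdd, h, zero_mul])⟩
    haveI : NeZero d₂ := ⟨fun h => NeZero.ne d (by rw [← hdd, h, mul_zero])⟩
    have hr0 : r / d₁ ≠ 0 := by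
      intro h0
      have h2 := Nat.div_mul_cancel hd₁
      rw [h0, zero_mul] at h2
      exact hr.out.ne_zero h2.symm
    haveI : NeZero (r / d₁ * d₂) := ⟨mul_ne_zero hr0 (NeZero.ne d₂)⟩
    haveI : NeZero (3 * d) := ⟨mul_ne_zero three_ne_zero (NeZero.ne d)⟩
    haveI : NeZero (3 * (r / d₁ * d₂)) := ⟨mul_ne_zero three_ne_zero (NeZero.ne _)⟩
    have hmem' : jd Qb (3 * d) ∈ modularFunctionFieldFullC Qb (M' * r) := by
      apply jd_mem_full
      refine Dvd.dvd.trans ?_ h
      rw [mul_comm]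
      exact mul_dvd_mul_right hd 3
    have e1 : qeF h ⟨jd Qb d, hmem⟩ = ⟨jd Qb (3 * d), hmem'⟩ := Subtype.ext (by
      rw [coe_qeF, qExpand_jd])
    change ((wQ Qb hrM' (qeF h ⟨jd Qb d, hmem⟩) : modularFunctionFieldFullC Qb (M' * r)) :
        LaurentSeries Qb) =
      qExpand Qb 3 ((wQ Qb hrM ⟨jd Qb d, hmem⟩ : modularFunctionFieldFullC Qb (M * r)) :
        LaurentSeries Qb)
    rw [e1, coe_wQ_jd' Qb hrM hd₁ hd₂ hdd rfl hmem,
      coe_wQ_jd' Qb hrM' (d := 3 * d) (e := 3 * (r / d₁ * d₂)) (d₁ := d₁) (d₂ := 3 * d₂) hd₁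
        (by rw [hM', mul_comm]; exact mul_dvd_mul_right hd₂ 3) (by rw [← hdd]; ring) (by ring) hmem',
      qExpand_jd]
  exact congrArg (fun φ : modularFunctionFieldFullC Qb (M * r) →ₐ[Qb] LaurentSeries Qb => φ g) key

theorem al_e_qe (hrM : Nat.Coprime r M) (hrM' : Nat.Coprime r M')
    (hM' : M' = M * 3) (h : M * r * 3 ∣ M' * r) (j : Fin 2) (f : modularFunctionFieldBar (M * r)) :
    (alData M' r hrM').e j (H05.qe Qb 3 h f) = qExpand Qb 3 ((alData M r hrM).e j f) := by
  rcases fin2_cases j with rfl | rfl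
  · rw [al_e0, al_e0]
    rfl
  · rw [al_e1, al_e1]
    exact wBar_qe hrM hrM' hM' h f

theorem qExpand_smul (c : Qb) (x : LaurentSeries Qb) :
    qExpand Qb 3 (c • x) = c • qExpand Qb 3 x := by
  exact map_smul (qExpandAlgHomC Qb 3) c x

theorem hasVal_qe {A : ValuationSubring Qb} (hrM : Nat.Coprime r M) (hrM' : Nat.Coprime r (M * 3))
    (h : M * r * 3 ∣ M * 3 * r) {j : Fin 2} {f : modularFunctionFieldBar (M * r)} {n : ℤ}
    {φ : modularFunctionFieldFullC (kk A) M}
    (hv : HasVal (alData M r hrM) A (modularFunctionFieldFullC (kk A) M) j f n φ) :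
    HasVal (alData (M * 3) r hrM') A (modularFunctionFieldFullC (kk A) (M * 3)) j
      (H05.qe Qb 3 h f) n (H12.betaC (kk A) M 3 φ) := by
  refine ⟨fun h0 => hv.1 ((map_eq_zero_iff _ (H12.betaC (kk A) M 3).injective).mp h0), ?_⟩
  rw [al_e_qe hrM hrM' rfl h, ← qExpand_smul]
  exact hv.2.qExpand 3

end WBeta

theorem ifix_qe {A : ValuationSubring Qb} {N N' : ℕ} [NeZero N] [NeZero N'] (h : N * 3 ∣ N')
    {f : modularFunctionFieldBar N} (hf : IFix A f) :
    IFix A (H05.qe Qb 3 h f : modularFunctionFieldBar N') := fun σ hσ => by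
  have h1 := congrArg (fun z : modularFunctionFieldBar N => (z : LaurentSeries Qb)) (hf σ hσ)
  apply Subtype.ext
  change coeffMap (σ : Qb →+* Qb) (qExpand Qb 3 (f : LaurentSeries Qb)) =
    qExpand Qb 3 (f : LaurentSeries Qb)
  rw [coeffMap_qExpand]
  exact congrArg (qExpand Qb 3) h1

section Main

variable {M : ℕ} [NeZero M] {A : ValuationSubring Qb} {m : ℕ}

/-- the pull-back of the orders to level `3 M` by `q ↦ q^3` -/
theorem dvd_ord_beta (hrM : Nat.Coprime 2 M) (h3 : 3 ∣ M) (hA : A.LiesOverPrime 2) (hm : 0 < m)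
    {x : JZero (M * 2)} {f : modularFunctionFieldBar (M * 2)} (hf : H05.Kum m x f)
    (hI : IFix A f) {φ : Fin 2 → modularFunctionFieldFullC (kk A) M} {n : ℤ}
    (hval : ∀ j, HasVal (alData M 2 hrM) A (modularFunctionFieldFullC (kk A) M) j f n (φ j))
    (j : Fin 2) (w : Place (kk A) (modularFunctionFieldFullC (kk A) (M * 3))) :
    (m : ℤ) ∣ w.ord (H12.betaC (kk A) M 3 (φ j)) := by
  have hrM' : Nat.Coprime 2 (M * 3) := Nat.Coprime.mul_right hrM (by norm_num)
  have h9 : 9 ∣ M * 3 := by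
    obtain ⟨c, rfl⟩ := h3
    exact ⟨c, by ring⟩
  have hdvd : M * 2 * 3 ∣ M * 3 * 2 := ⟨1, by ring⟩
  obtain ⟨T, hT⟩ := N9.node_two hrM' h9 hA
  have key := hT hm (f := H05.qe Qb 3 hdvd f)
    ((map_ne_zero_iff _ (H05.qe Qb 3 hdvd).injective).mpr hf.ne_zero)
    (ratS_of_ifix hrM' hA (ifix_qe hdvd hI))
    (fun v => dvd_ord_map (H05.qe Qb 3 hdvd) (H05.qe_isIntegral Qb 3 hdvd) hf.dvd v)
    (n := fun _ => n) (φ := fun j => H12.betaC (kk A) M 3 (φ j))
    (fun j => hasVal_qe hrM hrM' hdvd (hval j)) w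
  simp only [sub_self, zero_mul, sub_zero, add_zero] at key
  rcases fin2_cases j with rfl | rfl
  · exact key.1
  · exact key.2

/-- **Orders, `p = 3`.** -/
theorem ordTwo_one (hrM : Nat.Coprime 2 M) (h3 : 3 ∣ M) {s : ℕ} (hs : s.Prime) (hs3 : s % 3 = 2)
    (hsM : s ∣ M) (hA : A.LiesOverPrime 2) (hm : 0 < m) : H09.M2.OrdTwo A M hrM m 1 := by
  intro x f hf hI φ n hval j v
  rw [Nat.cast_one, one_mul]
  by_cases h9 : 9 ∣ M
  · obtain ⟨T, hT⟩ := N9.node_two hrM h9 hA
    have key := hT hm (f := f) hf.ne_zero (ratS_of_ifix hrM hA hI) hf.dvd (n := fun _ => n)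
      (φ := φ) hval v
    simp only [sub_self, zero_mul, sub_zero, add_zero] at key
    rcases fin2_cases j with rfl | rfl
    · exact key.1
    · exact key.2
  · have hrM' : Nat.Coprime 2 (M * 3) := Nat.Coprime.mul_right hrM (by norm_num)
    have hMk : ((M * 3 : ℕ) : kk A) ≠ 0 := Q.natCast_residue_ne_zero Nat.prime_two hA hrM'
    have hMk' : (M : kk A) ≠ 0 := Q.natCast_residue_ne_zero Nat.prime_two hA hrM
    have hk : (3 : kk A) ≠ 0 := by
      have := Q.natCast_residue_ne_zero (A := A) (M := 3) Nat.prime_two hA (by norm_num)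
      exact_mod_cast this
    haveI : SepFF (kk A) (modularFunctionFieldFullC (kk A) M) := sepFF_full hMk'
    rcases le_or_gt (v.ord (f3M (kk A) M h3 hk)) 0 with hv | hv
    · obtain ⟨w, hw⟩ := exists_unram_alpha h3 h9 hMk hk v (SepFF.deg_eq_one v) hv
        (fun h => N9.three_dvd_ord_jbar hs hs3 hsM h3 hrM hA v h)
      rw [← hw]
      exact H09.M2.dvd_ord_up hrM h3 hA hm hf hI hval j w
    · obtain ⟨w, hw⟩ := exists_unram_beta Nat.prime_two hA h3 h9 hMk hk
        (fun u => SepFF.deg_eq_one u) v hv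
      rw [← hw]
      exact dvd_ord_beta hrM h3 hA hm hf hI hval j w

/-- **Mazur's principle at `2`, `p = 3`.** -/
theorem mz2_three {W : WeierstrassCurve ℤ} (hΔ : W.Δ ≠ 0) [hp : Fact (Nat.Prime 3)]
    (hirr : W.ModRepIsIrreducible 3) : H18O.Mz2 W 3 :=
  H09.M2.mz2_of hΔ hirr (by norm_num) (c := 1) (by norm_num)
    fun _ _ hM h3 haux _ hA => by
      obtain ⟨s, hs, hs3, hsM⟩ := haux rfl
      exact H09.M2.n2core_of_ordTwo hM h3 hA (by norm_num)
        (ordTwo_one hM h3 hs hs3 hsM hA (by norm_num))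

end Main

end Fermat.Agent.H22.M2
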