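import Fermat.Agent.H22.M2K
import Fermat.Agent.Igusa.HauptField
import Fermat.Agent.H12.SpecialFibre
import Fermat.Agent.H29.HauptField

/-!
# `X₀(9M) → X₀(3M)`: unramified places
-/

set_option autoImplicit false
set_option linter.style.haveILetI false
set_option linter.unusedSectionVars false
set_option maxSynthPendingDepth 3

noncomputable section

attribute [-instance] HahnSeries.instModule HahnSeries.instSMul HahnSeries.instDistribMulAction
  HahnSeries.instSMulZeroClass

namespace Fermat.Agent.H22.M2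

open AlgebraicCurve ModularCurve Fermat.Agent.Igusa
open Fermat.Agent.H29 (f3 F3_j F3_ne full_three_eq)

section Along

variable {K E F : Type*} [Field K] [IsAlgClosed K] [Field E] [Field F] [Algebra K E] [Algebra K F]

/-- existence of unramified places in cubic Kummer extensions -/
theorem exists_unram (φ : E →ₐ[K] F) (hfin : FiniteAlong K φ) (hsep : SeparableAlong K φ)
    (hK : (3 : K) ≠ 0) (h3 : finrankAlong K φ = 3) {y : F} {g : E}
    (hg0 : g ≠ 0) (hy : y ^ 3 = φ g) (hyE : ∀ e : E, y ≠ φ e)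
    {v : Place K E} (hdeg : v.deg = 1) (hg : (3 : ℤ) ∣ v.ord g) :
    ∃ w : Place K F, ∀ u : E, w.ord (φ u) = v.ord u := by
  letI := algebraAlong φ
  haveI := isScalarTower_along φ
  haveI : Module.Finite E F := hfin
  haveI : Algebra.IsSeparable E F := hsep
  obtain ⟨w, hw⟩ := H18.exists_restrict_eq (F := F) v
  have h1 : w.ramificationIndex E = 1 := ramificationIndex_kummer hK h3 hg0 hy hyE hdeg hg w hw
  refine ⟨w, fun u => ?_⟩
  have h2 := w.ord_restrict (F := E) u
  rw [h1, hw, Nat.cast_one, one_mul] at h2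
  exact h2

end Along

section Alpha

variable (k : Type*) [Field k] (M : ℕ) [NeZero M]

/-- the hauptmodul of level `3` -/
def f3M (h3 : 3 ∣ M) (hk : (3 : k) ≠ 0) : modularFunctionFieldFullC k M :=
  ⟨cc k f3, full_degeneracyC_le k h3 (by
    rw [full_three_eq hk]
    exact IntermediateField.mem_adjoin_simple_self k _)⟩

/-- the hauptmodul of level `9` -/
def t9M (h9 : 9 ∣ M) (hk : (3 : k) ≠ 0) : modularFunctionFieldFullC k M :=
  ⟨cc k t9, full_degeneracyC_le k h9 (H9.tq_mem k (by
    have : ((9 : ℕ) : k) = 3 * 3 := by norm_num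
    rw [this]
    exact mul_ne_zero hk hk))⟩

theorem cc_t9_u : cc k f3 * (cc k t9 ^ 2 + 9 * cc k t9 + 27) = cc k t9 ^ 3 := by
  have := congrArg (cc k) t9_u
  simpa only [map_mul, map_add, map_pow, map_ofNat] using this

theorem cc_t9_v : cc k t9 * (cc k t9 ^ 2 + 9 * cc k t9 + 27) = cc k v3 := by
  have := congrArg (cc k) t9_v
  simpa only [map_mul, map_add, map_pow, map_ofNat] using this

theorem cc_v3 : cc k v3 = qExpand k 3 (cc k f3) := by
  rw [v3, cc, coeffMap_qExpand]

theorem cc_t9_ne : cc k t9 ≠ 0 := (H9.mn_tq k).ne_zero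

variable {k M}

theorem finrank_three (h3 : 3 ∣ M) (hM : ((M * 3 : ℕ) : k) ≠ 0) :
    finrankAlong k (Q.incl k M 3) = 3 := by
  haveI : NeZero (M * 3) := ⟨Nat.mul_ne_zero (NeZero.ne M) three_ne_zero⟩
  have hM' : (M : k) ≠ 0 := by
    intro h0; apply hM; push_cast; rw [h0, zero_mul]
  apply Igusa.finrankAlong_inclusion
  have h1 := IntermediateField.relrank_mul_relrank
    (full_degeneracyC_le k (one_dvd M)) (full_degeneracyC_le k (dvd_mul_right M 3))
  rw [relrank_full M hM', relrank_full (M * 3) hM,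
    dedekindPsi_mul_prime Nat.prime_three (NeZero.ne M), if_pos h3, Nat.cast_mul] at h1
  have h3 : (dedekindPsi M : Cardinal) ≠ 0 := by
    exact_mod_cast (dedekindPsi_pos (NeZero.ne M)).ne'
  rw [← Nat.cast_mul] at h1
  rcases lt_or_ge ((modularFunctionFieldFullC k M).relrank (modularFunctionFieldFullC k (M * 3)))
    Cardinal.aleph0 with h5 | h5
  · obtain ⟨n, hn⟩ := Cardinal.lt_aleph0.1 h5
    rw [hn, ← Nat.cast_mul, Nat.cast_inj] at h1
    rw [hn, Nat.eq_of_mul_eq_mul_left (dedekindPsi_pos (NeZero.ne M)) h1]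
  · have h6 := h5.trans (Cardinal.le_mul_left h3)
    rw [h1] at h6
    exact absurd h6 (not_le.2 Cardinal.natCast_lt_aleph0)

/-- the level `3M` field is generated by the hauptmodul of level `9` -/
theorem full_eq_adj_t9 (h3 : 3 ∣ M) (h9 : ¬ 9 ∣ M) (hM : (M : k) ≠ 0) (hk : (3 : k) ≠ 0)
    (hm : cc k t9 ∈ modularFunctionFieldFullC k M) :
    modularFunctionFieldFullC k (M * 3) ≤ modularFunctionFieldFullC k M := by
  obtain ⟨M1, rfl⟩ := h3
  haveI : NeZero M1 := ⟨fun h => NeZero.ne (3 * M1) (by rw [h, mul_zero])⟩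
  haveI : Fact (Nat.Prime 3) := ⟨Nat.prime_three⟩
  have hM1 : ¬ 3 ∣ M1 := fun ⟨c, hc⟩ => h9 ⟨c, by rw [hc]; ring⟩
  have hM1k : (M1 : k) ≠ 0 := fun h => hM (by rw [Nat.cast_mul, h, mul_zero])
  have h := full_le_adj (k := k) 3 1 M1 hM1 (by exact_mod_cast hk) hM1k
  rw [pow_one] at h
  refine h.trans (adj_le le_rfl ?_)
  have h1 : jd k (3 ^ (1 + 1)) ∈ IntermediateField.adjoin k {H9.tq k} := by
    have h2 := H9.jd_mem k (d := 3 ^ (1 + 1)) (by norm_num)
    exact h2
  refine (IntermediateField.adjoin_le_iff.mpr ?_) h1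
  rintro x rfl
  exact hm

variable (k M) in
/-- `j` -/
def jM : modularFunctionFieldFullC k M := ⟨jqModC k, jqModC_mem_full k M⟩

theorem coe_f3M (h3 : 3 ∣ M) (hk : (3 : k) ≠ 0) : (f3M k M h3 hk : LaurentSeries k) = cc k f3 := rfl

theorem coe_t9M (h9 : 9 ∣ M) (hk : (3 : k) ≠ 0) : (t9M k M h9 hk : LaurentSeries k) = cc k t9 := rfl

theorem f3M_ne (h3 : 3 ∣ M) (hk : (3 : k) ≠ 0) : f3M k M h3 hk ≠ 0 := fun h =>
  F3_ne k (congrArg Subtype.val h)

theorem t9M_ne (h9 : 9 ∣ M) (hk : (3 : k) ≠ 0) : t9M k M h9 hk ≠ 0 := fun h =>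
  cc_t9_ne k (congrArg Subtype.val h)

theorem mn_cc_f3 : Mn (cc k f3) (-1) := mn_f3.coeffMap _

theorem coe_nat (n : ℕ) : (((n : ℕ) : modularFunctionFieldFullC k M) : LaurentSeries k) =
    (n : LaurentSeries k) := map_natCast (modularFunctionFieldFullC k M).val n

theorem f3M_add_ne (h3 : 3 ∣ M) (hk : (3 : k) ≠ 0) (n : ℕ) :
    f3M k M h3 hk + (n : modularFunctionFieldFullC k M) ≠ 0 := fun h => by
  have h1 : cc k f3 + (n : LaurentSeries k) = 0 := by
    have := congrArg (Subtype.val : modularFunctionFieldFullC k M → LaurentSeries k) h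
    rw [IntermediateField.coe_add, coe_nat, coe_f3M] at this
    exact this
  exact ((mn_cc_f3 (k := k)).add_hi (Hi.natCast n (by norm_num))).ne_zero h1

theorem jM_rel (h3 : 3 ∣ M) (hk : (3 : k) ≠ 0) :
    jM k M * f3M k M h3 hk ^ 3 = (f3M k M h3 hk + ((27 : ℕ) : modularFunctionFieldFullC k M)) *
      (f3M k M h3 hk + ((243 : ℕ) : modularFunctionFieldFullC k M)) ^ 3 := by
  apply Subtype.ext
  have := F3_j k
  rw [IntermediateField.coe_mul, IntermediateField.coe_mul, IntermediateField.coe_pow,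
    IntermediateField.coe_pow, IntermediateField.coe_add, IntermediateField.coe_add, coe_nat,
    coe_nat, coe_f3M, Nat.cast_ofNat, Nat.cast_ofNat]
  exact this

variable [IsAlgClosed k]

theorem natCast_eq (n : ℕ) : (n : modularFunctionFieldFullC k M) =
    algebraMap k (modularFunctionFieldFullC k M) n := (map_natCast _ n).symm

theorem ord_natCast_nonneg (v : Place k (modularFunctionFieldFullC k M)) (n : ℕ) :
    0 ≤ v.ord (n : modularFunctionFieldFullC k M) := by
  rw [natCast_eq, H18.ord_algebraMap]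

/-- the Kummer function has order divisible by `3` -/
theorem three_dvd_ord (h3 : 3 ∣ M) (hk : (3 : k) ≠ 0)
    (v : Place k (modularFunctionFieldFullC k M)) (hv : v.ord (f3M k M h3 hk) ≤ 0)
    (hj : 0 < v.ord (jM k M) → (3 : ℤ) ∣ v.ord (jM k M)) :
    (3 : ℤ) ∣ v.ord ((f3M k M h3 hk + ((27 : ℕ) : modularFunctionFieldFullC k M)) *
      (f3M k M h3 hk)⁻¹) := by
  have hf := f3M_ne (k := k) h3 hk
  have h27 := f3M_add_ne (k := k) h3 hk 27
  have h243 := f3M_add_ne (k := k) h3 hk 243
  rw [v.ord_mul h27 (inv_ne_zero hf), v.ord_inv]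
  rcases lt_or_eq_of_le hv with h | h
  · have h1 := (H18.ord_add_eq_of_lt v (f := f3M k M h3 hk)
      (g := ((27 : ℕ) : modularFunctionFieldFullC k M)) hf
      (Or.inr (lt_of_lt_of_le h (ord_natCast_nonneg v 27)))).1
    rw [h1, add_neg_cancel]
    exact dvd_zero _
  · rw [h, neg_zero, add_zero]
    have h1 : ∀ n : ℕ, 0 ≤ v.ord (f3M k M h3 hk + (n : modularFunctionFieldFullC k M)) := fun n =>
      H18.le_ord_add v (f3M_add_ne h3 hk n) (Or.inr h.ge) (Or.inr (ord_natCast_nonneg v n))
    rcases (h1 27).eq_or_lt with h2 | h2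
    · rw [← h2]; exact dvd_zero _
    · have hrel := congrArg v.ord (jM_rel (k := k) h3 hk)
      have hj0 : jM k M ≠ 0 := by
        intro h0
        have := jM_rel (k := k) h3 hk
        rw [h0, zero_mul] at this
        exact mul_ne_zero h27 (pow_ne_zero 3 h243) this.symm
      rw [v.ord_mul hj0 (pow_ne_zero 3 hf), v.ord_mul h27 (pow_ne_zero 3 h243), H18.ord_pow,
        H18.ord_pow, h, mul_zero, add_zero] at hrel
      have h4 := h1 243
      generalize v.ord (f3M k M h3 hk + ((243 : ℕ) : modularFunctionFieldFullC k M)) = b at h4 hrel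
      generalize v.ord (f3M k M h3 hk + ((27 : ℕ) : modularFunctionFieldFullC k M)) = a at h2 hrel ⊢
      have h5 := hj (by rw [hrel]; push_cast; omega)
      rw [hrel] at h5
      push_cast at h5
      omega

/-- **Unramified places, first degeneracy map.** -/
theorem exists_unram_alpha (h3 : 3 ∣ M) (h9 : ¬ 9 ∣ M) (hM : ((M * 3 : ℕ) : k) ≠ 0)
    (hk : (3 : k) ≠ 0)
    (v : Place k (modularFunctionFieldFullC k M)) (hdeg : v.deg = 1)
    (hv : v.ord (f3M k M h3 hk) ≤ 0)
    (hj : 0 < v.ord (jM k M) → (3 : ℤ) ∣ v.ord (jM k M)) :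
    ∃ w : Place k (modularFunctionFieldFullC k (M * 3)),
      ∀ u : modularFunctionFieldFullC k M, w.ord (Q.incl k M 3 u) = v.ord u := by
  haveI : NeZero (M * 3) := ⟨Nat.mul_ne_zero (NeZero.ne M) three_ne_zero⟩
  have hM' : (M : k) ≠ 0 := by
    intro h0; apply hM; push_cast; rw [h0, zero_mul]
  have h9' : 9 ∣ M * 3 := by
    obtain ⟨c, rfl⟩ := h3
    exact ⟨c, by ring⟩
  have ht := t9M_ne (k := k) h9' hk
  have hf := f3M_ne (k := k) h3 hk
  have h27 := f3M_add_ne (k := k) h3 hk 27
  refine exists_unram (Q.incl k M 3) (H12.finite_alphaC k M 3) (H12.separable_alphaC k M 3 hM) hk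
    (finrank_three h3 hM)
    (y := (t9M k (M * 3) h9' hk + ((9 : ℕ) : modularFunctionFieldFullC k (M * 3))) *
      (t9M k (M * 3) h9' hk)⁻¹)
    (g := (f3M k M h3 hk + ((27 : ℕ) : modularFunctionFieldFullC k M)) * (f3M k M h3 hk)⁻¹)
    (mul_ne_zero h27 (inv_ne_zero hf)) ?_ ?_ hdeg (three_dvd_ord h3 hk v hv hj)
  · apply Subtype.ext
    have h1 := cc_t9_u k
    have h2 := cc_t9_ne k
    have h4 := F3_ne k
    rw [Q.coe_incl, IntermediateField.coe_pow, IntermediateField.coe_mul, IntermediateField.coe_mul,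
      IntermediateField.coe_inv, IntermediateField.coe_inv, IntermediateField.coe_add,
      IntermediateField.coe_add, coe_nat, coe_nat, coe_f3M, coe_t9M, Nat.cast_ofNat,
      Nat.cast_ofNat]
    field_simp
    linear_combination 27 * h1
  · intro e he
    have h1 := congrArg (Subtype.val : modularFunctionFieldFullC k (M * 3) → LaurentSeries k) he
    rw [Q.coe_incl, IntermediateField.coe_mul, IntermediateField.coe_inv,
      IntermediateField.coe_add, coe_nat, coe_t9M, Nat.cast_ofNat] at h1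
    have h2 := cc_t9_ne k
    have h9k : (9 : LaurentSeries k) ≠ 0 := by
      have h : ((9 : k)) ≠ 0 := by
        have : (9 : k) = 3 * 3 := by norm_num
        rw [this]; exact mul_ne_zero hk hk
      intro h0
      apply h
      have h5 : algebraMap k (LaurentSeries k) 9 = 0 := by rw [map_ofNat]; exact h0
      exact (map_eq_zero_iff _ (algebraMap k (LaurentSeries k)).injective).mp h5
    have h3' : cc k t9 * ((e : LaurentSeries k) - 1) = 9 := by
      rw [← h1]
      field_simp
      ring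
    have h4 : ((e : LaurentSeries k) - 1) ≠ 0 := by
      intro h0
      rw [h0, mul_zero] at h3'
      exact h9k h3'.symm
    have h5 : cc k t9 ∈ modularFunctionFieldFullC k M := by
      rw [← eq_div_iff h4] at h3'
      rw [h3']
      exact div_mem (H29.ofNat_mem _ 9) (sub_mem e.2 (one_mem _))
    have h6 := full_eq_adj_t9 h3 h9 hM' hk h5
    have h7 : finrankAlong k (Q.incl k M 3) = 1 := by
      apply Igusa.finrankAlong_inclusion
      rw [Nat.cast_one]
      exact IntermediateField.relrank_eq_one_iff.mpr h6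
    rw [finrank_three h3 hM] at h7
    norm_num at h7

end Alpha

end Fermat.Agent.H22.M2
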