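import Fermat.Agent.H18_JFun
import Fermat.Agent.H02_JN

/-!
# Elliptic points of order three on `X₀(M l)` and the two degeneracy maps to `X₀(M)`
-/

set_option autoImplicit false

noncomputable section

namespace Fermat.Agent.H22.M3

open UpperHalfPlane hiding I
open CongruenceSubgroup Fermat.Agent.H18
open scoped MatrixGroups Modular

/-- integral linear relations -/
theorem int_lin_zero {τ : ℍ} {x y : ℤ} (h : (x : ℂ) * τ + y = 0) : x = 0 ∧ y = 0 := by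
  have h1 := congrArg Complex.im h
  simp only [Complex.add_im, Complex.mul_im, Complex.intCast_re, Complex.intCast_im, zero_mul,
    add_zero, Complex.zero_im] at h1
  have h2 : (x : ℝ) = 0 := by
    rcases mul_eq_zero.mp h1 with h | h
    · exact h
    · exact absurd h τ.im_pos.ne'
  have hx : x = 0 := by exact_mod_cast h2
  subst hx
  rw [Int.cast_zero, zero_mul, zero_add] at h
  exact ⟨rfl, by exact_mod_cast h⟩

/-- proportionality of integral quadratic equations -/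
theorem int_quad {τ : ℍ} {a b c a' b' c' : ℤ} (h : (a : ℂ) * τ ^ 2 + b * τ + c = 0)
    (h' : (a' : ℂ) * τ ^ 2 + b' * τ + c' = 0) : a' * b = a * b' ∧ a' * c = a * c' := by
  have h1 : ((a' * b - a * b' : ℤ) : ℂ) * τ + ((a' * c - a * c' : ℤ) : ℂ) = 0 := by
    push_cast
    linear_combination (a' : ℂ) * h - (a : ℂ) * h'
  obtain ⟨h2, h3⟩ := int_lin_zero h1
  exact ⟨by omega, by omega⟩

theorem smul_eq_iff' {γ : SL(2, ℤ)} {τ τ' : ℍ} : γ • τ = τ' ↔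
    ((γ 0 0 : ℤ) : ℂ) * τ + (γ 0 1 : ℤ) = τ' * (((γ 1 0 : ℤ) : ℂ) * τ + (γ 1 1 : ℤ)) := by
  have hne : ((γ 1 0 : ℤ) : ℂ) * τ + (γ 1 1 : ℤ) ≠ 0 := by
    intro h0
    obtain ⟨h1, h2⟩ := int_lin_zero h0
    have h3 := γ.det_coe
    rw [Matrix.det_fin_two, h1, h2] at h3
    simp at h3
  have h1 : ((γ • τ : ℍ) : ℂ) = (((γ 0 0 : ℤ) : ℂ) * τ + (γ 0 1 : ℤ)) /
      (((γ 1 0 : ℤ) : ℂ) * τ + (γ 1 1 : ℤ)) := by
    rw [UpperHalfPlane.specialLinearGroup_apply]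
    simp
  rw [UpperHalfPlane.ext_iff, h1, div_eq_iff hne]

theorem fix_quad {γ : SL(2, ℤ)} {τ : ℍ} (h : γ • τ = τ) :
    ((γ 1 0 : ℤ) : ℂ) * τ ^ 2 + ((γ 1 1 - γ 0 0 : ℤ) : ℂ) * τ + ((-γ 0 1 : ℤ) : ℂ) = 0 := by
  have h1 := smul_eq_iff'.mp h
  push_cast
  linear_combination -h1

/-- the discriminant of an elliptic element of order three -/
theorem disc_eq {γ : SL(2, ℤ)} (ht : (γ 0 0 + γ 1 1) ^ 2 = 1) :
    (γ 1 1 - γ 0 0) ^ 2 + 4 * (γ 0 1 * γ 1 0) = -3 := by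
  have h3 := γ.det_coe
  rw [Matrix.det_fin_two] at h3
  linear_combination ht - 4 * h3

theorem dvd_of_disc {γ : SL(2, ℤ)} (ht : (γ 0 0 + γ 1 1) ^ 2 = 1) {x : ℤ}
    (h1 : γ 1 0 ∣ x * (γ 1 1 - γ 0 0)) (h2 : γ 1 0 ∣ x * γ 0 1) : γ 1 0 ∣ x := by
  set c := γ 1 0
  set e := γ 1 1 - γ 0 0
  set b := γ 0 1
  have hd : e ^ 2 + 4 * (b * c) = -3 := disc_eq ht
  set g := Int.gcd c (Int.gcd e b) with hg
  have hgc : (g : ℤ) ∣ c := Int.gcd_dvd_left _ _
  have hg2 : (g : ℤ) ∣ (Int.gcd e b : ℤ) := Int.gcd_dvd_right _ _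
  have hge : (g : ℤ) ∣ e := hg2.trans (Int.gcd_dvd_left _ _)
  have hgb : (g : ℤ) ∣ b := hg2.trans (Int.gcd_dvd_right _ _)
  have h3 : (g : ℤ) * g ∣ 3 := by
    have h4 : (g : ℤ) * g ∣ e ^ 2 + 4 * (b * c) := by
      refine dvd_add ?_ (dvd_mul_of_dvd_right (mul_dvd_mul hgb hgc) _)
      rw [pow_two]
      exact mul_dvd_mul hge hge
    rw [hd] at h4
    simpa using h4
  have h4 : g = 1 := by
    have h5 : g * g ∣ 3 := by exact_mod_cast h3
    have h6 := Nat.le_of_dvd (by norm_num) h5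
    have h7 : g ≤ 1 := by nlinarith
    have h8 : g ≠ 0 := by
      rintro h0
      rw [h0] at h5
      norm_num at h5
    omega
  have h5 : c ∣ (Int.gcd (x * e) (x * b) : ℤ) := Int.dvd_coe_gcd h1 h2
  have h6 : c ∣ (Int.gcd (x * c) (Int.gcd (x * e) (x * b) : ℤ) : ℤ) :=
    Int.dvd_coe_gcd (dvd_mul_left _ _) h5
  have h7 : (Int.gcd (x * c) (Int.gcd (x * e) (x * b) : ℤ) : ℤ) = (x.natAbs : ℤ) := by
    rw [Int.gcd_mul_left x e b]
    have h8 : Int.gcd (x * c) ((x.natAbs * Int.gcd e b : ℕ) : ℤ) = Int.gcd (x * c)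
        (x * (Int.gcd e b : ℤ)) := by
      rw [Int.gcd_def, Int.gcd_def]
      congr 1
      rw [Int.natAbs_mul x, Int.natAbs_natCast, Int.natAbs_natCast]
    rw [h8, Int.gcd_mul_left, ← hg, h4, mul_one]
  rw [h7] at h6
  exact Int.dvd_natAbs.mp h6

/-- the elements carrying an elliptic point `τ` of order three of `X₀(M l)` to `l τ` lie in
`Γ₀(M)` -/
theorem mem_Gamma0_of_smul_eq {M l : ℕ} (hl : l ≠ 0) {γ δ : SL(2, ℤ)} {τ τ' : ℍ}
    (hγ : γ ∈ Gamma0 (M * l)) (hfix : γ • τ = τ) (ht : (γ 0 0 + γ 1 1) ^ 2 = 1)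
    (hτ' : (τ' : ℂ) = l * τ) (hδ : δ • τ = τ') : δ ∈ Gamma0 M := by
  rw [Gamma0_mem, ZMod.intCast_zmod_eq_zero_iff_dvd] at hγ ⊢
  have h1 := smul_eq_iff'.mp hδ
  have h2 : ((l * δ 1 0 : ℤ) : ℂ) * τ ^ 2 + ((l * δ 1 1 - δ 0 0 : ℤ) : ℂ) * τ +
      ((-δ 0 1 : ℤ) : ℂ) = 0 := by
    rw [hτ'] at h1
    push_cast
    linear_combination -h1
  obtain ⟨h3, h4⟩ := int_quad h2 (fix_quad hfix)
  have h5 : γ 1 0 ∣ l * δ 1 0 := by
    refine dvd_of_disc ht ⟨_, h3.symm⟩ ⟨δ 0 1, ?_⟩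
    linarith
  have h6 : ((M * l : ℕ) : ℤ) ∣ l * δ 1 0 := hγ.trans h5
  rw [Nat.cast_mul, mul_comm (M : ℤ)] at h6
  exact Int.dvd_of_mul_dvd_mul_left (by exact_mod_cast hl) h6

/-- elliptic points of order three -/
theorem exists_smul_rhoPt {γ : SL(2, ℤ)} {τ : ℍ} (hfix : γ • τ = τ)
    (ht : (γ 0 0 + γ 1 1) ^ 2 = 1) : ∃ g : SL(2, ℤ), g • rhoPt = τ := by
  obtain ⟨g, hg⟩ := ModularGroup.exists_smul_mem_fd τ
  set z : ℍ := g • τ with hz
  set γ' : SL(2, ℤ) := g * γ * g⁻¹ with hγ'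
  have hfix' : γ' • z = z := by
    rw [hγ', hz, mul_smul, mul_smul, inv_smul_smul, hfix]
  have ht' : (γ' 0 0 + γ' 1 1) ^ 2 = 1 := by
    have h1 : γ' 0 0 + γ' 1 1 = γ 0 0 + γ 1 1 := by
      have h2 : Matrix.trace (γ' : Matrix (Fin 2) (Fin 2) ℤ) =
          Matrix.trace (γ : Matrix (Fin 2) (Fin 2) ℤ) := by
        rw [hγ', Matrix.SpecialLinearGroup.coe_mul, Matrix.trace_mul_comm,
          ← Matrix.SpecialLinearGroup.coe_mul, ← mul_assoc, inv_mul_cancel, one_mul]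
      rwa [Matrix.trace_fin_two, Matrix.trace_fin_two] at h2
    rw [h1, ht]
  have hq := fix_quad hfix'
  have hd := disc_eq ht'
  set c := γ' 1 0
  set e := γ' 1 1 - γ' 0 0
  set b := γ' 0 1
  have hre := congrArg Complex.re hq
  have him := congrArg Complex.im hq
  have hc1 : ((c : ℤ) : ℂ) = ((c : ℝ) : ℂ) := by push_cast; rfl
  have he1 : ((e : ℤ) : ℂ) = ((e : ℝ) : ℂ) := by push_cast; rfl
  have hb1 : (((-b : ℤ)) : ℂ) = ((-b : ℝ) : ℂ) := by push_cast; rfl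
  rw [hc1, he1, hb1, pow_two] at hre him
  simp only [Complex.add_re, Complex.mul_re, Complex.mul_im, Complex.ofReal_re,
    Complex.ofReal_im, zero_mul, sub_zero, add_zero, Complex.zero_re, Complex.add_im,
    Complex.zero_im] at hre him
  have hzr : ((z : ℂ)).re = z.re := rfl
  have hzi : ((z : ℂ)).im = z.im := rfl
  rw [hzr, hzi] at hre him
  have hypos := z.im_pos
  set x := z.re
  set y := z.im
  have h1 : (e : ℝ) = -(2 * c * x) := by
    have h2 : y * (2 * c * x + e) = 0 := by linear_combination him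
    rcases mul_eq_zero.mp h2 with h | h
    · exact absurd h hypos.ne'
    · linear_combination h
  have h2 : (b : ℝ) = -(c * (x ^ 2 + y ^ 2)) := by
    rw [h1] at hre
    linear_combination -hre
  have hdR : (e : ℝ) ^ 2 + 4 * (b * c) = -3 := by exact_mod_cast hd
  have h3 : 4 * (c : ℝ) ^ 2 * y ^ 2 = 3 := by
    rw [h1, h2] at hdR
    linear_combination -hdR
  obtain ⟨hfd1, hfd2⟩ := hg
  have hns : Complex.normSq (z : ℂ) = x ^ 2 + y ^ 2 := by
    rw [Complex.normSq_apply, hzr, hzi]; ring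
  rw [hns] at hfd1
  have hx2 : x ^ 2 ≤ 1 / 4 := by
    have := abs_le.mp hfd2
    nlinarith
  have hc2 : (c : ℝ) ^ 2 = 1 := by
    have hcne : c ≠ 0 := by
      intro h0
      rw [h0] at h3
      norm_num at h3
    have h4 : (1 : ℤ) ≤ c ^ 2 := by
      have := sq_pos_of_ne_zero hcne
      omega
    have h5 : (c : ℝ) ^ 2 ≤ 1 := by
      by_contra hcon
      push Not at hcon
      have h6 : (1 : ℤ) < c ^ 2 := by exact_mod_cast hcon
      have h7 : (2 : ℤ) ≤ c ^ 2 := by omega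
      have h8 : (2 : ℝ) ≤ (c : ℝ) ^ 2 := by exact_mod_cast h7
      nlinarith
    have h6 : (1 : ℝ) ≤ (c : ℝ) ^ 2 := by exact_mod_cast h4
    linarith
  have hy2 : y ^ 2 = 3 / 4 := by
    rw [hc2] at h3
    linarith
  have hx4 : x ^ 2 = 1 / 4 := by nlinarith
  have hy : y = Real.sqrt 3 / 2 := by
    have h5 : (Real.sqrt 3 / 2) ^ 2 = y ^ 2 := by
      rw [div_pow, Real.sq_sqrt (by norm_num), hy2]
      norm_num
    have h6 : 0 < Real.sqrt 3 / 2 := by positivity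
    nlinarith [sq_nonneg (y - Real.sqrt 3 / 2), mul_pos hypos h6]
  have hcoe : ∀ w : ℍ, (w : ℂ) = (w.re : ℂ) + (w.im : ℂ) * Complex.I := fun w =>
    (Complex.re_add_im (w : ℂ)).symm
  have hx : x = -(1 / 2) ∨ x = 1 / 2 := by
    have h5 : (x + 1 / 2) * (x - 1 / 2) = 0 := by linear_combination hx4
    rcases mul_eq_zero.mp h5 with h | h
    · left; linarith
    · right; linarith
  rcases hx with hx | hx
  · refine ⟨g⁻¹, ?_⟩
    have h7 : rhoPt = z := by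
      apply UpperHalfPlane.ext
      rw [coe_rhoPt, hcoe z]
      change _ = ((x : ℝ) : ℂ) + ((y : ℝ) : ℂ) * Complex.I
      rw [hx, hy]
      push_cast
      ring
    rw [h7, hz, inv_smul_smul]
  · refine ⟨g⁻¹ * ModularGroup.T, ?_⟩
    have h7 : ModularGroup.T • rhoPt = z := by
      rw [UpperHalfPlane.modular_T_smul]
      apply UpperHalfPlane.ext
      rw [UpperHalfPlane.coe_vadd, coe_rhoPt, hcoe z]
      change _ = ((x : ℝ) : ℂ) + ((y : ℝ) : ℂ) * Complex.I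
      rw [hx, hy]
      push_cast
      ring
    rw [mul_smul, h7, hz, inv_smul_smul]

/-- **the two images of an elliptic point of order three coincide** -/
theorem exists_Gamma0_smul {M l : ℕ} (hl : l ≠ 0) {γ : SL(2, ℤ)} {τ τ' : ℍ}
    (hγ : γ ∈ Gamma0 (M * l)) (hfix : γ • τ = τ) (ht : (γ 0 0 + γ 1 1) ^ 2 = 1)
    (hτ' : (τ' : ℂ) = l * τ) : ∃ δ ∈ Gamma0 M, δ • τ = τ' := by
  have hγ0 := hγ
  rw [Gamma0_mem, ZMod.intCast_zmod_eq_zero_iff_dvd] at hγ0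
  obtain ⟨c, hc⟩ := hγ0
  have hdet := γ.det_coe
  rw [Matrix.det_fin_two] at hdet
  let γ' : SL(2, ℤ) := ⟨!![γ 0 0, l * γ 0 1; M * c, γ 1 1], by
    rw [Matrix.det_fin_two_of]
    rw [hc] at hdet
    push_cast at hdet
    linear_combination hdet⟩
  have e00 : γ' 0 0 = γ 0 0 := rfl
  have e01 : γ' 0 1 = l * γ 0 1 := rfl
  have e10 : γ' 1 0 = M * c := rfl
  have e11 : γ' 1 1 = γ 1 1 := rfl
  have hfix' : γ' • τ' = τ' := by
    rw [smul_eq_iff', e00, e01, e10, e11, hτ']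
    have h1 := smul_eq_iff'.mp hfix
    rw [hc] at h1
    push_cast at h1 ⊢
    linear_combination (l : ℂ) * h1
  obtain ⟨g, hg⟩ := exists_smul_rhoPt hfix ht
  obtain ⟨g', hg'⟩ := exists_smul_rhoPt hfix' (by rw [e00, e11, ht])
  have hδ : (g' * g⁻¹) • τ = τ' := by rw [mul_smul, ← hg, inv_smul_smul, hg']
  exact ⟨g' * g⁻¹, mem_Gamma0_of_smul_eq hl hγ hfix ht hτ' hδ, hδ⟩

end Fermat.Agent.H22.M3
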