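import Fermat.Agent.H22.M3A
import Fermat.Agent.H27.M2e
import Fermat.Prelude.Def_ModularCurve_HeckeOperator

/-!
# The two degeneracy maps at the elliptic places of order three
-/

set_option autoImplicit false
set_option linter.unusedSectionVars false
set_option linter.style.haveILetI false

noncomputable section

namespace Fermat.Agent.H22.M3

open UpperHalfPlane hiding I
open Filter Topology CongruenceSubgroup Fermat.Agent.H18 AlgebraicCurve
open Fermat.Agent.H02 (tr tr_apply tr_mul tr_add tr_tr tr_one jN tr_jN_of_mem tr_jfun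
  Gamma0_le_of_dvd)
open Fermat.Agent.Igusa (scl coe_scl)
open Fermat.Agent.IntStr (aff coe_aff)
open Fermat.Agent.H01 (ordAt)
open ModularCurve (heckeAlphaBar heckeBetaBar coe_heckeAlphaBar coe_heckeBetaBar qExpand jqModC)
open scoped MatrixGroups

/-! ### Scaling -/

section Scl

variable {l : ℕ} [NeZero l]

theorem ordAt_scl (f : ℍ → ℂ) (τ : ℍ) : ordAt τ (fun z => f (scl l z)) = ordAt (scl l τ) f := by
  have hl : (l : ℂ) ≠ 0 := by exact_mod_cast NeZero.ne l
  have hg : AnalyticAt ℂ (fun z : ℂ => (l : ℂ) * z) (τ : ℂ) := by fun_prop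
  have hd : deriv (fun z : ℂ => (l : ℂ) * z) (τ : ℂ) ≠ 0 := by
    have : deriv (fun z : ℂ => (l : ℂ) * z) (τ : ℂ) = l := by
      simp
    rw [this]
    exact hl
  have h1 := analyticOrderAt_comp_of_deriv_ne_zero (f := f ∘ ofComplex) hg hd
  have h2 : (fun z => f (scl l z)) ∘ ofComplex =ᶠ[𝓝 (τ : ℂ)]
      (f ∘ ofComplex) ∘ (fun z : ℂ => (l : ℂ) * z) := by
    have h3 : ∀ᶠ z : ℂ in 𝓝 (τ : ℂ), 0 < z.im :=
      (isOpen_upperHalfPlaneSet.mem_nhds τ.im_pos)
    filter_upwards [h3] with z hz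
    have h4 : ofComplex ((l : ℂ) * z) = scl l (ofComplex z) := by
      apply UpperHalfPlane.ext
      have h5 : 0 < ((l : ℂ) * z).im := by
        rw [Complex.mul_im, Complex.natCast_re, Complex.natCast_im, zero_mul, add_zero]
        have : (0 : ℝ) < l := by exact_mod_cast NeZero.pos l
        positivity
      rw [coe_scl, ofComplex_apply_of_im_pos h5, ofComplex_apply_of_im_pos hz]
    simp only [Function.comp_apply, h4]
  rw [← analyticOrderAt_congr h2] at h1
  rw [ordAt, ordAt, analyticOrderNatAt, analyticOrderNatAt, h1, coe_scl]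

theorem scl_surjective : Function.Surjective (scl l) := by
  intro z
  have hl : (0 : ℝ) < l := by exact_mod_cast NeZero.pos l
  have hl' : (l : ℂ) ≠ 0 := by exact_mod_cast NeZero.ne l
  refine ⟨⟨(z : ℂ) / l, ?_⟩, ?_⟩
  · rw [Complex.div_natCast_im]
    exact div_pos z.im_pos hl
  · apply UpperHalfPlane.ext
    rw [coe_scl]
    change (l : ℂ) * ((z : ℂ) / l) = z
    field_simp

theorem jN_scl {d : ℕ} [NeZero d] (z : ℍ) : jN d (scl l z) = jN (d * l) z := by
  rw [jN, jN]
  congr 1
  apply UpperHalfPlane.ext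
  have h1 : 0 < d * l := Nat.mul_pos (NeZero.pos d) (NeZero.pos l)
  rw [coe_aff (NeZero.pos d) one_pos, coe_aff h1 one_pos, coe_scl]
  push_cast
  ring

end Scl

/-! ### The algebra generated by the `j(d z)` -/

section Inv

variable {K : Type*} [Field K] [Algebra K ℂ] {M l : ℕ} [NeZero M] [NeZero l]

variable (K M) in
/-- the algebra generated by the functions `j(d z)`, `d ∣ M` -/
def invAlg : Subalgebra K (ℍ → ℂ) := Algebra.adjoin K {f | ∃ d, d ∣ M ∧ f = jN d}

theorem tr_invAlg {f : ℍ → ℂ} (hf : f ∈ invAlg K M) {γ : SL(2, ℤ)} (hγ : γ ∈ Gamma0 M) :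
    tr γ f = f := by
  induction hf using Algebra.adjoin_induction with
  | mem x hx =>
    obtain ⟨d, hd, rfl⟩ := hx
    exact tr_jN_of_mem (Nat.pos_of_dvd_of_pos hd (NeZero.pos M)) (Gamma0_le_of_dvd hd hγ)
  | algebraMap r => rfl
  | add x y _ _ hx hy => rw [tr_add, hx, hy]
  | mul x y _ _ hx hy => rw [tr_mul, hx, hy]

theorem invAlg_le {f : ℍ → ℂ} (hf : f ∈ invAlg K M) : f ∈ funAlg K (M * l) := by
  induction hf using Algebra.adjoin_induction with
  | mem x hx =>
    obtain ⟨d, hd, rfl⟩ := hx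
    exact jN_mem (hd.mul_right l)
  | algebraMap r => exact (funAlg K (M * l)).algebraMap_mem r
  | add x y _ _ hx hy => exact add_mem hx hy
  | mul x y _ _ hx hy => exact mul_mem hx hy

theorem invAlg_scl {f : ℍ → ℂ} (hf : f ∈ invAlg K M) :
    (fun z => f (scl l z)) ∈ funAlg K (M * l) := by
  induction hf using Algebra.adjoin_induction with
  | mem x hx =>
    obtain ⟨d, hd, rfl⟩ := hx
    haveI : NeZero d := ⟨(Nat.pos_of_dvd_of_pos hd (NeZero.pos M)).ne'⟩
    have h1 : (fun z => jN d (scl l z)) = jN (d * l) := funext fun z => jN_scl z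
    rw [h1]
    exact jN_mem (mul_dvd_mul_right hd l)
  | algebraMap r => exact (funAlg K (M * l)).algebraMap_mem r
  | add x y _ _ hx hy => exact add_mem hx hy
  | mul x y _ _ hx hy => exact mul_mem hx hy

instance : IsDomain (invAlg K M) := by
  have : NoZeroDivisors (invAlg K M) := ⟨by
    rintro ⟨f, hf⟩ ⟨g, hg⟩ h
    have h1 : f * g = 0 := congrArg Subtype.val h
    rcases (UpperHalfPlane.mul_eq_zero_iff (mdiff_of_mem (invAlg_le (l := 1) hf))
      (mdiff_of_mem (invAlg_le (l := 1) hg))).mp h1 with h | h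
    · exact Or.inl (Subtype.ext h)
    · exact Or.inr (Subtype.ext h)⟩
  exact NoZeroDivisors.to_isDomain _

variable (K M l) in
/-- the functions, at level `M l` -/
def iota₁ : invAlg K M →+* funAlg K (M * l) where
  toFun f := ⟨f, invAlg_le f.2⟩
  map_one' := rfl
  map_mul' _ _ := rfl
  map_zero' := rfl
  map_add' _ _ := rfl

variable (K M l) in
/-- the functions of `l z`, at level `M l` -/
def iota₂ : invAlg K M →+* funAlg K (M * l) where
  toFun f := ⟨fun z => (f : ℍ → ℂ) (scl l z), invAlg_scl f.2⟩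
  map_one' := rfl
  map_mul' _ _ := rfl
  map_zero' := rfl
  map_add' _ _ := rfl

theorem iota₁_injective : Function.Injective (iota₁ K M l) := fun f g h =>
  Subtype.ext (congrArg (fun z : funAlg K (M * l) => (z : ℍ → ℂ)) h)

theorem iota₂_injective : Function.Injective (iota₂ K M l) := fun f g h => by
  have h1 : (fun z => (f : ℍ → ℂ) (scl l z)) = fun z => (g : ℍ → ℂ) (scl l z) :=
    congrArg Subtype.val h
  apply Subtype.ext
  funext z
  obtain ⟨w, rfl⟩ := scl_surjective (l := l) z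
  exact congrFun h1 w

end Inv

/-! ### Representation of the elements of the function field -/

section Pair

variable {F L B : Type*} [Field F] [Field L] [CommRing B] [IsDomain B]

/-- the elements of the field which are quotients of elements of a ring, for two embeddings -/
def pairField (e₁ e₂ : F →+* L) (ι₁ ι₂ : B →+* L) (h₁ : Function.Injective ι₁)
    (h₂ : Function.Injective ι₂) : Subfield F where
  carrier := {x | ∃ a b : B, b ≠ 0 ∧ e₁ x * ι₁ b = ι₁ a ∧ e₂ x * ι₂ b = ι₂ a}
  mul_mem' := by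
    rintro x y ⟨a, b, hb, h1, h2⟩ ⟨c, d, hd, h3, h4⟩
    refine ⟨a * c, b * d, mul_ne_zero hb hd, ?_, ?_⟩
    · rw [map_mul, map_mul, map_mul, ← h1, ← h3]; ring
    · rw [map_mul, map_mul, map_mul, ← h2, ← h4]; ring
  one_mem' := ⟨1, 1, one_ne_zero, by simp, by simp⟩
  add_mem' := by
    rintro x y ⟨a, b, hb, h1, h2⟩ ⟨c, d, hd, h3, h4⟩
    refine ⟨a * d + c * b, b * d, mul_ne_zero hb hd, ?_, ?_⟩
    · rw [map_mul, map_add, map_add, map_mul, map_mul, ← h1, ← h3]; ring
    · rw [map_mul, map_add, map_add, map_mul, map_mul, ← h2, ← h4]; ring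
  zero_mem' := ⟨0, 1, one_ne_zero, by simp, by simp⟩
  neg_mem' := by
    rintro x ⟨a, b, hb, h1, h2⟩
    refine ⟨-a, b, hb, ?_, ?_⟩
    · rw [map_neg, map_neg, ← h1]; ring
    · rw [map_neg, map_neg, ← h2]; ring
  inv_mem' := by
    rintro x ⟨a, b, hb, h1, h2⟩
    rcases eq_or_ne x 0 with rfl | hx
    · exact ⟨0, 1, one_ne_zero, by simp, by simp⟩
    have hx1 : e₁ x ≠ 0 := (map_ne_zero e₁).mpr hx
    have hx2 : e₂ x ≠ 0 := (map_ne_zero e₂).mpr hx
    have ha : a ≠ 0 := by
      rintro rfl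
      rw [map_zero] at h1
      rcases mul_eq_zero.mp h1 with h | h
      · exact hx1 h
      · exact hb (h₁ (h.trans (map_zero _).symm))
    refine ⟨b, a, ha, ?_, ?_⟩
    · rw [map_inv₀, ← h1, inv_mul_cancel_left₀ hx1]
    · rw [map_inv₀, ← h2, inv_mul_cancel_left₀ hx2]

end Pair

section Rep

variable {K : Type*} [Field K] [Algebra K ℂ] [IsAlgClosed K] [Algebra ℚ K] {M l : ℕ} [NeZero M]
  [NeZero l]

theorem alpha_jd (d : ℕ) [NeZero d] (hd : d ∣ M) :
    heckeAlphaBar K M l (jd d hd) = jd d (hd.mul_right l) := by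
  apply Subtype.ext
  rw [coe_heckeAlphaBar]
  rfl

theorem beta_jd (d : ℕ) [NeZero d] (hd : d ∣ M) :
    heckeBetaBar K M l (jd d hd) = jd (d * l) (mul_dvd_mul_right hd l) := by
  apply Subtype.ext
  rw [coe_heckeBetaBar]
  change qExpand K l (qExpand K d (jqModC K)) = qExpand K (d * l) (jqModC K)
  rw [ModularCurve.qExpand_qExpand]
  exact ModularCurve.qExpand_congr (mul_comm _ _) _

variable (K M l) in
/-- the first embedding -/
def emb₁ : Fb K M →ₐ[K] ModField K (M * l) := (embF K (M * l)).comp (heckeAlphaBar K M l)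

variable (K M l) in
/-- the second embedding -/
def emb₂ : Fb K M →ₐ[K] ModField K (M * l) := (embF K (M * l)).comp (heckeBetaBar K M l)

theorem emb₁_jd (d : ℕ) [NeZero d] (hd : d ∣ M) :
    emb₁ K M l (jd d hd) = jNM K (M * l) d (hd.mul_right l) := by
  rw [emb₁, AlgHom.comp_apply, alpha_jd, embF_jd]

theorem emb₂_jd (d : ℕ) [NeZero d] (hd : d ∣ M) :
    emb₂ K M l (jd d hd) = jNM K (M * l) (d * l) (mul_dvd_mul_right hd l) := by
  rw [emb₂, AlgHom.comp_apply, beta_jd, embF_jd]

variable (K M l) in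
/-- the first embedding of the functions -/
def fun₁ : invAlg K M →+* ModField K (M * l) :=
  (algebraMap (funAlg K (M * l)) (ModField K (M * l))).comp (iota₁ K M l)

variable (K M l) in
/-- the second embedding of the functions -/
def fun₂ : invAlg K M →+* ModField K (M * l) :=
  (algebraMap (funAlg K (M * l)) (ModField K (M * l))).comp (iota₂ K M l)

theorem fun₁_injective : Function.Injective (fun₁ K M l) :=
  (IsFractionRing.injective (funAlg K (M * l)) (ModField K (M * l))).comp iota₁_injective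

theorem fun₂_injective : Function.Injective (fun₂ K M l) :=
  (IsFractionRing.injective (funAlg K (M * l)) (ModField K (M * l))).comp iota₂_injective

theorem fun₁_const (c : K) : fun₁ K M l (algebraMap K (invAlg K M) c) =
    algebraMap K (ModField K (M * l)) c :=
  (IsScalarTower.algebraMap_apply K (funAlg K (M * l)) (ModField K (M * l)) c).symm

theorem fun₂_const (c : K) : fun₂ K M l (algebraMap K (invAlg K M) c) =
    algebraMap K (ModField K (M * l)) c :=
  (IsScalarTower.algebraMap_apply K (funAlg K (M * l)) (ModField K (M * l)) c).symm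

/-- the generators -/
def jI {d : ℕ} (hd : d ∣ M) : invAlg K M := ⟨jN d, Algebra.subset_adjoin ⟨d, hd, rfl⟩⟩

theorem fun₁_jI {d : ℕ} (hd : d ∣ M) :
    fun₁ K M l (jI hd) = jNM K (M * l) d (hd.mul_right l) := rfl

theorem fun₂_jI {d : ℕ} [NeZero d] (hd : d ∣ M) :
    fun₂ K M l (jI hd) = jNM K (M * l) (d * l) (mul_dvd_mul_right hd l) := by
  have h1 : iota₂ K M l (jI hd) = ⟨jN (d * l), jN_mem (mul_dvd_mul_right hd l)⟩ := by
    apply Subtype.ext
    funext z
    exact jN_scl z
  rw [fun₂, RingHom.comp_apply, h1]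
  rfl

variable (K M l) in
/-- the elements represented by quotients -/
def repField : Subfield (Fb K M) :=
  pairField (emb₁ K M l).toRingHom (emb₂ K M l).toRingHom (fun₁ K M l) (fun₂ K M l)
    fun₁_injective fun₂_injective

theorem mem_repField {x : Fb K M} : x ∈ repField K M l ↔ ∃ a b : invAlg K M, b ≠ 0 ∧
    emb₁ K M l x * fun₁ K M l b = fun₁ K M l a ∧
    emb₂ K M l x * fun₂ K M l b = fun₂ K M l a := Iff.rfl

theorem const_mem_repField (c : K) : algebraMap K (Fb K M) c ∈ repField K M l := by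
  rw [mem_repField]
  refine ⟨algebraMap K (invAlg K M) c, 1, one_ne_zero, ?_, ?_⟩
  · rw [map_one, mul_one, AlgHom.commutes, fun₁_const]
  · rw [map_one, mul_one, AlgHom.commutes, fun₂_const]

theorem jd_mem_repField (d : ℕ) [NeZero d] (hd : d ∣ M) : jd d hd ∈ repField K M l := by
  rw [mem_repField]
  refine ⟨jI hd, 1, one_ne_zero, ?_, ?_⟩
  · rw [map_one, mul_one, emb₁_jd, fun₁_jI]
  · rw [map_one, mul_one, emb₂_jd, fun₂_jI]

theorem exists_pair (x : Fb K M) : ∃ a b : invAlg K M, b ≠ 0 ∧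
    emb₁ K M l x * fun₁ K M l b = fun₁ K M l a ∧
    emb₂ K M l x * fun₂ K M l b = fun₂ K M l a := by
  rw [← mem_repField]
  have key : (x : LaurentSeries K) ∈ (repField K M l).map (Fb K M).val.toRingHom := by
    refine laurentBaseChange_le (N := M) (S := (repField K M l).map (Fb K M).val.toRingHom)
      (fun c => ?_) (fun d _ hd => ?_) x.2
    · exact Subfield.mem_map.mpr ⟨_, const_mem_repField c, rfl⟩
    · exact Subfield.mem_map.mpr ⟨_, jd_mem_repField d hd, rfl⟩
  obtain ⟨y, hy, hyx⟩ := key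
  have hyx' : y = x := Subtype.ext hyx
  rw [hyx'] at hy
  exact hy

end Rep

/-! ### The orders at a point -/

section Ord

variable {K : Type*} [Field K] [Algebra K ℂ] [IsAlgClosed K] [Algebra ℚ K] {M l : ℕ} [NeZero M]
  [NeZero l]

theorem gF_of_pair {N : ℕ} [NeZero N] {τ : ℍ} {y : ModField K N} {a b : funAlg K N} (ha : a ≠ 0)
    (hb : b ≠ 0) (h : y * algebraMap (funAlg K N) (ModField K N) b =
      algebraMap (funAlg K N) (ModField K N) a) :
    (ptDomOrd K N τ).gF (ModField K N) y = (ordAt τ (a : ℍ → ℂ) : ℤ) - ordAt τ (b : ℍ → ℂ) := by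
  have hb' : algebraMap (funAlg K N) (ModField K N) b ≠ 0 :=
    (map_ne_zero_iff _ (IsFractionRing.injective (funAlg K N) (ModField K N))).mpr hb
  rw [eq_div_of_mul_eq hb' h, DomOrd.gF_div _ ha hb]
  rfl

theorem gF_alpha_eq_beta {τ : ℍ} {δ : SL(2, ℤ)} (hδ : δ ∈ Gamma0 M) (h : δ • τ = scl l τ)
    {x : Fb K M} (hx : x ≠ 0) :
    (ptDomOrd K (M * l) τ).gF (ModField K (M * l)) (emb₁ K M l x) =
      (ptDomOrd K (M * l) τ).gF (ModField K (M * l)) (emb₂ K M l x) := by
  obtain ⟨a, b, hb, h1, h2⟩ := exists_pair (K := K) (l := l) x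
  have hx1 : emb₁ K M l x ≠ 0 := (map_ne_zero_iff _ (emb₁ K M l).toRingHom.injective).mpr hx
  have ha : a ≠ 0 := by
    rintro rfl
    rw [map_zero] at h1
    rcases mul_eq_zero.mp h1 with h3 | h3
    · exact hx1 h3
    · exact hb (fun₁_injective (h3.trans (map_zero _).symm))
  have ha1 : iota₁ K M l a ≠ 0 := (map_ne_zero_iff _ iota₁_injective).mpr ha
  have hb1 : iota₁ K M l b ≠ 0 := (map_ne_zero_iff _ iota₁_injective).mpr hb
  have ha2 : iota₂ K M l a ≠ 0 := (map_ne_zero_iff _ iota₂_injective).mpr ha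
  have hb2 : iota₂ K M l b ≠ 0 := (map_ne_zero_iff _ iota₂_injective).mpr hb
  rw [gF_of_pair ha1 hb1 h1, gF_of_pair ha2 hb2 h2]
  have key : ∀ c : invAlg K M, ordAt τ (iota₂ K M l c : ℍ → ℂ) =
      ordAt τ (iota₁ K M l c : ℍ → ℂ) := by
    intro c
    change ordAt τ (fun z => (c : ℍ → ℂ) (scl l z)) = ordAt τ (c : ℍ → ℂ)
    rw [ordAt_scl, ← h, ← ordAt_tr, tr_invAlg c.2 hδ]
  rw [key, key]

end Ord

end Fermat.Agent.H22.M3
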