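import Fermat.Agent.H22.M3B

/-!
# The two degeneracy maps at the elliptic places of order three, II
-/

set_option autoImplicit false
set_option linter.unusedSectionVars false
set_option linter.style.haveILetI false

noncomputable section

namespace Fermat.Agent.H22.M3

open UpperHalfPlane hiding I
open CongruenceSubgroup Fermat.Agent.H18 AlgebraicCurve
open Fermat.Agent.H02 (tr tr_jfun)
open Fermat.Agent.Igusa (scl coe_scl)
open ModularCurve (heckeAlphaBar heckeBetaBar)
open scoped MatrixGroups

attribute [local instance] algFb algFM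

section Ell

variable {K : Type*} [Field K] [Algebra K ℂ] [IsAlgClosed K] [Algebra ℚ K] {N : ℕ} [NeZero N]

theorem trace_conj (g γ : SL(2, ℤ)) :
    (g * γ * g⁻¹ : SL(2, ℤ)) 0 0 + (g * γ * g⁻¹ : SL(2, ℤ)) 1 1 = γ 0 0 + γ 1 1 := by
  have h2 : Matrix.trace ((g * γ * g⁻¹ : SL(2, ℤ)) : Matrix (Fin 2) (Fin 2) ℤ) =
      Matrix.trace (γ : Matrix (Fin 2) (Fin 2) ℤ) := by
    rw [Matrix.SpecialLinearGroup.coe_mul, Matrix.trace_mul_comm,
      ← Matrix.SpecialLinearGroup.coe_mul, ← mul_assoc, inv_mul_cancel, one_mul]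
  rwa [Matrix.trace_fin_two, Matrix.trace_fin_two] at h2

theorem trace_ST : ((ModularGroup.S * ModularGroup.T : SL(2, ℤ)) 0 0 +
    (ModularGroup.S * ModularGroup.T : SL(2, ℤ)) 1 1) ^ 2 = 1 := by
  simp [ModularGroup.S, ModularGroup.T]

theorem decomp_rs {u : Place K (ModField K N)} {σ : ModField K N ≃ₐ[Fb K N] ModField K N}
    (hσ : σ ∈ decomp (E := Fb K N) u) :
    σ.restrictScalars (RatFunc K) ∈ decomp (E := RatFunc K) u := hσ

/-- the decomposition groups over the function field of `X₀(N)`, for the places with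
ramification index `1` over the line -/
theorem exists_of_mem_decomp {u : Place K (ModField K N)}
    (h1 : (u.restrict (Fb K N)).ramificationIndex (RatFunc K) = 1)
    {σ : ModField K N ≃ₐ[RatFunc K] ModField K N} (hσ : σ ∈ decomp (E := RatFunc K) u)
    (x : Fb K N) : σ (embF K N x) = embF K N x := by
  haveI : CharZero K := charZero_of
  haveI : CharZero (RatFunc K) :=
    charZero_of_injective_algebraMap (algebraMap K (RatFunc K)).injective
  haveI : IsGalois (Fb K N) (ModField K N) := isGalois_top (RatFunc K) (Fb K N) (ModField K N)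
  have h2 := ramificationIndex_tower (E := RatFunc K) (F := Fb K N) u
  rw [h1, mul_one] at h2
  have h3 := card_decomp (E := RatFunc K) u
  have h4 := card_decomp (E := Fb K N) u
  have h5 : u.inertiaDeg (RatFunc K) = 1 := inertiaDeg_eq_one _
  have h6 : u.inertiaDeg (Fb K N) = 1 := by
    have h7 := inertiaDeg_tower (E := RatFunc K) (F := Fb K N) u
    rw [h5] at h7
    exact Nat.dvd_one.mp (Dvd.intro_left _ h7.symm)
  rw [h5, mul_one, h2] at h3
  rw [h6, mul_one] at h4
  let f : decomp (E := Fb K N) u → decomp (E := RatFunc K) u := fun σ =>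
    ⟨σ.1.restrictScalars (RatFunc K), decomp_rs σ.2⟩
  have hf : Function.Injective f := by
    intro a b hab
    apply Subtype.ext
    have h7 := congrArg Subtype.val hab
    exact AlgEquiv.restrictScalars_injective (RatFunc K) h7
  have hfin : Finite (decomp (E := RatFunc K) u) := inferInstance
  have hfs : Function.Bijective f := by
    haveI : Finite (decomp (E := Fb K N) u) := Finite.of_injective f hf
    exact (Nat.bijective_iff_injective_and_card f).mpr ⟨hf, h4.trans h3.symm⟩
  obtain ⟨τ, hτ⟩ := hfs.2 ⟨σ, hσ⟩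
  have h8 : τ.1.restrictScalars (RatFunc K) = σ := congrArg Subtype.val hτ
  rw [← h8]
  exact τ.1.commutes x

theorem card_decomp_dvd_three {c : K} (hc : jfun rhoPt = algebraMap K ℂ c) :
    Nat.card (decomp (E := RatFunc K) (ptPlace (N := N) hc)) ∣ 3 := by
  rw [← map_zpowers_ST_eq hc, MonoidHom.map_zpowers, Nat.card_zpowers]
  apply orderOf_dvd_of_pow_eq_one
  rw [← map_pow, ST_cube, rho_neg_one]

/-- **the elliptic places of order three are the elliptic points of order three** -/
theorem exists_elliptic (W : Place K (Fb K N)) (hW : W.restrict (RatFunc K) = ratPlace 0)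
    (h3 : W.ramificationIndex (RatFunc K) ≠ 3) :
    ∃ (τ : ℍ) (hc : jfun τ = algebraMap K ℂ 0) (γ : SL(2, ℤ)), γ ∈ Gamma0 N ∧ γ • τ = τ ∧
      (γ 0 0 + γ 1 1) ^ 2 = 1 ∧ (ptPlace (N := N) hc).restrict (Fb K N) = W := by
  haveI : CharZero K := charZero_of
  obtain ⟨u, hu⟩ := exists_restrict_eq (F := ModField K N) W
  have hc : jfun rhoPt = algebraMap K ℂ 0 := by rw [jfun_rhoPt, map_zero]
  have h1 : u.restrict (RatFunc K) = (ptPlace (N := N) hc).restrict (RatFunc K) := by
    rw [restrict_ptPlace, ← restrict_restrict (E := RatFunc K) (F := Fb K N) u, hu, hW]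
  obtain ⟨σ, hσ⟩ := exists_gal_smul_eq (E := RatFunc K) (ptPlace (N := N) hc) u h1.symm
  obtain ⟨g, rfl⟩ := rho_surjective σ
  have hc' : jfun (g • rhoPt) = algebraMap K ℂ 0 := by
    have := congrFun (tr_jfun g) rhoPt
    rw [← hc, ← this]
    rfl
  rw [smul_ptPlace g hc hc'] at hσ
  refine ⟨g • rhoPt, hc', g * (ModularGroup.S * ModularGroup.T) * g⁻¹, ?_, ?_, ?_, ?_⟩
  · have hfix : (g * (ModularGroup.S * ModularGroup.T) * g⁻¹) • (g • rhoPt) = g • rhoPt := by
      rw [mul_smul, mul_smul, inv_smul_smul, ST_smul_rhoPt]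
    have hdec := rho_mem_decomp (N := N) hc' hfix
    have h4 : u.ramificationIndex (RatFunc K) ∣ 3 := by
      have h5 := card_decomp_dvd_three (N := N) hc
      rw [card_decomp, inertiaDeg_eq_one, mul_one] at h5
      rw [← hσ, ← smul_ptPlace g hc hc', ramificationIndex_gal]
      exact h5
    have h5 := ramificationIndex_tower (E := RatFunc K) (F := Fb K N) u
    rw [hu] at h5
    have h6 : W.ramificationIndex (RatFunc K) ∣ 3 := (Dvd.intro_left _ h5.symm).trans h4
    have h7 : W.ramificationIndex (RatFunc K) = 1 :=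
      ((Nat.dvd_prime Nat.prime_three).mp h6).resolve_right h3
    rw [mem_Gamma0_iff (K := K)]
    intro x
    rw [← hσ] at hu
    exact exists_of_mem_decomp (by rw [hu]; exact h7) hdec x
  · rw [mul_smul, mul_smul, inv_smul_smul, ST_smul_rhoPt]
  · rw [trace_conj]
    exact trace_ST
  · rw [hσ, hu]

end Ell

section Restrict

variable {K : Type*} [Field K] [Algebra K ℂ] [IsAlgClosed K] [Algebra ℚ K] {M l : ℕ} [NeZero M]
  [NeZero l]

/-- **The two degeneracy maps agree at the elliptic places of order three.** -/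
theorem restrictAlong_eq_K (hα : (heckeAlphaBar K M l).toRingHom.IsIntegral)
    (hβ : (heckeBetaBar K M l).toRingHom.IsIntegral) (W : Place K (Fb K (M * l)))
    (hW : 0 < W.ord (jB K (M * l))) (h3 : W.ord (jB K (M * l)) ≠ 3) :
    W.restrictAlong (heckeAlphaBar K M l) hα = W.restrictAlong (heckeBetaBar K M l) hβ := by
  haveI : CharZero K := charZero_of
  have h1 : W.restrict (RatFunc K) = ratPlace 0 := by
    rw [restrict_eq_ratPlace_iff, algebraMap_X_Fb, map_zero, sub_zero]
    exact hW
  have h2 : W.ramificationIndex (RatFunc K) ≠ 3 := by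
    intro h
    have h2 := ord_eq_ramificationIndex W 0 h1
    rw [algebraMap_X_Fb, map_zero, sub_zero, h] at h2
    exact h3 h2
  obtain ⟨τ, hc, γ, hγ, hfix, ht, hτW⟩ := exists_elliptic W h1 h2
  obtain ⟨δ, hδ, hδτ⟩ := exists_Gamma0_smul (M := M) (l := l) (NeZero.ne l) hγ hfix ht
    (coe_scl l τ)
  apply place_eq_of_sign
  intro x hx
  have ha : 0 ≤ (W.restrictAlong (heckeAlphaBar K M l) hα).ord x ↔
      0 ≤ W.ord (heckeAlphaBar K M l x) := by
    rw [Place.ord_restrictAlong (heckeAlphaBar K M l) hα]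
    have h0 : 0 < Place.ramificationIndexAlong (heckeAlphaBar K M l) W := by
      letI := algebraAlong (heckeAlphaBar K M l)
      haveI := isScalarTower_along (heckeAlphaBar K M l)
      haveI := isIntegral_along (heckeAlphaBar K M l) hα
      exact W.ramificationIndex_pos
    exact (mul_nonneg_iff_of_pos_left (by exact_mod_cast h0)).symm
  have hb : 0 ≤ (W.restrictAlong (heckeBetaBar K M l) hβ).ord x ↔
      0 ≤ W.ord (heckeBetaBar K M l x) := by
    rw [Place.ord_restrictAlong (heckeBetaBar K M l) hβ]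
    have h0 : 0 < Place.ramificationIndexAlong (heckeBetaBar K M l) W := by
      letI := algebraAlong (heckeBetaBar K M l)
      haveI := isScalarTower_along (heckeBetaBar K M l)
      haveI := isIntegral_along (heckeBetaBar K M l) hβ
      exact W.ramificationIndex_pos
    exact (mul_nonneg_iff_of_pos_left (by exact_mod_cast h0)).symm
  have hu : ∀ y : Fb K (M * l), y ≠ 0 → (0 ≤ W.ord y ↔
      0 ≤ (ptDomOrd K (M * l) τ).gF (ModField K (M * l)) (embF K (M * l) y)) := by
    intro y hy
    have hy' : embF K (M * l) y ≠ 0 :=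
      (map_ne_zero_iff _ (embF K (M * l)).toRingHom.injective).mpr hy
    rw [← ord_ptPlace_nonneg_iff hc hy', ← hτW]
    have h4 := (ptPlace (N := M * l) hc).ord_restrict (F := Fb K (M * l)) y
    rw [algebraMap_Fb_apply] at h4
    rw [h4]
    have h0 : 0 < (ptPlace (N := M * l) hc).ramificationIndex (Fb K (M * l)) :=
      Place.ramificationIndex_pos _
    exact (mul_nonneg_iff_of_pos_left (by exact_mod_cast h0)).symm
  have hxa : heckeAlphaBar K M l x ≠ 0 :=
    (map_ne_zero_iff _ (heckeAlphaBar K M l).toRingHom.injective).mpr hx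
  have hxb : heckeBetaBar K M l x ≠ 0 :=
    (map_ne_zero_iff _ (heckeBetaBar K M l).toRingHom.injective).mpr hx
  rw [ha, hb, hu _ hxa, hu _ hxb]
  have h5 := gF_alpha_eq_beta (K := K) hδ hδτ hx
  change 0 ≤ (ptDomOrd K (M * l) τ).gF (ModField K (M * l)) (emb₁ K M l x) ↔
    0 ≤ (ptDomOrd K (M * l) τ).gF (ModField K (M * l)) (emb₂ K M l x)
  rw [h5]

end Restrict

section Bar

open ModularCurve Fermat.Agent.H28

local notation "Qb" => AlgebraicClosure ℚ

variable {M l : ℕ} [NeZero M] [NeZero l]

/-- **The two degeneracy maps agree at the elliptic places of order three**, over `Q̄`. -/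
theorem restrictAlong_eq (hα : (heckeAlphaBar Qb M l).toRingHom.IsIntegral)
    (hβ : (heckeBetaBar Qb M l).toRingHom.IsIntegral)
    (W : Place Qb (modularFunctionFieldBar (M * l)))
    (hW : 0 < W.ord (jBar (M * l))) (h3 : W.ord (jBar (M * l)) ≠ 3) :
    W.restrictAlong (heckeAlphaBar Qb M l) hα = W.restrictAlong (heckeBetaBar Qb M l) hβ := by
  letI : Algebra (AlgebraicClosure ℚ) ℂ :=
    (IsAlgClosed.lift (R := ℚ) (S := AlgebraicClosure ℚ) (M := ℂ)).toRingHom.toAlgebra
  have hJ : jBar (M * l) = jB (AlgebraicClosure ℚ) (M * l) := by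
    apply Subtype.ext
    rw [coe_jB]
    rfl
  rw [hJ] at hW h3
  exact restrictAlong_eq_K hα hβ W hW h3

end Bar

end Fermat.Agent.H22.M3
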