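import Fermat.Agent.H22.M3C
import Fermat.Agent.H12.HeckeStab2

/-!
# The Hecke correspondences at the elliptic places of order three, modulo `3`
-/

set_option autoImplicit false
set_option linter.unusedSectionVars false
set_option linter.style.haveILetI false
set_option maxSynthPendingDepth 3

noncomputable section

namespace Fermat.Agent.H22.M3

open AlgebraicCurve

section Gen

variable {K F F' : Type*} [Field K] [Field F] [Field F'] [Algebra K F] [Algebra K F']

theorem ord_restrictAlong_nonneg_iff (φ : F →ₐ[K] F') (hφ : φ.toRingHom.IsIntegral)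
    (W : Place K F') (x : F) : 0 ≤ (W.restrictAlong φ hφ).ord x ↔ 0 ≤ W.ord (φ x) := by
  rw [Place.ord_restrictAlong φ hφ]
  have h0 : 0 < Place.ramificationIndexAlong φ W := by
    letI := algebraAlong φ
    haveI := isScalarTower_along φ
    haveI := isIntegral_along φ hφ
    exact W.ramificationIndex_pos
  exact (mul_nonneg_iff_of_pos_left (by exact_mod_cast h0)).symm

theorem place_ext_sign {v w : Place K F}
    (h : ∀ x : F, x ≠ 0 → (0 ≤ v.ord x ↔ 0 ≤ w.ord x)) : v = w := by
  apply Place.ext
  ext x
  rcases eq_or_ne x 0 with rfl | hx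
  · simp [H18.mem_iff]
  · rw [H18.mem_iff, H18.mem_iff, h x hx]

theorem inertiaDegAlong_eq_one (φ : F →ₐ[K] F') (hφ : φ.toRingHom.IsIntegral)
    (W : Place K F') (hW : W.deg = 1) : W.inertiaDegAlong φ hφ = 1 := by
  letI := algebraAlong φ
  haveI := isScalarTower_along φ
  haveI := isIntegral_along φ hφ
  have h1 : (W.restrict F).deg * W.inertiaDeg F = W.deg := W.deg_restrict_mul_inertiaDeg
  rw [hW] at h1
  exact Nat.dvd_one.mp (Dvd.intro_left _ h1)

/-- the correspondence attached to two morphisms, at a place above which the two morphisms agree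
modulo `m` -/
theorem corr_single_mod [HasPrincipalDivisors K F'] (φ ψ : F →ₐ[K] F')
    (hφ : φ.toRingHom.IsIntegral) (hψ : ψ.toRingHom.IsIntegral)
    (hFI : FundamentalIdentityAlong K φ hφ) (P : Place K F) (hP : P.deg = 1)
    (hdeg : ∀ W : Place K F', W.deg = 1) (m : ℤ)
    (h : ∀ W : Place K F', W.restrictAlong φ hφ = P →
      m ∣ (W.ramificationIndexAlong φ : ℤ) ∨ W.restrictAlong ψ hψ = P) (Q : Place K F) :
    m ∣ (Divisor.correspondence φ ψ hφ hψ (Finsupp.single P 1) -
      (finrankAlong K φ : ℤ) • (Finsupp.single P 1 : Divisor K F)) Q := by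
  classical
  have h2 : (finrankAlong K φ : ℤ) =
      ∑ W ∈ Place.fiberAlong φ hφ P, (W.ramificationIndexAlong φ : ℤ) := by
    have h3 := Divisor.degree_pullbackAlong φ hφ hFI (Finsupp.single P 1)
    rw [Divisor.degree_single, hP, Nat.cast_one, mul_one, mul_one,
      Divisor.pullbackAlong_single, map_sum] at h3
    rw [← h3]
    refine Finset.sum_congr rfl fun W _ => ?_
    rw [Divisor.degree_single, hdeg W, Nat.cast_one, mul_one, one_mul]
  have h4 : Divisor.correspondence φ ψ hφ hψ (Finsupp.single P 1) =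
      ∑ W ∈ Place.fiberAlong φ hφ P,
        (Finsupp.single (W.restrictAlong ψ hψ) (W.ramificationIndexAlong φ : ℤ) :
          Divisor K F) := by
    rw [Divisor.correspondence_apply, Divisor.pullbackAlong_single, map_sum]
    refine Finset.sum_congr rfl fun W _ => ?_
    rw [Divisor.pushforwardAlong_single, inertiaDegAlong_eq_one ψ hψ W (hdeg W), Nat.cast_one,
      mul_one, one_mul]
  rw [h4, h2, Finset.sum_smul, ← Finset.sum_sub_distrib, Finsupp.finsetSum_apply]
  refine Finset.dvd_sum fun W hW => ?_
  rw [Place.mem_fiberAlong] at hW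
  rcases h W hW with h5 | h5
  · rw [Finsupp.sub_apply, Finsupp.smul_apply, smul_eq_mul]
    refine dvd_sub ?_ (dvd_mul_of_dvd_left h5 _)
    rw [Finsupp.single_apply]
    split_ifs
    · exact h5
    · exact dvd_zero _
  · rw [h5, Finsupp.smul_single, smul_eq_mul, mul_one, sub_self]
    exact dvd_zero _

end Gen

section Bar

open ModularCurve Fermat.Agent.H28 Fermat.Agent.H18

local notation "Qb" => AlgebraicClosure ℚ

variable {M l : ℕ} [NeZero M] [hl : Fact l.Prime]

theorem alpha_jBar : heckeAlphaBar Qb M l (jBar M) = jBar (M * l) := by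
  apply Subtype.ext
  rw [coe_heckeAlphaBar]
  rfl

/-- the same, for the second degeneracy map -/
theorem restrictAlong_eq' (hlM : Nat.Coprime l M)
    (hα : (heckeAlphaBar Qb M l).toRingHom.IsIntegral)
    (hβ : (heckeBetaBar Qb M l).toRingHom.IsIntegral)
    (W : Place Qb (modularFunctionFieldBar (M * l)))
    (hW : 0 < W.ord (heckeBetaBar Qb M l (jBar M)))
    (h3 : W.ord (heckeBetaBar Qb M l (jBar M)) ≠ 3) :
    W.restrictAlong (heckeAlphaBar Qb M l) hα = W.restrictAlong (heckeBetaBar Qb M l) hβ := by
  set w := Q.wBar M l hlM with hw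
  have e1 : ∀ x : modularFunctionFieldBar M,
      w (heckeAlphaBar Qb M l x) = heckeBetaBar Qb M l x := fun x => H12.wBar_alpha x
  have e2 : ∀ x : modularFunctionFieldBar M,
      w (heckeBetaBar Qb M l x) = heckeAlphaBar Qb M l x := fun x => by
    rw [← e1, hw, Q.wBar_wBar]
  set W' : Place Qb (modularFunctionFieldBar (M * l)) := w • W with hW'
  have o1 : ∀ x : modularFunctionFieldBar M,
      W'.ord (heckeAlphaBar Qb M l x) = W.ord (heckeBetaBar Qb M l x) := fun x => by
    rw [← e2, hW', Place.ord_smul]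
  have o2 : ∀ x : modularFunctionFieldBar M,
      W'.ord (heckeBetaBar Qb M l x) = W.ord (heckeAlphaBar Qb M l x) := fun x => by
    rw [← e1, hW', Place.ord_smul]
  have h1 : W'.ord (jBar (M * l)) = W.ord (heckeBetaBar Qb M l (jBar M)) := by
    rw [← alpha_jBar, o1]
  have h2 := restrictAlong_eq hα hβ W' (by rw [h1]; exact hW) (by rw [h1]; exact h3)
  apply place_ext_sign
  intro x _
  have h4 : 0 ≤ (W'.restrictAlong (heckeAlphaBar Qb M l) hα).ord x ↔
      0 ≤ (W'.restrictAlong (heckeBetaBar Qb M l) hβ).ord x := by rw [h2]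
  rw [ord_restrictAlong_nonneg_iff, ord_restrictAlong_nonneg_iff, o1, o2] at h4
  rw [ord_restrictAlong_nonneg_iff, ord_restrictAlong_nonneg_iff]
  exact h4.symm

/-- **The Hecke correspondence at an elliptic place of order three, modulo `3`.** -/
theorem corr_three (hlM : Nat.Coprime l M) (hα : (heckeAlphaBar Qb M l).toRingHom.IsIntegral)
    (hβ : (heckeBetaBar Qb M l).toRingHom.IsIntegral)
    (P : Place Qb (modularFunctionFieldBar M)) (hP : 0 < P.ord (jBar M))
    (hP3 : ¬ (3 : ℤ) ∣ P.ord (jBar M)) (Q : Place Qb (modularFunctionFieldBar M)) :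
    (3 : ℤ) ∣ (Divisor.correspondence (heckeBetaBar Qb M l) (heckeAlphaBar Qb M l) hβ hα
      (Finsupp.single P 1) - ((l : ℤ) + 1) •
        (Finsupp.single P 1 : Divisor Qb (modularFunctionFieldBar M))) Q := by
  have hlM' : ¬ l ∣ M := (Nat.Prime.coprime_iff_not_dvd hl.out).mp hlM
  have hfin := Igusa.finrank_beta Qb M l hlM'
  have key := corr_single_mod (heckeBetaBar Qb M l) (heckeAlphaBar Qb M l) hβ hα
    (H05.fundamentalIdentityAlong_of _ _ (H05.finiteAlong_beta Qb M l)) P
    (H05.deg_eq_one_bc Qb M P) (fun W => H05.deg_eq_one_bc Qb (M * l) W) 3 (fun W hW => ?_) Q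
  · rw [hfin] at key
    push_cast at key
    exact key
  · by_cases h : (3 : ℤ) ∣ (W.ramificationIndexAlong (heckeBetaBar Qb M l) : ℤ)
    · exact Or.inl h
    · right
      rw [← hW]
      have h1 := Place.ord_restrictAlong (heckeBetaBar Qb M l) hβ W (jBar M)
      rw [hW] at h1
      have h2 : 0 < (W.ramificationIndexAlong (heckeBetaBar Qb M l) : ℤ) := by
        by_contra h0
        have h00 : (W.ramificationIndexAlong (heckeBetaBar Qb M l) : ℤ) = 0 := by
          have : (0 : ℤ) ≤ (W.ramificationIndexAlong (heckeBetaBar Qb M l) : ℤ) := by positivity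
          omega
        rw [h00] at h
        exact h (dvd_zero _)
      apply restrictAlong_eq' hlM hα hβ W
      · rw [h1]
        exact mul_pos h2 hP
      · intro h3
        have h4 : (3 : ℤ) ∣ (W.ramificationIndexAlong (heckeBetaBar Qb M l) : ℤ) *
            P.ord (jBar M) := by rw [← h1, h3]
        rcases Int.prime_three.dvd_or_dvd h4 with h5 | h5
        · exact h h5
        · exact hP3 h5

end Bar

end Fermat.Agent.H22.M3
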