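import Fermat.Agent.H22.M3D
import Fermat.Agent.H27.M2f
import Fermat.Agent.H12.Main
import Fermat.Agent.NN.N2

/-!
# The Hecke correspondences at the elliptic places of order three of the special fibre
-/

set_option autoImplicit false
set_option linter.style.haveILetI false
set_option linter.unusedSectionVars false
set_option maxSynthPendingDepth 3

noncomputable section

attribute [-instance] HahnSeries.instModule HahnSeries.instSMul HahnSeries.instDistribMulAction
  HahnSeries.instSMulZeroClass

attribute [local instance 10000] Fermat.Agent.H29.instLS Fermat.Agent.H29.instIF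
  Fermat.Agent.H29.instIF2

namespace Fermat.Agent.H22.M3

open ModularCurve HahnSeries AlgebraicCurve IsLocalRing Fermat.Agent.H28 Fermat.Agent.H02F

local notation "kk" => IsLocalRing.ResidueField
local notation "Qb" => AlgebraicClosure ℚ

attribute [local instance] H12.isAlgClosed_kk

/-- the `j`-function of the special fibre -/
abbrev jk (k : Type*) [Field k] (M : ℕ) [NeZero M] : modularFunctionFieldFullC k M :=
  ⟨jqModC k, jqModC_mem_full k M⟩

section Red

variable {M : ℕ} [NeZero M] {A : ValuationSubring (AlgebraicClosure ℚ)} {ℓ : ℕ}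

/-- the elliptic places of order three of the special fibre lift to characteristic zero -/
theorem exists_lift_elliptic (C : TwoCharts (modRed M A)) (hCt : C.t₁ = jZ M A)
    (v : Place (kk A) (modularFunctionFieldFullC (kk A) M))
    (hv : 0 < v.ord (jk (kk A) M)) (hv3 : ¬ (3 : ℤ) ∣ v.ord (jk (kk A) M)) :
    ∃ P : Place Qb (modularFunctionFieldBar M), C.redPl P = v ∧ 0 < P.ord (jBar M) ∧
      ¬ (3 : ℤ) ∣ P.ord (jBar M) := by
  classical
  haveI : FF.FunField (ResidueField A) (modularFunctionFieldFullC (ResidueField A) M) :=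
    H05.funField_full (ResidueField A) M
  by_contra hcon
  push Not at hcon
  apply hv3
  have hρ : (modRed M A).ρ (jZ M A) =
      ⟨jqModC (ResidueField A), jqModC_mem_full (ResidueField A) M⟩ := Subtype.ext (ρ_jZ M A)
  rw [jk, ← hρ] at hv ⊢
  have hne : (modRed M A).ρ (jZ M A) ≠ 0 := by
    intro h0
    rw [h0, Place.ord_zero] at hv
    exact lt_irrefl _ hv
  have h1 := congrArg (fun D => D v) (mapDomain_redPl_dv C (z := jZ M A) hne)
  simp only [dv_apply] at h1
  rw [← h1, Finsupp.mapDomain, Finsupp.sum_apply, Finsupp.sum]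
  refine Finset.dvd_sum fun P hP => ?_
  rw [Finsupp.single_apply]
  split_ifs with hPv
  · rw [dv_apply]
    have h2 : Reg P ((jZ M A : (modRed M A).Z) : modularFunctionFieldBar M) := by
      have h3 : Reg (C.redPl P) ((modRed M A).ρ C.t₁) := by
        rw [hPv, hCt]
        exact reg_iff.mpr hv.le
      rw [← hCt]
      exact reg_of_reg_redPl C h3
    have h4 := reg_iff.mp h2
    rw [Finsupp.mem_support_iff, dv_apply] at hP
    have h5 : 0 < P.ord (jBar M) := lt_of_le_of_ne h4 (Ne.symm hP)
    exact hcon P hPv h5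
  · exact dvd_zero _

variable {l : ℕ} [hl : Fact l.Prime]

/-- **The Hecke correspondence at an elliptic place of order three of the special fibre, modulo
`3`.** -/
theorem corr_three_red (hℓ : ℓ.Prime) (hA : A.LiesOverPrime ℓ)
    (hyp : ¬ ℓ ∣ M ∧ ((2 ∣ M ∧ ℓ ≠ 2) ∨ (3 ∣ M ∧ ℓ ≠ 3))) (hlM : Nat.Coprime l M)
    (hMl : ¬ ℓ ∣ M * l)
    (v : Place (kk A) (modularFunctionFieldFullC (kk A) M))
    (hv : 0 < v.ord (jk (kk A) M)) (hv3 : ¬ (3 : ℤ) ∣ v.ord (jk (kk A) M))
    (R : Place (kk A) (modularFunctionFieldFullC (kk A) M)) :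
    (3 : ℤ) ∣ (Divisor.correspondence (H12.betaC (kk A) M l) (Q.incl (kk A) M l)
      (H12.integral_betaC (kk A) M l) (H12.integral_alphaC (kk A) M l) (Finsupp.single v 1) -
        ((l : ℤ) + 1) • (Finsupp.single v 1 :
          Divisor (kk A) (modularFunctionFieldFullC (kk A) M))) R := by
  classical
  have hk : (M : kk A) ≠ 0 := H12.natCast_kk_ne hℓ hA hyp.1
  have hk' : ((M * l : ℕ) : kk A) ≠ 0 := H12.natCast_kk_ne hℓ hA hMl
  let C : TwoCharts (modRed M A) :=
    modCharts M A (H29.isChart_j hℓ hA hyp) (H29.isChart_jinv hℓ hA hyp)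
  obtain ⟨P, rfl, hP, hP3⟩ := exists_lift_elliptic C rfl v hv hv3
  have hgood := H12.goodCorr_hecke hℓ hA hk' (H12.wBar_all hℓ hA M l hlM hMl)
  have hcomm := hgood.comm hℓ hA hk (isPlaceReduction_redPl C) (principalGenerated C)
    (Finsupp.single P 1)
  rw [Finsupp.mapDomain_single] at hcomm
  rw [← hcomm]
  set D := Divisor.correspondence (heckeBetaBar Qb M l) (heckeAlphaBar Qb M l)
    (H05.heckeBetaBarIntegral Qb M l) (H05.heckeAlphaBarIntegral Qb M l) (Finsupp.single P 1) -
      ((l : ℤ) + 1) • (Finsupp.single P 1 : Divisor Qb (modularFunctionFieldBar M)) with hD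
  have h1 : ∀ R, (3 : ℤ) ∣ D R := fun R => corr_three hlM _ _ P hP hP3 R
  have h2 : (Finsupp.mapDomain C.redPl (Divisor.correspondence (heckeBetaBar Qb M l)
      (heckeAlphaBar Qb M l) (H05.heckeBetaBarIntegral Qb M l)
      (H05.heckeAlphaBarIntegral Qb M l) (Finsupp.single P 1)) -
        ((l : ℤ) + 1) • (Finsupp.single (C.redPl P) 1 :
          Divisor (kk A) (modularFunctionFieldFullC (kk A) M))) =
      Finsupp.mapDomain C.redPl D := by
    rw [← Finsupp.mapDomain.addMonoidHom_apply, ← Finsupp.mapDomain.addMonoidHom_apply, hD,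
      map_sub, map_zsmul, Finsupp.mapDomain.addMonoidHom_apply,
      Finsupp.mapDomain.addMonoidHom_apply, Finsupp.mapDomain_single]
  rw [h2, Finsupp.mapDomain, Finsupp.sum_apply, Finsupp.sum]
  refine Finset.dvd_sum fun R' _ => ?_
  rw [Finsupp.single_apply]
  split_ifs
  · exact h1 R'
  · exact dvd_zero _

end Red

end Fermat.Agent.H22.M3
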