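import Fermat.Agent.H22.M3E
import Fermat.Agent.H23.S39.Asm

/-!
# Mazur's principle at `2` for `p = 3` and arbitrary odd levels
-/

set_option autoImplicit false
set_option linter.style.haveILetI false
set_option linter.unusedSectionVars false
set_option maxSynthPendingDepth 3
set_option synthInstance.maxHeartbeats 400000

noncomputable section

attribute [-instance] HahnSeries.instModule HahnSeries.instSMul HahnSeries.instDistribMulAction
  HahnSeries.instSMulZeroClass

attribute [local instance 10000] Fermat.Agent.H29.instLS Fermat.Agent.H29.instIF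
  Fermat.Agent.H29.instIF2

namespace Fermat.Agent.H22.M3

open ModularCurve AlgebraicCurve Fermat.Agent.H11N
open Fermat.Agent.H12.LL

local notation "kk" => IsLocalRing.ResidueField
local notation "Qb" => AlgebraicClosure ℚ

attribute [local instance] H12.isAlgClosed_kk

section Nm

variable {M : ℕ} [NeZero M] {A : ValuationSubring Qb}

/-- **the Hecke correspondences are Eisenstein modulo `3` at the elliptic places** -/
theorem nmEis (hM : Nat.Coprime 2 M) (h3 : 3 ∣ M) (hA : A.LiesOverPrime 2) :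
    H23.S39.NmEis A M := by
  intro l _ hlN φ hφ hne w
  classical
  have hl : l.Prime := Fact.out
  have hlM : ¬ l ∣ M := fun h => hlN (h.mul_right 2)
  have hl2 : l ≠ 2 := fun h => hlN (h ▸ dvd_mul_left _ _)
  have h2M : ¬ 2 ∣ M := (Nat.Prime.coprime_iff_not_dvd Nat.prime_two).1 hM
  have h2Ml : ¬ 2 ∣ M * l := by
    intro h
    rcases (Nat.Prime.dvd_mul Nat.prime_two).1 h with h | h
    · exact h2M h
    · exact hl2 ((Nat.prime_dvd_prime_iff_eq Nat.prime_two hl).1 h).symm
  have hlM' : Nat.Coprime l M := (Nat.Prime.coprime_iff_not_dvd hl).2 hlM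
  have hk' : ((M * l : ℕ) : kk A) ≠ 0 := H12.natCast_kk_ne Nat.prime_two hA h2Ml
  haveI : FF.FunField (kk A) (modularFunctionFieldFullC (kk A) M) := H05.funField_full (kk A) M
  obtain ⟨D, hD, -⟩ := HasPrincipalDivisors.exists_divisor (K := kk A) φ hφ
  set T := Divisor.correspondence (H12.betaC (kk A) M l) (Q.incl (kk A) M l)
      (H12.integral_betaC (kk A) M l) (H12.integral_alphaC (kk A) M l) with hT
  have hβ : H12.betaC (kk A) M l φ ≠ 0 :=
    (map_ne_zero_iff _ (H12.betaC (kk A) M l).toRingHom.injective).mpr hφ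
  have h1 : T D w = w.ord (nmC (kk A) M l φ) := by
    rw [hT, Divisor.correspondence_apply]
    exact H05.pushforwardAlong_eq_ord (Q.incl (kk A) M l) (H12.integral_alphaC (kk A) M l)
      (H12.finite_alphaC (kk A) M l) (H12.nf_alphaC hk') _ _
      hβ (fun W => H05.pullbackAlong_eq_ord _ _ D φ hD W) w
  have h2 : w.ord (nmC (kk A) M l φ * (φ⁻¹) ^ (l + 1)) = (T D - ((l : ℤ) + 1) • D) w := by
    rw [w.ord_mul (nmC_ne_zero _ _ _ hφ) (pow_ne_zero _ (inv_ne_zero hφ)), H18.ord_pow,
      w.ord_inv, Finsupp.sub_apply, Finsupp.smul_apply, smul_eq_mul, h1, hD]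
    push_cast
    ring
  rw [h2]
  let L : Divisor (kk A) (modularFunctionFieldFullC (kk A) M) →+
      Divisor (kk A) (modularFunctionFieldFullC (kk A) M) :=
    T - ((l : ℤ) + 1) • AddMonoidHom.id _
  have hL : ∀ E, L E = T E - ((l : ℤ) + 1) • E := fun E => rfl
  rw [← hL, ← Finsupp.sum_single D, Finsupp.sum, map_sum, Finsupp.finsetSum_apply]
  refine Finset.dvd_sum fun v _ => ?_
  have h4 : (Finsupp.single v (D v) : Divisor (kk A) (modularFunctionFieldFullC (kk A) M)) =
      (D v) • Finsupp.single v 1 := by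
    rw [Finsupp.smul_single, smul_eq_mul, mul_one]
  rw [h4, map_zsmul, Finsupp.smul_apply, smul_eq_mul]
  by_cases hv : 0 < v.ord (jk (kk A) M) → (3 : ℤ) ∣ v.ord (jk (kk A) M)
  · refine dvd_mul_of_dvd_left ?_ _
    rw [hD]
    exact hne v hv
  · push Not at hv
    exact dvd_mul_of_dvd_right (corr_three_red Nat.prime_two hA
      ⟨h2M, Or.inr ⟨h3, by norm_num⟩⟩ hlM' h2Ml v hv.1 hv.2 w) _

end Nm

/-- **Mazur's principle at `2`, `p = 3`**, any odd level -/
theorem rm_odd_three {W : WeierstrassCurve ℤ} (hΔ : W.Δ ≠ 0)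
    (hirr : W.ModRepIsIrreducible 3) {M : ℕ} (h2M : ¬ 2 ∣ M) (hunr : UnrAt W 3 2)
    (hmod : W.IsResiduallyModularOfLevel 3 (M * 2)) : W.IsResiduallyModularOfLevel 3 M := by
  haveI : Fact (Nat.Prime 3) := ⟨Nat.prime_three⟩
  exact H23.S39.rm_odd_three_of hΔ hirr (fun M _ hM h3 A hA => nmEis hM h3 hA) h2M hunr hmod

end Fermat.Agent.H22.M3
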