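import Fermat.Agent.H22.NewTop
import Fermat.Agent.H25.SelJ
import Fermat.Agent.H02M.StT1

/-!
# The Hecke operator at `p` on the flat tower (mode H)
-/

set_option autoImplicit false
set_option linter.style.haveILetI false
set_option linter.unusedSectionVars false

noncomputable section

namespace Fermat.Agent.H22

open CongruenceSubgroup Matrix.SpecialLinearGroup IsLocalRing
open Fermat.Agent.TC
open Fermat.Agent.H25 Fermat.Agent.H25.PR Fermat.Agent.CC Fermat.Agent.TW Fermat.Agent.H25.PT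
open Fermat.Agent.H05 Fermat.Agent.H25.TR Fermat.Agent.H25.TWM Fermat.Agent.H25.GE
open Fermat.Agent.H25.GD
open ModularFormClass (qCoeff)

section Alg

theorem tp_alg {A : Type*} [CommRing A] {α β lam P : A} (h : α * β = 1) (hl : lam * lam = 1) :
    (P + 1) ^ 2 - (α + P * β) ^ 2 = (α - lam) * (-(α + lam) * (1 - P ^ 2 * β ^ 2)) := by
  have h2 : α ^ 2 * β ^ 2 = 1 := by rw [← mul_pow, h, one_pow]
  linear_combination (-2 * P) * h - P ^ 2 * h2 + (-1 + P ^ 2 * β ^ 2) * hl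

theorem tp_of_rel {K : Type*} [Field K] {a b ap P : K} (hab : a * b = 1)
    (h : a ^ 2 - ap * a + P = 0) : a + P * b = ap := by
  have ha : a ≠ 0 := fun h0 => by rw [h0, zero_mul] at hab; exact zero_ne_one hab
  apply mul_left_cancel₀ ha
  linear_combination h + P * hab

end Alg

section Tp

variable {O k : Type} [CommRing O] [Field k] {D : RD O k} {B : Type} [CommRing B] [Algebra O B]
  (C : Comp D B)

/-- the unit root element -/
def zC (φ σ₀ : GQ) : B := algebraMap O B (D.chi σ₀) * C.t φ - C.t (σ₀ * φ)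

/-- the normalised unit root element -/
def aC (u : Oˣ) (φ σ₀ : GQ) : B := algebraMap O B ((u⁻¹ : Oˣ) : O) * zC C φ σ₀

variable {A : ValuationSubring Qb} {psi : GQ → ℤ} {φ σ₀ : GQ}

theorem resB_zC (ho : St.OrdD D A psi) (hne : ∃ σ ∈ A.inertiaSubgroupIn ℚ, D.res (D.chi σ) ≠ 1)
    (hφ : φ ∈ A.decompositionSubgroup ℚ) (hσ₀ : σ₀ ∈ A.inertiaSubgroupIn ℚ) :
    C.resB (zC C φ σ₀) = (D.res (D.chi σ₀) - 1) * (psi φ : k) := by
  have hσd := inertia_le_decomposition A hσ₀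
  have hmul : D.res (D.chi (σ₀ * φ)) = D.res (D.chi σ₀) * D.res (D.chi φ) := by
    rw [← D.det_rbar, ← D.det_rbar, ← D.det_rbar, map_mul, Matrix.det_mul]
  rw [zC, map_sub, map_mul, C.res_comp, C.res_t, C.res_t, ho.tbar_eq hne hφ,
    ho.tbar_eq hne (mul_mem hσd hφ), hmul, ho.uq.mul σ₀ hσd φ hφ, ho.uq.ine σ₀ hσ₀, one_mul]
  ring

theorem resB_aC (ho : St.OrdD D A psi) (hφ : φ ∈ A.decompositionSubgroup ℚ)
    (hσ₀ : σ₀ ∈ A.inertiaSubgroupIn ℚ) {u : Oˣ} (hu : (u : O) = D.chi σ₀ - 1) :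
    C.resB (aC C u φ σ₀) = (psi φ : k) := by
  have h1 : D.res (D.chi σ₀) - 1 = D.res u := by rw [hu, map_sub, map_one]
  have h2 : D.res (((u⁻¹ : Oˣ) : O)) * D.res u = 1 := by rw [← map_mul, Units.inv_mul, map_one]
  have hne : ∃ σ ∈ A.inertiaSubgroupIn ℚ, D.res (D.chi σ) ≠ 1 := by
    refine ⟨σ₀, hσ₀, fun h => ?_⟩
    rw [h, sub_self] at h1
    rw [← h1, mul_zero] at h2
    exact zero_ne_one h2
  rw [aC, map_mul, C.res_comp, resB_zC C ho hne hφ hσ₀, h1, ← mul_assoc, h2, one_mul]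

theorem isUnit_aC (ho : St.OrdD D A psi) (hφ : φ ∈ A.decompositionSubgroup ℚ)
    (hσ₀ : σ₀ ∈ A.inertiaSubgroupIn ℚ) {u : Oˣ} (hu : (u : O) = D.chi σ₀ - 1) :
    IsUnit (aC C u φ σ₀) := by
  refine C.loc _ fun h => ?_
  rw [resB_aC C ho hφ hσ₀ hu] at h
  have h1 := ho.uq.sq' hφ (R := k)
  rw [h, zero_mul] at h1
  exact zero_ne_one h1

end Tp

section Der

variable {O k : Type} [CommRing O] [Field k] {D : RD O k} {B : Type} [CommRing B] [Algebra O B]
  (C : Comp D B) {d : B → k}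

theorem der_aC (hd : IsDer O C.resB d) (u : Oˣ) (φ σ₀ : GQ) (a : O)
    (h : d (aC C u φ σ₀ - algebraMap O B a) = 0) : d (zC C φ σ₀) = 0 := by
  have e1 : zC C φ σ₀ = algebraMap O B (u : O) * (aC C u φ σ₀ - algebraMap O B a) +
      algebraMap O B ((u : O) * a) := by
    rw [aC, mul_sub, ← mul_assoc, ← map_mul, ← map_mul, Units.mul_inv, map_one, one_mul,
      sub_add_cancel]
  rw [e1, hd.add, hd.mul, hd.const, hd.const, h, mul_zero, mul_zero, add_zero, add_zero]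

end Der

variable {O K : Type} [CommRing O] [IsDomain O] [IsDiscreteValuationRing O]
    [IsAdicComplete (maximalIdeal O) O] [Field K] [Algebra O K] {p r : ℕ}
    [Finite (ResidueField O)] [CharZero O] [Fact p.Prime] [IsAlgClosed K] [FaithfulSMul O K]
    {F : TWBase O K p r}

/-- the unit root element of a component -/
def aX (X : CmpT F) (u : Oˣ) (φ σ₀ : GQ) (n : ℕ) : (X.toCmp.cd 1 n).B :=
  aC (B := (X.toCmp.cd 1 n).B) ((X.toCmp.cd 1 n).C (F.hbar n)) u φ σ₀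

/-- a point of a component -/
def ptX (X : CmpT F) (n : ℕ) (t : (X.toCmp.P 1 n).X) : (X.toCmp.cd 1 n).B →ₐ[O] K :=
  (X.toCmp.P 1 n).pt t

/-- the quadratic relation of the unit root elements at the points -/
def URel (X : CmpT F) (u : Oˣ) (φ σ₀ : GQ) (n : ℕ) : Prop :=
  ∀ t, ∀ z : integralClosure ℤ ℂ, (z : ℂ) = qCoeff ((X.toCmp.P 1 n).g t) p →
    ptX X n t (aX X u φ σ₀ n) ^ 2 - (X.toCmp.P 1 n).τ t z * ptX X n t (aX X u φ σ₀ n) +
      (p : K) = 0

/-- **The operator `T_p` at a Taylor-Wiles level** -/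
theorem Tp_eq {X X' : CmpT F} {pp : Nat.Primes} (hpp : (pp : ℕ) = p) (h : RStep X X' pp)
    {u : Oˣ} {φ σ₀ : GQ} {n : ℕ} (hrel : URel X u φ σ₀ n) {β : (X.toCmp.cd 1 n).B}
    (hβ : aX X u φ σ₀ n * β = 1)
    (x : Mo (X.toCmp.Q n) ⊤ O F.a (F.α n) 1) :
    haveI : NeZero (pp : ℕ) := ⟨pp.2.ne_zero⟩
    (h.rz n).Tq F.a (F.α n) h.hqD (h.w n) x =
      HT.toEnd (MoA (X.toCmp.Q n) ⊤ O F.a (F.α n) 1 (F.hD n))
        (aX X u φ σ₀ n + (p : (X.toCmp.cd 1 n).B) * β : (X.toCmp.cd 1 n).B) x := by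
  haveI : NeZero (pp : ℕ) := ⟨pp.2.ne_zero⟩
  haveI : CharZero K := charZero_of_injective_algebraMap (FaithfulSMul.algebraMap_injective O K)
  haveI := (X.toCmp.P 1 n).fin
  refine (h.rz n).Tq_eq (K := K) h.hqD (h.w n) (X.T n) X.B (condHyp_top X.N)
    (FaithfulSMul.algebraMap_injective O K) (X.toCmp.P 1 n).pt (X.toCmp.P 1 n).inj _
    (fun t => ?_) x
  refine ⟨(X.toCmp.P 1 n).N0 t, (X.toCmp.P 1 n).nz t, (X.toCmp.P 1 n).g t,
    (X.toCmp.P 1 n).τ t, (X.toCmp.P 1 n).hg t, (X.toCmp.P 1 n).hcoef t, fun z hz => ?_⟩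
  have h1 := hrel t z (by rw [hz, hpp])
  have h2 : ptX X n t (aX X u φ σ₀ n) * ptX X n t β = 1 := by rw [← map_mul, hβ, map_one]
  have h3 : ptX X n t (aX X u φ σ₀ n + (p : (X.toCmp.cd 1 n).B) * β) = (X.toCmp.P 1 n).τ t z := by
    rw [map_add, map_mul, map_natCast]
    exact tp_of_rel h2 h1
  exact h3.symm

section Fam

variable {k : Type} [Field k] {D : RD O k} {S : Finset Nat.Primes} {bad : Finset ℕ}
  {ι : Type} [Finite ι] [Nonempty ι] (H : ι → CData D S bad) (hbar : HBar D S)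

theorem pr_aC (i : ι) (u : Oˣ) (φ σ₀ : GQ) :
    pr H hbar i (aC (CA H hbar) u φ σ₀) = aC ((H i).C hbar) u φ σ₀ := by
  rw [aC, zC, map_mul, map_sub, map_mul, AlgHom.commutes, AlgHom.commutes, pr_t, pr_t]
  rfl

end Fam

section YEl

variable {k : Type} [Field k] {D : RD O (ResidueField O)} {S : Finset Nat.Primes}
  {bad : Finset ℕ} {ι : Type} [Finite ι] [Nonempty ι] (H : ι → CData D S bad) (hbar : HBar D S)

/-- the element `y = c z - λ` -/
def yEl (c lam : O) (φ σ₀ : GQ) : AR H hbar :=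
  algebraMap O (AR H hbar) c * SB.zEl H hbar φ σ₀ - algebraMap O (AR H hbar) lam

theorem der_yEl {u : Oˣ} {lam : O} {φ σ₀ : GQ} {d : AR H hbar → ResidueField O}
    (hd : IsDer O (CA H hbar).resB d) (h : d (yEl H hbar ((u⁻¹ : Oˣ) : O) lam φ σ₀) = 0) :
    d (SB.zEl H hbar φ σ₀) = 0 :=
  der_aC (CA H hbar) hd u φ σ₀ lam h

end YEl

section Main

variable {κ κ' ι : Type} [Finite κ] [Finite κ'] [Nonempty κ] [Finite ι] [Nonempty ι]
  {X : κ → CmpT F} (E : Extra F κ')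
  (cp : ι → κ) (j : ι) {i' : κ} {pp : Nat.Primes} (hpp : (pp : ℕ) = p)
  (h : RStep (X (cp j)) (X i') pp) {ϖ : O}
  (hϖ : maximalIdeal O = Ideal.span {ϖ}) (hϖ0 : ϖ ≠ 0) {psi : GQ → ℤ} {A : ValuationSubring Qb}

include hpp in
/-- **The inputs at `p` of the hard case.** -/
theorem exists_tp (ho : St.OrdD F.D A psi) {φ σ₀ : GQ}
    (hφ : φ ∈ A.decompositionSubgroup ℚ) (hσ₀ : σ₀ ∈ A.inertiaSubgroupIn ℚ) {u : Oˣ}
    (hu : (u : O) = F.D.chi σ₀ - 1) (n : ℕ) (hrel : URel (X (cp j)) u φ σ₀ n) :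
    yEl (((sysT X E).comap (fun a => Sum.inl (cp a))).H n)
      (((sysT X E).comap (fun a => Sum.inl (cp a))).hbar n) ((u⁻¹ : Oˣ) : O) ((psi φ : ℤ) : O) φ σ₀ ∈
        maximalIdeal (((sysT X E).comap (fun a => Sum.inl (cp a))).A n) ∧
    ∃ tp e : ((sysT X E).comap (fun a => Sum.inl (cp a))).A n,
      (∀ x, (raiseD E h hϖ hϖ0).Tq n x =
        pr (((sysT X E).comap (fun a => Sum.inl (cp a))).H n)
          (((sysT X E).comap (fun a => Sum.inl (cp a))).hbar n) j tp • x) ∧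
      ((p : ((sysT X E).comap (fun a => Sum.inl (cp a))).A n) + 1) ^ 2 - tp ^ 2 =
        yEl (((sysT X E).comap (fun a => Sum.inl (cp a))).H n)
          (((sysT X E).comap (fun a => Sum.inl (cp a))).hbar n) ((u⁻¹ : Oˣ) : O)
          ((psi φ : ℤ) : O) φ σ₀ * e := by
  let C := CA (((sysT X E).comap (fun a => Sum.inl (cp a))).H n)
    (((sysT X E).comap (fun a => Sum.inl (cp a))).hbar n)
  obtain ⟨β, hβ⟩ := (isUnit_aC C ho hφ hσ₀ hu).exists_right_inv
  have hpsi : ((psi φ : ℤ) : ((sysT X E).comap (fun a => Sum.inl (cp a))).A n) * (psi φ : _) = 1 :=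
    ho.uq.sq' hφ
  have hy : yEl (((sysT X E).comap (fun a => Sum.inl (cp a))).H n)
      (((sysT X E).comap (fun a => Sum.inl (cp a))).hbar n) ((u⁻¹ : Oˣ) : O)
      ((psi φ : ℤ) : O) φ σ₀ = aC C u φ σ₀ - algebraMap O _ ((psi φ : ℤ) : O) := rfl
  rw [hy]
  refine ⟨?_, aC C u φ σ₀ + (p : _) * β,
    -(aC C u φ σ₀ + algebraMap O _ ((psi φ : ℤ) : O)) * (1 - (p : _) ^ 2 * β ^ 2), fun x => ?_, ?_⟩
  · rw [C.mem_maximalIdeal, map_sub, resB_aC C ho hφ hσ₀ hu, C.res_comp, map_intCast, sub_self]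
  · have hβ' := congrArg (pr (((sysT X E).comap (fun a => Sum.inl (cp a))).H n)
      (((sysT X E).comap (fun a => Sum.inl (cp a))).hbar n) j) hβ
    rw [map_mul, map_one] at hβ'
    have hpr := pr_aC (((sysT X E).comap (fun a => Sum.inl (cp a))).H n)
      (((sysT X E).comap (fun a => Sum.inl (cp a))).hbar n) j u φ σ₀
    rw [hpr] at hβ'
    have h1 := Tp_eq hpp h hrel (β := pr (((sysT X E).comap (fun a => Sum.inl (cp a))).H n)
      (((sysT X E).comap (fun a => Sum.inl (cp a))).hbar n) j β) hβ' x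
    refine h1.trans ?_
    refine congrArg (fun b => HT.toEnd
      (MoA ((X (cp j)).toCmp.Q n) ⊤ O F.a (F.α n) 1 (F.hD n)) b x) ?_
    rw [map_add, map_mul, map_natCast, hpr]
    rfl
  · rw [map_intCast]
    exact tp_alg hβ hpsi

end Main

end Fermat.Agent.H22
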