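import Fermat.Agent.H22.ESIota
import Fermat.Agent.H22.CxEmb
import Fermat.Agent.TC.Boundary

/-!
# Newforms attached to eigenclasses with character (C3)
-/

set_option autoImplicit false

noncomputable section

namespace Fermat.Agent.H22

open Matrix.SpecialLinearGroup CongruenceSubgroup ModularForm ModularCurve ModularCurve.Period
open Fermat.Agent.TC
open Fermat.Agent.H16
open ModularFormClass (qCoeff)
open scoped MatrixGroups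

/-- A newform attached to a system of eigenvalues. -/
theorem exists_newform_of_TEig {L D : ℕ} [NeZero L] {lam : ℕ → ℂ}
    {f : CuspForm (Gamma0 L) 2} (hf0 : f ≠ 0) (hf : TEig L D lam f) :
    ∃ (N0 : ℕ) (_ : NeZero N0) (g : CuspForm (Gamma0 N0) 2), g.IsNewform ∧ N0 ∣ L ∧
      ∀ ℓ : ℕ, ℓ.Prime → ¬ ℓ ∣ L → ¬ ℓ ∣ D → qCoeff g ℓ = lam ℓ := by
  classical
  let P : ℕ → Prop := fun N0 => N0 ∣ L ∧ ∃ (_ : NeZero N0) (g : CuspForm (Gamma0 N0) 2),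
    g.IsNormalizedEigenform ∧ ∀ ℓ : ℕ, ℓ.Prime → ¬ ℓ ∣ L → ¬ ℓ ∣ D → qCoeff g ℓ = lam ℓ
  have hP : ∃ n, P n := by
    obtain ⟨g, hg, hg2⟩ := AL.exists_eigenform_away hf0 hf
    exact ⟨L, dvd_rfl, inferInstance, g, hg, hg2⟩
  obtain ⟨h1, hN, g, hg, hg2⟩ := Nat.find_spec hP
  refine ⟨Nat.find hP, hN, g, ⟨hg, fun M hM hne => ?_⟩, h1, hg2⟩
  rintro ⟨g', hg', h2⟩
  have hM0 : M ≠ 0 := fun h => NeZero.ne (Nat.find hP) (Nat.eq_zero_of_zero_dvd (h ▸ hM))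
  have hlt : M < Nat.find hP :=
    lt_of_le_of_ne (Nat.le_of_dvd (Nat.pos_of_ne_zero (NeZero.ne _)) hM) hne
  exact Nat.find_min hP hlt ⟨hM.trans h1, ⟨hM0⟩, g', hg', fun ℓ hℓ hL hD => by
    rw [h2 ℓ hℓ (fun h => hL (h.trans h1)), hg2 ℓ hℓ hL hD]⟩

theorem dvd_of_not_sq {q M N0 : ℕ} (hq : q.Prime) (h : N0 ∣ q * q * M) (h2 : ¬ q * q ∣ N0) :
    N0 ∣ q * M := by
  obtain ⟨a, b, ha, hb, rfl⟩ := Nat.dvd_mul.mp h
  have ha' : a ∣ q ^ 2 := by rw [pow_two]; exact ha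
  obtain ⟨i, hi, rfl⟩ := (Nat.dvd_prime_pow hq).mp ha'
  have : i ≠ 2 := fun h3 => h2 (by rw [h3, pow_two]; exact dvd_mul_right _ _)
  have hi1 : i ≤ 1 := by omega
  refine mul_dvd_mul ?_ hb
  calc q ^ i ∣ q ^ 1 := pow_dvd_pow q hi1
    _ = q := pow_one q

/-- **Newforms attached to eigenclasses on `Γ₀(L)`**, with the level at primes where the class is
depleted and an eigenvector of the Atkin–Lehner matrices. -/
theorem exists_newform_of_hom {L D : ℕ} [NeZero L] (hD : D ≠ 0) {lam : ℕ → ℂ}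
    {h : HM (Gamma0 L) ℂ} (h0 : h ≠ 0)
    (hT : ∀ (ℓ : ℕ) [Fact ℓ.Prime], ¬ ℓ ∣ L → ¬ ℓ ∣ D →
      act ℂ (del ℓ) (germ ℂ h) + Up ℓ (germ ℂ h) = lam ℓ • germ ℂ h)
    (hE : ∃ ℓ : ℕ, ℓ.Prime ∧ (L : ℤ) ∣ (ℓ : ℤ) - 1 ∧ ¬ ℓ ∣ D ∧ lam ℓ ≠ ℓ + 1) :
    ∃ (N0 : ℕ) (_ : NeZero N0) (g : CuspForm (Gamma0 N0) 2), g.IsNewform ∧ N0 ∣ L ∧
      (∀ ℓ : ℕ, ℓ.Prime → ¬ ℓ ∣ L → ¬ ℓ ∣ D → qCoeff g ℓ = lam ℓ) ∧
      ∀ (q M : ℕ), q.Prime → L = q * q * M → Nat.Coprime q M → ∀ [NeZero q],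
        Eq' q (germ ℂ h) = 0 → (∃ ε : ℂ, ε ^ 2 = 1 ∧ WEig q M ε (germ ℂ h)) → q * q ∣ N0 := by
  have hpar : h ∈ parabolicHoms ℂ (Gamma0 L) ℂ := by
    obtain ⟨ℓ, hℓ, hℓL, hℓD, hne⟩ := hE
    have : Fact ℓ.Prime := ⟨hℓ⟩
    have : NeZero ℓ := ⟨hℓ.ne_zero⟩
    have hnd : ¬ ℓ ∣ L := fun hh => by
      have h1 : (ℓ : ℤ) ∣ (ℓ : ℤ) - 1 := (Int.natCast_dvd_natCast.mpr hh).trans hℓL
      have h2 : (ℓ : ℤ) ∣ 1 := by
        have := dvd_sub (dvd_refl (ℓ : ℤ)) h1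
        simpa using this
      have h3 : ℓ ∣ 1 := by exact_mod_cast h2
      exact hℓ.one_lt.ne' (Nat.dvd_one.mp h3)
    have h1 := hT ℓ hnd hℓD
    have h2 : heckeLin ℂ L ℂ ℓ h = lam ℓ • h := by
      apply germ_injective
      rw [heckeLin_eq_starLin hnd, germ_star_of_not_dvd hnd, h1, map_smul]
    rw [mem_parabolicHoms_iff]
    intro γ hγ
    have h3 := heckeLin_parabolic (R := ℂ) (A := ℂ) (fun n hn x hx => by
      rw [nsmul_eq_mul] at hx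
      exact (mul_eq_zero.mp hx).resolve_left (by exact_mod_cast hn)) hℓ hℓL h (γ := γ) (by
        rw [Matrix.trace_fin_two] at hγ
        exact hγ)
    rw [h2] at h3
    have h4 : lam ℓ * h (Additive.ofMul γ) = (ℓ + 1) * h (Additive.ofMul γ) := by
      have : (ℓ + 1) • h (Additive.ofMul γ) = ((ℓ : ℂ) + 1) * h (Additive.ofMul γ) := by
        rw [nsmul_eq_mul]
        push_cast
        ring
      rw [← this]
      exact h3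
    have h5 : (lam ℓ - (ℓ + 1)) * h (Additive.ofMul γ) = 0 := by rw [sub_mul, h4, sub_self]
    exact (mul_eq_zero.mp h5).resolve_left (sub_ne_zero.mpr hne)
  obtain ⟨f, hf0, hf, hfq⟩ := exists_form_of_hom h0 hpar hT
  obtain ⟨N0, hN0, g, hg, hgL, hgl⟩ := exists_newform_of_TEig hf0 hf
  refine ⟨N0, hN0, g, hg, hgL, hgl, fun q M hq hL hqM _ hEq hW => ?_⟩
  obtain ⟨ε, hε, hW⟩ := hW
  by_contra hnd
  have : Fact q.Prime := ⟨hq⟩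
  have hM0 : M ≠ 0 := fun h => NeZero.ne L (by rw [hL, h, mul_zero])
  have : NeZero M := ⟨hM0⟩
  obtain ⟨h1, h2⟩ := hfq q M hL hqM
  rw [hL] at hgL
  exact ps_contra hL hqM hqM hM0 hD hε hf0 hf (h1 hEq) (h2 ε hW) (dvd_of_not_sq hq hgL hnd) hg.1 hgl

end Fermat.Agent.H22
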