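import Fermat.Agent.H22.NewformC

/-!
# Forms which are new at `t` do not share their eigenvalues with newforms of level prime to `t`
-/

set_option autoImplicit false

noncomputable section

namespace Fermat.Agent.H22

open Matrix.SpecialLinearGroup CongruenceSubgroup ModularForm ModularCurve
open Fermat.Agent.TC
open ModularFormClass (qCoeff)
open scoped MatrixGroups

theorem exists_good_coeff' {L t : ℕ} [NeZero L] {D : ℕ} {lam : ℕ → ℂ} {ε : ℂ}
    (hε : ε ≠ 0) (ht : t.Prime) (n : ℕ) :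
    ∀ (f : CuspForm (Gamma0 L) 2), TEig L D lam f → (∀ n, qCoeff f (n * t) = ε * qCoeff f n) →
      qCoeff f n ≠ 0 →
    ∃ f' : CuspForm (Gamma0 L) 2, TEig L D lam f' ∧ (∀ n, qCoeff f' (n * t) = ε * qCoeff f' n) ∧
      ∃ n', n'.Coprime L ∧ qCoeff f' n' ≠ 0 := by
  induction n using Nat.strong_induction_on with
  | _ n ih =>
    intro f h1 h2 h4
    by_cases hn : n.Coprime L
    · exact ⟨f, h1, h2, n, hn, h4⟩
    · obtain ⟨p, hp, hpn, hpL⟩ := Nat.Prime.not_coprime_iff_dvd.mp hn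
      have hn0 : n ≠ 0 := fun h => h4 (by rw [h]; exact cusp_qCoeff_zero f)
      have : Fact p.Prime := ⟨hp⟩
      have hlt : n / p < n := Nat.div_lt_self (Nat.pos_of_ne_zero hn0) hp.one_lt
      by_cases hpt : p = t
      · subst hpt
        refine ih (n / p) hlt f h1 h2 fun h5 => h4 ?_
        rw [← Nat.div_mul_cancel hpn, h2, h5, mul_zero]
      · refine ih (n / p) hlt
          (CuspForm.heckeULin 2 hpL f) (h1.heckeU hp hpL) (fun m => ?_) ?_
        · rw [qCoeff_heckeULin, coeffHeckeU_apply, qCoeff_heckeULin, coeffHeckeU_apply,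
            mul_right_comm, h2]
        · rw [qCoeff_heckeULin, coeffHeckeU_apply, Nat.div_mul_cancel hpn]
          exact h4

theorem old_contra {t M L D N0 : ℕ} [ht : Fact t.Prime] [NeZero M] [NeZero L] [NeZero N0]
    (hL : L = t * M) (htM : Nat.Coprime t M) (hD : D ≠ 0) {lam : ℕ → ℂ}
    {f : CuspForm (Gamma0 L) 2} (hf0 : f ≠ 0) (hf : TEig L D lam f) (htL : t ∣ L)
    (hfU : CuspForm.heckeULin 2 htL (CuspForm.heckeULin 2 htL f) = f)
    (hN0 : N0 ∣ M) {g : CuspForm (Gamma0 N0) 2} (hg : g.IsNormalizedEigenform)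
    (hgl : ∀ ℓ : ℕ, ℓ.Prime → ¬ ℓ ∣ L → ¬ ℓ ∣ D → qCoeff g ℓ = lam ℓ)
    (hgt : qCoeff g t ^ 2 ≠ ((t : ℂ) + 1) ^ 2) : False := by
  -- an eigenvector of `U_t`
  obtain ⟨ε, hε, f0, hf00, hf0T, hf0U⟩ : ∃ (ε : ℂ) (_ : ε ^ 2 = 1) (f0 : CuspForm (Gamma0 L) 2),
      f0 ≠ 0 ∧ TEig L D lam f0 ∧ ∀ n, qCoeff f0 (n * t) = ε * qCoeff f0 n := by
    have hU : ∀ (ε : ℂ) (f0 : CuspForm (Gamma0 L) 2), CuspForm.heckeULin 2 htL f0 = ε • f0 →
        ∀ n, qCoeff f0 (n * t) = ε * qCoeff f0 n := by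
      intro ε f0 h n
      have h1 := congrArg (fun g : CuspForm (Gamma0 L) 2 => qCoeff g n) h
      simp only [qCoeff_heckeULin, coeffHeckeU_apply, AL.qCoeff_smul] at h1
      exact h1
    by_cases h1 : f + CuspForm.heckeULin 2 htL f = 0
    · refine ⟨-1, by ring, f, hf0, hf, hU (-1) f ?_⟩
      rw [neg_one_smul]
      exact eq_neg_of_add_eq_zero_right h1
    · refine ⟨1, by ring, _, h1, ?_, hU 1 _ ?_⟩
      · intro ℓ hℓ hLL hDD
        rw [map_add, hf ℓ hℓ hLL hDD, hf.heckeU ht.out htL ℓ hℓ hLL hDD, smul_add]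
      · rw [map_add, hfU, one_smul, add_comm]
  have hε0 : ε ≠ 0 := by
    rintro rfl
    norm_num at hε
  have hpos : 0 < M := Nat.pos_of_ne_zero (NeZero.ne M)
  have hcop : ∀ p ∈ M.primeFactors.toList, p.Prime ∧ p ∣ M ∧ Nat.Coprime p t := by
    intro p hp
    rw [Finset.mem_toList, Nat.mem_primeFactors] at hp
    exact ⟨hp.1, hp.2.1, (Nat.Coprime.coprime_dvd_right hp.2.1 htM).symm⟩
  obtain ⟨l, hl⟩ : ∃ l, l = M.primeFactors.toList := ⟨_, rfl⟩
  rw [← hl] at hcop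
  have hmem : ∀ p : ℕ, p.Prime → p ∣ M → p ∈ l := by
    intro p hp hpM
    rw [hl, Finset.mem_toList, Nat.mem_primeFactors]
    exact ⟨hp, hpM, NeZero.ne M⟩
  have hprod : l.prod ≠ 0 := by
    refine List.prod_ne_zero fun h0 => ?_
    exact (hcop 0 h0).1.ne_zero rfl
  have hPcop : Nat.Coprime t l.prod :=
    Nat.Coprime.symm (Nat.coprime_list_prod_left_iff.mpr fun p hp => (hcop p hp).2.2)
  have hex : ∃ n, qCoeff f0 n ≠ 0 := by
    by_contra h
    push Not at h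
    exact hf00 (AL.cusp_ext fun n => by rw [h, AL.qCoeff_zero'])
  obtain ⟨n, hn⟩ := hex
  obtain ⟨f1, a1, a2, n', hn', a4⟩ := exists_good_coeff' hε0 ht.out n f0 hf0T hf0U hn
  -- depletion of `f1`
  have : NeZero (L * l.prod) := ⟨mul_ne_zero (NeZero.ne L) hprod⟩
  have : NeZero t := ⟨ht.out.ne_zero⟩
  obtain ⟨f2, b1, b2, b2', b3, _⟩ := dep_list (L := L) (q := t) l
    (fun p hp => ⟨(hcop p hp).1, (hcop p hp).2.1.trans (by rw [hL]; exact dvd_mul_left _ _),
      (hcop p hp).2.2⟩) f1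
  have hb : ∀ n, qCoeff f2 (n * t) = ε * qCoeff f2 n := by
    intro n
    by_cases h : ∀ p ∈ l, ¬ p ∣ n
    · rw [b1 n h, b1 (n * t) (fun p hp hpn => ?_), a2]
      exact h p hp ((hcop p hp).2.2.dvd_of_dvd_mul_right hpn)
    · push Not at h
      obtain ⟨p, hp, hpn⟩ := h
      rw [b2 n ⟨p, hp, hpn⟩, b2 (n * t) ⟨p, hp, hpn.mul_right t⟩, mul_zero]
  -- depletion of `g`
  have : NeZero (M * l.prod) := ⟨mul_ne_zero (NeZero.ne M) hprod⟩
  have hN0' : N0 * 1 ∣ M := by rwa [mul_one]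
  have hTg : TEig M 1 (fun ℓ => qCoeff g ℓ) (AL.degen one_pos hN0' 2 g) := by
    intro ℓ hℓ h1 h2
    have h3 : ¬ ℓ ∣ N0 := fun hh => h1 (hh.trans hN0)
    rw [← AL.degen_heckeTLin one_pos hN0' 2 hℓ h3 h1, AL.eigenform_T hg hℓ h3, map_smul]
  obtain ⟨g2, c1, c2, c2', c3, _⟩ := dep_list (L := M) (q := t) l hcop
    (AL.degen one_pos hN0' 2 g)
  have c4 := c3 1 _ hTg
  have htMP : ¬ t ∣ M * l.prod := fun h =>
    ht.out.one_lt.ne' (Nat.eq_one_of_dvd_coprimes (htM.mul_right hPcop) dvd_rfl h)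
  have hnl1 : ∀ p ∈ l, ¬ p ∣ 1 := fun p hp h =>
    (hcop p hp).1.one_lt.ne' (Nat.dvd_one.mp h)
  have hg21 : qCoeff g2 1 = 1 := by
    rw [c1 1 hnl1, AL.qCoeff_degen, if_pos (one_dvd _), Nat.div_one, hg.qCoeff_one]
  obtain ⟨α, hα⟩ : ∃ α, α = qCoeff g t := ⟨_, rfl⟩
  have hgt2 : ∀ n, qCoeff g2 (n * t) + (if t ∣ n then (t : ℂ) * qCoeff g2 (n / t) else 0) =
      α * qCoeff g2 n := by
    intro n
    have h1 := c4 t ht.out htMP (fun h => ht.out.one_lt.ne' (Nat.dvd_one.mp h))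
    have h2 := congrArg (fun g : CuspForm (Gamma0 (M * l.prod)) 2 => qCoeff g n) h1
    simp only [qCoeff_heckeTLin, coeffHeckeT_apply, AL.qCoeff_smul] at h2
    rw [hα, ← h2]
    have h4 : ((2 : ℤ) - 1) = 1 := rfl
    rw [h4, zpow_one]
  -- levels
  obtain ⟨B, hB⟩ : ∃ B, B = M * l.prod * t * t := ⟨_, rfl⟩
  have hB0 : B ≠ 0 := by
    rw [hB]
    exact mul_ne_zero (mul_ne_zero (NeZero.ne _) ht.out.ne_zero) ht.out.ne_zero
  have : NeZero B := ⟨hB0⟩
  have : NeZero (L * l.prod * t) := ⟨mul_ne_zero (NeZero.ne _) ht.out.ne_zero⟩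
  have : NeZero (M * l.prod * t) := ⟨mul_ne_zero (NeZero.ne _) ht.out.ne_zero⟩
  have : NeZero (M * l.prod * t * t) := ⟨mul_ne_zero (NeZero.ne _) ht.out.ne_zero⟩
  obtain ⟨f3, d1, _, d3⟩ := dep_step (p := t) (htL.mul_right l.prod) f2
  have hMP1 : M * l.prod * 1 ∣ M * l.prod * t := by rw [mul_one]; exact dvd_mul_right _ _
  obtain ⟨g3, e1, _, e3⟩ := dep_step (p := t) (dvd_mul_left t (M * l.prod))
    (AL.degen one_pos hMP1 2 g2)
  have hLB : L * l.prod * t * 1 ∣ B := dvd_of_eq (by rw [hL, hB]; ring)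
  have hgB : M * l.prod * t * t * 1 ∣ B := dvd_of_eq (by rw [hB]; ring)
  have hTf : TEig B D lam (AL.degen one_pos hLB 2 f3) := (d3 D lam (b3 D lam a1)).degen _ _
  have hTg3 : TEig B D lam (AL.degen one_pos hgB 2 g3) := by
    have h1 : TEig (M * l.prod) D lam g2 → TEig B D lam (AL.degen one_pos hgB 2 g3) := fun h =>
      (e3 D lam (h.degen _ _)).degen _ _
    -- the eigenvalues agree away from `t`
    intro ℓ hℓ hℓB hℓD
    have h2 := ((e3 1 _ (c4.degen one_pos hMP1)).degen one_pos hgB) ℓ hℓ hℓB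
      (fun h => hℓ.one_lt.ne' (Nat.dvd_one.mp h))
    rw [h2]
    congr 1
    refine hgl ℓ hℓ (fun h => hℓB ?_) hℓD
    rw [hL] at h
    rw [hB]
    rcases hℓ.dvd_mul.mp h with h | h
    · exact h.mul_left _
    · exact ((h.mul_right _).mul_right _).mul_right _
  obtain ⟨F, hF⟩ : ∃ F, F = AL.degen one_pos hLB 2 f3 := ⟨_, rfl⟩
  obtain ⟨G, hG⟩ : ∃ G, G = AL.degen one_pos hgB 2 g3 := ⟨_, rfl⟩
  rw [← hF] at hTf
  rw [← hG] at hTg3
  have hFc : ∀ n, qCoeff F n = if t ∣ n then 0 else qCoeff f2 n := fun n => by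
    rw [hF, AL.qCoeff_degen, if_pos (one_dvd n), Nat.div_one, d1]
  have hGc : ∀ n, qCoeff G n = if t ∣ n then 0 else qCoeff g2 n := fun n => by
    rw [hG, AL.qCoeff_degen, if_pos (one_dvd n), Nat.div_one, e1, AL.qCoeff_degen,
      if_pos (one_dvd n), Nat.div_one]
  have ht1 : ¬ t ∣ 1 := fun h => ht.out.one_lt.ne' (Nat.dvd_one.mp h)
  have hG1 : qCoeff G 1 = 1 := by rw [hGc, if_neg ht1, hg21]
  obtain ⟨c, hc⟩ : ∃ c, c = qCoeff F 1 := ⟨_, rfl⟩
  have hkey : ∀ n, qCoeff F n = c * qCoeff G n := by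
    obtain ⟨h, hh⟩ : ∃ h, h = F - c • G := ⟨_, rfl⟩
    have hT : TEig B D lam h := by
      rw [hh]; exact hTf.sub (hTg3.smul _)
    have hcc : ∀ n, qCoeff h n = qCoeff F n - c * qCoeff G n := fun n => by
      rw [hh, AL.qCoeff_sub, AL.qCoeff_smul]
    have h1 : qCoeff h 1 = 0 := by
      rw [hcc, hG1, mul_one, hc, sub_self]
    have h2 := AL.coeff_eq_zero_of_coprime h hD fun n hn hnD =>
      AL.coeff_eq_zero_away hT h1 n hn hnD
    intro n
    rw [← sub_eq_zero, ← hcc]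
    by_cases hn : n.Coprime B
    · exact h2 n hn
    · obtain ⟨p, hp, hpn, hpB⟩ := Nat.Prime.not_coprime_iff_dvd.mp hn
      have h3 : p = t ∨ p ∈ l := by
        have h4 : ∀ r : ℕ, r.Prime → r ∣ l.prod → r ∈ l := by
          intro r hr hrl
          obtain ⟨s, hs, hrs⟩ := (Prime.dvd_prod_iff hr.prime).mp hrl
          have := (Nat.prime_dvd_prime_iff_eq hr (hcop s hs).1).mp hrs
          rw [this]; exact hs
        rw [hB] at hpB
        rcases hp.dvd_mul.mp hpB with h | h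
        · rcases hp.dvd_mul.mp h with h | h
          · rcases hp.dvd_mul.mp h with h | h
            · exact Or.inr (hmem p hp h)
            · exact Or.inr (h4 p hp h)
          · exact Or.inl ((Nat.prime_dvd_prime_iff_eq hp ht.out).mp h)
        · exact Or.inl ((Nat.prime_dvd_prime_iff_eq hp ht.out).mp h)
      rw [hcc, hFc, hGc]
      rcases h3 with rfl | h3
      · rw [if_pos hpn, if_pos hpn, mul_zero, sub_zero]
      · rw [b2 n ⟨p, h3, hpn⟩, c2 n ⟨p, h3, hpn⟩]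
        simp
  have hc0 : c ≠ 0 := by
    intro h0
    have htn' : ¬ t ∣ n' := fun h =>
      Nat.not_coprime_of_dvd_of_dvd ht.out.one_lt h htL hn'
    have h1 : qCoeff F n' = qCoeff f1 n' := by
      rw [hFc, if_neg htn', b1 n' fun p hp hpn => ?_]
      exact Nat.not_coprime_of_dvd_of_dvd (hcop p hp).1.one_lt hpn
        ((hcop p hp).2.1.trans (by rw [hL]; exact dvd_mul_left _ _)) hn'
    rw [hkey, h0, zero_mul] at h1
    exact a4 h1.symm
  have hfg : ∀ n, ¬ t ∣ n → qCoeff f2 n = c * qCoeff g2 n := fun n hn => by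
    have := hkey n
    rwa [hFc, hGc, if_neg hn, if_neg hn] at this
  -- the difference
  have hA1 : M * l.prod * 1 ∣ L * l.prod := by
    rw [mul_one, hL, mul_assoc]; exact dvd_mul_left _ _
  have hA2 : M * l.prod * t ∣ L * l.prod := dvd_of_eq (by rw [hL]; ring)
  obtain ⟨E, hE⟩ : ∃ E, E = f2 - c • (AL.degen one_pos hA1 2 g2 +
    (ε - α) • AL.degen ht.out.pos hA2 2 g2) := ⟨_, rfl⟩
  have hEc : ∀ n, qCoeff E n = qCoeff f2 n - c * (qCoeff g2 n +
      (ε - α) * if t ∣ n then qCoeff g2 (n / t) else 0) := fun n => by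
    rw [hE, AL.qCoeff_sub, AL.qCoeff_smul, AL.qCoeff_add, AL.qCoeff_smul, AL.qCoeff_degen,
      AL.qCoeff_degen, if_pos (one_dvd n), Nat.div_one]
  have hE1 : ∀ n, ¬ t ∣ n → qCoeff E n = 0 := fun n hn => by
    rw [hEc, if_neg hn, mul_zero, add_zero, hfg n hn, sub_self]
  have hE2 : ∀ n, ¬ t ∣ n → qCoeff E (n * t) = 0 := fun n hn => by
    have h1 := hgt2 n
    rw [if_neg hn, add_zero] at h1
    rw [hEc, if_pos (dvd_mul_left t n), Nat.mul_div_cancel _ ht.out.pos, hb, hfg n hn, h1]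
    ring
  have hdiv : L * l.prod / t = M * l.prod := by
    rw [hL, mul_assoc, Nat.mul_div_cancel_left _ ht.out.pos]
  have : NeZero (L * l.prod / t) := ⟨by rw [hdiv]; exact NeZero.ne _⟩
  obtain ⟨E1, hE3⟩ := AL.one_prime ht.out (htL.mul_right l.prod) E hE1
  have hE4 : E1 = 0 := by
    refine AL.eq_zero_of_support ht.out (by rw [hdiv]; exact htMP) E1 fun n hn => ?_
    have h1 := hE2 n hn
    rw [hE3, AL.qCoeff_degen, if_pos (dvd_mul_left t n), Nat.mul_div_cancel _ ht.out.pos] at h1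
    exact h1
  have hE5 : ∀ n, qCoeff E n = 0 := fun n => by
    rw [hE3, hE4, map_zero, AL.qCoeff_zero']
  -- the coefficient at `t ^ 2`
  have h1 := hE5 (t * t)
  rw [hEc, if_pos (dvd_mul_left t t), Nat.mul_div_cancel _ ht.out.pos, hb] at h1
  have h2 := hb 1
  rw [one_mul, hfg 1 ht1, hg21, mul_one] at h2
  have h3 := hgt2 t
  rw [if_pos dvd_rfl, Nat.div_self ht.out.pos, hg21, mul_one] at h3
  have h4 := hgt2 1
  rw [if_neg ht1, add_zero, one_mul, hg21, mul_one] at h4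
  rw [h4] at h1 h3
  rw [h2] at h1
  have h5 : qCoeff g2 (t * t) = α * α - t := by linear_combination h3
  rw [h5] at h1
  have h6 : c * (1 - (ε * α - t)) = 0 := by linear_combination h1 - c * hε
  have h7 : ε * α = t + 1 := by
    have := (mul_eq_zero.mp h6).resolve_left hc0
    linear_combination -this
  apply hgt
  rw [← hα, ← h7, mul_pow, hε, one_mul]

end Fermat.Agent.H22
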