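import Fermat.Agent.H22.OldLow
import Fermat.Agent.H22.OldForms
import Fermat.Agent.H22.C3psi

/-!
# Level lowering for eigenclasses with character, over `ℂ`
-/

set_option autoImplicit false

noncomputable section

namespace Fermat.Agent.H22

open Matrix.SpecialLinearGroup CongruenceSubgroup ModularForm ModularCurve ModularCurve.Period
open Fermat.Agent.TC
open Fermat.Agent.H16
open ModularFormClass (qCoeff)
open scoped MatrixGroups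

section Par

/-- Non-Eisenstein eigenclasses are parabolic. -/
theorem parabolic_of_hecke {L D : ℕ} [NeZero L] {lam : ℕ → ℂ} {h : HM (Gamma0 L) ℂ}
    (hT : ∀ (ℓ : ℕ) [Fact ℓ.Prime], ¬ ℓ ∣ L → ¬ ℓ ∣ D →
      act ℂ (del ℓ) (germ ℂ h) + Up ℓ (germ ℂ h) = lam ℓ • germ ℂ h)
    (hE : ∃ ℓ : ℕ, ℓ.Prime ∧ (L : ℤ) ∣ (ℓ : ℤ) - 1 ∧ ¬ ℓ ∣ D ∧ lam ℓ ≠ ℓ + 1) :
    h ∈ parabolicHoms ℂ (Gamma0 L) ℂ := by
  obtain ⟨ℓ, hℓ, hℓL, hℓD, hne⟩ := hE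
  have : Fact ℓ.Prime := ⟨hℓ⟩
  have : NeZero ℓ := ⟨hℓ.ne_zero⟩
  have hnd : ¬ ℓ ∣ L := fun hh => by
    have h1 : (ℓ : ℤ) ∣ (ℓ : ℤ) - 1 := (Int.natCast_dvd_natCast.mpr hh).trans hℓL
    have h2 : (ℓ : ℤ) ∣ 1 := by
      have := dvd_sub (dvd_refl (ℓ : ℤ)) h1
      simpa using this
    have h3 : ℓ ∣ 1 := by exact_mod_cast h2
    exact hℓ.one_lt.ne' (Nat.dvd_one.mp h3)
  have h1 := hT ℓ hnd hℓD
  have h2 : heckeLin ℂ L ℂ ℓ h = lam ℓ • h := by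
    apply germ_injective
    rw [heckeLin_eq_starLin hnd, germ_star_of_not_dvd hnd, h1, map_smul]
  rw [mem_parabolicHoms_iff]
  intro γ hγ
  have h3 := heckeLin_parabolic (R := ℂ) (A := ℂ) (fun n hn x hx => by
    rw [nsmul_eq_mul] at hx
    exact (mul_eq_zero.mp hx).resolve_left (by exact_mod_cast hn)) hℓ hℓL h (γ := γ) (by
      rw [Matrix.trace_fin_two] at hγ
      exact hγ)
  rw [h2] at h3
  have h4 : lam ℓ * h (Additive.ofMul γ) = (ℓ + 1) * h (Additive.ofMul γ) := by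
    have : (ℓ + 1) • h (Additive.ofMul γ) = ((ℓ : ℂ) + 1) * h (Additive.ofMul γ) := by
      rw [nsmul_eq_mul]
      push_cast
      ring
    rw [← this]
    exact h3
  have h5 : (lam ℓ - (ℓ + 1)) * h (Additive.ofMul γ) = 0 := by rw [sub_mul, h4, sub_self]
  exact (mul_eq_zero.mp h5).resolve_left (sub_ne_zero.mpr hne)

/-- From parabolic homomorphisms to cusp forms, keeping the relation `U_t ^ 2 = 1`. -/
theorem exists_form_of_hom_U {L D t : ℕ} [NeZero L] [ht : Fact t.Prime] (htL : t ∣ L)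
    {lam : ℕ → ℂ} {h : HM (Gamma0 L) ℂ} (h0 : h ≠ 0)
    (hpar : h ∈ parabolicHoms ℂ (Gamma0 L) ℂ)
    (hT : ∀ (ℓ : ℕ) [Fact ℓ.Prime], ¬ ℓ ∣ L → ¬ ℓ ∣ D →
      act ℂ (del ℓ) (germ ℂ h) + Up ℓ (germ ℂ h) = lam ℓ • germ ℂ h)
    (hU : Up t (Up t (germ ℂ h)) = germ ℂ h) :
    ∃ f : CuspForm (Gamma0 L) 2, f ≠ 0 ∧ TEig L D lam f ∧
      CuspForm.heckeULin 2 htL (CuspForm.heckeULin 2 htL f) = f := by
  obtain ⟨A, B, hAB⟩ := es_exists hpar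
  have hTI : ∀ f : CuspForm (Gamma0 L) 2, TI (pgL L f) := pgL_TI
  have hTA : TEig L D lam A ∧ TEig L D lam B := by
    have key : ∀ (ℓ : ℕ) (hℓ : ℓ.Prime) (hL : ¬ ℓ ∣ L), ¬ ℓ ∣ D →
        CuspForm.heckeTLin 2 hℓ hL A - lam ℓ • A = 0 ∧
        CuspForm.heckeTLin 2 hℓ hL B - lam ℓ • B = 0 := by
      intro ℓ hℓ hL hD
      have : Fact ℓ.Prime := ⟨hℓ⟩
      have h1 := hT ℓ hL hD
      rw [hAB, map_add, act_del_iota, Up_add, (hTI B).Up_iota] at h1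
      apply es_unique
      rw [map_sub, map_sub, map_smul, map_smul, map_sub, map_smul,
        pgL_heckeT (p := ℓ) hL A, pgL_heckeT (p := ℓ) hL B, map_add]
      rw [smul_add] at h1
      have e : ∀ a b c d e f : HG ℂ, a + b + (c + d) = e + f →
          a + c - e + (b + d - f) = 0 := by
        intro a b c d e f h
        rw [show a + c - e + (b + d - f) = a + b + (c + d) - (e + f) by abel, h, sub_self]
      exact e _ _ _ _ _ _ h1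
    exact ⟨fun ℓ hℓ hL hD => sub_eq_zero.mp (key ℓ hℓ hL hD).1,
      fun ℓ hℓ hL hD => sub_eq_zero.mp (key ℓ hℓ hL hD).2⟩
  have hUU : CuspForm.heckeULin 2 htL (CuspForm.heckeULin 2 htL A) - A = 0 ∧
      CuspForm.heckeULin 2 htL (CuspForm.heckeULin 2 htL B) - B = 0 := by
    rw [hAB, Up_add, (hTI B).Up_iota, ← pgL_heckeU htL, ← pgL_heckeU htL, Up_add,
      (hTI (CuspForm.heckeULin 2 htL B)).Up_iota, ← pgL_heckeU htL, ← pgL_heckeU htL] at hU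
    apply es_unique
    rw [map_sub, map_sub, map_sub]
    have e : ∀ a b c d : HG ℂ, a + b = c + d → a - c + (b - d) = 0 := by
      intro a b c d h
      rw [show a - c + (b - d) = a + b - (c + d) by abel, h, sub_self]
    exact e _ _ _ _ hU
  by_cases hA0 : A = 0
  · have hB0 : B ≠ 0 := by
      rintro rfl
      apply h0
      apply germ_injective
      rw [hAB, hA0, map_zero, map_zero, map_zero, add_zero]
    exact ⟨B, hB0, hTA.2, sub_eq_zero.mp hUU.2⟩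
  · exact ⟨A, hA0, hTA.1, sub_eq_zero.mp hUU.1⟩

end Par

/-- **The relation `U_t ^ 2 = w(t) ^ 2` is impossible over `ℂ`.** -/
theorem old_complex {N N' t Q M' P : ℕ} [NeZero N] [NeZero N'] [NeZero Q] [NeZero P]
    [ht : Fact t.Prime] (hN' : N' = N * t) (hN : N' = Q * M') (hsq : Squarefree Q)
    (hcop : Nat.Coprime Q M') (hNt : Nat.Coprime N t) (htP : Nat.Coprime t P)
    (hQP : Q ∣ P) {H : Subgroup (ZMod N')ˣ}
    {w : MulChar (ZMod Q) ℂ} (hw : NT Q w) {φ : HM (GamH N' H) ℂ} (hφ0 : φ ≠ 0)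
    (hφ : φ ∈ psiPart N' Q H w) {D : ℕ} (hD : D ≠ 0) {a : ℕ → ℂ}
    (hT : ∀ (ℓ : ℕ) [NeZero ℓ], ℓ.Prime → ¬ ℓ ∣ N' → ¬ ℓ ∣ D → TH ℂ N' H ℂ ℓ φ = a ℓ • φ)
    (hE : ∃ ℓ : ℕ, ℓ.Prime ∧ ((N' * P : ℕ) : ℤ) ∣ (ℓ : ℤ) - 1 ∧ ¬ ℓ ∣ D ∧ a ℓ ≠ ℓ + 1)
    {N0 : ℕ} [NeZero N0] {g : CuspForm (Gamma0 N0) 2} (hg : g.IsNormalizedEigenform)
    (hN0 : N0 ∣ N * P)
    (hgl : ∀ ℓ : ℕ, ℓ.Prime → ¬ ℓ ∣ N' → ¬ ℓ ∣ D → qCoeff g ℓ = w ((ℓ : ℕ) : ZMod Q) * a ℓ)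
    (hgt : qCoeff g t ^ 2 ≠ ((t : ℂ) + 1) ^ 2)
    (hU : Up t (Up t (germ ℂ φ)) = w ((t : ℕ) : ZMod Q) ^ 2 • germ ℂ φ) : False := by
  have : NeZero (N' * Q) := ⟨mul_ne_zero (NeZero.ne N') (NeZero.ne Q)⟩
  have : NeZero (N' * P) := ⟨mul_ne_zero (NeZero.ne N') (NeZero.ne P)⟩
  have : NeZero (N * P) := ⟨mul_ne_zero (NeZero.ne N) (NeZero.ne P)⟩
  obtain ⟨R, hR, hRg⟩ := exists_twistR hN hsq hcop H hw
  obtain ⟨h, hh⟩ : ∃ h, h = R ⟨φ, hφ⟩ := ⟨_, rfl⟩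
  have hg1 : germ ℂ h = rw' Q w (germ ℂ φ) := by rw [hh]; exact hRg _
  have h0 : h ≠ 0 := by
    intro h0
    apply hφ0
    have : (⟨φ, hφ⟩ : psiPart N' Q H w) = 0 := hR (by rw [← hh, h0, map_zero])
    exact congrArg Subtype.val this
  have hQN : Q ∣ N' := by rw [hN]; exact dvd_mul_right _ _
  have htQ : Nat.Coprime t Q := Nat.Coprime.coprime_dvd_right hQP htP
  have hTI : TI (germ ℂ φ) := (SI_of_psiPart hφ).toTI (by simp)
  have hu : IsUnit ((t : ℕ) : ZMod Q) := (ZMod.isUnit_iff_coprime t Q).mpr htQ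
  have hne : w ((t : ℕ) : ZMod Q) ≠ 0 := (hu.map w).ne_zero
  have hUh : Up t (Up t (germ ℂ h)) = germ ℂ h := by
    have h1 := congrArg (rw' Q w) hU
    rw [(hTI.Up_TI t).Up_rw' htQ, hTI.Up_rw' htQ, Up_smul, smul_smul, ← pow_two, rw'_smul] at h1
    have h2 := smul_right_injective (HG ℂ) (pow_ne_zero 2 hne) h1
    rw [hg1]
    exact h2
  -- restriction to a smaller group
  have hle : Gamma0 (N' * P) ≤ Gamma0 (N' * Q) := Gamma0_anti (mul_dvd_mul_left N' hQP)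
  obtain ⟨k, hk⟩ : ∃ k, k = res ℂ ℂ hle h := ⟨_, rfl⟩
  have hgk : germ ℂ k = germ ℂ h := by
    rw [hk]
    exact germ_res hle (isCong_Gamma0 _) (isCong_Gamma0 _) h
  have hk0 : k ≠ 0 := by
    intro h1
    apply h0
    apply germ_injective
    rw [← hgk, h1, map_zero, map_zero]
  have hUk : Up t (Up t (germ ℂ k)) = germ ℂ k := by rw [hgk, hUh]
  have hnd : ∀ ℓ : ℕ, ¬ ℓ ∣ N' * P → ¬ ℓ ∣ N' * Q := fun ℓ h1 h2 =>
    h1 (h2.trans (mul_dvd_mul_left N' hQP))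
  have key : ∀ (ℓ : ℕ) [Fact ℓ.Prime], ¬ ℓ ∣ N' * P → ¬ ℓ ∣ D →
      act ℂ (del ℓ) (germ ℂ k) + Up ℓ (germ ℂ k) =
        (w ((ℓ : ℕ) : ZMod Q) * a ℓ) • germ ℂ k := by
    intro ℓ hℓ hℓN hℓD
    have : NeZero ℓ := ⟨hℓ.out.ne_zero⟩
    have hℓN' : ¬ ℓ ∣ N' := fun hh => hℓN (hh.mul_right P)
    have h1 := twistR_hecke hQN hφ hg1 hℓN'
    rw [hT ℓ hℓ.out hℓN' hℓD, map_smul, rw'_smul, smul_smul, ← hg1,
      heckeLin_eq_starLin (hnd ℓ hℓN), germ_star_of_not_dvd (hnd ℓ hℓN)] at h1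
    rw [hgk]
    exact h1
  have hpar := parabolic_of_hecke key (by
    obtain ⟨ℓ, hℓ, hℓ1, hℓD, hne⟩ := hE
    refine ⟨ℓ, hℓ, hℓ1, hℓD, ?_⟩
    have : ((ℓ : ℕ) : ZMod Q) = 1 := by
      have h2 : (Q : ℤ) ∣ (ℓ : ℤ) - 1 :=
        (Int.natCast_dvd_natCast.mpr (hQP.trans (dvd_mul_left P N'))).trans hℓ1
      rw [← ZMod.intCast_zmod_eq_zero_iff_dvd] at h2
      push_cast at h2
      exact sub_eq_zero.mp h2
    rw [this, map_one, one_mul]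
    exact hne)
  have htL : t ∣ N' * P := by rw [hN']; exact ⟨N * P, by ring⟩
  obtain ⟨f, hf0, hf, hfU⟩ := exists_form_of_hom_U htL hk0 hpar key hUk
  exact old_contra (M := N * P) (by rw [hN']; ring) (hNt.symm.mul_right htP) hD hf0 hf htL hfU
    hN0 hg (fun ℓ hℓ h1 h2 => hgl ℓ hℓ (fun h3 => h1 (h3.mul_right P)) h2) hgt

end Fermat.Agent.H22
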