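import Fermat.Agent.H22.OldC
import Fermat.Agent.H22.CxEmb2

/-!
# Level lowering for eigenclasses with character
-/

set_option autoImplicit false

noncomputable section

namespace Fermat.Agent.H22

open Matrix.SpecialLinearGroup CongruenceSubgroup ModularForm ModularCurve
open Fermat.Agent.TC
open ModularFormClass (qCoeff)
open scoped MatrixGroups

section MapG

variable {F K : Type*} [Field F] [Field K] (i : F →+* K)

/-- Change of coefficients for functions. -/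
def mapFn : (GG → F) →ₛₗ[i] (GG → K) where
  toFun φ x := i (φ x)
  map_add' φ ψ := by funext x; simp
  map_smul' c φ := by funext x; simp

/-- Change of coefficients for germs. -/
def mapG : HG F →ₛₗ[i] HG K :=
  (nul F).mapQ (nul K) (mapFn i) fun φ hφ => by
    change ∀ᶠ x in cofil, i (φ x) = 0
    filter_upwards [show ∀ᶠ x in cofil, φ x = 0 from hφ] with x hx
    rw [hx, map_zero]

theorem mapG_mkQ (φ : GG → F) : mapG i ((nul F).mkQ φ) = (nul K).mkQ fun x => i (φ x) := rfl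

theorem mapG_injective : Function.Injective (mapG i) := by
  rw [injective_iff_map_eq_zero]
  intro v hv
  obtain ⟨φ, rfl⟩ := (nul F).mkQ_surjective v
  rw [mapG_mkQ, Submodule.mkQ_apply, Submodule.Quotient.mk_eq_zero] at hv
  rw [Submodule.mkQ_apply, Submodule.Quotient.mk_eq_zero]
  change ∀ᶠ x in cofil, φ x = 0
  filter_upwards [show ∀ᶠ x in cofil, i (φ x) = 0 from hv] with x hx
  exact (map_eq_zero i).mp hx

theorem mapG_act (g : GG) (v : HG F) : mapG i (act F g v) = act K g (mapG i v) := by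
  obtain ⟨φ, rfl⟩ := (nul F).mkQ_surjective v
  rfl

theorem mapG_Up (t : ℕ) [NeZero t] (v : HG F) : mapG i (Up t v) = Up t (mapG i v) := by
  unfold Up
  rw [map_sum]
  exact Finset.sum_congr rfl fun j _ => mapG_act i _ _

theorem mapG_germ {Γ : Subgroup SL(2, ℤ)} (φ : HM Γ F) :
    mapG i (germ F φ) = germ K (i.toAddMonoidHom.comp φ) := by
  rw [germ_apply, germ_apply, mapG_mkQ]
  congr 1
  funext x
  unfold extF
  split_ifs
  · rfl
  · exact map_zero i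

end MapG

/-- **Level lowering**: an eigenclass of level `N t` (`t` prime to `N`) with character `w ^ 2` of
conductor dividing `Q`, attached to a newform `g` of level prime to `t` with
`a_t(g) ^ 2 ≠ (t + 1) ^ 2`, comes from level `N`. -/
theorem exists_old {N N' t Q M' P : ℕ} [NeZero N] [NeZero N'] [NeZero Q] [NeZero P]
    [ht : Fact t.Prime] (hN' : N' = N * t) (hN : N' = Q * M') (hsq : Squarefree Q)
    (hcop : Nat.Coprime Q M') (hNt : Nat.Coprime N t) (htP : Nat.Coprime t P)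
    (hQP : Q ∣ P) (hNN : N ∣ N') {H : Subgroup (ZMod N')ˣ} {K : Type*} [Field K] [CharZero K]
    {w : MulChar (ZMod Q) K} (hw : NT Q w) {φ : HM (GamH N' H) K} (hφ0 : φ ≠ 0)
    (hφ : φ ∈ psiPart N' Q H w) {D : ℕ} (hD : D ≠ 0) {a : ℕ → K}
    (hT : ∀ (ℓ : ℕ) [NeZero ℓ], ℓ.Prime → ¬ ℓ ∣ N' → ¬ ℓ ∣ D → TH K N' H K ℓ φ = a ℓ • φ)
    (hE : ∃ ℓ : ℕ, ℓ.Prime ∧ ((N' * P : ℕ) : ℤ) ∣ (ℓ : ℤ) - 1 ∧ ¬ ℓ ∣ D ∧ a ℓ ≠ ℓ + 1)
    {N0 : ℕ} [NeZero N0] {g : CuspForm (Gamma0 N0) 2} (hg : g.IsNormalizedEigenform)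
    (hN0 : N0 ∣ N * P) (τ : integralClosure ℤ ℂ →+* K)
    (hgl : ∀ ℓ : ℕ, ℓ.Prime → ¬ ℓ ∣ N' → ¬ ℓ ∣ D → ∃ x : integralClosure ℤ ℂ,
        (x : ℂ) = qCoeff g ℓ ∧ τ x = w ((ℓ : ℕ) : ZMod Q) * a ℓ)
    (hgt : qCoeff g t ^ 2 ≠ ((t : ℂ) + 1) ^ 2) :
    ∃ φ1 : HM (GamH N (H.map (ZMod.unitsMap hNN))) K, φ1 ≠ 0 ∧
      φ1 ∈ psiPart N Q (H.map (ZMod.unitsMap hNN)) w ∧
      ∀ (ℓ : ℕ) [NeZero ℓ] (b : K), ℓ.Prime → ¬ ℓ ∣ N' → TH K N' H K ℓ φ = b • φ →
        TH K N (H.map (ZMod.unitsMap hNN)) K ℓ φ1 = b • φ1 := by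
  classical
  have htQ : Nat.Coprime t Q := Nat.Coprime.coprime_dvd_right hQP htP
  have hQN : Q ∣ N := by
    have h1 : Q ∣ N * t := by rw [← hN', hN]; exact dvd_mul_right _ _
    exact htQ.symm.dvd_of_dvd_mul_right h1
  have hQN' : Q ∣ N' := hQN.trans hNN
  rcases exists_low_or hN' hNt hNN hQN hφ0 hφ with h | hU
  · exact h
  exfalso
  obtain ⟨x0, hx0⟩ : ∃ x0, φ x0 ≠ 0 := by
    by_contra hc
    push Not at hc
    exact hφ0 (AddMonoidHom.ext hc)
  let S : Set K := (Set.range φ ∪ Set.range w) ∪ Set.range τ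
  have hcount : Countable (Additive (GamH N' H)) := by
    have : Countable (Matrix (Fin 2) (Fin 2) ℤ) := inferInstanceAs (Countable (Fin 2 → Fin 2 → ℤ))
    have : Countable SL(2, ℤ) := Subtype.countable
    have h2 : Countable (GamH N' H) := Subtype.countable
    exact h2
  have hcR : Countable (integralClosure ℤ ℂ) := countable_integralClosure
  have hS : S.Countable := ((Set.countable_range φ).union (Set.countable_range w)).union
    (Set.countable_range τ)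
  let F : Subfield K := Subfield.closure S
  have hF : Countable F := by
    rw [← Cardinal.mk_le_aleph0_iff]
    refine (Subfield.cardinalMk_closure_le_max S).trans (max_le ?_ le_rfl)
    exact Cardinal.le_aleph0_iff_set_countable.mpr hS
  have hmemφ : ∀ x, φ x ∈ F := fun x => Subfield.subset_closure (Or.inl (Or.inl ⟨x, rfl⟩))
  have hmemw : ∀ u, w u ∈ F := fun u => Subfield.subset_closure (Or.inl (Or.inr ⟨u, rfl⟩))
  have hmemτ : ∀ u, τ u ∈ F := fun u => Subfield.subset_closure (Or.inr ⟨u, rfl⟩)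
  let τF : integralClosure ℤ ℂ →+* F := τ.codRestrict F hmemτ
  let _ : Algebra (integralClosure ℤ ℂ) F := τF.toAlgebra
  have hfaith : FaithfulSMul (integralClosure ℤ ℂ) F := by
    rw [faithfulSMul_iff_algebraMap_injective]
    intro x y hxy
    exact tau_injective τ (congrArg Subtype.val (hxy : τF x = τF y))
  have hfaith2 : FaithfulSMul (integralClosure ℤ ℂ) ℂ := by
    rw [faithfulSMul_iff_algebraMap_injective]
    exact Subtype.val_injective
  obtain ⟨j0⟩ := exists_embedding_complex_rel (integralClosure ℤ ℂ) F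
  let j : F →+* ℂ := j0.toRingHom
  have hjτ : ∀ (x : integralClosure ℤ ℂ), j (τF x) = (x : ℂ) := fun x => j0.commutes x
  let i : F →+* K := F.subtype
  let φ0 : HM (GamH N' H) F := AddMonoidHom.mk' (fun x => ⟨φ x, hmemφ x⟩) fun x y =>
    Subtype.ext (map_add φ x y)
  let w0 : MulChar (ZMod Q) F :=
    { toFun := fun u => ⟨w u, hmemw u⟩
      map_one' := Subtype.ext (map_one w)
      map_mul' := fun x y => Subtype.ext (map_mul w x y)
      map_nonunit' := fun u hu => Subtype.ext (w.map_nonunit hu) }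
  have hφi : i.toAddMonoidHom.comp φ0 = φ := AddMonoidHom.ext fun _ => rfl
  have hwi : w0.ringHomComp i = w := MulChar.ext fun _ => rfl
  have hw0 : NT Q w0 := (NT_map i).mp (by rw [hwi]; exact hw)
  have hφ0' : φ0 ∈ psiPart N' Q H w0 := (mem_psiPart_map i).mp (by rw [hwi, hφi]; exact hφ)
  have hx0' : φ0 x0 ≠ 0 := fun h => hx0 (congrArg Subtype.val h)
  -- the eigenvalues are in `F`
  let a0 : ℕ → F := fun ℓ => if h : ℓ = 0 then 0 else
    haveI : NeZero ℓ := ⟨h⟩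
    TH F N' H F ℓ φ0 x0 / φ0 x0
  have ha0 : ∀ (ℓ : ℕ) [NeZero ℓ], ℓ.Prime → ¬ ℓ ∣ N' → ¬ ℓ ∣ D →
      i (a0 ℓ) = a ℓ ∧ TH F N' H F ℓ φ0 = a0 ℓ • φ0 := by
    intro ℓ _ hℓ hℓN hℓD
    have h1 := hT ℓ hℓ hℓN hℓD
    have h2 : TH K N' H K ℓ φ = i.toAddMonoidHom.comp (TH F N' H F ℓ φ0) := by
      rw [← hφi, TH_map (R := F) i.toAddMonoidHom ℓ φ0]
    have h3 : i (TH F N' H F ℓ φ0 x0) = a ℓ * φ x0 := by
      have := DFunLike.congr_fun (h2.symm.trans h1) x0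
      exact this
    have h4 : i (a0 ℓ) = a ℓ := by
      have h5 : a0 ℓ = TH F N' H F ℓ φ0 x0 / φ0 x0 := dif_neg hℓ.ne_zero
      rw [h5, map_div₀, h3]
      exact mul_div_cancel_right₀ _ hx0
    refine ⟨h4, (TH_eig_map i ℓ (a0 ℓ)).mp ?_⟩
    rw [hφi, h4]
    exact h1
  have hφj0 : j.toAddMonoidHom.comp φ0 ≠ 0 := fun h => hx0' (j.injective (by
    rw [map_zero]; exact DFunLike.congr_fun h x0))
  -- the relation over `F` and over `ℂ`
  have hUF : Up t (Up t (germ F φ0)) = w0 ((t : ℕ) : ZMod Q) ^ 2 • germ F φ0 := by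
    apply mapG_injective i
    rw [mapG_Up, mapG_Up, mapG_germ, hφi, hU, LinearMap.map_smulₛₗ, mapG_germ, hφi, map_pow]
    rfl
  have hUC : Up t (Up t (germ ℂ (j.toAddMonoidHom.comp φ0))) =
      (w0.ringHomComp j) ((t : ℕ) : ZMod Q) ^ 2 • germ ℂ (j.toAddMonoidHom.comp φ0) := by
    have h1 := congrArg (mapG j) hUF
    rw [mapG_Up, mapG_Up, mapG_germ, LinearMap.map_smulₛₗ, mapG_germ, map_pow] at h1
    exact h1
  refine old_complex hN' hN hsq hcop hNt htP hQP (w := w0.ringHomComp j) ((NT_map j).mpr hw0)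
    hφj0 ((mem_psiPart_map j).mpr hφ0') hD (a := fun ℓ => j (a0 ℓ))
    (fun ℓ _ hℓ hℓN hℓD => (TH_eig_map j ℓ (a0 ℓ)).mpr (ha0 ℓ hℓ hℓN hℓD).2) ?_ hg hN0 ?_ hgt hUC
  · obtain ⟨ℓ, hℓ, hℓ1, hℓD, hne⟩ := hE
    have : NeZero ℓ := ⟨hℓ.ne_zero⟩
    have hℓN : ¬ ℓ ∣ N' := fun hh => by
      have h1 : (ℓ : ℤ) ∣ (ℓ : ℤ) - 1 :=
        (Int.natCast_dvd_natCast.mpr (hh.mul_right P)).trans hℓ1
      have h2 : (ℓ : ℤ) ∣ 1 := by
        have := dvd_sub (dvd_refl (ℓ : ℤ)) h1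
        simpa using this
      have h3 : ℓ ∣ 1 := by exact_mod_cast h2
      exact hℓ.one_lt.ne' (Nat.dvd_one.mp h3)
    refine ⟨ℓ, hℓ, hℓ1, hℓD, fun h => hne ?_⟩
    rw [← (ha0 ℓ hℓ hℓN hℓD).1]
    have h5 : a0 ℓ = (ℓ : F) + 1 := j.injective (by rw [h]; simp)
    rw [h5]
    simp
  · intro ℓ hℓ hℓN hℓD
    have : NeZero ℓ := ⟨hℓ.ne_zero⟩
    obtain ⟨x, hx1, hx2⟩ := hgl ℓ hℓ hℓN hℓD
    rw [← hx1, ← hjτ x]
    have h1 : τF x = w0 ((ℓ : ℕ) : ZMod Q) * a0 ℓ := by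
      apply i.injective
      rw [map_mul, (ha0 ℓ hℓ hℓN hℓD).1]
      exact hx2
    rw [h1, map_mul]
    rfl

end Fermat.Agent.H22
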