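import Fermat.Agent.H22.OldTrace

/-!
# Eigenclasses of level `N t`: descent to level `N`, or `U_t ^ 2` is a scalar
-/

set_option autoImplicit false

noncomputable section

namespace Fermat.Agent.H22

open Matrix.SpecialLinearGroup CongruenceSubgroup
open Fermat.Agent.TC
open scoped MatrixGroups

section Low

variable {K : Type*} [Field K]

theorem germ_TH {N Q : ℕ} [NeZero N] (hQN : Q ∣ N) {H : Subgroup (ZMod N)ˣ}
    {w : MulChar (ZMod Q) K} {φ : HM (GamH N H) K} (hφ : φ ∈ psiPart N Q H w) {ℓ : ℕ}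
    [hℓ : Fact ℓ.Prime] [NeZero ℓ] (hℓN : ¬ ℓ ∣ N) :
    germ K (TH K N H K ℓ φ) = Sl ℓ (w ((ℓ : ℕ) : ZMod Q) ^ 2)⁻¹ (germ K φ) := by
  have hℓN' : Nat.Coprime N ℓ := ((Nat.Prime.coprime_iff_not_dvd hℓ.out).mpr hℓN).symm
  obtain ⟨z, hz, hz0, hz1⟩ := exists_zreps (ℓ := ℓ) N hℓN'
  exact germ_hecke (K := K) (χ := fun d => w (d : ZMod Q) ^ 2) (Nat.pos_of_ne_zero (NeZero.ne _))
    (Gamma_le_GamH N H) dvd_rfl hz hz0 hz1
    (rep_TH (R := K) (A := K) (zreps_isReps (Gamma_le_GamH N H) GamH_le_Gamma0 hℓN' hz hz0 hz1)) φ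
    (SI_of_psiPart hφ) (e := (w ((ℓ : ℕ) : ZMod Q) ^ 2)⁻¹) (fun x hx => mulChar_sq_eq hQN w x hx)

theorem IsH.Up {v : HG K} (hv : IsH v) (t : ℕ) [NeZero t] : IsH (H22.Up t v) :=
  IsH.sum _ fun _ _ => hv.act _

theorem sq_congr {N Q : ℕ} (hQN : Q ∣ N) (w : MulChar (ZMod Q) K) (d d' : ℤ)
    (h : (N : ℤ) ∣ d - d') : w (d : ZMod Q) ^ 2 = w (d' : ZMod Q) ^ 2 := by
  have h1 : (d : ZMod Q) = (d' : ZMod Q) := by
    rw [eq_comm, ZMod.intCast_eq_intCast_iff_dvd_sub]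
    exact (Int.natCast_dvd_natCast.mpr hQN).trans h
  rw [h1]

variable [CharZero K]

theorem SI.exists_low {N N' t Q : ℕ} [NeZero N] [NeZero N'] [ht : Fact t.Prime] [NeZero t]
    (hN' : N' = N * t) (hNt : Nat.Coprime N t) (hNN : N ∣ N') (hQN : Q ∣ N)
    {H : Subgroup (ZMod N')ˣ} {w : MulChar (ZMod Q) K}
    (hw : ∀ (d : ℤ) (u : (ZMod N')ˣ), u ∈ H → (u : ZMod N') = (d : ZMod N') →
      w (d : ZMod Q) ^ 2 = 1)
    {z : SL(2, ℤ)} (hz : z ∈ Gamma N) (hz1 : (t : ℤ) ∣ z 1 1) {v : HG K}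
    (hv : SI N' (fun d => w (d : ZMod Q) ^ 2) v) (hvH : IsH v) :
    ∃ φ1 : HM (GamH N (H.map (ZMod.unitsMap hNN))) K,
      germ K φ1 = v + H22.Up t (H22.act K (H22.Wt t z) v) ∧
      φ1 ∈ psiPart N Q (H.map (ZMod.unitsMap hNN)) w ∧
      ∀ (ℓ : ℕ) [NeZero ℓ] (a : K), ℓ.Prime → ¬ ℓ ∣ N' →
        H22.Sl ℓ (w ((ℓ : ℕ) : ZMod Q) ^ 2)⁻¹ v = a • v →
        TH K N (H.map (ZMod.unitsMap hNN)) K ℓ φ1 = a • φ1 := by
  subst hN'
  have hχ : ∀ d d' : ℤ, (N : ℤ) ∣ d - d' → (fun d : ℤ => w (d : ZMod Q) ^ 2) d =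
    (fun d : ℤ => w (d : ZMod Q) ^ 2) d' := sq_congr hQN w
  have hχ1 : (fun d : ℤ => w (d : ZMod Q) ^ 2) 1 = 1 := by simp
  -- representatives
  obtain ⟨x, hx, hx0, hx1⟩ := exists_zreps (ℓ := t) N hNt
  have hxr := zreps_isReps (Gamma_le_Gamma0 N) le_rfl hNt hx hx0 hx1
  have hxt : (t : ℤ) ∣ x (some 0) 1 1 := by
    rw [← ZMod.intCast_zmod_eq_zero_iff_dvd]
    exact (hx1 0).2
  have hWW : H22.act K (H22.Wt t z) v = H22.act K (H22.Wt t (x (some 0))) v :=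
    act_Wt_congr hNt hz (hx _) hz1 hxt hχ hχ1 hv
  obtain ⟨T, hT⟩ : ∃ T, T = v + H22.Up t (H22.act K (H22.Wt t z) v) := ⟨_, rfl⟩
  have hTtr : T = ∑ j, H22.act K (emb (x j)) v := by
    rw [hT, hWW, trace_eq hNt hx hx0 hx1 hχ hχ1 hv]
  have hTSI : SI N (fun d => w (d : ZMod Q) ^ 2) T := by
    rw [hTtr]
    exact SI.trace hxr hx hχ hv
  have hTH : IsH T := by
    rw [hT]
    exact hvH.add ((hvH.act _).Up t)
  obtain ⟨φ1, hφ1⟩ := hTH.descend (isCong_GamH N (H.map (ZMod.unitsMap hNN))) (by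
    intro γ hγ
    obtain ⟨h1, u1, hu1, hu2⟩ := mem_GamH'.mp hγ
    obtain ⟨u, hu, rfl⟩ := Subgroup.mem_map.mp hu1
    have h7 := hTSI γ (GamH_le_Gamma0 hγ)
    have h2 : (u : ZMod (N * t)) = (((u : ZMod (N * t)).val : ℤ) : ZMod (N * t)) := by
      push_cast
      simp
    have h3 := hw _ u hu h2
    have h4 : ((((u : ZMod (N * t)).val : ℤ)) : ZMod N) = ((γ 1 1 : ℤ) : ZMod N) := by
      rw [← hu2, ZMod.unitsMap_val]
      push_cast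
      simp
    have h5 := sq_congr hQN w (((u : ZMod (N * t)).val : ℤ)) (γ 1 1) (by
      rw [eq_comm, ZMod.intCast_eq_intCast_iff_dvd_sub] at h4
      exact h4)
    refine h7.trans ?_
    change w ((γ 1 1 : ℤ) : ZMod Q) ^ 2 • T = T
    rw [← h5, h3, one_smul])
  have hpsi : φ1 ∈ psiPart N Q (H.map (ZMod.unitsMap hNN)) w := by
    rw [mem_psiPart]
    intro g
    apply germ_injective
    rw [germ_dia, hφ1, hTSI _ g.2, map_smul, hφ1]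
  refine ⟨φ1, hφ1.trans hT, hpsi, fun ℓ _ a hℓ hℓN hva => ?_⟩
  have : Fact ℓ.Prime := ⟨hℓ⟩
  have hℓN1 : ¬ ℓ ∣ N := fun h => hℓN (h.mul_right t)
  have hcop : Nat.Coprime (N * t) ℓ := ((Nat.Prime.coprime_iff_not_dvd hℓ).mpr hℓN).symm
  have hNℓ : Nat.Coprime N ℓ := Nat.Coprime.coprime_mul_right hcop
  have htℓ : Nat.Coprime t ℓ := Nat.Coprime.coprime_mul_left hcop
  apply germ_injective
  rw [germ_TH hQN hpsi hℓN1, map_smul, hφ1, hT, Sl_add]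
  have hTI : TI (H22.act K (H22.Wt t z) v) := (hv.Wt hNt hz hz1 hχ).toTI hχ1
  rw [hTI.Sl_Up htℓ.symm, hv.Sl_Wt hNt hNℓ htℓ hz hz1 hχ hχ1
    (fun y hy => mulChar_sq_eq hQN w y hy), hva, map_smul, Up_smul, smul_add]

/-- **Descent to level `N`, or `U_t ^ 2` is a scalar.** -/
theorem exists_low_or {N N' t Q : ℕ} [NeZero N] [NeZero N'] [ht : Fact t.Prime] [NeZero t]
    (hN' : N' = N * t) (hNt : Nat.Coprime N t) (hNN : N ∣ N') (hQN : Q ∣ N)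
    {H : Subgroup (ZMod N')ˣ} {w : MulChar (ZMod Q) K} {φ : HM (GamH N' H) K} (hφ0 : φ ≠ 0)
    (hφ : φ ∈ psiPart N' Q H w) :
    (∃ φ1 : HM (GamH N (H.map (ZMod.unitsMap hNN))) K, φ1 ≠ 0 ∧
      φ1 ∈ psiPart N Q (H.map (ZMod.unitsMap hNN)) w ∧
      ∀ (ℓ : ℕ) [NeZero ℓ] (a : K), ℓ.Prime → ¬ ℓ ∣ N' → TH K N' H K ℓ φ = a • φ →
        TH K N (H.map (ZMod.unitsMap hNN)) K ℓ φ1 = a • φ1) ∨
    Up t (Up t (germ K φ)) = w ((t : ℕ) : ZMod Q) ^ 2 • germ K φ := by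
  classical
  have hQN' : Q ∣ N' := hQN.trans hNN
  have hw : ∀ (d : ℤ) (u : (ZMod N')ˣ), u ∈ H → (u : ZMod N') = (d : ZMod N') →
      w (d : ZMod Q) ^ 2 = 1 := by
    intro d u hu hud
    obtain ⟨g0, hg, _, hd⟩ := exists_dChar_eq N' 1 u
    have h1 := hφ ⟨g0, hg⟩
    rw [dia_of_mem _ (by rw [hd]; exact hu)] at h1
    have h2 : (1 - w (((g0 : SL(2, ℤ)) 1 1 : ℤ) : ZMod Q) ^ 2) • φ = 0 := by
      rw [sub_smul, one_smul, ← h1]
      exact sub_self _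
    have h3 := (smul_eq_zero.mp h2).resolve_right hφ0
    have h4 : ((g0 1 1 : ℤ) : ZMod N') = (d : ZMod N') := by
      rw [← hud, ← hd]
      rfl
    rw [eq_comm, ZMod.intCast_eq_intCast_iff_dvd_sub] at h4
    rw [← sq_congr hQN' w _ _ h4]
    exact (sub_eq_zero.mp h3).symm
  have hv : SI N' (fun d => w (d : ZMod Q) ^ 2) (germ K φ) := SI_of_psiPart hφ
  have hvH : IsH (germ K φ) := IsH.of_germ (isCong_GamH N' H) φ
  have hχ : ∀ d d' : ℤ, (N : ℤ) ∣ d - d' → (fun d : ℤ => w (d : ZMod Q) ^ 2) d =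
    (fun d : ℤ => w (d : ZMod Q) ^ 2) d' := sq_congr hQN w
  have hχ1 : (fun d : ℤ => w (d : ZMod Q) ^ 2) 1 = 1 := by simp
  obtain ⟨x, hx, hx0, hx1⟩ := exists_zreps (ℓ := t) N hNt
  obtain ⟨z, hz⟩ : ∃ z, z = x (some 0) := ⟨_, rfl⟩
  have hzN : z ∈ Gamma N := by rw [hz]; exact hx _
  have hzt : (t : ℤ) ∣ z 1 1 := by
    rw [← ZMod.intCast_zmod_eq_zero_iff_dvd, hz]
    exact (hx1 0).2
  have hv' : SI N' (fun d => w (d : ZMod Q) ^ 2) (act K (Wt t z) (germ K φ)) := by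
    subst hN'
    exact hv.Wt hNt hzN hzt hχ
  obtain ⟨φ1, h1, h2, h3⟩ := hv.exists_low hN' hNt hNN hQN hw hzN hzt hvH
  obtain ⟨φ2, k1, k2, k3⟩ := hv'.exists_low hN' hNt hNN hQN hw hzN hzt (hvH.act _)
  have hSl : ∀ (ℓ : ℕ) [NeZero ℓ] (a : K), ℓ.Prime → ¬ ℓ ∣ N' → TH K N' H K ℓ φ = a • φ →
      Sl ℓ (w ((ℓ : ℕ) : ZMod Q) ^ 2)⁻¹ (germ K φ) = a • germ K φ := by
    intro ℓ _ a hℓ hℓN ha
    have : Fact ℓ.Prime := ⟨hℓ⟩
    rw [← germ_TH hQN' hφ hℓN, ha, map_smul]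
  by_cases hφ1 : φ1 = 0
  · by_cases hφ2 : φ2 = 0
    · right
      rw [hφ1, map_zero] at h1
      rw [hφ2, map_zero] at k1
      have hu : IsUnit ((t : ℕ) : ZMod Q) := (ZMod.isUnit_iff_coprime t Q).mpr
        (Nat.Coprime.coprime_dvd_right hQN hNt.symm)
      have hne : w ((t : ℕ) : ZMod Q) ≠ 0 := (hu.map w).ne_zero
      obtain ⟨y, hy⟩ : ∃ y : ℤ, (N : ℤ) ∣ t * y - 1 := by
        obtain ⟨a, b, hab⟩ := Nat.isCoprime_iff_coprime.mpr hNt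
        exact ⟨b, -a, by linear_combination hab⟩
      have hWW : act K (Wt t z) (act K (Wt t z) (germ K φ)) =
          (w ((t : ℕ) : ZMod Q) ^ 2)⁻¹ • germ K φ := by
        rw [← mulChar_sq_eq hQN w y hy]
        subst hN'
        exact act_Wt_Wt hNt hzN hzt hχ hv hy
      rw [hWW, Up_smul] at k1
      have h5 : act K (Wt t z) (germ K φ) = -((w ((t : ℕ) : ZMod Q) ^ 2)⁻¹ • Up t (germ K φ)) :=
        eq_neg_of_add_eq_zero_left k1.symm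
      rw [h5, ← neg_smul, Up_smul, neg_smul] at h1
      have h6 : germ K φ = (w ((t : ℕ) : ZMod Q) ^ 2)⁻¹ • Up t (Up t (germ K φ)) :=
        (add_neg_eq_zero.mp h1.symm)
      have h7 := congrArg (fun v => w ((t : ℕ) : ZMod Q) ^ 2 • v) h6
      simp only [smul_smul] at h7
      rw [mul_inv_cancel₀ (pow_ne_zero 2 hne), one_smul] at h7
      exact h7.symm
    · left
      refine ⟨φ2, hφ2, k2, fun ℓ _ a hℓ hℓN ha => k3 ℓ a hℓ hℓN ?_⟩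
      have : Fact ℓ.Prime := ⟨hℓ⟩
      have hcop : Nat.Coprime (N * t) ℓ := by
        rw [← hN']
        exact ((Nat.Prime.coprime_iff_not_dvd hℓ).mpr hℓN).symm
      have hNℓ : Nat.Coprime N ℓ := Nat.Coprime.coprime_mul_right hcop
      have htℓ : Nat.Coprime t ℓ := Nat.Coprime.coprime_mul_left hcop
      subst hN'
      rw [hv.Sl_Wt hNt hNℓ htℓ hzN hzt hχ hχ1 (fun y hy => mulChar_sq_eq hQN w y hy),
        hSl ℓ a hℓ hℓN ha, map_smul]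
  · left
    exact ⟨φ1, hφ1, h2, fun ℓ _ a hℓ hℓN ha => h3 ℓ a hℓ hℓN (hSl ℓ a hℓ hℓN ha)⟩

end Low

end Fermat.Agent.H22
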