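import Fermat.Agent.H22.StarG

/-!
# Traces of germs from level `N t` to level `N`
-/

set_option autoImplicit false

noncomputable section

namespace Fermat.Agent.H22

open Matrix.SpecialLinearGroup CongruenceSubgroup
open Fermat.Agent.TC
open scoped MatrixGroups

section Comm

variable {K : Type*} [CommRing K]

theorem Up_add (t : ℕ) [NeZero t] (v v' : HG K) : Up t (v + v') = Up t v + Up t v' := by
  unfold Up
  rw [← Finset.sum_add_distrib]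
  exact Finset.sum_congr rfl fun i _ => map_add _ _ _

theorem Up_smul (t : ℕ) [NeZero t] (c : K) (v : HG K) : Up t (c • v) = c • Up t v := by
  unfold Up
  rw [Finset.smul_sum]
  exact Finset.sum_congr rfl fun i _ => map_smul _ _ _

/-- `Up t` commutes with `diag(ℓ, 1)` on translation invariant germs. -/
theorem TI.Up_del {v : HG K} (h : TI v) {t ℓ : ℕ} [NeZero t] [NeZero ℓ] (hc : Nat.Coprime ℓ t) :
    act K (del ℓ) (Up t v) = Up t (act K (del ℓ) v) := by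
  have hu : IsUnit ((ℓ : ℕ) : ZMod t) := (ZMod.isUnit_iff_coprime ℓ t).mpr hc
  unfold Up
  rw [map_sum, ← Function.Bijective.sum_comp (hu.unit.mulLeft_bijective)
    (fun i => act K (del ℓ) (act K (hm t i.val) v))]
  refine Finset.sum_congr rfl fun i _ => ?_
  have h1 : act K (hm t (((hu.unit : ZMod t) * i).val : ℤ)) v =
      act K (hm t ((ℓ : ℤ) * (i.val : ℤ))) v := by
    apply h.hm_congr
    push_cast
    simp
  rw [h1, ← act_mul, ← act_mul]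
  congr 2
  apply Units.ext
  rw [Units.val_mul, Units.val_mul, hm_val, hm_val, del_val, Matrix.mul_fin_two,
    Matrix.mul_fin_two]
  push_cast
  simp

theorem sum_range_zmod' {t : ℕ} [NeZero t] {M : Type*} [AddCommMonoid M] (f : ℕ → M) :
    ∑ i ∈ Finset.range t, f i = ∑ i : ZMod t, f i.val := by
  symm
  refine Finset.sum_bij' (fun i _ => i.val) (fun i _ => (i : ZMod t)) ?_ ?_ ?_ ?_ ?_
  · exact fun i _ => Finset.mem_range.mpr (ZMod.val_lt i)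
  · exact fun i _ => Finset.mem_univ _
  · exact fun i _ => ZMod.natCast_zmod_val i
  · exact fun i hi => ZMod.val_natCast_of_lt (Finset.mem_range.mp hi)
  · intro i _
    rfl

theorem Up_Up (t ℓ : ℕ) [NeZero t] [NeZero ℓ] [NeZero (ℓ * t)] (v : HG K) :
    Up t (Up ℓ v) = Up (ℓ * t) v := by
  have e1 : ∀ (m : ℕ) [NeZero m] (u : HG K), Up m u = ∑ i : Fin m, act K (hm m (i : ℕ)) u := by
    intro m _ u
    unfold Up
    rw [← sum_range_zmod' (fun i => act K (hm m (i : ℤ)) u), Finset.sum_range]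
  rw [e1, e1 (ℓ * t), ← finProdFinEquiv.sum_comp, Fintype.sum_prod_type, Finset.sum_comm]
  refine Finset.sum_congr rfl fun i _ => ?_
  rw [e1, map_sum]
  refine Finset.sum_congr rfl fun j _ => ?_
  rw [← act_mul]
  congr 2
  apply Units.ext
  rw [Units.val_mul, hm_val, hm_val, hm_val, Matrix.mul_fin_two]
  simp [finProdFinEquiv]
  ring

theorem Up_comm (t ℓ : ℕ) [NeZero t] [NeZero ℓ] (v : HG K) :
    Up t (Up ℓ v) = Up ℓ (Up t v) := by
  have : NeZero (ℓ * t) := ⟨mul_ne_zero (NeZero.ne ℓ) (NeZero.ne t)⟩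
  have : NeZero (t * ℓ) := ⟨mul_ne_zero (NeZero.ne t) (NeZero.ne ℓ)⟩
  rw [Up_Up, Up_Up]
  have e : ∀ m n : ℕ, m = n → ∀ [NeZero m] [NeZero n], Up m v = Up n v := by
    rintro m n rfl _ _
    rfl
  exact e _ _ (mul_comm _ _)

end Comm

section Gamma

theorem entry_eq_of_Gamma {N : ℕ} {x y : SL(2, ℤ)} (hx : x ∈ Gamma N) (hy : y ∈ Gamma N)
    (g : SL(2, ℤ)) (i j : Fin 2) :
    (((x * g * y) i j : ℤ) : ZMod N) = ((g i j : ℤ) : ZMod N) := by
  have h1 : Matrix.SpecialLinearGroup.map (Int.castRingHom (ZMod N)) (x * g * y) =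
      Matrix.SpecialLinearGroup.map (Int.castRingHom (ZMod N)) g := by
    have hx' : Matrix.SpecialLinearGroup.map (Int.castRingHom (ZMod N)) x = 1 := hx
    have hy' : Matrix.SpecialLinearGroup.map (Int.castRingHom (ZMod N)) y = 1 := hy
    rw [map_mul, map_mul, hx', hy', one_mul, mul_one]
  exact congrArg (fun m : SL(2, ZMod N) => m i j) h1

theorem dvd_sub_of_Gamma {N : ℕ} {x y : SL(2, ℤ)} (hx : x ∈ Gamma N) (hy : y ∈ Gamma N)
    (g : SL(2, ℤ)) : (N : ℤ) ∣ (x * g * y) 1 1 - g 1 1 := by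
  have h := entry_eq_of_Gamma hx hy g 1 1
  rw [eq_comm, ZMod.intCast_eq_intCast_iff_dvd_sub] at h
  exact h

theorem Gamma_11 {N : ℕ} {x : SL(2, ℤ)} (hx : x ∈ Gamma N) : (N : ℤ) ∣ x 1 1 - 1 := by
  rw [Gamma_mem] at hx
  rw [← ZMod.intCast_zmod_eq_zero_iff_dvd]
  push_cast
  rw [hx.2.2.2, sub_self]

theorem Gamma_00 {N : ℕ} {x : SL(2, ℤ)} (hx : x ∈ Gamma N) : (N : ℤ) ∣ x 0 0 - 1 := by
  rw [Gamma_mem] at hx
  rw [← ZMod.intCast_zmod_eq_zero_iff_dvd]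
  push_cast
  rw [hx.1, sub_self]

theorem Gamma_01 {N : ℕ} {x : SL(2, ℤ)} (hx : x ∈ Gamma N) : (N : ℤ) ∣ x 0 1 := by
  rw [Gamma_mem] at hx
  exact (ZMod.intCast_zmod_eq_zero_iff_dvd _ _).mp hx.2.1

theorem Gamma_10 {N : ℕ} {x : SL(2, ℤ)} (hx : x ∈ Gamma N) : (N : ℤ) ∣ x 1 0 := by
  rw [Gamma_mem] at hx
  exact (ZMod.intCast_zmod_eq_zero_iff_dvd _ _).mp hx.2.2.1

theorem mem_Gamma_of {N : ℕ} {x : SL(2, ℤ)} (h00 : (N : ℤ) ∣ x 0 0 - 1) (h01 : (N : ℤ) ∣ x 0 1)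
    (h10 : (N : ℤ) ∣ x 1 0) (h11 : (N : ℤ) ∣ x 1 1 - 1) : x ∈ Gamma N := by
  rw [Gamma_mem]
  rw [← ZMod.intCast_zmod_eq_zero_iff_dvd] at h00 h01 h10 h11
  push_cast at h00 h11
  exact ⟨sub_eq_zero.mp h00, h01, h10, sub_eq_zero.mp h11⟩

theorem mem_Gamma0_mul {N t : ℕ} (hc : Nat.Coprime N t) {x : SL(2, ℤ)} (h1 : (N : ℤ) ∣ x 1 0)
    (h2 : (t : ℤ) ∣ x 1 0) : x ∈ Gamma0 (N * t) := by
  rw [Gamma0_mem, ZMod.intCast_zmod_eq_zero_iff_dvd]
  push_cast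
  exact IsCoprime.mul_dvd (Nat.isCoprime_iff_coprime.mpr hc) h1 h2

end Gamma

section Trace

variable {K : Type*} [CommRing K]

/-- The trace of a semi-invariant germ. -/
theorem SI.trace {N N' : ℕ} {J : Type*} [Fintype J] {z : J → SL(2, ℤ)}
    (hz : IsReps (Gamma0 N) N' z) (hzL : ∀ j, z j ∈ Gamma N) {χ : ℤ → K}
    (hχ : ∀ d d' : ℤ, (N : ℤ) ∣ d - d' → χ d = χ d') {v : HG K} (hv : SI N' χ v) :
    SI N χ (∑ j, act K (emb (z j)) v) := by
  intro γ hγ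
  rw [map_sum, Finset.smul_sum]
  have h1 : ∀ j, ∃ k, z j * γ * (z k)⁻¹ ∈ Gamma0 N' := fun j =>
    (hz.uniq (z j * γ) ((Gamma0 N).mul_mem (hz.mem j) hγ)).exists
  choose f hf using h1
  have finj : Function.Injective f := by
    intro i j hij
    apply hz.eq_of
    have h1 := (Gamma0 N').mul_mem (hf i) ((Gamma0 N').inv_mem (hf j))
    rw [hij] at h1
    have h2 : z i * γ * (z (f j))⁻¹ * (z j * γ * (z (f j))⁻¹)⁻¹ = z i * (z j)⁻¹ := by group
    rw [h2] at h1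
    exact h1
  rw [← (Finite.injective_iff_bijective.mp finj).sum_comp (fun k => χ (γ 1 1) • act K (emb (z k)) v)]
  refine Finset.sum_congr rfl fun j _ => ?_
  rw [← act_mul, ← map_mul]
  have h2 : z j * γ = (z j * γ * (z (f j))⁻¹) * z (f j) := by group
  rw [h2, map_mul, act_mul, hv _ (hf j), map_smul]
  congr 1
  exact hχ _ _ (dvd_sub_of_Gamma (hzL j) ((Gamma N).inv_mem (hzL (f j))) γ)

variable {t : ℕ}

/-- The matrix of the operator `W_t`. -/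
def Wt (t : ℕ) [NeZero t] (z : SL(2, ℤ)) : GG := emb z * del t

theorem del_mul_hm [NeZero t] (i : ℤ) (v : HG K) :
    act K (del t * hm t i) v = act K (emb (sl 1 i 0 1 (by ring))) v := by
  have ht0 : (t : ℚ) ≠ 0 := by exact_mod_cast NeZero.ne t
  let c : GG := Matrix.GeneralLinearGroup.mkOfDetNeZero !![(t : ℚ), 0; 0, (t : ℚ)] (by
    simp [NeZero.ne t])
  have hc : ∀ x : GG, c * x = x * c := by
    intro x
    apply Units.ext
    rw [Units.val_mul, Units.val_mul]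
    have : c.val = (t : ℚ) • (1 : Matrix (Fin 2) (Fin 2) ℚ) := by
      change !![(t : ℚ), 0; 0, (t : ℚ)] = _
      rw [Matrix.one_fin_two]
      simp
    rw [this]
    simp
  have h1 : del t * hm t i = c * emb (sl 1 i 0 1 (by ring)) := by
    apply Units.ext
    rw [Units.val_mul, Units.val_mul, del_val, hm_val, emb_sl]
    change _ = !![(t : ℚ), 0; 0, (t : ℚ)] * _
    rw [Matrix.mul_fin_two, Matrix.mul_fin_two]
    simp
  rw [h1, act_mul, act_central hc]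

/-- The trace in terms of the operators `U_t` and `W_t`. -/
theorem trace_eq [NeZero t] {N : ℕ} (hc : Nat.Coprime N t) {z : Option (ZMod t) → SL(2, ℤ)}
    (hz : ∀ j, z j ∈ Gamma N) (hz0 : z none = 1)
    (hz1 : ∀ i : ZMod t, ((z (some i) 1 0 : ℤ) : ZMod t) = 1 ∧ ((z (some i) 1 1 : ℤ) : ZMod t) = i)
    {χ : ℤ → K} (hχ : ∀ d d' : ℤ, (N : ℤ) ∣ d - d' → χ d = χ d') (hχ1 : χ 1 = 1) {v : HG K}
    (hv : SI (N * t) χ v) :
    ∑ j, act K (emb (z j)) v = v + Up t (act K (Wt t (z (some 0))) v) := by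
  rw [Fintype.sum_option, hz0, map_one, act_one]
  congr 1
  unfold Up
  refine Finset.sum_congr rfl fun i _ => ?_
  rw [← act_mul, Wt, mul_assoc, act_mul, del_mul_hm, ← act_mul, ← map_mul]
  obtain ⟨y, hy⟩ : ∃ y, y = sl 1 (i.val : ℤ) 0 1 (by ring) := ⟨_, rfl⟩
  rw [← hy]
  have hy10 : y 1 0 = 0 := by rw [hy]; rfl
  have hy11 : y 1 1 = 1 := by rw [hy]; rfl
  have hy01 : y 0 1 = i.val := by rw [hy]; rfl
  have h2 : z (some 0) * y = (z (some 0) * y * (z (some i))⁻¹) * z (some i) := by group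
  have hmem : z (some 0) * y * (z (some i))⁻¹ ∈ Gamma0 (N * t) := by
    apply mem_Gamma0_mul hc
    · have h3 := entry_eq_of_Gamma (hz (some 0)) ((Gamma N).inv_mem (hz (some i))) y 1 0
      rw [hy10, Int.cast_zero] at h3
      exact (ZMod.intCast_zmod_eq_zero_iff_dvd _ _).mp h3
    · rw [mul_inv_10, AL.mul_10, AL.mul_11, hy10, hy11, hy01, ← ZMod.intCast_zmod_eq_zero_iff_dvd]
      have hy00 : y 0 0 = 1 := by rw [hy]; rfl
      push_cast
      rw [hy00, (hz1 0).1, (hz1 0).2, (hz1 i).1, (hz1 i).2]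
      simp
  rw [h2, map_mul, act_mul, hv _ hmem, map_smul]
  have h3 : χ ((z (some 0) * y * (z (some i))⁻¹) 1 1) = 1 := by
    rw [hχ _ 1 _, hχ1]
    have := dvd_sub_of_Gamma (hz (some 0)) ((Gamma N).inv_mem (hz (some i))) y
    rwa [hy11] at this
  rw [h3, one_smul]

theorem Wt_emb [NeZero t] (z γ : SL(2, ℤ)) (h : (t : ℤ) ∣ γ 1 0) :
    Wt t z * emb γ = emb (z * degSL t γ h * z⁻¹) * Wt t z := by
  rw [Wt, mul_assoc, del_emb t γ h, map_mul, map_mul, map_inv]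
  group

theorem act_Wt_emb [NeZero t] (z γ : SL(2, ℤ)) (h : (t : ℤ) ∣ γ 1 0) (v : HG K) :
    act K (emb γ) (act K (Wt t z) v) =
      act K (Wt t z) (act K (emb (z * degSL t γ h * z⁻¹)) v) := by
  rw [← act_mul, ← act_mul, Wt_emb z γ h]

theorem SI.Wt [NeZero t] {N : ℕ} (hc : Nat.Coprime N t) {z : SL(2, ℤ)} (hz : z ∈ Gamma N)
    (hz1 : (t : ℤ) ∣ z 1 1) {χ : ℤ → K} (hχ : ∀ d d' : ℤ, (N : ℤ) ∣ d - d' → χ d = χ d')
    {v : HG K} (hv : SI (N * t) χ v) : SI (N * t) χ (act K (H22.Wt t z) v) := by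
  intro γ hγ
  have htγ : (t : ℤ) ∣ γ 1 0 :=
    (Int.natCast_dvd_natCast.mpr (dvd_mul_left t N)).trans (dvd_of_mem_Gamma0' hγ)
  obtain ⟨y, hy⟩ : ∃ y, y = degSL t γ htγ := ⟨_, rfl⟩
  have hy01 : y 0 1 = t * γ 0 1 := by rw [hy]; rfl
  have hy11 : y 1 1 = γ 1 1 := by rw [hy]; rfl
  have hyN : (N : ℤ) ∣ y 1 0 := by
    rw [hy]
    exact dvd_of_mem_Gamma0' (degSL_mem hγ)
  have hmem : z * y * z⁻¹ ∈ Gamma0 (N * t) := by
    apply mem_Gamma0_mul hc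
    · have h3 := entry_eq_of_Gamma hz ((Gamma N).inv_mem hz) y 1 0
      rw [(ZMod.intCast_zmod_eq_zero_iff_dvd _ _).mpr hyN] at h3
      exact (ZMod.intCast_zmod_eq_zero_iff_dvd _ _).mp h3
    · rw [mul_inv_10, AL.mul_11, hy01]
      refine dvd_sub (hz1.mul_left _) (Dvd.dvd.mul_right ?_ _)
      exact dvd_add (Dvd.intro _ (by ring : (t : ℤ) * (z 1 0 * γ 0 1) = z 1 0 * (t * γ 0 1)))
        (hz1.mul_right _)
  rw [act_Wt_emb z γ htγ, ← hy, hv _ hmem, map_smul]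
  congr 1
  have := dvd_sub_of_Gamma hz ((Gamma N).inv_mem hz) y
  rw [hy11] at this
  exact hχ _ _ this

theorem act_Wt_congr [NeZero t] {N : ℕ} (hc : Nat.Coprime N t) {z z' : SL(2, ℤ)}
    (hz : z ∈ Gamma N) (hz' : z' ∈ Gamma N) (hz1 : (t : ℤ) ∣ z 1 1) (hz1' : (t : ℤ) ∣ z' 1 1)
    {χ : ℤ → K} (hχ : ∀ d d' : ℤ, (N : ℤ) ∣ d - d' → χ d = χ d') (hχ1 : χ 1 = 1)
    {v : HG K} (hv : SI (N * t) χ v) : act K (Wt t z) v = act K (Wt t z') v := by
  have h1 : Wt t z = emb (z * 1 * z'⁻¹) * Wt t z' := by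
    rw [Wt, Wt, map_mul, map_mul, map_one, map_inv]
    group
  have hmem : z * 1 * z'⁻¹ ∈ Gamma0 (N * t) := by
    apply mem_Gamma0_mul hc
    · have h3 := entry_eq_of_Gamma hz ((Gamma N).inv_mem hz') 1 1 0
      rw [show (1 : SL(2, ℤ)) 1 0 = 0 from rfl, Int.cast_zero] at h3
      exact (ZMod.intCast_zmod_eq_zero_iff_dvd _ _).mp h3
    · rw [mul_one, mul_inv_10]
      exact dvd_sub (hz1'.mul_left _) (hz1.mul_right _)
  rw [h1, act_mul, hv _ hmem, map_smul]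
  have h3 : χ ((z * 1 * z'⁻¹) 1 1) = 1 := by
    rw [hχ _ 1 _, hχ1]
    exact dvd_sub_of_Gamma hz ((Gamma N).inv_mem hz') 1
  rw [h3, one_smul]

theorem act_Wt_Wt [NeZero t] {N : ℕ} (hc : Nat.Coprime N t) {z : SL(2, ℤ)} (hz : z ∈ Gamma N)
    (hz1 : (t : ℤ) ∣ z 1 1) {χ : ℤ → K} (hχ : ∀ d d' : ℤ, (N : ℤ) ∣ d - d' → χ d = χ d')
    {v : HG K} (hv : SI (N * t) χ v) {x : ℤ} (hx : (N : ℤ) ∣ t * x - 1) :
    act K (Wt t z) (act K (Wt t z) v) = χ x • v := by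
  have ht0 : (t : ℚ) ≠ 0 := by exact_mod_cast NeZero.ne t
  have hN10 := Gamma_10 hz
  have hN11 := Gamma_11 hz
  have hdet := det_eq z
  obtain ⟨a, ha⟩ : ∃ a, a = z 0 0 := ⟨_, rfl⟩
  obtain ⟨b, hb⟩ : ∃ b, b = z 0 1 := ⟨_, rfl⟩
  obtain ⟨c, hcc⟩ : ∃ c, c = z 1 0 := ⟨_, rfl⟩
  obtain ⟨d, hd⟩ : ∃ d, d = z 1 1 := ⟨_, rfl⟩
  rw [← ha, ← hb, ← hcc, ← hd] at hdet
  rw [← hcc] at hN10
  rw [← hd] at hN11 hz1
  obtain ⟨d', hd'⟩ := hz1
  let cc : GG := Matrix.GeneralLinearGroup.mkOfDetNeZero !![(t : ℚ), 0; 0, (t : ℚ)] (by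
    simp [NeZero.ne t])
  have hcen : ∀ x : GG, cc * x = x * cc := by
    intro x
    apply Units.ext
    rw [Units.val_mul, Units.val_mul]
    have : cc.val = (t : ℚ) • (1 : Matrix (Fin 2) (Fin 2) ℚ) := by
      change !![(t : ℚ), 0; 0, (t : ℚ)] = _
      rw [Matrix.one_fin_two]
      simp
    rw [this]
    simp
  let δ : SL(2, ℤ) := sl (t * a ^ 2 + b * c) (b * (a + d')) (t * c * (a + d')) (b * c + t * d' ^ 2)
    (by
      rw [hd'] at hdet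
      linear_combination (t * a * d' - b * c + 1) * hdet)
  have h1 : Wt t z * Wt t z = cc * emb δ := by
    apply Units.ext
    rw [Units.val_mul, Units.val_mul, Wt, Units.val_mul, del_val, emb_val, emb_sl, ← ha, ← hb,
      ← hcc, ← hd, hd']
    change _ = !![(t : ℚ), 0; 0, (t : ℚ)] * _
    rw [Matrix.mul_fin_two, Matrix.mul_fin_two, Matrix.mul_fin_two]
    push_cast
    ext i j
    fin_cases i <;> fin_cases j
    · simp; ring
    · simp; ring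
    · simp; ring
    · simp; ring
  have hδ : δ ∈ Gamma0 (N * t) := by
    apply sl_mem_Gamma0
    obtain ⟨k, hk⟩ := hN10
    exact ⟨k * (a + d'), by rw [hk]; push_cast; ring⟩
  rw [← act_mul, h1, act_mul, act_central hcen, hv δ hδ]
  congr 1
  apply hχ
  change (N : ℤ) ∣ b * c + t * d' ^ 2 - x
  have h2 : (N : ℤ) ∣ t * (b * c + t * d' ^ 2 - x) := by
    have e : (t : ℤ) * (b * c + t * d' ^ 2 - x) =
        (d - 1) * (d + 1) - (t * x - 1) + c * (t * b) := by rw [hd']; ring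
    rw [e]
    exact dvd_add (dvd_sub (hN11.mul_right _) hx) (hN10.mul_right _)
  exact (Nat.isCoprime_iff_coprime.mpr hc).dvd_of_dvd_mul_left h2

end Trace

section Reps

variable {K : Type*} [CommRing K] {ℓ : ℕ} [hℓ : Fact ℓ.Prime]

/-- The Hecke operator on germs. -/
def Sl (ℓ : ℕ) [NeZero ℓ] (e : K) (v : HG K) : HG K := act K (del ℓ) v + e • Up ℓ v

theorem Sl_smul (ℓ : ℕ) [NeZero ℓ] (e : K) (c : K) (v : HG K) :
    Sl ℓ e (c • v) = c • Sl ℓ e v := by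
  unfold Sl
  rw [map_smul, Up_smul, smul_add, smul_comm]

theorem Sl_add (ℓ : ℕ) [NeZero ℓ] (e : K) (v v' : HG K) :
    Sl ℓ e (v + v') = Sl ℓ e v + Sl ℓ e v' := by
  unfold Sl
  rw [map_add, Up_add, smul_add]
  abel

theorem TI.Sl_Up {v : HG K} (h : TI v) {t ℓ : ℕ} [NeZero t] [NeZero ℓ] (hc : Nat.Coprime ℓ t)
    (e : K) : Sl ℓ e (Up t v) = Up t (Sl ℓ e v) := by
  unfold Sl
  rw [h.Up_del hc, Up_add, Up_smul, Up_comm ℓ t]

theorem SI.sum_zreps {N L : ℕ} (hNL : N ∣ L) {z : Option (ZMod ℓ) → SL(2, ℤ)}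
    (hz : ∀ j, z j ∈ Gamma L)
    (hz0 : z none = 1) (hz1 : ∀ i : ZMod ℓ, ((z (some i) 1 0 : ℤ) : ZMod ℓ) = 1 ∧
      ((z (some i) 1 1 : ℤ) : ZMod ℓ) = i) {χ : ℤ → K} {v : HG K} (hv : SI N χ v) {e : K}
    (he : ∀ x : ℤ, (N : ℤ) ∣ ℓ * x - 1 → χ x = e) :
    ∑ j, act K (del ℓ * emb (z j)) v = Sl ℓ e v := by
  rw [Fintype.sum_option]
  unfold Sl
  congr 1
  · rw [hz0, map_one, mul_one]
  · unfold Up
    rw [Finset.smul_sum]
    refine Finset.sum_congr rfl fun i _ => ?_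
    obtain ⟨h2, h3⟩ := hz1 i
    have hm' := hz (some i)
    rw [Gamma_mem] at hm'
    obtain ⟨a, ha⟩ : ∃ a, a = z (some i) 0 0 := ⟨_, rfl⟩
    obtain ⟨b, hb⟩ : ∃ b, b = z (some i) 0 1 := ⟨_, rfl⟩
    obtain ⟨c, hc⟩ : ∃ c, c = z (some i) 1 0 := ⟨_, rfl⟩
    obtain ⟨d, hd⟩ : ∃ d, d = z (some i) 1 1 := ⟨_, rfl⟩
    have hdet := det_eq (z (some i))
    rw [← ha, ← hb, ← hc, ← hd] at hdet
    rw [← hc] at h2
    rw [← hd] at h3
    rw [← ha, ← hb, ← hc, ← hd] at hm'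
    have h4 : (ℓ : ℤ) ∣ d - c * i.val := by
      rw [← ZMod.intCast_zmod_eq_zero_iff_dvd]
      push_cast
      rw [h2, h3]
      simp
    obtain ⟨x, hx⟩ := h4
    have hℓ0 : (ℓ : ℚ) ≠ 0 := by exact_mod_cast hℓ.out.ne_zero
    let γ : SL(2, ℤ) := sl (ℓ * a) (b - a * i.val) c x (by linear_combination hdet - a * hx)
    have hγ : del ℓ * emb (z (some i)) = emb γ * hm ℓ i.val := by
      apply Units.ext
      rw [Units.val_mul, Units.val_mul, del_val, emb_val, emb_sl, hm_val, ← ha, ← hb, ← hc, ← hd,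
        Matrix.mul_fin_two, Matrix.mul_fin_two]
      have hxq : (d : ℚ) - c * i.val = ℓ * x := by exact_mod_cast hx
      ext r s
      fin_cases r <;> fin_cases s
      · simp
      · simp
        ring
      · simp
      · simp [-ZMod.natCast_val]
        linear_combination hxq
    have hcL : (L : ℤ) ∣ c := (ZMod.intCast_zmod_eq_zero_iff_dvd _ _).mp hm'.2.2.1
    have hdL : (L : ℤ) ∣ d - 1 := by
      rw [← ZMod.intCast_zmod_eq_zero_iff_dvd]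
      push_cast
      rw [hm'.2.2.2, sub_self]
    have hNL' : (N : ℤ) ∣ L := by exact_mod_cast hNL
    have hγN : γ ∈ Gamma0 N := sl_mem_Gamma0 (hNL'.trans hcL)
    have h5 : χ (γ 1 1) = e := by
      apply he
      change (N : ℤ) ∣ ℓ * x - 1
      rw [← hx]
      have : d - c * (i.val : ℤ) - 1 = (d - 1) - c * i.val := by ring
      rw [this]
      exact dvd_sub (hNL'.trans hdL) ((hNL'.trans hcL).mul_right _)
    rw [hγ, act_mul, hv γ hγN, h5, map_smul]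

/-- The Hecke operator on germs does not depend on the representatives. -/
theorem SI.sum_reps {N N' : ℕ} (hNN : N ∣ N') (hNℓ : Nat.Coprime N' ℓ)
    {J : Type*} [Fintype J] {x : J → SL(2, ℤ)}
    (hx : IsReps (Gamma0 N') (N' * ℓ) x) (hxN : ∀ j, x j ∈ Gamma N) {χ : ℤ → K}
    (hχ : ∀ d d' : ℤ, (N : ℤ) ∣ d - d' → χ d = χ d') (hχ1 : χ 1 = 1)
    {v : HG K} (hv : SI N' χ v) {e : K} (he : ∀ y : ℤ, (N : ℤ) ∣ ℓ * y - 1 → χ y = e)
    [NeZero N'] :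
    ∑ j, act K (del ℓ * emb (x j)) v = Sl ℓ e v := by
  obtain ⟨z, hz, hz0, hz1⟩ := exists_zreps (ℓ := ℓ) N' hNℓ
  have hzr := zreps_isReps (Gamma_le_Gamma0 N') le_rfl hNℓ hz hz0 hz1
  rw [← hv.sum_zreps dvd_rfl hz hz0 hz1 (e := e) fun y hy =>
    he y ((Int.natCast_dvd_natCast.mpr hNN).trans hy)]
  obtain ⟨f, hf⟩ := hx.exists_equiv hzr
  rw [← f.sum_comp]
  refine Finset.sum_congr rfl fun j _ => ?_
  have h1 : del ℓ * emb (x j) = emb (degSL ℓ _ (dvd_of_mem (hf j))) * (del ℓ * emb (z (f j))) := by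
    rw [← mul_assoc, ← del_emb, mul_assoc, ← map_mul]
    congr 2
    group
  rw [h1, act_mul, hv _ (degSL_mem (hf j)), map_smul, degSL_one_one]
  have h2 : χ ((x j * (z (f j))⁻¹) 1 1) = 1 := by
    rw [hχ _ 1 _, hχ1]
    have := dvd_sub_of_Gamma (hxN j) ((Gamma N).inv_mem (Gamma_anti hNN (hz (f j)))) 1
    rwa [mul_one] at this
  rw [h2, one_smul]

/-- The Hecke operator preserves semi-invariance. -/
theorem SI.Sl {N : ℕ} [NeZero N] (hNℓ : Nat.Coprime N ℓ) {χ : ℤ → K}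
    (hχ : ∀ d d' : ℤ, (N : ℤ) ∣ d - d' → χ d = χ d')
    {v : HG K} (hv : SI N χ v) {e : K} (he : ∀ y : ℤ, (N : ℤ) ∣ ℓ * y - 1 → χ y = e) :
    SI N χ (H22.Sl ℓ e v) := by
  obtain ⟨z, hz, hz0, hz1⟩ := exists_zreps (ℓ := ℓ) N hNℓ
  have hzr := zreps_isReps (Gamma_le_Gamma0 N) le_rfl hNℓ hz hz0 hz1
  rw [← hv.sum_zreps dvd_rfl hz hz0 hz1 (e := e) he]
  intro γ hγ
  rw [map_sum, Finset.smul_sum]
  have h1 : ∀ j, ∃ k, z j * γ * (z k)⁻¹ ∈ Gamma0 (N * ℓ) := fun j =>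
    (hzr.uniq (z j * γ) ((Gamma0 N).mul_mem (hzr.mem j) hγ)).exists
  choose f hf using h1
  have finj : Function.Injective f := by
    intro i j hij
    apply hzr.eq_of
    have h1 := (Gamma0 (N * ℓ)).mul_mem (hf i) ((Gamma0 (N * ℓ)).inv_mem (hf j))
    rw [hij] at h1
    have h2 : z i * γ * (z (f j))⁻¹ * (z j * γ * (z (f j))⁻¹)⁻¹ = z i * (z j)⁻¹ := by group
    rw [h2] at h1
    exact h1
  rw [← (Finite.injective_iff_bijective.mp finj).sum_comp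
    (fun k => χ (γ 1 1) • act K (del ℓ * emb (z k)) v)]
  refine Finset.sum_congr rfl fun j _ => ?_
  rw [← act_mul]
  have h2 : del ℓ * emb (z j) * emb γ =
      emb (degSL ℓ _ (dvd_of_mem (hf j))) * (del ℓ * emb (z (f j))) := by
    rw [← mul_assoc, ← del_emb, mul_assoc, mul_assoc, ← map_mul, ← map_mul]
    congr 2
    group
  rw [h2, act_mul, hv _ (degSL_mem (hf j)), map_smul, degSL_one_one]
  congr 1
  exact hχ _ _ (dvd_sub_of_Gamma (hz j) ((Gamma N).inv_mem (hz (f j))) γ)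

/-- The Hecke operator commutes with `W_t`. -/
theorem SI.Sl_Wt {N t : ℕ} [NeZero N] [ht : Fact t.Prime] [NeZero t] (hNt : Nat.Coprime N t)
    (hNℓ : Nat.Coprime N ℓ) (htℓ : Nat.Coprime t ℓ) {z0 : SL(2, ℤ)} (hz0 : z0 ∈ Gamma N)
    (hz1 : (t : ℤ) ∣ z0 1 1) {χ : ℤ → K} (hχ : ∀ d d' : ℤ, (N : ℤ) ∣ d - d' → χ d = χ d')
    (hχ1 : χ 1 = 1) {v : HG K} (hv : SI (N * t) χ v) {e : K}
    (he : ∀ y : ℤ, (N : ℤ) ∣ ℓ * y - 1 → χ y = e) :
    H22.Sl ℓ e (act K (H22.Wt t z0) v) = act K (H22.Wt t z0) (H22.Sl ℓ e v) := by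
  have hNN : N ∣ N * t := dvd_mul_right N t
  have hNNz : (N : ℤ) ∣ (N * t : ℕ) := Int.natCast_dvd_natCast.mpr hNN
  have hχ' : ∀ d d' : ℤ, ((N * t : ℕ) : ℤ) ∣ d - d' → χ d = χ d' := fun d d' h =>
    hχ d d' (hNNz.trans h)
  have he' : ∀ y : ℤ, ((N * t : ℕ) : ℤ) ∣ ℓ * y - 1 → χ y = e := fun y h => he y (hNNz.trans h)
  have : NeZero (N * t) := ⟨mul_ne_zero (NeZero.ne N) (NeZero.ne t)⟩
  have : NeZero (N * ℓ) := ⟨mul_ne_zero (NeZero.ne N) hℓ.out.ne_zero⟩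
  have hNtℓ : Nat.Coprime (N * t) ℓ := hNℓ.mul_left htℓ
  have hv2 : SI (N * t) χ (H22.Sl ℓ e v) := hv.Sl hNtℓ hχ' he'
  -- a good choice of the matrix
  obtain ⟨y, hy, hy0, hy1⟩ := exists_zreps (ℓ := t) (N * ℓ) (hNt.mul_left htℓ.symm)
  obtain ⟨z, hzz⟩ : ∃ z, z = y (some 0) := ⟨_, rfl⟩
  have hzNℓ : z ∈ Gamma (N * ℓ) := by rw [hzz]; exact hy _
  have hzN : z ∈ Gamma N := Gamma_anti (dvd_mul_right N ℓ) hzNℓ
  have hzt : (t : ℤ) ∣ z 1 1 := by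
    rw [← ZMod.intCast_zmod_eq_zero_iff_dvd, hzz]
    exact (hy1 0).2
  rw [act_Wt_congr hNt hz0 hzN hz1 hzt hχ hχ1 hv, act_Wt_congr hNt hz0 hzN hz1 hzt hχ hχ1 hv2]
  clear hy hy0 hy1 hzz hz0 hz1 z0 y
  -- the conjugate of `z` by `diag(ℓ, 1)`
  obtain ⟨b', hb'⟩ := Gamma_01 hzNℓ
  have hdet := det_eq z
  rw [hb'] at hdet
  let z2 : SL(2, ℤ) := sl (z 0 0) (N * b') (ℓ * z 1 0) (z 1 1) (by
    push_cast at hdet
    linear_combination hdet)
  have hz20 : z2 1 0 = ℓ * z 1 0 := rfl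
  have hz21 : z2 1 1 = z 1 1 := rfl
  have hz2ℓ : (ℓ : ℤ) ∣ z2 1 0 := ⟨_, hz20⟩
  have hz2z : degSL ℓ z2 hz2ℓ = z := by
    have hℓ0 : (ℓ : ℤ) ≠ 0 := by exact_mod_cast hℓ.out.ne_zero
    ext i j
    fin_cases i <;> fin_cases j
    · rfl
    · change (ℓ : ℤ) * (N * b') = z 0 1
      rw [hb']
      push_cast
      ring
    · change ((ℓ : ℤ) * z 1 0) / ℓ = z 1 0
      rw [Int.mul_ediv_cancel_left _ hℓ0]
    · rfl
  have hz2N : z2 ∈ Gamma N := by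
    have h1 : (N : ℤ) ∣ z2 0 0 - 1 := Gamma_00 (x := z) hzN
    have h2 : (N : ℤ) ∣ z2 1 1 - 1 := Gamma_11 (x := z) hzN
    exact mem_Gamma_of h1 (dvd_mul_right _ _) ((Gamma_10 hzN).mul_left _) h2
  have hz2e : emb z * del ℓ = del ℓ * emb z2 := by
    rw [del_emb ℓ z2 hz2ℓ, hz2z]
  obtain ⟨u, hu, hu0, hu1⟩ := exists_zreps (ℓ := ℓ) (N * t) hNtℓ
  have hur := zreps_isReps (Gamma_le_Gamma0 (N * t)) le_rfl hNtℓ hu hu0 hu1
  have hut : ∀ x : SL(2, ℤ), x ∈ Gamma (N * t) → (t : ℤ) ∣ x 1 0 := fun x hx =>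
    (Int.natCast_dvd_natCast.mpr (dvd_mul_left t N)).trans (Gamma_10 hx)
  have hdegN : ∀ x (hx : x ∈ Gamma (N * t)), degSL t x (hut x hx) ∈ Gamma N := by
    intro x hx
    have hxN : x ∈ Gamma N := Gamma_anti hNN hx
    have h1 : (N : ℤ) ∣ degSL t x (hut x hx) 0 0 - 1 := Gamma_00 (x := x) hxN
    have h2 : (N : ℤ) ∣ degSL t x (hut x hx) 1 1 - 1 := Gamma_11 (x := x) hxN
    refine mem_Gamma_of h1 ?_ ?_ h2
    · rw [degSL_zero_one]
      exact (Gamma_01 hxN).mul_left _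
    · rw [degSL_one_zero]
      obtain ⟨c, hc⟩ := Gamma_10 hx
      rw [hc]
      push_cast
      rw [show (N : ℤ) * t * c = t * (N * c) by ring,
        Int.mul_ediv_cancel_left _ (by exact_mod_cast NeZero.ne t)]
      exact dvd_mul_right _ _
  have hdm : ∀ (x : SL(2, ℤ)) (hx : (t : ℤ) ∣ x 1 0),
      emb (degSL t x hx) = del t * emb x * (del t)⁻¹ := by
    intro x hx
    rw [del_emb t x hx, mul_inv_cancel_right]
  let x : Option (ZMod ℓ) → SL(2, ℤ) := fun j => z2 * degSL t (u j) (hut _ (hu j)) * z⁻¹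
  have hxN : ∀ j, x j ∈ Gamma N := fun j =>
    (Gamma N).mul_mem ((Gamma N).mul_mem hz2N (hdegN _ (hu j))) ((Gamma N).inv_mem hzN)
  have hxt : ∀ j, (t : ℤ) ∣ x j 1 0 := by
    intro j
    change (t : ℤ) ∣ (z2 * degSL t (u j) (hut _ (hu j)) * z⁻¹) 1 0
    rw [mul_inv_10, AL.mul_11, degSL_zero_one, hz21]
    refine dvd_sub (hzt.mul_left _) (Dvd.dvd.mul_right ?_ _)
    exact dvd_add (Dvd.intro _ (by ring : (t : ℤ) * (z2 1 0 * u j 0 1) = z2 1 0 * (t * u j 0 1)))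
      (hzt.mul_right _)
  have hxr : IsReps (Gamma0 (N * t)) (N * t * ℓ) x := by
    refine hur.of_injective (fun j => mem_Gamma0_mul hNt (Gamma_10 (hxN j)) (hxt j)) ?_
    intro i j hij
    apply hur.eq_of
    have h1 : x i * (x j)⁻¹ = z2 * (degSL t (u i) (hut _ (hu i)) *
        (degSL t (u j) (hut _ (hu j)))⁻¹) * z2⁻¹ := by
      simp only [x]
      group
    have hm : u i * (u j)⁻¹ ∈ Gamma (N * t) := (Gamma _).mul_mem (hu i) ((Gamma _).inv_mem (hu j))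
    have h2 : degSL t (u i) (hut _ (hu i)) * (degSL t (u j) (hut _ (hu j)))⁻¹ =
        degSL t (u i * (u j)⁻¹) (hut _ hm) := by
      apply emb_injective
      rw [hdm, map_mul, map_inv, hdm, hdm, map_mul, map_inv]
      group
    rw [h1, h2] at hij
    have h3 : (ℓ : ℤ) ∣ (degSL t (u i * (u j)⁻¹) (hut _ hm)) 1 0 := by
      have hz2m : z2 ∈ Gamma0 ℓ := sl_mem_Gamma0 (dvd_mul_right _ _)
      have h4 : z2 * degSL t (u i * (u j)⁻¹) (hut _ hm) * z2⁻¹ ∈ Gamma0 ℓ :=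
        Gamma0_anti (dvd_mul_left ℓ (N * t)) hij
      have h5 := (Gamma0 ℓ).mul_mem ((Gamma0 ℓ).mul_mem ((Gamma0 ℓ).inv_mem hz2m) h4) hz2m
      have h6 : z2⁻¹ * (z2 * degSL t (u i * (u j)⁻¹) (hut _ hm) * z2⁻¹) * z2 =
        degSL t (u i * (u j)⁻¹) (hut _ hm) := by group
      rw [h6] at h5
      exact dvd_of_mem_Gamma0' h5
    refine mem_Gamma0_mul hNtℓ (Gamma_10 hm) ?_
    rw [degSL_one_zero] at h3
    have h7 := Int.ediv_mul_cancel (hut _ hm)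
    rw [← h7]
    exact h3.mul_right _
  rw [← (hv.Wt hNt hzN hzt hχ).sum_zreps dvd_rfl hu hu0 hu1 (e := e) he',
    ← hv.sum_reps hNN hNtℓ hxr hxN hχ hχ1 he, map_sum]
  refine Finset.sum_congr rfl fun j _ => ?_
  rw [← act_mul, ← act_mul]
  congr 2
  change emb z * del t * (del ℓ * emb (u j)) =
    del ℓ * emb (z2 * degSL t (u j) (hut _ (hu j)) * z⁻¹) * (emb z * del t)
  have hcomm : del t * del ℓ = del ℓ * del t := by
    apply Units.ext
    rw [Units.val_mul, Units.val_mul, del_val, del_val, Matrix.mul_fin_two, Matrix.mul_fin_two]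
    simp [mul_comm]
  rw [map_mul, map_mul, map_inv]
  calc emb z * del t * (del ℓ * emb (u j)) = emb z * (del t * del ℓ) * emb (u j) := by group
    _ = (emb z * del ℓ) * (del t * emb (u j)) := by rw [hcomm]; group
    _ = (del ℓ * emb z2) * (emb (degSL t (u j) (hut _ (hu j))) * del t) := by
      rw [hz2e, del_emb t (u j) (hut _ (hu j))]
    _ = _ := by group

end Reps

end Fermat.Agent.H22
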