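import Fermat.Agent.H22.TwistT

/-!
# Atkin–Lehner eigenvectors among germs
-/

set_option autoImplicit false

noncomputable section

namespace Fermat.Agent.H22

open Matrix.SpecialLinearGroup CongruenceSubgroup
open Fermat.Agent.TC
open scoped MatrixGroups

section WEig

variable {K : Type*} [Field K]

/-- Eigenvector for the Atkin–Lehner matrices at `q`. -/
def WEig (q : ℕ) [NeZero q] (M : ℕ) (ε : K) (v : HG K) : Prop :=
  ∀ σ : SL(2, ℤ), (M : ℤ) ∣ σ 1 0 → (q : ℤ) ^ 2 ∣ σ 1 1 → act K (Wm q σ) v = ε • v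

variable {q : ℕ} [NeZero q] {M : ℕ} {ε : K} {v v' : HG K}

theorem WEig.mono (h : WEig q M ε v) {M' : ℕ} (hM : M ∣ M') : WEig q M' ε v := fun σ h1 h2 =>
  h σ ((Int.natCast_dvd_natCast.mpr hM).trans h1) h2

theorem WEig.smul (h : WEig q M ε v) (c : K) : WEig q M ε (c • v) := fun σ h1 h2 => by
  rw [map_smul, h σ h1 h2, smul_comm]

theorem WEig.sub (h : WEig q M ε v) (h' : WEig q M ε v') : WEig q M ε (v - v') := fun σ h1 h2 => by
  rw [map_sub, h σ h1 h2, h' σ h1 h2, smul_sub]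

theorem del_mul_Wm {p : ℕ} [NeZero p] {σ : SL(2, ℤ)} (h1 : ((M * p : ℕ) : ℤ) ∣ σ 1 0) :
    ∃ σ' : SL(2, ℤ), (M : ℤ) ∣ σ' 1 0 ∧ σ' 1 1 = σ 1 1 ∧
      del p * Wm q σ = Wm q σ' * del p := by
  obtain ⟨c', hc'⟩ := h1
  have hdet := det_eq σ
  obtain ⟨a, ha⟩ : ∃ a, a = σ 0 0 := ⟨_, rfl⟩
  obtain ⟨b, hb⟩ : ∃ b, b = σ 0 1 := ⟨_, rfl⟩
  obtain ⟨d, hd⟩ : ∃ d, d = σ 1 1 := ⟨_, rfl⟩
  rw [← ha, ← hb, ← hd, hc'] at hdet
  have hp : (p : ℚ) ≠ 0 := by exact_mod_cast NeZero.ne p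
  have hq : (q : ℚ) ≠ 0 := by exact_mod_cast NeZero.ne q
  refine ⟨sl a (p * b) (M * c') d (by push_cast at hdet; linear_combination hdet), ?_, ?_, ?_⟩
  · rw [sl_10]; exact dvd_mul_right _ _
  · rw [sl_11, hd]
  · apply Units.ext
    rw [Units.val_mul, Units.val_mul, del_val, Wm_val, Wm_val, ← ha, ← hb, ← hd, hc', sl_00, sl_01,
      sl_10, sl_11, Matrix.mul_fin_two, Matrix.mul_fin_two]
    ext i j
    fin_cases i <;> fin_cases j
    · simp
      ring
    · simp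
      ring
    · simp
      ring
    · simp

theorem WEig.del (h : WEig q M ε v) (p : ℕ) [NeZero p] : WEig q (M * p) ε (act K (del p) v) := by
  intro σ h1 h2
  obtain ⟨σ', h3, h4, h5⟩ := del_mul_Wm (q := q) h1
  rw [← act_mul, h5, act_mul, h σ' h3 (by rw [h4]; exact h2), map_smul]

theorem hm_mul_Wm {p : ℕ} [NeZero p] {σ : SL(2, ℤ)} {i j : ℤ}
    (hp : (p : ℤ) ∣ σ 0 1 + i * σ 1 1 - q ^ 2 * j * (σ 0 0 + i * σ 1 0)) :
    ∃ σ' : SL(2, ℤ), σ' 1 0 = p * σ 1 0 ∧ σ' 1 1 = σ 1 1 - q ^ 2 * j * σ 1 0 ∧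
      hm p i * Wm q σ = Wm q σ' * hm p j := by
  have hdet := det_eq σ
  obtain ⟨a, ha⟩ : ∃ a, a = σ 0 0 := ⟨_, rfl⟩
  obtain ⟨b, hb⟩ : ∃ b, b = σ 0 1 := ⟨_, rfl⟩
  obtain ⟨c, hc⟩ : ∃ c, c = σ 1 0 := ⟨_, rfl⟩
  obtain ⟨d, hd⟩ : ∃ d, d = σ 1 1 := ⟨_, rfl⟩
  rw [← ha, ← hb, ← hc, ← hd] at hdet hp
  rw [← hc, ← hd]
  obtain ⟨b', hb'⟩ := hp
  have hp0 : (p : ℚ) ≠ 0 := by exact_mod_cast NeZero.ne p
  have hq : (q : ℚ) ≠ 0 := by exact_mod_cast NeZero.ne q
  refine ⟨sl (a + i * c) b' (p * c) (d - q ^ 2 * j * c) (by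
    linear_combination hdet + c * hb'), sl_10, sl_11, ?_⟩
  apply Units.ext
  rw [Units.val_mul, Units.val_mul, hm_val, hm_val, Wm_val, Wm_val, ← ha, ← hb, ← hc, ← hd,
    sl_00, sl_01, sl_10, sl_11, Matrix.mul_fin_two, Matrix.mul_fin_two]
  have hbq : (b : ℚ) + i * d - q ^ 2 * j * (a + i * c) = p * b' := by exact_mod_cast hb'
  ext r s
  fin_cases r <;> fin_cases s
  · simp
    ring
  · simp
    field_simp
    linear_combination hbq
  · simp
    ring
  · simp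
    field_simp
    ring

theorem WEig.Up {p : ℕ} [hp : Fact p.Prime] (h : WEig q M ε v) (hpM : p ∣ M)
    (hpq : Nat.Coprime p q) : WEig q M ε (Up p v) := by
  intro σ h1 h2
  have hpc : (p : ℤ) ∣ σ 1 0 := (Int.natCast_dvd_natCast.mpr hpM).trans h1
  have hc0 : ((σ 1 0 : ℤ) : ZMod p) = 0 := (ZMod.intCast_zmod_eq_zero_iff_dvd _ _).mpr hpc
  have had := intCast_sq_mul_eq hpc
  have hq0 : ((q : ℕ) : ZMod p) ≠ 0 :=
    ((ZMod.isUnit_iff_coprime q p).mpr hpq.symm).ne_zero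
  have hd0 : ((σ 1 1 : ℤ) : ZMod p) ≠ 0 := fun h0 => by
    rw [h0, mul_zero] at had; exact one_ne_zero had.symm
  let f : ZMod p → ZMod p := fun i => (((σ 0 1 : ℤ) : ZMod p) + i * ((σ 1 1 : ℤ) : ZMod p)) *
    ((σ 1 1 : ℤ) : ZMod p) * (((q : ℕ) : ZMod p) ^ 2)⁻¹
  have hf : Function.Bijective f := by
    apply Finite.injective_iff_bijective.mp
    intro i j hij
    have h3 := mul_right_cancel₀ (inv_ne_zero (pow_ne_zero 2 hq0)) hij
    have h4 := add_left_cancel (mul_right_cancel₀ hd0 h3)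
    exact mul_right_cancel₀ hd0 h4
  unfold H22.Up
  rw [map_sum, Finset.smul_sum, ← hf.sum_comp (fun i => ε • act K (hm p i.val) v)]
  refine Finset.sum_congr rfl fun i _ => ?_
  have h3 : (p : ℤ) ∣ σ 0 1 + (i.val : ℤ) * σ 1 1 -
      q ^ 2 * ((f i).val : ℤ) * (σ 0 0 + (i.val : ℤ) * σ 1 0) := by
    rw [← ZMod.intCast_zmod_eq_zero_iff_dvd]
    push_cast
    rw [hc0, mul_zero, add_zero]
    simp only [ZMod.natCast_val, ZMod.cast_id', id_eq]
    have h4 : ((q : ℕ) : ZMod p) ^ 2 * f i = (((σ 0 1 : ℤ) : ZMod p) + i *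
        ((σ 1 1 : ℤ) : ZMod p)) * ((σ 1 1 : ℤ) : ZMod p) := by
      simp only [f]
      rw [mul_comm, mul_assoc, inv_mul_cancel₀ (pow_ne_zero 2 hq0), mul_one]
    rw [h4]
    linear_combination (-(((σ 0 1 : ℤ) : ZMod p) + i * ((σ 1 1 : ℤ) : ZMod p))) * had
  obtain ⟨σ', h4, h5, h6⟩ := hm_mul_Wm (q := q) h3
  rw [← act_mul, h6, act_mul, h σ' (by rw [h4]; exact h1.mul_left _) (by
    rw [h5]
    exact dvd_sub h2 (((dvd_mul_right _ _)).mul_right _)), map_smul]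

theorem del_Up (p : ℕ) [NeZero p] (v : HG K) : act K (del p) (H22.Up p v) = Eq' p v := by
  unfold H22.Up Eq'
  rw [map_sum]
  refine Finset.sum_congr rfl fun i _ => ?_
  rw [← act_mul]
  have hp0 : (p : ℚ) ≠ 0 := by exact_mod_cast NeZero.ne p
  let s : GG := Matrix.GeneralLinearGroup.mkOfDetNeZero !![(p : ℚ), 0; 0, (p : ℚ)] (by
    simp [hp0])
  have hs : hm p i.val * TC.del p = s * tq p i.val := by
    apply Units.ext
    rw [Units.val_mul, Units.val_mul, hm_val, del_val, tq_val, Matrix.mul_fin_two]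
    change _ = !![(p : ℚ), 0; 0, (p : ℚ)] * _
    rw [Matrix.mul_fin_two]
    ext r s
    fin_cases r <;> fin_cases s
    · simp
    · simp
      field_simp
    · simp
    · simp
  rw [hs, act_mul]
  congr 1
  apply act_central
  intro x
  apply Units.ext
  rw [Units.val_mul, Units.val_mul]
  change !![(p : ℚ), 0; 0, (p : ℚ)] * _ = _ * !![(p : ℚ), 0; 0, (p : ℚ)]
  rw [Matrix.eta_fin_two x.val, Matrix.mul_fin_two, Matrix.mul_fin_two]
  ext r s
  fin_cases r <;> fin_cases s <;> simp [mul_comm]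

theorem TI.smul (h : TI v) (c : K) : TI (c • v) := fun k => by rw [map_smul, h k]

theorem TI.sub (h : TI v) (h' : TI v') : TI (v - v') := fun k => by rw [map_sub, h k, h' k]

theorem TI.act_tq {Q : ℕ} (h : TI v) (u : ℤ) : TI (act K (tq Q u) v) := by
  intro k
  rw [← act_mul]
  have : tq Q u * emb (sl 1 k 0 1 (by ring)) = emb (sl 1 k 0 1 (by ring)) * tq Q u := by
    apply Units.ext
    rw [Units.val_mul, Units.val_mul, tq_val, emb_sl, Matrix.mul_fin_two, Matrix.mul_fin_two]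
    ext r s
    fin_cases r <;> fin_cases s <;> simp [add_comm]
  rw [this, act_mul, h k]

theorem TI.sum {ι : Type*} (s : Finset ι) {f : ι → HG K} (h : ∀ i ∈ s, TI (f i)) :
    TI (∑ i ∈ s, f i) := fun k => by
  rw [map_sum]
  exact Finset.sum_congr rfl fun i hi => h i hi k

theorem TI.Eq' (h : TI v) (p : ℕ) [NeZero p] : TI (H22.Eq' p v) :=
  TI.sum _ fun _ _ => h.act_tq _

theorem TI.Eq'_Eq' (h : TI v) (p : ℕ) [NeZero p] :
    H22.Eq' p (H22.Eq' p v) = (p : K) • H22.Eq' p v := by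
  conv_lhs => rw [H22.Eq'.eq_def p v]
  rw [Eq'_sum, Finset.sum_congr rfl fun u _ => h.Eq'_tq p _, Finset.sum_const, Finset.card_univ,
    ZMod.card, ← Nat.cast_smul_eq_nsmul K]

/-- **The key computation**: a depletion of a germ of level exactly divisible by `q` (or prime to
`q`) is not an eigenvector of the Atkin–Lehner matrices. -/
theorem WEig.eq_zero [CharZero K] {q : ℕ} [hq : Fact q.Prime] {M' : ℕ} (hqM : Nat.Coprime q M')
    {w v : HG K} (hw : SI (q * M') (fun _ => 1) w) (hv : v = w - (q : K)⁻¹ • H22.Eq' q w) {ε : K}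
    (hε : ε ^ 2 = 1) (hW : WEig q M' ε v) : v = 0 := by
  obtain ⟨σ, hc, hd⟩ := exists_sigma (q := q) (M' := M') hqM
  have hTI : TI w := hw.toTI rfl
  have hc0 := coprime_c hd
  have hq0 : (q : K) ≠ 0 := by exact_mod_cast hq.out.ne_zero
  have hw' : SI (q * M') (fun d => (1 : MulChar (ZMod q) K) (d : ZMod q) ^ 2 *
      (fun _ : ℤ => (1 : K)) d) w := by
    intro γ hγ
    rw [hw γ hγ]
    have h1 : (q : ℤ) ∣ γ 1 0 := (Int.natCast_dvd_natCast.mpr (dvd_mul_right q M')).trans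
      (dvd_of_mem_Gamma0' hγ)
    have h2 := intCast_sq_mul_eq h1
    have h3 : IsUnit ((γ 1 1 : ℤ) : ZMod q) := IsUnit.of_mul_eq_one_right _ h2
    simp only
    rw [MulChar.one_apply h3, one_pow, mul_one]
  have h1 : act K (Wm q σ) (H22.Eq' q w) = act K (Wm q σ) w + (H22.Eq' q w - w) := by
    have e0 : act K (tq q ((0 : ZMod q).val : ℤ)) w = w := by simp [tq_zero, act_one]
    have e1 : H22.Eq' q w - w = ∑ u ∈ Finset.univ.erase (0 : ZMod q), act K (tq q u.val) w := by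
      unfold H22.Eq'
      rw [← Finset.add_sum_erase _ _ (Finset.mem_univ (0 : ZMod q)), e0, add_sub_cancel_left]
    rw [e1]
    conv_lhs => rw [H22.Eq'.eq_def q w]
    rw [map_sum, ← Finset.add_sum_erase _ _ (Finset.mem_univ (0 : ZMod q)), e0]
    congr 1
    have e2 : ∀ u ∈ Finset.univ.erase (0 : ZMod q), act K (Wm q σ) (act K (tq q u.val) w) =
        act K (tq q ((-(((σ 1 0 : ℤ) : ZMod q) ^ 2 * u)⁻¹ : ZMod q)).val) w := by
      intro u hu
      have hu0 := Finset.ne_of_mem_erase hu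
      rw [hw'.act_tq_W (fun _ _ _ => rfl) rfl hc hd hu0]
      rw [MulChar.one_apply, one_pow, mul_one, one_smul]
      exact (isUnit_iff_ne_zero.mpr (mul_ne_zero hc0 (inv_ne_zero
        (mul_ne_zero (pow_ne_zero 2 hc0) hu0))))
    rw [Finset.sum_congr rfl e2]
    refine Finset.sum_bij' (fun u _ => -(((σ 1 0 : ℤ) : ZMod q) ^ 2 * u)⁻¹)
      (fun u _ => -(((σ 1 0 : ℤ) : ZMod q) ^ 2 * u)⁻¹) ?_ ?_ ?_ ?_ ?_
    · intro u hu
      have hu0 := Finset.ne_of_mem_erase hu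
      exact Finset.mem_erase.mpr ⟨neg_ne_zero.mpr (inv_ne_zero
        (mul_ne_zero (pow_ne_zero 2 hc0) hu0)), Finset.mem_univ _⟩
    · intro u hu
      have hu0 := Finset.ne_of_mem_erase hu
      exact Finset.mem_erase.mpr ⟨neg_ne_zero.mpr (inv_ne_zero
        (mul_ne_zero (pow_ne_zero 2 hc0) hu0)), Finset.mem_univ _⟩
    · intro u hu
      have hu0 := Finset.ne_of_mem_erase hu
      field_simp
    · intro u hu
      have hu0 := Finset.ne_of_mem_erase hu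
      field_simp
    · intro u hu
      rfl
  have h2 : H22.Eq' q (act K (Wm q σ) w) = (q : K) • act K (Wm q σ) w :=
    Eq'_act_Wm hw (fun _ _ => rfl) hc
  have h3 := hTI.Eq'_Eq' q
  -- names
  obtain ⟨W, hWdef⟩ : ∃ W, W = act K (Wm q σ) w := ⟨_, rfl⟩
  obtain ⟨E, hE⟩ : ∃ E, E = H22.Eq' q w := ⟨_, rfl⟩
  rw [← hWdef] at h1 h2
  rw [← hE] at h1 h3 hv
  have h4 := hW σ hc hd
  rw [hv, map_sub, map_smul, h1, ← hWdef] at h4
  -- apply `Eq' q`
  have h5 : H22.Eq' q (W - (q : K)⁻¹ • (W + (E - w))) = 0 := by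
    rw [h4, Eq'_smul]
    have : H22.Eq' q (w - (q : K)⁻¹ • E) = 0 := by
      rw [sub_eq_add_neg, ← neg_smul, Eq'_add, Eq'_smul, h3, smul_smul, ← hE]
      have : -(q : K)⁻¹ * (q : K) = -1 := by field_simp
      rw [this, neg_one_smul, add_neg_cancel]
    rw [this, smul_zero]
  have h6 : H22.Eq' q (W - (q : K)⁻¹ • (W + (E - w))) =
      ((q : K) - 1) • (W - (q : K)⁻¹ • E) := by
    rw [sub_eq_add_neg, ← neg_smul, Eq'_add, Eq'_smul, Eq'_add, sub_eq_add_neg E w,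
      ← neg_one_smul K w, Eq'_add, Eq'_smul, h2, h3, ← hE]
    match_scalars <;> field_simp <;> ring
  have hq1 : (q : K) - 1 ≠ 0 := by
    rw [sub_ne_zero]
    exact_mod_cast hq.out.one_lt.ne'
  rw [h6] at h5
  have h7 := sub_eq_zero.mp ((smul_eq_zero.mp h5).resolve_left hq1)
  have h8 : v = w - W := by rw [hv, h7]
  have h9 : (ε - (q : K)⁻¹) • v = 0 := by
    have h10 : W - (q : K)⁻¹ • (W + (E - w)) = (q : K)⁻¹ • (w - W) := by
      have h11 : E = (q : K) • W := by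
        rw [h7, smul_smul, mul_inv_cancel₀ hq0, one_smul]
      rw [h11]
      match_scalars <;> field_simp <;> ring
    rw [← h7, h10] at h4
    rw [sub_smul, h8, ← h4, sub_self]
  refine (smul_eq_zero.mp h9).resolve_left fun h10 => ?_
  have h11 : ε = (q : K)⁻¹ := sub_eq_zero.mp h10
  rw [h11, inv_pow, inv_eq_one] at hε
  have h12 : q ^ 2 = 1 := by exact_mod_cast hε
  have h13 : q = 1 := by
    have := Nat.pow_eq_one.mp h12
    simpa using this
  exact hq.out.one_lt.ne' h13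

end WEig

end Fermat.Agent.H22
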