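import Fermat.Agent.H22.FormG
import Fermat.Agent.H22.TwistU

/-!
# The level of a newform whose twist is ramified
-/

set_option autoImplicit false

noncomputable section

namespace Fermat.Agent.H22

open Matrix.SpecialLinearGroup CongruenceSubgroup ModularForm ModularCurve
open Fermat.Agent.TC
open ModularFormClass (qCoeff)
open scoped MatrixGroups

section TEig

/-- Eigenvector of the Hecke operators at the primes not dividing `L D`. -/
def TEig (L D : ℕ) [NeZero L] (lam : ℕ → ℂ) (f : CuspForm (Gamma0 L) 2) : Prop :=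
  ∀ (ℓ : ℕ) (hℓ : ℓ.Prime) (hL : ¬ ℓ ∣ L), ¬ ℓ ∣ D → CuspForm.heckeTLin 2 hℓ hL f = lam ℓ • f

variable {L D : ℕ} [NeZero L] {lam : ℕ → ℂ} {f g : CuspForm (Gamma0 L) 2}

theorem TEig.sub (hf : TEig L D lam f) (hg : TEig L D lam g) : TEig L D lam (f - g) :=
  fun ℓ hℓ hL hD => by rw [map_sub, hf ℓ hℓ hL hD, hg ℓ hℓ hL hD, smul_sub]

theorem TEig.smul (hf : TEig L D lam f) (c : ℂ) : TEig L D lam (c • f) :=
  fun ℓ hℓ hL hD => by rw [map_smul, hf ℓ hℓ hL hD, smul_comm]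

theorem TEig.degen {N d : ℕ} [NeZero N] (hf : TEig L D lam f) (hd : 0 < d) (h : L * d ∣ N) :
    TEig N D lam (AL.degen hd h 2 f) := fun ℓ hℓ hN hD => by
  have hL : ¬ ℓ ∣ L := fun hh => hN ((hh.trans (dvd_mul_right L d)).trans h)
  rw [← AL.degen_heckeTLin hd h 2 hℓ hL hN, hf ℓ hℓ hL hD, map_smul]

theorem TEig.heckeU {p : ℕ} (hf : TEig L D lam f) (hp : p.Prime) (hpL : p ∣ L) :
    TEig L D lam (CuspForm.heckeULin 2 hpL f) := fun ℓ hℓ hL hD => by
  have := LinearMap.congr_fun (AL.hecke_comm_prop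
      (CuspForm.heckeAlgebra.T (S := ∅) (k := 2) hℓ hL (Set.notMem_empty _))
      (CuspForm.heckeAlgebra.U (S := ∅) (k := 2) hp hpL (Set.notMem_empty _))) f
  have h2 : CuspForm.heckeTLin 2 hℓ hL (CuspForm.heckeULin 2 hpL f) =
    CuspForm.heckeULin 2 hpL (CuspForm.heckeTLin 2 hℓ hL f) := this
  rw [h2, hf ℓ hℓ hL hD, map_smul]

end TEig

theorem SI.mono {K : Type*} [CommRing K] {N N' : ℕ} {χ : ℤ → K} {v : HG K} (h : SI N χ v)
    (hN : N ∣ N') : SI N' χ v := fun γ hγ => h γ (Gamma0_anti hN hγ)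

theorem SI.smul {K : Type*} [CommRing K] {N : ℕ} {χ : ℤ → K} {v : HG K} (h : SI N χ v)
    (c : K) : SI N χ (c • v) := fun γ hγ => by rw [map_smul, h γ hγ, smul_comm]

theorem del_one : del 1 = 1 := by
  apply Units.ext
  rw [del_val, Units.val_one]
  simp [Matrix.one_fin_two]

theorem pgL_degen_one {M N : ℕ} [NeZero M] [NeZero N] (h : M * 1 ∣ N)
    (f : CuspForm (Gamma0 M) 2) : pgL N (AL.degen one_pos h 2 f) = pgL M f := by
  rw [pgL_degen, del_one, act_one]
  simp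

/-- Depletion at a prime dividing the level. -/
theorem dep_step {L p : ℕ} [NeZero L] [hp : Fact p.Prime] (hpL : p ∣ L) [NeZero (L * p)]
    (f : CuspForm (Gamma0 L) 2) : ∃ f' : CuspForm (Gamma0 (L * p)) 2,
      (∀ n, qCoeff f' n = if p ∣ n then 0 else qCoeff f n) ∧
      pgL (L * p) f' = pgL L f - (p : ℂ)⁻¹ • act ℂ (del p) (Up p (pgL L f)) ∧
      (∀ D lam, TEig L D lam f → TEig (L * p) D lam f') := by
  have h1 : L * 1 ∣ L * p := by rw [mul_one]; exact dvd_mul_right _ _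
  refine ⟨AL.degen one_pos h1 2 f - AL.degen hp.out.pos dvd_rfl 2
    (CuspForm.heckeULin 2 hpL f), fun n => ?_, ?_, fun D lam hf => ?_⟩
  · rw [AL.qCoeff_sub, AL.qCoeff_degen, AL.qCoeff_degen, if_pos (one_dvd n), Nat.div_one,
      qCoeff_heckeULin, coeffHeckeU_apply]
    split_ifs with hd
    · rw [Nat.div_mul_cancel hd, sub_self]
    · rw [sub_zero]
  · rw [map_sub, pgL_degen_one, pgL_degen, pgL_heckeU]
  · exact (hf.degen one_pos h1).sub ((hf.heckeU hp.out hpL).degen _ _)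

theorem dep_list {L q : ℕ} [NeZero L] [NeZero q] (l : List ℕ)
    (hl : ∀ p ∈ l, p.Prime ∧ p ∣ L ∧ Nat.Coprime p q) :
    ∀ [NeZero (L * l.prod)] (f : CuspForm (Gamma0 L) 2),
    ∃ f' : CuspForm (Gamma0 (L * l.prod)) 2,
      (∀ n, (∀ p ∈ l, ¬ p ∣ n) → qCoeff f' n = qCoeff f n) ∧
      (∀ n, (∃ p ∈ l, p ∣ n) → qCoeff f' n = 0) ∧
      (∀ n, qCoeff f n = 0 → qCoeff f' n = 0) ∧
      (∀ D lam, TEig L D lam f → TEig (L * l.prod) D lam f') ∧
      (∀ (M : ℕ) (ε : ℂ), (∀ p ∈ l, p ∣ M) → WEig q M ε (pgL L f) →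
        WEig q (M * l.prod) ε (pgL (L * l.prod) f')) := by
  induction l with
  | nil =>
    intro _ f
    have h : L * 1 ∣ L * ([] : List ℕ).prod := by simp
    refine ⟨AL.degen one_pos h 2 f, fun n _ => ?_, fun n hn => ?_, fun n hn => ?_,
      fun D lam hf => hf.degen _ _, fun M ε _ hM => ?_⟩
    · rw [AL.qCoeff_degen, if_pos (one_dvd n), Nat.div_one]
    · simp at hn
    · rw [AL.qCoeff_degen, if_pos (one_dvd n), Nat.div_one, hn]
    · rw [pgL_degen_one]
      exact hM.mono (by simp)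
  | cons p l ih =>
    intro _ f
    have hp := (hl p (by simp)).1
    have : Fact p.Prime := ⟨hp⟩
    have hpL := (hl p (by simp)).2.1
    have hpq := (hl p (by simp)).2.2
    have hprod : l.prod ≠ 0 := fun h => by
      have h2 := NeZero.ne (L * (p :: l).prod)
      rw [List.prod_cons, h] at h2
      simp at h2
    have : NeZero (L * l.prod) := ⟨mul_ne_zero (NeZero.ne L) hprod⟩
    have : NeZero (L * l.prod * p) := ⟨mul_ne_zero (NeZero.ne _) hp.ne_zero⟩
    obtain ⟨f1, h1, h1', h1'', h2, h3⟩ := ih (fun p hp => hl p (by simp [hp])) f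
    obtain ⟨f2, h4, h5, h6⟩ := dep_step (hpL.mul_right l.prod) f1
    have h : L * l.prod * p * 1 ∣ L * (p :: l).prod := by
      rw [List.prod_cons, mul_one]
      exact dvd_of_eq (by ring)
    refine ⟨AL.degen one_pos h 2 f2, fun n hn => ?_, fun n hn => ?_, fun n hn => ?_,
      fun D lam hf => (h6 D lam (h2 D lam hf)).degen _ _, fun M ε hM hW => ?_⟩
    · rw [AL.qCoeff_degen, if_pos (one_dvd n), Nat.div_one, h4, if_neg (hn p (by simp))]
      exact h1 n fun p hp => hn p (by simp [hp])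
    · rw [AL.qCoeff_degen, if_pos (one_dvd n), Nat.div_one, h4]
      split_ifs with hd
      · rfl
      · obtain ⟨r, hr, hrn⟩ := hn
        rcases List.mem_cons.mp hr with rfl | hr
        · exact absurd hrn hd
        · exact h1' n ⟨r, hr, hrn⟩
    · rw [AL.qCoeff_degen, if_pos (one_dvd n), Nat.div_one, h4]
      split_ifs with hd
      · rfl
      · exact h1'' n hn
    · rw [pgL_degen_one, h5]
      have h7 := h3 M ε (fun p hp => hM p (by simp [hp])) hW
      have hpM : p ∣ M * l.prod := (hM p (by simp)).mul_right _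
      have h8 := ((h7.Up hpM hpq).del p).smul (p : ℂ)⁻¹
      have h9 := (h7.mono (dvd_mul_right (M * l.prod) p)).sub h8
      refine h9.mono ?_
      rw [List.prod_cons]
      exact dvd_of_eq (by ring)

/-- Moving a nonzero coefficient to an index prime to the level. -/
theorem exists_good_coeff {L q : ℕ} [NeZero L] [hq : Fact q.Prime] {D : ℕ} {lam : ℕ → ℂ} {ε : ℂ}
    {M : ℕ} (hM : ∀ p : ℕ, p.Prime → p ∣ L → p ≠ q → p ∣ M) (n : ℕ) :
    ∀ (f : CuspForm (Gamma0 L) 2), TEig L D lam f → (∀ n, q ∣ n → qCoeff f n = 0) →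
      WEig q M ε (pgL L f) → qCoeff f n ≠ 0 →
    ∃ f' : CuspForm (Gamma0 L) 2, TEig L D lam f' ∧ (∀ n, q ∣ n → qCoeff f' n = 0) ∧
      WEig q M ε (pgL L f') ∧ ∃ n', n'.Coprime L ∧ qCoeff f' n' ≠ 0 := by
  induction n using Nat.strong_induction_on with
  | _ n ih =>
    intro f h1 h2 h3 h4
    by_cases hn : n.Coprime L
    · exact ⟨f, h1, h2, h3, n, hn, h4⟩
    · obtain ⟨p, hp, hpn, hpL⟩ := Nat.Prime.not_coprime_iff_dvd.mp hn
      have hn0 : n ≠ 0 := fun h => h4 (by rw [h]; exact cusp_qCoeff_zero f)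
      have : Fact p.Prime := ⟨hp⟩
      by_cases hpq : p = q
      · exact absurd (h2 n (hpq ▸ hpn)) h4
      · have hpq' : Nat.Coprime p q := (Nat.coprime_primes hp hq.out).mpr hpq
        refine ih (n / p) (Nat.div_lt_self (Nat.pos_of_ne_zero hn0) hp.one_lt)
          (CuspForm.heckeULin 2 hpL f) (h1.heckeU hp hpL) (fun m hm => ?_) ?_ ?_
        · rw [qCoeff_heckeULin, coeffHeckeU_apply]
          exact h2 _ (hm.mul_right p)
        · rw [pgL_heckeU]
          exact h3.Up (hM p hp hpL hpq) hpq'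
        · rw [qCoeff_heckeULin, coeffHeckeU_apply, Nat.div_mul_cancel hpn]
          exact h4

/-- **The contradiction.** -/
theorem ps_contra {q M L D M0 N0 : ℕ} [hq : Fact q.Prime] [NeZero M] [NeZero L] [NeZero N0]
    (hL : L = q * q * M) (hqM : Nat.Coprime q M) (hqM0 : Nat.Coprime q M0) (hM0 : M0 ≠ 0)
    (hD : D ≠ 0)
    {lam : ℕ → ℂ} {ε : ℂ} (hε : ε ^ 2 = 1) {f : CuspForm (Gamma0 L) 2} (hf0 : f ≠ 0)
    (hf : TEig L D lam f) (hfq : ∀ n, q ∣ n → qCoeff f n = 0) (hW : WEig q M0 ε (pgL L f))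
    (hN0 : N0 ∣ q * M) {g : CuspForm (Gamma0 N0) 2} (hg : g.IsNormalizedEigenform)
    (hgl : ∀ ℓ : ℕ, ℓ.Prime → ¬ ℓ ∣ L → ¬ ℓ ∣ D → qCoeff g ℓ = lam ℓ) : False := by
  have hpos : 0 < M := Nat.pos_of_ne_zero (NeZero.ne M)
  have hcop : ∀ p ∈ M.primeFactors.toList, p.Prime ∧ p ∣ M ∧ Nat.Coprime p q := by
    intro p hp
    rw [Finset.mem_toList, Nat.mem_primeFactors] at hp
    refine ⟨hp.1, hp.2.1, ?_⟩
    exact (Nat.Coprime.coprime_dvd_right hp.2.1 hqM).symm
  obtain ⟨l, hl⟩ : ∃ l, l = M.primeFactors.toList := ⟨_, rfl⟩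
  rw [← hl] at hcop
  have hmem : ∀ p : ℕ, p.Prime → p ∣ M → p ∈ l := by
    intro p hp hpM
    rw [hl, Finset.mem_toList, Nat.mem_primeFactors]
    exact ⟨hp, hpM, NeZero.ne M⟩
  have hprod : l.prod ≠ 0 := by
    refine List.prod_ne_zero fun h0 => ?_
    exact (hcop 0 h0).1.ne_zero rfl
  have hPcop : Nat.Coprime q l.prod := by
    refine Nat.Coprime.symm (Nat.coprime_list_prod_left_iff.mpr fun p hp => (hcop p hp).2.2)
  -- first step
  have hex : ∃ n, qCoeff f n ≠ 0 := by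
    by_contra h
    push Not at h
    exact hf0 (AL.cusp_ext fun n => by rw [h, AL.qCoeff_zero'])
  obtain ⟨n, hn⟩ := hex
  have hM1 : ∀ p : ℕ, p.Prime → p ∣ L → p ≠ q → p ∣ M0 * M := by
    intro p hp hpL hpq
    rw [hL] at hpL
    rcases hp.dvd_mul.mp hpL with h | h
    · rcases hp.dvd_mul.mp h with h | h <;>
      exact absurd ((Nat.prime_dvd_prime_iff_eq hp hq.out).mp h) hpq
    · exact h.mul_left _
  obtain ⟨f1, a1, a2, a3, n', hn', a4⟩ := exists_good_coeff hM1 n f hf hfq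
    (hW.mono (dvd_mul_right M0 M)) hn
  have : NeZero (L * l.prod) := ⟨mul_ne_zero (NeZero.ne L) hprod⟩
  obtain ⟨f2, b1, b2, b2', b3, b4⟩ := dep_list (L := L) (q := q) l
    (fun p hp => ⟨(hcop p hp).1, (hcop p hp).2.1.trans (by rw [hL]; exact dvd_mul_left _ _),
      (hcop p hp).2.2⟩) f1
  have b5 := b4 (M0 * M) ε (fun p hp => (hcop p hp).2.1.mul_left _) a3
  -- the newform
  have hqM0' : q * M ≠ 0 := mul_ne_zero hq.out.ne_zero (NeZero.ne M)
  have : NeZero (q * M) := ⟨hqM0'⟩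
  have hN0' : N0 * 1 ∣ q * M := by rwa [mul_one]
  have : NeZero (q * M * l.prod) := ⟨mul_ne_zero hqM0' hprod⟩
  have hTg : TEig (q * M) D lam (AL.degen one_pos hN0' 2 g) := by
    intro ℓ hℓ h1 h2
    have h3 : ¬ ℓ ∣ N0 := fun hh => h1 (hh.trans hN0)
    have h4 : ¬ ℓ ∣ L := by
      intro hh
      rw [hL, mul_assoc] at hh
      rcases hℓ.dvd_mul.mp hh with hh | hh
      · exact h1 (hh.mul_right M)
      · exact h1 hh
    rw [← AL.degen_heckeTLin one_pos hN0' 2 hℓ h3 h1, AL.eigenform_T hg hℓ h3, map_smul,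
      hgl ℓ hℓ h4 h2]
  obtain ⟨g2, c1, c2, c2', c3, _⟩ := dep_list (L := q * M) (q := q) l
    (fun p hp => ⟨(hcop p hp).1, (hcop p hp).2.1.mul_left q, (hcop p hp).2.2⟩)
    (AL.degen one_pos hN0' 2 g)
  have hB : NeZero (q * M * l.prod * q) := ⟨mul_ne_zero (NeZero.ne _) hq.out.ne_zero⟩
  obtain ⟨g3, d1, d2, d3⟩ := dep_step (p := q) (L := q * M * l.prod)
    ((dvd_mul_right q M).mul_right _) g2
  have hT3 : TEig (q * M * l.prod * q) D lam g3 := d3 D lam (c3 D lam hTg)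
  rw [del_Up] at d2
  have hLB : L * l.prod * 1 ∣ q * M * l.prod * q := dvd_of_eq (by rw [hL]; ring)
  set f3 := AL.degen one_pos hLB 2 f2 with hf3
  have hT4 : TEig (q * M * l.prod * q) D lam f3 := (b3 D lam a1).degen _ _
  have hcf : ∀ n, qCoeff f3 n = qCoeff f2 n := fun n => by
    rw [hf3, AL.qCoeff_degen, if_pos (one_dvd n), Nat.div_one]
  have hnl1 : ∀ p ∈ l, ¬ p ∣ 1 := fun p hp h =>
    (hcop p hp).1.one_lt.ne' (Nat.dvd_one.mp h)
  have hcg1 : qCoeff g3 1 = 1 := by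
    rw [d1, if_neg (fun h => hq.out.one_lt.ne' (Nat.dvd_one.mp h)), c1 1 hnl1, AL.qCoeff_degen,
      if_pos (one_dvd _), Nat.div_one, hg.qCoeff_one]
  have hkey : f3 = qCoeff f3 1 • g3 := by
    rw [← sub_eq_zero]
    obtain ⟨h, hh⟩ : ∃ h, h = f3 - qCoeff f3 1 • g3 := ⟨_, rfl⟩
    rw [← hh]
    have hT : TEig (q * M * l.prod * q) D lam h := by
      rw [hh]; exact hT4.sub (hT3.smul _)
    have hc : ∀ n, qCoeff h n = qCoeff f3 n - qCoeff f3 1 * qCoeff g3 n := fun n => by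
      rw [hh, AL.qCoeff_sub, AL.qCoeff_smul]
    have h1 : qCoeff h 1 = 0 := by
      rw [hc, hcg1, mul_one, sub_self]
    have h2 := AL.coeff_eq_zero_of_coprime h hD fun n hn hnD =>
      AL.coeff_eq_zero_away hT h1 n hn hnD
    refine AL.cusp_ext fun n => ?_
    rw [AL.qCoeff_zero']
    by_cases hn : n.Coprime (q * M * l.prod * q)
    · exact h2 n hn
    · obtain ⟨p, hp, hpn, hpB⟩ := Nat.Prime.not_coprime_iff_dvd.mp hn
      have h3 : p = q ∨ p ∈ l := by
        have h4 : ∀ r : ℕ, r.Prime → r ∣ l.prod → r ∈ l := by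
          intro r hr hrl
          obtain ⟨s, hs, hrs⟩ := (Prime.dvd_prod_iff hr.prime).mp hrl
          have := (Nat.prime_dvd_prime_iff_eq hr (hcop s hs).1).mp hrs
          rw [this]; exact hs
        rcases hp.dvd_mul.mp hpB with h | h
        · rcases hp.dvd_mul.mp h with h | h
          · rcases hp.dvd_mul.mp h with h | h
            · exact Or.inl ((Nat.prime_dvd_prime_iff_eq hp hq.out).mp h)
            · exact Or.inr (hmem p hp h)
          · exact Or.inr (h4 p hp h)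
        · exact Or.inl ((Nat.prime_dvd_prime_iff_eq hp hq.out).mp h)
      rw [hc, hcf, d1]
      rcases h3 with rfl | h3
      · rw [if_pos hpn, mul_zero, sub_zero]
        exact b2' n (a2 n hpn)
      · rw [b2 n ⟨p, h3, hpn⟩, zero_sub, neg_eq_zero]
        split_ifs
        · rw [mul_zero]
        · rw [c2 n ⟨p, h3, hpn⟩, mul_zero]
  have hf30 : f3 ≠ 0 := by
    intro h
    have h1 : qCoeff f3 n' = qCoeff f1 n' := by
      rw [hcf, b1 n' fun p hp hpn => ?_]
      exact Nat.not_coprime_of_dvd_of_dvd (hcop p hp).1.one_lt hpn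
        ((hcop p hp).2.1.trans (by rw [hL]; exact dvd_mul_left _ _)) hn'
    rw [h, AL.qCoeff_zero'] at h1
    exact a4 h1.symm
  apply hf30
  apply pgL_injective
  rw [map_zero]
  have hM3 : Nat.Coprime q (M0 * M * l.prod * (M * l.prod)) :=
    ((hqM0.mul_right hqM).mul_right hPcop).mul_right (hqM.mul_right hPcop)
  refine WEig.eq_zero (q := q) (M' := M0 * M * l.prod * (M * l.prod)) hM3
    (w := qCoeff f3 1 • pgL (q * M * l.prod) g2) ?_ ?_ hε ?_
  · refine ((pgL_SI g2).mono ?_).smul _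
    exact ⟨M0 * M * l.prod, by ring⟩
  · have h1 := congrArg (pgL (q * M * l.prod * q)) hkey
    rw [h1, map_smul, d2, Eq'_smul, smul_sub, smul_comm]
  · have h1 : pgL (q * M * l.prod * q) f3 = pgL (L * l.prod) f2 := by
      rw [hf3, pgL_degen_one]
    rw [h1]
    exact b5.mono (dvd_mul_right _ _)

end Fermat.Agent.H22
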