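import Fermat.Agent.H22.OldTrace
import Fermat.Agent.TC.Twist
import Fermat.Agent.TC.Deg

/-!
# Level raising maps between `Hom(Γ_H(M), A)` and `Hom(Γ_{H'}(M q), A)`: the operator `W_q`
-/

set_option autoImplicit false

noncomputable section

namespace Fermat.Agent.H22

open Matrix.SpecialLinearGroup CongruenceSubgroup
open Fermat.Agent.TC
open scoped MatrixGroups

section W

variable (M q : ℕ) [NeZero M] [NeZero q] (H : Subgroup (ZMod M)ˣ)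

/-- The subgroup of `(ℤ/Mq)ˣ` attached to `H`. -/
abbrev Hq : Subgroup (ZMod (M * q))ˣ := H.comap (ZMod.unitsMap (dvd_mul_right M q))

instance neZero_mul_q : NeZero (M * q) := ⟨mul_ne_zero (NeZero.ne M) (NeZero.ne q)⟩

variable {M q H}

omit [NeZero M] [NeZero q] in
theorem mem_GamH_Hq {γ : SL(2, ℤ)} :
    γ ∈ GamH (M * q) (Hq M q H) ↔ γ ∈ GamH M H ∧ γ ∈ Gamma0 (M * q) := by
  rw [GamH_comap]
  exact Subgroup.mem_inf

omit [NeZero M] [NeZero q] in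
theorem GamH_Hq_le : GamH (M * q) (Hq M q H) ≤ GamH M H := fun _ h => (mem_GamH_Hq.mp h).1

omit [NeZero M] [NeZero q] in
theorem dvd_q_of_mem {γ : SL(2, ℤ)} (h : γ ∈ GamH (M * q) (Hq M q H)) : (q : ℤ) ∣ γ 1 0 :=
  dvd_of_mem (mem_GamH_Hq.mp h).2

omit [NeZero M] [NeZero q] in
/-- membership in `Γ_H(M)` depends only on the entries modulo `M` -/
theorem mem_GamH_congr {x y : SL(2, ℤ)} (hx : x ∈ GamH M H) (h10 : (M : ℤ) ∣ y 1 0)
    (h11 : (M : ℤ) ∣ y 1 1 - x 1 1) : y ∈ GamH M H := by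
  obtain ⟨h1, u, hu, hu2⟩ := mem_GamH'.mp hx
  refine mem_GamH'.mpr ⟨h10, u, hu, hu2.trans ?_⟩
  rw [ZMod.intCast_eq_intCast_iff_dvd_sub]
  exact h11

omit [NeZero M] in
theorem conjW_mem (hc : Nat.Coprime M q) {z : SL(2, ℤ)} (hz : z ∈ Gamma M)
    (hz1 : (q : ℤ) ∣ z 1 1) {γ : SL(2, ℤ)} (hγ : γ ∈ GamH (M * q) (Hq M q H)) :
    z * degSL q γ (dvd_q_of_mem hγ) * z⁻¹ ∈ GamH (M * q) (Hq M q H) := by
  obtain ⟨y, hy⟩ : ∃ y, y = degSL q γ (dvd_q_of_mem hγ) := ⟨_, rfl⟩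
  rw [← hy]
  have hy01 : y 0 1 = q * γ 0 1 := by rw [hy]; rfl
  have hy11 : y 1 1 = γ 1 1 := by rw [hy]; rfl
  have hyM : (M : ℤ) ∣ y 1 0 := by
    rw [hy]
    exact dvd_of_mem_Gamma0' (degSL_mem (mem_GamH_Hq.mp hγ).2)
  have h10 : (M : ℤ) ∣ (z * y * z⁻¹) 1 0 := by
    have h3 := entry_eq_of_Gamma hz ((Gamma M).inv_mem hz) y 1 0
    rw [(ZMod.intCast_zmod_eq_zero_iff_dvd _ _).mpr hyM] at h3
    exact (ZMod.intCast_zmod_eq_zero_iff_dvd _ _).mp h3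
  refine mem_GamH_Hq.mpr ⟨mem_GamH_congr (mem_GamH_Hq.mp hγ).1 h10 ?_, mem_Gamma0_mul hc h10 ?_⟩
  · have := dvd_sub_of_Gamma hz ((Gamma M).inv_mem hz) y
    rwa [hy11] at this
  · rw [mul_inv_10, AL.mul_11, hy01]
    refine dvd_sub (hz1.mul_left _) (Dvd.dvd.mul_right ?_ _)
    exact dvd_add (Dvd.intro _ (by ring : (q : ℤ) * (z 1 0 * γ 0 1) = z 1 0 * (q * γ 0 1)))
      (hz1.mul_right _)

/-- Data defining the operator `W_q`. -/
structure WDat (M q : ℕ) where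
  /-- the matrix -/
  z : SL(2, ℤ)
  hc : Nat.Coprime M q
  hz : z ∈ Gamma M
  hz1 : (q : ℤ) ∣ z 1 1

theorem exists_WDat (M q M' : ℕ) [NeZero M] [NeZero M'] [hq : Fact q.Prime] (hM : M ∣ M')
    (hc : Nat.Coprime M' q) : ∃ w : WDat M q, w.z ∈ Gamma M' := by
  obtain ⟨x, hx, hx0, hx1⟩ := exists_zreps (ℓ := q) M' hc
  refine ⟨⟨x (some 0), Nat.Coprime.coprime_dvd_left hM hc, Gamma_anti hM (hx _), ?_⟩, hx _⟩
  rw [← ZMod.intCast_zmod_eq_zero_iff_dvd]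
  exact (hx1 0).2

theorem degSL_one' (h : (q : ℤ) ∣ (1 : SL(2, ℤ)) 1 0) : degSL q 1 h = 1 := by
  apply Subtype.ext
  change degMat q ((1 : SL(2, ℤ)) : Matrix (Fin 2) (Fin 2) ℤ) = 1
  ext i j
  fin_cases i <;> fin_cases j <;> simp [degMat]

variable (H) in
/-- Conjugation by `W_q` on `Γ_{H'}(M q)`. -/
def conjW (w : WDat M q) : GamH (M * q) (Hq M q H) →* GamH (M * q) (Hq M q H) where
  toFun γ := ⟨w.z * degSL q γ (dvd_q_of_mem γ.2) * w.z⁻¹, conjW_mem w.hc w.hz w.hz1 γ.2⟩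
  map_one' := by
    apply Subtype.ext
    change w.z * degSL q 1 _ * w.z⁻¹ = 1
    rw [degSL_one', mul_one, mul_inv_cancel]
  map_mul' γ δ := by
    apply Subtype.ext
    change w.z * degSL q (γ * δ) _ * w.z⁻¹ = (w.z * degSL q γ _ * w.z⁻¹) *
      (w.z * degSL q δ _ * w.z⁻¹)
    rw [degSL_mul (dvd_q_of_mem γ.2) (dvd_q_of_mem δ.2)]
    group

variable (R : Type*) [CommRing R] (A : Type*) [AddCommGroup A] [Module R A]

variable (H) in
/-- The operator `W_q` on `Hom(Γ_{H'}(M q), A)`. -/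
def WL (w : WDat M q) :
    HM (GamH (M * q) (Hq M q H)) A →ₗ[R] HM (GamH (M * q) (Hq M q H)) A where
  toFun ψ := ψ.comp (MonoidHom.toAdditive (conjW H w))
  map_add' _ _ := rfl
  map_smul' _ _ := rfl

variable {R A}

omit [NeZero M] in
theorem rep_WL (w : WDat M q) :
    Rep (fun _ : Unit => (1 : R)) (fun _ => Wt q w.z) (WL H R A w) := by
  refine exists_conj (R := R) (Wt q w.z) (conjW H w) ?_ _ (fun ψ => rfl)
  intro γ
  exact Wt_emb w.z γ (dvd_q_of_mem γ.2)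

/-- `W_q` does not depend on the choices. -/
theorem WL_congr (w w' : WDat M q) (ψ : HM (GamH (M * q) (Hq M q H)) A) :
    WL H R A w ψ = WL H R A w' ψ := by
  refine (rep_WL (R := R) w).ext (rep_WL (R := R) w') (Equiv.refl _) (fun _ => rfl)
    (fun _ => ?_) ψ
  have h10 : (M : ℤ) ∣ (w.z * 1 * w'.z⁻¹) 1 0 := by
    have h3 := entry_eq_of_Gamma w.hz ((Gamma M).inv_mem w'.hz) 1 1 0
    rw [show (1 : SL(2, ℤ)) 1 0 = 0 from rfl, Int.cast_zero] at h3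
    exact (ZMod.intCast_zmod_eq_zero_iff_dvd _ _).mp h3
  refine ⟨⟨w.z * 1 * w'.z⁻¹, mem_GamH_Hq.mpr ⟨mem_GamH_congr (one_mem _) h10 ?_,
    mem_Gamma0_mul w.hc h10 ?_⟩⟩, ?_⟩
  · exact dvd_sub_of_Gamma w.hz ((Gamma M).inv_mem w'.hz) 1
  · rw [mul_one, mul_inv_10]
    exact dvd_sub (w'.hz1.mul_left _) (w.hz1.mul_right _)
  · change Wt q w.z = emb (w.z * 1 * w'.z⁻¹) * Wt q w'.z
    rw [Wt, Wt, map_mul, map_mul, map_one, map_inv]
    group

theorem dia_of_one_mod (g : Gamma0 (M * q)) (hg : (M : ℤ) ∣ (g : SL(2, ℤ)) 1 1 - 1)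
    (ψ : HM (GamH (M * q) (Hq M q H)) A) : dia R (M * q) (Hq M q H) A g ψ = ψ := by
  rw [dia_of_mem g]
  · rfl
  · rw [Subgroup.mem_comap]
    have h1 : ZMod.unitsMap (dvd_mul_right M q) (dChar (M * q) g) = 1 := by
      apply Units.ext
      rw [ZMod.unitsMap_val, dChar_val, Units.val_one]
      rw [ZMod.cast_intCast (dvd_mul_right M q)]
      have h2 := (ZMod.intCast_zmod_eq_zero_iff_dvd _ M).mpr hg
      push_cast at h2
      exact sub_eq_zero.mp h2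
    rw [h1]
    exact one_mem H

theorem dia_congr_mod (g g' : Gamma0 (M * q))
    (h : (M : ℤ) ∣ (g : SL(2, ℤ)) 1 1 - (g' : SL(2, ℤ)) 1 1)
    (ψ : HM (GamH (M * q) (Hq M q H)) A) :
    dia R (M * q) (Hq M q H) A g ψ = dia R (M * q) (Hq M q H) A g' ψ := by
  rw [dia_congr (g := g) (g' := g')]
  rw [Subgroup.mem_comap]
  have h1 : ZMod.unitsMap (dvd_mul_right M q) (dChar (M * q) g) =
      ZMod.unitsMap (dvd_mul_right M q) (dChar (M * q) g') := by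
    apply Units.ext
    rw [ZMod.unitsMap_val, dChar_val, ZMod.unitsMap_val, dChar_val,
      ZMod.cast_intCast (dvd_mul_right M q), ZMod.cast_intCast (dvd_mul_right M q), eq_comm,
      ZMod.intCast_eq_intCast_iff_dvd_sub]
    exact h
  rw [map_mul, map_inv, h1, inv_mul_cancel]
  exact one_mem H

/-- `W_q ^ 2` is a diamond operator. -/
theorem WL_WL (w : WDat M q) (g : Gamma0 (M * q))
    (hg : (M : ℤ) ∣ q * (g : SL(2, ℤ)) 1 1 - 1) (ψ : HM (GamH (M * q) (Hq M q H)) A) :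
    WL H R A w (WL H R A w ψ) = dia R (M * q) (Hq M q H) A g ψ := by
  have hN10 := Gamma_10 w.hz
  have hN11 := Gamma_11 w.hz
  have hdet := det_eq w.z
  obtain ⟨a, ha⟩ : ∃ a, a = w.z 0 0 := ⟨_, rfl⟩
  obtain ⟨b, hb⟩ : ∃ b, b = w.z 0 1 := ⟨_, rfl⟩
  obtain ⟨c, hcc⟩ : ∃ c, c = w.z 1 0 := ⟨_, rfl⟩
  obtain ⟨d, hd⟩ : ∃ d, d = w.z 1 1 := ⟨_, rfl⟩
  have hz1 := w.hz1
  rw [← ha, ← hb, ← hcc, ← hd] at hdet
  rw [← hcc] at hN10
  rw [← hd] at hN11 hz1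
  obtain ⟨d', hd'⟩ := hz1
  obtain ⟨δ, hδ⟩ : ∃ δ : SL(2, ℤ), δ = sl (q * a ^ 2 + b * c) (b * (a + d'))
    (q * c * (a + d')) (b * c + q * d' ^ 2)
    (by
      rw [hd'] at hdet
      linear_combination (q * a * d' - b * c + 1) * hdet) := ⟨_, rfl⟩
  have h1 : Wt q w.z * Wt q w.z = sc q * emb δ := by
    apply Units.ext
    rw [Units.val_mul, Units.val_mul, Wt, Units.val_mul, del_val, emb_val, hδ, emb_sl, ← ha, ← hb,
      ← hcc, ← hd, hd', sc_val]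
    rw [Matrix.mul_fin_two, Matrix.mul_fin_two, Matrix.mul_fin_two]
    push_cast
    ext i j
    fin_cases i <;> fin_cases j
    · simp; ring
    · simp; ring
    · simp; ring
    · simp; ring
  have hδm : δ ∈ Gamma0 (M * q) := by
    rw [hδ]
    apply sl_mem_Gamma0
    obtain ⟨k, hk⟩ := hN10
    exact ⟨k * (a + d'), by rw [hk]; push_cast; ring⟩
  have hδ11 : (M : ℤ) ∣ q * δ 1 1 - 1 := by
    have e : (q : ℤ) * δ 1 1 - 1 = (d - 1) * (d + 1) + c * (q * b) := by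
      rw [hδ, sl_11, hd']
      ring
    rw [e]
    exact dvd_add (hN11.mul_right _) (hN10.mul_right _)
  have h2 := (rep_WL (R := R) (H := H) (A := A) w).comp (rep_WL (R := R) (H := H) (A := A) w)
  have h3 := (rep_res_sc (R := R) (A := A) (le_refl (GamH (M * q) (Hq M q H))) q).comp
    (rep_dia (R := R) (H := Hq M q H) (A := A) ⟨δ, hδm⟩)
  have h4 : WL H R A w (WL H R A w ψ) = dia R (M * q) (Hq M q H) A ⟨δ, hδm⟩ ψ := by
    refine h2.ext h3 (Equiv.refl _) (fun _ => rfl) (fun _ => ⟨1, ?_⟩) ψ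
    change Wt q w.z * Wt q w.z = emb ((1 : GamH (M * q) (Hq M q H)) : SL(2, ℤ)) * (sc q * emb δ)
    rw [h1]
    simp
  rw [h4]
  refine dia_congr_mod _ _ ?_ ψ
  have h5 : (M : ℤ) ∣ q * (δ 1 1 - (g : SL(2, ℤ)) 1 1) := by
    have e : (q : ℤ) * (δ 1 1 - (g : SL(2, ℤ)) 1 1) = (q * δ 1 1 - 1) -
        (q * (g : SL(2, ℤ)) 1 1 - 1) := by ring
    rw [e]
    exact dvd_sub hδ11 hg
  exact (Nat.isCoprime_iff_coprime.mpr w.hc).dvd_of_dvd_mul_left h5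

/-- `W_q` commutes with diamond operators. -/
theorem WL_dia (w : WDat M q) (g : Gamma0 (M * q)) (ψ : HM (GamH (M * q) (Hq M q H)) A) :
    WL H R A w (dia R (M * q) (Hq M q H) A g ψ) =
      dia R (M * q) (Hq M q H) A g (WL H R A w ψ) := by
  have hgt : (GamH (M * q) (Hq M q ⊤)) = Gamma0 (M * q) := by
    rw [Hq, Subgroup.comap_top, GamH_top]
  have hgm : (g : SL(2, ℤ)) ∈ GamH (M * q) (Hq M q ⊤) := by rw [hgt]; exact g.2
  have hqg : (q : ℤ) ∣ (g : SL(2, ℤ)) 1 0 := dvd_q_of_mem hgm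
  have hm := conjW_mem w.hc w.hz w.hz1 hgm
  rw [hgt] at hm
  have h2 := (rep_dia (R := R) (H := Hq M q H) (A := A) g).comp
    (rep_WL (R := R) (H := H) (A := A) w)
  have h3 := (rep_WL (R := R) (H := H) (A := A) w).comp
    (rep_dia (R := R) (H := Hq M q H) (A := A) g)
  have h2' := (rep_dia (R := R) (H := Hq M q H) (A := A)
    ⟨w.z * degSL q g (dvd_q_of_mem hgm) * w.z⁻¹, hm⟩).comp (rep_WL (R := R) (H := H) (A := A) w)
  have h4 : WL H R A w (dia R (M * q) (Hq M q H) A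
      ⟨w.z * degSL q g (dvd_q_of_mem hgm) * w.z⁻¹, hm⟩ ψ) =
      dia R (M * q) (Hq M q H) A g (WL H R A w ψ) := by
    refine h2'.ext h3 (Equiv.refl _) (fun _ => rfl) (fun _ => ⟨1, ?_⟩) ψ
    change emb (w.z * degSL q g _ * w.z⁻¹) * Wt q w.z =
      emb ((1 : GamH (M * q) (Hq M q H)) : SL(2, ℤ)) * (Wt q w.z * emb (g : SL(2, ℤ)))
    rw [Wt_emb w.z g hqg]
    simp
  rw [← h4]
  congr 1
  refine dia_congr_mod _ _ ?_ ψ
  have h5 := dvd_sub_of_Gamma w.hz ((Gamma M).inv_mem w.hz) (degSL q g (dvd_q_of_mem hgm))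
  rw [degSL_one_one] at h5
  rw [← dvd_neg, neg_sub]
  exact h5

end W

end Fermat.Agent.H22
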