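import Fermat.Agent.H22.Raise9

/-!
# Level raising maps: compatibility with the transfers between levels
-/

set_option autoImplicit false
set_option linter.unusedSectionVars false

noncomputable section

namespace Fermat.Agent.H22

open Matrix.SpecialLinearGroup CongruenceSubgroup
open Fermat.Agent.TC
open scoped MatrixGroups

section Base

variable {N M q : ℕ} [NeZero N] [NeZero M] [NeZero q] {H₀ : Subgroup (ZMod N)ˣ}
  {H : Subgroup (ZMod M)ˣ}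

/-- representatives of `Γ_H(M)` in `Γ_{H₀}(N)` that lie in `Γ₀(N q)` -/
theorem exists_tjN (hNM : N ∣ M) (hq : q.Prime) (hc : Nat.Coprime M q)
    (hH : H ≤ H₀.comap (ZMod.unitsMap hNM)) :
    ∃ (J : Type) (_ : Fintype J) (t : J → SL(2, ℤ)), (∀ j, t j ∈ Gamma0 (N * q)) ∧
      (∀ j, t j ∈ GamH N H₀) ∧ (∀ g ∈ GamH N H₀, ∃! j, g * (t j)⁻¹ ∈ GamH M H) ∧
      (∀ g ∈ GamH (N * q) (Hq N q H₀), ∃! j, g * (t j)⁻¹ ∈ GamH (M * q) (Hq M q H)) := by
  have : Fact q.Prime := ⟨hq⟩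
  have hle : GamH M H ≤ GamH N H₀ := GamH_le_of_comap hNM hH
  have hcN : Nat.Coprime N q := Nat.Coprime.coprime_dvd_left hNM hc
  obtain ⟨z, hz, hz0, hz1⟩ := exists_zreps (ℓ := q) M hc
  have hreps : IsReps (GamH N H₀) (N * q) z :=
    zreps_isReps ((Gamma_le_GamH M H).trans hle) GamH_le_Gamma0 hcN hz hz0 hz1
  let J := GamH N H₀ ⧸ (GamH M H).subgroupOf (GamH N H₀)
  have hex : ∀ j : J, ∃ k, z k * ((j.out : GamH N H₀) : SL(2, ℤ))⁻¹ ∈ Gamma0 (N * q) := by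
    intro j
    obtain ⟨k, hk, -⟩ := hreps.uniq _ (j.out).2
    refine ⟨k, ?_⟩
    have h1 := (Gamma0 (N * q)).inv_mem hk
    have e : (((j.out : GamH N H₀) : SL(2, ℤ)) * (z k)⁻¹)⁻¹ =
        z k * ((j.out : GamH N H₀) : SL(2, ℤ))⁻¹ := by group
    rwa [e] at h1
  choose k hk using hex
  let t : J → SL(2, ℤ) := fun j => z (k j) * ((j.out : GamH N H₀) : SL(2, ℤ))⁻¹
  have htN : ∀ j, t j ∈ GamH N H₀ := fun j =>
    (GamH N H₀).mul_mem (hle (Gamma_le_GamH M H (hz _))) ((GamH N H₀).inv_mem (j.out).2)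
  have hmem : ∀ (g : SL(2, ℤ)) (hg : g ∈ GamH N H₀) (j : J),
      g * (t j)⁻¹ ∈ GamH M H ↔ (((⟨g, hg⟩ : GamH N H₀)⁻¹ : GamH N H₀) : J) = j := by
    intro g hg j
    have e : g * (t j)⁻¹ = (g * ((j.out : GamH N H₀) : SL(2, ℤ))) * (z (k j))⁻¹ := by
      change g * (z (k j) * ((j.out : GamH N H₀) : SL(2, ℤ))⁻¹)⁻¹ = _
      group
    have hzk : z (k j) ∈ GamH M H := Gamma_le_GamH M H (hz _)
    rw [e, (GamH M H).mul_mem_cancel_right ((GamH M H).inv_mem hzk)]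
    constructor
    · intro h
      rw [← QuotientGroup.out_eq' j]
      refine QuotientGroup.eq.mpr ?_
      rw [Subgroup.mem_subgroupOf]
      change ((⟨g, hg⟩ : GamH N H₀)⁻¹⁻¹ * j.out : GamH N H₀).1 ∈ GamH M H
      rw [inv_inv]
      exact h
    · intro h
      rw [← QuotientGroup.out_eq' j] at h
      have h2 := QuotientGroup.eq.mp h
      rw [Subgroup.mem_subgroupOf, inv_inv] at h2
      exact h2
  refine ⟨J, inferInstance, t, hk, htN, ?_, ?_⟩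
  · intro g hg
    exact ⟨_, (hmem g hg _).mpr rfl, fun j hj => ((hmem g hg j).mp hj).symm⟩
  · intro g hg
    obtain ⟨hg1, hg2⟩ := mem_GamH_Hq.mp hg
    refine ⟨_, mem_GamH_Hq.mpr ⟨(hmem g hg1 _).mpr rfl, ?_⟩,
      fun j hj => ((hmem g hg1 j).mp (mem_GamH_Hq.mp hj).1).symm⟩
    have h1 : g * (t (((⟨g, hg1⟩ : GamH N H₀)⁻¹ : GamH N H₀) : J))⁻¹ ∈ GamH M H :=
      (hmem g hg1 _).mpr rfl
    have h2 : g * (t (((⟨g, hg1⟩ : GamH N H₀)⁻¹ : GamH N H₀) : J))⁻¹ ∈ Gamma0 (N * q) :=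
      (Gamma0 (N * q)).mul_mem hg2 ((Gamma0 (N * q)).inv_mem (hk _))
    exact mem_Gamma0_mul hc (dvd_of_mem_Gamma0' (GamH_le_Gamma0 h1)) (dvd_of_mem h2)

variable {R : Type*} [CommRing R] {A : Type*} [AddCommGroup A] [Module R A]

variable (N M q H₀ H R A) in
/-- the transfer at the lower levels -/
abbrev TN : HM (GamH M H) A →ₗ[R] HM (GamH N H₀) A := TC.tr A R (GamH N H₀) (GamH M H)

variable (N M q H₀ H R A) in
/-- the transfer at the upper levels -/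
abbrev TNq : HM (GamH (M * q) (Hq M q H)) A →ₗ[R] HM (GamH (N * q) (Hq N q H₀)) A :=
  TC.tr A R (GamH (N * q) (Hq N q H₀)) (GamH (M * q) (Hq M q H))

theorem TNq_ri1 (hNM : N ∣ M) (hq : q.Prime) (hc : Nat.Coprime M q)
    (hH : H ≤ H₀.comap (ZMod.unitsMap hNM)) (ψ : HM (GamH M H) A) :
    TNq N M q H₀ H R A (ri1 M q H R A ψ) = ri1 N q H₀ R A (TN N M H₀ H R A ψ) := by
  obtain ⟨J, _, t, ht, htN, h1, h2⟩ := exists_tjN hNM hq hc hH
  have r1 := (rep_ri1 (M := M) (q := q) (H := H) (R := R) (A := A)).comp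
    (rep_tr_of (R := R) (A := A) (fun j => mem_GamH_Hq.mpr ⟨htN j, ht j⟩) h2)
  have r2 := (rep_tr_of (R := R) (A := A) htN h1).comp
    (rep_ri1 (M := N) (q := q) (H := H₀) (R := R) (A := A))
  refine r1.ext r2 (Equiv.prodComm _ _) (fun _ => by simp) (fun i => ⟨1, ?_⟩) ψ
  obtain ⟨a, b⟩ := i
  simp

theorem Hq_le (hNM : N ∣ M) (hH : H ≤ H₀.comap (ZMod.unitsMap hNM)) :
    Hq M q H ≤ (Hq N q H₀).comap (ZMod.unitsMap (Nat.mul_dvd_mul_right hNM q)) := by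
  intro u hu
  have h1 : ZMod.unitsMap hNM (ZMod.unitsMap (dvd_mul_right M q) u) ∈ H₀ := hH hu
  change ZMod.unitsMap (dvd_mul_right N q) (ZMod.unitsMap (Nat.mul_dvd_mul_right hNM q) u) ∈ H₀
  have h2 : ZMod.unitsMap (dvd_mul_right N q) (ZMod.unitsMap (Nat.mul_dvd_mul_right hNM q) u) =
      ZMod.unitsMap hNM (ZMod.unitsMap (dvd_mul_right M q) u) := by
    rw [← MonoidHom.comp_apply, ← MonoidHom.comp_apply, ZMod.unitsMap_comp, ZMod.unitsMap_comp]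
  rw [h2]
  exact h1

theorem rj1_TNq (hNM : N ∣ M) (hH : H ≤ H₀.comap (ZMod.unitsMap hNM))
    (ψ : HM (GamH (M * q) (Hq M q H)) A) :
    rj1 N q H₀ R A (TNq N M q H₀ H R A ψ) = TN N M H₀ H R A (rj1 M q H R A ψ) := by
  have h1 : GamH (M * q) (Hq M q H) ≤ GamH (N * q) (Hq N q H₀) :=
    GamH_le_of_comap (Nat.mul_dvd_mul_right hNM q) (Hq_le hNM hH)
  have h2 : GamH (N * q) (Hq N q H₀) ≤ GamH N H₀ := GamH_Hq_le
  have h3 : GamH (M * q) (Hq M q H) ≤ GamH M H := GamH_Hq_le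
  have h4 : GamH M H ≤ GamH N H₀ := GamH_le_of_comap hNM hH
  rw [rj1, rj1, tr_trans h1 h2, tr_trans h3 h4]

/-- the datum `W` at a lower level -/
def WDat.down (w : WDat M q) (hNM : N ∣ M) : WDat N q :=
  ⟨w.z, Nat.Coprime.coprime_dvd_left hNM w.hc, Gamma_anti hNM w.hz, w.hz1⟩

theorem TNq_WL (hNM : N ∣ M) (hq : q.Prime) (w : WDat M q)
    (hH : H ≤ H₀.comap (ZMod.unitsMap hNM)) (ψ : HM (GamH (M * q) (Hq M q H)) A) :
    TNq N M q H₀ H R A (WL H R A w ψ) = WL H₀ R A (w.down hNM) (TNq N M q H₀ H R A ψ) := by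
  classical
  obtain ⟨J, _, t, ht, htN, h1, h2⟩ := exists_tjN hNM hq w.hc hH
  have hm : ∀ j, t j ∈ GamH (N * q) (Hq N q H₀) := fun j => mem_GamH_Hq.mpr ⟨htN j, ht j⟩
  have r1 := (rep_WL (H := H) (R := R) (A := A) w).comp (rep_tr_of (R := R) (A := A) hm h2)
  have r2 := (rep_tr_of (R := R) (A := A) hm h2).comp
    (rep_WL (H := H₀) (R := R) (A := A) (w.down hNM))
  let y : J → SL(2, ℤ) := fun j => w.z * degSL q (t j) (dvd_q_of_mem (hm j)) * w.z⁻¹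
  have hy : ∀ j, y j ∈ GamH (N * q) (Hq N q H₀) := fun j =>
    conjW_mem (w.down hNM).hc (w.down hNM).hz w.hz1 (hm j)
  choose s hs hs' using fun j => h2 (y j) (hy j)
  have hzM : w.z ∈ GamH M H := Gamma_le_GamH M H w.hz
  have hsinj : Function.Injective s := by
    intro i j hij
    have hi := hs i
    have hj := hs j
    rw [hij] at hi
    have hg : y i * (y j)⁻¹ ∈ GamH (M * q) (Hq M q H) := by
      have h3 := (GamH (M * q) (Hq M q H)).mul_mem hi ((GamH (M * q) (Hq M q H)).inv_mem hj)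
      have e : y i * (t (s j))⁻¹ * (y j * (t (s j))⁻¹)⁻¹ = y i * (y j)⁻¹ := by group
      rwa [e] at h3
    obtain ⟨x, hx⟩ : ∃ x, x = t i * (t j)⁻¹ := ⟨_, rfl⟩
    have hxN : x ∈ GamH (N * q) (Hq N q H₀) := by
      rw [hx]
      exact (GamH (N * q) (Hq N q H₀)).mul_mem (hm i) ((GamH (N * q) (Hq N q H₀)).inv_mem (hm j))
    have hxt : x * t j = t i := by rw [hx]; group
    have hdx : degSL q x (dvd_q_of_mem hxN) * degSL q (t j) (dvd_q_of_mem (hm j)) =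
        degSL q (t i) (dvd_q_of_mem (hm i)) := by
      have h3 : (q : ℤ) ∣ (x * t j) 1 0 := by rw [hxt]; exact dvd_q_of_mem (hm i)
      rw [← degSL_mul (dvd_q_of_mem hxN) (dvd_q_of_mem (hm j)) h3]
      apply Subtype.ext
      change degMat q ((x * t j : SL(2, ℤ)) : Matrix (Fin 2) (Fin 2) ℤ) =
        degMat q ((t i : SL(2, ℤ)) : Matrix (Fin 2) (Fin 2) ℤ)
      rw [hxt]
    have hgx : y i * (y j)⁻¹ = w.z * degSL q x (dvd_q_of_mem hxN) * w.z⁻¹ := by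
      change w.z * degSL q (t i) _ * w.z⁻¹ * (w.z * degSL q (t j) _ * w.z⁻¹)⁻¹ = _
      rw [← hdx]
      group
    rw [hgx] at hg
    have hd : degSL q x (dvd_q_of_mem hxN) ∈ GamH M H := by
      have h3 := (mem_GamH_Hq.mp hg).1
      have h4 := (GamH M H).mul_mem ((GamH M H).mul_mem ((GamH M H).inv_mem hzM) h3) hzM
      have e : w.z⁻¹ * (w.z * degSL q x (dvd_q_of_mem hxN) * w.z⁻¹) * w.z =
          degSL q x (dvd_q_of_mem hxN) := by group
      rwa [e] at h4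
    obtain ⟨c, hc⟩ := dvd_q_of_mem hxN
    have hq0 : (q : ℤ) ≠ 0 := by exact_mod_cast NeZero.ne q
    have hd10 : (M : ℤ) ∣ c := by
      have h3 := dvd_of_mem_Gamma0' (GamH_le_Gamma0 hd)
      have h4 : (degSL q x (dvd_q_of_mem hxN)) 1 0 = c := by
        change x 1 0 / (q : ℤ) = c
        rw [hc, Int.mul_ediv_cancel_left _ hq0]
      rwa [h4] at h3
    have hxM : (M : ℤ) ∣ x 1 0 := by rw [hc]; exact hd10.mul_left _
    have hxmem : x ∈ GamH (M * q) (Hq M q H) := by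
      refine mem_GamH_Hq.mpr ⟨mem_GamH_congr hd hxM ?_, mem_Gamma0_mul w.hc hxM ⟨c, hc⟩⟩
      change (M : ℤ) ∣ x 1 1 - x 1 1
      rw [sub_self]
      exact dvd_zero _
    obtain ⟨k, hk, hk'⟩ := h2 (t i) (hm i)
    rw [hk' i (by change t i * (t i)⁻¹ ∈ _; rw [mul_inv_cancel]; exact one_mem _),
      hk' j (by change t i * (t j)⁻¹ ∈ _; rw [← hx]; exact hxmem)]
  have hsbij : Function.Bijective s := Finite.injective_iff_bijective.mp hsinj
  refine r1.ext r2 ((Equiv.prodComm _ _).trans (Equiv.prodCongr (Equiv.refl _)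
    (Equiv.ofBijective s hsbij))) (fun _ => by simp) (fun i => ?_) ψ
  obtain ⟨a, b⟩ := i
  refine ⟨⟨_, hs a⟩, ?_⟩
  change Wt q w.z * emb (t a) = emb (y a * (t (s a))⁻¹) * (emb (t (s a)) * Wt q w.z)
  rw [Wt_emb w.z (t a) (dvd_q_of_mem (hm a)), ← mul_assoc, ← map_mul, inv_mul_cancel_right]

end Base

end Fermat.Agent.H22
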