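import Fermat.Agent.H22.Raise10
import Fermat.Agent.TC.Pack7

/-!
# Level raising maps between general pairs of levels `(M, H)`, `(M', H')` with `M' = M q`
-/

set_option autoImplicit false
set_option linter.unusedSectionVars false

noncomputable section

universe u

namespace Fermat.Agent.H22

open Matrix.SpecialLinearGroup CongruenceSubgroup IsLocalRing
open Fermat.Agent.TC
open scoped MatrixGroups

/-- `(M', H')` is the level `(M q, H)` -/
structure RLv {M : ℕ} (q : ℕ) {M' : ℕ} (H : Subgroup (ZMod M)ˣ) (H' : Subgroup (ZMod M')ˣ) :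
    Prop where
  hM : M' = M * q
  hH : H' = H.comap (ZMod.unitsMap (Dvd.intro q hM.symm))

theorem RLv.refl {M : ℕ} (q : ℕ) (H : Subgroup (ZMod M)ˣ) : RLv q H (Hq M q H) := ⟨rfl, rfl⟩

section Maps

variable {M q M' : ℕ} [NeZero M] [NeZero q] [NeZero M'] {H : Subgroup (ZMod M)ˣ}
  {H' : Subgroup (ZMod M')ˣ} (L : RLv q H H')

include L in
theorem RLv.dvd : M ∣ M' := Dvd.intro q L.hM.symm

include L in
theorem RLv.le_comap : H' ≤ H.comap (ZMod.unitsMap L.dvd) := le_of_eq L.hH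

include L in
theorem RLv.le : GamH M' H' ≤ GamH M H := GamH_le_of_comap L.dvd L.le_comap

include L in
theorem RLv.dvd_q {γ : SL(2, ℤ)} (h : γ ∈ GamH M' H') : (q : ℤ) ∣ γ 1 0 := by
  obtain ⟨rfl, rfl⟩ := L
  exact dvd_q_of_mem h

include L in
theorem RLv.conj_mem (w : WDat M q) {γ : SL(2, ℤ)} (h : γ ∈ GamH M' H') :
    w.z * degSL q γ (L.dvd_q h) * w.z⁻¹ ∈ GamH M' H' := by
  obtain ⟨rfl, rfl⟩ := L
  exact conjW_mem w.hc w.hz w.hz1 h

/-- conjugation by `W_q` -/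
def RLv.conjW (w : WDat M q) : GamH M' H' →* GamH M' H' where
  toFun γ := ⟨w.z * degSL q γ (L.dvd_q γ.2) * w.z⁻¹, L.conj_mem w γ.2⟩
  map_one' := by
    obtain ⟨rfl, rfl⟩ := L
    exact (H22.conjW H w).map_one
  map_mul' γ δ := by
    obtain ⟨rfl, rfl⟩ := L
    exact (H22.conjW H w).map_mul γ δ

variable {R : Type*} [CommRing R] {A : Type*} [AddCommGroup A] [Module R A]

variable (R A) in
/-- the first raising map -/
def RLv.i1 : HM (GamH M H) A →ₗ[R] HM (GamH M' H') A := res A R L.le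

variable (R A) in
/-- the first lowering map -/
def RLv.j1 (_ : RLv q H H') : HM (GamH M' H') A →ₗ[R] HM (GamH M H) A :=
  TC.tr A R (GamH M H) (GamH M' H')

variable (R A) in
/-- the operator `W_q` -/
def RLv.W (w : WDat M q) : HM (GamH M' H') A →ₗ[R] HM (GamH M' H') A where
  toFun ψ := ψ.comp (MonoidHom.toAdditive (L.conjW w))
  map_add' _ _ := rfl
  map_smul' _ _ := rfl

end Maps

section Maps2

variable {M q M' : ℕ} [NeZero M] [NeZero q] [NeZero M'] {H : Subgroup (ZMod M)ˣ}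
  {H' : Subgroup (ZMod M')ˣ} (L : RLv q H H')
  {R : Type u} [CommRing R] {A : Type u} [AddCommGroup A] [Module R A]

variable (R A) in
/-- the second raising map -/
def RLv.i2 (w : WDat M q) : HM (GamH M H) A →ₗ[R] HM (GamH M' H') A :=
  (L.W R A w).comp ((L.i1 R A).comp (diaQ R M H A (kq M q H)))

variable (R A) in
/-- the second lowering map -/
def RLv.j2 (w : WDat M q) : HM (GamH M' H') A →ₗ[R] HM (GamH M H) A :=
  (diaQ R M H A (kq M q H)).comp ((L.j1 R A).comp (L.W R A w))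

theorem RLv.j1_i1 (hq : q.Prime) (hc : Nat.Coprime M q) (x : HM (GamH M H) A) :
    L.j1 R A (L.i1 R A x) = ((q : R) + 1) • x := by
  obtain ⟨rfl, rfl⟩ := L
  exact rj1_ri1 hq hc x

theorem RLv.j1_i2 (w : WDat M q) (hq : q.Prime) (x : HM (GamH M H) A) :
    L.j1 R A (L.i2 R A w x) = TP R M H A ⟨q, hq⟩ x := by
  obtain ⟨rfl, rfl⟩ := L
  exact rj1_ri2' w hq x

theorem RLv.j2_i1 (w : WDat M q) (hq : q.Prime) (x : HM (GamH M H) A) :
    L.j2 R A w (L.i1 R A x) = TP R M H A ⟨q, hq⟩ x := by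
  obtain ⟨rfl, rfl⟩ := L
  exact rj2_ri1 w hq x

theorem RLv.j2_i2 (w : WDat M q) (hq : q.Prime) (hodd : Odd (Nat.card ((ZMod M)ˣ ⧸ H)))
    (x : HM (GamH M H) A) : L.j2 R A w (L.i2 R A w x) = ((q : R) + 1) • x := by
  obtain ⟨rfl, rfl⟩ := L
  exact rj2_ri2 w hq hodd x

theorem RLv.i1_TP {r : Nat.Primes} (hq : q.Prime) (hrq : (r : ℕ) ≠ q) (x : HM (GamH M H) A) :
    L.i1 R A (TP R M H A r x) = TP R M' H' A r (L.i1 R A x) := by
  obtain ⟨rfl, rfl⟩ := L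
  exact ri1_TP hq hrq x

theorem RLv.i2_TP {r : Nat.Primes} (w : WDat M q) (hq : q.Prime) (hrq : (r : ℕ) ≠ q)
    (x : HM (GamH M H) A) : L.i2 R A w (TP R M H A r x) = TP R M' H' A r (L.i2 R A w x) := by
  obtain ⟨rfl, rfl⟩ := L
  exact ri2_TP w hq hrq x

theorem RLv.j1_TP {r : Nat.Primes} (hq : q.Prime) (hrq : (r : ℕ) ≠ q) (x : HM (GamH M' H') A) :
    L.j1 R A (TP R M' H' A r x) = TP R M H A r (L.j1 R A x) := by
  obtain ⟨rfl, rfl⟩ := L
  exact rj1_TP hq hrq x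

theorem RLv.j2_TP {r : Nat.Primes} (w : WDat M q) (hq : q.Prime) (hrq : (r : ℕ) ≠ q)
    (x : HM (GamH M' H') A) : L.j2 R A w (TP R M' H' A r x) = TP R M H A r (L.j2 R A w x) := by
  obtain ⟨rfl, rfl⟩ := L
  exact rj2_TP w hq hrq x

theorem RLv.i1_diaQ (g : (ZMod M')ˣ ⧸ H') (x : HM (GamH M H) A) :
    L.i1 R A (diaQ R M H A (prQ L.dvd L.le_comap g) x) = diaQ R M' H' A g (L.i1 R A x) := by
  obtain ⟨rfl, rfl⟩ := L
  exact ri1_diaQ g x

theorem RLv.i2_diaQ (w : WDat M q) (g : (ZMod M')ˣ ⧸ H') (x : HM (GamH M H) A) :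
    L.i2 R A w (diaQ R M H A (prQ L.dvd L.le_comap g) x) =
      diaQ R M' H' A g (L.i2 R A w x) := by
  obtain ⟨rfl, rfl⟩ := L
  exact ri2_diaQ w g x

theorem RLv.j1_diaQ (g : (ZMod M')ˣ ⧸ H') (x : HM (GamH M' H') A) :
    L.j1 R A (diaQ R M' H' A g x) = diaQ R M H A (prQ L.dvd L.le_comap g) (L.j1 R A x) := by
  obtain ⟨rfl, rfl⟩ := L
  exact rj1_diaQ g x

theorem RLv.j2_diaQ (w : WDat M q) (g : (ZMod M')ˣ ⧸ H') (x : HM (GamH M' H') A) :
    L.j2 R A w (diaQ R M' H' A g x) = diaQ R M H A (prQ L.dvd L.le_comap g) (L.j2 R A w x) := by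
  obtain ⟨rfl, rfl⟩ := L
  exact rj2_diaQ w g x

variable {σ : Type} {pr : σ → Nat.Primes}

theorem RLv.i1_hAct (hq : q.Prime) (hqσ : ∀ i, (pr i : ℕ) ≠ q) (t : MvPolynomial σ R)
    (x : HM (GamH M H) A) :
    L.i1 R A (hAct R M H A pr t x) = hAct R M' H' A pr t (L.i1 R A x) := by
  obtain ⟨rfl, rfl⟩ := L
  exact ri1_hAct hq hqσ t x

theorem RLv.i2_hAct (w : WDat M q) (hq : q.Prime) (hqσ : ∀ i, (pr i : ℕ) ≠ q)
    (t : MvPolynomial σ R) (x : HM (GamH M H) A) :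
    L.i2 R A w (hAct R M H A pr t x) = hAct R M' H' A pr t (L.i2 R A w x) := by
  obtain ⟨rfl, rfl⟩ := L
  exact ri2_hAct w hq hqσ t x

theorem RLv.j1_hAct (hq : q.Prime) (hqσ : ∀ i, (pr i : ℕ) ≠ q) (t : MvPolynomial σ R)
    (x : HM (GamH M' H') A) :
    L.j1 R A (hAct R M' H' A pr t x) = hAct R M H A pr t (L.j1 R A x) := by
  obtain ⟨rfl, rfl⟩ := L
  exact rj1_hAct hq hqσ t x

theorem RLv.j2_hAct (w : WDat M q) (hq : q.Prime) (hqσ : ∀ i, (pr i : ℕ) ≠ q)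
    (t : MvPolynomial σ R) (x : HM (GamH M' H') A) :
    L.j2 R A w (hAct R M' H' A pr t x) = hAct R M H A pr t (L.j2 R A w x) := by
  obtain ⟨rfl, rfl⟩ := L
  exact rj2_hAct w hq hqσ t x

end Maps2

section Trans

variable {N M q N' M' : ℕ} [NeZero N] [NeZero M] [NeZero q] [NeZero N'] [NeZero M']
  {H : Subgroup (ZMod M)ˣ} {H' : Subgroup (ZMod M')ˣ} {H₀' : Subgroup (ZMod N')ˣ}
  (L : RLv q H H') (L₀ : RLv q (⊤ : Subgroup (ZMod N)ˣ) H₀') (hNM : N ∣ M)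
  {R : Type u} [CommRing R] {A : Type u} [AddCommGroup A] [Module R A]

theorem top_comap : H ≤ (⊤ : Subgroup (ZMod N)ˣ).comap (ZMod.unitsMap hNM) :=
  fun _ _ => Subgroup.mem_top _

include hNM in
theorem TN_diaQ (g : (ZMod M)ˣ ⧸ H) (x : HM (GamH M H) A) :
    TC.tr A R (GamH N ⊤) (GamH M H) (diaQ R M H A g x) = TC.tr A R (GamH N ⊤) (GamH M H) x := by
  have h := tr_diaQ (R := R) (A := A) hNM (top_comap (H := H) hNM) g x
  rw [diaQ_top] at h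
  exact h

include L₀ hNM in
theorem RLv.tr_i1 (hq : q.Prime) (hc : Nat.Coprime M q) (x : HM (GamH M H) A) :
    TC.tr A R (GamH N' H₀') (GamH M' H') (L.i1 R A x) =
      L₀.i1 R A (TC.tr A R (GamH N ⊤) (GamH M H) x) := by
  obtain ⟨rfl, rfl⟩ := L
  obtain ⟨rfl, rfl⟩ := L₀
  exact TNq_ri1 hNM hq hc (top_comap hNM) x

include L₀ hNM in
theorem RLv.tr_W (hq : q.Prime) (w : WDat M q) (x : HM (GamH M' H') A) :
    TC.tr A R (GamH N' H₀') (GamH M' H') (L.W R A w x) =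
      L₀.W R A (w.down hNM) (TC.tr A R (GamH N' H₀') (GamH M' H') x) := by
  obtain ⟨rfl, rfl⟩ := L
  obtain ⟨rfl, rfl⟩ := L₀
  exact TNq_WL hNM hq w (top_comap hNM) x

include L₀ hNM in
theorem RLv.tr_i2 (hq : q.Prime) (w : WDat M q) (x : HM (GamH M H) A) :
    TC.tr A R (GamH N' H₀') (GamH M' H') (L.i2 R A w x) =
      L₀.i2 R A (w.down hNM) (TC.tr A R (GamH N ⊤) (GamH M H) x) := by
  have h1 : L.i2 R A w x = L.W R A w (L.i1 R A (diaQ R M H A (kq M q H) x)) := rfl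
  have h2 : ∀ y : HM (GamH N ⊤) A, L₀.i2 R A (w.down hNM) y =
      L₀.W R A (w.down hNM) (L₀.i1 R A (diaQ R N ⊤ A (kq N q ⊤) y)) := fun _ => rfl
  rw [h1, h2, L.tr_W L₀ hNM hq w, L.tr_i1 L₀ hNM hq w.hc, TN_diaQ hNM, diaQ_top]

include L₀ hNM in
theorem RLv.tr_j1 (x : HM (GamH M' H') A) :
    TC.tr A R (GamH N ⊤) (GamH M H) (L.j1 R A x) =
      L₀.j1 R A (TC.tr A R (GamH N' H₀') (GamH M' H') x) := by
  obtain ⟨rfl, rfl⟩ := L
  obtain ⟨rfl, rfl⟩ := L₀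
  exact (rj1_TNq hNM (top_comap hNM) x).symm

include L₀ hNM in
theorem RLv.tr_j2 (hq : q.Prime) (w : WDat M q) (x : HM (GamH M' H') A) :
    TC.tr A R (GamH N ⊤) (GamH M H) (L.j2 R A w x) =
      L₀.j2 R A (w.down hNM) (TC.tr A R (GamH N' H₀') (GamH M' H') x) := by
  have h1 : L.j2 R A w x = diaQ R M H A (kq M q H) (L.j1 R A (L.W R A w x)) := rfl
  have h2 : ∀ y : HM (GamH N' H₀') A, L₀.j2 R A (w.down hNM) y =
      diaQ R N ⊤ A (kq N q ⊤) (L₀.j1 R A (L₀.W R A (w.down hNM) y)) := fun _ => rfl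
  rw [h1, h2, TN_diaQ hNM, L.tr_j1 L₀ hNM, L.tr_W L₀ hNM hq w, diaQ_top]

end Trans

end Fermat.Agent.H22
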