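import Fermat.Agent.H22.Raise11
import Fermat.Agent.TC.Pack4

/-!
# Level raising data for the modules of the Taylor-Wiles levels
-/

set_option autoImplicit false
set_option linter.unusedSectionVars false
set_option linter.style.haveILetI false

noncomputable section

namespace Fermat.Agent.H22

open Matrix.SpecialLinearGroup CongruenceSubgroup IsLocalRing
open Fermat.Agent.TC Fermat.Agent.H25.TWM
open scoped MatrixGroups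

section Levels

variable {p r N M N' M' q : ℕ}

/-- `Q'` is the Taylor-Wiles datum `Q` at the level `N' = N q`. -/
structure RzQ (Q : QDat p N M r) (Q' : QDat p N' M' r) (q : ℕ) : Prop where
  hN : N' = N * q
  hq : q.Prime
  hqM : ¬ q ∣ M
  hqq : Q'.q = Q.q
  he : Q'.e = Q.e
  hκ : HEq Q'.κ Q.κ

variable {Q : QDat p N M r} {Q' : QDat p N' M' r}

theorem RzQ.hM (h : RzQ Q Q' q) : M' = M * q := by
  rw [Q'.hM, Q.hM, h.hqq, h.hN]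
  ring

theorem RzQ.hc (h : RzQ Q Q' q) : Nat.Coprime M q :=
  ((Nat.Prime.coprime_iff_not_dvd h.hq).mpr h.hqM).symm

theorem mem_H_top (Q : QDat p N M r) (u : (ZMod M)ˣ) :
    u ∈ Q.H ⊤ ↔ ∀ j, Q.κ j (ZMod.unitsMap (Q.q_dvd j) u) = 1 := by
  constructor
  · intro hu j
    have h1 : Q.toSD ⊤ u = 1 := hu
    have h2 : Q.kap u = 1 := congrArg Prod.snd h1
    exact congrFun h2 j
  · intro hu
    change Q.toSD ⊤ u = 1
    refine Prod.ext ?_ (funext hu)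
    exact (SQ.mk_eq_one (u := ZMod.unitsMap Q.dvd_M u)).mpr (Subgroup.mem_top _)

theorem RzQ.lv (h : RzQ Q Q' q) : RLv q (Q.H ⊤) (Q'.H ⊤) := by
  refine ⟨h.hM, ?_⟩
  ext u
  rw [Subgroup.mem_comap, mem_H_top, mem_H_top]
  obtain ⟨q₀, hM₀, prime₀, inj₀, ndvd₀, e₀, κ₀, surj₀⟩ := Q
  obtain ⟨q₁, hM₁, prime₁, inj₁, ndvd₁, e₁, κ₁, surj₁⟩ := Q'
  obtain ⟨h1, h2, h3, h4, h5, h6⟩ := h
  change q₁ = q₀ at h4
  change e₁ = e₀ at h5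
  subst h4
  subst h5
  have h7 : κ₁ = κ₀ := eq_of_heq h6
  subst h7
  refine forall_congr' fun j => ?_
  rw [← MonoidHom.comp_apply (ZMod.unitsMap _) (ZMod.unitsMap _), ZMod.unitsMap_comp]

theorem RzQ.lv0 (h : RzQ Q Q' q) :
    RLv q (⊤ : Subgroup (ZMod N)ˣ) (⊤ : Subgroup (ZMod N')ˣ) := ⟨h.hN, rfl⟩

variable {O : Type} [CommRing O] [IsDomain O] [IsDiscreteValuationRing O]
  [IsAdicComplete (maximalIdeal O) O] {D₀ : ℕ} {a : Pr D₀ → ResidueField O}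
  {α : Fin r → ResidueField O}

theorem RzQ.aQ_eq (h : RzQ Q Q' q) : aQ a Q' α = aQ a Q α := by
  obtain ⟨q₀, hM₀, prime₀, inj₀, ndvd₀, e₀, κ₀, surj₀⟩ := Q
  obtain ⟨q₁, hM₁, prime₁, inj₁, ndvd₁, e₁, κ₁, surj₁⟩ := Q'
  obtain ⟨h1, h2, h3, h4, h5, h6⟩ := h
  change q₁ = q₀ at h4
  subst h4
  rfl

end Levels

section Mem

variable {p r N M : ℕ} [NeZero N] [NeZero M] (Q : QDat p N M r) {O : Type} [CommRing O]
  [IsDomain O] [IsDiscreteValuationRing O] [IsAdicComplete (maximalIdeal O) O] {D₀ : ℕ}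
  {a : Pr D₀ → ResidueField O} {α : Fin r → ResidueField O}

theorem SQ_top (s : SQ N (⊤ : Subgroup (ZMod N)ˣ)) : s = 1 := by
  obtain ⟨u, rfl⟩ := SQ.mk_surjective (⊤ : Subgroup (ZMod N)ˣ) s
  exact SQ.mk_eq_one.mpr (Subgroup.mem_top u)

theorem mem_Mo {x : HM (GamH M (Q.H ⊤)) O} :
    x ∈ Mo Q ⊤ O a α 1 ↔ x ∈ locPart (hAct O M (Q.H ⊤) O (prD D₀)) (mx (aQ a Q α)) := by
  refine ⟨fun h => h.1, fun h => ⟨h, fun s => ?_⟩⟩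
  rw [SQ_top s]
  change diaQ O M (Q.H ⊤) O ((Q.E ⊤).symm 1) x = ((1 : Oˣ) : O) • x
  rw [map_one, map_one, Module.End.one_apply, Units.val_one, one_smul]

theorem mem_Mo0 {x : HM (GamH N ⊤) O} :
    x ∈ Mo0 ⊤ O a 1 ↔ x ∈ locPart (hAct O N ⊤ O (prD D₀)) (mx a) := by
  refine ⟨fun h => h.1, fun h => ⟨h, fun s => ?_⟩⟩
  rw [diaQ_top]
  change x = ((1 : Oˣ) : O) • x
  rw [Units.val_one, one_smul]

end Mem

section Maps

variable {p r N M N' M' q : ℕ} [NeZero N] [NeZero M] [NeZero N'] [NeZero M'] [NeZero q]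
  {Q : QDat p N M r} {Q' : QDat p N' M' r} (h : RzQ Q Q' q) {O : Type} [CommRing O]
  [IsDomain O] [IsDiscreteValuationRing O] [IsAdicComplete (maximalIdeal O) O] {D₀ : ℕ}
  {a : Pr D₀ → ResidueField O} {α : Fin r → ResidueField O} (hqD : q ∣ D₀) (w : WDat M q)

include hqD in
theorem prD_ne (i : Pr D₀) : ((prD D₀ i : Nat.Primes) : ℕ) ≠ q := by
  intro hi
  exact i.2.2 (hi ▸ hqD)

variable (a α) in
/-- first raising map at the Taylor-Wiles level -/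
def RzQ.i1 : Mo Q ⊤ O a α 1 →ₗ[O] Mo Q' ⊤ O a α 1 :=
  (h.lv.i1 O O).restrict fun x hx => (mem_Mo Q').mpr (by
    rw [h.aQ_eq]
    exact map_mem_locPart (h.lv.i1 O O) (h.lv.i1_hAct h.hq (prD_ne hqD)) ((mem_Mo Q).mp hx))

variable (a α) in
/-- second raising map at the Taylor-Wiles level -/
def RzQ.i2 : Mo Q ⊤ O a α 1 →ₗ[O] Mo Q' ⊤ O a α 1 :=
  (h.lv.i2 O O w).restrict fun x hx => (mem_Mo Q').mpr (by
    rw [h.aQ_eq]
    exact map_mem_locPart (h.lv.i2 O O w) (h.lv.i2_hAct w h.hq (prD_ne hqD)) ((mem_Mo Q).mp hx))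

variable (a α) in
/-- first lowering map at the Taylor-Wiles level -/
def RzQ.j1 : Mo Q' ⊤ O a α 1 →ₗ[O] Mo Q ⊤ O a α 1 :=
  (h.lv.j1 O O).restrict fun x hx => (mem_Mo Q).mpr (by
    rw [← h.aQ_eq]
    exact map_mem_locPart (h.lv.j1 O O) (h.lv.j1_hAct h.hq (prD_ne hqD)) ((mem_Mo Q').mp hx))

variable (a α) in
/-- second lowering map at the Taylor-Wiles level -/
def RzQ.j2 : Mo Q' ⊤ O a α 1 →ₗ[O] Mo Q ⊤ O a α 1 :=
  (h.lv.j2 O O w).restrict fun x hx => (mem_Mo Q).mpr (by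
    rw [← h.aQ_eq]
    exact map_mem_locPart (h.lv.j2 O O w) (h.lv.j2_hAct w h.hq (prD_ne hqD)) ((mem_Mo Q').mp hx))

variable (a α) in
/-- the normalised Hecke operator at `q` -/
def RzQ.Tq : Mo Q ⊤ O a α 1 →ₗ[O] Mo Q ⊤ O a α 1 := (h.j1 a α hqD).comp (h.i2 a α hqD w)

theorem RzQ.i1_val (x : Mo Q ⊤ O a α 1) : (h.i1 a α hqD x : HM (GamH M' (Q'.H ⊤)) O) =
    h.lv.i1 O O x := rfl

theorem RzQ.i2_val (x : Mo Q ⊤ O a α 1) : (h.i2 a α hqD w x : HM (GamH M' (Q'.H ⊤)) O) =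
    h.lv.i2 O O w x := rfl

theorem RzQ.j1_val (x : Mo Q' ⊤ O a α 1) : (h.j1 a α hqD x : HM (GamH M (Q.H ⊤)) O) =
    h.lv.j1 O O x := rfl

theorem RzQ.j2_val (x : Mo Q' ⊤ O a α 1) : (h.j2 a α hqD w x : HM (GamH M (Q.H ⊤)) O) =
    h.lv.j2 O O w x := rfl

theorem RzQ.Tq_val (x : Mo Q ⊤ O a α 1) : (h.Tq a α hqD w x : HM (GamH M (Q.H ⊤)) O) =
    TP O M (Q.H ⊤) O ⟨q, h.hq⟩ x :=
  h.lv.j1_i2 (R := O) (A := O) w h.hq (x : HM (GamH M (Q.H ⊤)) O)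

theorem RzQ.j1_i1 (x : Mo Q ⊤ O a α 1) :
    h.j1 a α hqD (h.i1 a α hqD x) = ((q : O) + 1) • x := by
  apply Subtype.ext
  rw [h.j1_val, h.i1_val]
  exact h.lv.j1_i1 (R := O) (A := O) h.hq h.hc (x : HM (GamH M (Q.H ⊤)) O)

theorem RzQ.j1_i2 (x : Mo Q ⊤ O a α 1) :
    h.j1 a α hqD (h.i2 a α hqD w x) = h.Tq a α hqD w x := rfl

theorem RzQ.j2_i1 (x : Mo Q ⊤ O a α 1) :
    h.j2 a α hqD w (h.i1 a α hqD x) = h.Tq a α hqD w x := by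
  apply Subtype.ext
  rw [h.j2_val, h.i1_val, h.Tq_val]
  exact h.lv.j2_i1 (R := O) (A := O) w h.hq (x : HM (GamH M (Q.H ⊤)) O)

theorem RzQ.j2_i2 (hodd : Odd (Nat.card ((ZMod M)ˣ ⧸ Q.H ⊤))) (x : Mo Q ⊤ O a α 1) :
    h.j2 a α hqD w (h.i2 a α hqD w x) = ((q : O) + 1) • x := by
  apply Subtype.ext
  rw [h.j2_val, h.i2_val]
  exact h.lv.j2_i2 (R := O) (A := O) w h.hq hodd (x : HM (GamH M (Q.H ⊤)) O)

variable {D : ℕ} {hD : D₀ ∣ D}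

theorem RzQ.i1_T (ℓ : Pr D) (x : Mo Q ⊤ O a α 1) :
    h.i1 a α hqD (HT.toEnd (MoA Q ⊤ O a α 1 hD) (MoT Q ⊤ O a α 1 hD ℓ) x) =
      HT.toEnd (MoA Q' ⊤ O a α 1 hD) (MoT Q' ⊤ O a α 1 hD ℓ) (h.i1 a α hqD x) := by
  apply Subtype.ext
  rw [h.i1_val, LvT_apply, LvT_apply, h.i1_val]
  exact h.lv.i1_TP h.hq (prD_ne hqD (prI hD ℓ)) _

theorem RzQ.i2_T (ℓ : Pr D) (x : Mo Q ⊤ O a α 1) :
    h.i2 a α hqD w (HT.toEnd (MoA Q ⊤ O a α 1 hD) (MoT Q ⊤ O a α 1 hD ℓ) x) =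
      HT.toEnd (MoA Q' ⊤ O a α 1 hD) (MoT Q' ⊤ O a α 1 hD ℓ) (h.i2 a α hqD w x) := by
  apply Subtype.ext
  rw [h.i2_val, LvT_apply, LvT_apply, h.i2_val]
  exact h.lv.i2_TP w h.hq (prD_ne hqD (prI hD ℓ)) _

theorem RzQ.j1_T (ℓ : Pr D) (x : Mo Q' ⊤ O a α 1) :
    h.j1 a α hqD (HT.toEnd (MoA Q' ⊤ O a α 1 hD) (MoT Q' ⊤ O a α 1 hD ℓ) x) =
      HT.toEnd (MoA Q ⊤ O a α 1 hD) (MoT Q ⊤ O a α 1 hD ℓ) (h.j1 a α hqD x) := by
  apply Subtype.ext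
  rw [h.j1_val, LvT_apply, LvT_apply, h.j1_val]
  exact h.lv.j1_TP h.hq (prD_ne hqD (prI hD ℓ)) _

theorem RzQ.j2_T (ℓ : Pr D) (x : Mo Q' ⊤ O a α 1) :
    h.j2 a α hqD w (HT.toEnd (MoA Q' ⊤ O a α 1 hD) (MoT Q' ⊤ O a α 1 hD ℓ) x) =
      HT.toEnd (MoA Q ⊤ O a α 1 hD) (MoT Q ⊤ O a α 1 hD ℓ) (h.j2 a α hqD w x) := by
  apply Subtype.ext
  rw [h.j2_val, LvT_apply, LvT_apply, h.j2_val]
  exact h.lv.j2_TP w h.hq (prD_ne hqD (prI hD ℓ)) _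

end Maps

end Fermat.Agent.H22
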