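import Fermat.Agent.H22.Raise2
import Fermat.Agent.TC.Control2

/-!
# Level raising maps between `Hom(Γ_H(M), A)` and `Hom(Γ_{H'}(M q), A)`, III
-/

set_option autoImplicit false

noncomputable section

universe u

namespace Fermat.Agent.H22

open Matrix.SpecialLinearGroup CongruenceSubgroup
open Fermat.Agent.TC
open scoped MatrixGroups

section Maps

variable {M q : ℕ} [NeZero M] [NeZero q] {H : Subgroup (ZMod M)ˣ}
  {R : Type*} [CommRing R] {A : Type*} [AddCommGroup A] [Module R A]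

variable (M q H R A) in
/-- The first raising map: restriction. -/
def ri1 : HM (GamH M H) A →ₗ[R] HM (GamH (M * q) (Hq M q H)) A := res A R GamH_Hq_le

variable (M q H R A) in
/-- The first lowering map: transfer. -/
def rj1 : HM (GamH (M * q) (Hq M q H)) A →ₗ[R] HM (GamH M H) A :=
  TC.tr A R (GamH M H) (GamH (M * q) (Hq M q H))

theorem ri1_TH {r : ℕ} [NeZero r] (hr : r.Prime) (hq : q.Prime) (hrq : r ≠ q)
    (ψ : HM (GamH M H) A) :
    ri1 M q H R A (TH R M H A r ψ) = TH R (M * q) (Hq M q H) A r (ri1 M q H R A ψ) :=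
  (TH_res_level (R := R) (A := A) GamH_Hq_le rfl hr
    (fun h => hrq ((Nat.prime_dvd_prime_iff_eq hr hq).mp h)) ψ).symm

theorem rj1_TH {r : ℕ} [NeZero r] (hr : r.Prime) (hq : q.Prime) (hrq : r ≠ q)
    (ψ : HM (GamH (M * q) (Hq M q H)) A) :
    rj1 M q H R A (TH R (M * q) (Hq M q H) A r ψ) = TH R M H A r (rj1 M q H R A ψ) := by
  refine (TH_tr_level (R := R) (A := A) GamH_Hq_le (dvd_mul_right M q) ?_ ψ).symm
  intro p hp hpr hpM
  have h1 : p = r := (Nat.prime_dvd_prime_iff_eq hp hr).mp hpr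
  rcases hp.dvd_mul.mp hpM with h | h
  · exact h
  · exact absurd (h1 ▸ (Nat.prime_dvd_prime_iff_eq hp hq).mp h) hrq

omit [NeZero M] [NeZero q] in
/-- restriction and diamonds -/
theorem ri1_dia (g : SL(2, ℤ)) (hg : g ∈ Gamma0 M) (hg' : g ∈ Gamma0 (M * q))
    (ψ : HM (GamH M H) A) :
    ri1 M q H R A (dia R M H A ⟨g, hg⟩ ψ) =
      dia R (M * q) (Hq M q H) A ⟨g, hg'⟩ (ri1 M q H R A ψ) := rfl

omit [NeZero q] in
/-- representatives for `Γ_{H'}(M q) \ Γ_H(M)` -/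
theorem exists_reps_q (hq : q.Prime) (hc : Nat.Coprime M q) :
    ∃ z : Option (ZMod q) → SL(2, ℤ), IsReps (GamH M H) (M * q) z := by
  have : Fact q.Prime := ⟨hq⟩
  obtain ⟨z, hz, hz0, hz1⟩ := exists_zreps (ℓ := q) M hc
  exact ⟨z, zreps_isReps (Gamma_le_GamH M H) GamH_le_Gamma0 hc hz hz0 hz1⟩

omit [NeZero q] [NeZero M] in
theorem uniq_of_reps_q {J : Type*} {z : J → SL(2, ℤ)} (hz : IsReps (GamH M H) (M * q) z) :
    ∀ g ∈ GamH M H, ∃! j, g * (z j)⁻¹ ∈ GamH (M * q) (Hq M q H) := by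
  intro g hg
  obtain ⟨j, hj, hj'⟩ := hz.uniq g hg
  refine ⟨j, mem_GamH_Hq.mpr ⟨(GamH M H).mul_mem hg ((GamH M H).inv_mem (hz.mem j)), hj⟩, ?_⟩
  intro k hk
  exact hj' k (mem_GamH_Hq.mp hk).2

theorem rep_rj1 {J : Type*} [Fintype J] {z : J → SL(2, ℤ)} (hz : IsReps (GamH M H) (M * q) z) :
    Rep (fun _ : J => (1 : R)) (fun j => emb (z j)) (rj1 M q H R A) :=
  rep_tr_of (R := R) (A := A) hz.mem (uniq_of_reps_q hz)

omit [NeZero M] [NeZero q] in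
theorem rep_ri1 : Rep (fun _ : Unit => (1 : R)) (fun _ => (1 : GG)) (ri1 M q H R A) :=
  rep_res (R := R) (A := A) GamH_Hq_le

/-- `j₁ i₁ = q + 1` -/
theorem rj1_ri1 (hq : q.Prime) (hc : Nat.Coprime M q) (ψ : HM (GamH M H) A) :
    rj1 M q H R A (ri1 M q H R A ψ) = ((q : R) + 1) • ψ := by
  have : Fact q.Prime := ⟨hq⟩
  obtain ⟨z, hz⟩ := exists_reps_q (H := H) hq hc
  have h1 := (rep_ri1 (R := R) (A := A) (H := H) (M := M) (q := q)).comp
    (rep_rj1 (R := R) (A := A) hz)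
  have h2 := h1.collapse 1 (fun i => ⟨⟨z i.1, hz.mem i.1⟩, by simp⟩)
  have h3 := (rep_res (R := R) (A := A) (le_refl (GamH M H))).smul ((q : R) + 1)
  refine h2.ext h3 (Equiv.refl _) (fun _ => ?_) (fun _ => ⟨1, by simp⟩) ψ
  simp [ZMod.card]


omit [NeZero M] in
theorem rep_ri2 (w : WDat M q) : Rep (fun _ : Unit => (1 : R)) (fun _ => del q)
    (fun ψ => WL H R A w (ri1 M q H R A ψ)) := by
  have h1 := (rep_ri1 (R := R) (A := A) (H := H) (M := M) (q := q)).comp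
    (rep_WL (R := R) (H := H) (A := A) w)
  have h2 := h1.collapse (del q) (fun i => ⟨⟨w.z, Gamma_le_GamH M H w.hz⟩, by
    change (1 : GG) * (emb w.z * del q) = emb w.z * del q
    rw [one_mul]⟩)
  refine (h2.change (Equiv.refl _) (fun _ => ?_) (fun _ => ⟨1, by simp⟩)).congr fun _ => rfl
  simp

/-- `j₁ i₂ = T_q` -/
theorem rj1_ri2 (w : WDat M q) (hq : q.Prime) (ψ : HM (GamH M H) A) :
    rj1 M q H R A (WL H R A w (ri1 M q H R A ψ)) = TH R M H A q ψ := by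
  have : Fact q.Prime := ⟨hq⟩
  obtain ⟨z, hz⟩ := exists_reps_q (H := H) hq w.hc
  have h1 := (rep_ri2 (R := R) (A := A) (H := H) w).comp (rep_rj1 (R := R) (A := A) hz)
  have h2 := rep_TH (R := R) (A := A) hz
  exact h1.ext h2 (Equiv.prodPUnit _) (fun _ => by simp) (fun _ => ⟨1, by simp⟩) ψ

end Maps

section Quot

variable {M q : ℕ} [NeZero M] [NeZero q] {H : Subgroup (ZMod M)ˣ}

theorem prQ_bijective : Function.Bijective (prQ (dvd_mul_right M q) (le_refl (Hq M q H))) := by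
  refine ⟨?_, prQ_surjective _ _⟩
  rw [injective_iff_map_eq_one]
  intro x hx
  obtain ⟨u, rfl⟩ := QuotientGroup.mk_surjective x
  have h1 : ((ZMod.unitsMap (dvd_mul_right M q) u : (ZMod M)ˣ) : (ZMod M)ˣ ⧸ H) = 1 := hx
  rw [QuotientGroup.eq_one_iff] at h1 ⊢
  exact h1

theorem hfx_Hq : hfx (M * q) (Hq M q H) = hfx M H := by
  unfold hfx
  rw [Nat.card_congr (Equiv.ofBijective _ (prQ_bijective (M := M) (q := q) (H := H)))]

omit [NeZero M] [NeZero q] in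
theorem prQ_uP {r : ℕ} (hr : r.Prime) (hq : q.Prime) (hrq : r ≠ q) :
    prQ (dvd_mul_right M q) (le_refl (Hq M q H)) ((uP (M * q) r : (ZMod (M * q))ˣ) :
      (ZMod (M * q))ˣ ⧸ Hq M q H) = ((uP M r : (ZMod M)ˣ) : (ZMod M)ˣ ⧸ H) := by
  have hrq' : r.Coprime q := (Nat.coprime_primes hr hq).mpr hrq
  change ((ZMod.unitsMap (dvd_mul_right M q) (uP (M * q) r) : (ZMod M)ˣ) : (ZMod M)ˣ ⧸ H) = _
  congr 1
  by_cases h : r.Coprime M
  · apply Units.ext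
    have h2 : r.Coprime (M * q) := h.mul_right hrq'
    rw [ZMod.unitsMap_val, uP_val h2, uP_val h]
    exact ZMod.cast_natCast (dvd_mul_right M q) r
  · have h2 : ¬ r.Coprime (M * q) := fun h2 => h (Nat.Coprime.coprime_mul_right_right h2)
    rw [uP, uP, dif_neg h, dif_neg h2, map_one]

variable {R : Type u} [CommRing R] {A : Type u} [AddCommGroup A] [Module R A]

theorem ri1_diaQ (g : (ZMod (M * q))ˣ ⧸ Hq M q H) (ψ : HM (GamH M H) A) :
    ri1 M q H R A (diaQ R M H A (prQ (dvd_mul_right M q) (le_refl (Hq M q H)) g) ψ) =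
      diaQ R (M * q) (Hq M q H) A g (ri1 M q H R A ψ) := by
  obtain ⟨u, rfl⟩ := QuotientGroup.mk_surjective g
  obtain ⟨γ, rfl⟩ := exists_gU (M * q) u
  have hγ' : (γ : SL(2, ℤ)) ∈ Gamma0 M := Gamma0_le_of_dvd (dvd_mul_right M q) γ.2
  have h1 : prQ (dvd_mul_right M q) (le_refl (Hq M q H))
      ((dChar (M * q) γ : (ZMod (M * q))ˣ) : (ZMod (M * q))ˣ ⧸ Hq M q H) =
      ((dChar M ⟨γ, hγ'⟩ : (ZMod M)ˣ) : (ZMod M)ˣ ⧸ H) := by
    rw [← unitsMap_dChar (dvd_mul_right M q) (γ : SL(2, ℤ)) γ.2]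
    rfl
  rw [h1, diaQ_dChar, diaQ_dChar]
  exact ri1_dia (γ : SL(2, ℤ)) hγ' γ.2 ψ

theorem rj1_diaQ (g : (ZMod (M * q))ˣ ⧸ Hq M q H) (ψ : HM (GamH (M * q) (Hq M q H)) A) :
    rj1 M q H R A (diaQ R (M * q) (Hq M q H) A g ψ) =
      diaQ R M H A (prQ (dvd_mul_right M q) (le_refl (Hq M q H)) g) (rj1 M q H R A ψ) :=
  tr_diaQ (dvd_mul_right M q) (le_refl _) g ψ

theorem WL_diaQ (w : WDat M q) (g : (ZMod (M * q))ˣ ⧸ Hq M q H)
    (ψ : HM (GamH (M * q) (Hq M q H)) A) :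
    WL H R A w (diaQ R (M * q) (Hq M q H) A g ψ) =
      diaQ R (M * q) (Hq M q H) A g (WL H R A w ψ) := by
  obtain ⟨u, rfl⟩ := QuotientGroup.mk_surjective g
  obtain ⟨γ, rfl⟩ := exists_gU (M * q) u
  rw [diaQ_dChar]
  exact WL_dia w γ ψ

theorem WL_WL' (w : WDat M q) (ψ : HM (GamH (M * q) (Hq M q H)) A)
    (g : (ZMod (M * q))ˣ ⧸ Hq M q H)
    (hg : prQ (dvd_mul_right M q) (le_refl (Hq M q H)) g =
      ((uP M q : (ZMod M)ˣ) : (ZMod M)ˣ ⧸ H)) :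
    diaQ R (M * q) (Hq M q H) A g (WL H R A w (WL H R A w ψ)) = ψ := by
  have hqM : q.Coprime M := w.hc.symm
  obtain ⟨u0, hu0⟩ := ZMod.unitsMap_surjective (dvd_mul_right M q) (uP M q)⁻¹
  obtain ⟨γ, hγ⟩ := exists_gU (M * q) u0
  have h11 : (((γ : SL(2, ℤ)) 1 1 : ℤ) : ZMod M) = (((uP M q)⁻¹ : (ZMod M)ˣ) : ZMod M) := by
    rw [← hu0, ← hγ, ZMod.unitsMap_val, dChar_val]
    exact (ZMod.cast_intCast (dvd_mul_right M q) _).symm
  have h1 : (M : ℤ) ∣ q * (γ : SL(2, ℤ)) 1 1 - 1 := by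
    rw [← ZMod.intCast_zmod_eq_zero_iff_dvd]
    push_cast
    rw [h11, ← uP_val hqM, ← Units.val_mul, mul_inv_cancel, Units.val_one, sub_self]
  rw [WL_WL w γ h1, ← diaQ_dChar]
  have h2 : g * ((dChar (M * q) γ : (ZMod (M * q))ˣ) : (ZMod (M * q))ˣ ⧸ Hq M q H) = 1 := by
    apply prQ_bijective.1
    rw [map_mul, map_one, hg, hγ]
    have h3 : prQ (dvd_mul_right M q) (le_refl (Hq M q H)) (u0 : (ZMod (M * q))ˣ ⧸ Hq M q H) =
        (((uP M q)⁻¹ : (ZMod M)ˣ) : (ZMod M)ˣ ⧸ H) := by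
      rw [← hu0]
      rfl
    rw [h3, ← QuotientGroup.mk_mul, mul_inv_cancel, QuotientGroup.mk_one]
  have h4 : diaQ R (M * q) (Hq M q H) A g (diaQ R (M * q) (Hq M q H) A
      ((dChar (M * q) γ : (ZMod (M * q))ˣ) : (ZMod (M * q))ˣ ⧸ Hq M q H) ψ) =
      diaQ R (M * q) (Hq M q H) A
        (g * ((dChar (M * q) γ : (ZMod (M * q))ˣ) : (ZMod (M * q))ˣ ⧸ Hq M q H)) ψ := by
    rw [map_mul]
    rfl
  rw [h4, h2, map_one]
  rfl

end Quot

section Norm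

variable {M q : ℕ} [NeZero M] [NeZero q] {H : Subgroup (ZMod M)ˣ}
  {R : Type u} [CommRing R] {A : Type u} [AddCommGroup A] [Module R A]

variable (M q H) in
/-- the half twist at `q` -/
def kq : (ZMod M)ˣ ⧸ H := ((uP M q : (ZMod M)ˣ) : (ZMod M)ˣ ⧸ H) ^ hfx M H

variable (H R A) in
/-- The second raising map, normalised. -/
def ri2 (w : WDat M q) : HM (GamH M H) A →ₗ[R] HM (GamH (M * q) (Hq M q H)) A :=
  (WL H R A w).comp ((ri1 M q H R A).comp (diaQ R M H A (kq M q H)))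

variable (H R A) in
/-- The second lowering map, normalised. -/
def rj2 (w : WDat M q) : HM (GamH (M * q) (Hq M q H)) A →ₗ[R] HM (GamH M H) A :=
  (diaQ R M H A (kq M q H)).comp ((rj1 M q H R A).comp (WL H R A w))

theorem ri2_apply (w : WDat M q) (ψ : HM (GamH M H) A) :
    ri2 H R A w ψ = WL H R A w (ri1 M q H R A (diaQ R M H A (kq M q H) ψ)) := rfl

theorem rj2_apply (w : WDat M q) (ψ : HM (GamH (M * q) (Hq M q H)) A) :
    rj2 H R A w ψ = diaQ R M H A (kq M q H) (rj1 M q H R A (WL H R A w ψ)) := rfl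

/-- `j₁ i₂ = T_q ⟨q⟩^{1/2}` -/
theorem rj1_ri2' (w : WDat M q) (hq : q.Prime) (ψ : HM (GamH M H) A) :
    rj1 M q H R A (ri2 H R A w ψ) = TP R M H A ⟨q, hq⟩ ψ := by
  rw [ri2_apply, rj1_ri2 w hq]
  exact (diaQ_TH R M H A (kq M q H) q ψ).symm

/-- `j₂ i₁ = T_q ⟨q⟩^{1/2}` -/
theorem rj2_ri1 (w : WDat M q) (hq : q.Prime) (ψ : HM (GamH M H) A) :
    rj2 H R A w (ri1 M q H R A ψ) = TP R M H A ⟨q, hq⟩ ψ := by
  rw [rj2_apply, rj1_ri2 w hq]
  rfl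

/-- `j₂ i₂ = q + 1` -/
theorem rj2_ri2 (w : WDat M q) (hq : q.Prime) (hodd : Odd (Nat.card ((ZMod M)ˣ ⧸ H)))
    (ψ : HM (GamH M H) A) :
    rj2 H R A w (ri2 H R A w ψ) = ((q : R) + 1) • ψ := by
  obtain ⟨g, hg⟩ := (prQ_bijective (M := M) (q := q) (H := H)).2
    ((uP M q : (ZMod M)ˣ) : (ZMod M)ˣ ⧸ H)
  have hk2 : kq M q H * kq M q H = ((uP M q : (ZMod M)ˣ) : (ZMod M)ˣ ⧸ H) := by
    rw [kq, ← pow_add, ← two_mul, pow_hfx hodd]
  have hdd : ∀ (a b : (ZMod M)ˣ ⧸ H) (x : HM (GamH M H) A),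
      diaQ R M H A a (diaQ R M H A b x) = diaQ R M H A (a * b) x := fun a b x => by
    rw [map_mul]; rfl
  rw [ri2_apply, rj2_apply]
  have h1 := WL_WL' (R := R) w (ri1 M q H R A (diaQ R M H A (kq M q H) ψ)) g hg
  have h2 : WL H R A w (WL H R A w (ri1 M q H R A (diaQ R M H A (kq M q H) ψ))) =
      diaQ R (M * q) (Hq M q H) A g⁻¹ (ri1 M q H R A (diaQ R M H A (kq M q H) ψ)) := by
    have h3 := congrArg (diaQ R (M * q) (Hq M q H) A g⁻¹) h1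
    have h4 : diaQ R (M * q) (Hq M q H) A g⁻¹ (diaQ R (M * q) (Hq M q H) A g
        (WL H R A w (WL H R A w (ri1 M q H R A (diaQ R M H A (kq M q H) ψ))))) =
        WL H R A w (WL H R A w (ri1 M q H R A (diaQ R M H A (kq M q H) ψ))) := by
      have h5 : ∀ x : HM (GamH (M * q) (Hq M q H)) A, diaQ R (M * q) (Hq M q H) A g⁻¹
          (diaQ R (M * q) (Hq M q H) A g x) =
          (diaQ R (M * q) (Hq M q H) A g⁻¹ * diaQ R (M * q) (Hq M q H) A g) x := fun _ => rfl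
      rw [h5, ← map_mul, inv_mul_cancel, map_one]
      rfl
    rw [h4] at h3
    exact h3
  rw [h2, ← ri1_diaQ, rj1_ri1 hq w.hc, map_inv, hg, hdd, map_smul, hdd]
  rw [mul_comm _ (kq M q H), ← mul_assoc, hk2, mul_inv_cancel, map_one]
  rfl

/-- The maps are equivariant for the diamond operators. -/
theorem ri2_diaQ (w : WDat M q) (g : (ZMod (M * q))ˣ ⧸ Hq M q H) (ψ : HM (GamH M H) A) :
    ri2 H R A w (diaQ R M H A (prQ (dvd_mul_right M q) (le_refl (Hq M q H)) g) ψ) =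
      diaQ R (M * q) (Hq M q H) A g (ri2 H R A w ψ) := by
  rw [ri2_apply, diaQ_comm, ri1_diaQ, WL_diaQ]
  rfl

theorem rj2_diaQ (w : WDat M q) (g : (ZMod (M * q))ˣ ⧸ Hq M q H)
    (ψ : HM (GamH (M * q) (Hq M q H)) A) :
    rj2 H R A w (diaQ R (M * q) (Hq M q H) A g ψ) =
      diaQ R M H A (prQ (dvd_mul_right M q) (le_refl (Hq M q H)) g) (rj2 H R A w ψ) := by
  rw [rj2_apply, WL_diaQ, rj1_diaQ, diaQ_comm]
  rfl

theorem ri1_THp {r : Nat.Primes} (hq : q.Prime) (hrq : (r : ℕ) ≠ q) (ψ : HM (GamH M H) A) :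
    ri1 M q H R A (THp R M H A r ψ) = THp R (M * q) (Hq M q H) A r (ri1 M q H R A ψ) := by
  have : NeZero (r : ℕ) := ⟨r.2.ne_zero⟩
  exact ri1_TH r.2 hq hrq ψ

theorem rj1_THp {r : Nat.Primes} (hq : q.Prime) (hrq : (r : ℕ) ≠ q)
    (ψ : HM (GamH (M * q) (Hq M q H)) A) :
    rj1 M q H R A (THp R (M * q) (Hq M q H) A r ψ) = THp R M H A r (rj1 M q H R A ψ) := by
  have : NeZero (r : ℕ) := ⟨r.2.ne_zero⟩
  exact rj1_TH r.2 hq hrq ψ

theorem WL_THp {r : Nat.Primes} (w : WDat M q) (hq : q.Prime) (hrq : (r : ℕ) ≠ q)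
    (ψ : HM (GamH (M * q) (Hq M q H)) A) :
    WL H R A w (THp R (M * q) (Hq M q H) A r ψ) =
      THp R (M * q) (Hq M q H) A r (WL H R A w ψ) := by
  have : NeZero (r : ℕ) := ⟨r.2.ne_zero⟩
  exact WL_TH w hq r.2 hrq ψ

theorem ri2_THp {r : Nat.Primes} (w : WDat M q) (hq : q.Prime) (hrq : (r : ℕ) ≠ q)
    (ψ : HM (GamH M H) A) :
    ri2 H R A w (THp R M H A r ψ) = THp R (M * q) (Hq M q H) A r (ri2 H R A w ψ) := by
  rw [ri2_apply, diaQ_THp, ri1_THp hq hrq, WL_THp w hq hrq]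
  rfl

theorem rj2_THp {r : Nat.Primes} (w : WDat M q) (hq : q.Prime) (hrq : (r : ℕ) ≠ q)
    (ψ : HM (GamH (M * q) (Hq M q H)) A) :
    rj2 H R A w (THp R (M * q) (Hq M q H) A r ψ) = THp R M H A r (rj2 H R A w ψ) := by
  rw [rj2_apply, WL_THp w hq hrq, rj1_THp hq hrq, diaQ_THp]
  rfl

theorem prQ_pow_uP {r : Nat.Primes} (hq : q.Prime) (hrq : (r : ℕ) ≠ q) :
    prQ (dvd_mul_right M q) (le_refl (Hq M q H)) (((uP (M * q) r : (ZMod (M * q))ˣ) :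
      (ZMod (M * q))ˣ ⧸ Hq M q H) ^ hfx (M * q) (Hq M q H)) =
      ((uP M r : (ZMod M)ˣ) : (ZMod M)ˣ ⧸ H) ^ hfx M H := by
  rw [map_pow, hfx_Hq, prQ_uP r.2 hq hrq]

theorem ri1_TP {r : Nat.Primes} (hq : q.Prime) (hrq : (r : ℕ) ≠ q) (ψ : HM (GamH M H) A) :
    ri1 M q H R A (TP R M H A r ψ) = TP R (M * q) (Hq M q H) A r (ri1 M q H R A ψ) := by
  rw [TP, TP, Module.End.mul_apply, Module.End.mul_apply, ← ri1_THp hq hrq, ← ri1_diaQ,
    prQ_pow_uP hq hrq]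

theorem rj1_TP {r : Nat.Primes} (hq : q.Prime) (hrq : (r : ℕ) ≠ q)
    (ψ : HM (GamH (M * q) (Hq M q H)) A) :
    rj1 M q H R A (TP R (M * q) (Hq M q H) A r ψ) = TP R M H A r (rj1 M q H R A ψ) := by
  rw [TP, TP, Module.End.mul_apply, Module.End.mul_apply, rj1_diaQ, rj1_THp hq hrq,
    prQ_pow_uP hq hrq]

theorem ri2_TP {r : Nat.Primes} (w : WDat M q) (hq : q.Prime) (hrq : (r : ℕ) ≠ q)
    (ψ : HM (GamH M H) A) :
    ri2 H R A w (TP R M H A r ψ) = TP R (M * q) (Hq M q H) A r (ri2 H R A w ψ) := by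
  rw [TP, TP, Module.End.mul_apply, Module.End.mul_apply, ← ri2_THp w hq hrq, ← ri2_diaQ,
    prQ_pow_uP hq hrq]

theorem rj2_TP {r : Nat.Primes} (w : WDat M q) (hq : q.Prime) (hrq : (r : ℕ) ≠ q)
    (ψ : HM (GamH (M * q) (Hq M q H)) A) :
    rj2 H R A w (TP R (M * q) (Hq M q H) A r ψ) = TP R M H A r (rj2 H R A w ψ) := by
  rw [TP, TP, Module.End.mul_apply, Module.End.mul_apply, rj2_diaQ, rj2_THp w hq hrq,
    prQ_pow_uP hq hrq]

end Norm

end Fermat.Agent.H22
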