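import Fermat.Agent.H22.OldPsi
import Fermat.Agent.H22.Raise3
import Fermat.Agent.TC.Pack6
import Fermat.Agent.H19.HeckeBound2

/-!
# Classes killed by both traces: the relation `U_q ^ 2 = w(q) ^ 2`
-/

set_option autoImplicit false
set_option linter.unusedSectionVars false

noncomputable section

universe u

namespace Fermat.Agent.H22

open Matrix.SpecialLinearGroup CongruenceSubgroup ModularForm ModularCurve
open Fermat.Agent.TC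
open ModularFormClass (qCoeff)
open scoped MatrixGroups

section Up

variable {K : Type*} [Field K] [CharZero K] {M q Q : ℕ} [NeZero M] [hq : Fact q.Prime] [NeZero q]
  {H : Subgroup (ZMod M)ˣ}

theorem germ_rj1 {J : Type*} [Fintype J] {z : J → SL(2, ℤ)} (hz : IsReps (GamH M H) (M * q) z)
    (φ : HM (GamH (M * q) (Hq M q H)) K) :
    germ K (rj1 M q H K K φ) = ∑ j, act K (emb (z j)) (germ K φ) := by
  rw [germ_rep (isCong_GamH (M * q) (Hq M q H)) (isCong_GamH M H) (rep_rj1 (R := K) (A := K) hz) φ]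
  exact Finset.sum_congr rfl fun j _ => one_smul _ _

theorem germ_WL (w : WDat M q) (φ : HM (GamH (M * q) (Hq M q H)) K) :
    germ K (WL H K K w φ) = act K (Wt q w.z) (germ K φ) := by
  rw [germ_rep (isCong_GamH (M * q) (Hq M q H)) (isCong_GamH (M * q) (Hq M q H))
    (rep_WL (R := K) (H := H) (A := K) w) φ]
  simp

/-- **A class killed by both traces satisfies `U_q ^ 2 = w(q) ^ 2`.** -/
theorem Up_Up_of_rj (w : WDat M q) (hQM : Q ∣ M) {wc : MulChar (ZMod Q) K}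
    {φ : HM (GamH (M * q) (Hq M q H)) K} (hφ : φ ∈ psiPart (M * q) Q (Hq M q H) wc)
    (h1 : rj1 M q H K K φ = 0) (h2 : rj1 M q H K K (WL H K K w φ) = 0) :
    Up q (Up q (germ K φ)) = wc ((q : ℕ) : ZMod Q) ^ 2 • germ K φ := by
  have hc := w.hc
  obtain ⟨x, hx, hx0, hx1⟩ := exists_zreps (ℓ := q) M hc
  have hxr : IsReps (GamH M H) (M * q) x :=
    zreps_isReps (Gamma_le_GamH M H) GamH_le_Gamma0 hc hx hx0 hx1
  obtain ⟨z, hz⟩ : ∃ z, z = x (some 0) := ⟨_, rfl⟩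
  have hzM : z ∈ Gamma M := by rw [hz]; exact hx _
  have hzq : (q : ℤ) ∣ z 1 1 := by
    rw [← ZMod.intCast_zmod_eq_zero_iff_dvd, hz]
    exact (hx1 0).2
  have hv : SI (M * q) (fun d => wc (d : ZMod Q) ^ 2) (germ K φ) := SI_of_psiPart hφ
  have hχ : ∀ d d' : ℤ, (M : ℤ) ∣ d - d' → (fun d : ℤ => wc (d : ZMod Q) ^ 2) d =
    (fun d : ℤ => wc (d : ZMod Q) ^ 2) d' := sq_congr hQM wc
  have hχ1 : (fun d : ℤ => wc (d : ZMod Q) ^ 2) 1 = 1 := by simp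
  have hW : act K (Wt q w.z) (germ K φ) = act K (Wt q z) (germ K φ) :=
    act_Wt_congr hc w.hz hzM w.hz1 hzq hχ hχ1 hv
  have hv' : SI (M * q) (fun d => wc (d : ZMod Q) ^ 2) (act K (Wt q z) (germ K φ)) :=
    hv.Wt hc hzM hzq hχ
  have e1 := congrArg (germ K) h1
  rw [germ_rj1 hxr, map_zero, trace_eq hc hx hx0 hx1 hχ hχ1 hv, ← hz] at e1
  have e2 := congrArg (germ K) h2
  rw [germ_rj1 hxr, map_zero, germ_WL, hW, trace_eq hc hx hx0 hx1 hχ hχ1 hv', ← hz] at e2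
  have hu : IsUnit ((q : ℕ) : ZMod Q) := (ZMod.isUnit_iff_coprime q Q).mpr
    (Nat.Coprime.coprime_dvd_right hQM hc.symm)
  have hne : wc ((q : ℕ) : ZMod Q) ≠ 0 := (hu.map wc).ne_zero
  obtain ⟨y, hy⟩ : ∃ y : ℤ, (M : ℤ) ∣ q * y - 1 := by
    obtain ⟨a, b, hab⟩ := Nat.isCoprime_iff_coprime.mpr hc
    exact ⟨b, -a, by linear_combination hab⟩
  have hWW : act K (Wt q z) (act K (Wt q z) (germ K φ)) =
      (wc ((q : ℕ) : ZMod Q) ^ 2)⁻¹ • germ K φ := by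
    rw [← mulChar_sq_eq hQM wc y hy]
    exact act_Wt_Wt hc hzM hzq hχ hv hy
  rw [hWW, Up_smul] at e2
  have h5 : act K (Wt q z) (germ K φ) = -((wc ((q : ℕ) : ZMod Q) ^ 2)⁻¹ • Up q (germ K φ)) :=
    eq_neg_of_add_eq_zero_left e2
  rw [h5, ← neg_smul, Up_smul, neg_smul] at e1
  have h6 : germ K φ = (wc ((q : ℕ) : ZMod Q) ^ 2)⁻¹ • Up q (Up q (germ K φ)) :=
    (add_neg_eq_zero.mp e1)
  have h7 := congrArg (fun v => wc ((q : ℕ) : ZMod Q) ^ 2 • v) h6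
  simp only [smul_smul] at h7
  rw [mul_inv_cancel₀ (pow_ne_zero 2 hne), one_smul] at h7
  exact h7.symm

end Up

/-- **The relation `U_t ^ 2 = w(t) ^ 2` is impossible** for an eigenclass attached to a form of
level prime to `t`. -/
theorem Up_Up_false {N N' t Q M' P : ℕ} [NeZero N] [NeZero N'] [NeZero Q] [NeZero P]
    [ht : Fact t.Prime] (hN' : N' = N * t) (hN : N' = Q * M') (hsq : Squarefree Q)
    (hcop : Nat.Coprime Q M') (hNt : Nat.Coprime N t) (htP : Nat.Coprime t P)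
    (hQP : Q ∣ P) {H : Subgroup (ZMod N')ˣ} {K : Type*} [Field K] [CharZero K]
    {w : MulChar (ZMod Q) K} (hw : NT Q w) {φ : HM (GamH N' H) K} (hφ0 : φ ≠ 0)
    (hφ : φ ∈ psiPart N' Q H w) {D : ℕ} (hD : D ≠ 0) {a : ℕ → K}
    (hT : ∀ (ℓ : ℕ) [NeZero ℓ], ℓ.Prime → ¬ ℓ ∣ N' → ¬ ℓ ∣ D → TH K N' H K ℓ φ = a ℓ • φ)
    (hE : ∃ ℓ : ℕ, ℓ.Prime ∧ ((N' * P : ℕ) : ℤ) ∣ (ℓ : ℤ) - 1 ∧ ¬ ℓ ∣ D ∧ a ℓ ≠ ℓ + 1)
    {N0 : ℕ} [NeZero N0] {g : CuspForm (Gamma0 N0) 2} (hg : g.IsNormalizedEigenform)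
    (hN0 : N0 ∣ N * P) (τ : integralClosure ℤ ℂ →+* K)
    (hgl : ∀ ℓ : ℕ, ℓ.Prime → ¬ ℓ ∣ N' → ¬ ℓ ∣ D → ∃ x : integralClosure ℤ ℂ,
        (x : ℂ) = qCoeff g ℓ ∧ τ x = w ((ℓ : ℕ) : ZMod Q) * a ℓ)
    (hgt : qCoeff g t ^ 2 ≠ ((t : ℂ) + 1) ^ 2)
    (hU : Up t (Up t (germ K φ)) = w ((t : ℕ) : ZMod Q) ^ 2 • germ K φ) : False := by
  classical
  obtain ⟨x0, hx0⟩ : ∃ x0, φ x0 ≠ 0 := by
    by_contra hc
    push Not at hc
    exact hφ0 (AddMonoidHom.ext hc)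
  let S : Set K := (Set.range φ ∪ Set.range w) ∪ Set.range τ
  have hcount : Countable (Additive (GamH N' H)) := by
    have : Countable (Matrix (Fin 2) (Fin 2) ℤ) := inferInstanceAs (Countable (Fin 2 → Fin 2 → ℤ))
    have : Countable SL(2, ℤ) := Subtype.countable
    have h2 : Countable (GamH N' H) := Subtype.countable
    exact h2
  have hcR : Countable (integralClosure ℤ ℂ) := countable_integralClosure
  have hS : S.Countable := ((Set.countable_range φ).union (Set.countable_range w)).union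
    (Set.countable_range τ)
  let F : Subfield K := Subfield.closure S
  have hF : Countable F := by
    rw [← Cardinal.mk_le_aleph0_iff]
    refine (Subfield.cardinalMk_closure_le_max S).trans (max_le ?_ le_rfl)
    exact Cardinal.le_aleph0_iff_set_countable.mpr hS
  have hmemφ : ∀ x, φ x ∈ F := fun x => Subfield.subset_closure (Or.inl (Or.inl ⟨x, rfl⟩))
  have hmemw : ∀ u, w u ∈ F := fun u => Subfield.subset_closure (Or.inl (Or.inr ⟨u, rfl⟩))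
  have hmemτ : ∀ u, τ u ∈ F := fun u => Subfield.subset_closure (Or.inr ⟨u, rfl⟩)
  let τF : integralClosure ℤ ℂ →+* F := τ.codRestrict F hmemτ
  let _ : Algebra (integralClosure ℤ ℂ) F := τF.toAlgebra
  have hfaith : FaithfulSMul (integralClosure ℤ ℂ) F := by
    rw [faithfulSMul_iff_algebraMap_injective]
    intro x y hxy
    exact tau_injective τ (congrArg Subtype.val (hxy : τF x = τF y))
  have hfaith2 : FaithfulSMul (integralClosure ℤ ℂ) ℂ := by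
    rw [faithfulSMul_iff_algebraMap_injective]
    exact Subtype.val_injective
  obtain ⟨j0⟩ := exists_embedding_complex_rel (integralClosure ℤ ℂ) F
  let j : F →+* ℂ := j0.toRingHom
  have hjτ : ∀ (x : integralClosure ℤ ℂ), j (τF x) = (x : ℂ) := fun x => j0.commutes x
  let i : F →+* K := F.subtype
  let φ0 : HM (GamH N' H) F := AddMonoidHom.mk' (fun x => ⟨φ x, hmemφ x⟩) fun x y =>
    Subtype.ext (map_add φ x y)
  let w0 : MulChar (ZMod Q) F :=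
    { toFun := fun u => ⟨w u, hmemw u⟩
      map_one' := Subtype.ext (map_one w)
      map_mul' := fun x y => Subtype.ext (map_mul w x y)
      map_nonunit' := fun u hu => Subtype.ext (w.map_nonunit hu) }
  have hφi : i.toAddMonoidHom.comp φ0 = φ := AddMonoidHom.ext fun _ => rfl
  have hwi : w0.ringHomComp i = w := MulChar.ext fun _ => rfl
  have hw0 : NT Q w0 := (NT_map i).mp (by rw [hwi]; exact hw)
  have hφ0' : φ0 ∈ psiPart N' Q H w0 := (mem_psiPart_map i).mp (by rw [hwi, hφi]; exact hφ)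
  have hx0' : φ0 x0 ≠ 0 := fun h => hx0 (congrArg Subtype.val h)
  -- the eigenvalues are in `F`
  let a0 : ℕ → F := fun ℓ => if h : ℓ = 0 then 0 else
    haveI : NeZero ℓ := ⟨h⟩
    TH F N' H F ℓ φ0 x0 / φ0 x0
  have ha0 : ∀ (ℓ : ℕ) [NeZero ℓ], ℓ.Prime → ¬ ℓ ∣ N' → ¬ ℓ ∣ D →
      i (a0 ℓ) = a ℓ ∧ TH F N' H F ℓ φ0 = a0 ℓ • φ0 := by
    intro ℓ _ hℓ hℓN hℓD
    have h1 := hT ℓ hℓ hℓN hℓD
    have h2 : TH K N' H K ℓ φ = i.toAddMonoidHom.comp (TH F N' H F ℓ φ0) := by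
      rw [← hφi, TH_map (R := F) i.toAddMonoidHom ℓ φ0]
    have h3 : i (TH F N' H F ℓ φ0 x0) = a ℓ * φ x0 := by
      have := DFunLike.congr_fun (h2.symm.trans h1) x0
      exact this
    have h4 : i (a0 ℓ) = a ℓ := by
      have h5 : a0 ℓ = TH F N' H F ℓ φ0 x0 / φ0 x0 := dif_neg hℓ.ne_zero
      rw [h5, map_div₀, h3]
      exact mul_div_cancel_right₀ _ hx0
    refine ⟨h4, (TH_eig_map i ℓ (a0 ℓ)).mp ?_⟩
    rw [hφi, h4]
    exact h1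
  have hφj0 : j.toAddMonoidHom.comp φ0 ≠ 0 := fun h => hx0' (j.injective (by
    rw [map_zero]; exact DFunLike.congr_fun h x0))
  -- the relation over `F` and over `ℂ`
  have hUF : Up t (Up t (germ F φ0)) = w0 ((t : ℕ) : ZMod Q) ^ 2 • germ F φ0 := by
    apply mapG_injective i
    rw [mapG_Up, mapG_Up, mapG_germ, hφi, hU, LinearMap.map_smulₛₗ, mapG_germ, hφi, map_pow]
    rfl
  have hUC : Up t (Up t (germ ℂ (j.toAddMonoidHom.comp φ0))) =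
      (w0.ringHomComp j) ((t : ℕ) : ZMod Q) ^ 2 • germ ℂ (j.toAddMonoidHom.comp φ0) := by
    have h1 := congrArg (mapG j) hUF
    rw [mapG_Up, mapG_Up, mapG_germ, LinearMap.map_smulₛₗ, mapG_germ, map_pow] at h1
    exact h1
  refine old_complex hN' hN hsq hcop hNt htP hQP (w := w0.ringHomComp j) ((NT_map j).mpr hw0)
    hφj0 ((mem_psiPart_map j).mpr hφ0') hD (a := fun ℓ => j (a0 ℓ))
    (fun ℓ _ hℓ hℓN hℓD => (TH_eig_map j ℓ (a0 ℓ)).mpr (ha0 ℓ hℓ hℓN hℓD).2) ?_ hg hN0 ?_ hgt hUC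
  · obtain ⟨ℓ, hℓ, hℓ1, hℓD, hne⟩ := hE
    have : NeZero ℓ := ⟨hℓ.ne_zero⟩
    have hℓN : ¬ ℓ ∣ N' := fun hh => by
      have h1 : (ℓ : ℤ) ∣ (ℓ : ℤ) - 1 :=
        (Int.natCast_dvd_natCast.mpr (hh.mul_right P)).trans hℓ1
      have h2 : (ℓ : ℤ) ∣ 1 := by
        have := dvd_sub (dvd_refl (ℓ : ℤ)) h1
        simpa using this
      have h3 : ℓ ∣ 1 := by exact_mod_cast h2
      exact hℓ.one_lt.ne' (Nat.dvd_one.mp h3)
    refine ⟨ℓ, hℓ, hℓ1, hℓD, fun h => hne ?_⟩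
    rw [← (ha0 ℓ hℓ hℓN hℓD).1]
    have h5 : a0 ℓ = (ℓ : F) + 1 := j.injective (by rw [h]; simp)
    rw [h5]
    simp
  · intro ℓ hℓ hℓN hℓD
    have : NeZero ℓ := ⟨hℓ.ne_zero⟩
    obtain ⟨x, hx1, hx2⟩ := hgl ℓ hℓ hℓN hℓD
    rw [← hx1, ← hjτ x]
    have h1 : τF x = w0 ((ℓ : ℕ) : ZMod Q) * a0 ℓ := by
      apply i.injective
      rw [map_mul, (ha0 ℓ hℓ hℓN hℓD).1]
      exact hx2
    rw [h1, map_mul]
    rfl

section Killed

variable {M q Q₀ M₀ : ℕ} [NeZero M] [NeZero q] {H : Subgroup (ZMod M)ˣ}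

theorem condHyp_Hq (C : CondHyp H Q₀ M₀) (hc : Nat.Coprime M q) :
    CondHyp (Hq M q H) Q₀ (M₀ * q) where
  hN := by rw [C.hN, mul_assoc]
  hsq := C.hsq
  hcop := C.hcop.mul_right (Nat.Coprime.coprime_dvd_left C.dvd hc)
  hH := by
    intro u hu
    rw [Subgroup.mem_comap]
    apply C.hH
    rw [← unitsMap_trans C.dvd (dvd_mul_right M q) u]
    exact hu

variable {K : Type u} [Field K] [CharZero K] {D : ℕ}

/-- **Classes killed by both traces are new at `q`.** -/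
theorem q_dvd_of_killed (hq : q.Prime) (C : CondHyp H Q₀ M₀)
    (hodd : Odd (Nat.card ((ZMod M)ˣ ⧸ H))) (w : WDat M q) (hD0 : D ≠ 0)
    {φ : HM (GamH (M * q) (Hq M q H)) K} (hφ0 : φ ≠ 0) {y : Pr D → K}
    (hT : ∀ ℓ : Pr D, TP K (M * q) (Hq M q H) K (prD D ℓ) φ = y ℓ • φ)
    {ψ : (ZMod (M * q))ˣ ⧸ Hq M q H → K} (hψ : ∀ g, diaQ K (M * q) (Hq M q H) K g φ = ψ g • φ)
    (hE : ∃ ℓ₀ : Pr D, ((M * q * Q₀ : ℕ) : ℤ) ∣ ((ℓ₀ : ℕ) : ℤ) - 1 ∧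
      y ℓ₀ ≠ ((ℓ₀ : ℕ) : K) + 1)
    (h1 : rj1 M q H K K φ = 0) (h2 : rj1 M q H K K (WL H K K w φ) = 0)
    {N0 : ℕ} [NeZero N0] {g : CuspForm (Gamma0 N0) 2} (hg : g.IsNormalizedEigenform)
    (hN0 : N0 ∣ M * q * Q₀) (τ : integralClosure ℤ ℂ →+* K)
    (hτ : ∀ ℓ : Pr D, ∃ z : integralClosure ℤ ℂ, (z : ℂ) = qCoeff g ℓ ∧ τ z = y ℓ) :
    q ∣ N0 := by
  have : Fact q.Prime := ⟨hq⟩
  by_contra hqN0
  have C' := condHyp_Hq C w.hc
  have hodd' : Odd (Nat.card ((ZMod (M * q))ˣ ⧸ Hq M q H)) := by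
    rw [Nat.card_congr (Equiv.ofBijective _ (prQ_bijective (M := M) (q := q) (H := H)))]
    exact hodd
  have hφd : φ ∈ diaEig K (M * q) (Hq M q H) ψ := mem_diaEig.mpr hψ
  obtain ⟨Q, hQ, wc, hNT, hle, hw⟩ := exists_cond_eig C'.dvd C'.hH hodd' hφd hφ0
  have hM0 := NeZero.ne M
  have hQ₀0 : Q₀ ≠ 0 := fun h => hM0 (by rw [C.hN, h, zero_mul])
  have hQ0 : Q ≠ 0 := fun h => hQ₀0 (Nat.eq_zero_of_zero_dvd (h ▸ hQ))
  have : NeZero Q := ⟨hQ0⟩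
  have : NeZero Q₀ := ⟨hQ₀0⟩
  have hQM : Q ∣ M := hQ.trans C.dvd
  have hU := Up_Up_of_rj w hQM (hle hφd) h1 h2
  obtain ⟨b, hb⟩ := hQ
  have hcq : Nat.Coprime q Q₀ := (Nat.Coprime.coprime_dvd_left C.dvd w.hc).symm
  -- the Hecke eigenvalues
  have hwne : ∀ ℓ : ℕ, ℓ.Prime → ¬ ℓ ∣ M * q → wc ((ℓ : ℕ) : ZMod Q) ≠ 0 := by
    intro ℓ hℓ hℓM
    have hu : IsUnit ((ℓ : ℕ) : ZMod Q) := (ZMod.isUnit_iff_coprime ℓ Q).mpr
      ((Nat.Prime.coprime_iff_not_dvd hℓ).mpr fun h => hℓM ((h.trans hQM).mul_right q))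
    exact (hu.map wc).ne_zero
  let A : ℕ → K := fun ℓ => if h : ℓ.Prime ∧ ¬ ℓ ∣ D then
    (wc ((ℓ : ℕ) : ZMod Q))⁻¹ * y ⟨ℓ, h⟩ else 0
  have hA : ∀ (ℓ : ℕ) (h : ℓ.Prime ∧ ¬ ℓ ∣ D), A ℓ = (wc ((ℓ : ℕ) : ZMod Q))⁻¹ * y ⟨ℓ, h⟩ :=
    fun ℓ h => dif_pos h
  have hQ₀M : Q₀ ∣ M * q := C'.dvd
  refine Up_Up_false (N := M) (N' := M * q) (t := q) (Q := Q) (M' := b * (M₀ * q)) (P := Q₀)
    rfl (by rw [C'.hN, hb, mul_assoc]) (Squarefree.squarefree_of_dvd ⟨b, hb⟩ C.hsq) ?_ w.hc hcq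
    ⟨b, hb⟩ hNT hφ0 (hle hφd) hD0 (a := A) ?_ ?_ hg ?_ τ ?_ ?_ hU
  · refine Nat.Coprime.mul_right ?_ (Nat.Coprime.coprime_dvd_left ⟨b, hb⟩ C'.hcop)
    have := C.hsq
    rw [hb] at this
    exact Nat.coprime_of_squarefree_mul this
  · intro ℓ _ hℓ hℓM hℓD
    have h3 := hT ⟨ℓ, hℓ, hℓD⟩
    rw [TP, Module.End.mul_apply] at h3
    have h4 : diaQ K (M * q) (Hq M q H) K (((uP (M * q) ℓ : (ZMod (M * q))ˣ) :
        (ZMod (M * q))ˣ ⧸ Hq M q H) ^ hfx (M * q) (Hq M q H)) (TH K (M * q) (Hq M q H) K ℓ φ) =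
        y ⟨ℓ, hℓ, hℓD⟩ • φ := h3
    have hcopℓ : Nat.Coprime ℓ (M * q) := (Nat.Prime.coprime_iff_not_dvd hℓ).mpr hℓM
    have h5 := dChar_unitsMap_uP (hQM.mul_right q) hcopℓ
    rw [diaQ_TH, hw (uP (M * q) ℓ) φ hφd, map_smul, h5] at h4
    rw [hA ℓ ⟨hℓ, hℓD⟩, mul_smul, ← h4, smul_smul, inv_mul_cancel₀ (hwne ℓ hℓ hℓM), one_smul]
  · obtain ⟨ℓ₀, h3, h4⟩ := hE
    refine ⟨ℓ₀, ℓ₀.2.1, h3, ℓ₀.2.2, ?_⟩
    rw [hA ℓ₀ ℓ₀.2]
    have h5 : ((ℓ₀ : ℕ) : ZMod Q) = 1 := by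
      have h6 : (Q : ℤ) ∣ ((ℓ₀ : ℕ) : ℤ) - 1 :=
        (Int.natCast_dvd_natCast.mpr ((Dvd.intro b hb.symm).trans (dvd_mul_left Q₀ (M * q)))).trans h3
      rw [← ZMod.intCast_zmod_eq_zero_iff_dvd] at h6
      push_cast at h6
      exact sub_eq_zero.mp h6
    rw [h5, map_one, inv_one, one_mul]
    exact h4
  · have h3 : N0 ∣ q * (M * Q₀) := hN0.trans (dvd_of_eq (by ring))
    exact ((Nat.Prime.coprime_iff_not_dvd hq).mpr hqN0).symm.dvd_of_dvd_mul_left h3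
  · intro ℓ hℓ hℓM hℓD
    obtain ⟨z, hz1, hz2⟩ := hτ ⟨ℓ, hℓ, hℓD⟩
    refine ⟨z, hz1, ?_⟩
    rw [hz2, hA ℓ ⟨hℓ, hℓD⟩, mul_inv_cancel_left₀ (hwne ℓ hℓ hℓM)]
  · exact H19.qCoeff_sq_ne hg hq hqN0

end Killed

end Fermat.Agent.H22
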