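import Fermat.Agent.H22.Raise14
import Fermat.Agent.H22.Raise13

/-!
# Newness at `q`, I: preliminaries
-/

set_option autoImplicit false
set_option linter.unusedSectionVars false
set_option linter.style.haveILetI false

noncomputable section

universe u

namespace Fermat.Agent.H22

open Matrix.SpecialLinearGroup CongruenceSubgroup IsLocalRing
open Fermat.Agent.TC
open ModularFormClass (qCoeff)
open scoped MatrixGroups

section Alg

/-- an injective endomorphism of a finite free module has a quasi-inverse -/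
theorem exists_quasi_inv {O W : Type*} [CommRing O] [IsDomain O] [AddCommGroup W] [Module O W]
    [Module.Free O W] [Module.Finite O W] (f : W →ₗ[O] W) (hf : Function.Injective f) :
    ∃ (g : W →ₗ[O] W) (n : O), n ≠ 0 ∧ ∀ x, f (g x) = n • x := by
  classical
  let b := Module.Free.chooseBasis O W
  let A := LinearMap.toMatrix b b f
  have hA : Matrix.toLin b b A = f := Matrix.toLin_toMatrix b b f
  refine ⟨Matrix.toLin b b A.adjugate, A.det, ?_, fun x => ?_⟩
  · intro h0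
    obtain ⟨v, hv, hv'⟩ := (Matrix.exists_mulVec_eq_zero_iff (M := A)).mpr h0
    apply hv
    have h1 : f (b.equivFun.symm v) = 0 := by
      apply b.equivFun.injective
      rw [map_zero, ← hA]
      have h2 : b.equivFun (Matrix.toLin b b A (b.equivFun.symm v)) = A.mulVec v := by
        have := LinearMap.toMatrix_mulVec_repr b b f (b.equivFun.symm v)
        rw [hA]
        change ⇑(b.repr (f _)) = _
        rw [← this]
        congr 1
        exact b.equivFun.apply_symm_apply v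
      rw [h2, hv']
    have h3 : b.equivFun.symm v = 0 := hf (by rw [h1, map_zero])
    have h4 := congrArg b.equivFun h3
    rwa [LinearEquiv.apply_symm_apply, map_zero] at h4
  · have h1 : f ∘ₗ Matrix.toLin b b A.adjugate = Matrix.toLin b b (A * A.adjugate) := by
      rw [Matrix.toLin_mul b b b, hA]
    have h2 : f (Matrix.toLin b b A.adjugate x) = (f ∘ₗ Matrix.toLin b b A.adjugate) x := rfl
    rw [h2, h1, Matrix.mul_adjugate, map_smul, Matrix.toLin_one]
    rfl

/-- extension of embeddings to integral elements -/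
theorem exists_extend {A K L : Type*} [CommRing A] [Field K] [Field L] [IsAlgClosed L]
    (i : A →+* K) (hi : Function.Injective i) (σ : A →+* L) (hσ : Function.Injective σ) :
    ∃ (S : Subring K) (σ' : S →+* L), (∀ x : K, i.IsIntegralElem x → x ∈ S) ∧
      ∀ (a : A) (h : i a ∈ S), σ' ⟨i a, h⟩ = σ a := by
  have : IsDomain A := hi.isDomain i
  letI : Algebra A K := i.toAlgebra
  letI : Algebra A L := σ.toAlgebra
  haveI : FaithfulSMul A K := (faithfulSMul_iff_algebraMap_injective A K).mpr hi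
  haveI : FaithfulSMul A L := (faithfulSMul_iff_algebraMap_injective A L).mpr hσ
  haveI : Algebra.IsIntegral A (integralClosure A K) := inferInstance
  haveI : FaithfulSMul A (integralClosure A K) := by
    rw [faithfulSMul_iff_algebraMap_injective]
    intro x y hxy
    exact hi (congrArg Subtype.val hxy)
  haveI : Algebra.IsAlgebraic A (integralClosure A K) := inferInstance
  let e : integralClosure A K →ₐ[A] L := IsAlgClosed.lift
  refine ⟨(integralClosure A K).toSubring, (e : integralClosure A K →+* L), fun x hx => hx, ?_⟩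
  intro a h
  exact e.commutes a

variable {O K : Type*} [CommRing O] [IsDomain O] [Field K] [CharZero K] [IsAlgClosed K]
  [Algebra O K] {ι : Type*}

/-- **Separation of systems of eigenvalues**: if every relation satisfied by `x` is satisfied by
`y` then `y` is a conjugate of `x`. -/
theorem exists_conj_tau (hK : Function.Injective (algebraMap O K)) (x y : ι → K)
    (hx : ∀ s : MvPolynomial ι O, IsIntegral O (MvPolynomial.aeval x s))
    (h : ∀ s : MvPolynomial ι O, MvPolynomial.aeval x s = 0 → MvPolynomial.aeval y s = 0)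
    (τ : integralClosure ℤ ℂ →+* K) :
    ∃ τ' : integralClosure ℤ ℂ →+* K, ∀ (i : ι) (z : integralClosure ℤ ℂ),
      τ z = x i → τ' z = y i := by
  let f : MvPolynomial ι O →ₐ[O] K := MvPolynomial.aeval x
  let A := MvPolynomial ι O ⧸ RingHom.ker f
  let i : A →ₐ[O] K := Ideal.kerLiftAlg f
  have hi : Function.Injective i := Ideal.kerLiftAlg_injective f
  let σ : A →ₐ[O] K := Ideal.Quotient.liftₐ (RingHom.ker f) (MvPolynomial.aeval y) (fun s hs => h s hs)
  have hAint : Algebra.IsIntegral O A := by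
    refine ⟨fun a => ?_⟩
    obtain ⟨s, rfl⟩ := Ideal.Quotient.mk_surjective a
    have h1 : IsIntegral O (i (Ideal.Quotient.mk _ s)) := hx s
    exact (isIntegral_algHom_iff i hi).mp h1
  have hAdom : IsDomain A := hi.isDomain (i : A →+* K)
  have hσ : Function.Injective σ := by
    have h1 : RingHom.ker (σ : A →+* K) = ⊥ := by
      refine Ideal.eq_bot_of_comap_eq_bot (R := O) ?_
      rw [eq_bot_iff]
      intro c hc
      have h2 : σ (algebraMap O A c) = 0 := hc
      rw [AlgHom.commutes] at h2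
      exact hK (h2.trans (map_zero _).symm)
    exact (RingHom.injective_iff_ker_eq_bot (σ : A →+* K)).mpr h1
  obtain ⟨S, σ', hS, hσ'⟩ := exists_extend (i : A →+* K) hi (σ : A →+* K) hσ
  have hmem : ∀ z : integralClosure ℤ ℂ, τ z ∈ S := by
    intro z
    apply hS
    have h1 : IsIntegral ℤ (z : integralClosure ℤ ℂ) := Algebra.IsIntegral.isIntegral z
    have h2 : IsIntegral ℤ (τ z) := h1.map τ.toIntAlgHom
    obtain ⟨P, hP, hP'⟩ := h2
    refine ⟨P.map (Int.castRingHom A), hP.map _, ?_⟩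
    rw [Polynomial.eval₂_map]
    have h3 : ((i : A →+* K).comp (Int.castRingHom A)) = algebraMap ℤ K := RingHom.ext_int _ _
    rw [h3]
    exact hP'
  refine ⟨σ'.comp (τ.codRestrict S hmem), fun j z hz => ?_⟩
  have h1 : (i : A →+* K) (Ideal.Quotient.mk _ (MvPolynomial.X j)) = τ z := by
    rw [hz]
    exact MvPolynomial.aeval_X x j
  have h2 := hσ' (Ideal.Quotient.mk _ (MvPolynomial.X j)) (by rw [h1]; exact hmem z)
  have h3 : σ (Ideal.Quotient.mk _ (MvPolynomial.X j)) = y j := MvPolynomial.aeval_X y j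
  change σ' (⟨τ z, _⟩ : S) = y j
  rw [← h3]
  refine Eq.trans ?_ h2
  congr 1
  exact Subtype.ext h1.symm

end Alg

section TpA

variable {O : Type u} [CommRing O] {M : ℕ} [NeZero M] {H : Subgroup (ZMod M)ˣ} {D₀ D : ℕ}

variable (O M H) in
/-- the action of polynomials in the normalised Hecke operators -/
def tpA (A : Type u) [AddCommGroup A] [Module O A] (D : ℕ) :
    MvPolynomial (Pr D) O →ₐ[O] Module.End O (HM (GamH M H) A) :=
  actHom (fun ℓ : Pr D => TP O M H A (prD D ℓ)) fun i j =>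
    LinearMap.ext fun x => TP_comm (prD D i) (prD D j) x

variable {A : Type u} [AddCommGroup A] [Module O A]

theorem tpA_X (ℓ : Pr D) (x : HM (GamH M H) A) :
    tpA O M H A D (MvPolynomial.X ℓ) x = TP O M H A (prD D ℓ) x := by
  rw [tpA, actHom_X]

variable {W : Submodule O (HM (GamH M H) O)} (hW : Stab O (prD D₀) W) (hD : D₀ ∣ D)
  {K' : Type} (j : K' → (ZMod M)ˣ ⧸ H)

theorem actT_rename (s : MvPolynomial (Pr D) O) (x : W) :
    ((actT hW (prI hD) j (MvPolynomial.rename Sum.inl s) x : W) : HM (GamH M H) O) =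
      tpA O M H O D s x := by
  refine act_intertwine (τ := (actT hW (prI hD) j).comp (MvPolynomial.rename Sum.inl))
    (τ' := tpA O M H O D) W.subtype.toAddMonoidHom (fun a x => rfl) ?_ s x
  intro ℓ x
  rw [tpA_X]
  change ((actT hW (prI hD) j (MvPolynomial.rename Sum.inl (MvPolynomial.X ℓ)) x : W) :
    HM (GamH M H) O) = _
  rw [MvPolynomial.rename_X, actT_inl]
  rfl

include hW hD in
theorem tpA_mem (s : MvPolynomial (Pr D) O) {x : HM (GamH M H) O} (hx : x ∈ W) :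
    tpA O M H O D s x ∈ W := by
  have h := actT_rename hW hD (K' := Empty) (fun k => k.elim) s ⟨x, hx⟩
  rw [← h]
  exact (actT hW (prI hD) (K' := Empty) (fun k => k.elim) (MvPolynomial.rename Sum.inl s) ⟨x, hx⟩).2

end TpA

section PtNe

variable {O : Type u} [CommRing O] [IsLocalRing O] [IsNoetherianRing O] {N : Type u}
  [AddCommGroup N] [Module O N] [Module.Finite O N] {τ : Type}
  {act : MvPolynomial τ O →ₐ[O] Module.End O N} {c : τ → ResidueField O}
  {K : Type u} [Field K] [Algebra O K]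

theorem pt_ne_of_locAct (h : LocAct act c) (i : τ) (n : ℕ)
    (hne : c i ≠ ((n : ℕ) : ResidueField O) + 1) (x : HT act →ₐ[O] K) :
    x (Ideal.Quotient.mk _ (MvPolynomial.X i)) ≠ ((n : ℕ) : K) + 1 := by
  intro h1
  have hP : evR c (MvPolynomial.X i - MvPolynomial.C (((n : ℕ) : O) + 1)) ≠ 0 := by
    rw [map_sub, evR_X, evR_C, map_add, map_natCast, map_one]
    exact sub_ne_zero.mpr hne
  have hu := isUnit_mk h hP
  have h6 := (hu.map x).ne_zero
  apply h6
  rw [map_sub, map_sub, sub_eq_zero]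
  have h7 : (Ideal.Quotient.mk (RingHom.ker act)) (MvPolynomial.C (((n : ℕ) : O) + 1)) =
      algebraMap O (HT act) (((n : ℕ) : O) + 1) := rfl
  rw [h7, AlgHom.commutes, map_add, map_natCast, map_one]
  exact h1

end PtNe

section Pts

variable {O : Type u} [CommRing O] [IsLocalRing O] [IsNoetherianRing O] {K : Type u} [Field K]
  [CharZero K] [IsAlgClosed K] [Algebra O K] {M Q₀ M₀ D₀ D : ℕ} [NeZero M]
  {H : Subgroup (ZMod M)ˣ} (C : CondHyp H Q₀ M₀) {p : ℕ} [Fact p.Prime] (hp2 : p ≠ 2)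
  (hpO : (p : O) ∈ maximalIdeal O) (hΔ : IsPGroup p ((ZMod M)ˣ ⧸ H))
  {a : Pr D₀ → ResidueField O} (hD : D₀ ∣ D) (hMD : M ∣ D)
  {W : Submodule O (HM (GamH M H) O)} (hW : Stab O (prD D₀) W) (hloc : LocW O (prD D₀) a W)
  (i₀ : Pr D) (hi₀ : ((M * Q₀ : ℕ) : ℤ) ∣ ((i₀ : ℕ) : ℤ) - 1)
  (ha₀ : a (prI hD i₀) ≠ ((i₀ : ℕ) : ResidueField O) + 1)
  (hK : Function.Injective (algebraMap O K))

include C hp2 hpO hΔ hD hMD hW hloc hi₀ ha₀ hK in
/-- the points of the Hecke algebra of a stable local submodule -/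
theorem exists_pts : ∃ (X : Type u) (_ : Finite X) (x : X → Pr D → K) (φ : X → HM (GamH M H) K),
    (∀ t, φ t ≠ 0) ∧ (∀ t, φ t ∈ spK K W) ∧
    (∀ t ℓ, TP K M H K (prD D ℓ) (φ t) = x t ℓ • φ t) ∧
    (∀ t, ∃ ψ : (ZMod M)ˣ ⧸ H → K, ∀ g, diaQ K M H K g (φ t) = ψ g • φ t) ∧
    (∀ t, x t i₀ ≠ ((i₀ : ℕ) : K) + 1) ∧
    (∀ t (s : MvPolynomial (Pr D) O), IsIntegral O (MvPolynomial.aeval (x t) s)) ∧
    ∀ s : MvPolynomial (Pr D) O, (∀ t, MvPolynomial.aeval (x t) s = 0) →
      ∀ w ∈ W, tpA O M H O D s w = 0 := by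
  have hodd := odd_card hp2 hΔ
  obtain ⟨X, hX, x, φ, h1, h2, h3, h4, h5⟩ := exists_points_W (K := K) C.dvd C.hH hodd C.hN C.hsq
    C.hcop hW hloc (prI hD i₀) hi₀ ha₀ (prI hD) (id : (ZMod M)ˣ ⧸ H → (ZMod M)ˣ ⧸ H)
    (fun ℓ h => ℓ.2.2 (h.trans hMD)) hK
  have hae : ∀ t (s : MvPolynomial (Pr D) O), MvPolynomial.aeval
      (fun ℓ => x t (Ideal.Quotient.mk _ (MvPolynomial.X (Sum.inl ℓ)))) s =
      x t (Ideal.Quotient.mk _ (MvPolynomial.rename Sum.inl s)) := by
    intro t s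
    have h : (MvPolynomial.aeval
        (fun ℓ => x t (Ideal.Quotient.mk _ (MvPolynomial.X (Sum.inl ℓ)))) :
        MvPolynomial (Pr D) O →ₐ[O] K) = (x t).comp ((Ideal.Quotient.mkₐ O _).comp
          (MvPolynomial.rename Sum.inl)) := by
      refine MvPolynomial.algHom_ext fun ℓ => ?_
      rw [MvPolynomial.aeval_X, AlgHom.comp_apply, AlgHom.comp_apply, MvPolynomial.rename_X]
      rfl
    rw [h]
    rfl
  refine ⟨X, hX, fun t ℓ => x t (Ideal.Quotient.mk _ (MvPolynomial.X (Sum.inl ℓ))), φ, h1, h2, h3,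
    fun t => ⟨_, h4 t⟩, fun t h => ?_, fun t s => ?_, fun s hs w hw => ?_⟩
  · haveI : Module.Finite O W := finiteW
    exact pt_ne_of_locAct (locAct_T hW (prI hD) (id : (ZMod M)ˣ ⧸ H → (ZMod M)ˣ ⧸ H) Fact.out hpO
      hΔ hloc) (Sum.inl i₀) (i₀ : ℕ) ha₀ (x t) h
  · rw [hae]
    haveI : Module.Finite O W := finiteW
    haveI : Module.Finite O (HT (actT hW (prI hD) (id : (ZMod M)ˣ ⧸ H → (ZMod M)ˣ ⧸ H))) :=
      HT.finite _
    exact (Algebra.IsIntegral.isIntegral (R := O) _).map (x t)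
  · have h6 := h5 (Ideal.Quotient.mk _ (MvPolynomial.rename Sum.inl s)) fun t => by
      rw [← hae]; exact hs t
    rw [Ideal.Quotient.eq_zero_iff_mem, RingHom.mem_ker] at h6
    have h7 := actT_rename hW hD (id : (ZMod M)ˣ ⧸ H → (ZMod M)ˣ ⧸ H) s ⟨w, hw⟩
    rw [h6] at h7
    exact h7.symm

end Pts

section Tq

variable {O : Type u} [CommRing O] [IsLocalRing O] [IsNoetherianRing O] {K : Type u} [Field K]
  [CharZero K] [IsAlgClosed K] [Algebra O K] {M Q₀ M₀ D₀ D : ℕ} [NeZero M]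
  {H : Subgroup (ZMod M)ˣ} (C : CondHyp H Q₀ M₀) {p : ℕ} [Fact p.Prime] (hp2 : p ≠ 2)
  (hpO : (p : O) ∈ maximalIdeal O) (hΔ : IsPGroup p ((ZMod M)ˣ ⧸ H))
  {a : Pr D₀ → ResidueField O} (hD : D₀ ∣ D) (hD0 : D ≠ 0) (hMD : M ∣ D)
  {W : Submodule O (HM (GamH M H) O)} (hW : Stab O (prD D₀) W) (hloc : LocW O (prD D₀) a W)
  (i₀ : Pr D) (hi₀ : ((M * Q₀ : ℕ) : ℤ) ∣ ((i₀ : ℕ) : ℤ) - 1)
  (ha₀ : a (prI hD i₀) ≠ ((i₀ : ℕ) : ResidueField O) + 1)
  (hK : Function.Injective (algebraMap O K)) (q : Nat.Primes) (hqM : ¬ (q : ℕ) ∣ M)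
  (hTq : ∀ x ∈ W, TP O M H O q x ∈ W)

/-- the Hecke operators of `LocW` act injectively -/
theorem locW_inj (hW : Stab O (prD D₀) W) (hloc : LocW O (prD D₀) a W)
    {s : MvPolynomial (Pr D₀) O} (hs : evR a s ≠ 0)
    {x : HM (GamH M H) O} (hx : x ∈ W) (h : hAct O M H O (prD D₀) s x = 0) : x = 0 := by
  haveI : Module.Finite O W := finiteW
  have hmem : ∀ y ∈ W, hAct O M H O (prD D₀) s y ∈ W := fun y hy => by
    rw [← actW_rename hW s ⟨y, hy⟩]
    exact (actW hW (MvPolynomial.rename Sum.inl s) ⟨y, hy⟩).2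
  let f : W →ₗ[O] W := (hAct O M H O (prD D₀) s).restrict hmem
  have hsurj : Function.Surjective f := by
    intro y
    obtain ⟨z, hz, hzy⟩ := hloc s hs y y.2
    exact ⟨⟨z, hz⟩, Subtype.ext hzy⟩
  haveI : IsNoetherian O W := inferInstance
  have hinj := (IsNoetherian.bijective_of_surjective_endomorphism f hsurj).1
  have h1 : f ⟨x, hx⟩ = 0 := Subtype.ext h
  exact congrArg Subtype.val (hinj (h1.trans (map_zero f).symm))

theorem TP_hAct (ℓ : Nat.Primes) {A : Type u} [AddCommGroup A] [Module O A]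
    (s : MvPolynomial (Pr D₀) O) (x : HM (GamH M H) A) :
    TP O M H A ℓ (hAct O M H A (prD D₀) s x) = hAct O M H A (prD D₀) s (TP O M H A ℓ x) := by
  refine act_intertwine (TP O M H A ℓ).toAddMonoidHom (fun a x => map_smul (TP O M H A ℓ) a x) ?_ s x
  intro i x
  rw [hAct_X]
  change TP O M H A ℓ (THp O M H A (prD D₀ i) x) = THp O M H A (prD D₀ i) (TP O M H A ℓ x)
  rw [TP, Module.End.mul_apply, Module.End.mul_apply, ← diaQ_THp]
  congr 1
  exact congrArg (fun F : Module.End O (HM (GamH M H) A) => F x) (THp_comm H A ℓ (prD D₀ i))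

include C hp2 hpO hΔ hD hD0 hMD hW hloc hi₀ ha₀ hK hqM hTq in
/-- **The strict Hecke bound**: `T_q` does not have the eigenvalues `±(q + 1)` on `W`. -/
theorem Tq_eig_ne {c : ℤ} (hc : c ^ 2 = (((q : ℕ) : ℤ) + 1) ^ 2) {x : HM (GamH M H) O} (hx : x ∈ W)
    (h : TP O M H O q x = (c : O) • x) : x = 0 := by
  classical
  let Wc : Submodule O (HM (GamH M H) O) := W ⊓ LinearMap.ker (TP O M H O q - (c : O) • 1)
  have hmem : ∀ {y}, y ∈ Wc ↔ y ∈ W ∧ TP O M H O q y = (c : O) • y := by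
    intro y
    rw [Submodule.mem_inf, LinearMap.mem_ker, LinearMap.sub_apply, sub_eq_zero]
    rfl
  have hWc : Stab O (prD D₀) Wc := by
    refine ⟨fun i y hy => ?_, fun g y hy => ?_⟩
    · rw [hmem] at hy ⊢
      refine ⟨hW.T i y hy.1, ?_⟩
      have h1 := TP_hAct (O := O) (M := M) (H := H) (D₀ := D₀) (A := O) q (MvPolynomial.X i) y
      rw [hAct_X] at h1
      have h2 : TP O M H O q (THp O M H O (prD D₀ i) y) =
          THp O M H O (prD D₀ i) (TP O M H O q y) := h1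
      rw [h2, hy.2, map_smul]
    · rw [hmem] at hy ⊢
      refine ⟨hW.dia g y hy.1, ?_⟩
      rw [← diaQ_TP, hy.2, map_smul]
  have hlocc : LocW O (prD D₀) a Wc := by
    intro s hs y hy
    rw [hmem] at hy
    obtain ⟨z, hz, hzy⟩ := hloc s hs y hy.1
    refine ⟨z, hmem.mpr ⟨hz, ?_⟩, hzy⟩
    rw [← sub_eq_zero]
    refine locW_inj hW hloc hs (sub_mem (hTq z hz) (Submodule.smul_mem _ _ hz)) ?_
    rw [map_sub, map_smul, ← TP_hAct, hzy, hy.2, sub_self]
  obtain ⟨X, hX, y, φ, h1, h2, h3, h4, h5, h6, h7⟩ := exists_pts (K := K) C hp2 hpO hΔ hD hMD hWc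
    hlocc i₀ hi₀ ha₀ hK
  by_contra hx0
  -- there is a point
  have hne : Nonempty X := by
    by_contra hemp
    rw [not_nonempty_iff] at hemp
    have := h7 1 (fun t => (hemp.false t).elim) x (hmem.mpr ⟨hx, h⟩)
    rw [map_one] at this
    exact hx0 this
  obtain ⟨t⟩ := hne
  have hφq : TP K M H K q (φ t) = (c : K) • φ t := by
    have h8 := spK_induction (E := TP K M H K q - algebraMap K _ (c : K)) (W := Wc)
      (fun w hw => by
        rw [LinearMap.sub_apply, TP_extK, (hmem.mp hw).2, extK_smul, Module.algebraMap_end_apply,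
          map_intCast, sub_self]) (h2 t)
    rw [LinearMap.sub_apply, Module.algebraMap_end_apply] at h8
    exact sub_eq_zero.mp h8
  -- remove `q` from `D`
  let D' := D / (q : ℕ) ^ D.factorization q
  have hDD' : (q : ℕ) ^ D.factorization q * D' = D := Nat.ordProj_mul_ordCompl_eq_self D q
  have hD'0 : D' ≠ 0 := fun h0 => hD0 (by rw [← hDD', h0, mul_zero])
  have hqD' : ¬ (q : ℕ) ∣ D' := Nat.not_dvd_ordCompl q.2 hD0
  have hMD' : M ∣ D' := by
    have h9 : Nat.Coprime M ((q : ℕ) ^ D.factorization q) :=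
      (((Nat.Prime.coprime_iff_not_dvd q.2).mpr hqM).symm).pow_right _
    exact h9.dvd_of_dvd_mul_left (by rw [hDD']; exact hMD)
  have hdvd : ∀ ℓ : Pr D', (ℓ : ℕ) ∣ D → (ℓ : ℕ) = (q : ℕ) := by
    intro ℓ hℓ
    rw [← hDD'] at hℓ
    rcases (Nat.Prime.dvd_mul ℓ.2.1).mp hℓ with h9 | h9
    · exact (Nat.prime_dvd_prime_iff_eq ℓ.2.1 q.2).mp (ℓ.2.1.dvd_of_dvd_pow h9)
    · exact absurd h9 ℓ.2.2
  let y' : Pr D' → K := fun ℓ => if hℓ : (ℓ : ℕ) ∣ D then (c : K) else y t ⟨ℓ, ℓ.2.1, hℓ⟩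
  obtain ⟨ψ, hψ⟩ := h4 t
  have hi₀D' : ¬ (i₀ : ℕ) ∣ D' := fun h9 => i₀.2.2 (h9.trans (Dvd.intro_left _ hDD'))
  obtain ⟨N0, hN0, g, τ, hg, hdv, hcoef, -⟩ := exists_newform_eig (K := K) C (odd_card hp2 hΔ)
    (D := D') hD'0 hMD' (h1 t) (y := y') (fun ℓ => by
      by_cases hℓ : (ℓ : ℕ) ∣ D
      · have h9 : y' ℓ = c := dif_pos hℓ
        have h10 : prD D' ℓ = q := Subtype.ext (hdvd ℓ hℓ)
        rw [h9, h10, hφq]
      · have h9 : y' ℓ = y t ⟨ℓ, ℓ.2.1, hℓ⟩ := dif_neg hℓ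
        rw [h9]
        exact h3 t ⟨ℓ, ℓ.2.1, hℓ⟩) hψ
    ⟨⟨i₀, i₀.2.1, hi₀D'⟩, hi₀, by
      have h9 : y' ⟨i₀, i₀.2.1, hi₀D'⟩ = y t i₀ := dif_neg i₀.2.2
      rw [h9]
      exact h5 t⟩
  obtain ⟨z, hz1, hz2⟩ := hcoef ⟨q, q.2, hqD'⟩
  have hqN0 : ¬ (q : ℕ) ∣ N0 := by
    intro h9
    rcases (Nat.Prime.dvd_mul q.2).mp (h9.trans hdv) with h10 | h10
    · exact hqM h10
    · exact hqM (h10.trans C.dvd)
  have hbound := H19.map_sq_ne hg.1 q.2 hqN0 τ hz1
  apply hbound
  rw [hz2]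
  have h11 : y' ⟨q, q.2, hqD'⟩ • φ t = (c : K) • φ t := by
    by_cases hqD : (q : ℕ) ∣ D
    · have : y' ⟨q, q.2, hqD'⟩ = c := dif_pos hqD
      rw [this]
    · have : y' ⟨q, q.2, hqD'⟩ = y t ⟨q, q.2, hqD⟩ := dif_neg hqD
      rw [this, ← hφq]
      exact (h3 t ⟨q, q.2, hqD⟩).symm
  have h12 : y' ⟨q, q.2, hqD'⟩ = c := smul_left_injective K (h1 t) h11
  rw [h12]
  exact_mod_cast congrArg (Int.cast : ℤ → K) hc

end Tq

end Fermat.Agent.H22
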