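import Fermat.Agent.H22.Raise15

/-!
# Newness at `q`, II: the new lattice
-/

set_option autoImplicit false
set_option linter.unusedSectionVars false
set_option linter.style.haveILetI false

noncomputable section

universe u

namespace Fermat.Agent.H22

open Matrix.SpecialLinearGroup CongruenceSubgroup IsLocalRing
open Fermat.Agent.TC
open ModularFormClass (qCoeff)
open scoped MatrixGroups

section TrMap

variable {Γ Γ' : Subgroup SL(2, ℤ)}

theorem rep_int {R : Type*} [CommRing R] {A : Type*} [AddCommGroup A] [Module R A] {ι : Type*}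
    [Fintype ι] {α : ι → GG} {F : HM Γ A → HM Γ' A} (h : Rep (fun _ => (1 : R)) α F) :
    Rep (fun _ => (1 : ℤ)) α F := by
  intro ψ u hu
  have := h ψ u hu
  simpa only [one_smul] using this

variable [Fintype (Γ ⧸ Γ'.subgroupOf Γ)]

theorem tr_int {R : Type*} [CommRing R] {A : Type*} [AddCommGroup A] [Module R A] (x : HM Γ' A) :
    TC.tr A R Γ Γ' x = TC.tr A ℤ Γ Γ' x :=
  (rep_int (rep_tr (A := A) (R := R) (Γ := Γ) (Γ' := Γ'))).ext
    (rep_tr (A := A) (R := ℤ) (Γ := Γ) (Γ' := Γ')) (Equiv.refl _) (fun _ => rfl)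
    (fun _ => ⟨1, by simp⟩) x

theorem tr_coeff {R R' : Type*} [CommRing R] [CommRing R'] {A B : Type*} [AddCommGroup A]
    [Module R A] [AddCommGroup B] [Module R' B] (f : A →+ B) (x : HM Γ' A) :
    TC.tr B R' Γ Γ' (f.comp x) = f.comp (TC.tr A R Γ Γ' x) := by
  rw [tr_int (R := R'), tr_int (R := R)]
  exact op_comp f.toIntLinearMap (rep_tr (A := A) (R := ℤ) (Γ := Γ) (Γ' := Γ'))
    (rep_tr (A := B) (R := ℤ) (Γ := Γ) (Γ' := Γ')) x

end TrMap

section Ext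

variable {M q M' : ℕ} [NeZero M] [NeZero q] [NeZero M'] {H : Subgroup (ZMod M)ˣ}
  {H' : Subgroup (ZMod M')ˣ} (L : RLv q H H') {O K : Type u} [CommRing O] [Field K] [Algebra O K]
  (w : WDat M q)

theorem RLv.j1_extK (x : HM (GamH M' H') O) :
    L.j1 K K (extK O K M' H' x) = extK O K M H (L.j1 O O x) :=
  tr_coeff (R := O) (R' := K) (algebraMap O K).toAddMonoidHom x

theorem RLv.W_extK (x : HM (GamH M' H') O) :
    L.W K K w (extK O K M' H' x) = extK O K M' H' (L.W O O w x) := rfl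

theorem RLv.j2_extK (x : HM (GamH M' H') O) :
    L.j2 K K w (extK O K M' H' x) = extK O K M H (L.j2 O O w x) := by
  change diaQ K M H K (kq M q H) (L.j1 K K (L.W K K w (extK O K M' H' x))) =
    extK O K M H (diaQ O M H O (kq M q H) (L.j1 O O (L.W O O w x)))
  rw [L.W_extK, L.j1_extK, diaQ_extK]

/-- `K`-linear maps vanishing on the lattice vanish on its span -/
theorem spK_ker {E : Type*} [AddCommGroup E] [Module K E]
    {W : Submodule O (HM (GamH M H) O)} (f : HM (GamH M H) K →ₗ[K] E)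
    (h : ∀ w ∈ W, f (extK O K M H w) = 0) {φ : HM (GamH M H) K} (hφ : φ ∈ spK K W) : f φ = 0 := by
  refine Submodule.span_induction ?_ ?_ ?_ ?_ hφ
  · rintro _ ⟨w, hw, rfl⟩
    exact h w hw
  · exact map_zero _
  · intro a b _ _ ha hb
    rw [map_add, ha, hb, add_zero]
  · intro c a _ ha
    rw [map_smul, ha, smul_zero]

end Ext

section Dat

variable {M q M' : ℕ} [NeZero M] [NeZero q] [NeZero M'] {H : Subgroup (ZMod M)ˣ}
  {H' : Subgroup (ZMod M')ˣ} {O : Type u} [CommRing O] [IsLocalRing O]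

/-- The raising and lowering maps between two stable local submodules. -/
structure NDat (L : RLv q H H') (w : WDat M q) {D₀ : ℕ} (a : Pr D₀ → ResidueField O)
    (W : Submodule O (HM (GamH M H) O)) (W' : Submodule O (HM (GamH M' H') O)) : Prop where
  hqD : q ∣ D₀
  st : Stab O (prD D₀) W
  st' : Stab O (prD D₀) W'
  lo : LocW O (prD D₀) a W
  lo' : LocW O (prD D₀) a W'
  i1 : ∀ x ∈ W, L.i1 O O x ∈ W'
  i2 : ∀ x ∈ W, L.i2 O O w x ∈ W'
  j1 : ∀ x ∈ W', L.j1 O O x ∈ W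
  j2 : ∀ x ∈ W', L.j2 O O w x ∈ W

/-- the new sublattice -/
def newL (L : RLv q H H') (w : WDat M q) (W' : Submodule O (HM (GamH M' H') O)) :
    Submodule O (HM (GamH M' H') O) :=
  W' ⊓ (LinearMap.ker (L.j1 O O) ⊓ LinearMap.ker (L.j2 O O w))

theorem mem_newL {L : RLv q H H'} {w : WDat M q} {W' : Submodule O (HM (GamH M' H') O)}
    {x : HM (GamH M' H') O} : x ∈ newL L w W' ↔ x ∈ W' ∧ L.j1 O O x = 0 ∧ L.j2 O O w x = 0 :=
  Iff.rfl

variable {L : RLv q H H'} {w : WDat M q} {D₀ D : ℕ} {a : Pr D₀ → ResidueField O}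
  {W : Submodule O (HM (GamH M H) O)} {W' : Submodule O (HM (GamH M' H') O)}
  (T : NDat L w a W W') (hq : q.Prime)

include T hq in
theorem NDat.newL_stab : Stab O (prD D₀) (newL L w W') := by
  have hne := prD_ne T.hqD
  refine ⟨fun i x hx => ?_, fun g x hx => ?_⟩
  · rw [mem_newL] at hx ⊢
    refine ⟨T.st'.T i x hx.1, ?_, ?_⟩
    · have h1 := L.j1_hAct (R := O) (A := O) hq hne (MvPolynomial.X i) x
      rw [hAct_X, hx.2.1, map_zero] at h1
      exact h1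
    · have h1 := L.j2_hAct (R := O) (A := O) w hq hne (MvPolynomial.X i) x
      rw [hAct_X, hx.2.2, map_zero] at h1
      exact h1
  · rw [mem_newL] at hx ⊢
    refine ⟨T.st'.dia g x hx.1, ?_, ?_⟩
    · rw [L.j1_diaQ, hx.2.1, map_zero]
    · rw [L.j2_diaQ, hx.2.2, map_zero]

variable [IsNoetherianRing O]

include T hq in
theorem NDat.newL_locW : LocW O (prD D₀) a (newL L w W') := by
  have hne := prD_ne T.hqD
  intro s hs x hx
  rw [mem_newL] at hx
  obtain ⟨y, hy, hyx⟩ := T.lo' s hs x hx.1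
  refine ⟨y, mem_newL.mpr ⟨hy, ?_, ?_⟩, hyx⟩
  · refine locW_inj T.st T.lo hs (T.j1 y hy) ?_
    rw [← L.j1_hAct hq hne, hyx, hx.2.1]
  · refine locW_inj T.st T.lo hs (T.j2 y hy) ?_
    rw [← L.j2_hAct w hq hne, hyx, hx.2.2]

include T hq in
theorem NDat.TP_mem (x : HM (GamH M H) O) (hx : x ∈ W) : TP O M H O ⟨q, hq⟩ x ∈ W := by
  rw [← L.j1_i2 (R := O) (A := O) w hq]
  exact T.j1 _ (T.i2 x hx)

end Dat

section Main

variable {M q M' Q₀ M₀ : ℕ} [NeZero M] [NeZero q] [NeZero M'] {H : Subgroup (ZMod M)ˣ}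
  {H' : Subgroup (ZMod M')ˣ} {O : Type u} [CommRing O] [IsLocalRing O] [IsNoetherianRing O]
  [IsDomain O] {K : Type u} [Field K] [CharZero K] [IsAlgClosed K] [Algebra O K]
  {L : RLv q H H'} {w : WDat M q} {D₀ D : ℕ} {a : Pr D₀ → ResidueField O}
  {W : Submodule O (HM (GamH M H) O)} {W' : Submodule O (HM (GamH M' H') O)}
  (T : NDat L w a W W') (hq : q.Prime) (C : CondHyp H Q₀ M₀) {p : ℕ} [Fact p.Prime] (hp2 : p ≠ 2)
  (hpO : (p : O) ∈ maximalIdeal O) (hΔ : IsPGroup p ((ZMod M)ˣ ⧸ H))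
  (hD : D₀ ∣ D) (hD0 : D ≠ 0) (hMD : M' ∣ D)
  (i₀ : Pr D) (hi₀ : ((M' * Q₀ : ℕ) : ℤ) ∣ ((i₀ : ℕ) : ℤ) - 1)
  (ha₀ : a (prI hD i₀) ≠ ((i₀ : ℕ) : ResidueField O) + 1)
  (hK : Function.Injective (algebraMap O K))

include T hq C hp2 hpO hΔ hD hD0 hMD hi₀ ha₀ hK in
/-- **The points of the new lattice come from newforms of level divisible by `q`.** -/
theorem NDat.new_points : ∃ (X : Type u) (_ : Finite X) (x : X → Pr D → K),
    (∀ t (s : MvPolynomial (Pr D) O), IsIntegral O (MvPolynomial.aeval (x t) s)) ∧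
    (∀ s : MvPolynomial (Pr D) O, (∀ t, MvPolynomial.aeval (x t) s = 0) →
      ∀ v ∈ newL L w W', tpA O M' H' O D s v = 0) ∧
    ∀ t, (∃ (N0 : ℕ) (_ : NeZero N0) (g : CuspForm (Gamma0 N0) 2) (τ : integralClosure ℤ ℂ →+* K),
      g.IsNewform ∧ N0 ∣ M' * Q₀ ∧
      ∀ ℓ : Pr D, ∃ z : integralClosure ℤ ℂ, (z : ℂ) = qCoeff g ℓ ∧ τ z = x t ℓ) ∧
      ∀ (N0 : ℕ) (_ : NeZero N0) (g : CuspForm (Gamma0 N0) 2) (τ : integralClosure ℤ ℂ →+* K),
        g.IsNormalizedEigenform → N0 ∣ M' * Q₀ →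
        (∀ ℓ : Pr D, ∃ z : integralClosure ℤ ℂ, (z : ℂ) = qCoeff g ℓ ∧ τ z = x t ℓ) → q ∣ N0 := by
  have hst := T.newL_stab hq
  have hlo := T.newL_locW hq
  obtain ⟨rfl, rfl⟩ := L
  have C' := condHyp_Hq C w.hc
  have hodd : Odd (Nat.card ((ZMod M)ˣ ⧸ H)) := odd_card hp2 hΔ
  have hΔ' : IsPGroup p ((ZMod (M * q))ˣ ⧸ Hq M q H) :=
    IsPGroup.of_equiv hΔ (MulEquiv.ofBijective _ (prQ_bijective (M := M) (q := q) (H := H))).symm
  obtain ⟨X, hX, x, φ, h1, h2, h3, h4, h5, h6, h7⟩ := exists_pts (K := K) C' hp2 hpO hΔ' hD hMD hst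
    hlo i₀ hi₀ ha₀ hK
  refine ⟨X, hX, x, h6, h7, fun t => ?_⟩
  obtain ⟨ψ, hψ⟩ := h4 t
  constructor
  · obtain ⟨N0, hN0, g, τ, hg, hdv, hcoef, -⟩ := exists_newform_eig (K := K) C' (odd_card hp2 hΔ')
      hD0 hMD (h1 t) (h3 t) hψ ⟨i₀, hi₀, h5 t⟩
    exact ⟨N0, hN0, g, τ, hg, hdv, hcoef⟩
  intro N0 hN0 g τ hg hdv hcoef
  have hj1 : rj1 M q H K K (φ t) = 0 := by
    refine spK_ker (rj1 M q H K K) (fun v hv => ?_) (h2 t)
    have e := RLv.j1_extK (K := K) (RLv.refl q H) v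
    have e2 : (RLv.refl q H).j1 O O v = 0 := (mem_newL.mp hv).2.1
    rw [e2, map_zero] at e
    exact e
  have hj2 : rj2 H K K w (φ t) = 0 := by
    refine spK_ker (rj2 H K K w) (fun v hv => ?_) (h2 t)
    have e := RLv.j2_extK (K := K) (RLv.refl q H) w v
    have e2 : (RLv.refl q H).j2 O O w v = 0 := (mem_newL.mp hv).2.2
    rw [e2, map_zero] at e
    exact e
  have hj2' : rj1 M q H K K (WL H K K w (φ t)) = 0 := by
    rw [rj2_apply] at hj2
    have h8 := congrArg (diaQ K M H K (kq M q H)⁻¹) hj2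
    rw [map_zero] at h8
    have h9 : ∀ y : HM (GamH M H) K, diaQ K M H K (kq M q H)⁻¹ (diaQ K M H K (kq M q H) y) = y := by
      intro y
      have : diaQ K M H K (kq M q H)⁻¹ (diaQ K M H K (kq M q H) y) =
        (diaQ K M H K (kq M q H)⁻¹ * diaQ K M H K (kq M q H)) y := rfl
      rw [this, ← map_mul, inv_mul_cancel, map_one]
      rfl
    rwa [h9] at h8
  exact q_dvd_of_killed hq C hodd w hD0 (h1 t) (h3 t) hψ ⟨i₀, hi₀, h5 t⟩ hj1 hj2' hg hdv τ hcoef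

end Main

section TpEq

variable {M q M' : ℕ} [NeZero M] [NeZero q] [NeZero M'] {H : Subgroup (ZMod M)ˣ}
  {H' : Subgroup (ZMod M')ˣ} {O : Type u} [CommRing O] (L : RLv q H H') (w : WDat M q) {D : ℕ}

theorem prD_ne' (hqD : q ∣ D) (i : Pr D) : ((prD D i : Nat.Primes) : ℕ) ≠ q := by
  intro hi
  exact i.2.2 (hi ▸ hqD)

theorem RLv.i1_tpA (hq : q.Prime) (hqD : q ∣ D) (s : MvPolynomial (Pr D) O)
    (x : HM (GamH M H) O) :
    L.i1 O O (tpA O M H O D s x) = tpA O M' H' O D s (L.i1 O O x) := by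
  refine act_intertwine (L.i1 O O).toAddMonoidHom (fun a x => map_smul (L.i1 O O) a x) ?_ s x
  intro i x
  rw [tpA_X]
  refine Eq.trans ?_ (tpA_X i _).symm
  exact L.i1_TP hq (prD_ne' hqD i) x

theorem RLv.i2_tpA (hq : q.Prime) (hqD : q ∣ D) (s : MvPolynomial (Pr D) O)
    (x : HM (GamH M H) O) :
    L.i2 O O w (tpA O M H O D s x) = tpA O M' H' O D s (L.i2 O O w x) := by
  refine act_intertwine (L.i2 O O w).toAddMonoidHom (fun a x => map_smul (L.i2 O O w) a x) ?_ s x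
  intro i x
  rw [tpA_X]
  refine Eq.trans ?_ (tpA_X i _).symm
  exact L.i2_TP w hq (prD_ne' hqD i) x

end TpEq

section Main2

variable {M q M' Q₀ M₀ : ℕ} [NeZero M] [NeZero q] [NeZero M'] {H : Subgroup (ZMod M)ˣ}
  {H' : Subgroup (ZMod M')ˣ} {O : Type u} [CommRing O]
  [IsDomain O] [IsDiscreteValuationRing O] {K : Type u} [Field K] [CharZero K] [IsAlgClosed K]
  [Algebra O K]
  {L : RLv q H H'} {w : WDat M q} {D₀ D : ℕ} {a : Pr D₀ → ResidueField O}
  {W : Submodule O (HM (GamH M H) O)} {W' : Submodule O (HM (GamH M' H') O)}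
  (T : NDat L w a W W') (hq : q.Prime) (C : CondHyp H Q₀ M₀) {p : ℕ} [Fact p.Prime] (hp2 : p ≠ 2)
  (hpO : (p : O) ∈ maximalIdeal O) (hΔ : IsPGroup p ((ZMod M)ˣ ⧸ H))
  (hD : D₀ ∣ D) (hD0 : D ≠ 0) (hMD : M' ∣ D)
  (i₀ : Pr D) (hi₀ : ((M' * Q₀ : ℕ) : ℤ) ∣ ((i₀ : ℕ) : ℤ) - 1)
  (ha₀ : a (prI hD i₀) ≠ ((i₀ : ℕ) : ResidueField O) + 1)
  (hK : Function.Injective (algebraMap O K))

theorem free_subHM (W : Submodule O (HM (GamH M H) O)) : Module.Free O W := by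
  haveI : Module.Finite O W := finiteW
  haveI : Module.IsTorsionFree O W := Module.isTorsionFree_iff_smul_eq_zero.mpr fun c x h => by
    by_cases hc : c = 0
    · exact Or.inl hc
    · exact Or.inr (Subtype.ext (hm_torsionFree c hc (x : HM (GamH M H) O)
        (congrArg Subtype.val h)))
  infer_instance

include T hq C hp2 hpO hΔ hD hD0 hMD hi₀ ha₀ hK in
theorem NDat.old_of_sep (y : Pr D → K)
    (h : ∀ x : Pr D → K, (∀ s : MvPolynomial (Pr D) O, IsIntegral O (MvPolynomial.aeval x s)) →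
      (∃ (N0 : ℕ) (_ : NeZero N0) (g : CuspForm (Gamma0 N0) 2) (τ : integralClosure ℤ ℂ →+* K),
        g.IsNewform ∧ N0 ∣ M' * Q₀ ∧
        ∀ ℓ : Pr D, ∃ z : integralClosure ℤ ℂ, (z : ℂ) = qCoeff g ℓ ∧ τ z = x ℓ) →
      (∀ (N0 : ℕ) (_ : NeZero N0) (g : CuspForm (Gamma0 N0) 2) (τ : integralClosure ℤ ℂ →+* K),
        g.IsNormalizedEigenform → N0 ∣ M' * Q₀ →
        (∀ ℓ : Pr D, ∃ z : integralClosure ℤ ℂ, (z : ℂ) = qCoeff g ℓ ∧ τ z = x ℓ) → q ∣ N0) →
      ∃ s : MvPolynomial (Pr D) O, MvPolynomial.aeval x s = 0 ∧ MvPolynomial.aeval y s ≠ 0) :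
    ∃ (s : MvPolynomial (Pr D) O) (c : O), c ≠ 0 ∧ MvPolynomial.aeval y s ≠ 0 ∧
      ∀ m ∈ W', ∃ u ∈ W, ∃ v ∈ W,
        c • tpA O M' H' O D s m = L.i1 O O u + L.i2 O O w v := by
  classical
  have hodd : Odd (Nat.card ((ZMod M)ˣ ⧸ H)) := odd_card hp2 hΔ
  have hqD : q ∣ D := T.hqD.trans hD
  have hMM' : M ∣ M' := L.dvd
  obtain ⟨X, hX, x, hint, hkill, hnf⟩ := T.new_points (K := K) hq C hp2 hpO hΔ hD hD0 hMD i₀ hi₀ ha₀ hK
  have hsep : ∀ t, ∃ s : MvPolynomial (Pr D) O, MvPolynomial.aeval (x t) s = 0 ∧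
      MvPolynomial.aeval y s ≠ 0 := fun t => h (x t) (hint t) (hnf t).1 (hnf t).2
  choose s hs hs' using hsep
  haveI := Fintype.ofFinite X
  have hS0 : ∀ t, MvPolynomial.aeval (x t) (∏ t, s t) = 0 := by
    intro t
    rw [map_prod]
    exact Finset.prod_eq_zero (Finset.mem_univ t) (hs t)
  have hSy : MvPolynomial.aeval y (∏ t, s t) ≠ 0 := by
    rw [map_prod]
    exact Finset.prod_ne_zero_iff.mpr fun t _ => hs' t
  set S : MvPolynomial (Pr D) O := ∏ t, s t with hS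
  have hkS := hkill S hS0
  -- the operator `(q + 1) ^ 2 - T_q ^ 2`
  let Tq : W →ₗ[O] W := (TP O M H O ⟨q, hq⟩).restrict (T.TP_mem hq)
  have hTqv : ∀ x : W, ((Tq x : W) : HM (GamH M H) O) = TP O M H O ⟨q, hq⟩ (x : HM (GamH M H) O) :=
    fun _ => rfl
  have hne : ∀ (c : ℤ), c ^ 2 = ((q : ℤ) + 1) ^ 2 → ∀ x : W, Tq x = (c : O) • x → x = 0 := by
    intro c hc x hx
    apply Subtype.ext
    exact Tq_eig_ne (K := K) C hp2 hpO hΔ hD hD0 (hMM'.trans hMD) T.st T.lo i₀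
      ((Int.natCast_dvd_natCast.mpr (mul_dvd_mul_right hMM' Q₀)).trans hi₀) ha₀ hK ⟨q, hq⟩
      ((Nat.Prime.coprime_iff_not_dvd hq).mp w.hc.symm) (T.TP_mem hq) hc x.2
      (congrArg Subtype.val hx)
  let f : W →ₗ[O] W := (((q : O) + 1) ^ 2) • LinearMap.id - Tq ∘ₗ Tq
  have hf : ∀ x, f x = (((q : O) + 1) ^ 2) • x - Tq (Tq x) := fun _ => rfl
  have hfinj : Function.Injective f := by
    rw [injective_iff_map_eq_zero]
    intro x hx
    rw [hf, sub_eq_zero] at hx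
    have h1 : Tq x + ((q : O) + 1) • x = 0 := by
      refine hne ((q : ℤ) + 1) rfl _ ?_
      rw [map_add, map_smul, ← hx]
      push_cast
      rw [smul_add, smul_smul, pow_two, add_comm]
    refine hne (-((q : ℤ) + 1)) (by ring) _ ?_
    push_cast
    rw [neg_add, add_smul, neg_smul, neg_smul]
    rw [add_smul, one_smul] at h1
    have h2 := eq_neg_of_add_eq_zero_left h1
    rw [h2, neg_add, one_smul]
  haveI : Module.Finite O W := finiteW
  haveI : Module.Free O W := free_subHM W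
  obtain ⟨G, n, hn, hG⟩ := exists_quasi_inv f hfinj
  refine ⟨S, n, hn, hSy, fun m hm => ?_⟩
  let A : W := ⟨L.j1 O O m, T.j1 m hm⟩
  let B : W := ⟨L.j2 O O w m, T.j2 m hm⟩
  let U : W := ((q : O) + 1) • G A - Tq (G B)
  let V : W := ((q : O) + 1) • G B - Tq (G A)
  have e1 : ((q : O) + 1) • U + Tq V = n • A := by
    rw [← hG, hf]
    simp only [U, V, map_sub, map_smul, smul_sub, smul_smul, pow_two]
    abel
  have e2 : Tq U + ((q : O) + 1) • V = n • B := by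
    rw [← hG, hf]
    simp only [U, V, map_sub, map_smul, smul_sub, smul_smul, pow_two]
    abel
  have hz : n • m - (L.i1 O O (U : HM (GamH M H) O) + L.i2 O O w (V : HM (GamH M H) O)) ∈
      newL L w W' := by
    rw [mem_newL]
    refine ⟨sub_mem (Submodule.smul_mem _ _ hm) (add_mem (T.i1 _ U.2) (T.i2 _ V.2)), ?_, ?_⟩
    · have h1 := L.j1_i1 (R := O) (A := O) hq w.hc (U : HM (GamH M H) O)
      have h2 := L.j1_i2 (R := O) (A := O) w hq (V : HM (GamH M H) O)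
      rw [map_sub, map_add, map_smul, h1, h2]
      have h3 := congrArg Subtype.val e1
      rw [sub_eq_zero]
      exact h3.symm
    · have h1 := L.j2_i1 (R := O) (A := O) w hq (U : HM (GamH M H) O)
      have h2 := L.j2_i2 (R := O) (A := O) w hq hodd (V : HM (GamH M H) O)
      rw [map_sub, map_add, map_smul, h1, h2]
      have h3 := congrArg Subtype.val e2
      rw [sub_eq_zero]
      exact h3.symm
  have h1 := hkS _ hz
  rw [map_sub, map_add, map_smul, sub_eq_zero, ← L.i1_tpA hq hqD, ← L.i2_tpA w hq hqD] at h1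
  exact ⟨_, tpA_mem T.st hD S U.2, _, tpA_mem T.st hD S V.2, h1⟩

/-- the kernel of a system of eigenvalues determines it up to conjugation -/
theorem sep_symm (hK : Function.Injective (algebraMap O K)) {ι : Type*} (x y : ι → K)
    (hx : ∀ s : MvPolynomial ι O, IsIntegral O (MvPolynomial.aeval x s))
    (h : ∀ s : MvPolynomial ι O, MvPolynomial.aeval x s = 0 → MvPolynomial.aeval y s = 0) :
    (∀ s : MvPolynomial ι O, IsIntegral O (MvPolynomial.aeval y s)) ∧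
    ∀ s : MvPolynomial ι O, MvPolynomial.aeval y s = 0 → MvPolynomial.aeval x s = 0 := by
  let f : MvPolynomial ι O →ₐ[O] K := MvPolynomial.aeval x
  let A := MvPolynomial ι O ⧸ RingHom.ker f
  let i : A →ₐ[O] K := Ideal.kerLiftAlg f
  have hi : Function.Injective i := Ideal.kerLiftAlg_injective f
  let σ : A →ₐ[O] K := Ideal.Quotient.liftₐ (RingHom.ker f) (MvPolynomial.aeval y) (fun s hs => h s hs)
  have hAint : Algebra.IsIntegral O A := by
    refine ⟨fun a => ?_⟩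
    obtain ⟨s, rfl⟩ := Ideal.Quotient.mk_surjective a
    have h1 : IsIntegral O (i (Ideal.Quotient.mk _ s)) := hx s
    exact (isIntegral_algHom_iff i hi).mp h1
  have hAdom : IsDomain A := hi.isDomain (i : A →+* K)
  have hσ : Function.Injective σ := by
    have h1 : RingHom.ker (σ : A →+* K) = ⊥ := by
      refine Ideal.eq_bot_of_comap_eq_bot (R := O) ?_
      rw [eq_bot_iff]
      intro c hc
      have h2 : σ (algebraMap O A c) = 0 := hc
      rw [AlgHom.commutes] at h2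
      exact hK (h2.trans (map_zero _).symm)
    exact (RingHom.injective_iff_ker_eq_bot (σ : A →+* K)).mpr h1
  refine ⟨fun s => ?_, fun s hs => ?_⟩
  · exact (Algebra.IsIntegral.isIntegral (R := O) (Ideal.Quotient.mk (RingHom.ker f) s)).map σ
  · have h1 : σ (Ideal.Quotient.mk _ s) = 0 := hs
    have h2 := hσ (h1.trans (map_zero σ).symm)
    exact RingHom.mem_ker.mp (Ideal.Quotient.eq_zero_iff_mem.mp h2)

include T hq C hp2 hpO hΔ hD hD0 hMD hi₀ ha₀ hK in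
/-- **The dichotomy**: a system of eigenvalues comes from a newform of level divisible by `q`, or
there is a Hecke operator, nonzero at this system, mapping the whole module to its old part. -/
theorem NDat.new_or_old (y : Pr D → K) :
    (∃ (N0 : ℕ) (_ : NeZero N0) (g : CuspForm (Gamma0 N0) 2) (τ : integralClosure ℤ ℂ →+* K),
      g.IsNewform ∧ N0 ∣ M' * Q₀ ∧ q ∣ N0 ∧ ¬ q ^ 2 ∣ N0 ∧
      ∀ ℓ : Pr D, ∃ z : integralClosure ℤ ℂ, (z : ℂ) = qCoeff g ℓ ∧ τ z = y ℓ) ∨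
    ∃ (s : MvPolynomial (Pr D) O) (c : O), c ≠ 0 ∧ MvPolynomial.aeval y s ≠ 0 ∧
      ∀ m ∈ W', ∃ u ∈ W, ∃ v ∈ W,
        c • tpA O M' H' O D s m = L.i1 O O u + L.i2 O O w v := by
  by_cases h : ∃ (N0 : ℕ) (_ : NeZero N0) (g : CuspForm (Gamma0 N0) 2)
      (τ : integralClosure ℤ ℂ →+* K), g.IsNewform ∧ N0 ∣ M' * Q₀ ∧ q ∣ N0 ∧
      ∀ ℓ : Pr D, ∃ z : integralClosure ℤ ℂ, (z : ℂ) = qCoeff g ℓ ∧ τ z = y ℓ
  · left
    obtain ⟨N0, hN0, g, τ, hg, hdv, hqN0, hcoef⟩ := h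
    refine ⟨N0, hN0, g, τ, hg, hdv, hqN0, fun hq2 => ?_, hcoef⟩
    have h1 : q ^ 2 ∣ q * (M * Q₀) := (hq2.trans hdv).trans (dvd_of_eq (by rw [L.hM]; ring))
    rw [pow_two] at h1
    have h2 : q ∣ M * Q₀ := (mul_dvd_mul_iff_left hq.ne_zero).mp h1
    have h3 : ¬ q ∣ M := (Nat.Prime.coprime_iff_not_dvd hq).mp w.hc.symm
    rcases (Nat.Prime.dvd_mul hq).mp h2 with h4 | h4
    · exact h3 h4
    · exact h3 (h4.trans C.dvd)
  right
  refine T.old_of_sep (K := K) hq C hp2 hpO hΔ hD hD0 hMD i₀ hi₀ ha₀ hK y fun x hint hnf hall => ?_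
  by_contra hcon
  push Not at hcon
  obtain ⟨N0, hN0, g, τ, hg, hdv, hcoef⟩ := hnf
  obtain ⟨τ', hτ'⟩ := exists_conj_tau hK x y hint hcon τ
  refine h ⟨N0, hN0, g, τ', hg, hdv, hall N0 hN0 g τ hg.1 hdv hcoef, fun ℓ => ?_⟩
  obtain ⟨z, hz1, hz2⟩ := hcoef ℓ
  exact ⟨z, hz1, hτ' ℓ z hz2⟩

include T hq C hp2 hpO hΔ hD hD0 hMD hi₀ ha₀ hK in
/-- **Newness**: a system of eigenvalues coming from an eigenform of level prime to `q` is old. -/
theorem NDat.old_of_not_dvd (y : Pr D → K) {N0 : ℕ} [NeZero N0] {g : CuspForm (Gamma0 N0) 2}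
    (hg : g.IsNormalizedEigenform) (hN0 : N0 ∣ M' * Q₀) (hqN0 : ¬ q ∣ N0)
    (τ : integralClosure ℤ ℂ →+* K)
    (hcoef : ∀ ℓ : Pr D, ∃ z : integralClosure ℤ ℂ, (z : ℂ) = qCoeff g ℓ ∧ τ z = y ℓ) :
    ∃ (s : MvPolynomial (Pr D) O) (c : O), c ≠ 0 ∧ MvPolynomial.aeval y s ≠ 0 ∧
      ∀ m ∈ W', ∃ u ∈ W, ∃ v ∈ W,
        c • tpA O M' H' O D s m = L.i1 O O u + L.i2 O O w v := by
  refine T.old_of_sep (K := K) hq C hp2 hpO hΔ hD hD0 hMD i₀ hi₀ ha₀ hK y fun x hint _ hall => ?_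
  by_contra hcon
  push Not at hcon
  obtain ⟨hint', hcon'⟩ := sep_symm hK x y hint hcon
  obtain ⟨τ', hτ'⟩ := exists_conj_tau hK y x hint' hcon' τ
  refine hqN0 (hall N0 inferInstance g τ' hg hN0 fun ℓ => ?_)
  obtain ⟨z, hz1, hz2⟩ := hcoef ℓ
  exact ⟨z, hz1, hτ' ℓ z hz2⟩

end Main2

end Fermat.Agent.H22
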