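import Fermat.Agent.TC.Pack5
import Fermat.Agent.H22.CxEmb2
import Fermat.Agent.AL.OldBasis

/-!
# Newforms attached to eigenclasses, with a given embedding of the algebraic integers
-/

set_option autoImplicit false
set_option linter.style.haveILetI false
set_option linter.unusedSectionVars false

noncomputable section

universe u

namespace Fermat.Agent.H22

open Matrix.SpecialLinearGroup CongruenceSubgroup ModularForm ModularCurve
open Fermat.Agent.TC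
open ModularFormClass (qCoeff)
open scoped MatrixGroups

/-- **(C3).** A non-Eisenstein eigenclass on `Γ_H(N)` with coefficients in an algebraically closed
field of characteristic zero and with character `w ^ 2`, all of whose components at the primes
dividing `Q` are nontrivial, comes from a newform with trivial character. -/
theorem exists_newform_tau {N Q M' : ℕ} [NeZero N] [NeZero Q] (hN : N = Q * M')
    (hsq : Squarefree Q) (hcop : Nat.Coprime Q M') {H : Subgroup (ZMod N)ˣ}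
    {K : Type*} [Field K] [IsAlgClosed K] [CharZero K] (τ : integralClosure ℤ ℂ →+* K)
    {w : MulChar (ZMod Q) K} (hw : NT Q w) {φ : HM (GamH N H) K} (hφ0 : φ ≠ 0)
    (hφ : φ ∈ psiPart N Q H w) {D : ℕ} (hD : D ≠ 0) {a : ℕ → K}
    (hT : ∀ (ℓ : ℕ) [NeZero ℓ], ℓ.Prime → ¬ ℓ ∣ N → ¬ ℓ ∣ D → TH K N H K ℓ φ = a ℓ • φ)
    (hE : ∃ ℓ : ℕ, ℓ.Prime ∧ ((N * Q : ℕ) : ℤ) ∣ (ℓ : ℤ) - 1 ∧ ¬ ℓ ∣ D ∧ a ℓ ≠ ℓ + 1) :
    ∃ (N0 : ℕ) (_ : NeZero N0) (g : CuspForm (Gamma0 N0) 2),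
      g.IsNewform ∧ N0 ∣ N * Q ∧
      (∀ ℓ : ℕ, ℓ.Prime → ¬ ℓ ∣ N → ¬ ℓ ∣ D → ∃ x : integralClosure ℤ ℂ,
        (x : ℂ) = qCoeff g ℓ ∧ τ x = w ((ℓ : ℕ) : ZMod Q) * a ℓ) ∧
      ∀ q : ℕ, q.Prime → q ∣ Q → q * q ∣ N0 := by
  classical
  obtain ⟨x0, hx0⟩ : ∃ x0, φ x0 ≠ 0 := by
    by_contra hc
    push Not at hc
    exact hφ0 (AddMonoidHom.ext hc)
  let S : Set K := (Set.range φ ∪ Set.range w) ∪ Set.range τ
  have hcR : Countable (integralClosure ℤ ℂ) := countable_integralClosure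
  have hcount : Countable (Additive (GamH N H)) := by
    have : Countable (Matrix (Fin 2) (Fin 2) ℤ) := inferInstanceAs (Countable (Fin 2 → Fin 2 → ℤ))
    have : Countable SL(2, ℤ) := Subtype.countable
    have h2 : Countable (GamH N H) := Subtype.countable
    exact h2
  have hS : S.Countable := ((Set.countable_range φ).union (Set.countable_range w)).union
    (Set.countable_range τ)
  let F : Subfield K := Subfield.closure S
  have hF : Countable F := by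
    rw [← Cardinal.mk_le_aleph0_iff]
    refine (Subfield.cardinalMk_closure_le_max S).trans (max_le ?_ le_rfl)
    exact Cardinal.le_aleph0_iff_set_countable.mpr hS
  let i : F →+* K := F.subtype
  have hmemφ : ∀ x, φ x ∈ F := fun x => Subfield.subset_closure (Or.inl (Or.inl ⟨x, rfl⟩))
  have hmemw : ∀ u, w u ∈ F := fun u => Subfield.subset_closure (Or.inl (Or.inr ⟨u, rfl⟩))
  have hmemτ : ∀ u, τ u ∈ F := fun u => Subfield.subset_closure (Or.inr ⟨u, rfl⟩)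
  let τF : integralClosure ℤ ℂ →+* F := τ.codRestrict F hmemτ
  let _ : Algebra (integralClosure ℤ ℂ) F := τF.toAlgebra
  have hfaith : FaithfulSMul (integralClosure ℤ ℂ) F := by
    rw [faithfulSMul_iff_algebraMap_injective]
    intro x y hxy
    exact tau_injective τ (congrArg Subtype.val (hxy : τF x = τF y))
  have hfaith2 : FaithfulSMul (integralClosure ℤ ℂ) ℂ := by
    rw [faithfulSMul_iff_algebraMap_injective]
    exact Subtype.val_injective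
  obtain ⟨j0⟩ := exists_embedding_complex_rel (integralClosure ℤ ℂ) F
  let j : F →+* ℂ := j0.toRingHom
  have hjτ : ∀ (x : integralClosure ℤ ℂ), j (τF x) = (x : ℂ) := fun x => j0.commutes x
  let φ0 : HM (GamH N H) F := AddMonoidHom.mk' (fun x => ⟨φ x, hmemφ x⟩) fun x y =>
    Subtype.ext (map_add φ x y)
  let w0 : MulChar (ZMod Q) F :=
    { toFun := fun u => ⟨w u, hmemw u⟩
      map_one' := Subtype.ext (map_one w)
      map_mul' := fun x y => Subtype.ext (map_mul w x y)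
      map_nonunit' := fun u hu => Subtype.ext (w.map_nonunit hu) }
  have hφi : i.toAddMonoidHom.comp φ0 = φ := AddMonoidHom.ext fun _ => rfl
  have hwi : w0.ringHomComp i = w := MulChar.ext fun _ => rfl
  have hw0 : NT Q w0 := (NT_map i).mp (by rw [hwi]; exact hw)
  have hφ0' : φ0 ∈ psiPart N Q H w0 := (mem_psiPart_map i).mp (by rw [hwi, hφi]; exact hφ)
  have hx0' : φ0 x0 ≠ 0 := fun h => hx0 (congrArg Subtype.val h)
  -- the eigenvalues are in `F`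
  let a0 : ℕ → F := fun ℓ => if h : ℓ = 0 then 0 else
    haveI : NeZero ℓ := ⟨h⟩
    TH F N H F ℓ φ0 x0 / φ0 x0
  have ha0 : ∀ (ℓ : ℕ) [NeZero ℓ], ℓ.Prime → ¬ ℓ ∣ N → ¬ ℓ ∣ D →
      i (a0 ℓ) = a ℓ ∧ TH F N H F ℓ φ0 = a0 ℓ • φ0 := by
    intro ℓ _ hℓ hℓN hℓD
    have h1 := hT ℓ hℓ hℓN hℓD
    have h2 : TH K N H K ℓ φ = i.toAddMonoidHom.comp (TH F N H F ℓ φ0) := by
      rw [← hφi, TH_map (R := F) i.toAddMonoidHom ℓ φ0]
    have h3 : i (TH F N H F ℓ φ0 x0) = a ℓ * φ x0 := by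
      have := DFunLike.congr_fun (h2.symm.trans h1) x0
      exact this
    have h4 : i (a0 ℓ) = a ℓ := by
      have h5 : a0 ℓ = TH F N H F ℓ φ0 x0 / φ0 x0 := dif_neg hℓ.ne_zero
      rw [h5, map_div₀, h3]
      exact mul_div_cancel_right₀ _ hx0
    refine ⟨h4, (TH_eig_map i ℓ (a0 ℓ)).mp ?_⟩
    rw [hφi, h4]
    exact h1
  have hφj0 : j.toAddMonoidHom.comp φ0 ≠ 0 := fun h => hx0' (j.injective (by
    rw [map_zero]; exact DFunLike.congr_fun h x0))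
  obtain ⟨N0, hN0, g, h1, h2, h3, h4⟩ := exists_newform_complex hN hsq hcop
    (w := w0.ringHomComp j) ((NT_map j).mpr hw0) hφj0 ((mem_psiPart_map j).mpr hφ0') hD
    (a := fun ℓ => j (a0 ℓ))
    (fun ℓ _ hℓ hℓN hℓD => (TH_eig_map j ℓ (a0 ℓ)).mpr (ha0 ℓ hℓ hℓN hℓD).2) (by
      obtain ⟨ℓ, hℓ, hℓ1, hℓD, hne⟩ := hE
      have : NeZero ℓ := ⟨hℓ.ne_zero⟩
      have hℓN : ¬ ℓ ∣ N := fun hh => by
        have h1 : (ℓ : ℤ) ∣ (ℓ : ℤ) - 1 :=
          (Int.natCast_dvd_natCast.mpr (hh.mul_right Q)).trans hℓ1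
        have h2 : (ℓ : ℤ) ∣ 1 := by
          have := dvd_sub (dvd_refl (ℓ : ℤ)) h1
          simpa using this
        have h3 : ℓ ∣ 1 := by exact_mod_cast h2
        exact hℓ.one_lt.ne' (Nat.dvd_one.mp h3)
      refine ⟨ℓ, hℓ, hℓ1, hℓD, fun h => hne ?_⟩
      rw [← (ha0 ℓ hℓ hℓN hℓD).1]
      have h5 : a0 ℓ = (ℓ : F) + 1 := j.injective (by rw [h]; simp)
      rw [h5]
      simp)
  refine ⟨N0, hN0, g, h1, h2, fun ℓ hℓ hℓN hℓD => ?_, h4⟩
  have : NeZero ℓ := ⟨hℓ.ne_zero⟩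
  have h5 := h3 ℓ hℓ hℓN hℓD
  refine ⟨⟨qCoeff g ℓ, isIntegral_qCoeff_prime h1.1 hℓ⟩, rfl, ?_⟩
  have h6 : τF ⟨qCoeff g ℓ, isIntegral_qCoeff_prime h1.1 hℓ⟩ =
      w0 ((ℓ : ℕ) : ZMod Q) * a0 ℓ := by
    apply j.injective
    rw [hjτ, map_mul]
    exact h5
  have h7 := congrArg i h6
  rw [map_mul, (ha0 ℓ hℓ hℓN hℓD).1] at h7
  exact h7

/-- **(C3)**, allowing trivial components. -/
theorem exists_newform'_tau {N : ℕ} [NeZero N] {H : Subgroup (ZMod N)ˣ}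
    {K : Type*} [Field K] [IsAlgClosed K] [CharZero K] (τ : integralClosure ℤ ℂ →+* K) {n : ℕ} (hn : Odd n) {φ : HM (GamH N H) K}
    (hφ0 : φ ≠ 0) {D : ℕ} (hD : D ≠ 0) {a : ℕ → K}
    (hT : ∀ (ℓ : ℕ) [NeZero ℓ], ℓ.Prime → ¬ ℓ ∣ N → ¬ ℓ ∣ D → TH K N H K ℓ φ = a ℓ • φ)
    (Q : ℕ) : ∀ (M' : ℕ) [NeZero Q], N = Q * M' → Squarefree Q → Nat.Coprime Q M' →
      ∀ w : MulChar (ZMod Q) K, (∀ u, w u ≠ 0 → w u ^ n = 1) → φ ∈ psiPart N Q H w →
      (∃ ℓ : ℕ, ℓ.Prime ∧ ((N * Q : ℕ) : ℤ) ∣ (ℓ : ℤ) - 1 ∧ ¬ ℓ ∣ D ∧ a ℓ ≠ ℓ + 1) →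
    ∃ (N0 : ℕ) (_ : NeZero N0) (g : CuspForm (Gamma0 N0) 2),
      g.IsNewform ∧ N0 ∣ N * Q ∧
      (∀ ℓ : ℕ, ℓ.Prime → ¬ ℓ ∣ N → ¬ ℓ ∣ D → ∃ x : integralClosure ℤ ℂ,
        (x : ℂ) = qCoeff g ℓ ∧ τ x = w ((ℓ : ℕ) : ZMod Q) * a ℓ) ∧
      (∀ q : ℕ, q.Prime → ∀ b : ℕ, Q = q * b →
        ((∃ u : ℤ, (u : ZMod b) = 1 ∧ w (u : ZMod Q) ≠ 0 ∧ w (u : ZMod Q) ≠ 1) → q * q ∣ N0) ∧
        ((∀ u : ℤ, (u : ZMod b) = 1 → w (u : ZMod Q) ≠ 0 → w (u : ZMod Q) = 1) →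
          ¬ q * q ∣ N0)) := by
  induction Q using Nat.strong_induction_on with
  | _ Q ih =>
    intro M' hQ0 hN hsq hcop w hwn hφ hE
    by_cases hw : NT Q w
    · obtain ⟨N0, hN0, g, h1, h2, h3, h4⟩ := exists_newform_tau hN hsq hcop τ hw hφ0 hφ hD hT hE
      refine ⟨N0, hN0, g, h1, h2, h3, fun q hq b hb => ⟨fun _ => h4 q hq ⟨b, hb⟩, fun h5 => ?_⟩⟩
      obtain ⟨u, hu1, hu2, hu3⟩ := hw q hq b hb
      exact absurd (by rw [h5 u hu1 hu2, one_pow]) hu3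
    · unfold NT at hw
      push Not at hw
      obtain ⟨q, hq, b, hQb, hu⟩ := hw
      subst hQb
      have hb0 : b ≠ 0 := fun h => NeZero.ne (q * b) (by rw [h, mul_zero])
      have : NeZero b := ⟨hb0⟩
      have : NeZero q := ⟨hq.ne_zero⟩
      have : Fact q.Prime := ⟨hq⟩
      have hqb : Nat.Coprime q b := Nat.coprime_of_squarefree_mul hsq
      have hu1 : ∀ u : ℤ, (u : ZMod b) = 1 → w (u : ZMod (q * b)) ≠ 0 →
          w (u : ZMod (q * b)) = 1 := fun u h1 h2 =>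
        eq_one_of_odd hn (hu u h1 h2) (hwn _ h2)
      obtain ⟨wa, wb, h1, h2, h3⟩ := exists_components hqb w
      -- the first component is trivial
      have hwa : ∀ u : ℤ, (u : ZMod q) ≠ 0 → wa (u : ZMod q) = 1 := by
        intro u hu0
        obtain ⟨v, hv1, hv2, hv3⟩ := h2 (u : ZMod q)
        have hne : wa (u : ZMod q) ≠ 0 := ((isUnit_iff_ne_zero.mpr hu0).map wa).ne_zero
        rw [hv2] at hne ⊢
        exact hu1 v hv1 hne
      have hwb : ∀ u : ℤ, (u : ZMod q) ≠ 0 → w (u : ZMod (q * b)) = wb (u : ZMod b) := by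
        intro u hu0
        rw [h1, hwa u hu0, one_mul]
      have hw0 : ∀ u : ℤ, w (u : ZMod (q * b)) ≠ 0 → (u : ZMod q) ≠ 0 := by
        intro u hu0 h0
        rw [h1, h0, MulChar.map_zero, zero_mul] at hu0
        exact hu0 rfl
      have hqN : q ∣ N := by rw [hN, mul_assoc]; exact dvd_mul_right _ _
      have hgq : ∀ g : Gamma0 N, (((g : SL(2, ℤ)) 1 1 : ℤ) : ZMod q) ≠ 0 := by
        intro g h0
        have h4 : (q : ℤ) ∣ (g : SL(2, ℤ)) 1 0 :=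
          (Int.natCast_dvd_natCast.mpr hqN).trans (dvd_of_mem_Gamma0' g.2)
        have h5 := intCast_sq_mul_eq h4
        rw [h0, mul_zero] at h5
        exact zero_ne_one h5
      have hφ' : φ ∈ psiPart N b H wb := by
        rw [mem_psiPart] at hφ ⊢
        intro g
        rw [hφ g, hwb _ (hgq g)]
      have hlt : b < q * b := by
        have := hq.one_lt
        have := Nat.pos_of_ne_zero hb0
        nlinarith
      have hcop' : Nat.Coprime b (q * M') :=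
        Nat.Coprime.mul_right hqb.symm hcop.coprime_mul_left
      obtain ⟨N0, hN0, g, k1, k2, k3, k4⟩ := ih b hlt (q * M') (by rw [hN]; ring)
        hsq.of_mul_right hcop' wb (by
          intro y hy
          obtain ⟨u, hu2, hu3, hu4⟩ := h3 y
          rw [hu3] at hy ⊢
          exact hwn _ hy) hφ' (by
          obtain ⟨ℓ, h5, h6, h7, h8⟩ := hE
          exact ⟨ℓ, h5, (Int.natCast_dvd_natCast.mpr
            (mul_dvd_mul_left N (dvd_mul_left b q))).trans h6, h7, h8⟩)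
      refine ⟨N0, hN0, g, k1, k2.trans (mul_dvd_mul_left N (dvd_mul_left b q)), ?_, ?_⟩
      · intro ℓ hℓ hℓN hℓD
        obtain ⟨x, hx1, hx2⟩ := k3 ℓ hℓ hℓN hℓD
        refine ⟨x, hx1, ?_⟩
        have h5 := hwb (ℓ : ℤ) (by
          push_cast
          rw [Ne, ZMod.natCast_eq_zero_iff]
          intro h6
          exact hℓN (((Nat.prime_dvd_prime_iff_eq hq hℓ).mp h6) ▸ hqN))
        push_cast at h5
        rw [hx2, h5]
      · intro p hp c hc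
        by_cases hpq : p = q
        · subst hpq
          have hcb : c = b := (Nat.eq_of_mul_eq_mul_left hp.pos hc).symm
          subst hcb
          refine ⟨?_, fun _ hd => ?_⟩
          · rintro ⟨u, hu2, hu3, hu4⟩
            exact absurd (hu1 u hu2 hu3) hu4
          · have h5 : p * p ∣ p * (c * M' * c) := by
              refine (hd.trans k2).trans ?_
              rw [hN]
              exact dvd_of_eq (by ring)
            have h6 : p ∣ c * M' * c := Nat.dvd_of_mul_dvd_mul_left hp.pos h5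
            have h7 : Nat.Coprime p (c * M' * c) :=
              (hqb.mul_right hcop.coprime_mul_right).mul_right hqb
            exact hp.one_lt.ne' (Nat.eq_one_of_dvd_coprimes h7 dvd_rfl h6)
        · have hpq' : Nat.Coprime p q := (Nat.coprime_primes hp hq).mpr hpq
          have hpb : p ∣ b := by
            have : p ∣ q * b := ⟨c, hc⟩
            exact hpq'.dvd_of_dvd_mul_left this
          obtain ⟨c', hc'⟩ := hpb
          have hcc : c = q * c' := by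
            apply Nat.eq_of_mul_eq_mul_left hp.pos
            rw [← hc, hc']; ring
          have hqc' : Nat.Coprime q c' := by
            rw [hc'] at hqb
            exact hqb.coprime_mul_left_right
          obtain ⟨k5, k6⟩ := k4 p hp c' hc'
          refine ⟨?_, fun h5 => k6 ?_⟩
          · rintro ⟨u, hu2, hu3, hu4⟩
            have hu5 := hw0 u hu3
            rw [hwb u hu5] at hu3 hu4
            refine k5 ⟨u, ?_, hu3, hu4⟩
            have h6 := intCast_eq_of_dvd (a := c') (b := c) (by rw [hcc]; exact dvd_mul_left _ _)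
              (x := u) (y := 1) (by rw [hu2]; simp)
            simpa using h6
          · intro u hu2 hu3
            obtain ⟨v, hv1, hv2⟩ := exists_crt hqb 1 u
            have hv3 : (v : ZMod q) ≠ 0 := by rw [hv1]; simp
            have h6 : w (v : ZMod (q * b)) = wb (u : ZMod b) := by
              rw [hwb v hv3, hv2]
            have h7 : (v : ZMod c) = 1 := by
              rw [hcc]
              refine intCast_one_of_mul hqc' (by rw [hv1]; simp) ?_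
              have h8 := intCast_eq_of_dvd (a := c') (b := b) (by rw [hc']; exact dvd_mul_left _ _)
                hv2
              rw [h8, hu2]
            rw [← h6]
            exact h5 v h7 (by rw [h6]; exact hu3)

/-- **(C3)** for an arbitrary character `ψ` of odd order of `(ℤ/N)ˣ` of square-free conductor. -/
theorem exists_newform_psi_tau {N Q M' : ℕ} [NeZero N] [NeZero Q] (hN : N = Q * M')
    (hsq : Squarefree Q) (hcop : Nat.Coprime Q M') {H : Subgroup (ZMod N)ˣ}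
    {K : Type*} [Field K] [IsAlgClosed K] [CharZero K] (τ : integralClosure ℤ ℂ →+* K) (ψ : (ZMod N)ˣ →* Kˣ)
    {n : ℕ} (hψn : ∀ u, ψ u ^ (2 * n + 1) = 1)
    (hψ : ∀ u : (ZMod N)ˣ, ZMod.unitsMap (by rw [hN]; exact dvd_mul_right Q M' : Q ∣ N) u = 1 →
      ψ u = 1)
    {φ : HM (GamH N H) K} (hφ0 : φ ≠ 0)
    (hφ : ∀ g : Gamma0 N, dia K N H K g φ = (ψ (dChar N g) : K) • φ) {D : ℕ} (hD : D ≠ 0)
    {a : ℕ → K}
    (hT : ∀ (ℓ : ℕ) [NeZero ℓ], ℓ.Prime → ¬ ℓ ∣ N → ¬ ℓ ∣ D → TH K N H K ℓ φ = a ℓ • φ)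
    (hE : ∃ ℓ : ℕ, ℓ.Prime ∧ ((N * Q : ℕ) : ℤ) ∣ (ℓ : ℤ) - 1 ∧ ¬ ℓ ∣ D ∧ a ℓ ≠ ℓ + 1) :
    ∃ (N0 : ℕ) (_ : NeZero N0) (g : CuspForm (Gamma0 N0) 2),
      g.IsNewform ∧ N0 ∣ N * Q ∧
      (∀ (ℓ : ℕ) (u : (ZMod N)ˣ), ℓ.Prime → (u : ZMod N) = (ℓ : ZMod N) → ¬ ℓ ∣ D →
        ∃ x : integralClosure ℤ ℂ,
          (x : ℂ) = qCoeff g ℓ ∧ τ x = ((ψ u ^ (n + 1) : Kˣ) : K) * a ℓ) ∧
      (∀ q : ℕ, q.Prime → ∀ b : ℕ, Q = q * b →
        ((∃ u : (ZMod N)ˣ, ((u : ZMod N).val : ZMod b) = 1 ∧ ψ u ≠ 1) → q * q ∣ N0) ∧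
        ((∀ u : (ZMod N)ˣ, ((u : ZMod N).val : ZMod b) = 1 → ψ u = 1) → ¬ q * q ∣ N0)) := by
  have hQN : Q ∣ N := by rw [hN]; exact dvd_mul_right Q M'
  -- the square root of the character
  let w1 : (ZMod N)ˣ →* Kˣ := ψ ^ (n + 1)
  have hw1 : ∀ u, w1 u = ψ u ^ (n + 1) := fun u => rfl
  have hw1sq : ∀ u, w1 u ^ 2 = ψ u := fun u => by
    rw [hw1, ← pow_mul, show (n + 1) * 2 = (2 * n + 1) + 1 by ring, pow_succ, hψn, one_mul]
  have hsurj : Function.Surjective (ZMod.unitsMap hQN) := ZMod.unitsMap_surjective hQN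
  have hker : (ZMod.unitsMap hQN).ker ≤ w1.ker := fun u hu => by
    rw [MonoidHom.mem_ker] at hu ⊢
    rw [hw1, hψ u hu, one_pow]
  let w2 : (ZMod Q)ˣ →* Kˣ := MonoidHom.liftOfSurjective (ZMod.unitsMap hQN) hsurj ⟨w1, hker⟩
  have hw2 : ∀ u, w2 (ZMod.unitsMap hQN u) = w1 u := fun u =>
    MonoidHom.liftOfRightInverse_comp_apply _ _ _ ⟨w1, hker⟩ u
  let w : MulChar (ZMod Q) K := MulChar.ofUnitHom w2
  have hw : ∀ u : (ZMod N)ˣ, w (((u : ZMod N).cast : ZMod Q)) = (w1 u : K) := by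
    intro u
    have h1 : ((u : ZMod N).cast : ZMod Q) = ((ZMod.unitsMap hQN u : (ZMod Q)ˣ) : ZMod Q) :=
      (ZMod.unitsMap_val hQN u).symm
    rw [h1]
    change MulChar.ofUnitHom w2 _ = _
    rw [MulChar.ofUnitHom_coe, hw2]
  have hwint : ∀ (x : ℤ) (u : (ZMod N)ˣ), (x : ZMod N) = u → w (x : ZMod Q) = (w1 u : K) := by
    intro x u hxu
    rw [← hw u, ← hxu, ZMod.cast_intCast hQN]
  have hwn : ∀ u, w u ≠ 0 → w u ^ (2 * n + 1) = 1 := by
    intro y hy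
    have hy' : IsUnit y := by
      by_contra hc
      exact hy (w.map_nonunit hc)
    obtain ⟨u, hu⟩ := hsurj hy'.unit
    have h1 : y = ((u : ZMod N).cast : ZMod Q) := by
      rw [← ZMod.unitsMap_val hQN u, hu, IsUnit.unit_spec]
    rw [h1, hw, hw1]
    have h2 : (ψ u ^ (n + 1)) ^ (2 * n + 1) = 1 := by
      rw [← pow_mul, mul_comm, pow_mul, hψn, one_pow]
    have h3 := congrArg (Units.val) h2
    simpa using h3
  have hφ' : φ ∈ psiPart N Q H w := by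
    rw [mem_psiPart]
    intro g
    rw [hφ g]
    congr 1
    rw [hwint _ (dChar N g) (dChar_val N g).symm, ← hw1sq]
    push_cast
    rfl
  obtain ⟨N0, hN0, g, k1, k2, k3, k4⟩ := exists_newform'_tau τ ⟨n, rfl⟩ hφ0 hD hT Q M' hN hsq hcop
    w hwn hφ' hE
  refine ⟨N0, hN0, g, k1, k2, ?_, ?_⟩
  · intro ℓ u hℓ hu hℓD
    have hℓN : ¬ ℓ ∣ N := by
      intro hd
      have h1 : IsUnit ((ℓ : ℕ) : ZMod N) := hu ▸ u.isUnit
      rw [ZMod.isUnit_iff_coprime] at h1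
      exact hℓ.one_lt.ne' (Nat.eq_one_of_dvd_coprimes h1 dvd_rfl hd)
    obtain ⟨x, hx1, hx2⟩ := k3 ℓ hℓ hℓN hℓD
    refine ⟨x, hx1, ?_⟩
    have h1 := hwint (ℓ : ℤ) u (by push_cast; exact hu.symm)
    push_cast at h1
    rw [hx2, h1, hw1]
  · intro q hq b hb
    have hbN : b ∣ N := (Dvd.intro_left q hb.symm).trans hQN
    have hQ' : ∀ x : ℤ, w (x : ZMod Q) ≠ 0 → ∃ u : (ZMod N)ˣ, w (x : ZMod Q) = (w1 u : K) ∧
        ((u : ZMod N).cast : ZMod Q) = (x : ZMod Q) := by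
      intro x hx
      have hy' : IsUnit (x : ZMod Q) := by
        by_contra hc
        exact hx (w.map_nonunit hc)
      obtain ⟨u, hu⟩ := hsurj hy'.unit
      have h1 : (x : ZMod Q) = ((u : ZMod N).cast : ZMod Q) := by
        rw [← ZMod.unitsMap_val hQN u, hu, IsUnit.unit_spec]
      exact ⟨u, by rw [h1, hw], h1.symm⟩
    have hcastb : ∀ (u : (ZMod N)ˣ) (x : ℤ), ((u : ZMod N).cast : ZMod Q) = (x : ZMod Q) →
        (((u : ZMod N).val : ℕ) : ZMod b) = (x : ZMod b) := by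
      intro u x hux
      have h1 : (((u : ZMod N).val : ℤ) : ZMod Q) = (x : ZMod Q) := by
        rw [← hux]
        push_cast
        simp
      have h2 := intCast_eq_of_dvd (Dvd.intro_left q hb.symm) h1
      push_cast at h2
      exact h2
    obtain ⟨k5, k6⟩ := k4 q hq b hb
    constructor
    · rintro ⟨u, hu1, hu2⟩
      apply k5
      refine ⟨((u : ZMod N).val : ℤ), by push_cast; exact hu1, ?_⟩
      have h1 := hwint ((u : ZMod N).val : ℤ) u (by push_cast; simp)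
      rw [h1]
      refine ⟨Units.ne_zero _, fun h2 => hu2 ?_⟩
      have h3 : w1 u = 1 := Units.ext h2
      rw [← hw1sq, h3, one_pow]
    · intro h1
      apply k6
      intro x hx1 hx2
      obtain ⟨u, hu1, hu2⟩ := hQ' x hx2
      rw [hu1, hw1, h1 u (by rw [hcastb u x hu2, hx1])]
      simp

section NF

variable {M Q₀ M₀ : ℕ} [NeZero M] {H : Subgroup (ZMod M)ˣ} (C : CondHyp H Q₀ M₀)
  (hodd : Odd (Nat.card ((ZMod M)ˣ ⧸ H))) {K : Type u} [Field K] [CharZero K] [IsAlgClosed K]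
  {D : ℕ} (hD0 : D ≠ 0) (hMD : M ∣ D)

include C hodd hD0 hMD in
/-- **The newform of an eigenclass.** -/
theorem exists_newform_eig_tau (τ : integralClosure ℤ ℂ →+* K) {φ : HM (GamH M H) K} (hφ0 : φ ≠ 0) {y : Pr D → K}
    (hT : ∀ ℓ : Pr D, TP K M H K (prD D ℓ) φ = y ℓ • φ) {ψ : (ZMod M)ˣ ⧸ H → K}
    (hψ : ∀ g, diaQ K M H K g φ = ψ g • φ)
    (hE : ∃ ℓ₀ : Pr D, ((M * Q₀ : ℕ) : ℤ) ∣ ((ℓ₀ : ℕ) : ℤ) - 1 ∧ y ℓ₀ ≠ ((ℓ₀ : ℕ) : K) + 1) :
    ∃ (N0 : ℕ) (_ : NeZero N0) (g : CuspForm (Gamma0 N0) 2),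
      g.IsNewform ∧ N0 ∣ M * Q₀ ∧
      (∀ ℓ : Pr D, ∃ z : integralClosure ℤ ℂ, (z : ℂ) = qCoeff g ℓ ∧ τ z = y ℓ) ∧
      (∀ q : ℕ, q.Prime → ∀ b : ℕ, Q₀ = q * b →
        ((∃ u : (ZMod M)ˣ, ((u : ZMod M).val : ZMod b) = 1 ∧ ψ (u : (ZMod M)ˣ ⧸ H) ≠ 1) →
          q * q ∣ N0) ∧
        ((∀ u : (ZMod M)ˣ, ((u : ZMod M).val : ZMod b) = 1 → ψ (u : (ZMod M)ˣ ⧸ H) = 1) →
          ¬ q * q ∣ N0)) := by
  obtain ⟨ψ', hψ'⟩ := exists_char (χ := ψ) (mem_diaEig.mpr hψ) hφ0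
  haveI : NeZero Q₀ := ⟨fun h => NeZero.ne M (by rw [C.hN, h, zero_mul])⟩
  let Ψ : (ZMod M)ˣ →* Kˣ := ψ'.comp (QuotientGroup.mk' H)
  have hΨ : ∀ u : (ZMod M)ˣ, ((Ψ u : Kˣ) : K) = ψ (u : (ZMod M)ˣ ⧸ H) := fun u => hψ' _
  obtain ⟨n, hn⟩ := hodd
  have hΨn : ∀ u, Ψ u ^ (2 * n + 1) = 1 := by
    intro u
    change ψ' _ ^ _ = 1
    rw [← map_pow, ← hn, pow_card_eq_one', map_one]
  have hfxn : hfx M H = n + 1 := by
    rw [hfx, hn]; omega
  let A : ℕ → K := fun ℓ => if h : ℓ.Prime ∧ ¬ ℓ ∣ D then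
    (((Ψ (uP M ℓ))⁻¹ ^ (n + 1) : Kˣ) : K) * y ⟨ℓ, h⟩ else 0
  have hA : ∀ ℓ : Pr D, A ℓ = (((Ψ (uP M ℓ))⁻¹ ^ (n + 1) : Kˣ) : K) * y ℓ := fun ℓ => by
    change (if h : _ then _ else _) = _
    rw [dif_pos ℓ.2]
  obtain ⟨N0, hN0, g, hg, hdvd, hcoef, hram⟩ := exists_newform_psi_tau (H := H) (K := K) C.hN C.hsq
    C.hcop τ Ψ hΨn (fun u hu => by
      change ψ' (QuotientGroup.mk' H u) = 1
      rw [(QuotientGroup.eq_one_iff u).mpr (C.hH u hu) |> fun h => (show QuotientGroup.mk' H u = 1 from h), map_one])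
    hφ0 (fun g => by
      rw [← diaQ_dChar, hψ, hΨ]) hD0 (a := A) (fun ℓ _ hℓ _ hℓD => by
      have h1 := hT ⟨ℓ, hℓ, hℓD⟩
      have h2 : A ℓ = _ := hA ⟨ℓ, hℓ, hℓD⟩
      rw [TP, Module.End.mul_apply] at h1
      have h3 : diaQ K M H K (((uP M ℓ : (ZMod M)ˣ) : (ZMod M)ˣ ⧸ H) ^ hfx M H)
          (TH K M H K ℓ φ) = y ⟨ℓ, hℓ, hℓD⟩ • φ := h1
      have h4 : diaQ K M H K (((uP M ℓ : (ZMod M)ˣ) : (ZMod M)ˣ ⧸ H) ^ hfx M H)
          (TH K M H K ℓ φ) = (((Ψ (uP M ℓ)) ^ (n + 1) : Kˣ) : K) • TH K M H K ℓ φ := by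
        rw [diaQ_TH, hψ, map_smul]
        congr 1
        rw [← hψ', map_pow, hfxn]
        rfl
      rw [h4] at h3
      rw [h2, mul_smul, ← h3, smul_smul, ← Units.val_mul, ← mul_pow, inv_mul_cancel, one_pow,
        Units.val_one, one_smul])
    (by
      obtain ⟨ℓ₀, h1, h2⟩ := hE
      refine ⟨ℓ₀, ℓ₀.2.1, h1, ℓ₀.2.2, ?_⟩
      rw [hA, uP_eq_one ((Int.natCast_dvd_natCast.mpr (dvd_mul_right M Q₀)).trans h1), map_one,
        inv_one, one_pow, Units.val_one, one_mul]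
      exact h2)
  refine ⟨N0, hN0, g, hg, hdvd, fun ℓ => ?_, fun q hq b hb => ?_⟩
  · have hcop : Nat.Coprime (ℓ : ℕ) M :=
      (Nat.Prime.coprime_iff_not_dvd ℓ.2.1).mpr fun h => ℓ.2.2 (h.trans hMD)
    obtain ⟨z, hz1, hz2⟩ := hcoef ℓ (uP M ℓ) ℓ.2.1 (uP_val hcop) ℓ.2.2
    refine ⟨z, hz1, ?_⟩
    rw [hz2, hA, ← mul_assoc, ← Units.val_mul, ← mul_pow, mul_inv_cancel, one_pow, Units.val_one,
      one_mul]
  · obtain ⟨h1, h2⟩ := hram q hq b hb
    refine ⟨fun ⟨u, hu, hu'⟩ => h1 ⟨u, hu, fun h => hu' ?_⟩, fun h => h2 fun u hu => ?_⟩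
    · rw [← hΨ, h, Units.val_one]
    · apply Units.ext
      rw [hΨ, h u hu, Units.val_one]

end NF


end Fermat.Agent.H22
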