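import Fermat.Agent.H22.Raise16
import Fermat.Agent.H22.TauC3

/-!
# The action of `T_q`
-/

set_option autoImplicit false
set_option linter.unusedSectionVars false
set_option linter.style.haveILetI false

noncomputable section

universe u

namespace Fermat.Agent.H22

open Matrix.SpecialLinearGroup CongruenceSubgroup IsLocalRing
open Fermat.Agent.TC
open ModularFormClass (qCoeff)
open scoped MatrixGroups

section Restr

variable {O : Type u} [CommRing O] {N : Type u} [AddCommGroup N] [Module O N] {τ τ' : Type}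
  {act : MvPolynomial τ O →ₐ[O] Module.End O N} {act' : MvPolynomial τ' O →ₐ[O] Module.End O N}
  {K : Type u} [Field K] [Algebra O K]

/-- an operator is determined by its values at the points -/
theorem eq_toEnd_of_points (f : τ' → τ) (hf : ∀ P, act (MvPolynomial.rename f P) = act' P)
    {X : Type*} (x : X → HT act →ₐ[O] K) (hx : ∀ c, (∀ t, x t c = 0) → c = 0) (i : τ)
    (c : HT act') (h : ∀ t, ∀ x₀ : HT act' →ₐ[O] K,
      (∀ R, x₀ (Ideal.Quotient.mk _ R) = x t (Ideal.Quotient.mk _ (MvPolynomial.rename f R))) →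
      x₀ c = x t (Ideal.Quotient.mk _ (MvPolynomial.X i))) :
    act (MvPolynomial.X i) = HT.toEnd act' c := by
  obtain ⟨P, rfl⟩ := HT.exists_rep _ c
  have hzero : (Ideal.Quotient.mk (RingHom.ker act)
      (MvPolynomial.X i - MvPolynomial.rename f P) : HT act) = 0 := by
    apply hx
    intro t
    rw [map_sub, map_sub, sub_eq_zero]
    let x₀ : HT act' →ₐ[O] K := Ideal.Quotient.liftₐ (RingHom.ker act')
      (((x t).comp (Ideal.Quotient.mkₐ O (RingHom.ker act))).comp (MvPolynomial.rename f)) (by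
        intro R hR
        have h1 : act (MvPolynomial.rename f R) = 0 := by rw [hf]; exact hR
        rw [AlgHom.comp_apply, AlgHom.comp_apply, Ideal.Quotient.mkₐ_eq_mk,
          Ideal.Quotient.eq_zero_iff_mem.mpr (show _ ∈ RingHom.ker act from h1), map_zero])
    have h1 := h t x₀ (fun R => rfl)
    rw [← h1]
    rfl
  rw [Ideal.Quotient.eq_zero_iff_mem, RingHom.mem_ker, map_sub, sub_eq_zero, hf] at hzero
  rw [HT.toEnd_mk, ← hzero]

end Restr

section TqAct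

variable {O : Type u} [CommRing O] [IsLocalRing O] [IsNoetherianRing O] {K : Type u} [Field K]
  [CharZero K] [IsAlgClosed K] [Algebra O K] {M Q₀ M₀ D₀ D : ℕ} [NeZero M]
  {H : Subgroup (ZMod M)ˣ} (C : CondHyp H Q₀ M₀) {p : ℕ} [Fact p.Prime] (hp2 : p ≠ 2)
  (hpO : (p : O) ∈ maximalIdeal O) (hΔ : IsPGroup p ((ZMod M)ˣ ⧸ H))
  {a : Pr D₀ → ResidueField O} (hD : D₀ ∣ D) (hD0 : D ≠ 0) (hMD : M ∣ D)
  {W : Submodule O (HM (GamH M H) O)} (hW : Stab O (prD D₀) W) (hloc : LocW O (prD D₀) a W)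
  (i₀ : Pr D) (hi₀ : ((M * Q₀ : ℕ) : ℤ) ∣ ((i₀ : ℕ) : ℤ) - 1)
  (ha₀ : a (prI hD i₀) ≠ ((i₀ : ℕ) : ResidueField O) + 1)
  (hK : Function.Injective (algebraMap O K)) (q : Nat.Primes) (hqM : ¬ (q : ℕ) ∣ M)
  (hTq : ∀ x ∈ W, TP O M H O q x ∈ W)

/-- the operators, with `T_q` -/
def famQ : Option (Pr D ⊕ ((ZMod M)ˣ ⧸ H)) → Module.End O W
  | none => (TP O M H O q).restrict hTq
  | some t => actT hW (prI hD) (id : (ZMod M)ˣ ⧸ H → (ZMod M)ˣ ⧸ H) (MvPolynomial.X t)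

theorem famQ_comm (i j : Option (Pr D ⊕ ((ZMod M)ˣ ⧸ H))) :
    famQ hD hW q hTq i * famQ hD hW q hTq j = famQ hD hW q hTq j * famQ hD hW q hTq i := by
  have key : ∀ t, famQ hD hW q hTq none * famQ hD hW q hTq (some t) =
      famQ hD hW q hTq (some t) * famQ hD hW q hTq none := by
    intro t
    refine LinearMap.ext fun x => Subtype.ext ?_
    change TP O M H O q ((actT hW (prI hD) (id : (ZMod M)ˣ ⧸ H → (ZMod M)ˣ ⧸ H)
      (MvPolynomial.X t) x : W) : HM (GamH M H) O) = ((actT hW (prI hD)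
        (id : (ZMod M)ˣ ⧸ H → (ZMod M)ˣ ⧸ H) (MvPolynomial.X t)
          ((TP O M H O q).restrict hTq x) : W) : HM (GamH M H) O)
    rcases t with ℓ | g
    · rw [actT_inl, actT_inl]
      exact TP_comm q _ _
    · rw [actT_inr, actT_inr]
      exact (diaQ_TP _ q _).symm
  rcases i with _ | i <;> rcases j with _ | j
  · rfl
  · exact key j
  · exact (key i).symm
  · change actT hW (prI hD) (id : (ZMod M)ˣ ⧸ H → (ZMod M)ˣ ⧸ H) (MvPolynomial.X i) *
      actT hW (prI hD) (id : (ZMod M)ˣ ⧸ H → (ZMod M)ˣ ⧸ H) (MvPolynomial.X j) = _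
    rw [← map_mul, mul_comm, map_mul]
    rfl

/-- the action of polynomials, with `T_q` -/
def actQ : MvPolynomial (Option (Pr D ⊕ ((ZMod M)ˣ ⧸ H))) O →ₐ[O] Module.End O W :=
  actHom (famQ hD hW q hTq) (famQ_comm hD hW q hTq)

theorem actQ_X (t : Option (Pr D ⊕ ((ZMod M)ˣ ⧸ H))) :
    actQ hD hW q hTq (MvPolynomial.X t) = famQ hD hW q hTq t := actHom_X _ _ _

variable {K' : Type} (j : K' → (ZMod M)ˣ ⧸ H)

theorem actQ_rename (P : MvPolynomial (Pr D ⊕ K') O) :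
    actQ hD hW q hTq (MvPolynomial.rename (fun t => some (Sum.map id j t)) P) =
      actT hW (prI hD) j P := by
  have h : (actQ hD hW q hTq).comp (MvPolynomial.rename (fun t => some (Sum.map id j t))) =
      actT hW (prI hD) j := by
    refine MvPolynomial.algHom_ext fun t => ?_
    rw [AlgHom.comp_apply, MvPolynomial.rename_X, actQ_X]
    refine LinearMap.ext fun x => Subtype.ext ?_
    rcases t with ℓ | k
    · refine Eq.trans ?_ (actT_inl hW (prI hD) j ℓ x).symm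
      exact actT_inl hW (prI hD) (id : (ZMod M)ˣ ⧸ H → (ZMod M)ˣ ⧸ H) ℓ x
    · refine Eq.trans ?_ (actT_inr hW (prI hD) j k x).symm
      exact actT_inr hW (prI hD) (id : (ZMod M)ˣ ⧸ H → (ZMod M)ˣ ⧸ H) (j k) x
  exact DFunLike.congr_fun h P

/-- the operators over `K`, with `T_q` -/
def opQ (K : Type u) [Field K] (M : ℕ) [NeZero M] (H : Subgroup (ZMod M)ˣ) (D : ℕ)
    (q : Nat.Primes) : Option (Pr D ⊕ ((ZMod M)ˣ ⧸ H)) → Module.End K (HM (GamH M H) K)
  | none => TP K M H K q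
  | some (Sum.inl ℓ) => TP K M H K (prD D ℓ)
  | some (Sum.inr g) => diaQ K M H K g

theorem opQ_extK (t : Option (Pr D ⊕ ((ZMod M)ˣ ⧸ H))) (x : W) :
    opQ K M H D q t (extK O K M H x) =
      extK O K M H (actQ hD hW q hTq (MvPolynomial.X t) x : W) := by
  rw [actQ_X]
  rcases t with _ | ℓ | g
  · exact TP_extK _ _
  · refine (TP_extK _ _).trans (congrArg (extK O K M H) ?_)
    exact (actT_inl hW (prI hD) (id : (ZMod M)ˣ ⧸ H → (ZMod M)ˣ ⧸ H) ℓ x).symm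
  · refine (diaQ_extK _ _).trans (congrArg (extK O K M H) ?_)
    exact (actT_inr hW (prI hD) (id : (ZMod M)ˣ ⧸ H → (ZMod M)ˣ ⧸ H) g x).symm

include hD hW hTq in
theorem opQ_mem (t : Option (Pr D ⊕ ((ZMod M)ˣ ⧸ H))) {φ : HM (GamH M H) K}
    (hφ : φ ∈ spK K W) : opQ K M H D q t φ ∈ spK K W := by
  refine Submodule.span_induction ?_ ?_ ?_ ?_ hφ
  · rintro _ ⟨x, hx, rfl⟩
    have := opQ_extK (K := K) hD hW q hTq t ⟨x, hx⟩
    rw [this]
    exact Submodule.subset_span ⟨_, (actQ hD hW q hTq (MvPolynomial.X t) ⟨x, hx⟩).2, rfl⟩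
  · rw [map_zero]; exact zero_mem _
  · intro a b _ _ ha hb
    rw [map_add]; exact add_mem ha hb
  · intro c a _ ha
    rw [map_smul]; exact Submodule.smul_mem _ _ ha

include C hp2 hΔ hD hMD hW hloc hi₀ ha₀ hK hqM hTq in
/-- **The action of `T_q`**: it is determined at the points. -/
theorem Tq_eq_of_eig (c : HT (actT hW (prI hD) j))
    (hc : ∀ (x : HT (actT hW (prI hD) j) →ₐ[O] K) (φ : HM (GamH M H) K)
      (ψ : (ZMod M)ˣ ⧸ H → K) (μ : K), φ ≠ 0 →
      (∀ ℓ : Pr D, TP K M H K (prD D ℓ) φ =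
        x (Ideal.Quotient.mk _ (MvPolynomial.X (Sum.inl ℓ))) • φ) →
      (∀ g, diaQ K M H K g φ = ψ g • φ) → TP K M H K q φ = μ • φ → x c = μ) (v : W) :
    TP O M H O q (v : HM (GamH M H) O) = (HT.toEnd (actT hW (prI hD) j) c v : W) := by
  haveI : FiniteDimensional K (HM (GamH M H) K) := finite_HM _ K K
  have hodd := odd_card hp2 hΔ
  let G : Option (Pr D ⊕ ((ZMod M)ˣ ⧸ H)) → Module.End K (spK K W) := fun t =>
    (opQ K M H D q t).restrict (fun φ hφ => opQ_mem hD hW q hTq t hφ)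
  have hss : ∀ t, (G t).IsSemisimple := by
    intro t
    obtain ⟨r, hr, hr'⟩ : ∃ r : Polynomial K, Squarefree r ∧ ∀ w ∈ W,
        Polynomial.aeval (opQ K M H D q t) r (extK O K M H w) = 0 := by
      rcases t with _ | ℓ | g
      · exact semi_W C.dvd C.hH hodd C.hN C.hsq C.hcop hloc (prI hD i₀) hi₀ ha₀ q hqM
      · exact semi_W C.dvd C.hH hodd C.hN C.hsq C.hcop hloc (prI hD i₀) hi₀ ha₀ (prD D ℓ)
          (fun h => ℓ.2.2 (h.trans hMD))
      · have hn : (Nat.card ((ZMod M)ˣ ⧸ H) : K) ≠ 0 := by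
          exact_mod_cast Nat.card_pos.ne'
        refine ⟨Polynomial.X ^ Nat.card ((ZMod M)ˣ ⧸ H) - 1,
          (Polynomial.separable_X_pow_sub_C (1 : K) hn one_ne_zero).squarefree, fun w hw => ?_⟩
        rw [map_sub, map_pow, Polynomial.aeval_X, map_one]
        change ((diaQ K M H K g) ^ (Nat.card ((ZMod M)ˣ ⧸ H)) - 1 :
          Module.End K (HM (GamH M H) K)) (extK O K M H w) = 0
        rw [← map_pow, pow_card_eq_one', map_one, sub_self, LinearMap.zero_apply]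
    refine Module.End.isSemisimple_of_squarefree_aeval_eq_zero hr ?_
    refine LinearMap.ext fun v => Subtype.ext ?_
    have h1 : ∀ (s : Polynomial K) (v : spK K W),
        ((Polynomial.aeval (G t) s v : spK K W) : HM (GamH M H) K) =
          Polynomial.aeval (opQ K M H D q t) s (v : HM (GamH M H) K) := by
      intro s
      induction s using Polynomial.induction_on' with
      | add p q hp hq =>
        intro v
        rw [map_add, map_add, LinearMap.add_apply, LinearMap.add_apply, ← hp, ← hq]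
        rfl
      | monomial n c =>
        intro v
        rw [Polynomial.aeval_monomial, Polynomial.aeval_monomial, Module.End.mul_apply,
          Module.End.mul_apply, Module.algebraMap_end_apply, Module.algebraMap_end_apply]
        change c • ((((G t) ^ n) v : spK K W) : HM (GamH M H) K) = _
        congr 1
        induction n generalizing v with
        | zero => rfl
        | succ n ih =>
          rw [pow_succ, pow_succ, Module.End.mul_apply, Module.End.mul_apply, ih]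
          rfl
    rw [h1]
    exact spK_induction hr' v.2
  have hG : ∀ t (w : W), toSp K W (actQ hD hW q hTq (MvPolynomial.X t) w) =
      G t (toSp K W w) := by
    intro t w
    exact Subtype.ext (opQ_extK hD hW q hTq t w).symm
  have hsm : ∀ (a : O) (w : W), toSp K W (a • w) = algebraMap O K a • toSp K W w := fun a w =>
    Subtype.ext (extK_smul (K := K) a (w : HM (GamH M H) O))
  obtain ⟨X, hX, x, φ, hφ0, hφ, hx⟩ := exists_points (actQ hD hW q hTq) (toSp K W) hsm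
    span_toSp G hG hss
    (fun w w' h => Subtype.ext (extK_injective hK (congrArg Subtype.val h)))
  have key := eq_toEnd_of_points (fun t => some (Sum.map id j t)) (actQ_rename hD hW q hTq j) x hx
    none c (fun t x₀ hx₀ => by
      refine hc x₀ (φ t : HM (GamH M H) K)
        (fun g => x t (Ideal.Quotient.mk _ (MvPolynomial.X (some (Sum.inr g)))))
        (x t (Ideal.Quotient.mk _ (MvPolynomial.X none))) (fun h => hφ0 t (Subtype.ext h))
        (fun ℓ => ?_) (fun g => congrArg Subtype.val (hφ t (some (Sum.inr g))))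
        (congrArg Subtype.val (hφ t none))
      rw [hx₀, MvPolynomial.rename_X]
      exact congrArg Subtype.val (hφ t (some (Sum.inl ℓ))))
  rw [← key, actQ_X]
  rfl

end TqAct

section NF

variable {M Q₀ M₀ D : ℕ} [NeZero M] {H : Subgroup (ZMod M)ˣ} (C : CondHyp H Q₀ M₀)
  (hodd : Odd (Nat.card ((ZMod M)ˣ ⧸ H))) {K : Type u} [Field K] [CharZero K] [IsAlgClosed K]
  (hD0 : D ≠ 0) (hMD : M ∣ D)

include C hodd hD0 hMD in
/-- **The eigenvalue of `T_q`** on an eigenclass attached to a newform. -/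
theorem TP_eig_newform {φ : HM (GamH M H) K} (hφ0 : φ ≠ 0) {y : Pr D → K}
    (hT : ∀ ℓ : Pr D, TP K M H K (prD D ℓ) φ = y ℓ • φ) {ψ : (ZMod M)ˣ ⧸ H → K}
    (hψ : ∀ g, diaQ K M H K g φ = ψ g • φ)
    (hE : ∃ ℓ₀ : Pr D, ((M * Q₀ : ℕ) : ℤ) ∣ ((ℓ₀ : ℕ) : ℤ) - 1 ∧ y ℓ₀ ≠ ((ℓ₀ : ℕ) : K) + 1)
    {N0 : ℕ} [NeZero N0] {g : CuspForm (Gamma0 N0) 2} (hg : g.IsNewform)
    (τ : integralClosure ℤ ℂ →+* K)
    (hcoef : ∀ ℓ : Pr D, ∃ z : integralClosure ℤ ℂ, (z : ℂ) = qCoeff g ℓ ∧ τ z = y ℓ)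
    (q : Nat.Primes) (hqM : ¬ (q : ℕ) ∣ M) {μ : K} (hμ : TP K M H K q φ = μ • φ)
    (z : integralClosure ℤ ℂ) (hz : (z : ℂ) = qCoeff g q) : τ z = μ := by
  classical
  let D' := D / (q : ℕ) ^ D.factorization q
  have hDD' : (q : ℕ) ^ D.factorization q * D' = D := Nat.ordProj_mul_ordCompl_eq_self D q
  have hD'0 : D' ≠ 0 := fun h0 => hD0 (by rw [← hDD', h0, mul_zero])
  have hqD' : ¬ (q : ℕ) ∣ D' := Nat.not_dvd_ordCompl q.2 hD0
  have hMD' : M ∣ D' := by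
    have h9 : Nat.Coprime M ((q : ℕ) ^ D.factorization q) :=
      (((Nat.Prime.coprime_iff_not_dvd q.2).mpr hqM).symm).pow_right _
    exact h9.dvd_of_dvd_mul_left (by rw [hDD']; exact hMD)
  have hdvd : ∀ ℓ : Pr D', (ℓ : ℕ) ∣ D → (ℓ : ℕ) = (q : ℕ) := by
    intro ℓ hℓ
    rw [← hDD'] at hℓ
    rcases (Nat.Prime.dvd_mul ℓ.2.1).mp hℓ with h9 | h9
    · exact (Nat.prime_dvd_prime_iff_eq ℓ.2.1 q.2).mp (ℓ.2.1.dvd_of_dvd_pow h9)
    · exact absurd h9 ℓ.2.2
  let y' : Pr D' → K := fun ℓ => if hℓ : (ℓ : ℕ) ∣ D then μ else y ⟨ℓ, ℓ.2.1, hℓ⟩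
  obtain ⟨i₀, hi₀, hne⟩ := hE
  have hi₀D' : ¬ (i₀ : ℕ) ∣ D' := fun h9 => i₀.2.2 (h9.trans (Dvd.intro_left _ hDD'))
  obtain ⟨N1, hN1, g1, hg1, -, hcoef1, -⟩ := exists_newform_eig_tau (K := K) C hodd
    (D := D') hD'0 hMD' τ hφ0 (y := y') (fun ℓ => by
      by_cases hℓ : (ℓ : ℕ) ∣ D
      · have h9 : y' ℓ = μ := dif_pos hℓ
        have h10 : prD D' ℓ = q := Subtype.ext (hdvd ℓ hℓ)
        rw [h9, h10, hμ]
      · have h9 : y' ℓ = y ⟨ℓ, ℓ.2.1, hℓ⟩ := dif_neg hℓ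
        rw [h9]
        exact hT ⟨ℓ, ℓ.2.1, hℓ⟩) hψ
    ⟨⟨i₀, i₀.2.1, hi₀D'⟩, hi₀, by
      have h9 : y' ⟨i₀, i₀.2.1, hi₀D'⟩ = y i₀ := dif_neg i₀.2.2
      rw [h9]
      exact hne⟩
  have hsame := AL.newform_unique hg hg1 hD0 (fun ℓ hℓ _ _ hℓD => by
    obtain ⟨z1, h1, h2⟩ := hcoef ⟨ℓ, hℓ, hℓD⟩
    have hℓD' : ¬ ℓ ∣ D' := fun h9 => hℓD (h9.trans (Dvd.intro_left _ hDD'))
    obtain ⟨z2, h3, h4⟩ := hcoef1 ⟨ℓ, hℓ, hℓD'⟩
    have h9 : y' ⟨ℓ, hℓ, hℓD'⟩ = y ⟨ℓ, hℓ, hℓD⟩ := dif_neg hℓD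
    rw [h9, ← h2] at h4
    have h5 := tau_injective τ h4
    change qCoeff g ((⟨ℓ, hℓ, hℓD⟩ : Pr D) : ℕ) = qCoeff g1 ((⟨ℓ, hℓ, hℓD'⟩ : Pr D') : ℕ)
    rw [← h1, ← h3, h5])
  obtain ⟨hN, hgg⟩ := hsame
  obtain ⟨z', hz1, hz2⟩ := hcoef1 ⟨q, q.2, hqD'⟩
  have hq1 : qCoeff g (q : ℕ) = qCoeff g1 (q : ℕ) := by
    subst hN
    rw [DFunLike.coe_injective hgg]
  have h5 : z = z' := Subtype.ext (by rw [hz, hq1]; exact hz1.symm)
  rw [h5, hz2]
  have h11 : y' ⟨q, q.2, hqD'⟩ • φ = μ • φ := by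
    by_cases hqD : (q : ℕ) ∣ D
    · have : y' ⟨q, q.2, hqD'⟩ = μ := dif_pos hqD
      rw [this]
    · have : y' ⟨q, q.2, hqD'⟩ = y ⟨q, q.2, hqD⟩ := dif_neg hqD
      rw [this, ← hμ]
      exact (hT ⟨q, q.2, hqD⟩).symm
  exact smul_left_injective K hφ0 h11

end NF

section ConjAlg

variable {O K : Type*} [CommRing O] [IsDomain O] [Field K] [CharZero K] [IsAlgClosed K]
  [Algebra O K] {R : Type*} [CommRing R] [Algebra O R]

/-- conjugate points -/
theorem exists_conj_alg (hK : Function.Injective (algebraMap O K)) [Algebra.IsIntegral O R]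
    (x y : R →ₐ[O] K) (h : ∀ b, x b = 0 → y b = 0) (τ : integralClosure ℤ ℂ →+* K) :
    ∃ τ' : integralClosure ℤ ℂ →+* K, ∀ (b : R) (z : integralClosure ℤ ℂ),
      τ z = x b → τ' z = y b := by
  have key : ∀ (x : R →ₐ[O] K) (s : MvPolynomial R O),
      MvPolynomial.aeval (fun b => x b) s = x (MvPolynomial.aeval id s) := by
    intro x s
    have h1 : (MvPolynomial.aeval (fun b => x b) : MvPolynomial R O →ₐ[O] K) =
        x.comp (MvPolynomial.aeval id) :=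
      MvPolynomial.algHom_ext fun b => by
        rw [MvPolynomial.aeval_X, AlgHom.comp_apply, MvPolynomial.aeval_X]
        rfl
    rw [h1]
    rfl
  refine exists_conj_tau hK (fun b => x b) (fun b => y b) (fun s => ?_) (fun s hs => ?_) τ
  · rw [key]
    exact (Algebra.IsIntegral.isIntegral (R := O) _).map x
  · rw [key] at hs ⊢
    exact h _ hs

/-- every point is conjugate to a point of a separating family -/
theorem exists_ker_le {X : Type*} [Finite X] (x : X → R →ₐ[O] K)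
    (hx : ∀ b, (∀ t, x t b = 0) → b = 0) (y : R →ₐ[O] K) :
    ∃ t, ∀ b, x t b = 0 → y b = 0 := by
  classical
  by_contra hcon
  push Not at hcon
  choose b hb hb' using hcon
  haveI := Fintype.ofFinite X
  have h0 : ∏ t, b t = 0 := hx _ fun t => by
    rw [map_prod]
    exact Finset.prod_eq_zero (Finset.mem_univ t) (hb t)
  have h1 : y (∏ t, b t) ≠ 0 := by
    rw [map_prod]
    exact Finset.prod_ne_zero_iff.mpr fun t _ => hb' t
  exact h1 (by rw [h0, map_zero])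

end ConjAlg

section TqFinal

variable {O : Type u} [CommRing O] [IsDomain O] [IsLocalRing O] [IsNoetherianRing O]
  {K : Type u} [Field K]
  [CharZero K] [IsAlgClosed K] [Algebra O K] {M Q₀ M₀ D₀ D : ℕ} [NeZero M]
  {H : Subgroup (ZMod M)ˣ} (C : CondHyp H Q₀ M₀) {p : ℕ} [Fact p.Prime] (hp2 : p ≠ 2)
  (hpO : (p : O) ∈ maximalIdeal O) (hΔ : IsPGroup p ((ZMod M)ˣ ⧸ H))
  {a : Pr D₀ → ResidueField O} (hD : D₀ ∣ D) (hD0 : D ≠ 0) (hMD : M ∣ D)
  {W : Submodule O (HM (GamH M H) O)} (hW : Stab O (prD D₀) W) (hloc : LocW O (prD D₀) a W)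
  (i₀ : Pr D) (hi₀ : ((M * Q₀ : ℕ) : ℤ) ∣ ((i₀ : ℕ) : ℤ) - 1)
  (ha₀ : a (prI hD i₀) ≠ ((i₀ : ℕ) : ResidueField O) + 1)
  (hK : Function.Injective (algebraMap O K)) (q : Nat.Primes) (hqM : ¬ (q : ℕ) ∣ M)
  (hTq : ∀ x ∈ W, TP O M H O q x ∈ W) {K' : Type} (j : K' → (ZMod M)ˣ ⧸ H)

include C hp2 hpO hΔ hD hD0 hMD hW hloc hi₀ ha₀ hK hqM hTq in
/-- **The action of `T_q`**: it is the operator with values `a_q` at the points. -/
theorem Tq_eq_of_newform (c : HT (actT hW (prI hD) j)) {X : Type*} [Finite X]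
    (x : X → HT (actT hW (prI hD) j) →ₐ[O] K) (hx : ∀ b, (∀ t, x t b = 0) → b = 0)
    (hc : ∀ t, ∃ (N0 : ℕ) (_ : NeZero N0) (g : CuspForm (Gamma0 N0) 2)
      (τ : integralClosure ℤ ℂ →+* K), g.IsNewform ∧
      (∀ ℓ : Pr D, ∃ z : integralClosure ℤ ℂ, (z : ℂ) = qCoeff g ℓ ∧
        τ z = x t (Ideal.Quotient.mk _ (MvPolynomial.X (Sum.inl ℓ)))) ∧
      ∀ z : integralClosure ℤ ℂ, (z : ℂ) = qCoeff g q → τ z = x t c) (v : W) :
    TP O M H O q (v : HM (GamH M H) O) = (HT.toEnd (actT hW (prI hD) j) c v : W) := by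
  haveI : Module.Finite O W := finiteW
  haveI : Module.Finite O (HT (actT hW (prI hD) j)) := HT.finite _
  refine Tq_eq_of_eig (K := K) C hp2 hΔ hD hMD hW hloc i₀ hi₀ ha₀ hK q hqM hTq j c
    (fun x₀ φ ψ μ hφ0 hφT hφψ hφq => ?_) v
  obtain ⟨t, ht⟩ := exists_ker_le x hx x₀
  obtain ⟨N0, hN0, g, τ, hg, hcoef, hq⟩ := hc t
  obtain ⟨τ', hτ'⟩ := exists_conj_alg hK (x t) x₀ ht τ
  have hz := hτ' c ⟨qCoeff g q, isIntegral_qCoeff_prime hg.1 q.2⟩ (hq _ rfl)
  rw [← hz]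
  refine TP_eig_newform C (odd_card hp2 hΔ) hD0 hMD hφ0 hφT hφψ ⟨i₀, hi₀, ?_⟩ hg τ'
    (fun ℓ => ?_) q hqM hφq _ rfl
  · exact pt_ne_of_locAct (locAct_T hW (prI hD) j Fact.out hpO hΔ hloc) (Sum.inl i₀) (i₀ : ℕ)
      ha₀ x₀
  · obtain ⟨z, h1, h2⟩ := hcoef ℓ
    exact ⟨z, h1, hτ' _ z h2⟩

end TqFinal

end Fermat.Agent.H22
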