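import Fermat.Agent.H22.Raise17
import Fermat.Agent.H22.Raise13
import Fermat.Agent.TC.Pack6

/-!
# The action of `T_q` and newness, for the modules of the Taylor-Wiles levels
-/

set_option autoImplicit false
set_option linter.unusedSectionVars false
set_option linter.style.haveILetI false

noncomputable section

namespace Fermat.Agent.H22

open Matrix.SpecialLinearGroup CongruenceSubgroup IsLocalRing
open Fermat.Agent.TC Fermat.Agent.H25.TWM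
open ModularFormClass (qCoeff)
open scoped MatrixGroups

section Gen

variable {O : Type} [CommRing O] [IsLocalRing O] {M : ℕ} [NeZero M] (H : Subgroup (ZMod M)ˣ)
  {D₀ : ℕ} (a : Pr D₀ → ResidueField O) {ι : Type} (f : ι → (ZMod M)ˣ ⧸ H) (c : ι → O)
  {D : ℕ} (hD : D₀ ∣ D) {K' : Type} [CommGroup K'] (j : K' →* (ZMod M)ˣ ⧸ H)

/-- polynomials in the Hecke operators -/
def LvS (s : MvPolynomial (Pr D) O) : LvB O H a f c hD j :=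
  MvPolynomial.aeval (LvT O H a f c hD j) s

theorem LvS_eq (s : MvPolynomial (Pr D) O) : LvS H a f c hD j s =
    Ideal.Quotient.mk _ (MvPolynomial.rename Sum.inl s) := by
  have h1 : (MvPolynomial.aeval (LvT O H a f c hD j) :
      MvPolynomial (Pr D) O →ₐ[O] LvB O H a f c hD j) =
      (Ideal.Quotient.mkₐ O _).comp (MvPolynomial.rename Sum.inl) := by
    refine MvPolynomial.algHom_ext fun ℓ => ?_
    rw [MvPolynomial.aeval_X, AlgHom.comp_apply, MvPolynomial.rename_X]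
    rfl
  rw [LvS, h1]
  rfl

theorem LvS_apply (s : MvPolynomial (Pr D) O) (x : Lv O H a f c) :
    ((HT.toEnd (LvA O H a f c hD j) (LvS H a f c hD j s) x : Lv O H a f c) :
      HM (GamH M H) O) = tpA O M H O D s x := by
  rw [LvS_eq, HT.toEnd_mk]
  exact actT_rename (Lv_stab O H a f c) hD j s x

theorem pt_LvS {K : Type} [Field K] [Algebra O K] (x : LvB O H a f c hD j →ₐ[O] K)
    (s : MvPolynomial (Pr D) O) : x (LvS H a f c hD j s) =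
      MvPolynomial.aeval (fun ℓ => x (LvT O H a f c hD j ℓ)) s := by
  rw [LvS, MvPolynomial.comp_aeval_apply]

end Gen

section Lvl

variable {p r N M N' M' q : ℕ} [NeZero N] [NeZero M] [NeZero N'] [NeZero M'] [NeZero q]
  [Fact p.Prime] {Q : QDat p N M r} {Q' : QDat p N' M' r} (h : RzQ Q Q' q) {O : Type} [CommRing O]
  [IsDomain O] [IsDiscreteValuationRing O] [IsAdicComplete (maximalIdeal O) O] {D₀ : ℕ}
  {a : Pr D₀ → ResidueField O} {α : Fin r → ResidueField O} (hqD : q ∣ D₀) (w : WDat M q)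
  {D : ℕ} {hD : D₀ ∣ D} {K : Type} [Field K] [CharZero K] [IsAlgClosed K] [Algebra O K]
  {Q₀ M₀ : ℕ}

include h hqD in
theorem RzQ.ndat : NDat h.lv w (aQ a Q α) (Mo Q ⊤ O a α 1) (Mo Q' ⊤ O a α 1) where
  hqD := hqD
  st := Lv_stab _ _ _ _ _
  st' := Lv_stab _ _ _ _ _
  lo := Lv_locW _ _ _ _ _
  lo' := h.aQ_eq (O := O) (a := a) (α := α) ▸ Lv_locW O (Q'.H ⊤) (aQ a Q' α) (fS Q' ⊤) _
  i1 := fun x hx => (h.i1 a α hqD ⟨x, hx⟩).2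
  i2 := fun x hx => (h.i2 a α hqD w ⟨x, hx⟩).2
  j1 := fun x hx => (h.j1 a α hqD ⟨x, hx⟩).2
  j2 := fun x hx => (h.j2 a α hqD w ⟨x, hx⟩).2

/-- **The action of `T_q` at the Taylor-Wiles levels.** -/
theorem RzQ.Tq_eq (T : TWHyp O a Q α D hD) (B : BaseHyp O (⊤ : Subgroup (ZMod N)ˣ) p)
    (C : CondHyp (⊤ : Subgroup (ZMod N)ˣ) Q₀ M₀) (hK : Function.Injective (algebraMap O K))
    {X : Type*} [Finite X] (x : X → MoB Q ⊤ O a α 1 hD →ₐ[O] K)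
    (hx : ∀ b, (∀ t, x t b = 0) → b = 0) (c : MoB Q ⊤ O a α 1 hD)
    (hc : ∀ t, ∃ (N0 : ℕ) (_ : NeZero N0) (g : CuspForm (Gamma0 N0) 2)
      (τ : integralClosure ℤ ℂ →+* K), g.IsNewform ∧
      (∀ ℓ : Pr D, ∃ z : integralClosure ℤ ℂ, (z : ℂ) = qCoeff g ℓ ∧
        τ z = x t (MoT Q ⊤ O a α 1 hD ℓ)) ∧
      ∀ z : integralClosure ℤ ℂ, (z : ℂ) = qCoeff g q → τ z = x t c) (m : Mo Q ⊤ O a α 1) :
    h.Tq a α hqD w m = HT.toEnd (MoA Q ⊤ O a α 1 hD) c m := by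
  obtain ⟨ℓ₀, hℓ₀, hℓ₀'⟩ := T.hℓ₀
  have C' : CondHyp (Q.H ⊤) (Q₀ * ∏ j, Q.q j) M₀ := C.up
  have hd : ((M * (Q₀ * ∏ j, Q.q j) : ℕ) : ℤ) ∣ ((ℓ₀ : ℕ) : ℤ) - 1 :=
    (Int.natCast_dvd_natCast.mpr (mul_dvd_mul_left M C'.dvd)).trans hℓ₀
  have ha₀ : aQ a Q α (prI hD ℓ₀) ≠ ((ℓ₀ : ℕ) : ResidueField O) + 1 := by
    rw [T.aQ_eq]; exact hℓ₀'
  apply Subtype.ext
  rw [h.Tq_val]
  exact Tq_eq_of_newform (K := K) C' B.hp2 B.hpO (Q.isPGroup B.hΔ₀) hD T.hD0 T.hMD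
    (Lv_stab O (Q.H ⊤) (aQ a Q α) (fS Q ⊤) _) (Lv_locW O (Q.H ⊤) (aQ a Q α) (fS Q ⊤) _)
    ℓ₀ hd ha₀ hK ⟨q, h.hq⟩ h.hqM
    (fun y hy => by
      have := (h.Tq a α hqD w ⟨y, hy⟩).2
      rwa [h.Tq_val] at this)
    (jD Q ⊤) c x hx hc m

/-- **Newness at the Taylor-Wiles levels**: points attached to forms of level prime to `q` are
old. -/
theorem RzQ.old_of_not_dvd (T : TWHyp O a Q' α D hD)
    (B : BaseHyp O (⊤ : Subgroup (ZMod N)ˣ) p)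
    (C : CondHyp (⊤ : Subgroup (ZMod N)ˣ) Q₀ M₀) (hK : Function.Injective (algebraMap O K))
    (y : MoB Q' ⊤ O a α 1 hD →ₐ[O] K) {N0 : ℕ} [NeZero N0] {g : CuspForm (Gamma0 N0) 2}
    (hg : g.IsNormalizedEigenform) (hN0 : N0 ∣ M' * (Q₀ * ∏ j, Q.q j)) (hqN0 : ¬ q ∣ N0)
    (τ : integralClosure ℤ ℂ →+* K)
    (hcoef : ∀ ℓ : Pr D, ∃ z : integralClosure ℤ ℂ, (z : ℂ) = qCoeff g ℓ ∧
      τ z = y (MoT Q' ⊤ O a α 1 hD ℓ)) :
    ∃ (s : MvPolynomial (Pr D) O) (c : O), c ≠ 0 ∧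
      y (MvPolynomial.aeval (MoT Q' ⊤ O a α 1 hD) s) ≠ 0 ∧
      ∀ m : Mo Q' ⊤ O a α 1, ∃ u v : Mo Q ⊤ O a α 1,
        c • HT.toEnd (MoA Q' ⊤ O a α 1 hD) (MvPolynomial.aeval (MoT Q' ⊤ O a α 1 hD) s) m =
          h.i1 a α hqD u + h.i2 a α hqD w v := by
  obtain ⟨ℓ₀, hℓ₀, hℓ₀'⟩ := T.hℓ₀
  have C' : CondHyp (Q.H ⊤) (Q₀ * ∏ j, Q.q j) M₀ := C.up
  have hd : ((M' * (Q₀ * ∏ j, Q.q j) : ℕ) : ℤ) ∣ ((ℓ₀ : ℕ) : ℤ) - 1 :=
    (Int.natCast_dvd_natCast.mpr (mul_dvd_mul_left M' (C'.dvd.trans h.lv.dvd))).trans hℓ₀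
  have ha₀ : aQ a Q α (prI hD ℓ₀) ≠ ((ℓ₀ : ℕ) : ResidueField O) + 1 := by
    rw [← h.aQ_eq, T.aQ_eq]; exact hℓ₀'
  obtain ⟨s, c, hc, hys, hm⟩ := (h.ndat (a := a) (α := α) hqD w).old_of_not_dvd (K := K) h.hq C'
    B.hp2 B.hpO (Q.isPGroup B.hΔ₀) hD T.hD0 T.hMD ℓ₀ hd ha₀ hK
    (fun ℓ => y (MoT Q' ⊤ O a α 1 hD ℓ)) hg hN0 hqN0 τ hcoef
  refine ⟨s, c, hc, ?_, fun m => ?_⟩
  · rw [MvPolynomial.comp_aeval_apply] at *
    exact hys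
  · obtain ⟨u, hu, v, hv, huv⟩ := hm m m.2
    refine ⟨⟨u, hu⟩, ⟨v, hv⟩, Subtype.ext ?_⟩
    refine Eq.trans ?_ huv
    change c • _ = c • _
    congr 1
    exact LvS_apply _ _ _ _ _ _ s m

end Lvl

section Bot

variable {N N' q : ℕ} [NeZero N] [NeZero N'] [NeZero q]
  (L : RLv q (⊤ : Subgroup (ZMod N)ˣ) (⊤ : Subgroup (ZMod N')ˣ)) (hq : q.Prime)
  {O : Type} [CommRing O] [IsDomain O] [IsDiscreteValuationRing O] [CharZero O]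
  [IsAdicComplete (maximalIdeal O) O] [Finite (ResidueField O)] {D₀ : ℕ}
  {a : Pr D₀ → ResidueField O} (hqD : q ∣ D₀) (w : WDat N q) {K : Type} [Field K] [CharZero K]
  [IsAlgClosed K] [Algebra O K]

include hqD hq in
theorem RLv.ndat0 : NDat L w a (Mo0 (N := N) ⊤ O a 1) (Mo0 (N := N') ⊤ O a 1) where
  hqD := hqD
  st := Lv_stab _ _ _ _ _
  st' := Lv_stab _ _ _ _ _
  lo := Lv_locW _ _ _ _ _
  lo' := Lv_locW _ _ _ _ _
  i1 := fun x hx => (L.bI1 hq a hqD ⟨x, hx⟩).2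
  i2 := fun x hx => (L.bI2 hq a hqD w ⟨x, hx⟩).2
  j1 := fun x hx => (L.bJ1 hq a hqD ⟨x, hx⟩).2
  j2 := fun x hx => (L.bJ2 hq a hqD w ⟨x, hx⟩).2

/-- the old part is saturated -/
theorem RLv.bot_sat (T : RHyp N q a) {ϖ : O} (hϖ : maximalIdeal O = Ideal.span {ϖ}) (hϖ0 : ϖ ≠ 0)
    (n : ℕ) (u v : Mo0 (N := N) ⊤ O a 1) (z : Mo0 (N := N') ⊤ O a 1)
    (h : L.bI1 hq a hqD u + L.bI2 hq a hqD w v = ϖ ^ n • z) :
    ∃ u' v' : Mo0 (N := N) ⊤ O a 1, z = L.bI1 hq a hqD u' + L.bI2 hq a hqD w v' := by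
  induction n generalizing u v with
  | zero => exact ⟨u, v, by rw [h, pow_zero, one_smul]⟩
  | succ n ih =>
    rw [pow_succ', mul_smul] at h
    obtain ⟨⟨u', hu'⟩, ⟨v', hv'⟩⟩ := L.bot_ihara hq hqD w T hϖ u v _ h
    refine ih u' v' ?_
    rw [← sub_eq_zero]
    refine Mo0_tf (c := ϖ) hϖ0 _ ?_
    rw [smul_sub, smul_add, ← map_smul, ← map_smul, ← hu', ← hv', h, sub_self]

theorem RLv.bot_sat' (T : RHyp N q a) {ϖ : O} (hϖ : maximalIdeal O = Ideal.span {ϖ})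
    {c : O} (hc : c ≠ 0) (u v : Mo0 (N := N) ⊤ O a 1) (z : Mo0 (N := N') ⊤ O a 1)
    (h : L.bI1 hq a hqD u + L.bI2 hq a hqD w v = c • z) :
    ∃ u' v' : Mo0 (N := N) ⊤ O a 1, z = L.bI1 hq a hqD u' + L.bI2 hq a hqD w v' := by
  have hϖ0 : ϖ ≠ 0 := by
    rintro rfl
    rw [Ideal.span_singleton_eq_bot.mpr rfl] at hϖ
    exact IsDiscreteValuationRing.not_a_field O hϖ
  have hϖi : Irreducible ϖ := (IsDiscreteValuationRing.irreducible_iff_uniformizer ϖ).mpr hϖ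
  obtain ⟨n, ε, hε⟩ := IsDiscreteValuationRing.eq_unit_mul_pow_irreducible hc hϖi
  refine L.bot_sat hq hqD w T hϖ hϖ0 n (((ε⁻¹ : Oˣ) : O) • u) (((ε⁻¹ : Oˣ) : O) • v) z ?_
  rw [map_smul, map_smul, ← smul_add, h, hε, smul_smul, ← mul_assoc, Units.inv_mul, one_mul]

/-- **Newness at the bottom level**: points attached to forms of level prime to `q` are old. -/
theorem RLv.bot_old (T : RHyp N q a) (hD₀ : D₀ ≠ 0) {ϖ : O}
    (hϖ : maximalIdeal O = Ideal.span {ϖ}) {p : ℕ} [Fact p.Prime] (hp2 : p ≠ 2)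
    (hpO : (p : O) ∈ maximalIdeal O) (hK : Function.Injective (algebraMap O K))
    (y : MoB0 (N := N') ⊤ O a 1 →ₐ[O] K) {N0 : ℕ} [NeZero N0] {g : CuspForm (Gamma0 N0) 2}
    (hg : g.IsNormalizedEigenform) (hN0 : N0 ∣ N') (hqN0 : ¬ q ∣ N0)
    (τ : integralClosure ℤ ℂ →+* K)
    (hcoef : ∀ ℓ : Pr D₀, ∃ z : integralClosure ℤ ℂ, (z : ℂ) = qCoeff g ℓ ∧
      τ z = y (MoT0 ⊤ O a 1 ℓ)) :
    ∃ s : MvPolynomial (Pr D₀) O,
      y (MvPolynomial.aeval (MoT0 (N := N') ⊤ O a 1) s) ≠ 0 ∧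
      ∀ m : Mo0 (N := N') ⊤ O a 1, ∃ u v : Mo0 (N := N) ⊤ O a 1,
        HT.toEnd (MoA0 (N := N') ⊤ O a 1) (MvPolynomial.aeval (MoT0 (N := N') ⊤ O a 1) s) m =
          L.bI1 hq a hqD u + L.bI2 hq a hqD w v := by
  obtain ⟨l0, hl0, ha0⟩ := T.h0
  have C : CondHyp (⊤ : Subgroup (ZMod N)ˣ) 1 N :=
    ⟨(one_mul N).symm, squarefree_one, Nat.coprime_one_left N, fun _ _ => Subgroup.mem_top _⟩
  have hΔ : IsPGroup p ((ZMod N)ˣ ⧸ (⊤ : Subgroup (ZMod N)ˣ)) := by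
    intro g
    refine ⟨0, ?_⟩
    obtain ⟨u, rfl⟩ := QuotientGroup.mk_surjective g
    rw [pow_zero, pow_one]
    exact (QuotientGroup.eq_one_iff u).mpr (Subgroup.mem_top u)
  obtain ⟨s, c, hc, hys, hm⟩ := (L.ndat0 (a := a) hq hqD w).old_of_not_dvd (K := K) hq C
    hp2 hpO hΔ (dvd_refl D₀) hD₀ (by rw [L.hM]; exact T.hND) l0
    (by rw [mul_one, L.hM]; exact hl0) ha0 hK
    (fun ℓ => y (MoT0 ⊤ O a 1 ℓ)) hg (by rw [mul_one]; exact hN0) hqN0 τ hcoef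
  refine ⟨s, ?_, fun m => ?_⟩
  · rw [MvPolynomial.comp_aeval_apply]
    exact hys
  obtain ⟨u, hu, v, hv, huv⟩ := hm m m.2
  refine L.bot_sat' hq hqD w T hϖ hc ⟨u, hu⟩ ⟨v, hv⟩ _ (Subtype.ext (huv.symm.trans ?_))
  change c • _ = c • _
  congr 1
  exact (LvS_apply _ _ _ _ _ _ s m).symm

end Bot

end Fermat.Agent.H22
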