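import Fermat.Agent.H22.Raise1

/-!
# Level raising maps between `Hom(Γ_H(M), A)` and `Hom(Γ_{H'}(M q), A)`, II
-/

set_option autoImplicit false

noncomputable section

namespace Fermat.Agent.H22

open Matrix.SpecialLinearGroup CongruenceSubgroup
open Fermat.Agent.TC
open scoped MatrixGroups

section WT

variable {M q : ℕ} [NeZero M] [NeZero q] {H : Subgroup (ZMod M)ˣ}
  {R : Type*} [CommRing R] {A : Type*} [AddCommGroup A] [Module R A]

/-- `W_q` commutes with `T_r`, `r ≠ q` prime. -/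
theorem WL_TH (w : WDat M q) (hq : q.Prime) {r : ℕ} [NeZero r] (hr : r.Prime) (hrq : r ≠ q)
    (ψ : HM (GamH (M * q) (Hq M q H)) A) :
    WL H R A w (TH R (M * q) (Hq M q H) A r ψ) =
      TH R (M * q) (Hq M q H) A r (WL H R A w ψ) := by
  have : Fact q.Prime := ⟨hq⟩
  have hr0 : (r : ℤ) ≠ 0 := by exact_mod_cast hr.ne_zero
  have hqr : Nat.Coprime q r := (Nat.coprime_primes hq hr).mpr hrq.symm
  have : NeZero (M * r) := ⟨mul_ne_zero (NeZero.ne M) hr.ne_zero⟩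
  have : NeZero (M * q * r) := ⟨mul_ne_zero (NeZero.ne _) hr.ne_zero⟩
  obtain ⟨w', hw'⟩ := exists_WDat M q (M * r) (dvd_mul_right M r)
    (w.hc.mul_left hqr.symm)
  rw [WL_congr w w', WL_congr w w']
  clear w
  obtain ⟨z, hzz⟩ : ∃ z, z = w'.z := ⟨_, rfl⟩
  have hzMr : z ∈ Gamma (M * r) := by rw [hzz]; exact hw'
  have hzM : z ∈ Gamma M := by rw [hzz]; exact w'.hz
  have hzq : (q : ℤ) ∣ z 1 1 := by rw [hzz]; exact w'.hz1
  have hc := w'.hc
  -- the conjugate of `z` by `diag(r, 1)`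
  obtain ⟨b', hb'⟩ := Gamma_01 hzMr
  have hdet := det_eq z
  rw [hb'] at hdet
  let z2 : SL(2, ℤ) := sl (z 0 0) (M * b') (r * z 1 0) (z 1 1) (by
    push_cast at hdet
    linear_combination hdet)
  have hz20 : z2 1 0 = r * z 1 0 := rfl
  have hz21 : z2 1 1 = z 1 1 := rfl
  have hz2r : (r : ℤ) ∣ z2 1 0 := ⟨_, hz20⟩
  have hz2z : degSL r z2 hz2r = z := by
    ext i j
    fin_cases i <;> fin_cases j
    · rfl
    · change (r : ℤ) * (M * b') = z 0 1
      rw [hb']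
      push_cast
      ring
    · change ((r : ℤ) * z 1 0) / r = z 1 0
      rw [Int.mul_ediv_cancel_left _ hr0]
    · rfl
  have hz2M : z2 ∈ Gamma M := by
    have h1 : (M : ℤ) ∣ z2 0 0 - 1 := Gamma_00 (x := z) hzM
    have h2 : (M : ℤ) ∣ z2 1 1 - 1 := Gamma_11 (x := z) hzM
    exact mem_Gamma_of h1 (dvd_mul_right _ _) ((Gamma_10 hzM).mul_left _) h2
  have hz2Mr : z2 ∈ Gamma0 (M * r) := by
    apply sl_mem_Gamma0
    obtain ⟨k, hk⟩ := Gamma_10 hzM
    exact ⟨k, by rw [hk]; push_cast; ring⟩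
  have hz2e : emb z * del r = del r * emb z2 := by
    rw [del_emb r z2 hz2r, hz2z]
  obtain ⟨J, _, u, hu⟩ := exists_reps (GamH (M * q) (Hq M q H)) (M * q * r)
  have hut : ∀ x : SL(2, ℤ), x ∈ GamH (M * q) (Hq M q H) → (q : ℤ) ∣ x 1 0 := fun x hx =>
    dvd_q_of_mem hx
  have hdm : ∀ (x : SL(2, ℤ)) (hx : (q : ℤ) ∣ x 1 0),
      emb (degSL q x hx) = del q * emb x * (del q)⁻¹ := by
    intro x hx
    rw [del_emb q x hx, mul_inv_cancel_right]
  let x : J → SL(2, ℤ) := fun j => z2 * degSL q (u j) (hut _ (hu.mem j)) * z⁻¹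
  have hdeg10 : ∀ (y : SL(2, ℤ)) (hy : y ∈ GamH (M * q) (Hq M q H)),
      (M : ℤ) ∣ degSL q y (hut y hy) 1 0 := fun y hy =>
    dvd_of_mem_Gamma0' (degSL_mem (mem_GamH_Hq.mp hy).2)
  have hx10 : ∀ j, (M : ℤ) ∣ x j 1 0 := by
    intro j
    have h3 := entry_eq_of_Gamma hz2M ((Gamma M).inv_mem hzM)
      (degSL q (u j) (hut _ (hu.mem j))) 1 0
    rw [(ZMod.intCast_zmod_eq_zero_iff_dvd _ _).mpr (hdeg10 _ (hu.mem j))] at h3
    exact (ZMod.intCast_zmod_eq_zero_iff_dvd _ _).mp h3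
  have hx11 : ∀ j, (M : ℤ) ∣ x j 1 1 - u j 1 1 := fun j =>
    dvd_sub_of_Gamma hz2M ((Gamma M).inv_mem hzM) (degSL q (u j) (hut _ (hu.mem j)))
  have hxq : ∀ j, (q : ℤ) ∣ x j 1 0 := by
    intro j
    change (q : ℤ) ∣ (z2 * degSL q (u j) (hut _ (hu.mem j)) * z⁻¹) 1 0
    rw [mul_inv_10, AL.mul_11, degSL_zero_one, hz21]
    refine dvd_sub (hzq.mul_left _) (Dvd.dvd.mul_right ?_ _)
    exact dvd_add (Dvd.intro _ (by ring : (q : ℤ) * (z2 1 0 * u j 0 1) = z2 1 0 * (q * u j 0 1)))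
      (hzq.mul_right _)
  have hxr : IsReps (GamH (M * q) (Hq M q H)) (M * q * r) x := by
    have : Finite J := inferInstance
    refine hu.of_injective (fun j => mem_GamH_Hq.mpr
      ⟨mem_GamH_congr (mem_GamH_Hq.mp (hu.mem j)).1 (hx10 j) (hx11 j),
        mem_Gamma0_mul hc (hx10 j) (hxq j)⟩) ?_
    intro i j hij
    apply hu.eq_of
    have h1 : x i * (x j)⁻¹ = z2 * (degSL q (u i) (hut _ (hu.mem i)) *
        (degSL q (u j) (hut _ (hu.mem j)))⁻¹) * z2⁻¹ := by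
      simp only [x]
      group
    have hm : u i * (u j)⁻¹ ∈ GamH (M * q) (Hq M q H) :=
      (GamH _ _).mul_mem (hu.mem i) ((GamH _ _).inv_mem (hu.mem j))
    have h2 : degSL q (u i) (hut _ (hu.mem i)) * (degSL q (u j) (hut _ (hu.mem j)))⁻¹ =
        degSL q (u i * (u j)⁻¹) (hut _ hm) := by
      apply emb_injective
      rw [hdm, map_mul, map_inv, hdm, hdm, map_mul, map_inv]
      group
    rw [h1, h2] at hij
    have h3 : ((M * r : ℕ) : ℤ) ∣ (degSL q (u i * (u j)⁻¹) (hut _ hm)) 1 0 := by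
      have h4 : z2 * degSL q (u i * (u j)⁻¹) (hut _ hm) * z2⁻¹ ∈ Gamma0 (M * r) :=
        Gamma0_anti ⟨q, by ring⟩ hij
      have h5 := (Gamma0 (M * r)).mul_mem ((Gamma0 (M * r)).mul_mem
        ((Gamma0 (M * r)).inv_mem hz2Mr) h4) hz2Mr
      have h6 : z2⁻¹ * (z2 * degSL q (u i * (u j)⁻¹) (hut _ hm) * z2⁻¹) * z2 =
        degSL q (u i * (u j)⁻¹) (hut _ hm) := by group
      rw [h6] at h5
      exact dvd_of_mem_Gamma0' h5
    rw [degSL_one_zero] at h3
    have h7 := Int.ediv_mul_cancel (hut _ hm)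
    rw [Gamma0_mem, ZMod.intCast_zmod_eq_zero_iff_dvd, ← h7]
    obtain ⟨k, hk⟩ := h3
    exact ⟨k, by rw [hk]; push_cast; ring⟩
  have h1 := (rep_WL (R := R) (H := H) (A := A) w').comp (rep_TH (R := R) (A := A) hu)
  have h2 := (rep_TH (R := R) (A := A) hxr).comp (rep_WL (R := R) (H := H) (A := A) w')
  symm
  refine h1.ext h2 (Equiv.prodComm _ _) (fun _ => rfl) (fun i => ⟨1, ?_⟩) ψ
  obtain ⟨j, _⟩ := i
  change Wt q w'.z * (del r * emb (u j)) =
    emb ((1 : GamH (M * q) (Hq M q H)) : SL(2, ℤ)) * (del r * emb (x j) * Wt q w'.z)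
  rw [← hzz]
  change emb z * del q * (del r * emb (u j)) =
    emb ((1 : GamH (M * q) (Hq M q H)) : SL(2, ℤ)) *
      (del r * emb (z2 * degSL q (u j) (hut _ (hu.mem j)) * z⁻¹) * (emb z * del q))
  have hcomm : del q * del r = del r * del q := by
    apply Units.ext
    rw [Units.val_mul, Units.val_mul, del_val, del_val, Matrix.mul_fin_two, Matrix.mul_fin_two]
    simp [mul_comm]
  rw [OneMemClass.coe_one, map_one, one_mul, map_mul, map_mul, map_inv]
  calc emb z * del q * (del r * emb (u j)) = emb z * (del q * del r) * emb (u j) := by group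
    _ = (emb z * del r) * (del q * emb (u j)) := by rw [hcomm]; group
    _ = (del r * emb z2) * (emb (degSL q (u j) (hut _ (hu.mem j))) * del q) := by
      rw [hz2e, del_emb q (u j) (hut _ (hu.mem j))]
    _ = _ := by group

end WT

end Fermat.Agent.H22
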