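import Fermat.Agent.H22.Raise3
import Fermat.Agent.TC.Control2

/-!
# Level raising maps: compatibility with the transfer to `Γ₀` and with coefficient maps
-/

set_option autoImplicit false

noncomputable section

universe u

namespace Fermat.Agent.H22

open Matrix.SpecialLinearGroup CongruenceSubgroup
open Fermat.Agent.TC
open scoped MatrixGroups

section Top

variable {M q : ℕ} [NeZero M] [NeZero q] {H : Subgroup (ZMod M)ˣ}

omit [NeZero M] [NeZero q] in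
theorem Hq_top : Hq M q ⊤ = ⊤ := rfl

/-- representatives of `Γ_H(M)` in `Γ₀(M)` that lie in `Γ₀(M q)` -/
theorem exists_tj (M q : ℕ) [NeZero M] [NeZero q] (H : Subgroup (ZMod M)ˣ) :
    ∃ t : ((ZMod M)ˣ ⧸ H) → SL(2, ℤ), (∀ j, t j ∈ Gamma0 (M * q)) ∧
      (∀ g ∈ GamH M ⊤, ∃! j, g * (t j)⁻¹ ∈ GamH M H) ∧
      (∀ g ∈ GamH (M * q) (Hq M q ⊤), ∃! j, g * (t j)⁻¹ ∈ GamH (M * q) (Hq M q H)) := by
  have hex : ∀ j : (ZMod M)ˣ ⧸ H, ∃ t : Gamma0 (M * q),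
      ((dChar M ⟨(t : SL(2, ℤ)), Gamma0_mul_le M q t.2⟩ : (ZMod M)ˣ) : (ZMod M)ˣ ⧸ H) = j := by
    intro j
    obtain ⟨u, rfl⟩ := QuotientGroup.mk_surjective j
    obtain ⟨v, rfl⟩ := ZMod.unitsMap_surjective (dvd_mul_right M q) u
    obtain ⟨γ, rfl⟩ := exists_gU (M * q) v
    refine ⟨γ, ?_⟩
    rw [← unitsMap_dChar (dvd_mul_right M q) (γ : SL(2, ℤ)) γ.2]
  choose t ht using hex
  have hmem : ∀ (g : SL(2, ℤ)) (hg : g ∈ Gamma0 M) (j : (ZMod M)ˣ ⧸ H),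
      g * ((t j : Gamma0 (M * q)) : SL(2, ℤ))⁻¹ ∈ GamH M H ↔
        ((dChar M ⟨g, hg⟩ : (ZMod M)ˣ) : (ZMod M)ˣ ⧸ H) = j := by
    intro g hg j
    have htj : ((t j : Gamma0 (M * q)) : SL(2, ℤ)) ∈ Gamma0 M := Gamma0_mul_le M q (t j).2
    have h0 : g * ((t j : Gamma0 (M * q)) : SL(2, ℤ))⁻¹ ∈ Gamma0 M :=
      (Gamma0 M).mul_mem hg ((Gamma0 M).inv_mem htj)
    have e : (⟨g * ((t j : Gamma0 (M * q)) : SL(2, ℤ))⁻¹, h0⟩ : Gamma0 M) =
        ⟨g, hg⟩ * ⟨_, htj⟩⁻¹ := rfl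
    rw [mem_GamH]
    constructor
    · rintro ⟨h1, h2⟩
      have h3 : dChar M ⟨g, hg⟩ * (dChar M ⟨_, htj⟩)⁻¹ ∈ H := by
        rw [← map_inv, ← map_mul]
        exact h2
      rw [← ht j]
      symm
      rw [QuotientGroup.eq]
      rwa [mul_comm] at h3
    · intro h1
      refine ⟨h0, ?_⟩
      rw [e, map_mul, map_inv]
      rw [← ht j] at h1
      have h2 := QuotientGroup.eq.mp h1.symm
      rwa [mul_comm] at h2
  refine ⟨fun j => t j, fun j => (t j).2, ?_, ?_⟩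
  · intro g hg
    have hg0 := GamH_le_Gamma0 hg
    refine ⟨((dChar M ⟨g, hg0⟩ : (ZMod M)ˣ) : (ZMod M)ˣ ⧸ H), (hmem g hg0 _).mpr rfl,
      fun j hj => ((hmem g hg0 j).mp hj).symm⟩
  · intro g hg
    have hg0 := (mem_GamH_Hq.mp hg).2
    have hg1 := Gamma0_mul_le M q hg0
    refine ⟨((dChar M ⟨g, hg1⟩ : (ZMod M)ˣ) : (ZMod M)ˣ ⧸ H), ?_, ?_⟩
    · exact mem_GamH_Hq.mpr ⟨(hmem g hg1 _).mpr rfl,
        (Gamma0 (M * q)).mul_mem hg0 ((Gamma0 (M * q)).inv_mem (t _).2)⟩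
    · intro j hj
      exact ((hmem g hg1 j).mp (mem_GamH_Hq.mp hj).1).symm

variable {R : Type*} [CommRing R] {A : Type*} [AddCommGroup A] [Module R A]

variable (M q H R A) in
/-- the transfer to `Γ₀(M)` -/
abbrev Tm : HM (GamH M H) A →ₗ[R] HM (GamH M ⊤) A := TC.tr A R (GamH M ⊤) (GamH M H)

variable (M q H R A) in
/-- the transfer to `Γ₀(M q)` -/
abbrev Tq : HM (GamH (M * q) (Hq M q H)) A →ₗ[R] HM (GamH (M * q) (Hq M q ⊤)) A :=
  TC.tr A R (GamH (M * q) (Hq M q ⊤)) (GamH (M * q) (Hq M q H))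

/-- The first raising map is compatible with the transfers. -/
theorem Tq_ri1 (ψ : HM (GamH M H) A) :
    Tq M q H R A (ri1 M q H R A ψ) = ri1 M q ⊤ R A (Tm M H R A ψ) := by
  obtain ⟨t, ht, h1, h2⟩ := exists_tj M q H
  have r1 := (rep_ri1 (M := M) (q := q) (H := H) (R := R) (A := A)).comp
    (rep_tr_of (R := R) (A := A) (fun j => mem_GamH_Hq.mpr
      ⟨mem_GamH.mpr ⟨Gamma0_mul_le M q (ht j), Subgroup.mem_top _⟩, ht j⟩) h2)
  have r2 := (rep_tr_of (R := R) (A := A) (fun j => mem_GamH.mpr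
      ⟨Gamma0_mul_le M q (ht j), Subgroup.mem_top _⟩) h1).comp
    (rep_ri1 (M := M) (q := q) (H := ⊤) (R := R) (A := A))
  refine r1.ext r2 (Equiv.prodComm _ _) (fun _ => by simp) (fun i => ⟨1, ?_⟩) ψ
  obtain ⟨a, b⟩ := i
  simp

theorem rj1_Tq (ψ : HM (GamH (M * q) (Hq M q H)) A) :
    rj1 M q ⊤ R A (Tq M q H R A ψ) = Tm M H R A (rj1 M q H R A ψ) := by
  have h1 : GamH (M * q) (Hq M q H) ≤ GamH (M * q) (Hq M q ⊤) := GamH_mono le_top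
  have h2 : GamH (M * q) (Hq M q ⊤) ≤ GamH M ⊤ := GamH_Hq_le
  have h3 : GamH (M * q) (Hq M q H) ≤ GamH M H := GamH_Hq_le
  have h4 : GamH M H ≤ GamH M ⊤ := GamH_mono le_top
  rw [rj1, rj1, tr_trans h1 h2, tr_trans h3 h4]

/-- `W_q` is compatible with the transfers. -/
theorem Tq_WL (w : WDat M q) (ψ : HM (GamH (M * q) (Hq M q H)) A) :
    Tq M q H R A (WL H R A w ψ) = WL ⊤ R A w (Tq M q H R A ψ) := by
  obtain ⟨t, ht, -, h2⟩ := exists_tj M q H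
  have hm : ∀ j, t j ∈ GamH (M * q) (Hq M q ⊤) := fun j => mem_GamH_Hq.mpr
      ⟨mem_GamH.mpr ⟨Gamma0_mul_le M q (ht j), Subgroup.mem_top _⟩, ht j⟩
  have r1 := (rep_WL (H := H) (R := R) (A := A) w).comp
    (rep_tr_of (R := R) (A := A) hm h2)
  have r2 := (rep_tr_of (R := R) (A := A) hm h2).comp
    (rep_WL (H := ⊤) (R := R) (A := A) w)
  refine r1.ext r2 (Equiv.prodComm _ _) (fun _ => by simp) (fun i => ?_) ψ
  obtain ⟨a, b⟩ := i
  obtain ⟨x, hx⟩ : ∃ x, x = t a := ⟨_, rfl⟩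
  obtain ⟨y, hy⟩ : ∃ y, y = w.z * degSL q (t a) (dvd_q_of_mem (hm a)) * w.z⁻¹ := ⟨_, rfl⟩
  have hy0 : y ∈ GamH (M * q) (Hq M q ⊤) := by
    rw [hy]
    exact conjW_mem w.hc w.hz w.hz1 (hm a)
  have hyM : (M : ℤ) ∣ y 1 0 := dvd_of_mem_Gamma0' (Gamma0_mul_le M q (mem_GamH_Hq.mp hy0).2)
  have hxM : (M : ℤ) ∣ x 1 0 := by
    rw [hx]; exact dvd_of_mem_Gamma0' (Gamma0_mul_le M q (ht a))
  have hyx : (M : ℤ) ∣ y 1 1 - x 1 1 := by
    rw [hy, hx]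
    exact dvd_sub_of_Gamma w.hz ((Gamma M).inv_mem w.hz)
      (degSL q (t a) (dvd_q_of_mem (hm a)))
  have hg : y * x⁻¹ ∈ GamH (M * q) (Hq M q H) := by
    have hmem : y * x⁻¹ ∈ Gamma0 (M * q) := (Gamma0 (M * q)).mul_mem (mem_GamH_Hq.mp hy0).2
      ((Gamma0 (M * q)).inv_mem (by rw [hx]; exact ht a))
    refine mem_GamH_Hq.mpr ⟨mem_GamH_congr (one_mem _)
      (dvd_of_mem_Gamma0' (Gamma0_mul_le M q hmem)) ?_, hmem⟩
    rw [AL.mul_11, AL.inv_01, AL.inv_11]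
    have hdet := det_eq x
    obtain ⟨c, hc⟩ := hyM
    obtain ⟨k, hk⟩ := hyx
    obtain ⟨d, hd⟩ := hxM
    change (M : ℤ) ∣ _ - 1
    refine ⟨-c * x 0 1 + k * x 0 0 + d * x 0 1, ?_⟩
    have h11 : y 1 1 = x 1 1 + M * k := by linear_combination hk
    rw [hc, h11]
    rw [hd] at hdet
    linear_combination hdet
  refine ⟨⟨y * x⁻¹, hg⟩, ?_⟩
  change Wt q w.z * emb (t a) = emb (y * x⁻¹) * (emb (t a) * Wt q w.z)
  rw [Wt_emb w.z (t a) (dvd_q_of_mem (hm a)), ← hy, ← hx, ← mul_assoc, ← map_mul,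
    inv_mul_cancel_right]

end Top

section Top2

variable {M q : ℕ} [NeZero M] [NeZero q] {H : Subgroup (ZMod M)ˣ}
  {R : Type u} [CommRing R] {A : Type u} [AddCommGroup A] [Module R A]

omit [NeZero q] in
theorem diaQ_top (g : (ZMod M)ˣ ⧸ (⊤ : Subgroup (ZMod M)ˣ)) (ψ : HM (GamH M ⊤) A) :
    diaQ R M ⊤ A g ψ = ψ := by
  have h : g = 1 := by
    obtain ⟨u, rfl⟩ := QuotientGroup.mk_surjective g
    exact (QuotientGroup.eq_one_iff u).mpr (Subgroup.mem_top u)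
  rw [h, map_one]
  rfl

omit [NeZero q] in
theorem Tm_diaQ (g : (ZMod M)ˣ ⧸ H) (ψ : HM (GamH M H) A) :
    Tm M H R A (diaQ R M H A g ψ) = Tm M H R A ψ := by
  have h := tr_diaQ (R := R) (A := A) (dvd_refl M) (H₀ := ⊤) (H := H)
    (le_of_le_of_eq le_top (Subgroup.comap_top _).symm) g ψ
  rw [diaQ_top] at h
  exact h

theorem Tq_ri2 (w : WDat M q) (ψ : HM (GamH M H) A) :
    Tq M q H R A (ri2 H R A w ψ) = ri2 ⊤ R A w (Tm M H R A ψ) := by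
  rw [ri2_apply, Tq_WL, Tq_ri1, Tm_diaQ, ri2_apply, diaQ_top]

theorem Tm_rj2 (w : WDat M q) (ψ : HM (GamH (M * q) (Hq M q H)) A) :
    Tm M H R A (rj2 H R A w ψ) = rj2 ⊤ R A w (Tq M q H R A ψ) := by
  rw [rj2_apply, Tm_diaQ, ← rj1_Tq, Tq_WL, rj2_apply, diaQ_top]

theorem ri2_top (w : WDat M q) (ψ : HM (GamH M ⊤) A) :
    ri2 ⊤ R A w ψ = WL ⊤ R A w (ri1 M q ⊤ R A ψ) := by
  rw [ri2_apply, diaQ_top]

theorem rj2_top (w : WDat M q) (ψ : HM (GamH (M * q) (Hq M q ⊤)) A) :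
    rj2 ⊤ R A w ψ = rj1 M q ⊤ R A (WL ⊤ R A w ψ) := by
  rw [rj2_apply, diaQ_top]

end Top2

section Coeff

open IsLocalRing

variable {M q : ℕ} [NeZero M] [NeZero q] {H : Subgroup (ZMod M)ˣ}
  {O : Type u} [CommRing O] [IsLocalRing O]

theorem redH_tr {N N' : ℕ} {H : Subgroup (ZMod N)ˣ} {H' : Subgroup (ZMod N')ˣ}
    [Fintype (GamH N' H' ⧸ (GamH N H).subgroupOf (GamH N' H'))] (ψ : HM (GamH N H) O) :
    redH O N' H' (TC.tr O O (GamH N' H') (GamH N H) ψ) =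
      TC.tr (ResidueField O) O (GamH N' H') (GamH N H) (redH O N H ψ) :=
  (op_comp (Algebra.linearMap O (ResidueField O)) (rep_tr (A := O) (R := O))
      (rep_tr (A := ResidueField O) (R := O)) ψ).symm

theorem redH_ri1 (ψ : HM (GamH M H) O) :
    redH O (M * q) (Hq M q H) (ri1 M q H O O ψ) =
      ri1 M q H O (ResidueField O) (redH O M H ψ) := rfl

theorem redH_WL (w : WDat M q) (ψ : HM (GamH (M * q) (Hq M q H)) O) :
    redH O (M * q) (Hq M q H) (WL H O O w ψ) =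
      WL H O (ResidueField O) w (redH O (M * q) (Hq M q H) ψ) := rfl

omit [NeZero q] in
theorem redH_diaQ (g : (ZMod M)ˣ ⧸ H) (ψ : HM (GamH M H) O) :
    redH O M H (diaQ O M H O g ψ) = diaQ O M H (ResidueField O) g (redH O M H ψ) :=
  (diaQ_map (R := O) (R' := O) (residue O).toAddMonoidHom g ψ).symm

theorem redH_ri2 (w : WDat M q) (ψ : HM (GamH M H) O) :
    redH O (M * q) (Hq M q H) (ri2 H O O w ψ) =
      ri2 H O (ResidueField O) w (redH O M H ψ) := by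
  rw [ri2_apply, redH_WL, redH_ri1, redH_diaQ, ri2_apply]

theorem redH_rj1 (ψ : HM (GamH (M * q) (Hq M q H)) O) :
    redH O M H (rj1 M q H O O ψ) =
      rj1 M q H O (ResidueField O) (redH O (M * q) (Hq M q H) ψ) :=
  redH_tr ψ

theorem redH_rj2 (w : WDat M q) (ψ : HM (GamH (M * q) (Hq M q H)) O) :
    redH O M H (rj2 H O O w ψ) =
      rj2 H O (ResidueField O) w (redH O (M * q) (Hq M q H) ψ) := by
  rw [rj2_apply, redH_diaQ, redH_rj1, redH_WL, rj2_apply]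

end Coeff

end Fermat.Agent.H22
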