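import Fermat.Agent.H22.Raise4
import Fermat.Agent.H22.Ihara7
import Fermat.Agent.TC.Rank3

/-!
# Ihara's lemma for the `m`-parts of `Hom(Γ_H(M), O)`
-/

set_option autoImplicit false
set_option linter.unusedSectionVars false
set_option linter.style.haveILetI false

noncomputable section

universe u

namespace Fermat.Agent.H22

open Matrix.SpecialLinearGroup CongruenceSubgroup IsLocalRing ModularGroup
open Fermat.Agent.TC
open scoped MatrixGroups

section General

variable {O : Type u} [CommRing O] [IsDomain O] [IsDiscreteValuationRing O]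
  [IsAdicComplete (maximalIdeal O) O] [Finite (ResidueField O)]
  {M : ℕ} [NeZero M] {σ : Type} {pr : σ → Nat.Primes} {H : Subgroup (ZMod M)ˣ}
  {a : σ → ResidueField O}

theorem redH_smul {ϖ : O} (hϖ : ϖ ∈ maximalIdeal O) (x : HM (GamH M H) O) :
    redH O M H (ϖ • x) = 0 := by
  apply hm_ext
  intro γ
  change residue O (ϖ * x (Additive.ofMul γ)) = 0
  rw [map_mul, (residue_eq_zero_iff ϖ).mpr hϖ, zero_mul]

/-- division by the uniformiser inside the `m`-part -/
theorem exists_locPart_smul {ϖ : O} (hϖ : maximalIdeal O = Ideal.span {ϖ})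
    {x : HM (GamH M H) O} (hx : x ∈ locPart (hAct O M H O pr) (mx a))
    (h0 : redH O M H x = 0) : ∃ y ∈ locPart (hAct O M H O pr) (mx a), x = ϖ • y := by
  haveI : Module.Finite O (HM (GamH M H) O) := finite_HM _ O O
  obtain ⟨e, he⟩ := exists_dec (hAct O M H O pr) (mx a) (mx_le a)
  obtain ⟨ψ, hψ⟩ := redH_ker hϖ x h0
  refine ⟨hAct O M H O pr e ψ, he.mem ψ, ?_⟩
  rw [← map_smul, ← hψ, he.apply_eq hx]

/-- operators outside `m` are injective modulo the uniformiser -/
theorem redH_eq_zero_of_hAct {P : MvPolynomial σ O} (hP : P ∉ mx a)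
    {x : HM (GamH M H) O} (hx : x ∈ locPart (hAct O M H O pr) (mx a))
    (h0 : redH O M H (hAct O M H O pr P x) = 0) : redH O M H x = 0 := by
  obtain ⟨ϖ, hϖi⟩ := IsDiscreteValuationRing.exists_irreducible O
  have hϖ : maximalIdeal O = Ideal.span {ϖ} := hϖi.maximalIdeal_eq
  haveI : Module.Finite O (HM (GamH M H) O) := finite_HM _ O O
  obtain ⟨e, he⟩ := exists_dec (hAct O M H O pr) (mx a) (mx_le a)
  obtain ⟨y, hy, hy'⟩ := exists_locPart_smul hϖ (τ_mem_locPart P hx) h0
  obtain ⟨z, hz, hz'⟩ := he.surj hP hy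
  have h1 : x = ϖ • z := by
    have h2 : x - ϖ • z = 0 := by
      refine he.bij hP (sub_mem hx (Submodule.smul_mem _ _ hz)) ?_
      rw [map_sub, map_smul, hz', hy', sub_self]
    exact sub_eq_zero.mp h2
  rw [h1]
  exact redH_smul (hϖ ▸ Ideal.mem_span_singleton_self ϖ) z

variable {p : ℕ} [Fact p.Prime]

/-- **A basis of the `m`-part adapted to the transfer.** -/
theorem exists_basis_tr (hp2 : p ≠ 2) (hpO : (p : O) ∈ maximalIdeal O)
    (hΔ : IsPGroup p ((ZMod M)ˣ ⧸ H)) (hell : Ell p M) (i₀ : σ) (hi₀ : ¬ (pr i₀ : ℕ) ∣ M)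
    (ha₀ : a i₀ ≠ ((pr i₀ : ℕ) : ResidueField O) + 1) :
    ∃ (d : ℕ) (v : Fin d → HM (GamH M H) O), (∀ i, v i ∈ locPart (hAct O M H O pr) (mx a)) ∧
      LinearIndependent O (fun i => Tm M H O O (v i)) ∧
      locPart (hAct O M ⊤ O pr) (mx a) =
        Submodule.span O (Set.range fun i => Tm M H O O (v i)) ∧
      LinearIndependent O (fun x : Fin d × ((ZMod M)ˣ ⧸ H) => diaQ O M H O x.2 (v x.1)) ∧
      locPart (hAct O M H O pr) (mx a) = Submodule.span O (Set.range
        (fun x : Fin d × ((ZMod M)ˣ ⧸ H) => diaQ O M H O x.2 (v x.1))) := by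
  have h2u : IsUnit ((2 : ℕ) : O) := isUnit_natCast hpO
    ((Nat.coprime_primes Nat.prime_two Fact.out).mpr (Ne.symm hp2))
  have h2u' : IsUnit (2 : O) := by exact_mod_cast h2u
  have hf1 : Module.Finite O (HM (GamH M H) O) := finite_HM _ O O
  have hf2 : Module.Finite O (HM (GamH M ⊤) O) := finite_HM _ O O
  haveI : IsPrincipalIdealRing O := inferInstance
  obtain ⟨hfree, hfin⟩ := locPart_fg (fun c x hc hx => hm_torsionFree c hc x hx)
    (locPart (hAct O M ⊤ O pr) (mx a))
  let b := Module.finBasis O (locPart (hAct O M ⊤ O pr) (mx a))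
  have htrs : Function.Surjective (TC.tr O O (GamH M ⊤) (GamH M H)) :=
    tr_surjective (GamH_mono le_top) (neg_one_mem hp2 H hΔ) (two_of_isUnit h2u' _)
      (ellX_of_ell hpO hell ⊤ _)
  choose v hv hvb using fun i => locPart_surj (mx_le a) (TC.tr O O (GamH M ⊤) (GamH M H))
    (tr_hAct pr) htrs (b i).2
  have hvb' : (fun i => Tm M H O O (v i)) = fun i => ((b i : locPart (hAct O M ⊤ O pr) (mx a)) :
      HM (GamH M ⊤) O) := funext hvb
  have hli : LinearIndependent O (fun i => Tm M H O O (v i)) := by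
    rw [hvb']
    exact b.linearIndependent.map' (locPart (hAct O M ⊤ O pr) (mx a)).subtype
      (Submodule.ker_subtype _)
  have hsp : locPart (hAct O M ⊤ O pr) (mx a) =
      Submodule.span O (Set.range fun i => Tm M H O O (v i)) := by
    rw [hvb']
    have h1 : (Set.range fun i => ((b i : locPart (hAct O M ⊤ O pr) (mx a)) :
        HM (GamH M ⊤) O)) = (locPart (hAct O M ⊤ O pr) (mx a)).subtype '' Set.range b := by
      rw [← Set.range_comp]
      rfl
    rw [h1, Submodule.span_image, b.span_eq, Submodule.map_top, Submodule.range_subtype]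
  obtain ⟨h1, h2⟩ := free_of_tr_basis pr hp2 hpO H hΔ hell (mx a) (mx_le a) i₀
    (X_sub_C_nmem pr a i₀ hi₀ ha₀) v hv hli hsp.le
  exact ⟨_, v, hv, hli, hsp, h1, h2⟩

variable (O M H pr a) in
/-- The product of the maximal ideal of the group ring of the diamonds with the `m`-part. -/
def augP : Submodule O (HM (GamH M H) O) :=
  Submodule.span O {y | ∃ c ∈ maximalIdeal O, ∃ x ∈ locPart (hAct O M H O pr) (mx a), y = c • x} ⊔
    Submodule.span O {y | ∃ g, ∃ x ∈ locPart (hAct O M H O pr) (mx a),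
      y = diaQ O M H O g x - x}

theorem smul_mem_augP {c : O} (hc : c ∈ maximalIdeal O) {x : HM (GamH M H) O}
    (hx : x ∈ locPart (hAct O M H O pr) (mx a)) : c • x ∈ augP O M pr H a :=
  Submodule.mem_sup_left (Submodule.subset_span ⟨c, hc, x, hx, rfl⟩)

theorem dia_sub_mem_augP (g : (ZMod M)ˣ ⧸ H) {x : HM (GamH M H) O}
    (hx : x ∈ locPart (hAct O M H O pr) (mx a)) : diaQ O M H O g x - x ∈ augP O M pr H a :=
  Submodule.mem_sup_right (Submodule.subset_span ⟨g, x, hx, rfl⟩)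

theorem augP_le : augP O M pr H a ≤ locPart (hAct O M H O pr) (mx a) := by
  refine sup_le (Submodule.span_le.mpr ?_) (Submodule.span_le.mpr ?_)
  · rintro _ ⟨c, _, x, hx, rfl⟩
    exact Submodule.smul_mem _ _ hx
  · rintro _ ⟨g, x, hx, rfl⟩
    exact sub_mem (locPart_stable (diaQ O M H O g) (fun t y => diaQ_hAct pr g t y) hx) hx

theorem redH_Tm_of_mem_augP {x : HM (GamH M H) O} (hx : x ∈ augP O M pr H a) :
    redH O M ⊤ (Tm M H O O x) = 0 := by
  have h : augP O M pr H a ≤ LinearMap.ker ((redH O M ⊤).comp (Tm M H O O)) := by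
    refine sup_le (Submodule.span_le.mpr ?_) (Submodule.span_le.mpr ?_)
    · rintro _ ⟨c, hc, x, hx, rfl⟩
      change redH O M ⊤ (Tm M H O O (c • x)) = 0
      rw [map_smul]
      exact redH_smul hc _
    · rintro _ ⟨g, x, hx, rfl⟩
      change redH O M ⊤ (Tm M H O O (diaQ O M H O g x - x)) = 0
      rw [map_sub, Tm_diaQ, sub_self, map_zero]
  exact h hx

/-- **Characterisation of the augmentation submodule by the transfer.** -/
theorem mem_augP (hp2 : p ≠ 2) (hpO : (p : O) ∈ maximalIdeal O)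
    (hΔ : IsPGroup p ((ZMod M)ˣ ⧸ H)) (hell : Ell p M) (i₀ : σ) (hi₀ : ¬ (pr i₀ : ℕ) ∣ M)
    (ha₀ : a i₀ ≠ ((pr i₀ : ℕ) : ResidueField O) + 1)
    {x : HM (GamH M H) O} (hx : x ∈ locPart (hAct O M H O pr) (mx a))
    (h0 : redH O M ⊤ (Tm M H O O x) = 0) : x ∈ augP O M pr H a := by
  classical
  obtain ⟨ϖ, hϖi⟩ := IsDiscreteValuationRing.exists_irreducible O
  have hϖ : maximalIdeal O = Ideal.span {ϖ} := hϖi.maximalIdeal_eq
  obtain ⟨d, v, hv, hli, hsp, hli', hsp'⟩ := exists_basis_tr (pr := pr) (a := a) (H := H) hp2 hpO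
    hΔ hell i₀ hi₀ ha₀
  have h1 : Tm M H O O x ∈ locPart (hAct O M ⊤ O pr) (mx a) :=
    map_mem_locPart (Tm M H O O) (tr_hAct pr) hx
  obtain ⟨y, hy, hy'⟩ := exists_locPart_smul hϖ h1 h0
  rw [hsp, Submodule.mem_span_range_iff_exists_fun] at hy
  obtain ⟨c', hc'⟩ := hy
  have hx' := hx
  rw [hsp', Submodule.mem_span_range_iff_exists_fun] at hx'
  obtain ⟨c, hc⟩ := hx'
  have h2 : Tm M H O O x = ∑ i, (∑ g, c (i, g)) • Tm M H O O (v i) := by
    rw [← hc, map_sum, Fintype.sum_prod_type]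
    refine Finset.sum_congr rfl fun i _ => ?_
    rw [Finset.sum_smul]
    refine Finset.sum_congr rfl fun g _ => ?_
    rw [map_smul, Tm_diaQ]
  have h3 : ∑ i, ((∑ g, c (i, g)) - ϖ * c' i) • Tm M H O O (v i) = 0 := by
    simp only [sub_smul, Finset.sum_sub_distrib, mul_smul]
    rw [← h2, ← Finset.smul_sum, hc', hy', sub_self]
  have h4 : ∀ i, (∑ g, c (i, g)) = ϖ * c' i := fun i =>
    sub_eq_zero.mp (Fintype.linearIndependent_iff.mp hli _ h3 i)
  have h5 : x = (∑ i, ∑ g, c (i, g) • (diaQ O M H O g (v i) - v i)) +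
      ∑ i, (∑ g, c (i, g)) • v i := by
    rw [← hc, Fintype.sum_prod_type, ← Finset.sum_add_distrib]
    refine Finset.sum_congr rfl fun i _ => ?_
    rw [Finset.sum_smul, ← Finset.sum_add_distrib]
    refine Finset.sum_congr rfl fun g _ => ?_
    rw [smul_sub, sub_add_cancel]
  rw [h5]
  refine add_mem (Submodule.sum_mem _ fun i _ => Submodule.sum_mem _ fun g _ =>
    Submodule.smul_mem _ _ (dia_sub_mem_augP g (hv i))) (Submodule.sum_mem _ fun i _ => ?_)
  rw [h4, mul_smul]
  exact smul_mem_augP (hϖ ▸ Ideal.mem_span_singleton_self ϖ) (Submodule.smul_mem _ _ (hv i))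

end General

end Fermat.Agent.H22
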