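import Fermat.Agent.H22.Raise5

/-!
# Ihara's lemma for the raising maps
-/

set_option autoImplicit false
set_option linter.unusedSectionVars false
set_option linter.style.haveILetI false

noncomputable section

universe u

namespace Fermat.Agent.H22

open Matrix.SpecialLinearGroup CongruenceSubgroup IsLocalRing ModularGroup
open Fermat.Agent.TC
open scoped MatrixGroups

section Ihara

variable {O : Type u} [CommRing O] [IsDomain O] [IsDiscreteValuationRing O] [CharZero O]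
  [IsAdicComplete (maximalIdeal O) O] [Finite (ResidueField O)]
  {M q : ℕ} [NeZero M] [NeZero q] {σ : Type} {pr : σ → Nat.Primes} {H : Subgroup (ZMod M)ˣ}
  {a : σ → ResidueField O}

omit [NeZero M] in
theorem eT_injective {R : Type*} [CommRing R] {A : Type*} [AddCommGroup A] [Module R A] [NeZero M]
    {ψ ψ' : Additive (Gamma0 M) →+ A} (h : eT R M A ψ = eT R M A ψ') : ψ = ψ' := by
  refine AddMonoidHom.ext fun γ => ?_
  exact congrArg (fun F : HM (GamH M ⊤) A => F (Additive.ofMul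
    ⟨((Additive.toMul γ : Gamma0 M) : SL(2, ℤ)), (GamH_top (N := M)).ge (Additive.toMul γ).2⟩)) h

/-- elements of the `m`-part reduce to classes killing unipotents -/
theorem mem_uniHoms_of_locPart (i₀ : σ) (hi₀ : (M : ℤ) ∣ ((pr i₀ : ℕ) : ℤ) - 1)
    (ha₀ : a i₀ ≠ ((pr i₀ : ℕ) : ResidueField O) + 1)
    {x : HM (GamH M ⊤) O} (hx : x ∈ locPart (hAct O M ⊤ O pr) (mx a))
    (ψ : Additive (Gamma0 M) →+ O) (hψ : eT O M O ψ = x) :
    ψ ∈ uniHoms O M O := by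
  haveI : NeZero ((pr i₀ : ℕ)) := ⟨(pr i₀).2.ne_zero⟩
  have hP : (MvPolynomial.X i₀ - MvPolynomial.C ((((pr i₀ : ℕ) + 1 : ℕ)) : O) :
      MvPolynomial σ O) ∉ mx a := by
    rw [mem_mx, map_sub, evR_X, evR_C, map_natCast, sub_eq_zero]
    intro h
    apply ha₀
    rw [h]
    push_cast
    rfl
  obtain ⟨x', hx'⟩ := mem_locPart.mp hx _ hP
  obtain ⟨ψ', hψ'⟩ := eT_surjective (R := O) x'
  have h1 : x = eT O M O (heckeLin O M O (pr i₀ : ℕ) ψ' - ((pr i₀ : ℕ) + 1) • ψ') := by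
    rw [← hx', map_sub, hAct_X, LinearMap.sub_apply, ← MvPolynomial.algebraMap_eq,
      AlgHom.commutes, Module.algebraMap_end_apply, Nat.cast_smul_eq_nsmul, map_sub, map_nsmul,
      ← hψ', ← TH_eT]
    rfl
  have h2 : ψ = heckeLin O M O (pr i₀ : ℕ) ψ' - ((pr i₀ : ℕ) + 1) • ψ' :=
    eT_injective (R := O) (hψ.trans h1)
  intro γ hγ
  rw [h2]
  have h3 := heckeLin_parabolic (R := O) (N := M) (A := O) (fun n hn x hx => by
    have h4 := smul_eq_zero.mp hx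
    exact h4.resolve_left hn) (pr i₀).2 hi₀ ψ' (γ := γ) (by
      rw [tr2_def] at hγ
      rw [hγ]; norm_num)
  change heckeLin O M O (pr i₀ : ℕ) ψ' (Additive.ofMul γ) - ((pr i₀ : ℕ) + 1) •
    ψ' (Additive.ofMul γ) = 0
  rw [h3, sub_self]

/-- the value of `W_q`-translates of restrictions -/
theorem WL_ri1_top (w : WDat M q) {R : Type*} [CommRing R] {A : Type*} [AddCommGroup A]
    [Module R A] (ψ : Additive (Gamma0 M) →+ A) (γ : Gamma0 (M * q))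
    (h : (γ : SL(2, ℤ)) ∈ GamH (M * q) (Hq M q ⊤)) :
    WL ⊤ R A w (ri1 M q ⊤ R A (eT R M A ψ)) (Additive.ofMul ⟨γ, h⟩) =
      ψ (Additive.ofMul (degConj M q γ)) := by
  have hz : w.z ∈ Gamma0 M := Gamma_le_Gamma0 M w.hz
  have e1 : WL ⊤ R A w (ri1 M q ⊤ R A (eT R M A ψ)) (Additive.ofMul ⟨γ, h⟩) =
      ψ (Additive.ofMul (⟨w.z, hz⟩ * degConj M q γ * ⟨w.z, hz⟩⁻¹)) := rfl
  rw [e1, ofMul_mul, ofMul_mul, map_add, map_add, ofMul_inv, map_neg]
  abel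
where
  Gamma_le_Gamma0 (M : ℕ) : Gamma M ≤ Gamma0 M := by
    intro γ hγ
    rw [Gamma_mem] at hγ
    exact mem_Gamma0_iff_dvd.mpr ((ZMod.intCast_zmod_eq_zero_iff_dvd _ _).mp hγ.2.2.1)

variable (i₀ : σ) (hi₀ : (M : ℤ) ∣ ((pr i₀ : ℕ) : ℤ) - 1)
  (ha₀ : a i₀ ≠ ((pr i₀ : ℕ) : ResidueField O) + 1)
  (i₁ : σ) (hi₁ : ¬ (pr i₁ : ℕ) ∣ M) (hi₁q : (pr i₁ : ℕ) ≠ q)
  (hi₁' : ¬ ((pr i₁ : ℕ) : ℤ) ∣ (q : ℤ) ^ 2 - 1)
  (ha₁ : a i₁ ≠ ((pr i₁ : ℕ) : ResidueField O) + 1)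
  (ha₁' : a i₁ ≠ -(((pr i₁ : ℕ) : ResidueField O) + 1))

include hi₀ ha₀ hi₁ hi₁q hi₁' ha₁ ha₁'

/-- one half of Ihara's lemma -/
theorem ihara_half (w : WDat M q) (hq : q.Prime)
    {x y : HM (GamH M ⊤) O} (hx : x ∈ locPart (hAct O M ⊤ O pr) (mx a))
    (h : redH O (M * q) (Hq M q ⊤) (ri1 M q ⊤ O O x + WL ⊤ O O w (ri1 M q ⊤ O O y)) = 0) :
    redH O M ⊤ x = 0 := by
  haveI : NeZero ((pr i₁ : ℕ)) := ⟨(pr i₁).2.ne_zero⟩
  obtain ⟨ψ, hψ⟩ := eT_surjective (R := O) x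
  obtain ⟨ψ', hψ'⟩ := eT_surjective (R := O) y
  have hu := mem_uniHoms_of_locPart i₀ hi₀ ha₀ hx ψ hψ
  let φ : Additive (Gamma0 M) →+ ResidueField O := (residue O).toAddMonoidHom.comp ψ
  let φ' : Additive (Gamma0 M) →+ ResidueField O := (residue O).toAddMonoidHom.comp ψ'
  have hφu : φ ∈ uniHoms (ResidueField O) M (ResidueField O) := by
    intro γ hγ
    change residue O (ψ (Additive.ofMul γ)) = 0
    rw [hu γ hγ, map_zero]
  have hqM : ¬ q ∣ M := (Nat.Prime.coprime_iff_not_dvd hq).mp w.hc.symm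
  have hrel : ∀ γ : Gamma0 (M * q), φ (Additive.ofMul ⟨γ, Gamma0_mul_le M q γ.2⟩) +
      φ' (Additive.ofMul (degConj M q γ)) = 0 := by
    intro γ
    have hγ : (γ : SL(2, ℤ)) ∈ GamH (M * q) (Hq M q ⊤) := mem_GamH_Hq.mpr
      ⟨mem_GamH.mpr ⟨Gamma0_mul_le M q γ.2, Subgroup.mem_top _⟩, γ.2⟩
    have h1 : residue O (ri1 M q ⊤ O O x (Additive.ofMul ⟨γ, hγ⟩) +
        WL ⊤ O O w (ri1 M q ⊤ O O y) (Additive.ofMul ⟨γ, hγ⟩)) = 0 :=
      congrArg (fun F : HM (GamH (M * q) (Hq M q ⊤)) (ResidueField O) =>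
        F (Additive.ofMul ⟨γ, hγ⟩)) h
    rw [← hψ, ← hψ', WL_ri1_top w, map_add] at h1
    exact h1
  have key := ihara_lin (R := ResidueField O) hq hqM hφu hrel (pr i₁).2 hi₁ (Ne.symm hi₁q) hi₁'
  -- the polynomial
  set ℓ : ℕ := (pr i₁ : ℕ) with hℓ
  let P : MvPolynomial σ O := (MvPolynomial.X i₁ - MvPolynomial.C ((ℓ : O) + 1)) *
    (MvPolynomial.X i₁ * MvPolynomial.X i₁ - MvPolynomial.C (((ℓ : O) + 1) ^ 2))
  have hP : P ∉ mx a := by
    rw [mem_mx]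
    change evR a ((MvPolynomial.X i₁ - MvPolynomial.C ((ℓ : O) + 1)) *
      (MvPolynomial.X i₁ * MvPolynomial.X i₁ - MvPolynomial.C (((ℓ : O) + 1) ^ 2))) ≠ 0
    rw [map_mul, map_sub, map_sub, map_mul, evR_X, evR_C, evR_C, map_pow, map_add, map_one,
      map_natCast]
    refine mul_ne_zero (sub_ne_zero.mpr ha₁) ?_
    have h1 : a i₁ * a i₁ - ((ℓ : ResidueField O) + 1) ^ 2 =
        (a i₁ - ((ℓ : ResidueField O) + 1)) * (a i₁ + ((ℓ : ResidueField O) + 1)) := by ring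
    rw [h1]
    refine mul_ne_zero (sub_ne_zero.mpr ha₁) fun h2 => ha₁' (eq_neg_of_add_eq_zero_left h2)
  refine redH_eq_zero_of_hAct hP hx ?_
  have hT : ∀ ρ : Additive (Gamma0 M) →+ O, hAct O M ⊤ O pr (MvPolynomial.X i₁) (eT O M O ρ) =
      eT O M O (heckeLin O M O ℓ ρ) := by
    intro ρ
    rw [hAct_X]
    exact TH_eT ρ
  have hC : ∀ (c : O) (z : HM (GamH M ⊤) O), hAct O M ⊤ O pr (MvPolynomial.C c) z = c • z := by
    intro c z
    rw [← MvPolynomial.algebraMap_eq, AlgHom.commutes, Module.algebraMap_end_apply]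
  have h5 : hAct O M ⊤ O pr P x = eT O M O
      (((heckeLin O M O ℓ - algebraMap O _ ((ℓ : O) + 1)) *
      (heckeLin O M O ℓ * heckeLin O M O ℓ - algebraMap O _ (((ℓ : O) + 1) ^ 2))) ψ) := by
    rw [← hψ]
    simp only [P, map_mul, map_sub, Module.End.mul_apply, LinearMap.sub_apply, hT, hC,
      Module.algebraMap_end_apply, map_smul]
  rw [h5]
  set r : O →+ ResidueField O := (residue O).toAddMonoidHom with hr
  have h6 : ∀ ρ : Additive (Gamma0 M) →+ O, r.comp (heckeLin O M O ℓ ρ) =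
        heckeLin (ResidueField O) M (ResidueField O) ℓ (r.comp ρ) := fun ρ =>
    (heckeLin_map r ℓ ρ).symm
  have h7 : ∀ (c : O) (ρ : Additive (Gamma0 M) →+ O),
      r.comp (algebraMap O (Module.End O (Additive (Gamma0 M) →+ O)) c ρ) =
        algebraMap (ResidueField O) (Module.End (ResidueField O)
          (Additive (Gamma0 M) →+ ResidueField O)) (residue O c) (r.comp ρ) := by
    intro c ρ
    refine AddMonoidHom.ext fun γ => ?_
    change residue O (c * ρ γ) = residue O c * residue O (ρ γ)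
    rw [map_mul]
  have h8 : ∀ ρ ρ' : Additive (Gamma0 M) →+ O, r.comp (ρ - ρ') = r.comp ρ - r.comp ρ' := by
    intro ρ ρ'
    refine AddMonoidHom.ext fun γ => ?_
    exact map_sub r (ρ γ) (ρ' γ)
  have h9 : r.comp (((heckeLin O M O ℓ - algebraMap O _ ((ℓ : O) + 1)) *
      (heckeLin O M O ℓ * heckeLin O M O ℓ - algebraMap O _ (((ℓ : O) + 1) ^ 2))) ψ) = 0 := by
    rw [Module.End.mul_apply, LinearMap.sub_apply, LinearMap.sub_apply, Module.End.mul_apply,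
      h8, h6, h7, h8, h6, h6, h7, map_pow, map_add, map_one, map_natCast]
    exact key
  apply hm_ext
  intro γ
  exact congrArg (fun F : Additive (Gamma0 M) →+ ResidueField O => F (Additive.ofMul
    (⟨(γ : SL(2, ℤ)), (GamH_top (N := M)).le γ.2⟩ : Gamma0 M))) h9

/-- **Ihara's lemma** at the level of `Γ₀(M)`. -/
theorem ihara_top (w : WDat M q) (hq : q.Prime)
    {x y : HM (GamH M ⊤) O} (hx : x ∈ locPart (hAct O M ⊤ O pr) (mx a))
    (hy : y ∈ locPart (hAct O M ⊤ O pr) (mx a))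
    (h : redH O (M * q) (Hq M q ⊤) (ri1 M q ⊤ O O x + ri2 ⊤ O O w y) = 0) :
    redH O M ⊤ x = 0 ∧ redH O M ⊤ y = 0 := by
  rw [ri2_top] at h
  have h1 := ihara_half i₀ hi₀ ha₀ i₁ hi₁ hi₁q hi₁' ha₁ ha₁' w hq hx h
  refine ⟨h1, ?_⟩
  have h2 : WL ⊤ O (ResidueField O) w (ri1 M q ⊤ O (ResidueField O) (redH O M ⊤ y)) = 0 := by
    rw [map_add, redH_ri1, h1, map_zero, zero_add, redH_WL, redH_ri1] at h
    exact h
  obtain ⟨g, hg⟩ := (prQ_bijective (M := M) (q := q) (H := ⊤)).2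
    ((uP M q : (ZMod M)ˣ) : (ZMod M)ˣ ⧸ (⊤ : Subgroup (ZMod M)ˣ))
  have h3 := WL_WL' (R := O) w (ri1 M q ⊤ O (ResidueField O) (redH O M ⊤ y)) g hg
  rw [h2, map_zero, map_zero] at h3
  refine ihara_half i₀ hi₀ ha₀ i₁ hi₁ hi₁q hi₁' ha₁ ha₁' w hq (y := 0) hy ?_
  rw [map_zero, map_zero, add_zero, redH_ri1]
  exact h3.symm

/-- **Ihara's lemma** at the level of `Γ_H(M)`, in terms of transfers. -/
theorem ihara_red (w : WDat M q) (hq : q.Prime)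
    {x y : HM (GamH M H) O} (hx : x ∈ locPart (hAct O M H O pr) (mx a))
    (hy : y ∈ locPart (hAct O M H O pr) (mx a))
    (h : redH O (M * q) ⊤ (Tm (M * q) (Hq M q H) O O (ri1 M q H O O x + ri2 H O O w y)) = 0) :
    redH O M ⊤ (Tm M H O O x) = 0 ∧ redH O M ⊤ (Tm M H O O y) = 0 := by
  refine ihara_top i₀ hi₀ ha₀ i₁ hi₁ hi₁q hi₁' ha₁ ha₁' w hq
    (map_mem_locPart (Tm M H O O) (tr_hAct pr) hx) (map_mem_locPart (Tm M H O O) (tr_hAct pr) hy) ?_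
  rw [← Tq_ri1, ← Tq_ri2, ← map_add]
  exact h

/-- **Ihara's lemma** for the raising maps on the `m`-parts of `Hom(Γ_H(M), O)`. -/
theorem raise_ihara {p : ℕ} [Fact p.Prime] (hp2 : p ≠ 2) (hpO : (p : O) ∈ maximalIdeal O)
    (hΔ : IsPGroup p ((ZMod M)ˣ ⧸ H)) (hell : Ell p M) (hi₀M : ¬ (pr i₀ : ℕ) ∣ M)
    (w : WDat M q) (hq : q.Prime)
    {x y : HM (GamH M H) O} (hx : x ∈ locPart (hAct O M H O pr) (mx a))
    (hy : y ∈ locPart (hAct O M H O pr) (mx a))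
    (h : ri1 M q H O O x + ri2 H O O w y ∈ augP O (M * q) pr (Hq M q H) a) :
    x ∈ augP O M pr H a ∧ y ∈ augP O M pr H a := by
  obtain ⟨h1, h2⟩ := ihara_red i₀ hi₀ ha₀ i₁ hi₁ hi₁q hi₁' ha₁ ha₁' w hq hx hy
    (redH_Tm_of_mem_augP h)
  exact ⟨mem_augP hp2 hpO hΔ hell i₀ hi₀M ha₀ hx h1, mem_augP hp2 hpO hΔ hell i₀ hi₀M ha₀ hy h2⟩

end Ihara

end Fermat.Agent.H22
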