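import Fermat.Agent.H22.Raise6
import Fermat.Agent.H16.LR.DualF

/-!
# The dual of Ihara's lemma for the lowering maps: transfers
-/

set_option autoImplicit false
set_option linter.unusedSectionVars false
set_option linter.style.haveILetI false

noncomputable section

universe u

namespace Fermat.Agent.H22

open Matrix.SpecialLinearGroup CongruenceSubgroup IsLocalRing ModularGroup
open Fermat.Agent.TC
open scoped MatrixGroups

section Rep

variable {R : Type*} [CommRing R] {A : Type*} [AddCommGroup A] [Module R A]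
  {Γ Γ' : Subgroup SL(2, ℤ)}

/-- Automorphy representation of the transfer along a conjugation. -/
theorem rep_H22tr (i : Γ' →* Γ) (hi : Function.Injective i) [i.range.FiniteIndex] (g : GG)
    (hg : ∀ k : Γ', g * emb (k : SL(2, ℤ)) = emb (i k : SL(2, ℤ)) * g) {J : Type*} [Fintype J]
    (r : J → Γ) (hr : Function.Bijective fun j => (((r j)⁻¹ : Γ) : Γ ⧸ i.range)) :
    Rep (fun _ : J => (1 : R)) (fun j => g⁻¹ * emb (r j : SL(2, ℤ)))
      (fun ψ : HM Γ' A => (H22.tr i hi ψ.toMultiplicativeRight).toAdditiveLeft) := by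
  intro ψ u hu γ x
  letI : MulAction Γ GG := MulAction.compHom GG (emb.comp Γ.subtype)
  have hsm : ∀ (g : Γ) (y : GG), g • y = emb (g : SL(2, ℤ)) * y := fun _ _ => rfl
  let v : GG → Multiplicative A := fun y => Multiplicative.ofAdd (u (g⁻¹ * y))
  have hv : ∀ (k : Γ') (y : GG), v (i k • y) =
      MonoidHom.id (Multiplicative A) (ψ.toMultiplicativeRight k) * v y := by
    intro k y
    have h1 : g⁻¹ * (i k • y) = emb (k : SL(2, ℤ)) * (g⁻¹ * y) := by
      rw [hsm, ← mul_assoc, ← mul_assoc]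
      congr 1
      rw [inv_mul_eq_iff_eq_mul, ← mul_assoc, hg, mul_assoc, mul_inv_cancel, mul_one]
    change Multiplicative.ofAdd (u (g⁻¹ * (i k • y))) = _
    rw [h1]
    exact congrArg Multiplicative.ofAdd (hu k (g⁻¹ * y))
  have h1 := tr_automorphy i hi ψ.toMultiplicativeRight (fun j => (r j)⁻¹) hr
    (MonoidHom.id _) v hv γ x
  have e : ∀ y : GG, ∑ j, (1 : R) • u (g⁻¹ * emb (r j : SL(2, ℤ)) * y)
      = Multiplicative.toAdd (∏ j, v (((r j)⁻¹)⁻¹ • y)) := by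
    intro y
    rw [toAdd_prod]
    refine Finset.sum_congr rfl fun j _ => ?_
    rw [one_smul, inv_inv, hsm, mul_assoc]
    rfl
  simp only
  rw [e, e]
  exact congrArg Multiplicative.toAdd h1

end Rep

theorem bij_of_uniq {G : Type*} [Group G] (P : Subgroup G) {J : Type*} (r : J → G)
    (h : ∀ g : G, ∃! j, r j * g ∈ P) : Function.Bijective fun j => (((r j)⁻¹ : G) : G ⧸ P) := by
  constructor
  · intro i j hij
    have h1 : r i * (r j)⁻¹ ∈ P := by
      have := QuotientGroup.eq.mp hij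
      rwa [inv_inv] at this
    obtain ⟨k, hk, hk'⟩ := h (r j)⁻¹
    rw [hk' i h1, hk' j (by change r j * (r j)⁻¹ ∈ P; rw [mul_inv_cancel]; exact one_mem _)]
  · intro g
    obtain ⟨g, rfl⟩ := QuotientGroup.mk_surjective g
    obtain ⟨k, hk, -⟩ := h g
    refine ⟨k, QuotientGroup.eq.mpr ?_⟩
    rwa [inv_inv]

section JJ

variable {M q : ℕ} [NeZero M] [NeZero q] {A : Type} [AddCommGroup A]
  {R : Type*} [CommRing R] [Module R A]

instance incl_finiteIndex : (Subgroup.inclusion (Gamma0_mul_le M q)).range.FiniteIndex := by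
  rw [Subgroup.inclusion_range]
  infer_instance

/-- the first lowering map on `Hom(Γ₀(M q), A)` -/
theorem eT_jj1 (hq : q.Prime) (hc : Nat.Coprime M q) (ψ : Additive (Gamma0 (M * q)) →+ A) :
    eT R M A (H16.LR.jj1 M q A ψ) = rj1 M q ⊤ R A (eT R (M * q) A ψ) := by
  have : Fact q.Prime := ⟨hq⟩
  obtain ⟨z, hz⟩ := exists_reps_q (H := (⊤ : Subgroup (ZMod M)ˣ)) hq hc
  let r : Option (ZMod q) → Gamma0 M := fun j => ⟨z j, GamH_le_Gamma0 (hz.mem j)⟩
  have hr : ∀ g : Gamma0 M, ∃! j, r j * g ∈ (Subgroup.inclusion (Gamma0_mul_le M q)).range := by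
    intro g
    have hmem : ∀ x : Gamma0 M, x ∈ (Subgroup.inclusion (Gamma0_mul_le M q)).range ↔
        (x : SL(2, ℤ)) ∈ Gamma0 (M * q) := by
      intro x
      rw [Subgroup.inclusion_range, Subgroup.mem_subgroupOf]
    obtain ⟨j, hj, hj'⟩ := hz.uniq ((g : SL(2, ℤ))⁻¹) (by
      rw [GamH_top]
      exact (Gamma0 M).inv_mem g.2)
    have hinv : ∀ j, (g : SL(2, ℤ))⁻¹ * (z j)⁻¹ = (((r j * g : Gamma0 M)) : SL(2, ℤ))⁻¹ := by
      intro j
      rw [Subgroup.coe_mul, mul_inv_rev]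
    refine ⟨j, (hmem _).mpr ?_, fun k hk => hj' k ?_⟩
    · have h1 := (Gamma0 (M * q)).inv_mem hj
      rw [hinv, inv_inv] at h1
      exact h1
    · change (g : SL(2, ℤ))⁻¹ * (z k)⁻¹ ∈ Gamma0 (M * q)
      rw [hinv]
      exact (Gamma0 (M * q)).inv_mem ((hmem _).mp hk)
  have r1 := (rep_H22tr (R := R) (A := A) (Subgroup.inclusion (Gamma0_mul_le M q))
    (Subgroup.inclusion_injective _) 1 (fun k => by rw [one_mul, mul_one]; rfl) r
    (bij_of_uniq _ r hr)).comp (rep_res (R := R) (A := A) (GamH_top (N := M)).le)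
  have r2 := (rep_res (R := R) (A := A) (GamH_top (N := M * q)).le).comp
    (rep_rj1 (R := R) (A := A) hz)
  refine r1.ext r2 (Equiv.prodComm _ _) (fun _ => by simp) (fun i => ⟨1, ?_⟩) ψ
  obtain ⟨a, b⟩ := i
  simp [r]

/-- the range of `degConj` -/
theorem mem_range_degConj {x : Gamma0 M} :
    x ∈ (degConj M q).range ↔ (q : ℤ) ∣ (x : SL(2, ℤ)) 0 1 := by
  have hq0 : (q : ℤ) ≠ 0 := by exact_mod_cast NeZero.ne q
  constructor
  · rintro ⟨y, rfl⟩
    exact ⟨(y : SL(2, ℤ)) 0 1, rfl⟩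
  · rintro ⟨b, hb⟩
    obtain ⟨c, hc⟩ := mem_Gamma0_iff_dvd.mp x.2
    have hd := det_eq (x : SL(2, ℤ))
    rw [hb] at hd
    let y : SL(2, ℤ) := mkSL ((x : SL(2, ℤ)) 0 0) b (q * (x : SL(2, ℤ)) 1 0) ((x : SL(2, ℤ)) 1 1)
      (by linear_combination hd)
    have hy : y ∈ Gamma0 (M * q) := mem_Gamma0_iff_dvd.mpr ⟨c, by
      change (q : ℤ) * (x : SL(2, ℤ)) 1 0 = _
      rw [hc]; push_cast; ring⟩
    refine ⟨⟨y, hy⟩, ?_⟩
    apply Subtype.ext
    apply ext_entries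
    · rfl
    · exact hb.symm
    · change ((q : ℤ) * (x : SL(2, ℤ)) 1 0) / q = _
      rw [Int.mul_ediv_cancel_left _ hq0]
    · rfl

/-- the second lowering map on `Hom(Γ₀(M q), A)` -/
theorem eT_jj2 (w : WDat M q) (hq : q.Prime) (hi : Function.Injective (degConj M q))
    [(degConj M q).range.FiniteIndex] (ψ : Additive (Gamma0 (M * q)) →+ A) :
    eT R M A (H16.LR.jj2 M q A hi ψ) = rj1 M q ⊤ R A (WL ⊤ R A w (eT R (M * q) A ψ)) := by
  have : Fact q.Prime := ⟨hq⟩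
  have hq0 : (q : ℤ) ≠ 0 := by exact_mod_cast NeZero.ne q
  obtain ⟨s, hs⟩ := exists_reps_q (H := (⊤ : Subgroup (ZMod M)ˣ)) hq w.hc
  obtain ⟨e, he⟩ := w.hz1
  have hdW := det_eq w.z
  have hW10 : (M : ℤ) ∣ w.z 1 0 := Gamma_10 w.hz
  rw [he] at hdW
  obtain ⟨g1, hg1⟩ : ∃ g1 : SL(2, ℤ), g1 = mkSL (q * w.z 0 0) (w.z 0 1) (w.z 1 0) e
    (by linear_combination hdW) := ⟨_, rfl⟩
  have g00 : g1 0 0 = q * w.z 0 0 := by rw [hg1]; rfl
  have g01 : g1 0 1 = w.z 0 1 := by rw [hg1]; rfl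
  have g10 : g1 1 0 = w.z 1 0 := by rw [hg1]; rfl
  have g11 : g1 1 1 = e := by rw [hg1]; rfl
  have hg1M : g1 ∈ Gamma0 M := mem_Gamma0_iff_dvd.mpr (by rw [g10]; exact hW10)
  let r : Option (ZMod q) → Gamma0 M := fun j => ⟨g1, hg1M⟩ * ⟨s j, GamH_le_Gamma0 (hs.mem j)⟩
  have hc1 : IsCoprime (q : ℤ) (w.z 0 1) := ⟨w.z 0 0 * e, -w.z 1 0, by linear_combination hdW⟩
  have hc2 : IsCoprime (q : ℤ) (w.z 1 0) := ⟨w.z 0 0 * e, -w.z 0 1, by linear_combination hdW⟩
  have key : ∀ y : SL(2, ℤ), y ∈ Gamma0 M →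
      ((q : ℤ) ∣ (g1 * y) 0 1 ↔ y * g1 ∈ Gamma0 (M * q)) := by
    intro y hy
    have h1 : (g1 * y) 0 1 = q * w.z 0 0 * y 0 1 + w.z 0 1 * y 1 1 := by
      rw [AL.mul_01, g00, g01]
    have h2 : (y * g1) 1 0 = y 1 0 * (q * w.z 0 0) + y 1 1 * w.z 1 0 := by
      rw [AL.mul_10, g00, g10]
    have h3 : (M : ℤ) ∣ (y * g1) 1 0 :=
      mem_Gamma0_iff_dvd.mp ((Gamma0 M).mul_mem hy hg1M)
    constructor
    · intro h
      rw [h1] at h
      have h4 : (q : ℤ) ∣ w.z 0 1 * y 1 1 :=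
        (Int.dvd_add_right ((dvd_mul_right (q : ℤ) _).mul_right _)).mp h
      have h5 := hc1.dvd_of_dvd_mul_left h4
      refine mem_Gamma0_mul w.hc h3 ?_
      rw [h2]
      exact dvd_add ((dvd_mul_right (q : ℤ) _).mul_left _) (h5.mul_right _)
    · intro h
      have h4 : (q : ℤ) ∣ (y * g1) 1 0 := dvd_of_mem h
      rw [h2] at h4
      have h5 : (q : ℤ) ∣ y 1 1 * w.z 1 0 :=
        (Int.dvd_add_right ((dvd_mul_right (q : ℤ) _).mul_left _)).mp h4
      have h6 := hc2.dvd_of_dvd_mul_right h5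
      rw [h1]
      exact dvd_add ((dvd_mul_right (q : ℤ) _).mul_right _) (h6.mul_left _)
  have hr : ∀ g : Gamma0 M, ∃! j, r j * g ∈ (degConj M q).range := by
    intro g
    have hmem : ∀ j, r j * g ∈ (degConj M q).range ↔
        ((g : SL(2, ℤ)) * g1)⁻¹ * (s j)⁻¹ ∈ Gamma0 (M * q) := by
      intro j
      have h1 : ((r j * g : Gamma0 M) : SL(2, ℤ)) = g1 * (s j * g) := by
        change g1 * s j * (g : SL(2, ℤ)) = _
        rw [mul_assoc]
      have h2 : ((g : SL(2, ℤ)) * g1)⁻¹ * (s j)⁻¹ = (s j * (g : SL(2, ℤ)) * g1)⁻¹ := by group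
      rw [mem_range_degConj, h1, key _ ((Gamma0 M).mul_mem (GamH_le_Gamma0 (hs.mem j)) g.2), h2]
      exact (Gamma0 (M * q)).inv_mem_iff.symm
    obtain ⟨j, hj, hj'⟩ := hs.uniq (((g : SL(2, ℤ)) * g1)⁻¹) (by
      rw [GamH_top]
      exact (Gamma0 M).inv_mem ((Gamma0 M).mul_mem g.2 hg1M))
    exact ⟨j, (hmem j).mpr hj, fun k hk => hj' k ((hmem k).mp hk)⟩
  have hconj : ∀ k : Gamma0 (M * q), del q * emb (k : SL(2, ℤ)) =
      emb ((degConj M q k : Gamma0 M) : SL(2, ℤ)) * del q := fun k =>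
    del_emb q (k : SL(2, ℤ)) (dvd_of_mem k.2)
  have r1 := (rep_H22tr (R := R) (A := A) (degConj M q) hi (del q) hconj r
    (bij_of_uniq _ r hr)).comp (rep_res_sc (R := R) (A := A) (GamH_top (N := M)).le q)
  have r2 := ((rep_res (R := R) (A := A) (GamH_top (N := M * q)).le).comp
    (rep_WL (R := R) (A := A) (H := ⊤) w)).comp (rep_rj1 (R := R) (A := A) hs)
  refine r1.ext r2 ((Equiv.prodComm _ _).trans (Equiv.prodCongr (Equiv.refl _)
    (Equiv.prodPUnit _).symm)) (fun _ => by simp) (fun i => ⟨1, ?_⟩) ψ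
  obtain ⟨a, b⟩ := i
  have hmat : emb g1 * sc q = del q * (emb w.z * del q) := by
    apply Units.ext
    rw [Units.val_mul, Units.val_mul, Units.val_mul, emb_val, emb_val, sc_val, del_val, g00, g01,
      g10, g11, he]
    ext i j
    fin_cases i <;> fin_cases j <;> simp [Matrix.mul_apply, Fin.sum_univ_two] <;> ring
  change (del q)⁻¹ * emb (g1 * s b) * sc q = emb 1 * (1 * (emb w.z * del q) * emb (s b))
  rw [map_one, one_mul, one_mul, map_mul]
  have h2 : (del q)⁻¹ * (emb g1 * emb (s b)) * sc q = (del q)⁻¹ * (emb g1 * sc q) * emb (s b) := by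
    rw [mul_assoc, mul_assoc, ← sc_comm q (emb (s b)), mul_assoc, mul_assoc]
  rw [h2, hmat, inv_mul_cancel_left]

end JJ

end Fermat.Agent.H22
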