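import Fermat.Agent.H22.Raise7
import Fermat.Agent.H25.TWFree
import Fermat.Agent.TC.HAlg

/-!
# The dual of Ihara's lemma for the lowering maps
-/

set_option autoImplicit false
set_option linter.unusedSectionVars false
set_option linter.style.haveILetI false

noncomputable section

universe u

namespace Fermat.Agent.H22

open Matrix.SpecialLinearGroup CongruenceSubgroup IsLocalRing ModularGroup
open Fermat.Agent.TC Fermat.Agent.H25.TWM
open scoped MatrixGroups

section Nakayama

variable {O : Type u} [CommRing O] [IsDomain O] [IsLocalRing O] [IsNoetherianRing O]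
  {Δ : Type u} [CommGroup Δ] [Finite Δ] {p : ℕ}
  {X : Type u} [AddCommGroup X] [Module O X] [Module.Finite O X]

/-- stable submodules as modules over the group ring -/
def stab (x : Δ →* Module.End O X) (N : Submodule O X) (hN : ∀ g, ∀ v ∈ N, x g v ∈ N) :
    Submodule (MonoidAlgebra O Δ) (Tw x) where
  carrier := {v | (toTw x).symm v ∈ N}
  zero_mem' := by
    change (toTw x).symm 0 ∈ N
    rw [map_zero]; exact zero_mem _
  add_mem' := fun {a b} ha hb => by
    change (toTw x).symm (a + b) ∈ N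
    rw [map_add]; exact add_mem ha hb
  smul_mem' := fun y v hv => by
    change (toTw x).symm (y • v) ∈ N
    obtain ⟨v, rfl⟩ := (toTw x).surjective v
    rw [tw_smul_def, LinearEquiv.symm_apply_apply]
    change (toTw x).symm (toTw x v) ∈ N at hv
    rw [LinearEquiv.symm_apply_apply] at hv
    induction y using MonoidAlgebra.induction_on with
    | of g =>
      have h1 := of_smul x g v
      rw [tw_smul_def] at h1
      rw [(toTw x).injective h1]
      exact hN g v hv
    | add a b ha hb =>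
      rw [map_add, LinearMap.add_apply]
      exact add_mem ha hb
    | smul r a ha =>
      rw [map_smul, LinearMap.smul_apply]
      exact Submodule.smul_mem _ _ ha

theorem mem_stab {x : Δ →* Module.End O X} {N : Submodule O X} {hN : ∀ g, ∀ v ∈ N, x g v ∈ N}
    {v : X} : toTw x v ∈ stab x N hN ↔ v ∈ N := by
  change (toTw x).symm (toTw x v) ∈ N ↔ v ∈ N
  rw [LinearEquiv.symm_apply_apply]

/-- Nakayama's lemma for the diamond operators. -/
theorem nakayama_dia (hp : p.Prime) (hΔ : IsPGroup p Δ) (hpO : (p : O) ∈ maximalIdeal O)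
    (x : Δ →* Module.End O X) (N W : Submodule O X) (hN : ∀ g, ∀ v ∈ N, x g v ∈ N)
    (hW : ∀ g, ∀ v ∈ W, x g v ∈ W)
    (h : N ≤ W ⊔ (Submodule.span O {y | ∃ c ∈ maximalIdeal O, ∃ u ∈ N, y = c • u} ⊔
      Submodule.span O {y | ∃ g, ∃ u ∈ N, y = x g u - u})) : N ≤ W := by
  haveI : Module.Finite O (MonoidAlgebra O Δ) := inferInstance
  have hJ : stab x N hN ≤ stab x W hW ⊔
      (Ideal.jacobson (⊥ : Ideal (MonoidAlgebra O Δ))) • stab x N hN := by
    set Q := stab x W hW ⊔ (Ideal.jacobson (⊥ : Ideal (MonoidAlgebra O Δ))) • stab x N hN with hQ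
    let P : Submodule O X := (Q.restrictScalars O).comap (toTw x).toLinearMap
    have hP : W ⊔ (Submodule.span O {y | ∃ c ∈ maximalIdeal O, ∃ u ∈ N, y = c • u} ⊔
        Submodule.span O {y | ∃ g, ∃ u ∈ N, y = x g u - u}) ≤ P := by
      refine sup_le ?_ (sup_le (Submodule.span_le.mpr ?_) (Submodule.span_le.mpr ?_))
      · intro v hv
        have h3 : toTw x v ∈ Q := Submodule.mem_sup_left (mem_stab.mpr hv)
        exact h3
      · rintro _ ⟨c, hc, u, hu, rfl⟩
        have h2 : toTw x (c • u) ∈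
            (Ideal.jacobson (⊥ : Ideal (MonoidAlgebra O Δ))) • stab x N hN := by
          rw [← algebraMap_smul_tw]
          refine Submodule.smul_mem_smul ?_ (mem_stab.mpr hu)
          rw [Ideal.jacobson, Ideal.mem_sInf]
          rintro I ⟨-, hI⟩
          haveI := hI
          exact algebraMap_mem_of_isMaximal I hc
        have h3 : toTw x (c • u) ∈ Q := Submodule.mem_sup_right h2
        exact h3
      · rintro _ ⟨g, u, hu, rfl⟩
        have h1 : toTw x (x g u - u) = (MonoidAlgebra.of O Δ g - 1) • toTw x u := by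
          rw [sub_smul, one_smul, of_smul, map_sub]
        have h2 : toTw x (x g u - u) ∈
            (Ideal.jacobson (⊥ : Ideal (MonoidAlgebra O Δ))) • stab x N hN := by
          rw [h1]
          exact Submodule.smul_mem_smul (sub_one_mem_jacobson hp hΔ hpO g) (mem_stab.mpr hu)
        have h3 : toTw x (x g u - u) ∈ Q := Submodule.mem_sup_right h2
        exact h3
    intro v hv
    obtain ⟨v, rfl⟩ := (toTw x).surjective v
    exact hP (h (mem_stab.mp hv))
  have hfg : (stab x N hN).FG := by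
    haveI : IsNoetherian O (Tw x) := inferInstanceAs (IsNoetherian O X)
    haveI : IsNoetherian (MonoidAlgebra O Δ) (Tw x) := isNoetherian_of_tower O inferInstance
    exact IsNoetherian.noetherian _
  have := Submodule.le_of_le_smul_of_le_jacobson_bot hfg le_rfl hJ
  intro v hv
  exact mem_stab.mp (this (mem_stab.mpr hv))

end Nakayama

section Equi

variable {O : Type u} [CommRing O] {M q : ℕ} [NeZero M] [NeZero q] {σ : Type}
  {pr : σ → Nat.Primes} {H : Subgroup (ZMod M)ˣ} {A : Type u} [AddCommGroup A] [Module O A]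

theorem ri1_hAct (hq : q.Prime) (hqσ : ∀ i, (pr i : ℕ) ≠ q) (t : MvPolynomial σ O)
    (ψ : HM (GamH M H) A) : ri1 M q H O A (hAct O M H A pr t ψ) =
      hAct O (M * q) (Hq M q H) A pr t (ri1 M q H O A ψ) := by
  refine act_intertwine (ri1 M q H O A).toAddMonoidHom
    (fun a x => map_smul (ri1 M q H O A) a x) (fun i x => ?_) t ψ
  change ri1 M q H O A _ = _
  rw [hAct_X, hAct_X]
  exact ri1_THp hq (hqσ i) x

theorem rj1_hAct (hq : q.Prime) (hqσ : ∀ i, (pr i : ℕ) ≠ q) (t : MvPolynomial σ O)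
    (ψ : HM (GamH (M * q) (Hq M q H)) A) :
    rj1 M q H O A (hAct O (M * q) (Hq M q H) A pr t ψ) =
      hAct O M H A pr t (rj1 M q H O A ψ) := by
  refine act_intertwine (rj1 M q H O A).toAddMonoidHom
    (fun a x => map_smul (rj1 M q H O A) a x) (fun i x => ?_) t ψ
  change rj1 M q H O A _ = _
  rw [hAct_X, hAct_X]
  exact rj1_THp hq (hqσ i) x

theorem ri2_hAct (w : WDat M q) (hq : q.Prime) (hqσ : ∀ i, (pr i : ℕ) ≠ q)
    (t : MvPolynomial σ O) (ψ : HM (GamH M H) A) : ri2 H O A w (hAct O M H A pr t ψ) =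
      hAct O (M * q) (Hq M q H) A pr t (ri2 H O A w ψ) := by
  refine act_intertwine (ri2 H O A w).toAddMonoidHom
    (fun a x => map_smul (ri2 H O A w) a x) (fun i x => ?_) t ψ
  change ri2 H O A w _ = _
  rw [hAct_X, hAct_X]
  exact ri2_THp w hq (hqσ i) x

theorem rj2_hAct (w : WDat M q) (hq : q.Prime) (hqσ : ∀ i, (pr i : ℕ) ≠ q)
    (t : MvPolynomial σ O) (ψ : HM (GamH (M * q) (Hq M q H)) A) :
    rj2 H O A w (hAct O (M * q) (Hq M q H) A pr t ψ) =
      hAct O M H A pr t (rj2 H O A w ψ) := by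
  refine act_intertwine (rj2 H O A w).toAddMonoidHom
    (fun a x => map_smul (rj2 H O A w) a x) (fun i x => ?_) t ψ
  change rj2 H O A w _ = _
  rw [hAct_X, hAct_X]
  exact rj2_THp w hq (hqσ i) x

end Equi

section Loc

variable {O : Type u} [CommRing O] [IsLocalRing O] {M q : ℕ} [NeZero M] [NeZero q] {σ : Type}
  {pr : σ → Nat.Primes} {H : Subgroup (ZMod M)ˣ} {A : Type u} [AddCommGroup A] [Module O A]
  {a : σ → ResidueField O}

theorem ri1_mem (hq : q.Prime) (hqσ : ∀ i, (pr i : ℕ) ≠ q) {x : HM (GamH M H) A}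
    (hx : x ∈ locPart (hAct O M H A pr) (mx a)) :
    ri1 M q H O A x ∈ locPart (hAct O (M * q) (Hq M q H) A pr) (mx a) :=
  map_mem_locPart (ri1 M q H O A) (ri1_hAct hq hqσ) hx

theorem ri2_mem (w : WDat M q) (hq : q.Prime) (hqσ : ∀ i, (pr i : ℕ) ≠ q)
    {x : HM (GamH M H) A} (hx : x ∈ locPart (hAct O M H A pr) (mx a)) :
    ri2 H O A w x ∈ locPart (hAct O (M * q) (Hq M q H) A pr) (mx a) :=
  map_mem_locPart (ri2 H O A w) (ri2_hAct w hq hqσ) hx

theorem rj1_mem (hq : q.Prime) (hqσ : ∀ i, (pr i : ℕ) ≠ q) {x : HM (GamH (M * q) (Hq M q H)) A}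
    (hx : x ∈ locPart (hAct O (M * q) (Hq M q H) A pr) (mx a)) :
    rj1 M q H O A x ∈ locPart (hAct O M H A pr) (mx a) :=
  map_mem_locPart (rj1 M q H O A) (rj1_hAct hq hqσ) hx

theorem rj2_mem (w : WDat M q) (hq : q.Prime) (hqσ : ∀ i, (pr i : ℕ) ≠ q)
    {x : HM (GamH (M * q) (Hq M q H)) A}
    (hx : x ∈ locPart (hAct O (M * q) (Hq M q H) A pr) (mx a)) :
    rj2 H O A w x ∈ locPart (hAct O M H A pr) (mx a) :=
  map_mem_locPart (rj2 H O A w) (rj2_hAct w hq hqσ) hx

end Loc

end Fermat.Agent.H22
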