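import Fermat.Agent.H22.Raise8
import Fermat.Agent.TC.QDat

/-!
# The dual of Ihara's lemma for the lowering maps: final form
-/

set_option autoImplicit false
set_option linter.unusedSectionVars false
set_option linter.style.haveILetI false

noncomputable section

namespace Fermat.Agent.H22

open Matrix.SpecialLinearGroup CongruenceSubgroup IsLocalRing ModularGroup
open Fermat.Agent.TC
open scoped MatrixGroups

variable {O : Type} [CommRing O] [IsDomain O] [IsDiscreteValuationRing O] [CharZero O]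
  [IsAdicComplete (maximalIdeal O) O] [Finite (ResidueField O)]
  {M q : ℕ} [NeZero M] [NeZero q] {σ : Type} {pr : σ → Nat.Primes} {H : Subgroup (ZMod M)ˣ}
  {a : σ → ResidueField O} {p : ℕ} [Fact p.Prime] {D : ℕ}

theorem charP_residue (hpO : (p : O) ∈ maximalIdeal O) : CharP (ResidueField O) p := by
  have : (p : ResidueField O) = 0 := by
    have := (residue_eq_zero_iff (p : O)).mpr hpO
    rwa [map_natCast] at this
  exact (CharP.charP_iff_prime_eq_zero Fact.out).mpr this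

/-- reductions of elements of the `m`-part are in the images of all operators outside `m` -/
theorem mem_range_evH (ι : Pr D → σ) (hι : ∀ ℓ, ((pr (ι ℓ) : ℕ)) = ℓ)
    {x : HM (GamH M ⊤) O} (hx : x ∈ locPart (hAct O M ⊤ O pr) (mx a))
    (ψ : Additive (Gamma0 M) →+ O) (hψ : eT O M O ψ = x) (s : MvPolynomial (Pr D) ℤ)
    (hs : MvPolynomial.aeval (fun ℓ => a (ι ℓ)) s ≠ 0) :
    (residue O).toAddMonoidHom.comp ψ ∈
      LinearMap.range (evH D (ResidueField O) M (ResidueField O) s) := by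
  have h1 : toO O ι s ∉ mx a := by
    rw [mem_mx, evR_toO]
    exact hs
  obtain ⟨x', hx'⟩ := mem_locPart.mp hx _ h1
  obtain ⟨ψ', rfl⟩ := eT_surjective (R := O) x'
  rw [hAct_toO pr ι hι] at hx'
  have h2 : ψ = evH D O M O s ψ' := eT_injective (R := O) (hψ.trans hx'.symm)
  refine ⟨(residue O).toAddMonoidHom.comp ψ', ?_⟩
  rw [h2]
  exact evH_map (R := O) (R' := ResidueField O) (residue O).toAddMonoidHom s ψ'

section Dual

variable (hp2 : p ≠ 2) (hpO : (p : O) ∈ maximalIdeal O) (hell : Ell p M) (hD : M * q ∣ D)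
  (ι : Pr D → σ) (hι : ∀ ℓ, ((pr (ι ℓ) : ℕ)) = ℓ)
  (l0 : Pr D) (hl0 : ((M * q : ℕ) : ℤ) ∣ (l0 : ℤ) - 1)
  (ha0 : a (ι l0) ≠ ((l0 : ℕ) : ResidueField O) + 1)
  (l1 : Pr D) (hl1 : ¬ (l1 : ℤ) ∣ (q : ℤ) ^ 2 - 1)
  (ha1 : a (ι l1) ≠ ((l1 : ℕ) : ResidueField O) + 1)
  (ha1' : a (ι l1) ≠ -(((l1 : ℕ) : ResidueField O) + 1))

include hp2 hpO hell hD hι hl0 ha0 hl1 ha1 ha1'

/-- the dual of Ihara's lemma at the level of `Γ₀(M)` -/
theorem dual_top (w : WDat M q) (hq : q.Prime) {x y : HM (GamH M ⊤) O}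
    (hx : x ∈ locPart (hAct O M ⊤ O pr) (mx a)) (hy : y ∈ locPart (hAct O M ⊤ O pr) (mx a)) :
    ∃ z : HM (GamH (M * q) (Hq M q ⊤)) (ResidueField O),
      rj1 M q ⊤ O (ResidueField O) z = redH O M ⊤ x ∧
      rj2 ⊤ O (ResidueField O) w z = redH O M ⊤ y := by
  haveI := charP_residue hpO
  obtain ⟨ψx, hψx⟩ := eT_surjective (R := O) x
  obtain ⟨ψy, hψy⟩ := eT_surjective (R := O) y
  have hqM : ¬ q ∣ M := (Nat.Prime.coprime_iff_not_dvd hq).mp w.hc.symm
  have hinj : Function.Injective (degConj M q) := H16.LR.degConj_injective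
  haveI : (degConj M q).range.FiniteIndex := H16.LR.degConj_range_finiteIndex
  obtain ⟨z, hz1, hz2⟩ := H16.LR.dual_ihara hp2 hell hq hqM hD (fun ℓ => a (ι ℓ)) l0 hl0 ha0 l1
    hl1 ha1 ha1' hinj ((residue O).toAddMonoidHom.comp ψx) ((residue O).toAddMonoidHom.comp ψy)
    (fun s hs => mem_range_evH ι hι hx ψx hψx s hs) (fun s hs => mem_range_evH ι hι hy ψy hψy s hs)
  refine ⟨eT O (M * q) (ResidueField O) z, ?_, ?_⟩
  · have h1 := eT_jj1 (R := O) hq w.hc z
    rw [hz1] at h1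
    rw [← hψx]
    exact h1.symm
  · have h1 := eT_jj2 (R := O) w hq hinj z
    rw [hz2] at h1
    rw [← hψy]
    exact (rj2_top (R := O) w _).trans h1.symm

omit [CharZero O] [Finite (ResidueField O)] [IsDomain O] [IsDiscreteValuationRing O]
  [IsAdicComplete (maximalIdeal O) O] in
omit hp2 hpO hell hD hι hl0 ha0 hl1 ha1 ha1' [Fact p.Prime] in
theorem isPGroup_Hq {H : Subgroup (ZMod M)ˣ} (hΔ : IsPGroup p ((ZMod M)ˣ ⧸ H)) :
    IsPGroup p ((ZMod (M * q))ˣ ⧸ Hq M q H) :=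
  hΔ.of_injective (prQ (dvd_mul_right M q) (le_refl (Hq M q H))) prQ_bijective.1

/-- **The dual of Ihara's lemma** for the lowering maps on the `m`-parts. -/
theorem raise_dual (hΔ : IsPGroup p ((ZMod M)ˣ ⧸ H)) (w : WDat M q) (hq : q.Prime)
    (hqσ : ∀ i, (pr i : ℕ) ≠ q) {x y : HM (GamH M H) O}
    (hx : x ∈ locPart (hAct O M H O pr) (mx a)) (hy : y ∈ locPart (hAct O M H O pr) (mx a)) :
    ∃ z ∈ locPart (hAct O (M * q) (Hq M q H) O pr) (mx a),
      rj1 M q H O O z = x ∧ rj2 H O O w z = y := by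
  classical
  have h2u : IsUnit ((2 : ℕ) : O) := isUnit_natCast hpO
    ((Nat.coprime_primes Nat.prime_two Fact.out).mpr (Ne.symm hp2))
  have h2u' : IsUnit (2 : O) := by exact_mod_cast h2u
  haveI hf1 : Module.Finite O (HM (GamH M H) O) := finite_HM _ O O
  haveI hf2 : Module.Finite O (HM (GamH (M * q) (Hq M q H)) O) := finite_HM _ O O
  haveI hf3 : Module.Finite O (HM (GamH M ⊤) (ResidueField O)) := finite_HM _ O (ResidueField O)
  have hellq : Ell p (M * q) := Ell.of_dvd (dvd_mul_right M q) hell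
  have hΔq := isPGroup_Hq (q := q) hΔ
  have hl0M : ¬ (l0 : ℕ) ∣ M := fun h => l0.2.2 (h.trans ((dvd_mul_right M q).trans hD))
  have hl0' : ¬ (pr (ι l0) : ℕ) ∣ M := by rw [hι]; exact hl0M
  have ha0' : a (ι l0) ≠ ((pr (ι l0) : ℕ) : ResidueField O) + 1 := by rw [hι]; exact ha0
  have hneg : (-1 : SL(2, ℤ)) ∈ GamH (M * q) (Hq M q H) := neg_one_mem hp2 _ hΔq
  -- lifting
  have hlift : ∀ zb : HM (GamH (M * q) (Hq M q ⊤)) (ResidueField O),
      ∃ z : HM (GamH (M * q) (Hq M q H)) O,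
        redH O (M * q) (Hq M q ⊤) (Tq M q H O O z) = zb := by
    intro zb
    obtain ⟨φ, hφ⟩ := hom_lift (GamH_mono le_top hneg) (residue O).toAddMonoidHom residue_surjective
      (two_of_isUnit h2u' _) (ellX_of_ell hpO hellq (Hq M q ⊤) _) zb
    obtain ⟨z, hz⟩ := (tr_surjective (R := O) (GamH_mono le_top) hneg (two_of_isUnit h2u' _)
      (ellX_of_ell hpO hellq (Hq M q ⊤) _) :
        Function.Surjective (TC.tr O O (GamH (M * q) (Hq M q ⊤)) (GamH (M * q) (Hq M q H)))) φ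
    refine ⟨z, ?_⟩
    rw [hz]
    exact hφ
  -- the map to the residual quotient
  let F : HM (GamH (M * q) (Hq M q H)) O →ₗ[O]
      (HM (GamH M ⊤) (ResidueField O)) × (HM (GamH M ⊤) (ResidueField O)) :=
    ((redH O M ⊤).comp ((Tm M H O O).comp (rj1 M q H O O))).prod
      ((redH O M ⊤).comp ((Tm M H O O).comp (rj2 H O O w)))
  have hFeq : ∀ (t : MvPolynomial σ O) (z : HM (GamH (M * q) (Hq M q H)) O),
      F (hAct O (M * q) (Hq M q H) O pr t z) =
        prodAct (hAct O M ⊤ (ResidueField O) pr) (hAct O M ⊤ (ResidueField O) pr) t (F z) := by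
    intro t z
    refine Prod.ext ?_ ?_
    · change redH O M ⊤ (Tm M H O O (rj1 M q H O O (hAct O (M * q) (Hq M q H) O pr t z))) =
        hAct O M ⊤ (ResidueField O) pr t (redH O M ⊤ (Tm M H O O (rj1 M q H O O z)))
      rw [rj1_hAct hq hqσ, tr_hAct, redH_hAct]
    · change redH O M ⊤ (Tm M H O O (rj2 H O O w (hAct O (M * q) (Hq M q H) O pr t z))) =
        hAct O M ⊤ (ResidueField O) pr t (redH O M ⊤ (Tm M H O O (rj2 H O O w z)))
      rw [rj2_hAct w hq hqσ, tr_hAct, redH_hAct]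
  have hstep : ∀ x ∈ locPart (hAct O M H O pr) (mx a), ∀ y ∈ locPart (hAct O M H O pr) (mx a),
      ∃ z ∈ locPart (hAct O (M * q) (Hq M q H) O pr) (mx a),
        redH O M ⊤ (Tm M H O O (rj1 M q H O O z)) = redH O M ⊤ (Tm M H O O x) ∧
        redH O M ⊤ (Tm M H O O (rj2 H O O w z)) = redH O M ⊤ (Tm M H O O y) := by
    intro x hx y hy
    have hxT : Tm M H O O x ∈ locPart (hAct O M ⊤ O pr) (mx a) :=
      map_mem_locPart (Tm M H O O) (tr_hAct pr) hx
    have hyT : Tm M H O O y ∈ locPart (hAct O M ⊤ O pr) (mx a) :=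
      map_mem_locPart (Tm M H O O) (tr_hAct pr) hy
    obtain ⟨zb, hzb1, hzb2⟩ := dual_top hp2 hpO hell hD ι hι l0 hl0 ha0 l1 hl1 ha1 ha1' w hq hxT hyT
    obtain ⟨z0, hz0⟩ := hlift zb
    have hF0 : F z0 = (redH O M ⊤ (Tm M H O O x), redH O M ⊤ (Tm M H O O y)) := by
      refine Prod.ext ?_ ?_
      · change redH O M ⊤ (Tm M H O O (rj1 M q H O O z0)) = redH O M ⊤ (Tm M H O O x)
        rw [← rj1_Tq, redH_rj1, hz0, hzb1]
      · change redH O M ⊤ (Tm M H O O (rj2 H O O w z0)) = redH O M ⊤ (Tm M H O O y)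
        rw [Tm_rj2, redH_rj2, hz0, hzb2]
    have hloc : (redH O M ⊤ (Tm M H O O x), redH O M ⊤ (Tm M H O O y)) ∈
        locPart (prodAct (hAct O M ⊤ (ResidueField O) pr) (hAct O M ⊤ (ResidueField O) pr))
          (mx a) := by
      rw [mem_locPart]
      intro s hs
      obtain ⟨x', hx'⟩ := mem_locPart.mp hxT s hs
      obtain ⟨y', hy'⟩ := mem_locPart.mp hyT s hs
      refine ⟨(redH O M ⊤ x', redH O M ⊤ y'), ?_⟩
      refine Prod.ext ?_ ?_
      · change hAct O M ⊤ (ResidueField O) pr s (redH O M ⊤ x') = redH O M ⊤ (Tm M H O O x)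
        rw [← redH_hAct, hx']
      · change hAct O M ⊤ (ResidueField O) pr s (redH O M ⊤ y') = redH O M ⊤ (Tm M H O O y)
        rw [← redH_hAct, hy']
    obtain ⟨z, hz, hFz⟩ := locPart_range (mx_le a) F hFeq hloc ⟨z0, hF0⟩
    exact ⟨z, hz, congrArg Prod.fst hFz, congrArg Prod.snd hFz⟩
  -- Nakayama
  let V := locPart (hAct O M H O pr) (mx a)
  let X := (HM (GamH M H) O) × (HM (GamH M H) O)
  let act : (ZMod M)ˣ ⧸ H →* Module.End O X :=
    { toFun := fun g => LinearMap.prodMap (diaQ O M H O g) (diaQ O M H O g)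
      map_one' := by rw [map_one]; rfl
      map_mul' := fun g g' => by rw [map_mul]; rfl }
  let N : Submodule O X := V.prod V
  let J : HM (GamH (M * q) (Hq M q H)) O →ₗ[O] X := (rj1 M q H O O).prod (rj2 H O O w)
  let W : Submodule O X := (locPart (hAct O (M * q) (Hq M q H) O pr) (mx a)).map J
  have hN : ∀ g, ∀ v ∈ N, act g v ∈ N := by
    intro g v hv
    exact ⟨locPart_stable (diaQ O M H O g) (fun t y => diaQ_hAct pr g t y) hv.1,
      locPart_stable (diaQ O M H O g) (fun t y => diaQ_hAct pr g t y) hv.2⟩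
  have hW : ∀ g, ∀ v ∈ W, act g v ∈ W := by
    rintro g _ ⟨z, hz, rfl⟩
    obtain ⟨g', rfl⟩ := (prQ_bijective (M := M) (q := q) (H := H)).2 g
    refine ⟨diaQ O (M * q) (Hq M q H) O g' z,
      locPart_stable (diaQ O (M * q) (Hq M q H) O g') (fun t y => diaQ_hAct pr g' t y) hz, ?_⟩
    refine Prod.ext ?_ ?_
    · exact rj1_diaQ g' z
    · exact rj2_diaQ w g' z
  have hmain : N ≤ W := by
    refine nakayama_dia (Δ := (ZMod M)ˣ ⧸ H) (X := X) (Fact.out : p.Prime) hΔ hpO act N W hN hW ?_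
    rintro ⟨u, v⟩ ⟨hu, hv⟩
    obtain ⟨z, hz, hz1, hz2⟩ := hstep u hu v hv
    have e : ((u, v) : X) = J z + (u - rj1 M q H O O z, v - rj2 H O O w z) := by
      refine Prod.ext ?_ ?_
      · exact (add_sub_cancel (rj1 M q H O O z) u).symm
      · exact (add_sub_cancel (rj2 H O O w z) v).symm
    rw [e]
    refine add_mem (Submodule.mem_sup_left ⟨z, hz, rfl⟩) (Submodule.mem_sup_right ?_)
    have h1 : u - rj1 M q H O O z ∈ augP O M pr H a :=
      mem_augP hp2 hpO hΔ hell (ι l0) hl0' ha0' (sub_mem hu (rj1_mem hq hqσ hz))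
        (by rw [map_sub, map_sub, hz1, sub_self])
    have h2 : v - rj2 H O O w z ∈ augP O M pr H a :=
      mem_augP hp2 hpO hΔ hell (ι l0) hl0' ha0' (sub_mem hv (rj2_mem w hq hqσ hz))
        (by rw [map_sub, map_sub, hz2, sub_self])
    have e2 : ((u - rj1 M q H O O z, v - rj2 H O O w z) : X) =
        LinearMap.inl O _ _ (u - rj1 M q H O O z) + LinearMap.inr O _ _ (v - rj2 H O O w z) := by
      refine Prod.ext ?_ ?_ <;> simp
    rw [e2]
    have h3 : augP O M pr H a ≤ (Submodule.span O {y | ∃ c ∈ maximalIdeal O, ∃ u ∈ N, y = c • u} ⊔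
        Submodule.span O {y | ∃ g, ∃ u ∈ N, y = act g u - u}).comap (LinearMap.inl O _ _) := by
      refine sup_le (Submodule.span_le.mpr ?_) (Submodule.span_le.mpr ?_)
      · rintro _ ⟨c, hc, x, hx, rfl⟩
        refine Submodule.mem_sup_left (Submodule.subset_span ⟨c, hc, LinearMap.inl O _ _ x,
          ⟨hx, zero_mem _⟩, ?_⟩)
        rw [map_smul]
      · rintro _ ⟨g, x, hx, rfl⟩
        refine Submodule.mem_sup_right (Submodule.subset_span ⟨g, LinearMap.inl O _ _ x,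
          ⟨hx, zero_mem _⟩, ?_⟩)
        refine Prod.ext ?_ ?_
        · rfl
        · change (0 : HM (GamH M H) O) = diaQ O M H O g 0 - 0
          rw [map_zero, sub_zero]
    have h4 : augP O M pr H a ≤ (Submodule.span O {y | ∃ c ∈ maximalIdeal O, ∃ u ∈ N, y = c • u} ⊔
        Submodule.span O {y | ∃ g, ∃ u ∈ N, y = act g u - u}).comap (LinearMap.inr O _ _) := by
      refine sup_le (Submodule.span_le.mpr ?_) (Submodule.span_le.mpr ?_)
      · rintro _ ⟨c, hc, x, hx, rfl⟩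
        refine Submodule.mem_sup_left (Submodule.subset_span ⟨c, hc, LinearMap.inr O _ _ x,
          ⟨zero_mem _, hx⟩, ?_⟩)
        rw [map_smul]
      · rintro _ ⟨g, x, hx, rfl⟩
        refine Submodule.mem_sup_right (Submodule.subset_span ⟨g, LinearMap.inr O _ _ x,
          ⟨zero_mem _, hx⟩, ?_⟩)
        refine Prod.ext ?_ ?_
        · change (0 : HM (GamH M H) O) = diaQ O M H O g 0 - 0
          rw [map_zero, sub_zero]
        · rfl
    exact add_mem (h3 h1) (h4 h2)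
  obtain ⟨z, hz, hzJ⟩ := hmain (show ((x, y) : X) ∈ N from ⟨hx, hy⟩)
  exact ⟨z, hz, congrArg Prod.fst hzJ, congrArg Prod.snd hzJ⟩

end Dual

end Fermat.Agent.H22
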