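import Fermat.Agent.H22.Transfer

set_option autoImplicit false

noncomputable section

/-! ### Transfer along injective homomorphisms with image of finite index -/

namespace Fermat.Agent.H22

open Function

section Basic

variable {K G : Type*} [Group K] [Group G] {A : Type*} [CommGroup A]

/-- The transfer (corestriction) of a homomorphism `ψ : K → A` along an injective homomorphism
`ι : K → G` with image of finite index. -/
def tr (ι : K →* G) (hι : Injective ι) [ι.range.FiniteIndex] (ψ : K →* A) : G →* A :=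
  MonoidHom.transfer (ψ.comp (MonoidHom.ofInjective hι).symm.toMonoidHom)

variable (ι : K →* G) (hι : Injective ι) [ι.range.FiniteIndex]

theorem tr_automorphy_out [Fintype (G ⧸ ι.range)] (ψ : K →* A) {X Y : Type*} [MulAction G X]
    [CommMonoid Y] (j : A →* Y) (u : X → Y) (hu : ∀ (k : K) (x : X), u (ι k • x) = j (ψ k) * u x)
    (g : G) (x : X) :
    ∏ q : G ⧸ ι.range, u ((q.out)⁻¹ • g • x) =
      j (tr ι hι ψ g) * ∏ q : G ⧸ ι.range, u ((q.out)⁻¹ • x) := by
  refine transfer_automorphy (ψ.comp (MonoidHom.ofInjective hι).symm.toMonoidHom) j u ?_ g x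
  rintro ⟨_, k, rfl⟩ x
  have h1 : (MonoidHom.ofInjective hι).symm ⟨ι k, ⟨k, rfl⟩⟩ = k := by
    rw [MulEquiv.symm_apply_eq]
    rfl
  change u (ι k • x) = j (ψ ((MonoidHom.ofInjective hι).symm ⟨ι k, ⟨k, rfl⟩⟩)) * u x
  rw [h1]
  exact hu k x

omit [ι.range.FiniteIndex] in
/-- Change of representatives. -/
theorem exists_const_of_reps {J J' : Type*} [Fintype J] [Fintype J'] (r : J → G) (r' : J' → G)
    (hr : Bijective fun i => (r i : G ⧸ ι.range)) (hr' : Bijective fun i => (r' i : G ⧸ ι.range))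
    (ψ : K →* A) {X Y : Type*} [MulAction G X] [CommMonoid Y] (j : A →* Y) (u : X → Y)
    (hu : ∀ (k : K) (x : X), u (ι k • x) = j (ψ k) * u x) :
    ∃ C : A, ∀ x, ∏ i, u ((r i)⁻¹ • x) = j C * ∏ i, u ((r' i)⁻¹ • x) := by
  classical
  let e : J ≃ J' := (Equiv.ofBijective _ hr).trans (Equiv.ofBijective _ hr').symm
  have he : ∀ i, (r' (e i) : G ⧸ ι.range) = r i := by
    intro i
    exact (Equiv.ofBijective _ hr').apply_symm_apply (Equiv.ofBijective _ hr i)
  have h1 : ∀ i, ∃ k : K, ι k = (r i)⁻¹ * r' (e i) := by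
    intro i
    have h2 := QuotientGroup.eq.mp (he i).symm
    exact h2
  choose k hk using h1
  refine ⟨∏ i, ψ (k i), fun x => ?_⟩
  rw [map_prod, ← Fintype.prod_equiv e (fun i => u ((r' (e i))⁻¹ • x)) _ (fun _ => rfl),
    ← Finset.prod_mul_distrib]
  refine Finset.prod_congr rfl fun i _ => ?_
  rw [← hu, hk, smul_smul]
  congr 1
  group

/-- **Characterisation of the transfer** by automorphy factors, for any system of
representatives. -/
theorem tr_automorphy (ψ : K →* A) {J : Type*} [Fintype J] (r : J → G)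
    (hr : Bijective fun i => (r i : G ⧸ ι.range)) {X Y : Type*} [MulAction G X]
    [CommMonoid Y] (j : A →* Y) (u : X → Y) (hu : ∀ (k : K) (x : X), u (ι k • x) = j (ψ k) * u x)
    (g : G) (x : X) :
    ∏ i, u ((r i)⁻¹ • g • x) = j (tr ι hι ψ g) * ∏ i, u ((r i)⁻¹ • x) := by
  have : Fintype (G ⧸ ι.range) := ι.range.fintypeQuotientOfFiniteIndex
  obtain ⟨C, hC⟩ := exists_const_of_reps ι r (fun q : G ⧸ ι.range => q.out) hr
    (by simp) ψ j u hu
  rw [hC, hC, tr_automorphy_out ι hι ψ j u hu, mul_left_comm]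

/-- Given an injective homomorphism `ι : K → G` every homomorphism `ψ : K → A` is the automorphy
factor of some function on `G`. -/
theorem exists_auto (ι : K →* G) (hι : Injective ι) (ψ : K →* A) :
    ∃ u : G → A, ∀ (k : K) (x : G), u (ι k • x) = MonoidHom.id A (ψ k) * u x := by
  classical
  let r : G → G := fun x =>
    (Quotient.out (Quotient.mk (QuotientGroup.rightRel ι.range) x))
  have hr : ∀ x, x * (r x)⁻¹ ∈ ι.range := by
    intro x
    have h := Quotient.mk_out (s := QuotientGroup.rightRel ι.range) x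
    exact QuotientGroup.rightRel_apply.mp h
  have hr' : ∀ g x, r (ι g * x) = r x := by
    intro g x
    simp only [r]
    congr 1
    apply Quotient.sound
    refine QuotientGroup.rightRel_apply.mpr ?_
    rw [mul_inv_rev, ← mul_assoc, mul_inv_cancel, one_mul]
    exact ι.range.inv_mem ⟨g, rfl⟩
  choose γ hγ using hr
  refine ⟨fun x => ψ (γ x), fun g x => ?_⟩
  change ψ (γ (ι g * x)) = ψ g * ψ (γ x)
  rw [← map_mul]
  congr 1
  apply hι
  rw [hγ, hr', map_mul, hγ, mul_assoc]

theorem tr_mul (ψ ψ' : K →* A) : tr ι hι (ψ * ψ') = tr ι hι ψ * tr ι hι ψ' := by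
  have : Fintype (G ⧸ ι.range) := ι.range.fintypeQuotientOfFiniteIndex
  exact MonoidHom.ext fun g =>
    transfer_mul (ψ.comp (MonoidHom.ofInjective hι).symm.toMonoidHom)
      (ψ'.comp (MonoidHom.ofInjective hι).symm.toMonoidHom) g

theorem tr_one : tr ι hι (1 : K →* A) = 1 := by
  have h := tr_mul ι hι (1 : K →* A) 1
  rw [one_mul] at h
  exact mul_eq_left.mp h.symm

theorem tr_comp {B : Type*} [CommGroup B] (f : A →* B) (ψ : K →* A) :
    tr ι hι (f.comp ψ) = f.comp (tr ι hι ψ) := by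
  have : Fintype (G ⧸ ι.range) := ι.range.fintypeQuotientOfFiniteIndex
  exact MonoidHom.ext fun g =>
    transfer_comp f (ψ.comp (MonoidHom.ofInjective hι).symm.toMonoidHom) g

/-- If `ψ` kills all elements `k` with `ι k` conjugate to a power of `g`, then the transfer of `ψ`
kills `g`. -/
theorem tr_apply_eq_one (ψ : K →* A) (g : G)
    (h : ∀ (n : ℕ) (r : G) (k : K), ι k = r⁻¹ * g ^ n * r → ψ k = 1) : tr ι hι ψ g = 1 := by
  classical
  have : Fintype (Quotient (MulAction.orbitRel (Subgroup.zpowers g) (G ⧸ ι.range))) :=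
    Fintype.ofFinite _
  rw [tr, MonoidHom.transfer_eq_prod_quotient_orbitRel_zpowers_quot]
  refine Finset.prod_eq_one fun q _ => ?_
  refine h (Function.minimalPeriod (g • ·) q.out) (Quotient.out (Quotient.out q)) _ ?_
  exact congrArg Subtype.val ((MonoidHom.ofInjective hι).apply_symm_apply _)

end Basic

section Funct

variable {K H G : Type*} [Group K] [Group H] [Group G] {A : Type*} [CommGroup A]

/-- Bijectivity of products of representatives. -/
theorem bijective_reps_comp (ι₁ : K →* H) (ι₂ : H →* G) (h₂ : Injective ι₂)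
    {J J' : Type*} (r : J → H) (s : J' → G)
    (hr : Bijective fun i => (r i : H ⧸ ι₁.range))
    (hs : Bijective fun i => (s i : G ⧸ ι₂.range)) :
    Bijective fun p : J' × J => ((s p.1 * ι₂ (r p.2) : G) : G ⧸ (ι₂.comp ι₁).range) := by
  constructor
  · rintro ⟨a, b⟩ ⟨a', b'⟩ h
    obtain ⟨k, hk⟩ := QuotientGroup.eq.mp h
    simp only at hk
    have h1 : (s a : G ⧸ ι₂.range) = s a' := by
      rw [QuotientGroup.eq]
      refine ⟨r b * ι₁ k * (r b')⁻¹, ?_⟩
      rw [map_mul, map_mul, map_inv]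
      rw [MonoidHom.comp_apply] at hk
      rw [hk]
      group
    have h2 : a = a' := hs.1 h1
    subst h2
    have h3 : (r b : H ⧸ ι₁.range) = r b' := by
      rw [QuotientGroup.eq]
      refine ⟨k, h₂ ?_⟩
      rw [MonoidHom.comp_apply] at hk
      rw [hk, map_mul, map_inv]
      group
    rw [hr.1 h3]
  · intro q
    induction q using QuotientGroup.induction_on with
    | H g =>
      obtain ⟨a, ha⟩ := hs.2 (g : G ⧸ ι₂.range)
      obtain ⟨h, hh⟩ := QuotientGroup.eq.mp ha
      obtain ⟨b, hb⟩ := hr.2 (h : H ⧸ ι₁.range)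
      obtain ⟨k, hk⟩ := QuotientGroup.eq.mp hb
      refine ⟨(a, b), ?_⟩
      simp only
      rw [QuotientGroup.eq]
      refine ⟨k, ?_⟩
      rw [MonoidHom.comp_apply, hk, map_mul, map_inv, hh]
      group

/-- The composite of two inclusions of finite index has finite index. -/
theorem finiteIndex_comp (ι₁ : K →* H) (ι₂ : H →* G) (h₂ : Injective ι₂)
    [ι₁.range.FiniteIndex] [ι₂.range.FiniteIndex] : (ι₂.comp ι₁).range.FiniteIndex := by
  have : Fintype (G ⧸ ι₂.range) := ι₂.range.fintypeQuotientOfFiniteIndex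
  have : Fintype (H ⧸ ι₁.range) := ι₁.range.fintypeQuotientOfFiniteIndex
  have h := bijective_reps_comp ι₁ ι₂ h₂ (fun q : H ⧸ ι₁.range => q.out)
    (fun q : G ⧸ ι₂.range => q.out) (by simp)
    (by simp)
  have : Finite (G ⧸ (ι₂.comp ι₁).range) := Finite.of_surjective _ h.2
  exact Subgroup.finiteIndex_of_finite_quotient

/-- **Transitivity of the transfer**. -/
theorem tr_tr (ι₁ : K →* H) (ι₂ : H →* G) (ι : K →* G) (hcomp : ∀ k, ι k = ι₂ (ι₁ k))
    (h₁ : Injective ι₁) (h₂ : Injective ι₂)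
    (h : Injective ι) [ι₁.range.FiniteIndex] [ι₂.range.FiniteIndex]
    [ι.range.FiniteIndex] (ψ : K →* A) :
    tr ι₂ h₂ (tr ι₁ h₁ ψ) = tr ι h ψ := by
  obtain rfl : ι = ι₂.comp ι₁ := MonoidHom.ext hcomp
  have : Fintype (G ⧸ ι₂.range) := ι₂.range.fintypeQuotientOfFiniteIndex
  have : Fintype (H ⧸ ι₁.range) := ι₁.range.fintypeQuotientOfFiniteIndex
  obtain ⟨u, hu⟩ := exists_auto (ι₂.comp ι₁) h ψ
  let _ : MulAction H G := MulAction.compHom G ι₂
  have hsmul : ∀ (y : H) (x : G), y • x = ι₂ y * x := fun _ _ => rfl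
  let v : G → A := fun x => ∏ q : H ⧸ ι₁.range, u ((ι₂ q.out)⁻¹ * x)
  have hv : ∀ (y : H) (x : G), v (ι₂ y • x) = MonoidHom.id A (tr ι₁ h₁ ψ y) * v x := by
    intro y x
    have h3 := tr_automorphy_out ι₁ h₁ ψ (MonoidHom.id A) (X := G) u
      (fun k x => hu k x) y x
    simp only [hsmul, map_inv] at h3
    exact h3
  have hb := bijective_reps_comp ι₁ ι₂ h₂ (fun q : H ⧸ ι₁.range => q.out)
    (fun q : G ⧸ ι₂.range => q.out) (by simp)
    (by simp)
  ext g
  have e1 := tr_automorphy (ι₂.comp ι₁) h ψ _ hb (MonoidHom.id A) u hu g 1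
  have e2 := tr_automorphy_out ι₂ h₂ (tr ι₁ h₁ ψ) (MonoidHom.id A) v hv g 1
  have e3 : ∀ x : G, ∏ p : (G ⧸ ι₂.range) × (H ⧸ ι₁.range), u ((p.1.out * ι₂ p.2.out)⁻¹ • x) =
      ∏ q : G ⧸ ι₂.range, v (q.out⁻¹ • x) := by
    intro x
    rw [Fintype.prod_prod_type]
    refine Finset.prod_congr rfl fun a _ => Finset.prod_congr rfl fun b _ => ?_
    congr 1
    simp only [smul_eq_mul]
    group
  rw [e3, e3, e2] at e1
  exact mul_right_cancel e1

variable {K' G' : Type*} [Group K'] [Group G']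

/-- **Base change for the transfer**. -/
theorem tr_comap (ι : K →* G) (hι : Injective ι) [ι.range.FiniteIndex]
    (ι' : K' →* G') (hι' : Injective ι') [ι'.range.FiniteIndex]
    (f : G' →* G) (f' : K' →* K) (hcomm : ∀ k, f (ι' k) = ι (f' k))
    (hinj : ∀ g' k, f g' = ι k → ∃ k', ι' k' = g')
    (hsurj : ∀ g, ∃ g' k, g = f g' * ι k) (ψ : K →* A) :
    (tr ι hι ψ).comp f = tr ι' hι' (ψ.comp f') := by
  have : Fintype (G ⧸ ι.range) := ι.range.fintypeQuotientOfFiniteIndex
  have : Fintype (G' ⧸ ι'.range) := ι'.range.fintypeQuotientOfFiniteIndex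
  obtain ⟨u, hu⟩ := exists_auto ι hι ψ
  have hb : Bijective fun q : G' ⧸ ι'.range => ((f q.out : G) : G ⧸ ι.range) := by
    constructor
    · intro p q hpq
      obtain ⟨k, hk⟩ := QuotientGroup.eq.mp hpq
      obtain ⟨k', hk'⟩ := hinj (p.out⁻¹ * q.out) k (by rw [map_mul, map_inv, hk])
      rw [← QuotientGroup.out_eq' p, ← QuotientGroup.out_eq' q, QuotientGroup.eq]
      exact ⟨k', hk'⟩
    · intro q
      induction q using QuotientGroup.induction_on with
      | H g =>
        obtain ⟨g', k, rfl⟩ := hsurj g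
        refine ⟨g', ?_⟩
        simp only
        obtain ⟨k', hk'⟩ := QuotientGroup.mk_out_eq_mul ι'.range g'
        rw [QuotientGroup.eq, hk']
        obtain ⟨m, hm⟩ := k'.2
        refine ⟨(f' m)⁻¹ * k, ?_⟩
        rw [map_mul, map_inv, ← hcomm, hm, map_mul]
        group
  let _ : MulAction G' G := MulAction.compHom G f
  have hsmul : ∀ (y : G') (x : G), y • x = f y * x := fun _ _ => rfl
  ext g'
  have e1 := tr_automorphy ι hι ψ _ hb (MonoidHom.id A) u hu (f g') 1
  have e2 := tr_automorphy_out ι' hι' (ψ.comp f') (MonoidHom.id A) (X := G) u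
    (fun k x => by
      rw [hsmul, hcomm, MonoidHom.comp_apply]
      exact hu (f' k) x) g' 1
  simp only [hsmul, map_inv] at e2
  simp only [smul_eq_mul] at e1
  rw [e1] at e2
  exact mul_right_cancel e2

end Funct

end Fermat.Agent.H22
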