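import Mathlib

set_option autoImplicit false

noncomputable section

namespace Fermat.Agent.H22

open Subgroup MonoidHom

section Transfer

variable {G : Type*} [Group G] {H : Subgroup G} [H.FiniteIndex] {A : Type*} [CommGroup A]

/-- Explicit formula for the transfer with the canonical representatives `Quotient.out`. -/
theorem transfer_eq_prod_out [inst : Fintype (G ⧸ H)] (ϕ : H →* A) (g : G)
    (hmem : ∀ q : G ⧸ H, (q.out)⁻¹ * g * (g⁻¹ • q).out ∈ H) :
    transfer ϕ g = ∏ q : G ⧸ H, ϕ ⟨(q.out)⁻¹ * g * (g⁻¹ • q).out, hmem q⟩ := by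
  classical
  have hinst : H.fintypeQuotientOfFiniteIndex = inst := Subsingleton.elim _ _
  let T : H.LeftTransversal := default
  have hT : ∀ q : G ⧸ H, ((T.2.leftQuotientEquiv q : T.1) : G) = q.out := fun q =>
    IsComplement.leftQuotientEquiv_apply (f := Quotient.out) Quotient.out_eq' q
  rw [transfer_def ϕ T g]
  unfold leftTransversals.diff
  rw [hinst]
  refine Fintype.prod_equiv (Equiv.refl _) _ _ fun q => ?_
  congr 1
  apply Subtype.ext
  simp only [Equiv.refl_apply, hT, Subgroup.smul_apply_eq_smul_apply_inv_smul, smul_eq_mul]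
  group

omit [H.FiniteIndex] in
theorem out_mem (g : G) (q : G ⧸ H) : (q.out)⁻¹ * g * (g⁻¹ • q).out ∈ H := by
  have h1 : ((g * (g⁻¹ • q).out : G) : G ⧸ H) = q := by
    rw [← smul_eq_mul, ← MulAction.Quotient.smul_coe, QuotientGroup.out_eq', smul_inv_smul]
  rw [mul_assoc]
  apply QuotientGroup.leftRel_apply.mp
  apply Quotient.exact'
  exact (QuotientGroup.out_eq' q).trans h1.symm

/-- Transfer of automorphy factors: if `u (h x) = ϕ(h) u(x)` for `h ∈ H`, then the "norm"
`x ↦ ∏_{q ∈ G/H} u(q⁻¹ x)` has automorphy factor `transfer ϕ`. -/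
theorem transfer_automorphy [Fintype (G ⧸ H)] (ϕ : H →* A) {X Y : Type*} [MulAction G X]
    [CommMonoid Y] (j : A →* Y) (u : X → Y) (hu : ∀ (h : H) (x : X), u ((h : G) • x) = j (ϕ h) * u x)
    (g : G) (x : X) :
    ∏ q : G ⧸ H, u ((q.out)⁻¹ • g • x) =
      j (transfer ϕ g) * ∏ q : G ⧸ H, u ((q.out)⁻¹ • x) := by
  classical
  rw [transfer_eq_prod_out ϕ g (out_mem g), map_prod]
  have h1 : ∏ q : G ⧸ H, u ((q.out)⁻¹ • x) = ∏ q : G ⧸ H, u (((g⁻¹ • q).out)⁻¹ • x) :=
    (Fintype.prod_equiv (MulAction.toPerm g⁻¹) _ _ fun q => rfl).symm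
  rw [h1, ← Finset.prod_mul_distrib]
  refine Finset.prod_congr rfl fun q _ => ?_
  rw [← hu ⟨_, out_mem g q⟩]
  congr 1
  simp only [smul_smul]
  congr 1
  group

theorem transfer_mul [Fintype (G ⧸ H)] (ϕ ψ : H →* A) (g : G) :
    transfer (ϕ * ψ) g = transfer ϕ g * transfer ψ g := by
  rw [transfer_eq_prod_out _ g (out_mem g), transfer_eq_prod_out _ g (out_mem g),
    transfer_eq_prod_out _ g (out_mem g), ← Finset.prod_mul_distrib]
  rfl

theorem transfer_comp [Fintype (G ⧸ H)] {B : Type*} [CommGroup B] (f : A →* B) (ϕ : H →* A)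
    (g : G) : transfer (f.comp ϕ) g = f (transfer ϕ g) := by
  rw [transfer_eq_prod_out _ g (out_mem g), transfer_eq_prod_out _ g (out_mem g), map_prod]
  rfl

end Transfer

end Fermat.Agent.H22
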