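import Fermat.Agent.H22.Germ
import Fermat.Agent.H22.SA

/-!
# Twisting germs of homomorphisms by Dirichlet characters
-/

set_option autoImplicit false

noncomputable section

namespace Fermat.Agent.H22

open Matrix.SpecialLinearGroup CongruenceSubgroup
open Fermat.Agent.TC
open scoped MatrixGroups

/-- An element of `SL(2, ℤ)` with given entries. -/
def sl (a b c d : ℤ) (h : a * d - b * c = 1) : SL(2, ℤ) :=
  ⟨!![a, b; c, d], by rw [Matrix.det_fin_two_of]; exact h⟩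

section sl

variable {a b c d : ℤ} {h : a * d - b * c = 1}

theorem sl_00 : sl a b c d h 0 0 = a := rfl
theorem sl_01 : sl a b c d h 0 1 = b := rfl
theorem sl_10 : sl a b c d h 1 0 = c := rfl
theorem sl_11 : sl a b c d h 1 1 = d := rfl

theorem emb_sl : (emb (sl a b c d h) : GG).val = !![(a : ℚ), b; c, d] := by
  rw [emb_val]; rfl

theorem sl_mem_Gamma0 {N : ℕ} (hc : (N : ℤ) ∣ c) : sl a b c d h ∈ Gamma0 N := by
  rw [Gamma0_mem]
  exact (ZMod.intCast_zmod_eq_zero_iff_dvd c N).mpr hc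

end sl

theorem sl_eta (γ : SL(2, ℤ)) : γ = sl (γ 0 0) (γ 0 1) (γ 1 0) (γ 1 1) (det_eq γ) := by
  ext i j
  fin_cases i <;> fin_cases j <;> rfl

theorem dvd_of_mem_Gamma0' {N : ℕ} {γ : SL(2, ℤ)} (h : γ ∈ Gamma0 N) : (N : ℤ) ∣ γ 1 0 := by
  rw [Gamma0_mem] at h
  exact (ZMod.intCast_zmod_eq_zero_iff_dvd _ N).mp h

/-- The matrix `(1 u/Q; 0 1)`. -/
def tq (Q : ℕ) (u : ℤ) : GG :=
  Matrix.GeneralLinearGroup.mkOfDetNeZero !![1, (u : ℚ) / Q; 0, 1] (by simp)

theorem tq_val (Q : ℕ) (u : ℤ) : (tq Q u).val = !![1, (u : ℚ) / Q; 0, 1] := rfl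

theorem tq_add (Q : ℕ) (u v : ℤ) : tq Q (u + v) = tq Q u * tq Q v := by
  apply Units.ext
  rw [Units.val_mul, tq_val, tq_val, tq_val, Matrix.mul_fin_two]
  congr 1
  push_cast
  simp [add_div, add_comm]

theorem tq_zero (Q : ℕ) : tq Q 0 = 1 := by
  apply Units.ext
  rw [tq_val, Units.val_one]
  simp [Matrix.one_fin_two]

theorem tq_mul (Q : ℕ) (hQ : Q ≠ 0) (k : ℤ) : tq Q (Q * k) = emb (sl 1 k 0 1 (by ring)) := by
  apply Units.ext
  rw [tq_val, emb_sl]
  have : (Q : ℚ) ≠ 0 := by exact_mod_cast hQ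
  push_cast
  rw [mul_div_cancel_left₀ _ this]

/-- The matrix `diag(q, q⁻¹)`. -/
def dq (q : ℕ) [NeZero q] : GG :=
  Matrix.GeneralLinearGroup.mkOfDetNeZero !![(q : ℚ), 0; 0, (q : ℚ)⁻¹] (by
    simp [NeZero.ne q])

theorem dq_val (q : ℕ) [NeZero q] : (dq q).val = !![(q : ℚ), 0; 0, (q : ℚ)⁻¹] := rfl

section Twist

variable {K : Type*} [CommRing K]

/-- Semi-invariance under `Γ₀(N)`. -/
def SI (N : ℕ) (χ : ℤ → K) (v : HG K) : Prop :=
  ∀ γ ∈ Gamma0 N, act K (emb γ) v = χ (γ 1 1) • v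

/-- Invariance under translations. -/
def TI (v : HG K) : Prop := ∀ k : ℤ, act K (emb (sl 1 k 0 1 (by ring))) v = v

theorem SI.toTI {N : ℕ} {χ : ℤ → K} {v : HG K} (h : SI N χ v) (h1 : χ 1 = 1) : TI v := fun k => by
  rw [h _ (sl_mem_Gamma0 (dvd_zero _)), sl_11, h1, one_smul]

theorem TI.congr {v : HG K} (h : TI v) (Q : ℕ) (hQ : Q ≠ 0) {u u' : ℤ}
    (huu' : (u : ZMod Q) = (u' : ZMod Q)) : act K (tq Q u) v = act K (tq Q u') v := by
  rw [ZMod.intCast_eq_intCast_iff_dvd_sub] at huu'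
  obtain ⟨k, hk⟩ := huu'
  have h1 : u' = Q * k + u := by linear_combination hk
  rw [h1, tq_add, act_mul, tq_mul Q hQ, h k]

/-- The twist of a germ. -/
def rw' (Q : ℕ) [NeZero Q] (w : MulChar (ZMod Q) K) (v : HG K) : HG K :=
  ∑ u : ZMod Q, w u • act K (tq Q u.val) v

theorem intCast_val {Q : ℕ} [NeZero Q] (u : ZMod Q) : (((u.val : ℕ) : ℤ) : ZMod Q) = u := by
  simp

/-- Reindexing the twist. -/
theorem TI.rw'_eq {v : HG K} (h : TI v) {Q : ℕ} [NeZero Q] (w : MulChar (ZMod Q) K)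
    (f : ZMod Q → ℤ) (hf : ∀ u, (f u : ZMod Q) = u) :
    rw' Q w v = ∑ u : ZMod Q, w u • act K (tq Q (f u)) v := by
  unfold rw'
  refine Finset.sum_congr rfl fun u _ => ?_
  rw [h.congr Q (NeZero.ne Q) (u' := f u)]
  rw [hf, intCast_val]

theorem intCast_sq_mul_eq {γ : SL(2, ℤ)} {Q : ℕ} (h : (Q : ℤ) ∣ γ 1 0) :
    ((γ 0 0 : ℤ) : ZMod Q) * ((γ 1 1 : ℤ) : ZMod Q) = 1 := by
  have h1 := congrArg (fun n : ℤ => (n : ZMod Q)) (det_eq γ)
  have h2 : ((γ 1 0 : ℤ) : ZMod Q) = 0 := (ZMod.intCast_zmod_eq_zero_iff_dvd _ _).mpr h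
  push_cast at h1
  rw [h2, mul_zero, sub_zero] at h1
  exact h1

/-- **Level of the twist.** -/
theorem SI.twist {Q N : ℕ} [NeZero Q] (hQN : Q ∣ N) (w : MulChar (ZMod Q) K) (χ : ℤ → K)
    (hχ : ∀ d d' : ℤ, (N : ℤ) ∣ d - d' → χ d = χ d') (hχ1 : χ 1 = 1) {v : HG K}
    (hv : SI N (fun d => w (d : ZMod Q) ^ 2 * χ d) v) : SI (N * Q) χ (rw' Q w v) := by
  have hQ0 : (Q : ℚ) ≠ 0 := by exact_mod_cast NeZero.ne Q
  have hTI : TI v := hv.toTI (by simp [hχ1])
  obtain ⟨n0, hn0⟩ := hQN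
  intro γ hγ
  obtain ⟨c', hc'⟩ := dvd_of_mem_Gamma0' hγ
  have hdet := det_eq γ
  have hQc : (Q : ℤ) ∣ γ 1 0 := ⟨N * c', by rw [hc']; push_cast; ring⟩
  have had := intCast_sq_mul_eq hQc
  obtain ⟨a, ha⟩ : ∃ a, a = γ 0 0 := ⟨_, rfl⟩
  obtain ⟨b, hb⟩ : ∃ b, b = γ 0 1 := ⟨_, rfl⟩
  obtain ⟨d, hd⟩ : ∃ d, d = γ 1 1 := ⟨_, rfl⟩
  rw [← ha, ← hb, ← hd, hc'] at hdet
  rw [← ha, ← hd] at had
  rw [← hd]
  have key : ∀ u : ℤ, act K (emb γ) (act K (tq Q u) v) =
      (w (d : ZMod Q) ^ 2 * χ d) • act K (tq Q (u * d ^ 2)) v := by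
    intro u
    let δ : SL(2, ℤ) := sl (a + u * (N * c'))
      (b - u * d * b * (N * c') - u ^ 2 * (n0 * c') * d ^ 2) (N * Q * c')
      (d - (N * c') * (u * d ^ 2)) (by
        have hN : (N : ℤ) = Q * n0 := by exact_mod_cast hn0
        push_cast at hdet
        linear_combination (1 - u * (N * c') * d) * hdet +
          (- (N : ℤ) * u ^ 2 * c' ^ 2 * d ^ 2) * hN)
    have hδ : tq Q u * emb γ = emb δ * tq Q (u * d ^ 2) := by
      apply Units.ext
      rw [Units.val_mul, Units.val_mul, tq_val, tq_val, emb_sl, emb_val, ← ha, ← hb, ← hd, hc',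
        Matrix.mul_fin_two, Matrix.mul_fin_two]
      have hNq : (N : ℚ) = Q * n0 := by exact_mod_cast hn0
      have hdetq : (a : ℚ) * d - b * (N * Q * c') = 1 := by exact_mod_cast hdet
      ext i j
      fin_cases i <;> fin_cases j
      · simp only [Matrix.of_apply, Matrix.cons_val', Matrix.cons_val_zero, Matrix.empty_val',
          Matrix.cons_val_fin_one, Fin.zero_eta]
        push_cast
        field_simp
        ring
      · simp only [Matrix.of_apply, Matrix.cons_val', Matrix.cons_val_zero, Matrix.empty_val',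
          Matrix.cons_val_fin_one, Fin.zero_eta, Matrix.cons_val_one, Fin.mk_one]
        push_cast
        field_simp
        linear_combination (- (u : ℚ) * d) * hdetq - (u ^ 2 * c' * d ^ 2) * hNq
      · simp only [Matrix.of_apply, Matrix.cons_val', Matrix.cons_val_zero, Matrix.empty_val',
          Matrix.cons_val_fin_one, Fin.zero_eta, Matrix.cons_val_one, Fin.mk_one]
        push_cast
        ring
      · simp only [Matrix.of_apply, Matrix.cons_val', Matrix.cons_val_zero, Matrix.empty_val',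
          Matrix.cons_val_fin_one, Fin.zero_eta, Matrix.cons_val_one, Fin.mk_one]
        push_cast
        field_simp
        ring
    have hδm : δ ∈ Gamma0 N := sl_mem_Gamma0 ⟨Q * c', by ring⟩
    have h11 : δ 1 1 = d - (N * c') * (u * d ^ 2) := sl_11
    rw [← act_mul, hδ, act_mul, hv δ hδm, map_smul, h11]
    have e1 : χ (d - (N * c') * (u * d ^ 2)) = χ d := hχ _ _ ⟨-(c' * (u * d ^ 2)), by ring⟩
    have e2 : ((d - (N * c') * (u * d ^ 2) : ℤ) : ZMod Q) = (d : ZMod Q) := by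
      rw [ZMod.intCast_eq_intCast_iff_dvd_sub]
      exact ⟨n0 * c' * (u * d ^ 2), by
        have hN : (N : ℤ) = Q * n0 := by exact_mod_cast hn0
        rw [hN]; ring⟩
    simp only [e1, e2]
  unfold rw'
  rw [map_sum]
  have e : ∀ u : ZMod Q, act K (emb γ) (w u • act K (tq Q u.val) v) =
      χ d • (w (u * (d : ZMod Q) ^ 2) • act K (tq Q ((u * (d : ZMod Q) ^ 2).val)) v) := by
    intro u
    rw [map_smul, key]
    have h1 : act K (tq Q ((u.val : ℤ) * d ^ 2)) v =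
        act K (tq Q ((u * (d : ZMod Q) ^ 2).val)) v := by
      apply hTI.congr Q (NeZero.ne Q)
      rw [intCast_val]
      push_cast
      simp
    rw [h1, smul_smul, smul_smul, map_mul, map_pow]
    congr 1
    ring
  rw [Finset.sum_congr rfl fun u _ => e u, ← Finset.smul_sum]
  congr 1
  have hu : IsUnit ((d : ZMod Q) ^ 2) := (IsUnit.of_mul_eq_one_right _ had).pow 2
  exact Function.Bijective.sum_comp (hu.unit.mulRight_bijective)
    (fun u => w u • act K (tq Q u.val) v)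

/-- The operator `Σ_u (1 u/q; 0 1)`. -/
def Eq' (q : ℕ) [NeZero q] (v : HG K) : HG K := ∑ u : ZMod q, act K (tq q u.val) v

theorem Eq'_smul (q : ℕ) [NeZero q] (c : K) (v : HG K) : Eq' q (c • v) = c • Eq' q v := by
  unfold Eq'
  rw [Finset.smul_sum]
  exact Finset.sum_congr rfl fun u _ => map_smul _ _ _

theorem Eq'_sum (q : ℕ) [NeZero q] {ι : Type*} (s : Finset ι) (v : ι → HG K) :
    Eq' q (∑ i ∈ s, v i) = ∑ i ∈ s, Eq' q (v i) := by
  unfold Eq'
  rw [Finset.sum_comm]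
  exact Finset.sum_congr rfl fun u _ => map_sum _ _ _

theorem Eq'_add (q : ℕ) [NeZero q] (v v' : HG K) : Eq' q (v + v') = Eq' q v + Eq' q v' := by
  unfold Eq'
  rw [← Finset.sum_add_distrib]
  exact Finset.sum_congr rfl fun u _ => map_add _ _ _

theorem TI.Eq'_tq {v : HG K} (h : TI v) (q : ℕ) [NeZero q] (k : ℤ) :
    Eq' q (act K (tq q k) v) = Eq' q v := by
  unfold Eq'
  have e : ∀ u : ZMod q, act K (tq q u.val) (act K (tq q k) v) =
      act K (tq q ((u + (k : ZMod q)).val)) v := by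
    intro u
    rw [← act_mul, ← tq_add]
    apply h.congr q (NeZero.ne q)
    rw [intCast_val]
    push_cast
    simp [add_comm]
  rw [Finset.sum_congr rfl fun u _ => e u]
  exact Equiv.sum_comp (Equiv.addRight (k : ZMod q)) (fun u => act K (tq q u.val) v)

theorem TI.Eq'_rw' [IsDomain K] {v : HG K} (h : TI v) (q : ℕ) [NeZero q] (w : MulChar (ZMod q) K)
    (hw : w ≠ 1) : Eq' q (rw' q w v) = 0 := by
  unfold rw'
  rw [Eq'_sum]
  simp only [Eq'_smul, h.Eq'_tq]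
  rw [← Finset.sum_smul, MulChar.sum_eq_zero_of_ne_one hw, zero_smul]

end Twist

end Fermat.Agent.H22
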