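import Fermat.Agent.H22.TwistG

/-!
# Twisting and the Atkin–Lehner matrices
-/

set_option autoImplicit false

noncomputable section

namespace Fermat.Agent.H22

open Matrix.SpecialLinearGroup CongruenceSubgroup
open Fermat.Agent.TC
open scoped MatrixGroups

/-- The Atkin–Lehner type matrix `σ diag(q, q⁻¹)`. -/
def Wm (q : ℕ) [NeZero q] (σ : SL(2, ℤ)) : GG := emb σ * dq q

theorem Wm_val (q : ℕ) [NeZero q] (σ : SL(2, ℤ)) : (Wm q σ).val =
    !![(σ 0 0 : ℚ) * q, (σ 0 1 : ℚ) / q; (σ 1 0 : ℚ) * q, (σ 1 1 : ℚ) / q] := by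
  rw [Wm, Units.val_mul, emb_val, dq_val, Matrix.mul_fin_two]
  simp [div_eq_mul_inv]

theorem dvd_aux {q a b c d0 u u' : ℤ} (hdet : a * (q ^ 2 * d0) - b * c = 1)
    (h : q ∣ c ^ 2 * u * u' - 1) : q ∣ u * c * u' + b := by
  have h1 : q ∣ c * (u * c * u' + b) := by
    obtain ⟨k, hk⟩ := h
    exact ⟨k + a * q * d0, by linear_combination hk - hdet⟩
  have h2 : IsCoprime q c := by
    obtain ⟨k, hk⟩ := h
    exact ⟨-k, c * u * u', by linear_combination hk⟩
  exact h2.dvd_of_dvd_mul_left h1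

theorem tq_Wm {q M' : ℕ} [NeZero q] {σ : SL(2, ℤ)} (hc : (M' : ℤ) ∣ σ 1 0)
    (hd : (q : ℤ) ^ 2 ∣ σ 1 1) {u u' : ℤ} (h : (q : ℤ) ∣ (σ 1 0) ^ 2 * u * u' - 1) :
    ∃ γ ∈ Gamma0 (q * M'), tq q u * Wm q σ = emb γ * tq q (-u') ∧
      γ 1 1 = σ 1 0 * u' + σ 1 1 / q := by
  have hq0 : (q : ℚ) ≠ 0 := by exact_mod_cast NeZero.ne q
  obtain ⟨d0, hd0⟩ := hd
  obtain ⟨m, hm⟩ := hc
  have hdet := det_eq σ
  obtain ⟨a, ha⟩ : ∃ a, a = σ 0 0 := ⟨_, rfl⟩
  obtain ⟨b, hb⟩ : ∃ b, b = σ 0 1 := ⟨_, rfl⟩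
  obtain ⟨c, hc⟩ : ∃ c, c = σ 1 0 := ⟨_, rfl⟩
  rw [← ha, ← hb, ← hc, hd0] at hdet
  rw [← hc] at h hm
  obtain ⟨k, hk⟩ := dvd_aux hdet h
  refine ⟨sl (q * a + u * c) (a * u' + k + u * d0) (q * c) (c * u' + q * d0) ?_,
    sl_mem_Gamma0 ⟨m, by rw [hm]; push_cast; ring⟩, ?_, ?_⟩
  · linear_combination hdet + c * hk
  · apply Units.ext
    rw [Units.val_mul, Units.val_mul, tq_val, tq_val, emb_sl, Wm_val, ← ha, ← hb, ← hc, hd0,
      Matrix.mul_fin_two, Matrix.mul_fin_two]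
    have hkq : (u : ℚ) * c * u' + b = q * k := by exact_mod_cast hk
    ext i j
    fin_cases i <;> fin_cases j
    · simp
      field_simp
    · simp
      field_simp
      linear_combination hkq
    · simp
      ring
    · simp
      field_simp
      ring
  · rw [← hc, sl_11, hd0, pow_two, mul_assoc,
      Int.mul_ediv_cancel_left _ (by exact_mod_cast NeZero.ne q)]

theorem Wm_tq {q M' : ℕ} [NeZero q] {σ : SL(2, ℤ)} (hc : (M' : ℤ) ∣ σ 1 0) (u : ℤ) :
    ∃ γ ∈ Gamma0 (q * M'), Wm q σ * tq q u = emb γ * Wm q σ ∧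
      ((q * M' : ℕ) : ℤ) ∣ γ 1 1 - 1 := by
  have hq0 : (q : ℚ) ≠ 0 := by exact_mod_cast NeZero.ne q
  obtain ⟨m, hm⟩ := hc
  have hdet := det_eq σ
  obtain ⟨a, ha⟩ : ∃ a, a = σ 0 0 := ⟨_, rfl⟩
  obtain ⟨b, hb⟩ : ∃ b, b = σ 0 1 := ⟨_, rfl⟩
  obtain ⟨c, hc⟩ : ∃ c, c = σ 1 0 := ⟨_, rfl⟩
  obtain ⟨d, hd⟩ : ∃ d, d = σ 1 1 := ⟨_, rfl⟩
  rw [← ha, ← hb, ← hc, ← hd] at hdet
  rw [← hc] at hm
  refine ⟨sl (1 - a * c * (q * u)) (a ^ 2 * (q * u)) (-(c ^ 2 * (q * u))) (1 + a * c * (q * u))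
    (by ring), sl_mem_Gamma0 ⟨-(m * c * u), by rw [hm]; push_cast; ring⟩, ?_, ?_⟩
  · apply Units.ext
    rw [Units.val_mul, Units.val_mul, tq_val, emb_sl, Wm_val, ← ha, ← hb, ← hc, ← hd,
      Matrix.mul_fin_two, Matrix.mul_fin_two]
    have hdetq : (a : ℚ) * d - b * c = 1 := by exact_mod_cast hdet
    ext i j
    fin_cases i <;> fin_cases j
    · simp
      ring
    · simp
      field_simp
      linear_combination (-(a : ℚ) * u * q) * hdetq
    · simp
      ring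
    · simp
      field_simp
      linear_combination (-(c : ℚ) * u * q) * hdetq
  · rw [sl_11]
    exact ⟨a * m * u, by rw [hm]; push_cast; ring⟩

section W

variable {K : Type*} [Field K] {q M' : ℕ} [hq : Fact q.Prime]

theorem coprime_c {σ : SL(2, ℤ)} (hd : (q : ℤ) ^ 2 ∣ σ 1 1) : ((σ 1 0 : ℤ) : ZMod q) ≠ 0 := by
  intro h
  have h1 := congrArg (fun n : ℤ => (n : ZMod q)) (det_eq σ)
  have h2 : ((σ 1 1 : ℤ) : ZMod q) = 0 :=
    (ZMod.intCast_zmod_eq_zero_iff_dvd _ _).mpr ((dvd_pow_self _ two_ne_zero).trans hd)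
  push_cast at h1
  rw [h, h2] at h1
  simp at h1

/-- The translate of a twisting term by `W`. -/
theorem SI.act_tq_W {w : MulChar (ZMod q) K} {χ : ℤ → K}
    (hχ : ∀ d d' : ℤ, (M' : ℤ) ∣ d - d' → χ d = χ d') (hχ1 : χ 1 = 1) {v : HG K}
    (hv : SI (q * M') (fun d => w (d : ZMod q) ^ 2 * χ d) v) {σ : SL(2, ℤ)}
    (hc : (M' : ℤ) ∣ σ 1 0) (hd : (q : ℤ) ^ 2 ∣ σ 1 1) {u : ZMod q} (hu : u ≠ 0) :
    act K (Wm q σ) (act K (tq q u.val) v) =
      (w (((σ 1 0 : ℤ) : ZMod q) * (((σ 1 0 : ℤ) : ZMod q) ^ 2 * u)⁻¹) ^ 2 * χ (σ 1 1 / q)) •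
        act K (tq q ((-(((σ 1 0 : ℤ) : ZMod q) ^ 2 * u)⁻¹ : ZMod q)).val) v := by
  have hTI : TI v := hv.toTI (by simp [hχ1])
  have hc0 := coprime_c hd
  set c : ZMod q := ((σ 1 0 : ℤ) : ZMod q) with hcdef
  set u' : ZMod q := (c ^ 2 * u)⁻¹ with hu'
  have h1 : (q : ℤ) ∣ (σ 1 0) ^ 2 * (u.val : ℤ) * (u'.val : ℤ) - 1 := by
    rw [← ZMod.intCast_zmod_eq_zero_iff_dvd]
    push_cast
    rw [← hcdef]
    simp only [ZMod.natCast_val, ZMod.cast_id', id_eq]
    rw [hu', mul_inv_cancel₀ (mul_ne_zero (pow_ne_zero 2 hc0) hu), sub_self]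
  obtain ⟨γ, hγ, h2, h3⟩ := tq_Wm (M' := M') hc hd h1
  rw [← act_mul, h2, act_mul, hv γ hγ, map_smul]
  have h4 : ((γ 1 1 : ℤ) : ZMod q) = c * u' := by
    obtain ⟨d0, hd0⟩ := hd
    have h5 : ((σ 1 1 / q : ℤ) : ZMod q) = 0 := by
      rw [ZMod.intCast_zmod_eq_zero_iff_dvd, hd0, pow_two, mul_assoc,
        Int.mul_ediv_cancel_left _ (by exact_mod_cast NeZero.ne q)]
      exact dvd_mul_right _ _
    rw [h3, Int.cast_add, h5, add_zero]
    push_cast
    rw [← hcdef]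
    simp
  have h6 : χ (γ 1 1) = χ (σ 1 1 / q) := by
    apply hχ
    rw [h3, add_sub_cancel_right]
    exact hc.mul_right _
  simp only [h4, h6]
  congr 1
  apply hTI.congr q (NeZero.ne q)
  push_cast
  simp

/-- **The twist is an eigenvector of the Atkin–Lehner matrices.** -/
theorem SI.twist_W {w : MulChar (ZMod q) K} {v : HG K}
    (hv : SI (q * M') (fun d => w (d : ZMod q) ^ 2) v) {σ : SL(2, ℤ)} (hc : (M' : ℤ) ∣ σ 1 0)
    (hd : (q : ℤ) ^ 2 ∣ σ 1 1) :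
    act K (Wm q σ) (rw' q w v) = w (-1) • rw' q w v := by
  have hv' : SI (q * M') (fun d => w (d : ZMod q) ^ 2 * (fun _ => 1) d) v := by
    simpa using hv
  have hc0 := coprime_c hd
  unfold rw'
  rw [map_sum, Finset.smul_sum]
  have e : ∀ u : ZMod q, act K (Wm q σ) (w u • act K (tq q u.val) v) =
      w (-1) • (w (-((((σ 1 0 : ℤ) : ZMod q) ^ 2 * u)⁻¹)) •
        act K (tq q ((-(((σ 1 0 : ℤ) : ZMod q) ^ 2 * u)⁻¹ : ZMod q)).val) v) := by
    intro u
    rw [map_smul]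
    by_cases hu : u = 0
    · subst hu
      simp [MulChar.map_zero]
    · rw [hv'.act_tq_W (fun _ _ _ => rfl) rfl hc hd hu, smul_smul, smul_smul, mul_one]
      congr 1
      set c : ZMod q := ((σ 1 0 : ℤ) : ZMod q)
      have h1 : w (-1) * w (-1) = 1 := by
        rw [← map_mul]; simp
      have h2 : w u * w c ^ 2 * w (c ^ 2 * u)⁻¹ = 1 := by
        rw [← map_pow, ← map_mul, ← map_mul]
        have : u * c ^ 2 * (c ^ 2 * u)⁻¹ = 1 := by
          rw [mul_comm u, mul_inv_cancel₀ (mul_ne_zero (pow_ne_zero 2 hc0) hu)]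
        rw [this, map_one]
      have h3 : w (-(c ^ 2 * u)⁻¹) = w (-1) * w (c ^ 2 * u)⁻¹ := by
        rw [← map_mul, neg_one_mul]
      rw [h3, ← mul_assoc, h1, one_mul, map_mul]
      linear_combination (w (c ^ 2 * u)⁻¹) * h2
  rw [Finset.sum_congr rfl fun u _ => e u]
  have hbij : Function.Bijective (fun u : ZMod q => (-(((σ 1 0 : ℤ) : ZMod q) ^ 2 * u)⁻¹ : ZMod q)) := by
    have hinj : Function.Injective
        (fun u : ZMod q => (-(((σ 1 0 : ℤ) : ZMod q) ^ 2 * u)⁻¹ : ZMod q)) := by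
      intro x y hxy
      simp only [neg_inj, inv_inj] at hxy
      exact mul_left_cancel₀ (pow_ne_zero 2 hc0) hxy
    exact Finite.injective_iff_bijective.mp hinj
  exact hbij.sum_comp (fun u => w (-1) • (w u • act K (tq q u.val) v))

omit hq in
theorem exists_sigma (hqM : Nat.Coprime q M') : ∃ σ : SL(2, ℤ), (M' : ℤ) ∣ σ 1 0 ∧
    (q : ℤ) ^ 2 ∣ σ 1 1 := by
  have h : IsCoprime ((q : ℤ) ^ 2) (M' : ℤ) :=
    (Nat.isCoprime_iff_coprime.mpr hqM).pow_left
  obtain ⟨x, y, hxy⟩ := h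
  exact ⟨sl x (-y) M' (q ^ 2) (by linear_combination hxy), dvd_rfl, dvd_rfl⟩

theorem act_Wm_tq {χ : ℤ → K} {v : HG K} (hv : SI (q * M') χ v)
    (hχ : ∀ d : ℤ, ((q * M' : ℕ) : ℤ) ∣ d - 1 → χ d = 1) {σ : SL(2, ℤ)}
    (hc : (M' : ℤ) ∣ σ 1 0) (u : ℤ) :
    act K (tq q u) (act K (Wm q σ) v) = act K (Wm q σ) v := by
  obtain ⟨γ, hγ, h1, h2⟩ := Wm_tq (q := q) hc u
  rw [← act_mul, h1, act_mul, hv γ hγ, hχ _ h2, one_smul]

theorem Eq'_act_Wm {χ : ℤ → K} {v : HG K} (hv : SI (q * M') χ v)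
    (hχ : ∀ d : ℤ, ((q * M' : ℕ) : ℤ) ∣ d - 1 → χ d = 1) {σ : SL(2, ℤ)}
    (hc : (M' : ℤ) ∣ σ 1 0) :
    Eq' q (act K (Wm q σ) v) = (q : K) • act K (Wm q σ) v := by
  unfold Eq'
  rw [Finset.sum_congr rfl fun u _ => act_Wm_tq hv hχ hc _, Finset.sum_const, Finset.card_univ,
    ZMod.card]
  rw [← Nat.cast_smul_eq_nsmul K]

theorem rw'_inv_rw' {w : MulChar (ZMod q) K} (hw : w ≠ 1) {v : HG K} (hTI : TI v) :
    rw' q w⁻¹ (rw' q w v) = w (-1) • ((q : K) • v - Eq' q v) := by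
  unfold rw' Eq'
  simp only [map_sum, map_smul, Finset.smul_sum]
  have e : ∀ x y : ZMod q, w⁻¹ x • w y • act K (tq q x.val) (act K (tq q y.val) v) =
      (w y * w⁻¹ x) • act K (tq q ((y + x).val)) v := by
    intro x y
    rw [smul_smul, ← act_mul, ← tq_add, mul_comm]
    congr 1
    apply hTI.congr q (NeZero.ne q)
    push_cast
    simp
  simp only [e]
  rw [Finset.sum_comm]
  -- sum over `s = x + y`
  have e2 : ∀ y : ZMod q, ∑ x : ZMod q, (w y * w⁻¹ x) • act K (tq q ((y + x).val)) v =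
      ∑ s : ZMod q, (w y * w⁻¹ (s - y)) • act K (tq q s.val) v := by
    intro y
    rw [← Equiv.sum_comp (Equiv.addLeft y)
      (fun s => (w y * w⁻¹ (s - y)) • act K (tq q s.val) v)]
    refine Finset.sum_congr rfl fun x _ => ?_
    simp
  rw [Finset.sum_congr rfl fun y _ => e2 y, Finset.sum_comm]
  have e3 : ∀ s : ZMod q, ∑ y : ZMod q, (w y * w⁻¹ (s - y)) • act K (tq q s.val) v =
      (if s = 0 then w (-1) * ((q : K) - 1) else - w (-1)) • act K (tq q s.val) v := by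
    intro s
    rw [← Finset.sum_smul]
    congr 1
    split_ifs with hs
    · subst hs
      have : ∀ y : ZMod q, w y * w⁻¹ (0 - y) = if y = 0 then 0 else w (-1) := by
        intro y
        split_ifs with hy
        · subst hy; simp [MulChar.map_zero]
        · rw [zero_sub, show -y = (-1) * y by ring, map_mul, MulChar.inv_apply',
            MulChar.inv_apply', ← mul_assoc, mul_comm (w y), mul_assoc, ← map_mul,
            mul_inv_cancel₀ hy, map_one, mul_one]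
          congr 1
          field_simp
      rw [Finset.sum_congr rfl fun y _ => this y, Finset.sum_ite, Finset.sum_const_zero, zero_add,
        Finset.sum_const, Finset.filter_ne', Finset.card_erase_of_mem (Finset.mem_univ _),
        Finset.card_univ, ZMod.card, nsmul_eq_mul, Nat.cast_sub hq.out.one_le]
      push_cast
      ring
    · have hj := jacobiSum_nontrivial_inv (F := ZMod q) (R := K) hw
      unfold jacobiSum at hj
      rw [← hj, ← Equiv.sum_comp (Equiv.mulLeft₀ s hs) (fun y => w y * w⁻¹ (s - y))]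
      refine Finset.sum_congr rfl fun x _ => ?_
      simp only [Equiv.mulLeft₀_apply]
      rw [show s - s * x = s * (1 - x) by ring, map_mul, map_mul, MulChar.inv_apply' w s]
      have h1 : w s * w s⁻¹ = 1 := by rw [← map_mul, mul_inv_cancel₀ hs, map_one]
      linear_combination (w x * w⁻¹ (1 - x)) * h1
  rw [Finset.sum_congr rfl fun s _ => e3 s]
  have e4 : ∀ s : ZMod q, (if s = 0 then w (-1) * ((q : K) - 1) else - w (-1)) •
      act K (tq q s.val) v = (if s = 0 then (w (-1) * (q : K)) • v else 0) -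
        w (-1) • act K (tq q s.val) v := by
    intro s
    split_ifs with hs
    · subst hs
      have : act K (tq q ((0 : ZMod q).val : ℤ)) v = v := by
        simp [tq_zero, act_one]
      rw [this, ← sub_smul]
      congr 1
      ring
    · rw [neg_smul, zero_sub]
  rw [Finset.sum_congr rfl fun s _ => e4 s, Finset.sum_sub_distrib, Finset.sum_ite_eq' Finset.univ,
    if_pos (Finset.mem_univ _), smul_sub, smul_smul, Finset.smul_sum]

/-- **Non-vanishing of the twist.** -/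
theorem SI.twist_ne_zero [CharZero K] (hqM : Nat.Coprime q M') {w : MulChar (ZMod q) K}
    (hw : w ^ 2 ≠ 1) {χ : ℤ → K} (hχ : ∀ d d' : ℤ, (M' : ℤ) ∣ d - d' → χ d = χ d')
    (hχ1 : χ 1 = 1) {v : HG K} (hv : SI (q * M') (fun d => w (d : ZMod q) ^ 2 * χ d) v)
    (h0 : rw' q w v = 0) : v = 0 := by
  have hTI : TI v := hv.toTI (by simp [hχ1])
  have hw1 : w ≠ 1 := fun h => hw (by rw [h, one_pow])
  obtain ⟨σ, hc, hd⟩ := exists_sigma (q := q) (M' := M') hqM
  have hc0 := coprime_c hd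
  have hw0 : w (-1) ≠ 0 := by
    intro h
    have : w (-1) * w (-1) = 1 := by rw [← map_mul]; simp
    rw [h] at this
    simp at this
  have h1 : (q : K) • v = Eq' q v := by
    have := rw'_inv_rw' hw1 hTI
    rw [h0] at this
    have h2 : rw' q w⁻¹ (0 : HG K) = 0 := by
      unfold rw'
      simp
    rw [h2] at this
    have h3 := (smul_eq_zero.mp this.symm).resolve_left hw0
    exact sub_eq_zero.mp h3
  have hone : ∀ d : ℤ, ((q * M' : ℕ) : ℤ) ∣ d - 1 → w (d : ZMod q) ^ 2 * χ d = 1 := by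
    intro d hd
    have h2 : (d : ZMod q) = 1 := by
      have h3 : (q : ℤ) ∣ d - 1 := (by push_cast; exact dvd_mul_right _ _ :
        (q : ℤ) ∣ ((q * M' : ℕ) : ℤ)).trans hd
      rw [← ZMod.intCast_zmod_eq_zero_iff_dvd] at h3
      push_cast at h3
      exact sub_eq_zero.mp h3
    have h4 : χ d = 1 := by
      rw [← hχ1]
      exact hχ _ _ ((by push_cast; exact dvd_mul_left _ _ :
        (M' : ℤ) ∣ ((q * M' : ℕ) : ℤ)).trans hd)
    rw [h2, h4, map_one, one_pow, mul_one]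
  -- apply `W` and then `E`
  have h2 : act K (Wm q σ) (Eq' q v) = act K (Wm q σ) v + ∑ u ∈ Finset.univ.erase (0 : ZMod q),
      (w (((σ 1 0 : ℤ) : ZMod q) * (((σ 1 0 : ℤ) : ZMod q) ^ 2 * u)⁻¹) ^ 2 * χ (σ 1 1 / q)) •
        act K (tq q ((-(((σ 1 0 : ℤ) : ZMod q) ^ 2 * u)⁻¹ : ZMod q)).val) v := by
    unfold Eq'
    rw [map_sum, ← Finset.add_sum_erase _ _ (Finset.mem_univ (0 : ZMod q))]
    congr 1
    · simp [tq_zero, act_one]
    · refine Finset.sum_congr rfl fun u hu => ?_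
      exact hv.act_tq_W hχ hχ1 hc hd (Finset.ne_of_mem_erase hu)
  have h3 : Eq' q (act K (Wm q σ) (Eq' q v)) = (q : K) • act K (Wm q σ) v := by
    rw [h2, Eq'_add, Eq'_act_Wm hv hone hc, Eq'_sum]
    simp only [Eq'_smul, hTI.Eq'_tq]
    rw [← Finset.sum_smul, ← Finset.sum_mul]
    have h4 : ∑ u ∈ Finset.univ.erase (0 : ZMod q),
        w (((σ 1 0 : ℤ) : ZMod q) * (((σ 1 0 : ℤ) : ZMod q) ^ 2 * u)⁻¹) ^ 2 = 0 := by
      have h5 : ∀ u : ZMod q, w (((σ 1 0 : ℤ) : ZMod q) * (((σ 1 0 : ℤ) : ZMod q) ^ 2 * u)⁻¹) ^ 2 =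
          (w ^ 2) ((((σ 1 0 : ℤ) : ZMod q) * u)⁻¹) := by
        intro u
        rw [MulChar.pow_apply' _ two_ne_zero]
        congr 2
        by_cases hu : u = 0
        · subst hu; simp
        · field_simp
      rw [Finset.sum_congr rfl fun u _ => h5 u]
      have h6 : ∑ u ∈ Finset.univ.erase (0 : ZMod q),
          (w ^ 2) ((((σ 1 0 : ℤ) : ZMod q) * u)⁻¹) = ∑ u : ZMod q,
          (w ^ 2) ((((σ 1 0 : ℤ) : ZMod q) * u)⁻¹) := by
        rw [← Finset.add_sum_erase _ _ (Finset.mem_univ (0 : ZMod q))]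
        simp [MulChar.map_zero]
      rw [h6]
      have hbij : Function.Bijective (fun u : ZMod q => ((((σ 1 0 : ℤ) : ZMod q) * u)⁻¹)) := by
        have hinj : Function.Injective (fun u : ZMod q => ((((σ 1 0 : ℤ) : ZMod q) * u)⁻¹)) := by
          intro x y hxy
          simp only [inv_inj] at hxy
          exact mul_left_cancel₀ hc0 hxy
        exact Finite.injective_iff_bijective.mp hinj
      rw [hbij.sum_comp (fun u => (w ^ 2) u), MulChar.sum_eq_zero_of_ne_one hw]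
    rw [h4, zero_mul, zero_smul, add_zero]
  have h4 : Eq' q (act K (Wm q σ) (Eq' q v)) = (q : K) • ((q : K) • act K (Wm q σ) v) := by
    rw [← h1, map_smul, Eq'_smul, Eq'_act_Wm hv hone hc]
  have hq0 : (q : K) ≠ 0 := by exact_mod_cast hq.out.ne_zero
  have hq1 : (q : K) - 1 ≠ 0 := by
    rw [sub_ne_zero]
    exact_mod_cast hq.out.one_lt.ne'
  have h5 : ((q : K) * ((q : K) - 1)) • act K (Wm q σ) v = 0 := by
    rw [mul_smul, sub_smul, one_smul, smul_sub, ← h4, h3, sub_self]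
  have h6 := (smul_eq_zero.mp h5).resolve_left (mul_ne_zero hq0 hq1)
  exact act_injective _ (h6.trans (map_zero _).symm)

end W

end Fermat.Agent.H22
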